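/-
S14, stage 2d (helper14): transfer from intermediate fields of `ℚ̄` to abstract number fields.
Given a Selmer cocycle `b` which is non-trivial on `ker χ`, we produce abstract number fields
`K = ℚ(ζ_p) ⊆ M` with `M/ℚ` Galois, `[M:K] = p`, `M/K` unramified (inertia groups trivial) and
`Gal(K/ℚ)` acting on `Gal(M/K)` through `χ⁻¹`.  So the frozen statement follows from the
non-existence of such a pair (`NoUnramExt`), given the inertia-lifting bridge (`InertiaLifts`).
-/
import Mathlib
import Fermat.Agent.S14.KernelField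

set_option autoImplicit false

namespace Fermat.Agent.S14.NFGlue

open Fermat.Agent.S14.Cocycle Fermat.Agent.S14.KernelField ExtCitation NumberField ValuationSubring
open IntermediateField

/-- **The number-field statement** to be proved by class field theory: there is no Galois
number field `M/ℚ` containing `K = ℚ(ζ_p)` with `[M:K] = p`, all inertia groups of `M/K` trivial,
and `Gal(K/ℚ)` acting on `Gal(M/K)` through the inverse of the cyclotomic character. -/
def NoUnramExt (p : ℕ) [Fact p.Prime] : Prop :=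
  ∀ (K M : Type) [Field K] [Field M] [NumberField K] [NumberField M] [Algebra K M]
    [IsCyclotomicExtension {p} ℚ K] [IsGalois ℚ M] [IsGalois K M],
    Module.finrank K M = p →
    (∀ P : Ideal (𝓞 M), P.IsPrime → P ≠ ⊥ →
      ∀ σ : M ≃ₐ[K] M, σ ∈ P.inertia (M ≃ₐ[K] M) → σ = 1) →
    (∀ (τ : M ≃ₐ[ℚ] M) (σ : M ≃ₐ[K] M) (n : ℕ), (∀ ζ : M, ζ ^ p = 1 → τ ζ = ζ ^ n) →
      (τ * σ.restrictScalars ℚ * τ⁻¹) ^ n = σ.restrictScalars ℚ) →
    False

/-- **The bridge** (valuation subrings of `ℚ̄` versus primes of number fields): every element of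
the inertia group of a prime `P` of a finite Galois `M/ℚ` inside `ℚ̄` is the restriction of an
element of the inertia group of some valuation subring of `ℚ̄` lying over a prime number. -/
def InertiaLifts : Prop :=
  ∀ (M : IntermediateField ℚ (AlgebraicClosure ℚ)) [FiniteDimensional ℚ M] [IsGalois ℚ M]
    (P : Ideal (𝓞 M)), P.IsPrime → P ≠ ⊥ →
    ∀ g : M ≃ₐ[ℚ] M, g ∈ P.inertia (M ≃ₐ[ℚ] M) →
      ∃ (ℓ : ℕ) (A : ValuationSubring (AlgebraicClosure ℚ)) (σ : GQ),
        ℓ.Prime ∧ A.LiesOverPrime ℓ ∧ σ ∈ A.inertiaSubgroupIn ℚ ∧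
          AlgEquiv.restrictNormalHom M σ = g

variable {p : ℕ} [Fact p.Prime] {b : GQ → ZMod p}

theorem inertiaSubgroupIn_le_decompositionSubgroup (A : ValuationSubring (AlgebraicClosure ℚ)) :
    A.inertiaSubgroupIn ℚ ≤ A.decompositionSubgroup ℚ := by
  intro σ hσ
  obtain ⟨τ, -, rfl⟩ := Subgroup.mem_map.mp hσ
  exact τ.2


theorem b_pow_of_mem (hco : ∀ σ τ : GQ, b (σ * τ) = chi p τ * b σ + b τ) {x : GQ}
    (hx : chi p x = 1) (n : ℕ) : b (x ^ n) = n * b x := by
  induction n with
  | zero => simp [cocycle_one hco]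
  | succ k ih =>
    rw [pow_succ, b_mul_of_mem hco hx, ih]
    push_cast
    ring

theorem chi_pow (x : GQ) (n : ℕ) : chi p (x ^ n) = chi p x ^ n := by
  induction n with
  | zero => simp [chi_one]
  | succ k ih => rw [pow_succ, chi_mul, ih, pow_succ]

theorem exists_primitiveRoot_algebraicClosure :
    ∃ ζ : AlgebraicClosure ℚ, IsPrimitiveRoot ζ p := by
  have : NeZero p := ⟨(Fact.out : p.Prime).ne_zero⟩
  exact HasEnoughRootsOfUnity.exists_primitiveRoot (AlgebraicClosure ℚ) p

/-- Main transfer: a Selmer cocycle non-trivial on `ker χ` contradicts `NoUnramExt`. -/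
theorem false_of_isSelmer (hbridge : InertiaLifts) (h : NoUnramExt p)
    (hb : IsSelmer p b) (hne : ∃ σ : GQ, chi p σ = 1 ∧ b σ ≠ 0) : False := by
  have hp : p.Prime := Fact.out
  have hG : IsGalois ℚ (AlgebraicClosure ℚ) := isGalois_rat_algebraicClosure
  obtain ⟨ζ, hζ⟩ := exists_primitiveRoot_algebraicClosure (p := p)
  have hco := hb.cocycle
  have hop := hb.open_ker
  -- the two fields
  let K₀ : IntermediateField ℚ (AlgebraicClosure ℚ) := ℚ⟮ζ⟯
  let M₀ : IntermediateField ℚ (AlgebraicClosure ℚ) := fieldM hco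
  have hKfix : K₀.fixingSubgroup = kerChi p := (kerChi_eq_fixingSubgroup hζ).symm
  have hMfix : M₀.fixingSubgroup = kerB hco := fixingSubgroup_fieldM hco hop
  have hKM : K₀ ≤ M₀ := by
    have := fieldK_le_fieldM hco
    rwa [fixedField_kerChi hζ] at this
  have hrank : Module.finrank ℚ M₀ = p * Module.finrank ℚ K₀ := by
    have := finrank_fieldM hco hop hne
    rwa [fixedField_kerChi hζ] at this
  have : FiniteDimensional ℚ M₀ := finiteDimensional_fieldM hco hop
  have : IsGalois ℚ M₀ := isGalois_fieldM hco hop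
  have : FiniteDimensional ℚ K₀ := by
    have : IsOpen (K₀.fixingSubgroup : Set GQ) := by rw [hKfix]; exact isOpen_kerChi hco hop
    exact (InfiniteGalois.isOpen_iff_finite K₀).mp this
  have : NumberField K₀ := { to_charZero := inferInstance, to_finiteDimensional := inferInstance }
  have : NumberField M₀ := { to_charZero := inferInstance, to_finiteDimensional := inferInstance }
  let _ : Algebra K₀ M₀ := (IntermediateField.inclusion hKM).toRingHom.toAlgebra
  have : IsScalarTower ℚ K₀ M₀ := IsScalarTower.of_algebraMap_eq (fun q => by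
    apply Subtype.ext
    simp [RingHom.algebraMap_toAlgebra])
  have : IsCyclotomicExtension {p} ℚ K₀ := by
    have : NeZero p := ⟨hp.ne_zero⟩
    exact hζ.intermediateField_adjoin_isCyclotomicExtension ℚ
  have : IsGalois K₀ M₀ := IsGalois.tower_top_of_isGalois ℚ K₀ M₀
  -- restriction to `M₀` is computed pointwise
  have hres : ∀ (ρ : GQ) (x : M₀), ((AlgEquiv.restrictNormalHom M₀ ρ x : M₀) : AlgebraicClosure ℚ)
      = ρ x := fun ρ x => AlgEquiv.restrictNormal_commutes ρ M₀ x
  -- membership in `kerB` kills the restriction to `M₀`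
  have hker : ∀ ρ : GQ, ρ ∈ kerB hco → AlgEquiv.restrictNormalHom M₀ ρ = 1 := by
    intro ρ hρ
    have h1 : ρ ∈ M₀.fixingSubgroup := by rw [hMfix]; exact hρ
    rw [IntermediateField.mem_fixingSubgroup_iff] at h1
    ext x
    rw [hres]
    exact h1 x x.2
  -- a lift of a `K₀`-automorphism lies in `ker χ`
  have hlift_mem : ∀ (σ : M₀ ≃ₐ[K₀] M₀) (σ' : GQ),
      AlgEquiv.restrictNormalHom M₀ σ' = σ.restrictScalars ℚ → chi p σ' = 1 := by
    intro σ σ' hσ'
    have h1 : σ' ∈ K₀.fixingSubgroup := by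
      rw [IntermediateField.mem_fixingSubgroup_iff]
      intro x hx
      have h2 := hres σ' ⟨x, hKM hx⟩
      rw [hσ'] at h2
      have h3 : (σ.restrictScalars ℚ) ⟨x, hKM hx⟩ = ⟨x, hKM hx⟩ := by
        have := σ.commutes ⟨x, hx⟩
        exact this
      rw [h3] at h2
      exact h2.symm
    rw [hKfix] at h1
    exact h1
  refine h K₀ M₀ ?_ ?_ ?_
  · -- degree
    have h1 := Module.finrank_mul_finrank ℚ K₀ M₀
    rw [hrank, mul_comm] at h1
    have hpos : 0 < Module.finrank ℚ K₀ := Module.finrank_pos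
    exact Nat.eq_of_mul_eq_mul_right hpos h1
  · -- unramified
    intro P hP hP0 σ hσ
    have hg : σ.restrictScalars ℚ ∈ P.inertia (M₀ ≃ₐ[ℚ] M₀) := fun x => hσ x
    obtain ⟨ℓ, A, σ', hℓ, hA, hσ'I, hσ'⟩ := hbridge M₀ P hP hP0 _ hg
    have hchi : chi p σ' = 1 := hlift_mem σ σ' hσ'
    have hmem : σ' ∈ kerB hco := by
      by_cases hℓp : ℓ = p
      · subst hℓp
        obtain ⟨t, ht⟩ := hb.loc_split A hA
        have := ht σ' (inertiaSubgroupIn_le_decompositionSubgroup A hσ'I)
        rw [hchi, sub_self, zero_mul] at this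
        exact ⟨hchi, this⟩
      · exact hb.unram ℓ hℓ hℓp A hA σ' hσ'I
    have h1 := hker σ' hmem
    rw [hσ'] at h1
    exact AlgEquiv.restrictScalars_injective ℚ h1
  · -- conjugation law
    intro τ σ n hn
    obtain ⟨τ', hτ'⟩ := AlgEquiv.restrictNormalHom_surjective (F := ℚ)
      (K₁ := M₀) (AlgebraicClosure ℚ) τ
    obtain ⟨σ', hσ'⟩ := AlgEquiv.restrictNormalHom_surjective (F := ℚ)
      (K₁ := M₀) (AlgebraicClosure ℚ) (σ.restrictScalars ℚ)
    have hchiσ : chi p σ' = 1 := hlift_mem σ σ' hσ'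
    -- `n = χ(τ')` in `ZMod p`
    have hζM : ζ ∈ M₀ := hKM (IntermediateField.mem_adjoin_simple_self ℚ ζ)
    have hnχ : (n : ZMod p) = chi p τ' := by
      have h1 := hn ⟨ζ, hζM⟩ (by
        apply Subtype.ext
        simp [hζ.pow_eq_one])
      have h2 := hres τ' ⟨ζ, hζM⟩
      rw [hτ', h1] at h2
      have h3 : ζ ^ n = ζ ^ cycloExp p τ' := by
        rw [← apply_primitiveRoot hζ τ', ← h2]
        simp
      have h4 : n % p = cycloExp p τ' % p := by
        have e1 : ζ ^ (n % p) = ζ ^ n := pow_eq_pow_of_modEq (Nat.mod_modEq _ _) hζ.pow_eq_one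
        have e2 : ζ ^ (cycloExp p τ' % p) = ζ ^ cycloExp p τ' :=
          pow_eq_pow_of_modEq (Nat.mod_modEq _ _) hζ.pow_eq_one
        exact hζ.pow_inj (Nat.mod_lt _ hp.pos) (Nat.mod_lt _ hp.pos) (by rw [e1, e2, h3])
      unfold chi
      exact (ZMod.natCast_eq_natCast_iff _ _ _).mpr h4
    -- the element `ρ = (τ' σ' τ'⁻¹)^n σ'⁻¹` lies in `kerB`
    have hx : chi p (τ' * σ' * τ'⁻¹) = 1 := (kerChi_normal p).conj_mem σ' hchiσ τ'
    have hρ : (τ' * σ' * τ'⁻¹) ^ n * σ'⁻¹ ∈ kerB hco := by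
      have hinvχ : chi p σ'⁻¹ = 1 := by rw [chi_inv, hchiσ, inv_one]
      refine ⟨?_, ?_⟩
      · rw [chi_mul, chi_pow, hx, one_pow, hinvχ, mul_one]
      · rw [b_mul_of_mem hco hinvχ, b_pow_of_mem hco hx, b_conj hco hchiσ, b_inv hco, hchiσ,
          hnχ]
        have := chi_ne_zero p τ'
        field_simp
        ring
    have h1 := hker _ hρ
    rw [map_mul, map_pow, map_mul, map_mul, map_inv, map_inv, hτ', hσ'] at h1
    exact mul_inv_eq_one.mp h1

/-- **S14 from the number-field statement and the bridge.** -/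
theorem extVanishingCts_of_noUnramExt (p : ℕ) [Fact p.Prime] (hbridge : InertiaLifts)
    (h : NoUnramExt p) : ExtVanishingCts p :=
  extVanishingCts_of_no_nontrivial p (fun _ hb hne => false_of_isSelmer hbridge h hb hne)

end Fermat.Agent.S14.NFGlue
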