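/-
S14 — top-level interface (architect: helper55).

The number-theoretic core of S14 is the statement `CoreNT p`:
there is NO pair of number fields `K = ℚ(ζ_p) ⊆ M` with `M/ℚ` Galois, `[M:K] = p`, `M/K` unramified
at every finite prime, and `Δ = Gal(K/ℚ)` acting on `Gal(M/K)` through `ω⁻¹`.
The reduction block (R) produces such a pair from a nontrivial Selmer cocycle: `BridgeR p`.
-/
import Mathlib

set_option autoImplicit false

namespace Fermat.Agent.S14

open NumberField nonZeroDivisors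

/-- `L/K` (number fields) is unramified at every finite prime: every inertia group in `Gal(L/K)`
(Mathlib `Ideal.inertia`, for the action of `L ≃ₐ[K] L` on `𝓞 L`) is trivial. -/
def Unram (K L : Type*) [Field K] [NumberField K] [Field L] [NumberField L] [Algebra K L] : Prop :=
  ∀ P : Ideal (𝓞 L), P.IsPrime → P ≠ ⊥ →
    ∀ σ : L ≃ₐ[K] L, σ ∈ P.inertia (L ≃ₐ[K] L) → σ = 1

/-- `Gal(K/ℚ)` acts on `Gal(M/K)` through `ω⁻¹`: if `τ ∈ Gal(M/ℚ)` acts on a primitive `p`-th root
of unity by `ζ ↦ ζ ^ n`, then `(τ σ τ⁻¹) ^ n = σ` for every `σ ∈ Gal(M/K)`. -/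
def OmegaInvAction (p : ℕ) (K M : Type*) [Field K] [NumberField K] [Field M] [NumberField M]
    [Algebra K M] : Prop :=
  ∀ (τ : M ≃ₐ[ℚ] M) (σ : M ≃ₐ[K] M) (ζ : M) (n : ℕ), IsPrimitiveRoot ζ p → τ ζ = ζ ^ n →
    (τ * σ.restrictScalars ℚ * τ⁻¹) ^ n = σ.restrictScalars ℚ

/-- **Number-theoretic core of S14** (Herbrand–Ribet-free form of "the `ω⁻¹`-part of the class
group of `ℚ(ζ_p)` is trivial", in class-field-theoretic form). -/
def CoreNT (p : ℕ) : Prop :=
  ∀ (K M : Type) [Field K] [NumberField K] [Field M] [NumberField M] [Algebra K M]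
    [IsCyclotomicExtension {p} ℚ K] [IsGalois ℚ M] [IsGalois K M],
    Module.finrank K M = p → Unram K M → OmegaInvAction p K M → False

/-! ### Shared vocabulary for the blocks of `CoreNT` -/

section blocks

variable (K L : Type*) [Field K] [NumberField K] [Field L] [NumberField L] [Algebra K L]
  [IsGalois K L]

/-- `art` is an **Artin map** of `L/K`: a monoid hom on nonzero ideals of `𝓞 K` whose value at a
nonzero prime `v` is an arithmetic Frobenius at EVERY prime `P` of `𝓞 L` over `v`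
(`σ x ≡ x ^ N v mod P`).  For `L/K` abelian and unramified such a map exists and is unique. -/
structure IsArtinMap (art : (Ideal (𝓞 K))⁰ →* (L ≃ₐ[K] L)) : Prop where
  frob : ∀ (v : (Ideal (𝓞 K))⁰) (P : Ideal (𝓞 L)), (v : Ideal (𝓞 K)).IsPrime → P.IsPrime →
    P.LiesOver (v : Ideal (𝓞 K)) → IsArithFrobAt (𝓞 K) (art v) P

/-- The subgroup of `ClassGroup (𝓞 K)` generated by the classes of the relative norms
`N_{L/K} J` of nonzero ideals `J` of `𝓞 L`  (`= P_K · N(I_L) / P_K`). -/
noncomputable def normClasses : Subgroup (ClassGroup (𝓞 K)) :=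
  Subgroup.closure {c | ∃ (J : Ideal (𝓞 L)) (I : (Ideal (𝓞 K))⁰), J ≠ ⊥ ∧
    (I : Ideal (𝓞 K)) = Ideal.relNorm (𝓞 K) J ∧ c = ClassGroup.mk0 I}

variable {K L}

/-- **Kernel ⊆ norms** on a set `S` of ideals: two ideals in `S` with the same Artin symbol differ
by a class in `normClasses`.  (Output of the crossing argument for `M/K` with `S = univ`; over the
auxiliary fields of the crossing with `S` = ideals prime to `m`.) -/
def KernelSubNormOn (art : (Ideal (𝓞 K))⁰ →* (L ≃ₐ[K] L)) (S : Set ((Ideal (𝓞 K))⁰)) : Prop :=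
  ∀ I ∈ S, ∀ J ∈ S, art I = art J → ClassGroup.mk0 I / ClassGroup.mk0 J ∈ normClasses K L

/-- **Reciprocity for principal ideals**: the Artin symbol of every nonzero principal ideal is
trivial. -/
def PrincipalDie (art : (Ideal (𝓞 K))⁰ →* (L ≃ₐ[K] L)) : Prop :=
  ∀ I : (Ideal (𝓞 K))⁰, (I : Ideal (𝓞 K)).IsPrincipal → art I = 1

end blocks

end Fermat.Agent.S14
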