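/-
S14 — block statements of the number-theoretic core and their assembly (architect: helper55).

Every block is a closed `Prop` (quantified over the fields), so that owners can prove them in
independent files and the assembly below stays sorry-free.

  CoreNT p  ⇐  BlockD  +  BlockZ  +  BlockRecip p  +  BlockF p
  BlockRecip p  ⇐  BlockCrossing p  +  BlockFirstIneq p  +  BlockZ      (file `Recip.lean`)
-/
import Fermat.Agent.S14.Defs

set_option autoImplicit false

namespace Fermat.Agent.S14

open NumberField nonZeroDivisors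

/-- **(D)** existence of the Artin map for an unramified abelian extension. -/
def BlockD : Prop :=
  ∀ (K L : Type) [Field K] [NumberField K] [Field L] [NumberField L] [Algebra K L]
    [IsGalois K L] [IsMulCommutative (L ≃ₐ[K] L)],
    Unram K L → ∃ art : (Ideal (𝓞 K))⁰ →* (L ≃ₐ[K] L), IsArtinMap K L art

/-- **(Z)** analytic surjectivity: in a nontrivial unramified Galois extension there are
degree-one primes of arbitrarily large norm with nontrivial Artin symbol. -/
def BlockZ : Prop :=
  ∀ (K L : Type) [Field K] [NumberField K] [Field L] [NumberField L] [Algebra K L]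
    [IsGalois K L],
    2 ≤ Module.finrank K L → Unram K L →
    ∀ art : (Ideal (𝓞 K))⁰ →* (L ≃ₐ[K] L), IsArtinMap K L art →
    ∀ N : ℕ, ∃ Q : (Ideal (𝓞 K))⁰, (Q : Ideal (𝓞 K)).IsPrime ∧
      (Ideal.absNorm (Q : Ideal (𝓞 K))).Prime ∧ N < Ideal.absNorm (Q : Ideal (𝓞 K)) ∧ art Q ≠ 1

/-- **(RECIP)** Artin reciprocity for principal ideals, for the extension `M/K` of `CoreNT`. -/
def BlockRecip (p : ℕ) : Prop :=
  ∀ (K M : Type) [Field K] [NumberField K] [Field M] [NumberField M] [Algebra K M]
    [IsCyclotomicExtension {p} ℚ K] [IsGalois ℚ M] [IsGalois K M],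
    p.Prime → 3 ≤ p → Module.finrank K M = p → Unram K M → OmegaInvAction p K M →
    ∀ art : (Ideal (𝓞 K))⁰ →* (M ≃ₐ[K] M), IsArtinMap K M art → PrincipalDie art

/-- **(F)** the final Stickelberger contradiction: reciprocity + the Jacobi-sum factorisation +
`ω⁻¹`-equivariance kill the Artin symbol of every degree-one prime not above `p`. -/
def BlockF (p : ℕ) : Prop :=
  ∀ (K M : Type) [Field K] [NumberField K] [Field M] [NumberField M] [Algebra K M]
    [IsCyclotomicExtension {p} ℚ K] [IsGalois ℚ M] [IsGalois K M],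
    p.Prime → 3 ≤ p → Module.finrank K M = p → Unram K M → OmegaInvAction p K M →
    ∀ art : (Ideal (𝓞 K))⁰ →* (M ≃ₐ[K] M), IsArtinMap K M art → PrincipalDie art →
    ∀ Q : (Ideal (𝓞 K))⁰, (Q : Ideal (𝓞 K)).IsPrime →
      (Ideal.absNorm (Q : Ideal (𝓞 K))).Prime → Ideal.absNorm (Q : Ideal (𝓞 K)) ≠ p → art Q = 1

/-- **(X)** output of Artin's crossing argument: ideals with the same Artin symbol differ by a
norm class. -/
def BlockCrossing (p : ℕ) : Prop :=
  ∀ (K M : Type) [Field K] [NumberField K] [Field M] [NumberField M] [Algebra K M]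
    [IsCyclotomicExtension {p} ℚ K] [IsGalois ℚ M] [IsGalois K M],
    p.Prime → 3 ≤ p → Module.finrank K M = p → Unram K M → OmegaInvAction p K M →
    ∀ art : (Ideal (𝓞 K))⁰ →* (M ≃ₐ[K] M), IsArtinMap K M art →
      KernelSubNormOn art Set.univ

/-- **(R1)** the first (algebraic) inequality for the unramified cyclic extension `M/K`. -/
def BlockFirstIneq (p : ℕ) : Prop :=
  ∀ (K M : Type) [Field K] [NumberField K] [Field M] [NumberField M] [Algebra K M]
    [IsCyclotomicExtension {p} ℚ K] [IsGalois K M],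
    p.Prime → 3 ≤ p → Module.finrank K M = p → Unram K M → p ≤ (normClasses K M).index

/-- **(X5)** kernel ⊆ norms over an auxiliary field of the crossing: `L/F` unramified cyclic of
prime degree `p`, `F ∋ ζ_p` (so `F` is totally complex), `L ⊆ C = F(ζ_m)`; on ideals prime to `m`
the Artin symbol determines the class modulo norm classes.
(= principal ideals prime to `m` die [C1 ⇐ C4] + moving lemma + second inequality [Z2 ⇐ Z1] +
surjectivity [Z].) -/
def BlockAux : Prop :=
  ∀ (F L C : Type) [Field F] [NumberField F] [Field L] [NumberField L] [Field C] [NumberField C]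
    [Algebra F L] [Algebra F C] [Algebra L C] [IsScalarTower F L C] [IsGalois F L]
    (p m : ℕ), p.Prime → 3 ≤ p → 0 < m → IsCyclotomicExtension {m} F C →
    (∃ ζ : F, IsPrimitiveRoot ζ p) → Module.finrank F L = p → Unram F L →
    ∀ art : (Ideal (𝓞 F))⁰ →* (L ≃ₐ[F] L), IsArtinMap F L art →
      KernelSubNormOn art {I | IsCoprime (I : Ideal (𝓞 F)) (Ideal.span {(m : 𝓞 F)})}

/-- Assembly of the core. -/
theorem coreNT_of_blocks {p : ℕ} [Fact p.Prime] (h3 : 3 ≤ p) (hD : BlockD) (hZ : BlockZ)
    (hR : BlockRecip p) (hF : BlockF p) : CoreNT p := by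
  intro K M _ _ _ _ _ _ _ _ hdeg hunr homega
  have hp : p.Prime := Fact.out
  have hcard : Nat.card (M ≃ₐ[K] M) = p := by
    rw [IsGalois.card_aut_eq_finrank, hdeg]
  have : Fact (Nat.card (M ≃ₐ[K] M)).Prime := ⟨by rw [hcard]; exact hp⟩
  have : IsCyclic (M ≃ₐ[K] M) := isCyclic_of_prime_card hcard
  have : IsMulCommutative (M ≃ₐ[K] M) := ⟨⟨fun a b => IsCyclic.commGroup.mul_comm a b⟩⟩
  obtain ⟨art, hart⟩ := hD K M hunr
  obtain ⟨Q, hQp, hQn, hQlt, hQ1⟩ := hZ K M (by rw [hdeg]; exact hp.two_le) hunr art hart p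
  exact hQ1 (hF K M hp h3 hdeg hunr homega art hart (hR K M hp h3 hdeg hunr homega art hart)
    Q hQp hQn (Nat.ne_of_gt hQlt))

end Fermat.Agent.S14
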