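/-
S14 — final assembly, version 2 (architect: helper55): uses helper14's `NFGlue` reduction
(`InertiaLifts` bridge + `NoUnramExt p`) instead of the abstract `BridgeR p`.

  S14 = s14_of_blocks' h3 inertiaLifts blockD blockZ blockRecip blockF
-/
import Fermat.Agent.S14.NFGlue
import Fermat.Agent.S14.Blocks

set_option autoImplicit false

namespace Fermat.Agent.S14

open NumberField

/-- helper14's `NoUnramExt p` follows from `CoreNT p` (the two differ only in the phrasing of the
`ω⁻¹`-equivariance hypothesis). -/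
theorem noUnramExt_of_coreNT {p : ℕ} [Fact p.Prime] (h : CoreNT p) : NFGlue.NoUnramExt p := by
  intro K M _ _ _ _ _ _ _ _ hdeg hunr hconj
  refine h K M hdeg hunr ?_
  intro τ σ ζ n hζ hτ
  refine hconj τ σ n (fun ζ' hζ' => ?_)
  have hp : 0 < p := (Fact.out : p.Prime).pos
  obtain ⟨i, -, rfl⟩ := hζ.eq_pow_of_pow_eq_one hζ'
  rw [map_pow, hτ, ← pow_mul, ← pow_mul, mul_comm]

/-- **The frozen statement S14 from the bridge and the four top-level blocks of the core.** -/
theorem s14_of_blocks' {p : ℕ} [Fact p.Prime] (h3 : 3 ≤ p) (hbridge : NFGlue.InertiaLifts)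
    (hD : BlockD) (hZ : BlockZ) (hRecip : BlockRecip p) (hF : BlockF p) :
    ExtCitation.ExtVanishingCts p :=
  NFGlue.extVanishingCts_of_noUnramExt p hbridge
    (noUnramExt_of_coreNT (coreNT_of_blocks h3 hD hZ hRecip hF))

end Fermat.Agent.S14
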