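/-
S14 — general lemmas about an arbitrary Artin map `art` with `IsArtinMap K L art`, for an
unramified (`Unram K L`) Galois extension of number fields (architect: helper55).

* `IsArtinMap.eq_of_isArithFrobAt` (D-uniq): any arithmetic Frobenius at `P ∣ v` equals `art v`.
* `IsArtinMap.inertiaDeg_eq_one_of_eq_one`, `ramificationIdx_eq_one` : `art v = 1` ⇒ `v` splits
  completely.
* `IsArtinMap.ext` : the Artin map is unique.
-/
import Fermat.Agent.S14.Defs

set_option autoImplicit false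

namespace Fermat.Agent.S14

open NumberField nonZeroDivisors Polynomial

/-- A finite field all of whose elements satisfy `x ^ q = x` has at most `q` elements. -/
theorem card_le_of_forall_pow_eq {k : Type*} [Field k] [Finite k] {q : ℕ} (hq : 1 < q)
    (h : ∀ x : k, x ^ q = x) : Nat.card k ≤ q := by
  classical
  have : Fintype k := Fintype.ofFinite k
  have hne : (X ^ q - X : k[X]) ≠ 0 := FiniteField.X_pow_card_sub_X_ne_zero k hq
  have hsub : (Finset.univ : Finset k).val ⊆ (X ^ q - X : k[X]).roots := by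
    intro x _
    rw [mem_roots hne, IsRoot.def, eval_sub, eval_pow, eval_X, h x, sub_self]
  have := card_le_degree_of_subset_roots hsub
  rw [FiniteField.X_pow_card_sub_X_natDegree_eq k hq] at this
  rwa [Nat.card_eq_fintype_card, ← Finset.card_univ]

section

variable {K L : Type*} [Field K] [NumberField K] [Field L] [NumberField L] [Algebra K L]
  [IsGalois K L]

/-- A prime of `𝓞 L` lying over a nonzero ideal of `𝓞 K` is nonzero. -/
theorem ne_bot_of_liesOver_nonZeroDivisors (v : (Ideal (𝓞 K))⁰) (P : Ideal (𝓞 L))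
    (hPv : P.LiesOver (v : Ideal (𝓞 K))) : P ≠ ⊥ := by
  rintro rfl
  have h1 : (v : Ideal (𝓞 K)) = (⊥ : Ideal (𝓞 L)).under (𝓞 K) := hPv.over
  have h2 : (⊥ : Ideal (𝓞 L)).under (𝓞 K) = ⊥ := by
    rw [Ideal.under_def]
    exact Ideal.comap_bot_of_injective _ (FaithfulSMul.algebraMap_injective (𝓞 K) (𝓞 L))
  exact (mem_nonZeroDivisors_iff_ne_zero.mp v.2) (h1.trans h2)

variable {art : (Ideal (𝓞 K))⁰ →* (L ≃ₐ[K] L)}

/-- **(D-uniq)** In an unramified extension, every arithmetic Frobenius at a prime `P` over `v` is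
the Artin symbol `art v`. -/
theorem IsArtinMap.eq_of_isArithFrobAt (hart : IsArtinMap K L art) (hU : Unram K L)
    (v : (Ideal (𝓞 K))⁰) (hv : (v : Ideal (𝓞 K)).IsPrime) (P : Ideal (𝓞 L)) (hP : P.IsPrime)
    (hPv : P.LiesOver (v : Ideal (𝓞 K))) (σ : L ≃ₐ[K] L) (hσ : IsArithFrobAt (𝓞 K) σ P) :
    σ = art v := by
  have h := hσ.mul_inv_mem_inertia (hart.frob v P hv hP hPv)
  have h1 := hU P hP (ne_bot_of_liesOver_nonZeroDivisors v P hPv) _ h
  exact mul_inv_eq_one.mp h1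

/-- The Artin map of an unramified extension is unique on primes. -/
theorem IsArtinMap.eq_on_primes (hart : IsArtinMap K L art) (hU : Unram K L)
    {art' : (Ideal (𝓞 K))⁰ →* (L ≃ₐ[K] L)} (hart' : IsArtinMap K L art')
    (v : (Ideal (𝓞 K))⁰) (hv : (v : Ideal (𝓞 K)).IsPrime) : art' v = art v := by
  have hv0 : (v : Ideal (𝓞 K)) ≠ ⊥ := mem_nonZeroDivisors_iff_ne_zero.mp v.2
  have hvmax : (v : Ideal (𝓞 K)).IsMaximal := hv.isMaximal hv0
  obtain ⟨P, hPmax, hPv⟩ := Ideal.exists_maximal_ideal_liesOver_of_isIntegral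
    (S := 𝓞 L) (v : Ideal (𝓞 K))
  exact hart.eq_of_isArithFrobAt hU v hv P hPmax.isPrime hPv _
    (hart'.frob v P hv hPmax.isPrime hPv)

/-- **(D-one, ⇒, residue degree)** If `art v = 1` then every prime over `v` has residue degree
one (no unramifiedness needed). -/
theorem IsArtinMap.inertiaDeg_eq_one_of_eq_one (hart : IsArtinMap K L art)
    (v : (Ideal (𝓞 K))⁰) (hv : (v : Ideal (𝓞 K)).IsPrime) (h1 : art v = 1)
    (P : Ideal (𝓞 L)) (hP : P.IsPrime) (hPv : P.LiesOver (v : Ideal (𝓞 K))) :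
    P.inertiaDeg (𝓞 K) = 1 := by
  have hv0 : (v : Ideal (𝓞 K)) ≠ ⊥ := mem_nonZeroDivisors_iff_ne_zero.mp v.2
  have hvmax : (v : Ideal (𝓞 K)).IsMaximal := hv.isMaximal hv0
  have hP0 : P ≠ ⊥ := ne_bot_of_liesOver_nonZeroDivisors v P hPv
  have hPmax : P.IsMaximal := hP.isMaximal hP0
  have hfrob := hart.frob v P hv hP hPv
  rw [h1] at hfrob
  have hunder : P.under (𝓞 K) = (v : Ideal (𝓞 K)) := hPv.over.symm
  set q := Nat.card (𝓞 K ⧸ (v : Ideal (𝓞 K))) with hq
  have hpow : ∀ x : 𝓞 L, x - x ^ q ∈ P := by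
    intro x
    have := hfrob x
    rw [hunder] at this
    simpa using this
  let _ : Field (𝓞 L ⧸ P) := Ideal.Quotient.field P
  have : Finite (𝓞 L ⧸ P) := Ideal.finiteQuotientOfFreeOfNeBot P hP0
  have : Finite (𝓞 K ⧸ (v : Ideal (𝓞 K))) := Ideal.finiteQuotientOfFreeOfNeBot _ hv0
  have hq1 : 1 < q := by
    rw [hq]
    exact Finite.one_lt_card_iff_nontrivial.mpr (Ideal.Quotient.nontrivial_iff.mpr hvmax.ne_top)
  have hall : ∀ y : 𝓞 L ⧸ P, y ^ q = y := by
    intro y
    obtain ⟨x, rfl⟩ := Ideal.Quotient.mk_surjective y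
    rw [← map_pow, eq_comm, Ideal.Quotient.eq]
    exact hpow x
  have hcard := card_le_of_forall_pow_eq hq1 hall
  have hf' : q ^ P.inertiaDeg (𝓞 K) = Nat.card (𝓞 L ⧸ P) :=
    Ideal.cardQuot_pow_inertiaDeg (v : Ideal (𝓞 K)) P
  have hpos : 0 < P.inertiaDeg (𝓞 K) := Ideal.inertiaDeg_pos P (𝓞 K)
  by_contra hne
  have h2 : 2 ≤ P.inertiaDeg (𝓞 K) := by omega
  have h3 : q ^ 2 ≤ q ^ P.inertiaDeg (𝓞 K) := Nat.pow_le_pow_right (by omega) h2
  rw [hf'] at h3
  have : q ^ 2 ≤ q := h3.trans hcard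
  nlinarith

end

section

variable {K L : Type*} [Field K] [NumberField K] [Field L] [NumberField L] [Algebra K L]
  [IsGalois K L]

/-- `Unram K L` (inertia groups trivial) gives ramification index one at every prime. -/
theorem Unram.ramificationIdx_eq_one (hU : Unram K L) (v : Ideal (𝓞 K)) (hv : v.IsPrime)
    (hv0 : v ≠ ⊥) (P : Ideal (𝓞 L)) (hP : P.IsPrime) (hPv : P.LiesOver v) :
    P.ramificationIdx (𝓞 K) = 1 := by
  have hP0 : P ≠ ⊥ := by
    rintro rfl
    have h1 : v = (⊥ : Ideal (𝓞 L)).under (𝓞 K) := hPv.over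
    have h2 : (⊥ : Ideal (𝓞 L)).under (𝓞 K) = ⊥ := by
      rw [Ideal.under_def]
      exact Ideal.comap_bot_of_injective _ (FaithfulSMul.algebraMap_injective (𝓞 K) (𝓞 L))
    exact hv0 (h1.trans h2)
  have hvmax : v.IsMaximal := hv.isMaximal hv0
  have : Finite (𝓞 K ⧸ v) := Ideal.finiteQuotientOfFreeOfNeBot _ hv0
  have hcard := Ideal.card_inertia_eq_ramificationIdxIn (G := L ≃ₐ[K] L) v P
  have hbot : Ideal.inertia (L ≃ₐ[K] L) P = ⊥ := by
    rw [_root_.eq_bot_iff]
    intro σ hσ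
    exact Subgroup.mem_bot.mpr (hU P hP hP0 σ hσ)
  rw [hbot, Subgroup.card_bot] at hcard
  rw [← Ideal.ramificationIdxIn_eq_ramificationIdx v P (L ≃ₐ[K] L), ← hcard]

end

end Fermat.Agent.S14
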