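/-
S14 — (D-norm) for an arbitrary Artin map (architect: helper55):
in an unramified Galois extension `L/K`, `art v ^ f(P/v) = 1` and `art (N_{L/K} J) = 1`.
-/
import Fermat.Agent.S14.ArtinMapGen

set_option autoImplicit false

namespace Fermat.Agent.S14

open NumberField nonZeroDivisors

section

variable {K L : Type*} [Field K] [NumberField K] [Field L] [NumberField L] [Algebra K L]
  [IsGalois K L]

/-- Iterating an arithmetic Frobenius: `σ ^ n • x ≡ x ^ (q ^ n) mod P`. -/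
theorem isArithFrobAt_pow_smul_sub_mem {σ : L ≃ₐ[K] L} {P : Ideal (𝓞 L)}
    (hσ : IsArithFrobAt (𝓞 K) σ P) (n : ℕ) (x : 𝓞 L) :
    (σ ^ n) • x - x ^ (Nat.card (𝓞 K ⧸ P.under (𝓞 K)) ^ n) ∈ P := by
  induction n generalizing x with
  | zero => simp
  | succ n ih =>
    set q := Nat.card (𝓞 K ⧸ P.under (𝓞 K)) with hq
    have h1 : σ • ((σ ^ n) • x) - ((σ ^ n) • x) ^ q ∈ P := hσ ((σ ^ n) • x)
    have h2 : ((σ ^ n) • x) ^ q - (x ^ (q ^ n)) ^ q ∈ P :=
      Ideal.mem_of_dvd P (sub_dvd_pow_sub_pow _ _ q) (ih x)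
    have h3 : (σ ^ (n + 1)) • x = σ • ((σ ^ n) • x) := by
      rw [pow_succ', mul_smul]
    rw [h3, pow_succ, pow_mul]
    have := P.add_mem h1 h2
    simpa using this

end

section

variable {K L : Type*} [Field K] [NumberField K] [Field L] [NumberField L] [Algebra K L]
  [IsGalois K L] {art : (Ideal (𝓞 K))⁰ →* (L ≃ₐ[K] L)}

/-- `art v ^ f = 1`, `f` the residue degree of any prime over `v`. -/
theorem IsArtinMap.pow_inertiaDeg_eq_one (hart : IsArtinMap K L art) (hU : Unram K L)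
    (v : (Ideal (𝓞 K))⁰) (hv : (v : Ideal (𝓞 K)).IsPrime)
    (P : Ideal (𝓞 L)) (hP : P.IsPrime) (hPv : P.LiesOver (v : Ideal (𝓞 K))) :
    art v ^ P.inertiaDeg (𝓞 K) = 1 := by
  have hv0 : (v : Ideal (𝓞 K)) ≠ ⊥ := mem_nonZeroDivisors_iff_ne_zero.mp v.2
  have hvmax : (v : Ideal (𝓞 K)).IsMaximal := hv.isMaximal hv0
  have hP0 : P ≠ ⊥ := ne_bot_of_liesOver_nonZeroDivisors v P hPv
  have hPmax : P.IsMaximal := hP.isMaximal hP0
  have hfrob := hart.frob v P hv hP hPv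
  have hunder : P.under (𝓞 K) = (v : Ideal (𝓞 K)) := hPv.over.symm
  set f := P.inertiaDeg (𝓞 K) with hf
  set q := Nat.card (𝓞 K ⧸ (v : Ideal (𝓞 K))) with hq
  let _ : Field (𝓞 L ⧸ P) := Ideal.Quotient.field P
  have : Finite (𝓞 L ⧸ P) := Ideal.finiteQuotientOfFreeOfNeBot P hP0
  have hcard : q ^ f = Nat.card (𝓞 L ⧸ P) := Ideal.cardQuot_pow_inertiaDeg (v : Ideal (𝓞 K)) P
  apply hU P hP hP0
  intro x
  have h1 := isArithFrobAt_pow_smul_sub_mem hfrob f x
  rw [hunder, ← hq, hcard] at h1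
  have h2 : x ^ Nat.card (𝓞 L ⧸ P) - x ∈ P := by
    rw [← Ideal.Quotient.eq, map_pow]
    have : Fintype (𝓞 L ⧸ P) := Fintype.ofFinite _
    rw [Nat.card_eq_fintype_card]
    exact FiniteField.pow_card _
  have := P.add_mem h1 h2
  simpa using this

/-- **(D-one, ⇐)** If some prime over `v` has residue degree one then `art v = 1`. -/
theorem IsArtinMap.eq_one_of_inertiaDeg_eq_one (hart : IsArtinMap K L art) (hU : Unram K L)
    (v : (Ideal (𝓞 K))⁰) (hv : (v : Ideal (𝓞 K)).IsPrime)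
    (P : Ideal (𝓞 L)) (hP : P.IsPrime) (hPv : P.LiesOver (v : Ideal (𝓞 K)))
    (hf : P.inertiaDeg (𝓞 K) = 1) : art v = 1 := by
  have := hart.pow_inertiaDeg_eq_one hU v hv P hP hPv
  rwa [hf, pow_one] at this

/-- **(D-norm)** The Artin symbol of a relative norm is trivial. -/
theorem IsArtinMap.relNorm_eq_one (hart : IsArtinMap K L art) (hU : Unram K L)
    (J : Ideal (𝓞 L)) (hJ : J ≠ ⊥) (I : (Ideal (𝓞 K))⁰)
    (hI : (I : Ideal (𝓞 K)) = Ideal.relNorm (𝓞 K) J) : art I = 1 := by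
  classical
  revert I hJ
  refine UniqueFactorizationMonoid.induction_on_prime J ?_ ?_ ?_
  · intro h; exact absurd rfl h
  · intro x hx _ I hI
    have hx' : x = ⊤ := by
      rwa [Ideal.isUnit_iff] at hx
    have : I = 1 := by
      apply Subtype.ext
      rw [hI, hx', Ideal.relNorm_top, Submonoid.coe_one, Ideal.one_eq_top]
    rw [this, map_one]
  · intro a P ha hP ih _ I hI
    have hPprime : P.IsPrime := Ideal.isPrime_of_prime hP
    have hP0 : P ≠ ⊥ := hP.ne_zero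
    have hPmax : P.IsMaximal := hPprime.isMaximal hP0
    -- the prime below
    set v : Ideal (𝓞 K) := P.under (𝓞 K) with hv
    have hPv : P.LiesOver v := ⟨rfl⟩
    have hvprime : v.IsPrime := Ideal.IsPrime.under (𝓞 K) P
    have hv0 : v ≠ ⊥ := by
      intro h0
      exact hP0 (Ideal.eq_bot_of_comap_eq_bot (R := 𝓞 K) (by rw [← Ideal.under_def, ← hv, h0]))
    have hvmax : v.IsMaximal := hvprime.isMaximal hv0
    have hvmem : v ∈ (Ideal (𝓞 K))⁰ := mem_nonZeroDivisors_iff_ne_zero.mpr hv0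
    have hrel : Ideal.relNorm (𝓞 K) P = v ^ P.inertiaDeg (𝓞 K) :=
      Ideal.relNorm_eq_pow_of_isMaximal P v
    have ha0 : Ideal.relNorm (𝓞 K) a ≠ ⊥ := by
      rwa [Ne, Ideal.relNorm_eq_bot_iff]
    have hamem : Ideal.relNorm (𝓞 K) a ∈ (Ideal (𝓞 K))⁰ := mem_nonZeroDivisors_iff_ne_zero.mpr ha0
    have hIeq : I = (⟨v, hvmem⟩ : (Ideal (𝓞 K))⁰) ^ P.inertiaDeg (𝓞 K) *
        ⟨Ideal.relNorm (𝓞 K) a, hamem⟩ := by
      apply Subtype.ext
      rw [hI, map_mul, hrel]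
      rfl
    rw [hIeq, map_mul, map_pow, ih ha ⟨_, hamem⟩ rfl, mul_one]
    exact hart.pow_inertiaDeg_eq_one hU ⟨v, hvmem⟩ hvprime P hPprime hPv

end

end Fermat.Agent.S14
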