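import Mathlib.RingTheory.DedekindDomain.Factorization
import Mathlib.RingTheory.ClassGroup.Basic

/-!
# Moving lemma for ideals of a Dedekind domain

For nonzero ideals `J`, `m` of a Dedekind domain there is a nonzero `a ∈ J` such that
`(a) = J * J'` with `J'` coprime to `m`.  Consequently every ideal class contains an integral
ideal coprime to `m`.
-/

set_option autoImplicit false

namespace Fermat.Agent.S14.MovingLemma

open Ideal
open scoped nonZeroDivisors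

variable {R : Type*} [CommRing R] [IsDedekindDomain R]

/-- Moving lemma, element form: for nonzero ideals `J`, `m` there are `a ≠ 0` and an ideal `J'`
with `J * J' = (a)` and `J' ⊔ m = ⊤`. -/
theorem exists_mul_eq_span_sup_eq_top (J m : Ideal R) (hJ : J ≠ ⊥) (hm : m ≠ ⊥) :
    ∃ (a : R) (J' : Ideal R), a ≠ 0 ∧ J * J' = Ideal.span {a} ∧ J' ⊔ m = ⊤ := by
  by_cases hmt : m = ⊤
  · obtain ⟨b, hbJ, hb0⟩ := Submodule.exists_mem_ne_zero_of_ne_bot hJ
    have hbJ' : Ideal.span {b} ≤ J := (Ideal.span_singleton_le_iff_mem J).mpr hbJ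
    obtain ⟨J', hJ'⟩ := Ideal.dvd_iff_le.mpr hbJ'
    exact ⟨b, J', hb0, hJ'.symm, by rw [hmt]; exact sup_top_eq _⟩
  have hJm : J * m ≠ 0 := mul_ne_zero hJ hm
  have hle : J * m ≤ J := Ideal.mul_le_inf.trans inf_le_left
  obtain ⟨a, ha⟩ := IsDedekindDomain.exists_sup_span_eq hle hJm
  have haJ : Ideal.span {a} ≤ J := by
    rw [← ha]; exact le_sup_right
  obtain ⟨J', hJ'⟩ := Ideal.dvd_iff_le.mpr haJ
  have h1 : J * (m ⊔ J') = J * ⊤ := by
    rw [Ideal.mul_sup, ← hJ', Ideal.mul_top]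
    exact ha
  have h2 : m ⊔ J' = ⊤ := mul_left_cancel₀ (a := J) hJ h1
  have ha0 : a ≠ 0 := by
    rintro rfl
    apply hmt
    have h3 : J * m = J * ⊤ := by
      rw [Ideal.mul_top]
      simpa using ha
    exact mul_left_cancel₀ (a := J) hJ h3
  exact ⟨a, J', ha0, hJ'.symm, by rwa [sup_comm] at h2⟩

/-- Every ideal class has an integral representative coprime to a given nonzero ideal. -/
theorem exists_mk0_eq_sup_eq_top (C : ClassGroup R) (m : Ideal R) (hm : m ≠ ⊥) :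
    ∃ I : (Ideal R)⁰, ClassGroup.mk0 I = C ∧ (I : Ideal R) ⊔ m = ⊤ := by
  obtain ⟨J, hJ⟩ := ClassGroup.mk0_surjective C⁻¹
  have hJ0 : (J : Ideal R) ≠ ⊥ := by
    have := J.2
    exact fun h => by simp [h] at this
  obtain ⟨a, J', ha0, hmul, hcop⟩ := exists_mul_eq_span_sup_eq_top (J : Ideal R) m hJ0 hm
  have hJ'0 : J' ≠ ⊥ := by
    rintro rfl
    rw [Ideal.mul_bot] at hmul
    exact ha0 (by simpa using hmul.symm)
  refine ⟨⟨J', mem_nonZeroDivisors_of_ne_zero hJ'0⟩, ?_, hcop⟩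
  -- `[J] * [J'] = 1`
  have hprod : ClassGroup.mk0 J * ClassGroup.mk0 ⟨J', mem_nonZeroDivisors_of_ne_zero hJ'0⟩ = 1 := by
    rw [← map_mul, ClassGroup.mk0_eq_one_iff]
    exact ⟨⟨a, hmul⟩⟩
  rw [hJ] at hprod
  exact (inv_mul_eq_one.mp hprod).symm ▸ rfl

/-- Moving lemma, ideal form: every nonzero ideal `J` is equivalent (up to principal ideals) to an
integral ideal coprime to a given nonzero ideal `m`. -/
theorem exists_span_mul_eq_span_mul (J m : Ideal R) (hJ : J ≠ ⊥) (hm : m ≠ ⊥) :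
    ∃ (a b : R) (I : Ideal R), a ≠ 0 ∧ b ≠ 0 ∧ I ≠ ⊥ ∧ I ⊔ m = ⊤ ∧
      Ideal.span {a} * J = Ideal.span {b} * I := by
  obtain ⟨I, hI, hcop⟩ :=
    exists_mk0_eq_sup_eq_top (ClassGroup.mk0 ⟨J, mem_nonZeroDivisors_of_ne_zero hJ⟩) m hm
  obtain ⟨x, y, hx, hy, h⟩ := ClassGroup.mk0_eq_mk0_iff.mp hI
  have hI0 : (I : Ideal R) ≠ ⊥ := by
    have := I.2
    exact fun h => by simp [h] at this
  exact ⟨y, x, I, hy, hx, hI0, hcop, h.symm⟩

/-- Variant of the moving lemma avoiding finitely many primes: the representative can be chosen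
coprime to each member of a finite family of nonzero ideals. -/
theorem exists_mk0_eq_forall_sup_eq_top {ι : Type*} (s : Finset ι) (f : ι → Ideal R)
    (hf : ∀ i ∈ s, f i ≠ ⊥) (C : ClassGroup R) :
    ∃ I : (Ideal R)⁰, ClassGroup.mk0 I = C ∧ ∀ i ∈ s, (I : Ideal R) ⊔ f i = ⊤ := by
  classical
  have hprod : (∏ i ∈ s, f i) ≠ ⊥ := by
    rw [← Ideal.zero_eq_bot, Finset.prod_ne_zero_iff]
    exact hf
  obtain ⟨I, hI, hcop⟩ := exists_mk0_eq_sup_eq_top C (∏ i ∈ s, f i) hprod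
  refine ⟨I, hI, fun i hi => ?_⟩
  have hle : (∏ j ∈ s, f j) ≤ f i := Ideal.le_of_dvd (Finset.dvd_prod_of_mem f hi)
  exact top_le_iff.mp (hcop ▸ sup_le_sup_left hle _)

end Fermat.Agent.S14.MovingLemma
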