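/-
S14 / X5.asm (helper49): interface-first ASSEMBLY of `BlockAux`.

Setting: `L/F` Galois of prime degree `p`, `art` a monoid hom from the nonzero ideals of `𝓞 F` to a
group `G` of order `p` (for `BlockAux`: `G = Gal(L/F)` and `art` an Artin map).
Inputs (as hypotheses):
* `hprinc` (C1): nonzero principal ideals prime to `m` have trivial Artin symbol;
* `hnorm`  (D-norm): relative norms of nonzero ideals of `𝓞 L` have trivial Artin symbol;
* `hindex` (Z2): `[Cl(F) : normClasses F L] ≤ p`  (second inequality at modulus `1`);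
* `hsurj`  (Z): some ideal prime to `m` has nontrivial Artin symbol.
Output: on ideals prime to `m` the Artin symbol determines the class modulo `normClasses F L`
(`mk0_div_mem_normClasses`), and the closed-`Prop` wrapper
`blockAux_of_blocks : BlockC1 → BlockDNorm → BlockSecondIneq → BlockZ → BlockAux`.
-/
import Fermat.Agent.S14.Blocks
import Fermat.Agent.S14.MovingLemma

set_option autoImplicit false

namespace Fermat.Agent.S14.BlockAuxAsm

open NumberField nonZeroDivisors Fermat.Agent.S14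

/-! ### Relative norms and coprimality -/

section RelNormCoprime

variable {R S : Type*} [CommRing R] [CommRing S] [IsDedekindDomain R] [IsDedekindDomain S]
  [Algebra R S] [Module.Finite R S] [Module.IsTorsionFree R S]

/-- If `J` is coprime to the extension of `𝔞`, then the relative norm of `J` is coprime to `𝔞`. -/
theorem relNorm_sup_eq_top {J : Ideal S} {𝔞 : Ideal R}
    (h : J ⊔ 𝔞.map (algebraMap R S) = ⊤) : Ideal.relNorm R J ⊔ 𝔞 = ⊤ := by
  classical
  have hinj : Function.Injective (algebraMap R S) := FaithfulSMul.algebraMap_injective R S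
  have hint : (algebraMap R S).IsIntegral := Algebra.IsIntegral.isIntegral (R := R) (A := S)
  rcases eq_or_ne J ⊥ with rfl | hJ0
  · rw [bot_sup_eq, Ideal.map_eq_top_iff _ hinj hint] at h
    rw [h, sup_top_eq]
  by_contra hne
  obtain ⟨𝔭, h𝔭max, h𝔭le⟩ := Ideal.exists_le_maximal _ hne
  have h𝔭prime : 𝔭.IsPrime := h𝔭max.isPrime
  have hJ𝔭 : Ideal.relNorm R J ≤ 𝔭 := le_sup_left.trans h𝔭le
  have h𝔞𝔭 : 𝔞 ≤ 𝔭 := le_sup_right.trans h𝔭le
  -- factor `J`
  have hfact := Ideal.prod_normalizedFactors_eq_self hJ0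
  rw [← hfact, map_multiset_prod] at hJ𝔭
  obtain ⟨P, hP, hP𝔭⟩ := (Ideal.IsPrime.multiset_prod_map_le (Ideal.relNorm R) h𝔭prime).mp hJ𝔭
  have hPprime : P.IsPrime :=
    Ideal.isPrime_of_prime (UniqueFactorizationMonoid.prime_of_normalized_factor P hP)
  have hP0 : P ≠ ⊥ := (UniqueFactorizationMonoid.prime_of_normalized_factor P hP).ne_zero
  have hJP : J ≤ P :=
    Ideal.le_of_dvd (UniqueFactorizationMonoid.dvd_of_mem_normalizedFactors hP)
  -- the prime below `P`
  obtain ⟨s, hs⟩ := Ideal.exists_relNorm_eq_pow_of_isPrime P (P.under R)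
  rw [hs] at hP𝔭
  have hunder_le : P.under R ≤ 𝔭 := h𝔭prime.le_of_pow_le hP𝔭
  have hunder0 : P.under R ≠ ⊥ := Ideal.under_ne_bot R hP0
  have hundermax : (P.under R).IsMaximal := Ideal.IsPrime.isMaximal inferInstance hunder0
  have hEq : P.under R = 𝔭 := hundermax.eq_of_le h𝔭max.ne_top hunder_le
  have h𝔞P : 𝔞.map (algebraMap R S) ≤ P := by
    rw [Ideal.map_le_iff_le_comap]
    exact h𝔞𝔭.trans hEq.ge
  have : (⊤ : Ideal S) ≤ P := h ▸ sup_le hJP h𝔞P
  exact hPprime.ne_top (top_le_iff.mp this)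

end RelNormCoprime

/-! ### Ideals prime to `m` -/

section Main

/-- The set of nonzero ideals of `𝓞 F` prime to the natural number `m`
(definitionally the set used in `BlockAux`). -/
def coprimeTo (F : Type*) [Field F] [NumberField F] (m : ℕ) : Set ((Ideal (𝓞 F))⁰) :=
  {I | IsCoprime (I : Ideal (𝓞 F)) (Ideal.span {(m : 𝓞 F)})}

variable {F : Type*} [Field F] [NumberField F]

theorem span_natCast_ne_bot {m : ℕ} (hm : 0 < m) : Ideal.span {(m : 𝓞 F)} ≠ ⊥ := by
  rw [Ne, Ideal.span_singleton_eq_bot]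
  exact_mod_cast hm.ne'

omit [NumberField F] in
theorem mul_mem_coprimeTo [NumberField F] {m : ℕ} {I J : (Ideal (𝓞 F))⁰}
    (hI : I ∈ coprimeTo F m) (hJ : J ∈ coprimeTo F m) : I * J ∈ coprimeTo F m := by
  show IsCoprime ((I * J : (Ideal (𝓞 F))⁰) : Ideal (𝓞 F)) _
  rw [Submonoid.coe_mul]
  exact IsCoprime.mul_left hI hJ

/-- Every ideal class has a representative prime to `m`. -/
theorem exists_rep {m : ℕ} (hm : 0 < m) (c : ClassGroup (𝓞 F)) :
    ∃ I : (Ideal (𝓞 F))⁰, ClassGroup.mk0 I = c ∧ I ∈ coprimeTo F m := by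
  obtain ⟨I, hI, hcop⟩ :=
    MovingLemma.exists_mk0_eq_sup_eq_top c _ (span_natCast_ne_bot (F := F) hm)
  exact ⟨I, hI, Ideal.isCoprime_iff_sup_eq.mpr hcop⟩

/-- A prime ideal whose absolute norm is a prime number `> m` is coprime to `m`. -/
theorem isCoprime_span_natCast_of_lt_absNorm {m : ℕ} (hm : 0 < m) (Q : Ideal (𝓞 F))
    (hq : (Ideal.absNorm Q).Prime) (hlt : m < Ideal.absNorm Q) :
    IsCoprime Q (Ideal.span {(m : 𝓞 F)}) := by
  rw [Ideal.isCoprime_iff_sup_eq, Ideal.eq_top_iff_one]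
  have hqmem : ((Ideal.absNorm Q : ℕ) : 𝓞 F) ∈ Q := Ideal.absNorm_mem Q
  have hcop : Nat.Coprime (Ideal.absNorm Q) m := by
    rw [Nat.Prime.coprime_iff_not_dvd hq]
    intro hdvd
    exact absurd (Nat.le_of_dvd hm hdvd) (not_le.mpr hlt)
  have hz : IsCoprime ((Ideal.absNorm Q : ℕ) : ℤ) (m : ℤ) := Nat.isCoprime_iff_coprime.mpr hcop
  obtain ⟨u, v, huv⟩ := hz
  have h1 : (1 : 𝓞 F) = (u : 𝓞 F) * ((Ideal.absNorm Q : ℕ) : 𝓞 F) + (v : 𝓞 F) * (m : 𝓞 F) := by
    have := congrArg (Int.cast : ℤ → 𝓞 F) huv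
    push_cast at this
    exact this.symm
  rw [h1]
  exact Ideal.add_mem _ (Ideal.mem_sup_left (Ideal.mul_mem_left _ _ hqmem))
    (Ideal.mem_sup_right (Ideal.mul_mem_left _ _ (Ideal.subset_span rfl)))

variable {G : Type*} [Group G] {m : ℕ} (art : (Ideal (𝓞 F))⁰ →* G)

/-- Step 1: on ideals prime to `m`, the Artin symbol only depends on the ideal class. -/
theorem art_eq_of_mk0_eq (hm : 0 < m)
    (hprinc : ∀ I : (Ideal (𝓞 F))⁰, (I : Ideal (𝓞 F)).IsPrincipal → I ∈ coprimeTo F m → art I = 1)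
    {I J : (Ideal (𝓞 F))⁰} (hI : I ∈ coprimeTo F m) (hJ : J ∈ coprimeTo F m)
    (hIJ : ClassGroup.mk0 I = ClassGroup.mk0 J) : art I = art J := by
  obtain ⟨A, hA, hAcop⟩ := exists_rep (F := F) hm (ClassGroup.mk0 I)⁻¹
  have h1 : art (A * I) = 1 := by
    apply hprinc _ _ (mul_mem_coprimeTo hAcop hI)
    have : ClassGroup.mk0 (A * I) = 1 := by rw [map_mul, hA, inv_mul_cancel]
    exact (ClassGroup.mk0_eq_one_iff (A * I).2).mp this
  have h2 : art (A * J) = 1 := by
    apply hprinc _ _ (mul_mem_coprimeTo hAcop hJ)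
    have : ClassGroup.mk0 (A * J) = 1 := by rw [map_mul, hA, hIJ, inv_mul_cancel]
    exact (ClassGroup.mk0_eq_one_iff (A * J).2).mp this
  rw [map_mul] at h1 h2
  exact mul_left_cancel (h1.trans h2.symm)

/-- A representative prime to `m` of an ideal class. -/
noncomputable def rep (hm : 0 < m) (c : ClassGroup (𝓞 F)) : (Ideal (𝓞 F))⁰ :=
  (exists_rep (F := F) hm c).choose

theorem mk0_rep (hm : 0 < m) (c : ClassGroup (𝓞 F)) : ClassGroup.mk0 (rep (F := F) hm c) = c :=
  (exists_rep (F := F) hm c).choose_spec.1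

theorem rep_mem (hm : 0 < m) (c : ClassGroup (𝓞 F)) : rep (F := F) hm c ∈ coprimeTo F m :=
  (exists_rep (F := F) hm c).choose_spec.2

/-- Step 2: the homomorphism `Cl(F) → G` induced by `art` (through representatives prime to
`m`). -/
noncomputable def theta (hm : 0 < m)
    (hprinc : ∀ I : (Ideal (𝓞 F))⁰, (I : Ideal (𝓞 F)).IsPrincipal → I ∈ coprimeTo F m →
      art I = 1) :
    ClassGroup (𝓞 F) →* G :=
  MonoidHom.mk' (fun c => art (rep (F := F) hm c)) (by
    intro c c'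
    rw [← map_mul]
    apply art_eq_of_mk0_eq art hm hprinc (rep_mem hm _)
      (mul_mem_coprimeTo (rep_mem hm _) (rep_mem hm _))
    rw [map_mul, mk0_rep, mk0_rep, mk0_rep])

theorem theta_mk0 (hm : 0 < m)
    (hprinc : ∀ I : (Ideal (𝓞 F))⁰, (I : Ideal (𝓞 F)).IsPrincipal → I ∈ coprimeTo F m →
      art I = 1)
    {I : (Ideal (𝓞 F))⁰} (hI : I ∈ coprimeTo F m) :
    theta art hm hprinc (ClassGroup.mk0 I) = art I := by
  show art (rep (F := F) hm (ClassGroup.mk0 I)) = art I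
  exact art_eq_of_mk0_eq art hm hprinc (rep_mem hm _) hI (mk0_rep hm _)

section WithL

variable {L : Type*} [Field L] [NumberField L] [Algebra F L]

/-- Step 3: norm classes are killed by `theta` (moving lemma in `L` + `relNorm_sup_eq_top`). -/
theorem normClasses_le_ker (hm : 0 < m)
    (hprinc : ∀ I : (Ideal (𝓞 F))⁰, (I : Ideal (𝓞 F)).IsPrincipal → I ∈ coprimeTo F m →
      art I = 1)
    (hnorm : ∀ (J : Ideal (𝓞 L)) (I : (Ideal (𝓞 F))⁰), J ≠ ⊥ →
      (I : Ideal (𝓞 F)) = Ideal.relNorm (𝓞 F) J → art I = 1) :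
    normClasses F L ≤ (theta art hm hprinc).ker := by
  unfold normClasses
  rw [Subgroup.closure_le]
  rintro c ⟨J, I, hJ0, hI, rfl⟩
  rw [SetLike.mem_coe, MonoidHom.mem_ker]
  obtain ⟨a, b, I', ha, hb, hI'0, hI'cop, hmul⟩ :=
    MovingLemma.exists_span_mul_eq_span_mul J (Ideal.span {(m : 𝓞 L)}) hJ0
      (span_natCast_ne_bot (F := L) hm)
  have hrel := congrArg (Ideal.relNorm (𝓞 F)) hmul
  rw [map_mul, map_mul, Ideal.relNorm_singleton, Ideal.relNorm_singleton, ← hI] at hrel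
  have hI''0 : Ideal.relNorm (𝓞 F) I' ≠ ⊥ := by
    rwa [Ne, Ideal.relNorm_eq_bot_iff]
  set I'' : (Ideal (𝓞 F))⁰ :=
    ⟨Ideal.relNorm (𝓞 F) I', mem_nonZeroDivisors_of_ne_zero hI''0⟩ with hI''
  have hclass : ClassGroup.mk0 I = ClassGroup.mk0 I'' := by
    rw [ClassGroup.mk0_eq_mk0_iff]
    exact ⟨Algebra.intNorm (𝓞 F) (𝓞 L) a, Algebra.intNorm (𝓞 F) (𝓞 L) b,
      Algebra.intNorm_ne_zero.mpr ha, Algebra.intNorm_ne_zero.mpr hb, hrel⟩
  have hcop : I'' ∈ coprimeTo F m := by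
    show IsCoprime (Ideal.relNorm (𝓞 F) I') _
    rw [Ideal.isCoprime_iff_sup_eq]
    apply relNorm_sup_eq_top
    rw [Ideal.map_span, Set.image_singleton, map_natCast]
    exact hI'cop
  rw [hclass, theta_mk0 art hm hprinc hcop]
  exact hnorm I' I'' hI'0 rfl

/-- Steps 4-5: **kernel ⊆ norms on ideals prime to `m`** (`G` any group of prime order `p`). -/
theorem mk0_div_mem_normClasses {p : ℕ} (hp : p.Prime) (hcard : Nat.card G = p) (hm : 0 < m)
    (hprinc : ∀ I : (Ideal (𝓞 F))⁰, (I : Ideal (𝓞 F)).IsPrincipal → I ∈ coprimeTo F m →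
      art I = 1)
    (hnorm : ∀ (J : Ideal (𝓞 L)) (I : (Ideal (𝓞 F))⁰), J ≠ ⊥ →
      (I : Ideal (𝓞 F)) = Ideal.relNorm (𝓞 F) J → art I = 1)
    (hindex : (normClasses F L).index ≤ p)
    (hsurj : ∃ Q ∈ coprimeTo F m, art Q ≠ 1)
    {I J : (Ideal (𝓞 F))⁰} (hI : I ∈ coprimeTo F m) (hJ : J ∈ coprimeTo F m)
    (hIJ : art I = art J) :
    ClassGroup.mk0 I / ClassGroup.mk0 J ∈ normClasses F L := by
  have : Fact (Nat.card G).Prime := ⟨hcard ▸ hp⟩
  set θ := theta art hm hprinc with hθ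
  have hker : normClasses F L ≤ θ.ker := normClasses_le_ker art hm hprinc hnorm
  -- `θ` is onto
  have hrange : θ.range = ⊤ := by
    rcases Subgroup.eq_bot_or_eq_top_of_prime_card θ.range with h | h
    · exfalso
      obtain ⟨Q, hQ, hQ1⟩ := hsurj
      apply hQ1
      have : art Q ∈ θ.range := ⟨ClassGroup.mk0 Q, theta_mk0 art hm hprinc hQ⟩
      rw [h, Subgroup.mem_bot] at this
      exact this
    · exact h
  have hindexker : θ.ker.index = p := by
    rw [Subgroup.index_ker, hrange, Subgroup.card_top, hcard]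
  have hmul := Subgroup.relIndex_mul_index hker
  rw [hindexker] at hmul
  have hN0 : (normClasses F L).index ≠ 0 := Subgroup.index_ne_zero_of_finite
  have hrel : (normClasses F L).relIndex θ.ker = 1 := by
    have h0 : (normClasses F L).relIndex θ.ker ≠ 0 := by
      intro h0
      rw [h0, zero_mul] at hmul
      exact hN0 hmul.symm
    have hle : (normClasses F L).relIndex θ.ker * p ≤ 1 * p := by
      rw [hmul, one_mul]; exact hindex
    have := Nat.le_of_mul_le_mul_right hle hp.pos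
    omega
  have hkerle : θ.ker ≤ normClasses F L := Subgroup.relIndex_eq_one.mp hrel
  apply hkerle
  rw [MonoidHom.mem_ker, map_div, theta_mk0 art hm hprinc hI, theta_mk0 art hm hprinc hJ, hIJ,
    div_self']

/-- The same, packaged as `KernelSubNormOn` for `G = Gal(L/F)`. -/
theorem kernelSubNormOn_coprimeTo [IsGalois F L] {p : ℕ} (hp : p.Prime) (hdeg : Module.finrank F L = p)
    (hm : 0 < m) (art : (Ideal (𝓞 F))⁰ →* (L ≃ₐ[F] L))
    (hprinc : ∀ I : (Ideal (𝓞 F))⁰, (I : Ideal (𝓞 F)).IsPrincipal →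
      IsCoprime (I : Ideal (𝓞 F)) (Ideal.span {(m : 𝓞 F)}) → art I = 1)
    (hnorm : ∀ (J : Ideal (𝓞 L)) (I : (Ideal (𝓞 F))⁰), J ≠ ⊥ →
      (I : Ideal (𝓞 F)) = Ideal.relNorm (𝓞 F) J → art I = 1)
    (hindex : (normClasses F L).index ≤ p)
    (hsurj : ∃ Q : (Ideal (𝓞 F))⁰,
      IsCoprime (Q : Ideal (𝓞 F)) (Ideal.span {(m : 𝓞 F)}) ∧ art Q ≠ 1) :
    KernelSubNormOn art {I | IsCoprime (I : Ideal (𝓞 F)) (Ideal.span {(m : 𝓞 F)})} := by
  intro I hI J hJ hIJ
  have hcard : Nat.card (L ≃ₐ[F] L) = p := by rw [IsGalois.card_aut_eq_finrank, hdeg]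
  obtain ⟨Q, hQ, hQ1⟩ := hsurj
  exact mk0_div_mem_normClasses art hp hcard hm hprinc hnorm hindex ⟨Q, hQ, hQ1⟩ hI hJ hIJ

end WithL

end Main

/-! ### Closed-`Prop` form -/

/-- **(C1)** principal ideals prime to `m` die in an unramified degree-`p` subextension `L/F` of
`F(ζ_m)/F` (explicit cyclotomic Frobenius + norm surjectivity mod `m`). -/
def BlockC1 : Prop :=
  ∀ (F L C : Type) [Field F] [NumberField F] [Field L] [NumberField L] [Field C] [NumberField C]
    [Algebra F L] [Algebra F C] [Algebra L C] [IsScalarTower F L C] [IsGalois F L]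
    (p m : ℕ), p.Prime → 3 ≤ p → 0 < m → IsCyclotomicExtension {m} F C →
    (∃ ζ : F, IsPrimitiveRoot ζ p) → Module.finrank F L = p → Unram F L →
    ∀ art : (Ideal (𝓞 F))⁰ →* (L ≃ₐ[F] L), IsArtinMap F L art →
    ∀ I : (Ideal (𝓞 F))⁰, (I : Ideal (𝓞 F)).IsPrincipal →
      IsCoprime (I : Ideal (𝓞 F)) (Ideal.span {(m : 𝓞 F)}) → art I = 1

/-- **(D-norm)** the Artin symbol of a relative norm is trivial. -/
def BlockDNorm : Prop :=
  ∀ (K L : Type) [Field K] [NumberField K] [Field L] [NumberField L] [Algebra K L]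
    [IsGalois K L],
    Unram K L → ∀ art : (Ideal (𝓞 K))⁰ →* (L ≃ₐ[K] L), IsArtinMap K L art →
    ∀ (J : Ideal (𝓞 L)) (I : (Ideal (𝓞 K))⁰), J ≠ ⊥ →
      (I : Ideal (𝓞 K)) = Ideal.relNorm (𝓞 K) J → art I = 1

/-- **(Z2)** the second (analytic) inequality at modulus `1` for an unramified Galois extension of
prime degree `p` of a field containing `ζ_p`. -/
def BlockSecondIneq : Prop :=
  ∀ (F L : Type) [Field F] [NumberField F] [Field L] [NumberField L] [Algebra F L]
    [IsGalois F L] (p : ℕ), p.Prime → 3 ≤ p → (∃ ζ : F, IsPrimitiveRoot ζ p) →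
    Module.finrank F L = p → Unram F L → (normClasses F L).index ≤ p

/-- **Assembly of (X5)**. -/
theorem blockAux_of_blocks (hC1 : BlockC1) (hDN : BlockDNorm) (hZ2 : BlockSecondIneq)
    (hZ : BlockZ) : BlockAux := by
  intro F L C _ _ _ _ _ _ _ _ _ _ _ p m hp h3 hm hcyc hζ hdeg hunr art hart
  refine kernelSubNormOn_coprimeTo hp hdeg hm art
    (hC1 F L C p m hp h3 hm hcyc hζ hdeg hunr art hart)
    (hDN F L hunr art hart)
    (hZ2 F L p hp h3 hζ hdeg hunr) ?_
  obtain ⟨Q, hQp, hQn, hQlt, hQ1⟩ := hZ F L (by rw [hdeg]; exact hp.two_le) hunr art hart m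
  exact ⟨Q, isCoprime_span_natCast_of_lt_absNorm hm _ hQn hQlt, hQ1⟩

end Fermat.Agent.S14.BlockAuxAsm
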