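import Mathlib

/-!
# S14, block (C4): local norm surjectivity for unramified extensions at finite level

Let `G` be a finite group acting on `B` with invariants `A` (`Algebra.IsInvariant A B G`), e.g.
`A = 𝓞 F`, `B = 𝓞 L`, `G = Gal(L/F)`.  If `𝔪` is a nonzero ideal of the Dedekind domain `A` such
that every prime of `B` above `𝔪` has trivial inertia group, then every `x ∈ A` prime to `𝔪` is
congruent modulo `𝔪` to a `G`-norm `∏ g, g • y`.

Main results (namespace `Fermat.Agent.S14.NormSurj`):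

* `exists_norm_sub_mem_pow` : prime power modulus, no Dedekind hypothesis;
* `exists_norm_sub_mem_of_unramified` : general modulus, `A` Dedekind, `B` faithfully flat;
* `exists_ringOfIntegers_norm_sub_mem` : number fields, with `RingOfIntegers.norm`;
* `inertia_eq_bot_of_ramificationIdxIn_eq_one` : how to get the hypothesis from `e = 1`.

Proof: level one is the surjectivity of norm and trace for finite fields together with the
Chinese remainder theorem for the conjugates of a prime `Q` of `B`; the lifting step uses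
`N(y (1 + a b)) = N(y) (1 + a Tr(b) + a² c)` with `c ∈ A`.
-/

set_option autoImplicit false

open Polynomial Pointwise Function NumberField

set_option linter.unusedSectionVars false

namespace Fermat.Agent.S14.NormSurj

/-- Second order expansion of a finite product `∏ (1 + t cᵢ)`. -/
theorem exists_prod_one_add_mul {R ι : Type*} [CommRing R] (s : Finset ι) (t : R) (c : ι → R) :
    ∃ d : R, ∏ i ∈ s, (1 + t * c i) = 1 + t * ∑ i ∈ s, c i + t ^ 2 * d := by
  classical
  induction s using Finset.induction_on with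
  | empty => exact ⟨0, by simp⟩
  | insert a s ha ih =>
    obtain ⟨d, hd⟩ := ih
    refine ⟨d + c a * ∑ i ∈ s, c i + t * c a * d, ?_⟩
    rw [Finset.prod_insert ha, Finset.sum_insert ha, hd]
    ring

/-- Any polynomial is `c₀ + c₁ a + a² c` when evaluated at `a`. -/
theorem exists_eval_eq_coeff_zero_add {R : Type*} [CommRing R] (M : R[X]) (a : R) :
    ∃ c : R, M.eval a = M.coeff 0 + M.coeff 1 * a + a ^ 2 * c := by
  refine ⟨(M.divX.divX).eval a, ?_⟩
  have h1 : M = M.divX * X + C (M.coeff 0) := (divX_mul_X_add M).symm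
  have h2 : M.divX = M.divX.divX * X + C (M.divX.coeff 0) := (divX_mul_X_add M.divX).symm
  have h3 : M.divX.coeff 0 = M.coeff 1 := by rw [coeff_divX]
  conv_lhs => rw [h1, h2]
  rw [h3]
  simp only [eval_add, eval_mul, eval_X, eval_C]
  ring

section Abstract

variable {A B : Type*} [CommRing A] [CommRing B] [Algebra A B]
variable (G : Type*) [Group G] [Fintype G] [MulSemiringAction G B]

/-- The polynomial `∏_g (1 + X · g b)`. -/
noncomputable def polyR (b : B) : B[X] := ∏ g : G, (1 + X * C (g • b))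

theorem smul_polyR (b : B) (g : G) : g • polyR G b = polyR G b := by
  have : polyR G b = ∏ h : G, h • (1 + X * C b : B[X]) := by
    simp only [polyR, smul_add, smul_one, smul_mul', smul_X, smul_C]
  rw [this, Finset.smul_prod_perm]

theorem smul_coeff_polyR (b : B) (n : ℕ) (g : G) :
    g • (polyR G b).coeff n = (polyR G b).coeff n := by
  rw [← coeff_smul, smul_polyR]

theorem polyR_mem_lifts [Algebra.IsInvariant A B G] (b : B) :
    polyR G b ∈ Polynomial.lifts (algebraMap A B) :=
  (polyR G b).lifts_iff_coeff_lifts.mpr fun n ↦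
    Algebra.IsInvariant.isInvariant (A := A) (G := G) _ (smul_coeff_polyR G b n)

theorem polyR_coeff_zero (b : B) : (polyR G b).coeff 0 = 1 := by
  obtain ⟨d, hd⟩ := exists_prod_one_add_mul (Finset.univ : Finset G) (X : B[X])
    (fun g ↦ C (g • b))
  rw [polyR, hd]
  simp [pow_two, mul_assoc]

theorem polyR_coeff_one (b : B) : (polyR G b).coeff 1 = ∑ g : G, g • b := by
  obtain ⟨d, hd⟩ := exists_prod_one_add_mul (Finset.univ : Finset G) (X : B[X])
    (fun g ↦ C (g • b))
  rw [polyR, hd]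
  simp [pow_two, mul_assoc, coeff_X_mul, coeff_one]

theorem polyR_eval [SMulCommClass G A B] (b : B) (a : A) :
    (polyR G b).eval (algebraMap A B a) = ∏ g : G, g • (1 + a • b) := by
  rw [polyR, eval_prod]
  refine Finset.prod_congr rfl fun g _ ↦ ?_
  simp only [eval_add, eval_one, eval_mul, eval_X, eval_C, smul_add, smul_one]
  rw [smul_comm, Algebra.smul_def]

/-- Second order expansion of the `G`-norm of `1 + a b`. -/
theorem exists_norm_one_add [SMulCommClass G A B] [Algebra.IsInvariant A B G]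
    (b : B) (T : A) (hT : algebraMap A B T = ∑ g : G, g • b) (a : A) :
    ∃ c : A, ∏ g : G, g • (1 + a • b) = algebraMap A B (1 + T * a + a ^ 2 * c) := by
  obtain ⟨M, hM⟩ := (Polynomial.mem_lifts _).mp (polyR_mem_lifts (A := A) G b)
  obtain ⟨c, hc⟩ := exists_eval_eq_coeff_zero_add M a
  refine ⟨c, ?_⟩
  have h0 : algebraMap A B (M.coeff 0) = 1 := by
    rw [← coeff_map, hM, polyR_coeff_zero]
  have h1 : algebraMap A B (M.coeff 1) = algebraMap A B T := by
    rw [← coeff_map, hM, polyR_coeff_one, hT]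
  rw [← polyR_eval, ← hM, eval_map_algebraMap, aeval_algebraMap_apply, coe_aeval_eq_eval, hc]
  simp only [map_add, map_mul, map_pow, map_one, h0, h1]

end Abstract

section Level1

variable {A B : Type*} [CommRing A] [CommRing B] [Algebra A B]
variable (G : Type*) [Group G] [Fintype G] [MulSemiringAction G B] [SMulCommClass G A B]
  [Algebra.IsInvariant A B G]
variable (P : Ideal A) [P.IsMaximal] (Q : Ideal B) [Q.IsPrime] [Q.LiesOver P]

include G P in
theorem isMaximal_of_liesOver (Q' : Ideal B) [Q'.IsPrime] [Q'.LiesOver P] : Q'.IsMaximal := by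
  have := Algebra.IsInvariant.isIntegral A B G
  refine Ideal.isMaximal_of_isIntegral_of_isMaximal_comap (R := A) Q' ?_
  rw [← Ideal.under_def, ← Ideal.LiesOver.over (p := P) (P := Q')]
  infer_instance

include P in
/-- CRT: an element congruent to `z` modulo `Q` and to `w` modulo the other conjugates of `Q`. -/
theorem exists_crt (z w : B) :
    ∃ y : B, y - z ∈ Q ∧ ∀ g : G, g • Q ≠ Q → y - w ∈ g • Q := by
  classical
  let ι := {Q' : Ideal B // Q' ∈ MulAction.orbit G Q}
  have : Finite ι := (Set.finite_range (fun g : G ↦ g • Q)).to_subtype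
  have hmax : ∀ i : ι, (i.1).IsMaximal := by
    rintro ⟨_, g, rfl⟩
    exact isMaximal_of_liesOver G P (g • Q)
  have hcop : Pairwise (IsCoprime on fun i : ι ↦ i.1) := by
    intro i j hij
    rw [Function.onFun, Ideal.isCoprime_iff_sup_eq]
    exact Ideal.IsMaximal.coprime_of_ne (hmax i) (hmax j) (fun h ↦ hij (Subtype.ext h))
  obtain ⟨y, hy⟩ := Ideal.exists_forall_sub_mem_ideal hcop
    (fun i : ι ↦ if i.1 = Q then z else w)
  refine ⟨y, ?_, fun g hg ↦ ?_⟩
  · have := hy ⟨Q, MulAction.mem_orbit_self Q⟩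
    simpa using this
  · have := hy ⟨g • Q, MulAction.mem_orbit Q g⟩
    simpa [hg] using this

/-- Residues of the conjugates of the CRT element. -/
theorem mk_smul_crt {y z w : B} (hyz : y - z ∈ Q) (hyw : ∀ g : G, g • Q ≠ Q → y - w ∈ g • Q)
    (g : G) : Ideal.Quotient.mk Q (g • y) =
      if g • Q = Q then Ideal.Quotient.mk Q (g • z) else Ideal.Quotient.mk Q (g • w) := by
  split_ifs with h
  · rw [Ideal.Quotient.eq, ← smul_sub]
    have : g • (y - z) ∈ g • Q := Ideal.smul_mem_pointwise_smul g _ Q hyz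
    rwa [h] at this
  · rw [Ideal.Quotient.eq, ← smul_sub, ← Ideal.mem_inv_pointwise_smul_iff]
    refine hyw g⁻¹ fun h' ↦ h ?_
    rw [← h', smul_inv_smul]
    exact h'.symm

end Level1

section Level1

variable {A B : Type*} [CommRing A] [CommRing B] [Algebra A B]
variable (G : Type*) [Group G] [Fintype G] [MulSemiringAction G B] [SMulCommClass G A B]
  [Algebra.IsInvariant A B G]
variable (P : Ideal A) [P.IsMaximal] (Q : Ideal B) [Q.IsMaximal] [Q.LiesOver P]
  [Finite (B ⧸ Q)]

theorem stabilizerHom_bijective (hunr : Q.inertia G = ⊥) :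
    Function.Bijective (Ideal.Quotient.stabilizerHom Q P G) := by
  refine ⟨?_, Ideal.Quotient.stabilizerHom_surjective G P Q⟩
  rw [← MonoidHom.ker_eq_bot_iff, Ideal.Quotient.ker_stabilizerHom, eq_bot_iff]
  intro σ hσ
  rw [Subgroup.mem_bot]
  have : (σ : G) ∈ Q.inertia G := fun x ↦ hσ x
  rw [hunr, Subgroup.mem_bot] at this
  exact Subtype.ext this

theorem mk_prod_smul_crt (hunr : Q.inertia G = ⊥) {y z : B} (hyz : y - z ∈ Q)
    (hyw : ∀ g : G, g • Q ≠ Q → y - 1 ∈ g • Q) :
    Ideal.Quotient.mk Q (∏ g : G, g • y) =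
      algebraMap (A ⧸ P) (B ⧸ Q) (Algebra.norm (A ⧸ P) (Ideal.Quotient.mk Q z)) := by
  classical
  let _ := Ideal.Quotient.field P
  let _ := Ideal.Quotient.field Q
  rw [Algebra.norm_eq_prod_automorphisms, map_prod]
  simp_rw [mk_smul_crt G Q hyz hyw, smul_one, map_one]
  rw [← Finset.prod_filter, Finset.prod_subtype (p := fun g ↦ g ∈ MulAction.stabilizer G Q)
    (Finset.univ.filter fun g : G ↦ g • Q = Q) (by simp [MulAction.mem_stabilizer_iff])]
  refine Fintype.prod_bijective _ (stabilizerHom_bijective G P Q hunr) _ _ fun g ↦ ?_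
  rw [Ideal.Quotient.stabilizerHom_apply]
  rfl

theorem mk_sum_smul_crt (hunr : Q.inertia G = ⊥) {y z : B} (hyz : y - z ∈ Q)
    (hyw : ∀ g : G, g • Q ≠ Q → y - 0 ∈ g • Q) :
    Ideal.Quotient.mk Q (∑ g : G, g • y) =
      algebraMap (A ⧸ P) (B ⧸ Q) (Algebra.trace (A ⧸ P) (B ⧸ Q) (Ideal.Quotient.mk Q z)) := by
  classical
  let _ := Ideal.Quotient.field P
  let _ := Ideal.Quotient.field Q
  rw [trace_eq_sum_automorphisms, map_sum]
  simp_rw [mk_smul_crt G Q hyz hyw, smul_zero, map_zero]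
  rw [← Finset.sum_filter, Finset.sum_subtype (p := fun g ↦ g ∈ MulAction.stabilizer G Q)
    (Finset.univ.filter fun g : G ↦ g • Q = Q) (by simp [MulAction.mem_stabilizer_iff])]
  refine Fintype.sum_bijective _ (stabilizerHom_bijective G P Q hunr) _ _ fun g ↦ ?_
  rw [Ideal.Quotient.stabilizerHom_apply]
  rfl

end Level1

section Induction

variable {A B : Type*} [CommRing A] [CommRing B] [Algebra A B]
variable (G : Type*) [Group G] [Fintype G] [MulSemiringAction G B] [SMulCommClass G A B]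
  [Algebra.IsInvariant A B G]
variable (P : Ideal A) [P.IsMaximal] (Q : Ideal B) [Q.IsMaximal] [Q.LiesOver P]
  [Finite (B ⧸ Q)]

theorem exists_lift_prod_smul (y : B) : ∃ n : A, algebraMap A B n = ∏ g : G, g • y :=
  Algebra.IsInvariant.isInvariant (A := A) (G := G) _ (fun g ↦ Finset.smul_prod_perm y g)

theorem exists_lift_sum_smul (y : B) : ∃ n : A, algebraMap A B n = ∑ g : G, g • y :=
  Algebra.IsInvariant.isInvariant (A := A) (G := G) _ (fun g ↦ by
    simp only [Finset.smul_sum, smul_smul]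
    exact Finset.sum_bijective (g * ·) (Group.mulLeft_bijective g) (by simp) (fun _ _ ↦ rfl))

/-- Level one: the `G`-norm is onto the units of `A ⧸ P`. -/
theorem exists_norm_sub_mem (hunr : Q.inertia G = ⊥) (x : A) :
    ∃ y : B, ∃ n : A, algebraMap A B n = ∏ g : G, g • y ∧ n - x ∈ P := by
  let _ := Ideal.Quotient.field P
  let _ := Ideal.Quotient.field Q
  obtain ⟨zbar, hz⟩ := FiniteField.norm_surjective (A ⧸ P) (B ⧸ Q) (Ideal.Quotient.mk P x)
  obtain ⟨z, rfl⟩ := Ideal.Quotient.mk_surjective zbar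
  obtain ⟨y, hyz, hyw⟩ := exists_crt G P Q z 1
  obtain ⟨n, hn⟩ := exists_lift_prod_smul (A := A) G y
  refine ⟨y, n, hn, ?_⟩
  have h := mk_prod_smul_crt G P Q hunr hyz hyw
  rw [hz, ← hn] at h
  rw [Ideal.mem_of_liesOver Q P, map_sub, ← Ideal.Quotient.eq, h]
  rfl

/-- Level one: the `G`-trace is onto `A ⧸ P`. -/
theorem exists_trace_sub_mem (hunr : Q.inertia G = ⊥) (x : A) :
    ∃ b : B, ∃ T : A, algebraMap A B T = ∑ g : G, g • b ∧ T - x ∈ P := by
  let _ := Ideal.Quotient.field P
  let _ := Ideal.Quotient.field Q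
  obtain ⟨zbar, hz⟩ := Algebra.trace_surjective (A ⧸ P) (B ⧸ Q) (Ideal.Quotient.mk P x)
  obtain ⟨z, rfl⟩ := Ideal.Quotient.mk_surjective zbar
  obtain ⟨y, hyz, hyw⟩ := exists_crt G P Q z 0
  obtain ⟨n, hn⟩ := exists_lift_sum_smul (A := A) G y
  refine ⟨y, n, hn, ?_⟩
  have h := mk_sum_smul_crt G P Q hunr hyz hyw
  rw [hz, ← hn] at h
  rw [Ideal.mem_of_liesOver Q P, map_sub, ← Ideal.Quotient.eq, h]
  rfl

/-- **Local norm surjectivity** at an unramified prime: every `x ∉ P` is congruent to a `G`-norm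
modulo any power of `P`. -/
theorem exists_norm_sub_mem_pow (hunr : Q.inertia G = ⊥) (x : A) (hx : x ∉ P) (k : ℕ) :
    ∃ y : B, ∃ n : A, algebraMap A B n = ∏ g : G, g • y ∧ n - x ∈ P ^ k := by
  rcases k with _ | k
  · exact ⟨1, 1, by simp, by simp⟩
  induction k with
  | zero => simpa using exists_norm_sub_mem G P Q hunr x
  | succ j ih =>
    obtain ⟨y, n, hn, hnx⟩ := ih
    obtain ⟨b, T, hT, hT1⟩ := exists_trace_sub_mem G P Q hunr 1
    have hnP : n ∉ P := fun h ↦ hx (by
      have h1 : n - x ∈ P := Ideal.pow_le_self (Nat.succ_ne_zero j) hnx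
      have : x = n - (n - x) := by ring
      rw [this]; exact P.sub_mem h h1)
    obtain ⟨u, i, hi, hui⟩ := Ideal.IsMaximal.exists_inv ‹P.IsMaximal› hnP
    set δ : A := x - n with hδ
    have hδmem : δ ∈ P ^ (j + 1) := by
      have : δ = -(n - x) := by ring
      rw [this]; exact (P ^ (j + 1)).neg_mem hnx
    set a : A := δ * u with ha
    obtain ⟨c, hc⟩ := exists_norm_one_add G b T hT a
    refine ⟨y * (1 + a • b), n * (1 + T * a + a ^ 2 * c), ?_, ?_⟩
    · simp_rw [smul_mul', Finset.prod_mul_distrib, hc, ← hn, map_mul]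
    · have e : n * (1 + T * a + a ^ 2 * c) - x
          = δ * ((u * n - 1) * T + (T - 1)) + δ ^ 2 * (n * u ^ 2 * c) := by
        simp only [ha, hδ]; ring
      rw [e]
      have h1 : u * n - 1 ∈ P := by
        have : u * n - 1 = -i := by rw [← hui]; ring
        rw [this]; exact P.neg_mem hi
      have h2 : (u * n - 1) * T + (T - 1) ∈ P := P.add_mem (P.mul_mem_right _ h1) hT1
      refine Ideal.add_mem _ ?_ ?_
      · rw [pow_succ]
        exact Ideal.mul_mem_mul hδmem h2
      · refine Ideal.mul_mem_right _ _ ?_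
        have : P ^ ((j + 1) * 2) ≤ P ^ (j + 1 + 1) := Ideal.pow_le_pow_right (by omega)
        apply this
        rw [pow_mul]
        exact Ideal.pow_mem_pow hδmem 2

end Induction

section General

variable {A B : Type*} [CommRing A] [CommRing B] [Algebra A B]
variable (G : Type*) [Group G] [Fintype G] [MulSemiringAction G B] [SMulCommClass G A B]
  [Algebra.IsInvariant A B G]

/-- The `G`-norm respects congruences modulo an ideal extended from `A`. -/
theorem prod_smul_sub_mem_map (I : Ideal A) {y y' : B} (h : y - y' ∈ I.map (algebraMap A B)) :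
    ∏ g : G, g • y - ∏ g : G, g • y' ∈ I.map (algebraMap A B) := by
  rw [← Ideal.Quotient.eq, map_prod, map_prod]
  refine Finset.prod_congr rfl fun g _ ↦ ?_
  rw [Ideal.Quotient.eq, ← smul_sub]
  have hle : I.map (algebraMap A B) ≤ (I.map (algebraMap A B)).comap
      (MulSemiringAction.toRingHom G B g) := by
    rw [Ideal.map_le_iff_le_comap]
    intro a ha
    rw [Ideal.mem_comap, Ideal.mem_comap, MulSemiringAction.toRingHom_apply, smul_algebraMap]
    exact Ideal.mem_map_of_mem _ ha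
  exact hle h

/-- An element whose `G`-norm is congruent modulo `𝔪` to an element prime to `𝔪` is itself prime
to `𝔪 B`. -/
theorem not_mem_of_norm_sub_mem (𝔪 : Ideal A) (Q : Ideal B) [Q.IsPrime]
    (hQ : 𝔪.map (algebraMap A B) ≤ Q) {y : B} {n x : A}
    (hn : algebraMap A B n = ∏ g : G, g • y) (hnx : n - x ∈ 𝔪) (hx : x ∉ Q.under A) : y ∉ Q := by
  intro hy
  apply hx
  have h1 : algebraMap A B n ∈ Q := by
    rw [hn]
    obtain ⟨c, hc⟩ := Finset.dvd_prod_of_mem (fun g : G ↦ g • y) (Finset.mem_univ (1 : G))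
    rw [hc, one_smul]
    exact Q.mul_mem_right _ hy
  have h2 : algebraMap A B (n - x) ∈ Q := hQ (Ideal.mem_map_of_mem _ hnx)
  rw [Ideal.under_def, Ideal.mem_comap]
  have : algebraMap A B x = algebraMap A B n - algebraMap A B (n - x) := by
    rw [map_sub]; ring
  rw [this]
  exact Q.sub_mem h1 h2

end General

section Dedekind

variable {A B : Type*} [CommRing A] [IsDedekindDomain A] [CommRing B] [Algebra A B]
  [Module.FaithfullyFlat A B]
variable (G : Type*) [Group G] [Fintype G] [MulSemiringAction G B] [SMulCommClass G A B]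
  [Algebra.IsInvariant A B G]

/-- **Norm surjectivity modulo an unramified modulus.**  If every prime of `B` dividing `𝔪 B` has
finite residue field and trivial inertia group, every `x` prime to `𝔪` is congruent modulo `𝔪` to
the `G`-norm of an element of `B`. -/
theorem exists_norm_sub_mem_of_unramified (𝔪 : Ideal A) (h𝔪 : 𝔪 ≠ ⊥)
    (hfin : ∀ Q : Ideal B, Q.IsPrime → 𝔪.map (algebraMap A B) ≤ Q → Finite (B ⧸ Q))
    (hunr : ∀ Q : Ideal B, Q.IsPrime → 𝔪.map (algebraMap A B) ≤ Q → Q.inertia G = ⊥)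
    (x : A) (hx : ∀ P : Ideal A, P.IsPrime → 𝔪 ≤ P → x ∉ P) :
    ∃ y : B, ∃ n : A, algebraMap A B n = ∏ g : G, g • y ∧ n - x ∈ 𝔪 := by
  classical
  have hint : Algebra.IsIntegral A B := Algebra.IsInvariant.isIntegral A B G
  have hinj : Function.Injective (algebraMap A B) := FaithfulSMul.algebraMap_injective A B
  -- the prime factors of `𝔪`
  set s := (UniqueFactorizationMonoid.normalizedFactors 𝔪).toFinset with hs
  set e : Ideal A → ℕ := fun P ↦ (UniqueFactorizationMonoid.normalizedFactors 𝔪).count P with he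
  have hprime : ∀ P ∈ s, Prime P := fun P hP ↦
    UniqueFactorizationMonoid.prime_of_normalized_factor P (Multiset.mem_toFinset.mp hP)
  have hdvd : ∀ P ∈ s, 𝔪 ≤ P := fun P hP ↦ Ideal.le_of_dvd
    (UniqueFactorizationMonoid.dvd_of_mem_normalizedFactors (Multiset.mem_toFinset.mp hP))
  have hprod : 𝔪 = ∏ P ∈ s, P ^ e P := by
    have h1 := Ideal.prod_normalizedFactors_eq_self h𝔪
    conv_lhs => rw [← h1]
    rw [Finset.prod_multiset_count]
  have hinf : 𝔪 = s.inf fun P ↦ P ^ e P := by
    rw [hprod]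
    exact (IsDedekindDomain.inf_pow_eq_prod_of_prime s (fun P ↦ P) e hprime
      (fun P _ P' _ h ↦ h)).symm
  -- solve the problem at each prime
  have hloc : ∀ P ∈ s, ∃ y : B, ∃ n : A, algebraMap A B n = ∏ g : G, g • y ∧ n - x ∈ P ^ e P := by
    intro P hP
    have hPp : P.IsPrime := Ideal.isPrime_of_prime (hprime P hP)
    have hP0 : P ≠ ⊥ := (hprime P hP).ne_zero
    have hPm : P.IsMaximal := hPp.isMaximal hP0
    obtain ⟨Q, -, hQp, hQ⟩ := Ideal.exists_ideal_over_prime_of_isIntegral P (⊥ : Ideal B)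
      (by simp [Ideal.comap_bot_of_injective _ hinj])
    have hQo : Q.LiesOver P := ⟨hQ.symm⟩
    have hQm : Q.IsMaximal := isMaximal_of_liesOver G P Q
    have hle : 𝔪.map (algebraMap A B) ≤ Q := by
      rw [Ideal.map_le_iff_le_comap, hQ]
      exact hdvd P hP
    have := hfin Q hQp hle
    exact exists_norm_sub_mem_pow G P Q (hunr Q hQp hle) x (hx P hPp (hdvd P hP)) (e P)
  choose! yP nP hnP hnxP using hloc
  -- glue with the Chinese remainder theorem in `B`
  have hcop : Pairwise (IsCoprime on fun P : s ↦ (P.1 ^ e P.1).map (algebraMap A B)) := by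
    intro P P' hPP'
    rw [Function.onFun, Ideal.isCoprime_iff_sup_eq, ← Ideal.map_sup]
    have : P.1 ^ e P.1 ⊔ P'.1 ^ e P'.1 = ⊤ := by
      rw [← Ideal.isCoprime_iff_sup_eq]
      refine IsCoprime.pow ?_
      rw [Ideal.isCoprime_iff_sup_eq]
      have hm : ∀ R ∈ s, R.IsMaximal := fun R hR ↦
        (Ideal.isPrime_of_prime (hprime R hR)).isMaximal (hprime R hR).ne_zero
      exact Ideal.IsMaximal.coprime_of_ne (hm P.1 P.2) (hm P'.1 P'.2)
        (fun h ↦ hPP' (Subtype.ext h))
    rw [this, Ideal.map_top]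
  obtain ⟨y, hy⟩ := Ideal.exists_forall_sub_mem_ideal hcop (fun P : s ↦ yP P.1)
  obtain ⟨n, hn⟩ := exists_lift_prod_smul (A := A) G y
  refine ⟨y, n, hn, ?_⟩
  rw [hinf, Finset.inf_eq_iInf, Ideal.mem_iInf]
  intro P
  rw [Ideal.mem_iInf]
  intro hP
  have h1 := prod_smul_sub_mem_map G (P ^ e P) (hy ⟨P, hP⟩)
  rw [← hn, ← hnP P hP, ← map_sub, ← Ideal.mem_comap,
    Ideal.comap_map_eq_self_of_faithfullyFlat] at h1
  have : n - x = (n - nP P) + (nP P - x) := by ring
  rw [this]
  exact Ideal.add_mem _ h1 (hnxP P hP)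

end Dedekind

section NF

variable (F L : Type*) [Field F] [NumberField F] [Field L] [NumberField L] [Algebra F L]
  [IsGalois F L]

/-- The relative norm of an algebraic integer is the product of its Galois conjugates. -/
theorem algebraMap_norm_eq_prod_smul (y : 𝓞 L) :
    algebraMap (𝓞 F) (𝓞 L) (RingOfIntegers.norm F y) = ∏ g : Gal(L/F), g • y := by
  apply RingOfIntegers.ext
  rw [RingOfIntegers.coe_algebraMap_norm, Algebra.norm_eq_prod_automorphisms]
  change _ = algebraMap (𝓞 L) L (∏ g : Gal(L/F), g • y)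
  rw [map_prod]
  refine Finset.prod_congr rfl fun g _ ↦ ?_
  exact (algebraMap.coe_smul' g y L).symm

/-- **Norm surjectivity modulo an unramified modulus**, number field version: if no prime of `L`
above `𝔪` is ramified over `F` (trivial inertia groups), every `x ∈ 𝓞 F` prime to `𝔪` is congruent
modulo `𝔪` to the relative norm of an element of `𝓞 L`. -/
theorem exists_ringOfIntegers_norm_sub_mem (𝔪 : Ideal (𝓞 F)) (h𝔪 : 𝔪 ≠ ⊥)
    (hunr : ∀ Q : Ideal (𝓞 L), Q.IsPrime → 𝔪.map (algebraMap (𝓞 F) (𝓞 L)) ≤ Q →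
      Q.inertia Gal(L/F) = ⊥)
    (x : 𝓞 F) (hx : ∀ P : Ideal (𝓞 F), P.IsPrime → 𝔪 ≤ P → x ∉ P) :
    ∃ y : 𝓞 L, RingOfIntegers.norm F y - x ∈ 𝔪 ∧
      ∀ Q : Ideal (𝓞 L), Q.IsPrime → 𝔪.map (algebraMap (𝓞 F) (𝓞 L)) ≤ Q → y ∉ Q := by
  have hinj : Function.Injective (algebraMap (𝓞 F) (𝓞 L)) :=
    FaithfulSMul.algebraMap_injective _ _
  have h𝔪L : 𝔪.map (algebraMap (𝓞 F) (𝓞 L)) ≠ ⊥ := by
    rwa [Ne, Ideal.map_eq_bot_iff_of_injective hinj]
  obtain ⟨y, n, hn, hnx⟩ := exists_norm_sub_mem_of_unramified (A := 𝓞 F) (B := 𝓞 L) Gal(L/F) 𝔪 h𝔪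
    (fun Q hQ hle ↦ Ideal.finiteQuotientOfFreeOfNeBot Q (fun h ↦ h𝔪L (le_bot_iff.mp (h ▸ hle))))
    hunr x hx
  refine ⟨y, ?_, fun Q hQ hle ↦ ?_⟩
  · rw [← algebraMap_norm_eq_prod_smul] at hn
    rwa [← hinj hn]
  · refine not_mem_of_norm_sub_mem Gal(L/F) 𝔪 Q hle hn hnx
      (hx _ (Ideal.IsPrime.under (𝓞 F) Q) ?_)
    rw [Ideal.under_def, ← Ideal.map_le_iff_le_comap]
    exact hle

/-- The unramifiedness hypothesis in terms of ramification indices. -/
theorem inertia_eq_bot_of_ramificationIdxIn_eq_one (P : Ideal (𝓞 F)) [P.IsPrime] (hP : P ≠ ⊥)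
    (Q : Ideal (𝓞 L)) [Q.IsPrime] [Q.LiesOver P] (h : P.ramificationIdxIn (𝓞 L) = 1) :
    Q.inertia Gal(L/F) = ⊥ := by
  have : P.IsMaximal := Ideal.IsPrime.isMaximal inferInstance hP
  have : Finite (𝓞 F ⧸ P) := Ideal.finiteQuotientOfFreeOfNeBot P hP
  have h1 := Ideal.card_inertia_eq_ramificationIdxIn (G := Gal(L/F)) P Q
  rw [h] at h1
  exact Subgroup.eq_bot_of_card_eq _ h1

end NF

end Fermat.Agent.S14.NormSurj
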