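import Fermat.Agent.S14.Defs
import Fermat.Agent.S14.NormSurj

/-!
# S14, block (C4) glue: norm surjectivity modulo `m` in the shapes used by `CycloFrob` / `BlockAux`

For `L/F` Galois and unramified at every finite prime (`Unram F L` of `S14/Defs`), every `x ∈ 𝓞 F`
prime to a nonzero ideal `𝔪` (in particular to `(m)`, `m > 0`) is congruent modulo `𝔪` to the
relative norm of some `y ∈ 𝓞 L`; the norm is given as `RingOfIntegers.norm F` and as
`Algebra.intNorm (𝓞 F) (𝓞 L)` (the shape of the hypothesis `hsurj` of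
`CycloFrob.art_span_singleton_eq_one` / `CycloFrob.principal_dies`).
-/

set_option autoImplicit false

open NumberField

namespace Fermat.Agent.S14.NormSurjGlue

variable (F L : Type*) [Field F] [NumberField F] [Field L] [NumberField L] [Algebra F L]
  [IsGalois F L]

omit [IsGalois F L] in
/-- `Algebra.intNorm` and `RingOfIntegers.norm` agree. -/
theorem intNorm_eq_norm (y : 𝓞 L) :
    Algebra.intNorm (𝓞 F) (𝓞 L) y = RingOfIntegers.norm F y := by
  apply RingOfIntegers.ext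
  rw [RingOfIntegers.coe_eq_algebraMap, Algebra.algebraMap_intNorm (A := 𝓞 F) (K := F) (L := L)]
  rfl

variable {F L}

/-- Norm surjectivity modulo an arbitrary nonzero ideal, for an everywhere unramified Galois
extension. -/
theorem exists_norm_sub_mem_of_unram (hunr : Unram F L) (𝔪 : Ideal (𝓞 F)) (h𝔪 : 𝔪 ≠ ⊥)
    (x : 𝓞 F) (hx : IsCoprime (Ideal.span {x}) 𝔪) :
    ∃ y : 𝓞 L, RingOfIntegers.norm F y - x ∈ 𝔪 ∧
      ∀ Q : Ideal (𝓞 L), Q.IsPrime → 𝔪.map (algebraMap (𝓞 F) (𝓞 L)) ≤ Q → y ∉ Q := by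
  have hinj : Function.Injective (algebraMap (𝓞 F) (𝓞 L)) :=
    FaithfulSMul.algebraMap_injective _ _
  refine NormSurj.exists_ringOfIntegers_norm_sub_mem F L 𝔪 h𝔪 (fun Q hQ hle ↦ ?_) x
    (fun P hP hle hxP ↦ ?_)
  · have hQ0 : Q ≠ ⊥ := by
      rintro rfl
      exact h𝔪 ((Ideal.map_eq_bot_iff_of_injective hinj).mp (le_bot_iff.mp hle))
    rw [eq_bot_iff]
    intro σ hσ
    exact Subgroup.mem_bot.mpr (hunr Q hQ hQ0 σ hσ)
  · have h1 := Ideal.isCoprime_iff_sup_eq.mp hx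
    have h2 : Ideal.span {x} ⊔ 𝔪 ≤ P :=
      sup_le ((Ideal.span_singleton_le_iff_mem _).mpr hxP) hle
    rw [h1] at h2
    exact hP.ne_top (top_le_iff.mp h2)

/-- The hypothesis `hsurj` of `CycloFrob.art_span_singleton_eq_one` and
`CycloFrob.principal_dies`. -/
theorem exists_intNorm_sub_mem_span_natCast (hunr : Unram F L) {m : ℕ} (hm : 0 < m)
    (x : 𝓞 F) (hx : IsCoprime (Ideal.span {x}) (Ideal.span {(m : 𝓞 F)})) :
    ∃ y : 𝓞 L, Algebra.intNorm (𝓞 F) (𝓞 L) y - x ∈ Ideal.span {(m : 𝓞 F)} := by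
  have hm0 : Ideal.span {(m : 𝓞 F)} ≠ ⊥ := by
    rw [Ne, Ideal.span_singleton_eq_bot, Nat.cast_eq_zero]
    exact hm.ne'
  obtain ⟨y, hy, -⟩ := exists_norm_sub_mem_of_unram hunr _ hm0 x hx
  exact ⟨y, by rwa [intNorm_eq_norm]⟩

/-- A field containing a primitive `n`-th root of unity with `n ≥ 3` is totally complex (the
instance `[IsTotallyComplex F]` needed by `CycloFrob.principal_dies` for the auxiliary fields
`F ∋ ζ_p` of the crossing argument). -/
theorem isTotallyComplex_of_isPrimitiveRoot {F : Type*} [Field F] {n : ℕ} (hn : 3 ≤ n) {ζ : F}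
    (hζ : IsPrimitiveRoot ζ n) : IsTotallyComplex F := by
  refine ⟨fun v ↦ ?_⟩
  rw [← InfinitePlace.not_isReal_iff_isComplex]
  intro hv
  let φ : F →+* ℝ := InfinitePlace.embedding_of_isReal hv
  have hφ : IsPrimitiveRoot (φ ζ) n := hζ.map_of_injective φ.injective
  have hn0 : n ≠ 0 := by omega
  have h1 : (φ ζ) ^ n = 1 := hφ.pow_eq_one
  have habs : |φ ζ| = 1 := by
    have : |φ ζ| ^ n = 1 := by rw [← abs_pow, h1, abs_one]
    exact (pow_eq_one_iff_of_nonneg (abs_nonneg _) hn0).mp this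
  have hsq : (φ ζ) ^ 2 = 1 := by
    rw [← sq_abs, habs, one_pow]
  have := Nat.le_of_dvd (by norm_num) (hφ.dvd_of_pow_eq_one 2 hsq)
  omega

end Fermat.Agent.S14.NormSurjGlue
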