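import Fermat.Agent.S14.CycloFrobBlock
import Fermat.Agent.S14.NormSurjGlue

/-!
# S14, block (C4): the closed proposition `CycloFrobBlock.NormSurjMod`

Norm surjectivity modulo `m` for everywhere unramified Galois extensions of number fields, in the
closed form consumed by `CycloFrobBlock.principalDiesCyclo`.
-/

set_option autoImplicit false

namespace Fermat.Agent.S14.NormSurjBlock

open Fermat.Agent.S14

/-- **(C4)** holds. -/
theorem normSurjMod : CycloFrobBlock.NormSurjMod := by
  intro F L _ _ _ _ _ _ m hm hunr x hx
  exact NormSurjGlue.exists_intNorm_sub_mem_span_natCast hunr hm x hx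

/-- `PrincipalDiesCyclo` from `NormsDie` alone. -/
theorem principalDiesCyclo_of_normsDie (h : CycloFrobBlock.NormsDie) :
    CycloFrobBlock.PrincipalDiesCyclo :=
  CycloFrobBlock.principalDiesCyclo normSurjMod h

end Fermat.Agent.S14.NormSurjBlock
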