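/-
S14 / X5.final (helper49): `BlockAux` from the second inequality and `BlockZ` only.

The inputs `BlockC1` (principal ideals prime to `m` die; helper35 `CycloFrobBlock` + helper15
`NormSurjBlock`) and `BlockDNorm` (norms die; helper55 `ArtinMapNorm`) of
`BlockAuxAsm.blockAux_of_blocks` are discharged here from landed files.
-/
import Fermat.Agent.S14.BlockAuxAsm
import Fermat.Agent.S14.ArtinMapNorm
import Fermat.Agent.S14.NormSurjBlock

set_option autoImplicit false

namespace Fermat.Agent.S14.BlockAuxFinal

open NumberField nonZeroDivisors Fermat.Agent.S14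

/-- **(D-norm)** holds (helper55's `IsArtinMap.relNorm_eq_one`). -/
theorem blockDNorm : BlockAuxAsm.BlockDNorm := by
  intro K L _ _ _ _ _ _ hunr art hart J I hJ hI
  exact hart.relNorm_eq_one hunr J hJ I hI

/-- The `CycloFrobBlock` form of (D-norm). -/
theorem normsDie : CycloFrobBlock.NormsDie := by
  intro F L _ _ _ _ _ _ hunr art hart J I hJ hI
  exact hart.relNorm_eq_one hunr J hJ I hI

/-- **(C1)** holds: principal ideals prime to `m` die (helper35 + helper15). -/
theorem blockC1 : BlockAuxAsm.BlockC1 := by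
  intro F L C _ _ _ _ _ _ _ _ _ _ _ p m _ h3 hm hcyc hζ _ hunr art hart I hI hIm
  obtain ⟨ζ, hζ⟩ := hζ
  have hcx : IsTotallyComplex F := NormSurjGlue.isTotallyComplex_of_isPrimitiveRoot h3 hζ
  exact NormSurjBlock.principalDiesCyclo_of_normsDie normsDie F L C m hm hcyc hcx hunr art hart
    I hI hIm

/-- **(X5)** `BlockAux` from the second inequality at modulus `1` and `BlockZ`. -/
theorem blockAux_of (hZ2 : BlockAuxAsm.BlockSecondIneq) (hZ : BlockZ) : BlockAux :=
  BlockAuxAsm.blockAux_of_blocks blockC1 blockDNorm hZ2 hZ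

end Fermat.Agent.S14.BlockAuxFinal
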