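/-
S14 — adapter: `BlockZ` from the analytic statement of helper73's `ZetaSplit`
(architect: helper55).

`ZetaSplitStatement` is the shape announced in report 827: in a Galois extension `M/K` of number
fields of degree `≥ 2`, outside any finite set of ideals there is a prime of `K` of absolute degree
one which does not split completely in `M`.
-/
import Fermat.Agent.S14.Blocks
import Fermat.Agent.S14.ArtinMapGen

set_option autoImplicit false

namespace Fermat.Agent.S14

open NumberField nonZeroDivisors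

/-- The analytic input (helper73, `ZetaSplit.lean`). -/
def ZetaSplitStatement : Prop :=
  ∀ (K M : Type) [Field K] [NumberField K] [Field M] [NumberField M] [Algebra K M]
    [IsGalois K M], 2 ≤ Module.finrank K M → ∀ S : Finset (Ideal (𝓞 K)),
    ∃ Q : Ideal (𝓞 K), Q.IsPrime ∧ Q ≠ ⊥ ∧ Q ∉ S ∧ (Ideal.absNorm Q).Prime ∧
      ¬ (∀ P : Ideal (𝓞 M), P.IsPrime → P.LiesOver Q →
          P.ramificationIdx (𝓞 K) = 1 ∧ P.inertiaDeg (𝓞 K) = 1)

theorem blockZ_of_zetaSplit (h : ZetaSplitStatement) : BlockZ := by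
  intro K L _ _ _ _ _ _ hdeg hU art hart N
  classical
  have hfin : {I : Ideal (𝓞 K) | Ideal.absNorm I ≤ N}.Finite :=
    Set.Finite.subset
      (Set.Finite.biUnion (Set.finite_Iic N) (fun n _ => Ideal.finite_setOfPred_absNorm_eq n))
      (fun I hI => Set.mem_biUnion (Set.mem_Iic.mpr hI) rfl)
  obtain ⟨Q, hQp, hQ0, hQS, hQn, hns⟩ := h K L hdeg hfin.toFinset
  have hQmem : Q ∈ (Ideal (𝓞 K))⁰ := mem_nonZeroDivisors_iff_ne_zero.mpr hQ0
  refine ⟨⟨Q, hQmem⟩, hQp, hQn, ?_, ?_⟩
  · by_contra hle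
    exact hQS (hfin.mem_toFinset.mpr (not_lt.mp hle))
  · intro h1
    apply hns
    intro P hP hPQ
    exact ⟨hU.ramificationIdx_eq_one Q hQp hQ0 P hP hPQ,
      hart.inertiaDeg_eq_one_of_eq_one ⟨Q, hQmem⟩ hQp h1 P hP hPQ⟩

end Fermat.Agent.S14
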