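/-
S14 / B2 (analytic surjectivity input), helper73.

Euler-product inequalities for the Dedekind zeta function (via a sieve identity), and the theorem
that in an extension `M / K` of number fields of degree `≥ 2` there are infinitely many primes of
`K` of degree one that do not split completely in `M`.

Main exports (namespace `Fermat.Agent.S14.ZetaSplit`):
* `zetaR K s`, `summable_nrm`, `dedekindZeta_eq_zetaR`, `tendsto_sub_one_mul_zetaR`
* `zetaT_eq_prod` (sieve identity), `one_le_prod_mul_zetaR`, `exists_zetaR_le`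
* `zetaR_pow_le`, `false_of_small` (abstract comparison `ζ_K^n ≤ C ζ_M`)
* `sum_inv_absNorm_le_of_not_prime` (primes of degree `≥ 2` are summable)
* `exists_degreeOne_prime_ncard_primesOver_ne`, `infinite_degreeOne_prime_ncard_primesOver_ne`
* `exists_degreeOne_prime_not_split_of_isGalois`
-/
import Mathlib

set_option autoImplicit false

open NumberField Ideal Filter Topology Asymptotics UniqueFactorizationMonoid

namespace Fermat.Agent.S14.ZetaSplit

noncomputable section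

section OneField

variable (K : Type*) [Field K] [NumberField K]



/-- The term `N(I)^(-s)` of the Dedekind zeta function (the zero ideal contributes `0`). -/
def nrm (s : ℝ) (I : Ideal (𝓞 K)) : ℝ := (absNorm I : ℝ) ^ (-s)

lemma nrm_nonneg (s : ℝ) (I : Ideal (𝓞 K)) : 0 ≤ nrm K s I :=
  Real.rpow_nonneg (Nat.cast_nonneg _) _

lemma nrm_mul (s : ℝ) (I J : Ideal (𝓞 K)) : nrm K s (I * J) = nrm K s I * nrm K s J := by
  unfold nrm
  rw [map_mul, Nat.cast_mul, Real.mul_rpow (Nat.cast_nonneg _) (Nat.cast_nonneg _)]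

lemma nrm_one (s : ℝ) : nrm K s 1 = 1 := by
  unfold nrm
  simp

lemma nrm_bot {s : ℝ} (hs : s ≠ 0) : nrm K s ⊥ = 0 := by
  unfold nrm
  simp [Real.zero_rpow (neg_ne_zero.mpr hs)]

/-- The real Dedekind zeta function as a sum over ideals. -/
def zetaR (s : ℝ) : ℝ := ∑' I : Ideal (𝓞 K), nrm K s I

/-- number of ideals of norm n -/
def idealCount (n : ℕ) : ℕ := Nat.card {I : Ideal (𝓞 K) // absNorm I = n}

lemma term_eq {s : ℝ} (hs : s ≠ 0) (n : ℕ) :
    LSeries.term (fun n ↦ (Nat.card {I : Ideal (𝓞 K) // absNorm I = n} : ℂ)) (s : ℂ) n =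
      (((idealCount K n : ℝ) * (n : ℝ) ^ (-s) : ℝ) : ℂ) := by
  rcases eq_or_ne n 0 with rfl | hn
  · simp [LSeries.term, Real.zero_rpow (neg_ne_zero.mpr hs)]
  · rw [LSeries.term_of_ne_zero hn]
    unfold idealCount
    push_cast
    rw [Real.rpow_neg (Nat.cast_nonneg _), Complex.ofReal_inv, Complex.ofReal_cpow (Nat.cast_nonneg _)]
    simp [div_eq_mul_inv]

lemma tendsto_count_div :
    Tendsto (fun n : ℕ ↦ (∑ k ∈ Finset.Icc 1 n,
      (Nat.card {I : Ideal (𝓞 K) // absNorm I = k} : ℝ)) / n) atTop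
      (𝓝 (dedekindZeta_residue K)) := by
  refine ((Ideal.tendsto_norm_le_div_atTop₀ K).comp tendsto_natCast_atTop_atTop).congr fun n ↦ ?_
  simp only [Function.comp_apply, Nat.cast_le, ← Nat.cast_sum]
  congr
  rw [← add_left_inj 1, ← card_norm_le_eq_card_norm_le_add_one,
    show Finset.Icc 1 n = Finset.Ioc 0 n from Finset.Icc_succ_left_eq_Ioc _ _,
    show 1 = Nat.card {I : Ideal (𝓞 K) // absNorm I = 0} by simp [Ideal.absNorm_eq_zero_iff],
    Finset.sum_Ioc_add_eq_sum_Icc (n.zero_le),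
    ← Finset.card_preimage_eq_sum_card_image_eq (fun k _ ↦ finite_setOfPred_absNorm_eq k)]
  simp [Set.coe_eq_subtype]

lemma lseriesSummable {s : ℝ} (hs : 1 < s) :
    LSeriesSummable (fun n ↦ (Nat.card {I : Ideal (𝓞 K) // absNorm I = n} : ℂ)) (s : ℂ) := by
  have h := LSeriesSummable_of_sum_norm_bigO_and_nonneg
    (f := fun n ↦ (Nat.card {I : Ideal (𝓞 K) // absNorm I = n} : ℝ)) (r := 1) (s := (s : ℂ))
    (isBigO_atTop_natCast_rpow_of_tendsto_div_rpow (by simpa using tendsto_count_div K))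
    (fun _ ↦ Nat.cast_nonneg _) zero_le_one (by simpa using hs)
  simpa using h

lemma summable_count {s : ℝ} (hs : 1 < s) :
    Summable fun n : ℕ ↦ (idealCount K n : ℝ) * (n : ℝ) ^ (-s) := by
  have h := lseriesSummable K hs
  unfold LSeriesSummable at h
  have hs0 : s ≠ 0 := by linarith
  rw [funext (term_eq K hs0)] at h
  exact Complex.summable_ofReal.mp h

lemma dedekindZeta_eq_tsum_count {s : ℝ} (hs : 1 < s) :
    dedekindZeta K (s : ℂ) = ((∑' n : ℕ, (idealCount K n : ℝ) * (n : ℝ) ^ (-s) : ℝ) : ℂ) := by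
  have hs0 : s ≠ 0 := by linarith
  unfold dedekindZeta LSeries
  rw [funext (term_eq K hs0), Complex.ofReal_tsum]


instance (n : ℕ) : Finite {I : Ideal (𝓞 K) // absNorm I = n} :=
  finite_setOfPred_absNorm_eq n

lemma fiber_tsum (s : ℝ) (n : ℕ) :
    ∑' I : {I : Ideal (𝓞 K) // absNorm I = n}, nrm K s I.1 =
      (idealCount K n : ℝ) * (n : ℝ) ^ (-s) := by
  have : ∀ I : {I : Ideal (𝓞 K) // absNorm I = n}, nrm K s I.1 = (n : ℝ) ^ (-s) := by
    intro I
    unfold nrm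
    rw [I.2]
  simp_rw [this]
  rw [tsum_const]
  unfold idealCount
  simp

lemma summable_nrm {s : ℝ} (hs : 1 < s) : Summable (nrm K s) := by
  rw [← (Equiv.sigmaFiberEquiv (absNorm : Ideal (𝓞 K) → ℕ)).summable_iff]
  refine (summable_sigma_of_nonneg (fun x ↦ nrm_nonneg K s _)).mpr ⟨fun n ↦ Summable.of_finite, ?_⟩
  refine (summable_count K hs).congr fun n ↦ ?_
  exact (fiber_tsum K s n).symm

lemma zetaR_eq_tsum_count {s : ℝ} (hs : 1 < s) :
    zetaR K s = ∑' n : ℕ, (idealCount K n : ℝ) * (n : ℝ) ^ (-s) := by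
  unfold zetaR
  rw [← (Equiv.sigmaFiberEquiv (absNorm : Ideal (𝓞 K) → ℕ)).tsum_eq]
  have h := Summable.tsum_sigma' (f := fun c ↦ nrm K s ((Equiv.sigmaFiberEquiv
    (absNorm : Ideal (𝓞 K) → ℕ)) c)) (fun n ↦ Summable.of_finite)
    ((Equiv.sigmaFiberEquiv (absNorm : Ideal (𝓞 K) → ℕ)).summable_iff.mpr (summable_nrm K hs))
  rw [h]
  exact tsum_congr fun n ↦ fiber_tsum K s n

lemma dedekindZeta_eq_zetaR {s : ℝ} (hs : 1 < s) :
    dedekindZeta K (s : ℂ) = ((zetaR K s : ℝ) : ℂ) := by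
  rw [dedekindZeta_eq_tsum_count K hs, zetaR_eq_tsum_count K hs]

/-- the class number formula for the real zeta function -/
lemma tendsto_sub_one_mul_zetaR :
    Tendsto (fun s : ℝ ↦ (s - 1) * zetaR K s) (𝓝[>] 1) (𝓝 (dedekindZeta_residue K)) := by
  have h := tendsto_sub_one_mul_dedekindZeta_nhdsGT K
  have h2 : Tendsto (fun s : ℝ ↦ (((s - 1) * zetaR K s : ℝ) : ℂ)) (𝓝[>] 1)
      (𝓝 ((dedekindZeta_residue K : ℝ) : ℂ)) := by
    refine h.congr' ?_
    filter_upwards [self_mem_nhdsWithin] with s hs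
    rw [dedekindZeta_eq_zetaR K hs]
    push_cast
    ring
  exact (Complex.continuous_re.tendsto _).comp h2 |>.congr (fun s ↦ by simp)


/-- ideals not divisible by any member of `T` -/
def coprimeTo (T : Finset (Ideal (𝓞 K))) : Set (Ideal (𝓞 K)) := {I | ∀ v ∈ T, ¬ v ∣ I}

/-- the zeta function with the Euler factors at `T` removed -/
def zetaT (T : Finset (Ideal (𝓞 K))) (s : ℝ) : ℝ :=
  ∑' I : Ideal (𝓞 K), Set.indicator (coprimeTo K T) (nrm K s) I

lemma zetaT_empty (s : ℝ) : zetaT K ∅ s = zetaR K s := by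
  unfold zetaT zetaR coprimeTo
  simp

lemma summable_indicator {s : ℝ} (hs : 1 < s) (A : Set (Ideal (𝓞 K))) :
    Summable (Set.indicator A (nrm K s)) :=
  (summable_nrm K hs).indicator A

lemma prime_dvd_prime_iff {v w : Ideal (𝓞 K)} (hv : v.IsPrime) (hv0 : v ≠ ⊥) (hw : w.IsPrime)
    (hw0 : w ≠ ⊥) : w ∣ v ↔ w = v := by
  constructor
  · intro h
    have hle : v ≤ w := Ideal.le_of_dvd h
    have hvmax : v.IsMaximal := hv.isMaximal hv0
    exact (hvmax.eq_of_le hw.ne_top hle).symm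
  · rintro rfl
    exact dvd_rfl

lemma mul_mem_coprimeTo_iff {T : Finset (Ideal (𝓞 K))} (hT : ∀ w ∈ T, w.IsPrime ∧ w ≠ ⊥)
    {v : Ideal (𝓞 K)} (hv : v.IsPrime) (hv0 : v ≠ ⊥) (hvT : v ∉ T) (J : Ideal (𝓞 K)) :
    v * J ∈ coprimeTo K T ↔ J ∈ coprimeTo K T := by
  unfold coprimeTo
  simp only [Set.mem_setOf_eq]
  refine forall₂_congr fun w hw ↦ ?_
  obtain ⟨hwp, hw0⟩ := hT w hw
  have hwprime : Prime w := Ideal.prime_of_isPrime hw0 hwp
  rw [not_iff_not]
  constructor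
  · intro h
    rcases hwprime.dvd_or_dvd h with h1 | h1
    · exact absurd ((prime_dvd_prime_iff K hv hv0 hwp hw0).mp h1) (fun h2 ↦ hvT (h2 ▸ hw))
    · exact h1
  · intro h
    exact h.mul_left v

lemma sieve_step {s : ℝ} (hs : 1 < s) {T : Finset (Ideal (𝓞 K))}
    (hT : ∀ w ∈ T, w.IsPrime ∧ w ≠ ⊥) {v : Ideal (𝓞 K)} (hv : v.IsPrime) (hv0 : v ≠ ⊥)
    (hvT : v ∉ T) :
    zetaT K (insert v T) s = (1 - nrm K s v) * zetaT K T s := by
  classical
  set g := nrm K s with hg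
  -- the part divisible by v
  set B : Set (Ideal (𝓞 K)) := coprimeTo K T ∩ {I | v ∣ I} with hB
  have hsplit : ∀ I, Set.indicator (coprimeTo K T) g I =
      Set.indicator (coprimeTo K (insert v T)) g I + Set.indicator B g I := by
    intro I
    by_cases h1 : I ∈ coprimeTo K T
    · by_cases h2 : v ∣ I
      · have h3 : I ∉ coprimeTo K (insert v T) := fun h ↦ h v (Finset.mem_insert_self v T) h2
        have h4 : I ∈ B := ⟨h1, h2⟩
        simp [h1, h3, h4]
      · have h3 : I ∈ coprimeTo K (insert v T) := by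
          intro w hw
          rcases Finset.mem_insert.mp hw with rfl | hw
          · exact h2
          · exact h1 w hw
        have h4 : I ∉ B := fun h ↦ h2 h.2
        simp [h1, h3, h4]
    · have h3 : I ∉ coprimeTo K (insert v T) := fun h ↦ h1 fun w hw ↦ h w (Finset.mem_insert_of_mem hw)
      have h4 : I ∉ B := fun h ↦ h1 h.1
      simp [h1, h3, h4]
  have hsumB : ∑' I, Set.indicator B g I = g v * zetaT K T s := by
    have hinj : Function.Injective (fun J : Ideal (𝓞 K) ↦ v * J) := mul_right_injective₀ hv0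
    have hsupp : Function.support (Set.indicator B g) ⊆ Set.range (fun J : Ideal (𝓞 K) ↦ v * J) := by
      intro I hI
      have hIB : I ∈ B := by
        by_contra h
        exact hI (Set.indicator_of_notMem h g)
      obtain ⟨J, rfl⟩ := hIB.2
      exact ⟨J, rfl⟩
    rw [← hinj.tsum_eq hsupp]
    unfold zetaT
    rw [← tsum_mul_left]
    refine tsum_congr fun J ↦ ?_
    by_cases hJ : J ∈ coprimeTo K T
    · have : v * J ∈ B := ⟨(mul_mem_coprimeTo_iff K hT hv hv0 hvT J).mpr hJ, Dvd.intro J rfl⟩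
      rw [Set.indicator_of_mem this, Set.indicator_of_mem hJ, hg, nrm_mul]
    · have : v * J ∉ B := fun h ↦ hJ ((mul_mem_coprimeTo_iff K hT hv hv0 hvT J).mp h.1)
      rw [Set.indicator_of_notMem this, Set.indicator_of_notMem hJ, mul_zero]
  have h1 : zetaT K T s = zetaT K (insert v T) s + ∑' I, Set.indicator B g I := by
    unfold zetaT
    rw [← (summable_indicator K hs _).tsum_add (summable_indicator K hs _)]
    exact tsum_congr hsplit
  rw [hsumB] at h1
  linarith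

lemma zetaT_eq_prod {s : ℝ} (hs : 1 < s) (T : Finset (Ideal (𝓞 K)))
    (hT : ∀ w ∈ T, w.IsPrime ∧ w ≠ ⊥) :
    zetaT K T s = (∏ v ∈ T, (1 - nrm K s v)) * zetaR K s := by
  classical
  induction T using Finset.induction_on with
  | empty => simp [zetaT_empty]
  | insert v T hvT ih =>
    have hT' : ∀ w ∈ T, w.IsPrime ∧ w ≠ ⊥ := fun w hw ↦ hT w (Finset.mem_insert_of_mem hw)
    obtain ⟨hv, hv0⟩ := hT v (Finset.mem_insert_self v T)
    rw [sieve_step K hs hT' hv hv0 hvT, ih hT', Finset.prod_insert hvT]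
    ring

lemma one_le_zetaT {s : ℝ} (hs : 1 < s) (T : Finset (Ideal (𝓞 K)))
    (hT : ∀ w ∈ T, w.IsPrime ∧ w ≠ ⊥) : 1 ≤ zetaT K T s := by
  have h1 : (1 : Ideal (𝓞 K)) ∈ coprimeTo K T := by
    intro w hw hdvd
    have := (hT w hw).1.ne_top
    exact this (Ideal.isUnit_iff.mp (isUnit_of_dvd_one hdvd))
  have := (summable_indicator K hs (coprimeTo K T)).le_tsum (1 : Ideal (𝓞 K))
    (fun J _ ↦ Set.indicator_nonneg (fun I _ ↦ nrm_nonneg K s I) J)
  rw [Set.indicator_of_mem h1, nrm_one] at this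
  exact this

lemma nrm_prime_lt_one {s : ℝ} (hs : 0 < s) {v : Ideal (𝓞 K)} (hv : v.IsPrime) (hv0 : v ≠ ⊥) :
    nrm K s v < 1 := by
  unfold nrm
  have h2 : 2 ≤ absNorm v := by
    have h0 : absNorm v ≠ 0 := by
      rw [Ne, Ideal.absNorm_eq_zero_iff]; exact hv0
    have h1 : absNorm v ≠ 1 := by
      rw [Ne, Ideal.absNorm_eq_one_iff]; exact hv.ne_top
    omega
  have : (1 : ℝ) < (absNorm v : ℝ) := by exact_mod_cast h2
  exact Real.rpow_lt_one_of_one_lt_of_neg this (by linarith)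

/-- Lower bound of the zeta function by a finite Euler product. -/
theorem one_le_prod_mul_zetaR {s : ℝ} (hs : 1 < s) (T : Finset (Ideal (𝓞 K)))
    (hT : ∀ w ∈ T, w.IsPrime ∧ w ≠ ⊥) :
    1 ≤ (∏ v ∈ T, (1 - nrm K s v)) * zetaR K s := by
  rw [← zetaT_eq_prod K hs T hT]
  exact one_le_zetaT K hs T hT


/-- Upper bound: the sieved zeta function is close to `1` for a suitable finite set of primes. -/
theorem exists_zetaT_le {s : ℝ} (hs : 1 < s) {ε : ℝ} (hε : 0 < ε) :
    ∃ T : Finset (Ideal (𝓞 K)), (∀ w ∈ T, w.IsPrime ∧ w ≠ ⊥) ∧ zetaT K T s ≤ 1 + ε := by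
  classical
  set g := nrm K s with hg
  have hsum : Summable g := summable_nrm K hs
  obtain ⟨F, hF⟩ := ((tendsto_tsum_compl_atTop_zero g).eventually (gt_mem_nhds hε)).exists
  set T : Finset (Ideal (𝓞 K)) :=
    F.biUnion (fun I ↦ if I = 0 then ∅ else (normalizedFactors I).toFinset) with hTdef
  have hT : ∀ w ∈ T, w.IsPrime ∧ w ≠ ⊥ := by
    intro w hw
    rw [hTdef, Finset.mem_biUnion] at hw
    obtain ⟨I, -, hwI⟩ := hw
    by_cases hI : I = 0
    · simp [hI] at hwI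
    · rw [if_neg hI, Multiset.mem_toFinset] at hwI
      have hp : Prime w := prime_of_normalized_factor w hwI
      exact ⟨Ideal.isPrime_of_prime hp, hp.ne_zero⟩
  refine ⟨T, hT, ?_⟩
  have hs0 : s ≠ 0 := by linarith
  have hpt : ∀ I, Set.indicator (coprimeTo K T) g I ≤
      Set.indicator ({1} : Set (Ideal (𝓞 K))) g I + Set.indicator ((F : Set (Ideal (𝓞 K)))ᶜ) g I := by
    intro I
    have hnn1 : 0 ≤ Set.indicator ({1} : Set (Ideal (𝓞 K))) g I :=
      Set.indicator_nonneg (fun J _ ↦ nrm_nonneg K s J) I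
    have hnn2 : 0 ≤ Set.indicator ((F : Set (Ideal (𝓞 K)))ᶜ) g I :=
      Set.indicator_nonneg (fun J _ ↦ nrm_nonneg K s J) I
    by_cases hI : I ∈ coprimeTo K T
    · rw [Set.indicator_of_mem hI]
      by_cases h1 : I = 1
      · subst h1
        rw [Set.indicator_of_mem (Set.mem_singleton _)]
        linarith
      · by_cases h0 : I = 0
        · subst h0
          have : g 0 = 0 := nrm_bot K hs0
          rw [this]
          linarith
        · have hIF : I ∉ F := by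
            intro hIF
            have hnu : ¬ IsUnit I := by
              rw [Ideal.isUnit_iff]
              exact fun h ↦ h1 (by rw [h, Ideal.one_eq_top])
            obtain ⟨p, hp⟩ := exists_mem_normalizedFactors h0 hnu
            have hpT : p ∈ T := by
              rw [hTdef, Finset.mem_biUnion]
              exact ⟨I, hIF, by rw [if_neg h0, Multiset.mem_toFinset]; exact hp⟩
            exact hI p hpT (dvd_of_mem_normalizedFactors hp)
          have : I ∈ ((F : Set (Ideal (𝓞 K)))ᶜ) := by simpa using hIF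
          rw [Set.indicator_of_mem this]
          linarith
    · rw [Set.indicator_of_notMem hI]
      linarith
  have h1 : ∑' I, Set.indicator ({1} : Set (Ideal (𝓞 K))) g I = 1 := by
    rw [tsum_eq_single (1 : Ideal (𝓞 K))]
    · rw [Set.indicator_of_mem (Set.mem_singleton _), hg, nrm_one]
    · intro J hJ
      exact Set.indicator_of_notMem (by simpa using hJ) g
  have h2 : ∑' I, Set.indicator ((F : Set (Ideal (𝓞 K)))ᶜ) g I < ε := by
    rw [← tsum_subtype]
    exact hF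
  have h3 : zetaT K T s ≤ ∑' I, (Set.indicator ({1} : Set (Ideal (𝓞 K))) g I +
      Set.indicator ((F : Set (Ideal (𝓞 K)))ᶜ) g I) := by
    unfold zetaT
    exact (summable_indicator K hs _).tsum_le_tsum hpt
      ((summable_indicator K hs _).add (summable_indicator K hs _))
  rw [(summable_indicator K hs _).tsum_add (summable_indicator K hs _), h1] at h3
  linarith

/-- Upper bound of the zeta function by a finite Euler product, up to `1 + ε`. -/
theorem exists_zetaR_le {s : ℝ} (hs : 1 < s) {ε : ℝ} (hε : 0 < ε) :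
    ∃ T : Finset (Ideal (𝓞 K)), (∀ w ∈ T, w.IsPrime ∧ w ≠ ⊥) ∧
      (∏ v ∈ T, (1 - nrm K s v)) * zetaR K s ≤ 1 + ε := by
  obtain ⟨T, hT, h⟩ := exists_zetaT_le K hs hε
  exact ⟨T, hT, by rwa [← zetaT_eq_prod K hs T hT]⟩


lemma two_le_absNorm {v : Ideal (𝓞 K)} (hv : v.IsPrime) (hv0 : v ≠ ⊥) : 2 ≤ absNorm v := by
  have h0 : absNorm v ≠ 0 := by
    rw [Ne, Ideal.absNorm_eq_zero_iff]; exact hv0
  have h1 : absNorm v ≠ 1 := by
    rw [Ne, Ideal.absNorm_eq_one_iff]; exact hv.ne_top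
  omega

lemma nrm_le_inv {s : ℝ} (hs : 1 ≤ s) {v : Ideal (𝓞 K)} (hv : v.IsPrime) (hv0 : v ≠ ⊥) :
    nrm K s v ≤ (absNorm v : ℝ)⁻¹ := by
  unfold nrm
  have h1 : (1 : ℝ) ≤ (absNorm v : ℝ) := by
    have := two_le_absNorm K hv hv0
    exact_mod_cast (by omega : 1 ≤ absNorm v)
  calc (absNorm v : ℝ) ^ (-s) ≤ (absNorm v : ℝ) ^ (-1 : ℝ) :=
        Real.rpow_le_rpow_of_exponent_le h1 (by linarith)
    _ = (absNorm v : ℝ)⁻¹ := Real.rpow_neg_one _

lemma inv_absNorm_le_half {v : Ideal (𝓞 K)} (hv : v.IsPrime) (hv0 : v ≠ ⊥) :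
    (absNorm v : ℝ)⁻¹ ≤ 1 / 2 := by
  have h2 : (2 : ℝ) ≤ (absNorm v : ℝ) := by exact_mod_cast two_le_absNorm K hv hv0
  rw [one_div]
  exact inv_anti₀ (by norm_num) h2

lemma exp_neg_two_mul_le {x : ℝ} (h0 : 0 ≤ x) (h1 : x ≤ 1 / 2) : Real.exp (-(2 * x)) ≤ 1 - x := by
  have h2 : 1 + 2 * x ≤ Real.exp (2 * x) := by
    have := Real.add_one_le_exp (2 * x)
    linarith
  have hpos : 0 < 1 + 2 * x := by linarith
  rw [Real.exp_neg]
  calc (Real.exp (2 * x))⁻¹ ≤ (1 + 2 * x)⁻¹ := inv_anti₀ hpos h2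
    _ ≤ 1 - x := by
      rw [inv_le_iff_one_le_mul₀ hpos]
      nlinarith

/-- A product of Euler factors over a finite set of primes is bounded below in terms of
`∑ N(v)⁻¹`. -/
lemma exp_le_prod {s : ℝ} (hs : 1 ≤ s) (T : Finset (Ideal (𝓞 K)))
    (hT : ∀ w ∈ T, w.IsPrime ∧ w ≠ ⊥) :
    Real.exp (-(2 * ∑ v ∈ T, (absNorm v : ℝ)⁻¹)) ≤ ∏ v ∈ T, (1 - nrm K s v) := by
  rw [Finset.mul_sum, ← Finset.sum_neg_distrib, Real.exp_sum]
  refine Finset.prod_le_prod (fun v _ ↦ (Real.exp_pos _).le) fun v hv ↦ ?_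
  obtain ⟨hvp, hv0⟩ := hT v hv
  have h1 := nrm_le_inv K hs hvp hv0
  have h2 := inv_absNorm_le_half K hvp hv0
  have h3 : 0 ≤ (absNorm v : ℝ)⁻¹ := by positivity
  calc Real.exp (-(2 * (absNorm v : ℝ)⁻¹)) ≤ 1 - (absNorm v : ℝ)⁻¹ := exp_neg_two_mul_le h3 h2
    _ ≤ 1 - nrm K s v := by linarith

lemma prod_pos {s : ℝ} (hs : 0 < s) (T : Finset (Ideal (𝓞 K)))
    (hT : ∀ w ∈ T, w.IsPrime ∧ w ≠ ⊥) : 0 < ∏ v ∈ T, (1 - nrm K s v) :=
  Finset.prod_pos fun v hv ↦ by
    have := nrm_prime_lt_one K hs (hT v hv).1 (hT v hv).2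
    linarith

lemma zetaR_pos {s : ℝ} (hs : 1 < s) : 0 < zetaR K s := by
  have := one_le_prod_mul_zetaR K hs ∅ (by simp)
  simp at this
  linarith

end OneField

section Compare

variable (K M : Type*) [Field K] [NumberField K] [Field M] [NumberField M]



/-- Key comparison: if outside a "small" set `NS` every prime `v` of `K` has `n` primes of `M` of the
same norm attached to it (disjointly), then `ζ_K(s)^n ≤ C^n ζ_M(s)` for all real `s > 1`. -/
theorem zetaR_pow_le (n : ℕ) (NS : Set (Ideal (𝓞 K))) (σ : ℝ)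
    (hσ : ∀ T : Finset (Ideal (𝓞 K)), (∀ v ∈ T, v ∈ NS ∧ v.IsPrime ∧ v ≠ ⊥) →
      ∑ v ∈ T, (absNorm v : ℝ)⁻¹ ≤ σ)
    (W : Ideal (𝓞 K) → Finset (Ideal (𝓞 M)))
    (hW : ∀ v : Ideal (𝓞 K), v.IsPrime → v ≠ ⊥ → v ∉ NS →
      (W v).card = n ∧ ∀ w ∈ W v, w.IsPrime ∧ w ≠ ⊥ ∧ absNorm w = absNorm v)
    (hdisj : ∀ v v' : Ideal (𝓞 K), v.IsPrime → v ≠ ⊥ → v ∉ NS → v'.IsPrime → v' ≠ ⊥ → v' ∉ NS →
      v ≠ v' → Disjoint (W v) (W v'))
    {s : ℝ} (hs : 1 < s) :
    zetaR K s ^ n ≤ (2 * Real.exp (2 * σ)) ^ n * zetaR M s := by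
  classical
  obtain ⟨T, hT, hle⟩ := exists_zetaR_le K hs (ε := 1) one_pos
  have hs0 : 0 < s := by linarith
  set Tns := T.filter (· ∈ NS) with hTns
  set Tsp := T.filter (· ∉ NS) with hTsp
  have hTns' : ∀ v ∈ Tns, v ∈ NS ∧ v.IsPrime ∧ v ≠ ⊥ := by
    intro v hv
    rw [hTns, Finset.mem_filter] at hv
    exact ⟨hv.2, hT v hv.1⟩
  have hTsp' : ∀ v ∈ Tsp, v.IsPrime ∧ v ≠ ⊥ ∧ v ∉ NS := by
    intro v hv
    rw [hTsp, Finset.mem_filter] at hv
    exact ⟨(hT v hv.1).1, (hT v hv.1).2, hv.2⟩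
  set Pns := ∏ v ∈ Tns, (1 - nrm K s v) with hPns
  set Psp := ∏ v ∈ Tsp, (1 - nrm K s v) with hPsp
  have hprod : ∏ v ∈ T, (1 - nrm K s v) = Pns * Psp :=
    (Finset.prod_filter_mul_prod_filter_not T (· ∈ NS) _).symm
  have hPsp_pos : 0 < Psp := prod_pos K hs0 Tsp fun v hv ↦ ⟨(hTsp' v hv).1, (hTsp' v hv).2.1⟩
  have hc : Real.exp (-(2 * σ)) ≤ Pns := by
    refine le_trans ?_ (exp_le_prod K hs.le Tns fun v hv ↦ (hTns' v hv).2)
    rw [Real.exp_le_exp]
    have := hσ Tns hTns'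
    linarith
  have hcpos : 0 < Real.exp (-(2 * σ)) := Real.exp_pos _
  have hZK : 0 < zetaR K s := zetaR_pos K hs
  have hZM : 0 < zetaR M s := zetaR_pos M hs
  -- the primes of `M`
  set T' := Tsp.biUnion W with hT'def
  have hT' : ∀ w ∈ T', w.IsPrime ∧ w ≠ ⊥ := by
    intro w hw
    rw [hT'def, Finset.mem_biUnion] at hw
    obtain ⟨v, hv, hwv⟩ := hw
    obtain ⟨hvp, hv0, hvNS⟩ := hTsp' v hv
    have := (hW v hvp hv0 hvNS).2 w hwv
    exact ⟨this.1, this.2.1⟩
  have hprodM : ∏ w ∈ T', (1 - nrm M s w) = Psp ^ n := by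
    rw [hT'def, Finset.prod_biUnion]
    · rw [hPsp, ← Finset.prod_pow]
      refine Finset.prod_congr rfl fun v hv ↦ ?_
      obtain ⟨hvp, hv0, hvNS⟩ := hTsp' v hv
      obtain ⟨hcard, hWv⟩ := hW v hvp hv0 hvNS
      rw [← hcard, ← Finset.prod_const]
      refine Finset.prod_congr rfl fun w hw ↦ ?_
      unfold nrm
      rw [(hWv w hw).2.2]
    · intro v hv v' hv' hne
      obtain ⟨hvp, hv0, hvNS⟩ := hTsp' v hv
      obtain ⟨hvp', hv0', hvNS'⟩ := hTsp' v' hv'
      exact hdisj v v' hvp hv0 hvNS hvp' hv0' hvNS' hne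
  have hM : 1 ≤ Psp ^ n * zetaR M s := by
    rw [← hprodM]
    exact one_le_prod_mul_zetaR M hs T' hT'
  -- combine
  have h1 : Psp * zetaR K s ≤ 2 * Real.exp (2 * σ) := by
    have h2 : Real.exp (-(2 * σ)) * (Psp * zetaR K s) ≤ 2 := by
      calc Real.exp (-(2 * σ)) * (Psp * zetaR K s) ≤ Pns * (Psp * zetaR K s) :=
            mul_le_mul_of_nonneg_right hc (mul_pos hPsp_pos hZK).le
        _ = (∏ v ∈ T, (1 - nrm K s v)) * zetaR K s := by rw [hprod]; ring
        _ ≤ 1 + 1 := hle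
        _ = 2 := by norm_num
    have h3 : Real.exp (2 * σ) * Real.exp (-(2 * σ)) = 1 := by
      rw [← Real.exp_add]; simp
    calc Psp * zetaR K s = Real.exp (2 * σ) * (Real.exp (-(2 * σ)) * (Psp * zetaR K s)) := by
          rw [← mul_assoc, h3, one_mul]
      _ ≤ Real.exp (2 * σ) * 2 := mul_le_mul_of_nonneg_left h2 (Real.exp_pos _).le
      _ = 2 * Real.exp (2 * σ) := by ring
  calc zetaR K s ^ n = zetaR K s ^ n * 1 := by ring
    _ ≤ zetaR K s ^ n * (Psp ^ n * zetaR M s) :=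
        mul_le_mul_of_nonneg_left hM (pow_pos hZK n).le
    _ = (Psp * zetaR K s) ^ n * zetaR M s := by ring
    _ ≤ (2 * Real.exp (2 * σ)) ^ n * zetaR M s :=
        mul_le_mul_of_nonneg_right
          (pow_le_pow_left₀ (mul_pos hPsp_pos hZK).le h1 n) hZM.le

/-- The set of primes of `K` to which `n ≥ 2` primes of `M` of the same norm can be attached
cannot have a "small" complement. -/
theorem false_of_small (n : ℕ) (hn : 2 ≤ n) (NS : Set (Ideal (𝓞 K))) (σ : ℝ)
    (hσ : ∀ T : Finset (Ideal (𝓞 K)), (∀ v ∈ T, v ∈ NS ∧ v.IsPrime ∧ v ≠ ⊥) →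
      ∑ v ∈ T, (absNorm v : ℝ)⁻¹ ≤ σ)
    (W : Ideal (𝓞 K) → Finset (Ideal (𝓞 M)))
    (hW : ∀ v : Ideal (𝓞 K), v.IsPrime → v ≠ ⊥ → v ∉ NS →
      (W v).card = n ∧ ∀ w ∈ W v, w.IsPrime ∧ w ≠ ⊥ ∧ absNorm w = absNorm v)
    (hdisj : ∀ v v' : Ideal (𝓞 K), v.IsPrime → v ≠ ⊥ → v ∉ NS → v'.IsPrime → v' ≠ ⊥ → v' ∉ NS →
      v ≠ v' → Disjoint (W v) (W v')) : False := by
  set C := (2 * Real.exp (2 * σ)) ^ n with hC
  have hK := tendsto_sub_one_mul_zetaR K
  have hM := tendsto_sub_one_mul_zetaR M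
  have hleft : Tendsto (fun s : ℝ ↦ ((s - 1) * zetaR K s) ^ n) (𝓝[>] 1)
      (𝓝 (dedekindZeta_residue K ^ n)) := hK.pow n
  have hpow : Tendsto (fun s : ℝ ↦ (s - 1) ^ (n - 1)) (𝓝[>] 1) (𝓝 0) := by
    have hcont : Continuous fun s : ℝ ↦ (s - 1) ^ (n - 1) := by fun_prop
    have := hcont.tendsto 1
    simp only [sub_self] at this
    rw [zero_pow (by omega)] at this
    exact tendsto_nhdsWithin_of_tendsto_nhds this
  have hright : Tendsto (fun s : ℝ ↦ C * ((s - 1) ^ (n - 1) * ((s - 1) * zetaR M s))) (𝓝[>] 1)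
      (𝓝 (C * (0 * dedekindZeta_residue M))) := (hpow.mul hM).const_mul C
  have hle : ∀ᶠ s : ℝ in 𝓝[>] 1, ((s - 1) * zetaR K s) ^ n ≤
      C * ((s - 1) ^ (n - 1) * ((s - 1) * zetaR M s)) := by
    filter_upwards [self_mem_nhdsWithin] with s hs
    have hs1 : 1 < s := hs
    have h := zetaR_pow_le K M n NS σ hσ W hW hdisj hs1
    have hpos : 0 ≤ (s - 1) ^ n := pow_nonneg (by linarith) n
    have hsplit : (s - 1) ^ n = (s - 1) ^ (n - 1) * (s - 1) := by
      rw [← pow_succ]; congr 1; omega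
    calc ((s - 1) * zetaR K s) ^ n = (s - 1) ^ n * zetaR K s ^ n := mul_pow _ _ _
      _ ≤ (s - 1) ^ n * (C * zetaR M s) := mul_le_mul_of_nonneg_left h hpos
      _ = C * ((s - 1) ^ (n - 1) * ((s - 1) * zetaR M s)) := by rw [hsplit]; ring
  have := le_of_tendsto_of_tendsto hleft hright hle
  rw [zero_mul, mul_zero] at this
  have hpos : 0 < dedekindZeta_residue K ^ n := pow_pos (dedekindZeta_residue_pos K) n
  linarith

end Compare

section DegreeTwo

variable (K : Type*) [Field K] [NumberField K]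



/-- the rational prime below a prime ideal -/
def ratPrime (v : Ideal (𝓞 K)) : ℕ := absNorm (Ideal.under ℤ v)

lemma ratPrime_prime {v : Ideal (𝓞 K)} (hv : v.IsPrime) (hv0 : v ≠ ⊥) : (ratPrime K v).Prime := by
  have : NeZero v := ⟨hv0⟩
  exact Nat.absNorm_under_prime v

lemma absNorm_eq_ratPrime_pow {v : Ideal (𝓞 K)} (hv : v.IsPrime) (hv0 : v ≠ ⊥) :
    ∃ f : ℕ, f ≠ 0 ∧ absNorm v = ratPrime K v ^ f := by
  have hp := ratPrime_prime K hv hv0
  have : v.LiesOver (span {((ratPrime K v : ℕ) : ℤ)}) := Int.liesOver_span_absNorm v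
  refine ⟨(span {((ratPrime K v : ℕ) : ℤ)}).inertiaDeg' v, ?_, ?_⟩
  · intro h0
    have h := Ideal.absNorm_eq_pow_inertiaDeg' (p := ratPrime K v) v hp
    rw [h0, pow_zero] at h
    have := two_le_absNorm K hv hv0
    omega
  · exact Ideal.absNorm_eq_pow_inertiaDeg' (p := ratPrime K v) v hp

lemma under_eq_span_ratPrime (v : Ideal (𝓞 K)) :
    Ideal.under ℤ v = span {((ratPrime K v : ℕ) : ℤ)} :=
  (Int.ideal_span_absNorm_eq_self _).symm

lemma card_filter_ratPrime_le (T : Finset (Ideal (𝓞 K))) (hT : ∀ v ∈ T, v.IsPrime ∧ v ≠ ⊥)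
    (p : ℕ) : (T.filter (fun v ↦ ratPrime K v = p)).card ≤ Module.finrank ℚ K := by
  classical
  rcases (T.filter (fun v ↦ ratPrime K v = p)).eq_empty_or_nonempty with h | ⟨v0, hv0⟩
  · rw [h]; simp
  rw [Finset.mem_filter] at hv0
  have hp : p.Prime := hv0.2 ▸ ratPrime_prime K (hT v0 hv0.1).1 (hT v0 hv0.1).2
  set P : Ideal ℤ := span {(p : ℤ)} with hP
  have : P.IsPrime := by
    rw [hP, Ideal.span_singleton_prime (by exact_mod_cast hp.ne_zero)]
    exact Nat.prime_iff_prime_int.mp hp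
  have hfin : (P.primesOver (𝓞 K)).Finite := Algebra.QuasiFinite.finite_primesOver P
  haveI : Fintype (P.primesOver (𝓞 K)) := hfin.fintype
  have hsub : ∀ v ∈ T.filter (fun v ↦ ratPrime K v = p), v ∈ P.primesOver (𝓞 K) := by
    intro v hv
    rw [Finset.mem_filter] at hv
    refine ⟨(hT v hv.1).1, ⟨?_⟩⟩
    rw [hP, ← hv.2]
    exact (under_eq_span_ratPrime K v).symm
  have h1 : (T.filter (fun v ↦ ratPrime K v = p)).card ≤ Fintype.card (P.primesOver (𝓞 K)) := by
    rw [← Finset.card_univ]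
    refine Finset.card_le_card_of_injOn (fun v ↦ if h : v ∈ P.primesOver (𝓞 K) then ⟨v, h⟩
      else Classical.choice ⟨⟨v0, hsub v0 (Finset.mem_filter.mpr hv0)⟩⟩) (fun _ _ ↦ Finset.mem_univ _) ?_
    intro v hv w hw hvw
    simp only [Finset.coe_filter] at hv hw
    have hv' := hsub v (Finset.mem_filter.mpr hv)
    have hw' := hsub w (Finset.mem_filter.mpr hw)
    simp only [dif_pos hv', dif_pos hw'] at hvw
    exact congrArg Subtype.val hvw
  have h2 := Ideal.sum_ramification_inertia_eq_finrank P (𝓞 K)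
  have h3 : Fintype.card (P.primesOver (𝓞 K)) ≤
      ∑ q : P.primesOver (𝓞 K), q.1.ramificationIdx ℤ * q.1.inertiaDeg ℤ := by
    rw [← Finset.card_univ, Finset.card_eq_sum_ones]
    refine Finset.sum_le_sum fun q _ ↦ ?_
    have : q.1.IsPrime := q.2.1
    exact Nat.mul_pos (Ideal.ramificationIdx_pos q.1 ℤ) (Ideal.inertiaDeg_pos q.1 ℤ)
  rw [h2, RingOfIntegers.rank] at h3
  exact h1.trans h3

/-- the constant bounding `∑ N(v)⁻¹` over primes of degree `≥ 2` -/
def smallConst : ℝ := (Module.finrank ℚ K : ℝ) * ∑' n : ℕ, 1 / (n : ℝ) ^ 2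

/-- The primes of degree at least two are "small". -/
theorem sum_inv_absNorm_le_of_not_prime (T : Finset (Ideal (𝓞 K)))
    (hT : ∀ v ∈ T, v.IsPrime ∧ v ≠ ⊥ ∧ ¬ (absNorm v).Prime) :
    ∑ v ∈ T, (absNorm v : ℝ)⁻¹ ≤ smallConst K := by
  classical
  have hT' : ∀ v ∈ T, v.IsPrime ∧ v ≠ ⊥ := fun v hv ↦ ⟨(hT v hv).1, (hT v hv).2.1⟩
  have hsummable : Summable fun n : ℕ ↦ 1 / (n : ℝ) ^ 2 :=
    Real.summable_one_div_nat_pow.mpr one_lt_two
  have h1 : ∀ v ∈ T, (absNorm v : ℝ)⁻¹ ≤ 1 / (ratPrime K v : ℝ) ^ 2 := by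
    intro v hv
    obtain ⟨hvp, hv0, hnp⟩ := hT v hv
    obtain ⟨f, hf0, hf⟩ := absNorm_eq_ratPrime_pow K hvp hv0
    have hp := ratPrime_prime K hvp hv0
    have hf2 : 2 ≤ f := by
      rcases Nat.lt_or_ge f 2 with h | h
      · have : f = 1 := by omega
        rw [this, pow_one] at hf
        exact absurd (hf ▸ hp) hnp
      · exact h
    have hle : (ratPrime K v) ^ 2 ≤ absNorm v := by
      rw [hf]
      exact Nat.pow_le_pow_right hp.pos hf2
    have hpos : (0 : ℝ) < (ratPrime K v : ℝ) ^ 2 := by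
      have : (0 : ℝ) < (ratPrime K v : ℝ) := by exact_mod_cast hp.pos
      positivity
    rw [one_div]
    exact inv_anti₀ hpos (by exact_mod_cast hle)
  calc ∑ v ∈ T, (absNorm v : ℝ)⁻¹ ≤ ∑ v ∈ T, 1 / (ratPrime K v : ℝ) ^ 2 := Finset.sum_le_sum h1
    _ = ∑ p ∈ T.image (ratPrime K), ∑ v ∈ T with ratPrime K v = p, 1 / (ratPrime K v : ℝ) ^ 2 :=
        (Finset.sum_fiberwise_of_maps_to (fun v hv ↦ Finset.mem_image_of_mem _ hv) _).symm
    _ = ∑ p ∈ T.image (ratPrime K),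
          ((T.filter (fun v ↦ ratPrime K v = p)).card : ℝ) * (1 / (p : ℝ) ^ 2) := by
        refine Finset.sum_congr rfl fun p _ ↦ ?_
        rw [← nsmul_eq_mul, ← Finset.sum_const]
        refine Finset.sum_congr rfl fun v hv ↦ ?_
        rw [(Finset.mem_filter.mp hv).2]
    _ ≤ ∑ p ∈ T.image (ratPrime K), (Module.finrank ℚ K : ℝ) * (1 / (p : ℝ) ^ 2) := by
        refine Finset.sum_le_sum fun p _ ↦ ?_
        refine mul_le_mul_of_nonneg_right ?_ (by positivity)
        exact_mod_cast card_filter_ratPrime_le K T hT' p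
    _ = (Module.finrank ℚ K : ℝ) * ∑ p ∈ T.image (ratPrime K), 1 / (p : ℝ) ^ 2 := by
        rw [Finset.mul_sum]
    _ ≤ smallConst K := by
        unfold smallConst
        refine mul_le_mul_of_nonneg_left ?_ (Nat.cast_nonneg _)
        exact hsummable.sum_le_tsum _ (fun n _ ↦ by positivity)

end DegreeTwo

section Split

variable (K M : Type*) [Field K] [NumberField K] [Field M] [NumberField M] [Algebra K M]



lemma finite_primesOver (v : Ideal (𝓞 K)) : (v.primesOver (𝓞 M)).Finite :=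
  Algebra.QuasiFinite.finite_primesOver v

/-- If a nonzero prime `v` of `K` has `[M : K]` primes of `M` above it (i.e. splits completely),
then all of them have the same absolute norm as `v`. -/
theorem absNorm_eq_of_ncard_primesOver {v : Ideal (𝓞 K)} (hv : v.IsPrime) (hv0 : v ≠ ⊥)
    (hsplit : (v.primesOver (𝓞 M)).ncard = Module.finrank K M) :
    ∀ w ∈ v.primesOver (𝓞 M), absNorm w = absNorm v := by
  classical
  have hfin := finite_primesOver K M v
  have : Fintype (v.primesOver (𝓞 M)) := hfin.fintype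
  have hsum := Ideal.sum_ramification_inertia_eq_finrank v (𝓞 M)
  rw [← IsFractionRing.finrank_eq (𝓞 K) K (𝓞 M) M, ← hsplit,
    Set.ncard_eq_toFinset_card' (v.primesOver (𝓞 M)), Set.toFinset_card,
    ← Finset.card_univ, Finset.card_eq_sum_ones] at hsum
  have hle : ∀ q ∈ (Finset.univ : Finset (v.primesOver (𝓞 M))),
      1 ≤ q.1.ramificationIdx (𝓞 K) * q.1.inertiaDeg (𝓞 K) := by
    intro q _
    have : q.1.IsPrime := q.2.1
    exact Nat.mul_pos (Ideal.ramificationIdx_pos q.1 (𝓞 K)) (Ideal.inertiaDeg_pos q.1 (𝓞 K))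
  have heq := (Finset.sum_eq_sum_iff_of_le hle).mp hsum.symm
  intro w hw
  have h1 := heq ⟨w, hw⟩ (Finset.mem_univ _)
  have hf : w.inertiaDeg (𝓞 K) = 1 := Nat.eq_one_of_mul_eq_one_left h1.symm
  have : w.IsPrime := hw.1
  have : w.LiesOver v := hw.2
  have hvmax : v.IsMaximal := hv.isMaximal hv0
  have hw0 : w ≠ ⊥ := Ideal.ne_bot_of_liesOver_of_ne_bot hv0 w
  have hwmax : w.IsMaximal := hw.1.isMaximal hw0
  rw [Ideal.absNorm_eq_pow_inertiaDeg'_of_liesOver w v hv hv0, Ideal.inertiaDeg'_eq_inertiaDeg v w,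
    hf, pow_one]

/-- **Infinitely many degree-one primes do not split completely.**
Let `M / K` be an extension of number fields of degree `≥ 2` and `S` a finite set of ideals of `K`.
There is a nonzero prime `Q ∉ S` of `K` of degree one (its absolute norm is a prime number) such
that the number of primes of `M` above `Q` is not `[M : K]`. -/
theorem exists_degreeOne_prime_ncard_primesOver_ne (hn : 2 ≤ Module.finrank K M)
    (S : Finset (Ideal (𝓞 K))) :
    ∃ Q : Ideal (𝓞 K), Q.IsPrime ∧ Q ≠ ⊥ ∧ Q ∉ S ∧ (absNorm Q).Prime ∧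
      (Q.primesOver (𝓞 M)).ncard ≠ Module.finrank K M := by
  classical
  by_contra hcon
  push Not at hcon
  set n := Module.finrank K M with hn'
  set NS : Set (Ideal (𝓞 K)) := {v | (v.primesOver (𝓞 M)).ncard ≠ n} with hNS
  refine false_of_small K M n hn NS ((S.card : ℝ) + smallConst K) ?_
    (fun v ↦ (finite_primesOver K M v).toFinset) ?_ ?_
  · -- smallness of NS
    intro T hT
    rw [← Finset.sum_filter_add_sum_filter_not T (· ∈ S)]
    refine add_le_add ?_ ?_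
    · calc ∑ v ∈ T.filter (· ∈ S), (absNorm v : ℝ)⁻¹ ≤ ∑ v ∈ T.filter (· ∈ S), (1 : ℝ) := by
            refine Finset.sum_le_sum fun v hv ↦ ?_
            obtain ⟨-, hvp, hv0⟩ := hT v (Finset.mem_filter.mp hv).1
            have := inv_absNorm_le_half K hvp hv0
            linarith
        _ = ((T.filter (· ∈ S)).card : ℝ) := by simp
        _ ≤ (S.card : ℝ) := by
            exact_mod_cast Finset.card_le_card fun v hv ↦ (Finset.mem_filter.mp hv).2
    · refine sum_inv_absNorm_le_of_not_prime K _ fun v hv ↦ ?_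
      rw [Finset.mem_filter] at hv
      obtain ⟨hvNS, hvp, hv0⟩ := hT v hv.1
      exact ⟨hvp, hv0, fun hprime ↦ hvNS (hcon v hvp hv0 hv.2 hprime)⟩
  · -- splitting data
    intro v hvp hv0 hvNS
    have hcard : (v.primesOver (𝓞 M)).ncard = n := by
      by_contra h
      exact hvNS h
    refine ⟨?_, fun w hw ↦ ?_⟩
    · rw [← hcard, Set.ncard_eq_toFinset_card _ (finite_primesOver K M v)]
    · rw [Set.Finite.mem_toFinset] at hw
      have : w.LiesOver v := hw.2
      exact ⟨hw.1, Ideal.ne_bot_of_liesOver_of_ne_bot hv0 w,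
        absNorm_eq_of_ncard_primesOver K M hvp hv0 hcard w hw⟩
  · -- disjointness
    intro v v' _ _ _ _ _ _ hne
    rw [Finset.disjoint_left]
    intro w hw hw'
    rw [Set.Finite.mem_toFinset] at hw hw'
    exact hne (hw.2.over.trans hw'.2.over.symm)

/-- The set of degree-one primes of `K` that do not split completely in `M` is infinite. -/
theorem infinite_degreeOne_prime_ncard_primesOver_ne (hn : 2 ≤ Module.finrank K M) :
    {Q : Ideal (𝓞 K) | Q.IsPrime ∧ Q ≠ ⊥ ∧ (absNorm Q).Prime ∧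
      (Q.primesOver (𝓞 M)).ncard ≠ Module.finrank K M}.Infinite := by
  intro hfin
  obtain ⟨Q, hQp, hQ0, hQS, hQn, hQc⟩ :=
    exists_degreeOne_prime_ncard_primesOver_ne K M hn hfin.toFinset
  exact hQS (hfin.mem_toFinset.mpr ⟨hQp, hQ0, hQn, hQc⟩)

/-- Galois form: there is a degree-one prime `Q ∉ S` of `K` which is ramified or has inertia degree
`≠ 1` in `M` (so, when `M / K` is unramified at `Q`, the Frobenius at `Q` is nontrivial). -/
theorem exists_degreeOne_prime_not_split_of_isGalois [IsGalois K M]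
    (hn : 2 ≤ Module.finrank K M) (S : Finset (Ideal (𝓞 K))) :
    ∃ Q : Ideal (𝓞 K), Q.IsPrime ∧ Q ≠ ⊥ ∧ Q ∉ S ∧ (absNorm Q).Prime ∧
      ¬ (Q.ramificationIdxIn (𝓞 M) = 1 ∧ Q.inertiaDegIn (𝓞 M) = 1) := by
  obtain ⟨Q, hQp, hQ0, hQS, hQn, hQc⟩ := exists_degreeOne_prime_ncard_primesOver_ne K M hn S
  refine ⟨Q, hQp, hQ0, hQS, hQn, fun ⟨he, hf⟩ ↦ hQc ?_⟩
  have h := Ideal.ncard_primesOver_mul_ramificationIdxIn_mul_inertiaDegIn Q (𝓞 M) Gal(M/K)
  rw [he, hf, mul_one, mul_one, IsGalois.card_aut_eq_finrank K M] at h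
  exact h

/-- Galois form for prime degree: in a Galois extension of prime degree, a prime `Q` that does not
split completely has exactly one prime above it. -/
theorem ncard_primesOver_eq_one_of_prime_finrank [IsGalois K M]
    (hp : (Module.finrank K M).Prime) {Q : Ideal (𝓞 K)} (hQ : Q.IsPrime)
    (hQc : (Q.primesOver (𝓞 M)).ncard ≠ Module.finrank K M) :
    (Q.primesOver (𝓞 M)).ncard = 1 := by
  have h := Ideal.ncard_primesOver_mul_ramificationIdxIn_mul_inertiaDegIn Q (𝓞 M) Gal(M/K)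
  rw [IsGalois.card_aut_eq_finrank K M] at h
  have hdvd : (Q.primesOver (𝓞 M)).ncard ∣ Module.finrank K M := Dvd.intro _ h
  rcases (Nat.dvd_prime hp).mp hdvd with h1 | h1
  · exact h1
  · exact absurd h1 hQc

end Split

end

end Fermat.Agent.S14.ZetaSplit
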