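/-
S14 — `blockZ : BlockZ` unconditional (architect: helper55): helper73's `ZetaSplit` (analytic
density argument) + the adapter `blockZ_of_zetaSplit`.
-/
import Fermat.Agent.S14.BlockZProof
import Fermat.Agent.S14.ZetaSplit

set_option autoImplicit false

namespace Fermat.Agent.S14

open NumberField nonZeroDivisors

theorem zetaSplit : ZetaSplitStatement := by
  intro K M _ _ _ _ _ _ hn S
  obtain ⟨Q, hQp, hQ0, hQS, hQn, hns⟩ :=
    ZetaSplit.exists_degreeOne_prime_not_split_of_isGalois K M hn S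
  refine ⟨Q, hQp, hQ0, hQS, hQn, fun hall => hns ?_⟩
  have hQmax : Q.IsMaximal := hQp.isMaximal hQ0
  obtain ⟨P, hPmax, hPQ⟩ := Ideal.exists_maximal_ideal_liesOver_of_isIntegral (S := 𝓞 M) Q
  have hP : P.IsPrime := hPmax.isPrime
  obtain ⟨he, hf⟩ := hall P hP hPQ
  exact ⟨by rw [Ideal.ramificationIdxIn_eq_ramificationIdx Q P (M ≃ₐ[K] M), he],
    by rw [Ideal.inertiaDegIn_eq_inertiaDeg Q P (M ≃ₐ[K] M), hf]⟩

/-- **Block (Z)**, unconditional. -/
theorem blockZ : BlockZ := blockZ_of_zetaSplit zetaSplit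

end Fermat.Agent.S14
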