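import Mathlib
import Fermat.Agent.S14.Defs

/-!
# Degree-one primes give norm classes (S14, adapter for block Z2)

For number fields `E'/E` and a nonzero prime `Q` of `𝓞 E'` whose absolute norm is a prime number,
the relative norm of `Q` is the prime `Q ∩ 𝓞 E` below it; hence the class of `Q ∩ 𝓞 E` lies in
`normClasses E E'`.
-/

set_option autoImplicit false

namespace Fermat.Agent.S14.NormClassesDegreeOne

open NumberField nonZeroDivisors Fermat.Agent.S14

variable (E E' : Type*) [Field E] [NumberField E] [Field E'] [NumberField E'] [Algebra E E']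

/-- The relative inertia degree of a prime of prime absolute norm is `1`. -/
theorem inertiaDeg_eq_one_of_prime (Q : Ideal (𝓞 E')) [Q.IsPrime]
    (hQ : (Ideal.absNorm Q).Prime) : Q.inertiaDeg (𝓞 E) = 1 := by
  have h := Ideal.absNorm_pow_inertiaDeg (Q.under (𝓞 E)) Q
  exact ((Nat.Prime.pow_eq_iff hQ).mp h).2

omit [NumberField E] [NumberField E'] in
theorem under_ne_bot (Q : Ideal (𝓞 E')) (hQ0 : Q ≠ ⊥) : Q.under (𝓞 E) ≠ ⊥ :=
  Ideal.under_ne_bot (𝓞 E) hQ0

/-- The relative norm of a degree-one prime is the prime below it. -/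
theorem relNorm_eq_under_of_prime (Q : Ideal (𝓞 E')) [Q.IsPrime] (hQ0 : Q ≠ ⊥)
    (hQ : (Ideal.absNorm Q).Prime) : Ideal.relNorm (𝓞 E) Q = Q.under (𝓞 E) := by
  have hQmax : Q.IsMaximal := Ring.DimensionLEOne.maximalOfPrime hQ0 inferInstance
  have hqmax : (Q.under (𝓞 E)).IsMaximal :=
    Ring.DimensionLEOne.maximalOfPrime (under_ne_bot E E' Q hQ0) inferInstance
  rw [Ideal.relNorm_eq_pow_of_isMaximal Q (Q.under (𝓞 E)), inertiaDeg_eq_one_of_prime E E' Q hQ,
    pow_one]

/-- The class of the prime below a degree-one prime of `E'` is a norm class. -/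
theorem mk0_under_mem_normClasses (Q : Ideal (𝓞 E')) [Q.IsPrime] (hQ0 : Q ≠ ⊥)
    (hQ : (Ideal.absNorm Q).Prime) :
    ClassGroup.mk0 (⟨Q.under (𝓞 E),
      mem_nonZeroDivisors_iff_ne_zero.mpr (under_ne_bot E E' Q hQ0)⟩ : (Ideal (𝓞 E))⁰)
      ∈ normClasses E E' := by
  apply Subgroup.subset_closure
  exact ⟨Q, _, hQ0, (relNorm_eq_under_of_prime E E' Q hQ0 hQ).symm, rfl⟩

end Fermat.Agent.S14.NormClassesDegreeOne
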