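/-
S14 / Z1 (helper2): partial zeta functions of ideal classes have bounded differences near `s = 1⁺`.

Main results (namespace `Fermat.Agent.S14.Zeta`):
* `exists_bound_partialZeta_sub K C C'` :
    `∃ B, ∀ᶠ s in 𝓝[>] 1, |partialZeta K C s - partialZeta K C' s| ≤ B`
* `exists_bound_classCharSum K χ hχ` : for a nontrivial `χ : ClassGroup (𝓞 K) →* ℂ`,
    `∃ B, ∀ᶠ s in 𝓝[>] 1, ‖∑ C, χ C * (partialZeta K C s : ℂ)‖ ≤ B`
  (i.e. the class-group `L`-function `L(s,χ)` stays bounded as `s → 1⁺`).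
-/
import Mathlib
import Fermat.Agent.S14.Zeta.Defs
import Fermat.Agent.S14.Zeta.Glue
import Fermat.Agent.S14.Zeta.Shift
set_option autoImplicit false
open NumberField NumberField.mixedEmbedding NumberField.Units NumberField.InfinitePlace
open scoped nonZeroDivisors ENNReal Topology
open Filter

namespace Fermat.Agent.S14.Zeta
variable (K : Type*) [Field K] [NumberField K]

theorem latticeSum_one (s : ℝ) :
    latticeSum K ((1 : (Ideal (𝓞 K))⁰) : Ideal (𝓞 K)) s = ∑' a : 𝓞 K, Fs K s (iota K a) := by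
  let e : ((1 : (Ideal (𝓞 K))⁰) : Ideal (𝓞 K)) ≃ 𝓞 K :=
    { toFun := fun a => a.1
      invFun := fun a => ⟨a, by simp⟩
      left_inv := fun a => rfl
      right_inv := fun a => rfl }
  exact e.tsum_eq (fun a : 𝓞 K => Fs K s (iota K a))

/-- Core estimate: comparison of the class `C` with the trivial class. -/
theorem exists_bound_partialZeta_sub_one (C : ClassGroup (𝓞 K)) :
    ∃ B : ℝ, ∀ᶠ s in 𝓝[>] (1 : ℝ), |partialZeta K C s - partialZeta K 1 s| ≤ B := by
  obtain ⟨J, hJ⟩ := ClassGroup.mk0_surjective C⁻¹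
  obtain ⟨D, hD⟩ := exists_shift_bound K J
  set n : ℝ := (Ideal.absNorm (J : Ideal (𝓞 K)) : ℝ) with hn
  have hn0 : 0 < n := absNorm_pos K J
  have hn1 : 1 ≤ n := by
    rw [hn]
    exact_mod_cast Nat.one_le_iff_ne_zero.mpr (Ideal.absNorm_ne_zero_of_nonZeroDivisors J)
  set w : ℝ := (torsionOrder K : ℝ) with hw
  have hw0 : 0 < w := by
    rw [hw]; exact_mod_cast torsionOrder_pos K
  set κ : ℝ := dedekindZeta_residue K / classNumber K with hκ
  have hev1 : ∀ᶠ s in 𝓝[>] (1 : ℝ), (s - 1) * partialZeta K 1 s < κ + 1 :=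
    (tendsto_sub_one_mul_partialZeta K 1).eventually_lt_const (by linarith)
  have hev2 : ∀ᶠ s in 𝓝[>] (1 : ℝ), s ∈ Set.Ioc (1 : ℝ) 2 := Ioc_mem_nhdsGT one_lt_two
  refine ⟨|D| * n / w + (n - 1) * (κ + 1), ?_⟩
  filter_upwards [hev1, hev2] with s h1 hs
  have hs1 : 1 < s := hs.1
  set x := partialZeta K C s with hx
  set y := partialZeta K 1 s with hy
  have hy0 : 0 ≤ y := partialZeta_nonneg K 1 s
  set a : ℝ := n ^ (s - 1) with ha
  have ha0 : 0 < a := Real.rpow_pos_of_pos hn0 _
  have ha1 : 1 ≤ a := Real.one_le_rpow hn1 (by linarith)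
  have han : a ≤ n := by
    have := Real.rpow_le_rpow_of_exponent_le hn1 (show s - 1 ≤ 1 by linarith [hs.2])
    rwa [Real.rpow_one] at this
  have hab : a - 1 ≤ (s - 1) * (n - 1) := by
    have := rpow_one_add_le_one_add_mul_self (s := n - 1) (by linarith) (p := s - 1)
      (by linarith) (by linarith [hs.2])
    rw [show 1 + (n - 1) = n by ring] at this
    linarith
  -- the two orbit identities
  have e1 : w * x = n ^ s * latticeSum K J s := torsionOrder_mul_partialZeta K C J hJ hs1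
  have e2 : w * y = ∑' b : 𝓞 K, Fs K s (iota K b) := by
    have := torsionOrder_mul_partialZeta K 1 (1 : (Ideal (𝓞 K))⁰) (by simp) hs1
    rw [latticeSum_one] at this
    simpa using this
  have e3 := hD s hs
  rw [← e2] at e3
  have hns : n ^ s = n * a := by
    rw [ha, ← Real.rpow_one_add' hn0.le (by linarith), ]
    congr 1; ring
  -- n * B = w * x / a
  have e4 : n * latticeSum K J s = w * x / a := by
    rw [e1, hns]; field_simp
  rw [e4] at e3
  -- |a y - x| ≤ |D| a / w
  have e5 : |a * y - x| ≤ |D| * a / w := by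
    have h : w * y - w * x / a = (w / a) * (a * y - x) := by field_simp
    rw [h, abs_mul, abs_of_pos (div_pos hw0 ha0)] at e3
    have h2 : |a * y - x| ≤ D * a / w := by
      rw [le_div_iff₀ hw0, ← div_le_iff₀ ha0] at *
      · calc |a * y - x| * w / a = w / a * |a * y - x| := by ring
          _ ≤ D := e3
    exact h2.trans (by gcongr; exact le_abs_self D)
  calc |x - y| = |(x - a * y) + (a - 1) * y| := by ring_nf
    _ ≤ |x - a * y| + |(a - 1) * y| := abs_add_le _ _
    _ = |a * y - x| + (a - 1) * y := by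
        rw [abs_sub_comm, abs_of_nonneg (mul_nonneg (by linarith) hy0)]
    _ ≤ |D| * a / w + (s - 1) * (n - 1) * y := by
        gcongr
    _ = |D| * a / w + (n - 1) * ((s - 1) * y) := by ring
    _ ≤ |D| * n / w + (n - 1) * (κ + 1) := by
        have : 0 ≤ n - 1 := by linarith
        gcongr

theorem exists_bound_partialZeta_sub (C C' : ClassGroup (𝓞 K)) :
    ∃ B : ℝ, ∀ᶠ s in 𝓝[>] (1 : ℝ), |partialZeta K C s - partialZeta K C' s| ≤ B := by
  obtain ⟨B, hB⟩ := exists_bound_partialZeta_sub_one K C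
  obtain ⟨B', hB'⟩ := exists_bound_partialZeta_sub_one K C'
  refine ⟨B + B', ?_⟩
  filter_upwards [hB, hB'] with s h h'
  calc |partialZeta K C s - partialZeta K C' s|
      = |(partialZeta K C s - partialZeta K 1 s) - (partialZeta K C' s - partialZeta K 1 s)| := by
        ring_nf
    _ ≤ |partialZeta K C s - partialZeta K 1 s| + |partialZeta K C' s - partialZeta K 1 s| :=
        abs_sub _ _
    _ ≤ B + B' := add_le_add h h'

/-- The class-group `L`-series `∑_C χ(C) ζ(s,C)` of a nontrivial character stays bounded as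
`s → 1⁺`. -/
theorem exists_bound_classCharSum (χ : ClassGroup (𝓞 K) →* ℂ) (hχ : χ ≠ 1) :
    ∃ B : ℝ, ∀ᶠ s in 𝓝[>] (1 : ℝ),
      ‖∑ C : ClassGroup (𝓞 K), χ C * ((partialZeta K C s : ℝ) : ℂ)‖ ≤ B := by
  classical
  choose B hB using fun C : ClassGroup (𝓞 K) => exists_bound_partialZeta_sub_one K C
  refine ⟨∑ C, B C, ?_⟩
  have hall : ∀ᶠ s in 𝓝[>] (1 : ℝ), ∀ C : ClassGroup (𝓞 K),
      |partialZeta K C s - partialZeta K 1 s| ≤ B C := eventually_all.mpr hB
  filter_upwards [hall] with s hs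
  have hsum0 : ∑ C : ClassGroup (𝓞 K), χ C = 0 := sum_hom_units_eq_zero χ hχ
  have hnorm : ∀ C : ClassGroup (𝓞 K), ‖χ C‖ = 1 := fun C =>
    Complex.norm_eq_one_of_pow_eq_one (n := Fintype.card (ClassGroup (𝓞 K)))
      (by rw [← map_pow, pow_card_eq_one, map_one]) Fintype.card_ne_zero
  have hrew : ∑ C : ClassGroup (𝓞 K), χ C * ((partialZeta K C s : ℝ) : ℂ) =
      ∑ C : ClassGroup (𝓞 K), χ C * (((partialZeta K C s - partialZeta K 1 s : ℝ)) : ℂ) := by
    have : ∑ C : ClassGroup (𝓞 K), χ C * ((partialZeta K 1 s : ℝ) : ℂ) = 0 := by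
      rw [← Finset.sum_mul, hsum0, zero_mul]
    rw [← sub_zero (∑ C : ClassGroup (𝓞 K), χ C * ((partialZeta K C s : ℝ) : ℂ)), ← this,
      ← Finset.sum_sub_distrib]
    refine Finset.sum_congr rfl fun C _ => ?_
    push_cast
    ring
  rw [hrew]
  refine (norm_sum_le _ _).trans (Finset.sum_le_sum fun C _ => ?_)
  rw [norm_mul, hnorm C, one_mul, Complex.norm_real, Real.norm_eq_abs]
  exact hs C

end Fermat.Agent.S14.Zeta
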