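import Fermat.Agent.S14.SecondIneqB
import Fermat.Agent.S14.PartialZeta

/-!
# `CrossingBlocks.SecondIneq`, unconditionally (S14, blocks Z1 + Z2)
-/

set_option autoImplicit false

namespace Fermat.Agent.S14.SecondIneqFinal

open NumberField Fermat.Agent.S14

/-- **(Z1)** holds: class-group `L`-functions of nontrivial characters are bounded near `1⁺`. -/
theorem boundedClassL : SecondIneqB.BoundedClassL :=
  fun E _ _ χ hχ => Zeta.exists_bound_classCharSum E χ hχ

/-- **(Z2)** the second (analytic) inequality at modulus `1`, in the shape consumed by the
crossing argument. -/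
theorem secondIneq : CrossingBlocks.SecondIneq :=
  SecondIneqB.secondIneq_of_boundedClassL boundedClassL

end Fermat.Agent.S14.SecondIneqFinal
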