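/-
S14 / X5.closed (helper49): `BlockAux` UNCONDITIONALLY.

`BlockAuxAsm.BlockSecondIneq` from the analytic second inequality `CrossingBlocks.SecondIneq`
(helper71 `SecondIneqB` + helper2 `PartialZeta`, landed as `SecondIneqFinal.secondIneq`) with
`H := normClasses F L` (helper24's `NormClassesDegreeOne`), then
`BlockAuxFinal.blockAux_of` + helper55/helper73's `blockZ`.
-/
import Fermat.Agent.S14.BlockAuxFinal
import Fermat.Agent.S14.SecondIneqFinal
import Fermat.Agent.S14.NormClassesDegreeOne
import Fermat.Agent.S14.BlockZFinal

set_option autoImplicit false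

namespace Fermat.Agent.S14.BlockAuxClosed

open NumberField nonZeroDivisors Fermat.Agent.S14

/-- The second inequality for `normClasses`, for an arbitrary extension of number fields. -/
theorem index_normClasses_le (E E' : Type) [Field E] [NumberField E] [Field E'] [NumberField E']
    [Algebra E E'] : (normClasses E E').index ≤ Module.finrank E E' := by
  refine SecondIneqFinal.secondIneq E E' (normClasses E E') 0 ?_
  intro Q hQ hQ0 hQn _
  exact NormClassesDegreeOne.mk0_under_mem_normClasses E E' Q hQ0 hQn

/-- **(Z2)** in the shape consumed by `BlockAuxAsm.blockAux_of_blocks`. -/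
theorem blockSecondIneq : BlockAuxAsm.BlockSecondIneq := by
  intro F L _ _ _ _ _ _ p _ _ _ hdeg _
  rw [← hdeg]
  exact index_normClasses_le F L

/-- **(X5)** `BlockAux`, unconditionally. -/
theorem blockAux : BlockAux :=
  BlockAuxFinal.blockAux_of blockSecondIneq blockZ

end Fermat.Agent.S14.BlockAuxClosed
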