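/-
S14 — block (D-conj): conjugation equivariance of Artin maps (helper69).

For number fields `K ⊆ L` with `L/K` Galois and unramified (`Unram K L`), `K/ℚ` normal, ANY Artin map
`art` of `L/K` (`IsArtinMap K L art`) and `τ : L ≃ₐ[ℚ] L`:

  `art (τ|_K • I) = τ (art I) τ⁻¹`   for every nonzero prime `I` of `𝓞 K`,

where the conjugate is the `K`-algebra automorphism `conjAlgEquiv τ σ`; in `restrictScalars ℚ` form
this is `art_conj_restrictScalars`.  Also `(D-uniq)`: `eq_art_of_isArithFrobAt`.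
-/
import Fermat.Agent.S14.Defs

set_option autoImplicit false
set_option linter.unusedSectionVars false

open NumberField nonZeroDivisors Pointwise

namespace Fermat.Agent.S14.ArtinConj

variable {K L : Type*} [Field K] [NumberField K] [Field L] [NumberField L] [Algebra K L]
  [IsGalois K L]

/-- (D-uniq) -/
theorem eq_art_of_isArithFrobAt {art : (Ideal (𝓞 K))⁰ →* (L ≃ₐ[K] L)} (hart : IsArtinMap K L art)
    (hU : Unram K L) (v : (Ideal (𝓞 K))⁰) (hv : (v : Ideal (𝓞 K)).IsPrime)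
    (P : Ideal (𝓞 L)) (hP : P.IsPrime) (hP0 : P ≠ ⊥) (hPv : P.LiesOver (v : Ideal (𝓞 K)))
    (σ : L ≃ₐ[K] L) (hσ : IsArithFrobAt (𝓞 K) σ P) : σ = art v := by
  have h1 := hart.frob v P hv hP hPv
  have h2 := hσ.mul_inv_mem_inertia h1
  have h3 := hU P hP hP0 _ h2
  exact mul_inv_eq_one.mp h3

section conj

variable [Normal ℚ K]

lemma apply_algebraMap (τ : L ≃ₐ[ℚ] L) (k : K) :
    τ (algebraMap K L k) = algebraMap K L (τ.restrictNormal K k) :=
  (AlgEquiv.restrictNormal_commutes τ K k).symm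

lemma symm_apply_algebraMap (τ : L ≃ₐ[ℚ] L) (k : K) :
    τ.symm (algebraMap K L k) = algebraMap K L ((τ.restrictNormal K).symm k) := by
  apply τ.injective
  rw [AlgEquiv.apply_symm_apply, apply_algebraMap, AlgEquiv.apply_symm_apply]

/-- The conjugate `τ σ τ⁻¹` of `σ ∈ Gal(L/K)` by `τ ∈ Gal(L/ℚ)`, as an element of `Gal(L/K)`. -/
noncomputable def conjAlgEquiv (τ : L ≃ₐ[ℚ] L) (σ : L ≃ₐ[K] L) : L ≃ₐ[K] L :=
  AlgEquiv.ofRingEquiv
    (f := (τ.symm.toRingEquiv.trans σ.toRingEquiv).trans τ.toRingEquiv) (by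
      intro k
      change τ (σ (τ.symm (algebraMap K L k))) = algebraMap K L k
      rw [symm_apply_algebraMap, σ.commutes, apply_algebraMap, AlgEquiv.apply_symm_apply])

@[simp] lemma conjAlgEquiv_apply (τ : L ≃ₐ[ℚ] L) (σ : L ≃ₐ[K] L) (x : L) :
    conjAlgEquiv τ σ x = τ (σ (τ.symm x)) := rfl

lemma conjAlgEquiv_restrictScalars (τ : L ≃ₐ[ℚ] L) (σ : L ≃ₐ[K] L) :
    (conjAlgEquiv τ σ).restrictScalars ℚ = τ * σ.restrictScalars ℚ * τ⁻¹ := by
  ext x
  rfl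



/-- `τ • (algebraMap x) = algebraMap (τ|_K • x)` on rings of integers. -/
lemma smul_algebraMap (τ : L ≃ₐ[ℚ] L) (x : 𝓞 K) :
    τ • (algebraMap (𝓞 K) (𝓞 L) x) = algebraMap (𝓞 K) (𝓞 L) ((τ.restrictNormal K) • x) := by
  apply RingOfIntegers.ext
  exact apply_algebraMap τ (x : K)

lemma restrictNormal_inv (τ : L ≃ₐ[ℚ] L) :
    (τ⁻¹).restrictNormal K = (τ.restrictNormal K)⁻¹ := by
  have := map_inv (AlgEquiv.restrictNormalHom (F := ℚ) (K₁ := L) K) τ
  exact this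

/-- If `P` lies over `I`, then `τ • P` lies over `τ|_K • I`. -/
lemma under_smul (τ : L ≃ₐ[ℚ] L) (P : Ideal (𝓞 L)) :
    (τ • P).under (𝓞 K) = (τ.restrictNormal K) • (P.under (𝓞 K)) := by
  ext x
  rw [Ideal.under_def, Ideal.mem_comap, Ideal.mem_pointwise_smul_iff_inv_smul_mem,
    Ideal.mem_pointwise_smul_iff_inv_smul_mem, Ideal.under_def, Ideal.mem_comap,
    smul_algebraMap, restrictNormal_inv]

/-- The residue cardinality is invariant under the Galois action. -/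
lemma card_quot_smul (σ : K ≃ₐ[ℚ] K) (I : Ideal (𝓞 K)) :
    Nat.card (𝓞 K ⧸ σ • I) = Nat.card (𝓞 K ⧸ I) := by
  refine (Nat.card_congr ?_).symm
  exact (Ideal.quotientEquiv I (σ • I) (MulSemiringAction.toRingEquiv _ (𝓞 K) σ)
    (by rw [Ideal.pointwise_smul_def]; rfl)).toEquiv

/-- Semilinear conjugation of arithmetic Frobenius elements. -/
theorem isArithFrobAt_conj (τ : L ≃ₐ[ℚ] L) (σ : L ≃ₐ[K] L) (P : Ideal (𝓞 L))
    (h : IsArithFrobAt (𝓞 K) σ P) : IsArithFrobAt (𝓞 K) (conjAlgEquiv τ σ) (τ • P) := by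
  intro y
  have h1 := h (τ⁻¹ • y)
  have h2 : τ • ((MulSemiringAction.toAlgHom (𝓞 K) (𝓞 L) σ) (τ⁻¹ • y) -
      (τ⁻¹ • y) ^ Nat.card (𝓞 K ⧸ P.under (𝓞 K))) ∈ τ • P :=
    Ideal.smul_mem_pointwise_smul _ _ _ h1
  rw [smul_sub, smul_pow', smul_inv_smul] at h2
  rw [under_smul, card_quot_smul]
  convert h2 using 2
  apply RingOfIntegers.ext
  change conjAlgEquiv τ σ (y : L) = τ (σ (τ⁻¹ (y : L)))
  rfl



/-- **(D-conj)** conjugation equivariance of any Artin map of an unramified extension `L/K` with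
`K/ℚ` normal: `art (τ|_K • I) = τ (art I) τ⁻¹` for prime `I`. -/
theorem art_conj {art : (Ideal (𝓞 K))⁰ →* (L ≃ₐ[K] L)} (hart : IsArtinMap K L art)
    (hU : Unram K L) (τ : L ≃ₐ[ℚ] L) (I J : (Ideal (𝓞 K))⁰)
    (hI : (I : Ideal (𝓞 K)).IsPrime)
    (hJ : (J : Ideal (𝓞 K)) = (τ.restrictNormal K) • (I : Ideal (𝓞 K))) :
    art J = conjAlgEquiv τ (art I) := by
  obtain ⟨⟨P, hP, hPI⟩⟩ := Ideal.nonempty_primesOver (S := 𝓞 L) (I : Ideal (𝓞 K))
  have hI0 : (I : Ideal (𝓞 K)) ≠ ⊥ := by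
    have := I.2
    rw [mem_nonZeroDivisors_iff_ne_zero] at this
    exact this
  have hP0 : P ≠ ⊥ := by
    rintro rfl
    apply hI0
    rw [hPI.over, Ideal.under_bot]
  have hP' : (τ • P).IsPrime := Ideal.IsPrime.smul τ
  have hP'0 : τ • P ≠ ⊥ := by
    intro h
    apply hP0
    have h1 : τ⁻¹ • (τ • P) = τ⁻¹ • (⊥ : Ideal (𝓞 L)) := by rw [h]
    rw [inv_smul_smul] at h1
    rw [h1, Ideal.pointwise_smul_def, Ideal.map_bot]
  have hP'J : (τ • P).LiesOver (J : Ideal (𝓞 K)) := by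
    constructor
    rw [under_smul, ← hPI.over, hJ]
  have hJp : (J : Ideal (𝓞 K)).IsPrime := by
    rw [hJ]; exact Ideal.IsPrime.smul _
  exact (eq_art_of_isArithFrobAt hart hU J hJp (τ • P) hP' hP'0 hP'J _
    (isArithFrobAt_conj τ (art I) P (hart.frob I P hI hP hPI))).symm

/-- **(D-conj)**, in the `restrictScalars` form of the S14 master plan. -/
theorem art_conj_restrictScalars {art : (Ideal (𝓞 K))⁰ →* (L ≃ₐ[K] L)}
    (hart : IsArtinMap K L art)
    (hU : Unram K L) (τ : L ≃ₐ[ℚ] L) (I J : (Ideal (𝓞 K))⁰)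
    (hI : (I : Ideal (𝓞 K)).IsPrime)
    (hJ : (J : Ideal (𝓞 K)) = (τ.restrictNormal K) • (I : Ideal (𝓞 K))) :
    (art J).restrictScalars ℚ = τ * (art I).restrictScalars ℚ * τ⁻¹ := by
  rw [art_conj hart hU τ I J hI hJ, conjAlgEquiv_restrictScalars]

end conj

end Fermat.Agent.S14.ArtinConj
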