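import Fermat.Agent.S14.JacobiFactor

/-!
# S14: the final step using the weak Stickelberger relation

Let `K = ℚ(ζ_p)` and let `φ` be any monoid homomorphism from the nonzero ideals of `𝓞 K` to a
group of exponent `p` (e.g. the Artin map of an unramified cyclic extension `M/K` of degree `p`)
which kills principal ideals and is `ω⁻¹`-equivariant on primes: `φ (σ • I) ^ k(σ) = φ I` where
`σ ζ = ζ ^ k(σ)`.  Then `φ Q = 1` for every degree-one prime `Q` of `𝓞 K` not above `p`.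
-/

set_option autoImplicit false

open NumberField Pointwise IsCyclotomicExtension IsCyclotomicExtension.Rat nonZeroDivisors

namespace Fermat.Agent.S14.StickelbergerKill

open Fermat.Agent.S14.JacobiFactor

variable {p : ℕ} [hp : Fact p.Prime] {K : Type*} [Field K] [NumberField K]
  [hK : IsCyclotomicExtension {p} ℚ K]

/-- The Galois-indexed, natural-number form of `sum_half_mul_eight`. -/
theorem sum_half_gal_mul_eight (hp2 : p ≠ 2) :
    (((∑ σ ∈ (Finset.univ : Finset Gal(K/ℚ)) with p < 2 * (galEquivZMod p K σ).val.val,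
      (galEquivZMod p K σ).val.val : ℕ) : ZMod p)) * 8 = 1 := by
  classical
  rw [← sum_half_mul_eight (p := p) hp2, Nat.cast_sum]
  congr 1
  refine Finset.sum_equiv (galEquivZMod p K).toEquiv ?_ ?_
  · intro σ
    simp only [Finset.mem_filter, Finset.mem_univ, true_and, MulEquiv.toEquiv_eq_coe,
      EquivLike.coe_coe]
  · intro σ _
    simp only [MulEquiv.toEquiv_eq_coe, EquivLike.coe_coe, ZMod.natCast_val, ZMod.cast_id', id_eq]

omit hp hK in
lemma smul_mem_nonZeroDivisors (σ : Gal(K/ℚ)) {I : Ideal (𝓞 K)} (hI : I ∈ (Ideal (𝓞 K))⁰) :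
    σ • I ∈ (Ideal (𝓞 K))⁰ := by
  rw [mem_nonZeroDivisors_iff_ne_zero] at hI ⊢
  intro h
  apply hI
  have h1 : σ⁻¹ • (σ • I) = σ⁻¹ • (0 : Ideal (𝓞 K)) := by rw [h]
  rw [inv_smul_smul] at h1
  rw [h1, Ideal.zero_eq_bot, Ideal.pointwise_smul_def, Ideal.map_bot]

/-- **Final step**: a homomorphism on nonzero ideals into a group of exponent `p` which kills
principal ideals and is `ω⁻¹`-equivariant kills every degree-one prime not above `p`. -/
theorem map_eq_one_of_equivariant {G : Type*} [Group G] (φ : (Ideal (𝓞 K))⁰ →* G) (hp2 : p ≠ 2)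
    (hpow : ∀ g : G, g ^ p = 1)
    (hprinc : ∀ I : (Ideal (𝓞 K))⁰, (I : Ideal (𝓞 K)).IsPrincipal → φ I = 1)
    (hequiv : ∀ (σ : Gal(K/ℚ)) (I J : (Ideal (𝓞 K))⁰), (I : Ideal (𝓞 K)).IsPrime →
      (J : Ideal (𝓞 K)) = σ • (I : Ideal (𝓞 K)) → φ J ^ (galEquivZMod p K σ).val.val = φ I)
    {Q : Ideal (𝓞 K)} [Q.IsPrime] {q : ℕ} (hq : q.Prime) (hqp : q ≠ p)
    (hQ : Ideal.absNorm Q = q) (hQ0 : Q ∈ (Ideal (𝓞 K))⁰) : φ ⟨Q, hQ0⟩ = 1 := by
  classical
  set g : G := φ ⟨Q, hQ0⟩ with hg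
  -- the translates of `Q`
  let T : Gal(K/ℚ) → (Ideal (𝓞 K))⁰ := fun σ => ⟨σ⁻¹ • Q, smul_mem_nonZeroDivisors σ⁻¹ hQ0⟩
  have hT : ∀ σ : Gal(K/ℚ), φ (T σ) = g ^ (galEquivZMod p K σ).val.val := by
    intro σ
    rw [hg]
    refine (hequiv σ (T σ) ⟨Q, hQ0⟩ (Ideal.IsPrime.smul σ⁻¹) ?_).symm
    change Q = σ • (σ⁻¹ • Q)
    rw [smul_inv_smul]
  set S := (Finset.univ : Finset Gal(K/ℚ)).filter
    (fun σ => p < 2 * (galEquivZMod p K σ).val.val) with hS
  have hprod : (((∏ σ ∈ S, T σ : (Ideal (𝓞 K))⁰)) : Ideal (𝓞 K)) = ∏ σ ∈ S, σ⁻¹ • Q := by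
    rw [Submonoid.coe_finsetProd]
  have h1 : φ (∏ σ ∈ S, T σ) = 1 := by
    apply hprinc
    rw [hprod]
    exact isPrincipal_prod hp2 hq hqp hQ
  have key : ∀ S' : Finset Gal(K/ℚ),
      φ (∏ σ ∈ S', T σ) = g ^ (∑ σ ∈ S', (galEquivZMod p K σ).val.val) := by
    intro S'
    induction S' using Finset.induction_on with
    | empty => simp
    | insert a s ha ih => rw [Finset.prod_insert ha, Finset.sum_insert ha, map_mul, ih, hT, pow_add]
  rw [key] at h1
  -- now `g ^ N = 1` with `8 N ≡ 1 mod p`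
  set N := ∑ σ ∈ S, (galEquivZMod p K σ).val.val with hN
  have h8 : ((N * 8 : ℕ) : ZMod p) = ((1 : ℕ) : ZMod p) := by
    push_cast
    exact sum_half_gal_mul_eight hp2
  rw [ZMod.natCast_eq_natCast_iff] at h8
  have hord : orderOf g ∣ p := orderOf_dvd_of_pow_eq_one (hpow g)
  have h2 : g ^ (N * 8) = g ^ 1 := by
    rw [pow_eq_pow_iff_modEq]
    exact h8.of_dvd hord
  rw [pow_mul, h1, one_pow, pow_one] at h2
  exact h2.symm

end Fermat.Agent.S14.StickelbergerKill
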