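/-
S14 — block (F): the final Stickelberger contradiction, in the consumer shape `BlockF p` of
`Fermat/Agent/S14/Blocks.lean` (helper17).

`BlockF p` is an ADAPTER: it feeds helper85's `StickelbergerKill.map_eq_one_of_equivariant`
(weak Stickelberger relation + `∑_{u > p/2} u ≡ 1/8 mod p`) with

* `hpow`   : `Gal(M/K)` has order `p`;
* `hprinc` : `PrincipalDie art` (block RECIP);
* `hequiv` : `art (σ • Q) ^ k(σ) = art Q`, from the conjugation equivariance (D-conj) of the
  Artin map (only needed at PRIME ideals) and `OmegaInvAction p K M`.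

(D-conj) is taken as the closed Prop `DConjPrime` below (shape of helper55's master plan v1,
restricted to prime ideals, which is all the endgame uses).
-/
import Fermat.Agent.S14.Blocks
import Fermat.Agent.S14.StickelbergerKill

set_option autoImplicit false

namespace Fermat.Agent.S14.BlockFProof

open NumberField nonZeroDivisors Pointwise IsCyclotomicExtension IsCyclotomicExtension.Rat
open Fermat.Agent.S14

/-- **(D-conj), prime case.**  Conjugation equivariance of the Artin map: for `K ⊆ L` both Galois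
over `ℚ`, `L/K` unramified, `τ ∈ Gal(L/ℚ)` and a prime `I` of `𝓞 K`,
`art (τ|_K • I) = τ · art I · τ⁻¹` (equality in `Gal(L/ℚ)`). -/
def DConjPrime : Prop :=
  ∀ (K L : Type) [Field K] [NumberField K] [Field L] [NumberField L] [Algebra K L]
    [IsGalois ℚ K] [IsGalois ℚ L] [IsGalois K L],
    Unram K L → ∀ art : (Ideal (𝓞 K))⁰ →* (L ≃ₐ[K] L), IsArtinMap K L art →
    ∀ (τ : L ≃ₐ[ℚ] L) (I J : (Ideal (𝓞 K))⁰), (I : Ideal (𝓞 K)).IsPrime →
      (J : Ideal (𝓞 K)) = (τ.restrictNormal K) • (I : Ideal (𝓞 K)) →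
      (art J).restrictScalars ℚ = τ * (art I).restrictScalars ℚ * τ⁻¹

/-- `restrictScalars` commutes with powers. -/
theorem restrictScalars_pow {K L : Type*} [Field K] [Field L] [Algebra K L] [Algebra ℚ K]
    [Algebra ℚ L] [IsScalarTower ℚ K L] (σ : L ≃ₐ[K] L) (n : ℕ) :
    (σ ^ n).restrictScalars ℚ = (σ.restrictScalars ℚ) ^ n := by
  induction n with
  | zero => rfl
  | succ n ih => rw [pow_succ, pow_succ, ← ih]; rfl

/-- **Block (F)** from (D-conj) at primes. -/
theorem blockF_of_dconj {p : ℕ} (hconj : DConjPrime) : BlockF p := by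
  intro K M _ _ _ _ _ _ _ _ hp h3 hdeg hunr homega art hart hprin Q hQp hQn hQne
  have : Fact p.Prime := ⟨hp⟩
  have : IsGalois ℚ K := IsCyclotomicExtension.isGalois {p} ℚ K
  have hp2 : p ≠ 2 := by omega
  have hcard : Nat.card (M ≃ₐ[K] M) = p := by rw [IsGalois.card_aut_eq_finrank, hdeg]
  have hpow : ∀ g : M ≃ₐ[K] M, g ^ p = 1 := fun g => by
    rw [← hcard]; exact pow_card_eq_one'
  have : (Q : Ideal (𝓞 K)).IsPrime := hQp
  refine StickelbergerKill.map_eq_one_of_equivariant (p := p) art hp2 hpow hprin ?_ hQn hQne rfl Q.2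
  intro σ I J hI hJ
  obtain ⟨τ, rfl⟩ := AlgEquiv.restrictNormalHom_surjective M σ
  have h1 := hconj K M hunr art hart τ I J hI hJ
  set n := (galEquivZMod p K (AlgEquiv.restrictNormalHom K τ)).val.val with hn
  have hζK : IsPrimitiveRoot (zeta p ℚ K) p := zeta_spec p ℚ K
  have hζ : IsPrimitiveRoot (algebraMap K M (zeta p ℚ K)) p :=
    hζK.map_of_injective (algebraMap K M).injective
  have hτ : τ (algebraMap K M (zeta p ℚ K)) = algebraMap K M (zeta p ℚ K) ^ n := by
    rw [← AlgEquiv.restrictNormal_commutes, ← map_pow]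
    congr 1
    exact galEquivZMod_apply_of_pow_eq p K _ hζK.pow_eq_one
  have h2 := homega τ (art I) _ n hζ hτ
  rw [← h1, ← restrictScalars_pow] at h2
  exact AlgEquiv.restrictScalars_injective ℚ h2

end Fermat.Agent.S14.BlockFProof
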