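/-
S14 — block (F) closed (helper69): `blockF : BlockF p`, unconditional.

`dConjPrime` discharges the hypothesis `BlockFProof.DConjPrime` (conjugation equivariance of Artin
maps at prime ideals) of helper17's adapter `BlockFProof.blockF_of_dconj`, using
`ArtinConj.art_conj_restrictScalars`.
-/
import Fermat.Agent.S14.ArtinConj
import Fermat.Agent.S14.BlockFProof

set_option autoImplicit false

namespace Fermat.Agent.S14.BlockFFinal

open NumberField nonZeroDivisors Pointwise
open Fermat.Agent.S14

/-- **(D-conj) at primes**, as the closed Prop of `BlockFProof`. -/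
theorem dConjPrime : BlockFProof.DConjPrime := by
  intro K L _ _ _ _ _ _ _ _ hU art hart τ I J hI hJ
  exact ArtinConj.art_conj_restrictScalars hart hU τ I J hI hJ

/-- **Block (F)**, unconditional. -/
theorem blockF (p : ℕ) : BlockF p :=
  BlockFProof.blockF_of_dconj dConjPrime

end Fermat.Agent.S14.BlockFFinal
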