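import Fermat.Agent.S14.NormIndexConcrete

/-!
# S14 / B.inst1 : Galois action on the primes of `M` and valuations

Equivariance, finiteness and transitivity statements for the concrete objects of
`NormIndexConcrete.lean`.
-/

set_option autoImplicit false
set_option linter.unusedSectionVars false

open NumberField IsDedekindDomain

namespace Fermat.Agent.S14.GalPrimes

open Fermat.Agent.S14.NormIndexConcrete

variable (K M : Type) [Field K] [NumberField K] [Field M] [NumberField M] [Algebra K M]

/-- the ring automorphism of `𝓞 M` induced by `σ`. -/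
noncomputable abbrev intAut (σ : M ≃ₐ[K] M) : 𝓞 M ≃+* 𝓞 M :=
  MulSemiringAction.toRingEquiv (M ≃ₐ[K] M) (𝓞 M) σ

theorem intAut_apply_coe (σ : M ≃ₐ[K] M) (x : 𝓞 M) : ((intAut K M σ x : 𝓞 M) : M) = σ (x : M) :=
  rfl

theorem intAut_symm_apply_coe (σ : M ≃ₐ[K] M) (x : 𝓞 M) :
    (((intAut K M σ).symm x : 𝓞 M) : M) = σ⁻¹ (x : M) := rfl

theorem mem_primePerm (σ : M ≃ₐ[K] M) (v : HeightOneSpectrum (𝓞 M)) (x : 𝓞 M) :
    x ∈ (primePerm K M σ v).asIdeal ↔ (intAut K M σ).symm x ∈ v.asIdeal := Iff.rfl

theorem primePerm_asIdeal (σ : M ≃ₐ[K] M) (v : HeightOneSpectrum (𝓞 M)) :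
    (primePerm K M σ v).asIdeal = v.asIdeal.map (intAut K M σ) := by
  show v.asIdeal.comap (intAut K M σ).symm = _
  exact Ideal.comap_symm _

theorem primePerm_one : primePerm K M (1 : M ≃ₐ[K] M) = 1 := by
  ext v x
  rw [mem_primePerm]
  have : (intAut K M 1).symm x = x := by
    apply RingOfIntegers.ext
    rw [intAut_symm_apply_coe]; simp
  rw [this]; rfl

theorem primePerm_mul (σ τ : M ≃ₐ[K] M) :
    primePerm K M (σ * τ) = primePerm K M σ * primePerm K M τ := by
  ext v x
  rw [Equiv.Perm.mul_apply, mem_primePerm, mem_primePerm, mem_primePerm]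
  have : (intAut K M (σ * τ)).symm x = (intAut K M τ).symm ((intAut K M σ).symm x) := by
    apply RingOfIntegers.ext
    simp only [intAut_symm_apply_coe, mul_inv_rev, AlgEquiv.mul_apply]
  rw [this]

theorem primePerm_pow (σ : M ≃ₐ[K] M) (n : ℕ) :
    primePerm K M (σ ^ n) = primePerm K M σ ^ n := by
  induction n with
  | zero => simp [primePerm_one]
  | succ n ih => rw [pow_succ, pow_succ, primePerm_mul, ih]

/-! ### (2) equivariance of the valuations -/

section General

variable {R : Type*} [CommRing R] [IsDedekindDomain R]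

/-- the multiplicative automorphism of the ideals induced by a ring automorphism. -/
noncomputable def idealMulEquiv (e : R ≃+* R) : Ideal R ≃* Ideal R where
  toFun := Ideal.map e
  invFun := Ideal.map e.symm
  left_inv I := Ideal.map_of_equiv e
  right_inv I := by
    have := Ideal.map_of_equiv (I := I) e.symm
    rwa [RingEquiv.symm_symm] at this
  map_mul' I J := Ideal.map_mul _ I J

theorem idealMulEquiv_apply (e : R ≃+* R) (I : Ideal R) : idealMulEquiv e I = I.map e := rfl

theorem intValuation_equivOfRingEquiv (e : R ≃+* R) (v : HeightOneSpectrum R) (r : R) :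
    (HeightOneSpectrum.equivOfRingEquiv e v).intValuation (e r) = v.intValuation r := by
  rcases eq_or_ne r 0 with rfl | hr
  · simp
  have her : e r ≠ 0 := (EmbeddingLike.map_ne_zero_iff).mpr hr
  rw [HeightOneSpectrum.intValuation_eq_exp_neg_multiplicity _ her,
    HeightOneSpectrum.intValuation_eq_exp_neg_multiplicity _ hr]
  have h1 : (HeightOneSpectrum.equivOfRingEquiv e v).asIdeal = idealMulEquiv e v.asIdeal := by
    rw [idealMulEquiv_apply]
    show v.asIdeal.comap e.symm = _
    exact Ideal.comap_symm _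
  have h2 : Ideal.span {e r} = idealMulEquiv e (Ideal.span {r}) := by
    rw [idealMulEquiv_apply, Ideal.map_span, Set.image_singleton]
  rw [h1, h2, multiplicity_map_eq]

theorem valuation_equivOfRingEquiv {F : Type*} [Field F] [Algebra R F] [IsFractionRing R F]
    (e : R ≃+* R) (ef : F ≃+* F) (hef : ∀ r : R, ef (algebraMap R F r) = algebraMap R F (e r))
    (v : HeightOneSpectrum R) (x : F) :
    (HeightOneSpectrum.equivOfRingEquiv e v).valuation F (ef x) = v.valuation F x := by
  obtain ⟨a, b, hb, rfl⟩ := IsFractionRing.div_surjective (A := R) x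
  rw [map_div₀, map_div₀, map_div₀, hef, hef, HeightOneSpectrum.valuation_of_algebraMap,
    HeightOneSpectrum.valuation_of_algebraMap, HeightOneSpectrum.valuation_of_algebraMap,
    HeightOneSpectrum.valuation_of_algebraMap, intValuation_equivOfRingEquiv,
    intValuation_equivOfRingEquiv]

end General

theorem valuation_primePerm (σ : M ≃ₐ[K] M) (v : HeightOneSpectrum (𝓞 M)) (x : M) :
    (primePerm K M σ v).valuation M (σ x) = v.valuation M x :=
  valuation_equivOfRingEquiv (intAut K M σ) (σ : M ≃+* M) (fun _ => rfl) v x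

/-- **(2)** the valuation at `σ(Q)` of `σ(x)` is the valuation at `Q` of `x`. -/
theorem ordM_primePerm (σ : M ≃ₐ[K] M) (v : HeightOneSpectrum (𝓞 M)) (x : Mˣ) :
    ordM M (primePerm K M σ v) (sigmaEnd K M σ (Additive.ofMul x)) =
      ordM M v (Additive.ofMul x) := by
  rw [sigmaEnd_apply, ordM_apply, ordM_apply]
  have : ((Units.map ((σ : M →+* M) : M →* M) x : Mˣ) : M) = σ (x : M) := rfl
  rw [this, valuation_primePerm]

/-! ### (3) finiteness -/

theorem ordM_eq_zero_iff (v : HeightOneSpectrum (𝓞 M)) (x : Mˣ) :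
    ordM M v (Additive.ofMul x) = 0 ↔ v.valuation M (x : M) = 1 := by
  have hx : v.valuation M (x : M) ≠ 0 := (Valuation.ne_zero_iff _).mpr (Units.ne_zero _)
  rw [ordM_apply, neg_eq_zero]
  constructor
  · intro h
    rw [← WithZero.exp_log hx, h]
    rfl
  · intro h
    rw [h, WithZero.log_one]

/-- **(3)** a unit of `M` has nonzero valuation at only finitely many primes. -/
theorem ordM_finite (x : Additive Mˣ) :
    {v : HeightOneSpectrum (𝓞 M) | ordM M v x ≠ 0}.Finite := by
  obtain ⟨x, rfl⟩ : ∃ y : Mˣ, Additive.ofMul y = x := ⟨Additive.toMul x, rfl⟩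
  have h1 := HeightOneSpectrum.Support.finite (𝓞 M) ((x : Mˣ) : M)
  have h2 := HeightOneSpectrum.Support.finite (𝓞 M) ((x⁻¹ : Mˣ) : M)
  refine (h1.union h2).subset ?_
  intro v hv
  rw [Set.mem_ofPred_eq, Ne, ordM_eq_zero_iff] at hv
  rcases lt_or_gt_of_ne hv with h | h
  · right
    show 1 < v.valuation M ((x⁻¹ : Mˣ) : M)
    rw [Units.val_inv_eq_inv_val, map_inv₀]
    exact (one_lt_inv₀ (zero_lt_iff.mpr ((Valuation.ne_zero_iff _).mpr (Units.ne_zero _)))).mpr h
  · left
    exact h

/-! ### (4) the prime below, transitivity -/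

theorem mem_primeBelow (v : HeightOneSpectrum (𝓞 M)) (x : 𝓞 K) :
    x ∈ (primeBelow K M v).asIdeal ↔ algebraMap (𝓞 K) (𝓞 M) x ∈ v.asIdeal := Iff.rfl

/-- **(4a)** `σ(Q)` and `Q` lie over the same prime of `K`. -/
theorem primeBelow_primePerm (σ : M ≃ₐ[K] M) (v : HeightOneSpectrum (𝓞 M)) :
    primeBelow K M (primePerm K M σ v) = primeBelow K M v := by
  ext x
  rw [mem_primeBelow, mem_primeBelow, mem_primePerm]
  have : (intAut K M σ).symm (algebraMap (𝓞 K) (𝓞 M) x) = algebraMap (𝓞 K) (𝓞 M) x := by
    apply RingOfIntegers.ext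
    rw [intAut_symm_apply_coe]
    show σ⁻¹ (algebraMap K M (x : K)) = algebraMap K M (x : K)
    exact AlgEquiv.commutes _ _
  rw [this]

/-- **(4b)** transitivity of the Galois group on the primes above a given prime. -/
theorem exists_primePerm_eq [IsGalois K M] {v v' : HeightOneSpectrum (𝓞 M)}
    (h : primeBelow K M v = primeBelow K M v') : ∃ τ : M ≃ₐ[K] M, primePerm K M τ v = v' := by
  have h' : v.asIdeal.under (𝓞 K) = v'.asIdeal.under (𝓞 K) :=
    congrArg HeightOneSpectrum.asIdeal h
  have : v'.asIdeal.LiesOver (v.asIdeal.under (𝓞 K)) := ⟨h'⟩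
  obtain ⟨τ, hτ⟩ := Ideal.exists_smul_eq_of_isGaloisGroup (v.asIdeal.under (𝓞 K))
    v.asIdeal v'.asIdeal (M ≃ₐ[K] M)
  refine ⟨τ, ?_⟩
  ext1
  rw [primePerm_asIdeal, ← hτ]
  rfl

/-- **(4c)** for a generator `σ` of the Galois group: two primes of `M` lie over the same prime
of `K` iff they are in the same `σ`-orbit. -/
theorem primeBelow_eq_iff_of_generator [IsGalois K M] (σ : M ≃ₐ[K] M)
    (hσ : ∀ τ : M ≃ₐ[K] M, τ ∈ Subgroup.zpowers σ) (v v' : HeightOneSpectrum (𝓞 M)) :
    primeBelow K M v = primeBelow K M v' ↔ ∃ i : ℕ, (primePerm K M σ ^ i) v = v' := by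
  constructor
  · intro h
    obtain ⟨τ, hτ⟩ := exists_primePerm_eq K M h
    have hfin : IsOfFinOrder σ := isOfFinOrder_of_finite σ
    have hmem : τ ∈ Submonoid.powers σ := hfin.mem_powers_iff_mem_zpowers.mpr (hσ τ)
    obtain ⟨i, rfl⟩ := hmem
    exact ⟨i, by rw [← primePerm_pow]; exact hτ⟩
  · rintro ⟨i, rfl⟩
    rw [← primePerm_pow, primeBelow_primePerm]

/-! ### (5) valuations of elements of `K` at unramified primes -/

/-- the additive valuation on `Kˣ`. -/
noncomputable def ordK (w : HeightOneSpectrum (𝓞 K)) (β : Kˣ) : ℤ :=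
  -(WithZero.log (w.valuation K (β : K)))

instance primeBelow_liesOver (v : HeightOneSpectrum (𝓞 M)) :
    v.asIdeal.LiesOver (primeBelow K M v).asIdeal := ⟨rfl⟩

/-- **(5)** at a prime of `M` which is unramified over `K`, the valuation of an element of `K` is
its valuation at the prime below (ramification index in the `ramificationIdx'` form). -/
theorem ordM_algebraMap_of_unramified (v : HeightOneSpectrum (𝓞 M))
    (he : (primeBelow K M v).asIdeal.ramificationIdx' v.asIdeal = 1) (β : Kˣ) :
    ordM M v (Additive.ofMul (Units.map (algebraMap K M : K →* M) β)) =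
      ordK K (primeBelow K M v) β := by
  have h := HeightOneSpectrum.valuation_liesOver (K := K) M (primeBelow K M v) v (β : K)
  rw [he, pow_one] at h
  rw [ordM_apply, ordK]
  have : ((Units.map (algebraMap K M : K →* M) β : Mˣ) : M) = algebraMap K M (β : K) := rfl
  rw [this, h]

/-- the same with the ramification index in the new form `Ideal.ramificationIdx`. -/
theorem ordM_algebraMap_of_unramified' (v : HeightOneSpectrum (𝓞 M))
    (he : v.asIdeal.ramificationIdx (𝓞 K) = 1) (β : Kˣ) :
    ordM M v (Additive.ofMul (Units.map (algebraMap K M : K →* M) β)) =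
      ordK K (primeBelow K M v) β := by
  apply ordM_algebraMap_of_unramified
  rw [Ideal.ramificationIdx'_eq_ramificationIdx' (primeBelow K M v).asIdeal v.asIdeal ?_, he]
  exact Ideal.map_ne_bot_of_ne_bot (primeBelow K M v).ne_bot

/-- every prime of `K` has a prime of `M` above it. -/
theorem primeBelow_surjective : Function.Surjective (primeBelow K M) := by
  intro w
  have hmax : w.asIdeal.IsMaximal := w.isPrime.isMaximal w.ne_bot
  obtain ⟨P, hP, hPw'⟩ := Ideal.exists_maximal_ideal_liesOver_of_isIntegral (S := 𝓞 M) w.asIdeal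
  have hPw : P.comap (algebraMap (𝓞 K) (𝓞 M)) = w.asIdeal := (hPw'.over).symm
  have hPbot : P ≠ ⊥ := by
    rintro rfl
    apply w.ne_bot
    rw [← hPw]
    exact Ideal.comap_bot_of_injective _ (FaithfulSMul.algebraMap_injective (𝓞 K) (𝓞 M))
  refine ⟨⟨P, hP.isPrime, hPbot⟩, ?_⟩
  ext1
  exact hPw

end Fermat.Agent.S14.GalPrimes
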