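/-
S14, leaf of block (B2.alg): Galois-invariant ideals in an everywhere unramified extension of
Dedekind domains are extended from the base.
Owner: helper62.
-/
import Mathlib

set_option autoImplicit false

open Pointwise

namespace Fermat.Agent.S14.InvariantIdeals

variable {A B : Type*} [CommRing A] [CommRing B] [IsDedekindDomain A] [IsDedekindDomain B]
  [Algebra A B] [Module.IsTorsionFree A B] [Algebra.IsIntegral A B]
  {G : Type*} [Group G] [Finite G] [MulSemiringAction G B] [SMulCommClass G A B]
  [Algebra.IsInvariant A B G]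

omit [IsDedekindDomain A] [IsDedekindDomain B] [Module.IsTorsionFree A B] [Algebra.IsIntegral A B]
  [Finite G] [Algebra.IsInvariant A B G] in
/-- The Galois action fixes ideals extended from the base. -/
theorem smul_map_algebraMap (g : G) (𝔞 : Ideal A) :
    g • 𝔞.map (algebraMap A B) = 𝔞.map (algebraMap A B) := by
  rw [Ideal.pointwise_smul_def, Ideal.map_map]
  congr 1
  ext a
  simp [smul_algebraMap]

omit [IsDedekindDomain A] [IsDedekindDomain B] [Algebra A B] [Module.IsTorsionFree A B]
  [Algebra.IsIntegral A B] [Finite G] [SMulCommClass G A B] [Algebra.IsInvariant A B G] in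
theorem smul_ideal_mul (g : G) (I J : Ideal B) : g • (I * J) = g • I * g • J := by
  simp only [Ideal.pointwise_smul_def, Ideal.map_mul]

/-- If `P` is a nonzero prime containing the `G`-invariant ideal `I` and `P` is unramified over
`A`, then the extension of `P ∩ A` divides `I`. -/
theorem map_under_dvd
    (hur : ∀ P : Ideal B, P.IsPrime → P ≠ ⊥ → P.ramificationIdx A = 1)
    (I : Ideal B) (hinv : ∀ g : G, g • I = I) (P : Ideal B) [hP : P.IsPrime] (hP0 : P ≠ ⊥)
    (hIP : I ≤ P) : (P.under A).map (algebraMap A B) ∣ I := by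
  classical
  have hp0 : P.under A ≠ ⊥ := Ideal.under_ne_bot A hP0
  have hpprime : (P.under A).IsPrime := Ideal.IsPrime.under A P
  have hpmax : (P.under A).IsMaximal := hpprime.isMaximal hp0
  rw [Ideal.map_algebraMap_eq_finsetProd_pow hp0, Ideal.dvd_iff_le,
    ← IsDedekindDomain.inf_pow_eq_prod_of_prime]
  · refine Finset.le_inf fun Q hQ => ?_
    rw [Set.mem_toFinset] at hQ
    have hQprime : Q.IsPrime := hQ.1
    have hQover : Q.under A = P.under A := (hQ.2.over).symm
    obtain ⟨g, rfl⟩ := Algebra.IsInvariant.exists_smul_of_under_eq A B G P Q hQover.symm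
    have hQ0 : g • P ≠ ⊥ := by
      intro h
      apply hP0
      have := congrArg (fun J => g⁻¹ • J) h
      simpa using this
    rw [hur _ hQprime hQ0, pow_one, ← hinv g]
    exact Ideal.pointwise_smul_le_pointwise_smul_iff.mpr hIP
  · intro Q hQ
    rw [Set.mem_toFinset] at hQ
    have hQprime : Q.IsPrime := hQ.1
    have hQ0 : Q ≠ ⊥ := by
      intro h
      have h1 : Q.under A = P.under A := (hQ.2.over).symm
      rw [h, Ideal.under_bot] at h1
      exact hp0 h1.symm
    exact Ideal.prime_of_isPrime hQ0 hQprime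
  · intro Q _ Q' _ h
    exact h

/-- **Invariant ideals are extended.** Let `B/A` be an integral extension of Dedekind domains
with a finite group `G` acting on `B` with invariants `A`, such that every nonzero prime of `B`
is unramified over `A`. Then every nonzero `G`-invariant ideal of `B` is the extension of an
ideal of `A`. -/
theorem exists_map_eq_of_forall_smul_eq
    (hur : ∀ P : Ideal B, P.IsPrime → P ≠ ⊥ → P.ramificationIdx A = 1)
    (I : Ideal B) (hI : I ≠ ⊥) (hinv : ∀ g : G, g • I = I) :
    ∃ 𝔞 : Ideal A, 𝔞.map (algebraMap A B) = I := by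
  induction I using WellFoundedGT.induction with
  | ind I ih =>
    by_cases htop : I = ⊤
    · exact ⟨⊤, by rw [htop, Ideal.map_top]⟩
    obtain ⟨P, hPmax, hIP⟩ := Ideal.exists_le_maximal I htop
    have hPprime : P.IsPrime := hPmax.isPrime
    have hP0 : P ≠ ⊥ := fun h => hI (le_bot_iff.mp (h ▸ hIP))
    obtain ⟨I', hI'⟩ := map_under_dvd hur I hinv P hP0 hIP
    set 𝔭B := (P.under A).map (algebraMap A B) with h𝔭B
    have h𝔭B0 : 𝔭B ≠ ⊥ := by
      intro h
      apply hI
      rw [hI', h, Ideal.bot_mul]
    have hI'0 : I' ≠ ⊥ := by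
      intro h
      apply hI
      rw [hI', h, Ideal.mul_bot]
    have h𝔭Ble : 𝔭B ≤ P := Ideal.map_le_iff_le_comap.mpr le_rfl
    -- `I'` is invariant
    have hinv' : ∀ g : G, g • I' = I' := by
      intro g
      have h1 := hinv g
      rw [hI', smul_ideal_mul, smul_map_algebraMap] at h1
      exact mul_left_cancel₀ h𝔭B0 h1
    -- `I < I'`
    have hlt : I < I' := by
      refine lt_of_le_of_ne (le_of_eq_of_le hI' Ideal.mul_le_right) fun h => ?_
      have h2 : 𝔭B * I' = ⊤ * I' := by rw [Ideal.top_mul, ← hI', h]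
      have h3 : 𝔭B = ⊤ := mul_right_cancel₀ hI'0 h2
      exact hPprime.ne_top (top_le_iff.mp (h3 ▸ h𝔭Ble))
    obtain ⟨𝔞', h𝔞'⟩ := ih I' hlt hI'0 hinv'
    exact ⟨P.under A * 𝔞', by rw [Ideal.map_mul, h𝔞', hI']⟩

end Fermat.Agent.S14.InvariantIdeals
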