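import Mathlib
import Fermat.Agent.S14.GalPrimes
import Fermat.Agent.S14.InvariantIdeals

/-!
# S14, block B2.alg, row B.inst2 (lemma row 119): `AllNormsOfIdeals`

`M/K` a cyclic extension of number fields, `σ` a generator of `Gal(M/K)`, `p = #Gal(M/K)`,
unramified at every finite prime.  If every nonzero ideal of `𝓞 K` is (principal) × (relative norm
of an ideal of `𝓞 M`), then every `σ`-invariant finitely supported `c : primes of M → ℤ` is of the
form `c v = ord_v β + ∑_{i<p} d (σ^i v)` with `β ∈ Kˣ`: this is `Datum.AllNorms` for the concrete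
datum of `NormIndexConcrete`.

Strategy (no orbit counting, no inertia degrees): for an ideal `J` of `𝓞 M`,
`∏_{i<p} σ^i • J = (relNorm J) 𝓞 M` (`prod_smul_eq_map_relNorm`), because the left side is a
Galois-invariant ideal, hence extended from `𝓞 K` (helper62's `InvariantIdeals`), and both sides
have the same relative norm `(relNorm J)^p`.  Everything else is bookkeeping with
`multiplicity v.asIdeal ·` in the monoid of ideals of `𝓞 M`.

Owner: helper88.
-/

set_option autoImplicit false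
set_option linter.unusedSectionVars false

open NumberField IsDedekindDomain
open scoped Pointwise

namespace Fermat.Agent.S14.AllNormsOfIdeals

open Fermat.Agent.S14.NormIndexConcrete Fermat.Agent.S14.GalPrimes

/-! ### Generic tools on multiplicities of primes in ideals of a Dedekind domain -/

section Dedekind

variable {R : Type*} [CommRing R] [IsDedekindDomain R]

/-- multiplicity of a height one prime in a nonzero ideal is finite. -/
theorem finiteMultiplicity (v : HeightOneSpectrum R) {I : Ideal R} (hI : I ≠ ⊥) :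
    FiniteMultiplicity v.asIdeal I :=
  FiniteMultiplicity.of_prime_left v.prime hI

theorem mult_mul (v : HeightOneSpectrum R) {I J : Ideal R} (hI : I ≠ ⊥) (hJ : J ≠ ⊥) :
    multiplicity v.asIdeal (I * J) = multiplicity v.asIdeal I + multiplicity v.asIdeal J :=
  multiplicity_mul v.prime (finiteMultiplicity v (mul_ne_zero hI hJ))

theorem mult_prod (v : HeightOneSpectrum R) {ι : Type*} (s : Finset ι) (f : ι → Ideal R)
    (hf : ∀ i ∈ s, f i ≠ ⊥) :
    multiplicity v.asIdeal (∏ i ∈ s, f i) = ∑ i ∈ s, multiplicity v.asIdeal (f i) := by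
  classical
  induction s using Finset.induction_on with
  | empty =>
    simp only [Finset.prod_empty, Finset.sum_empty]
    rw [Ideal.one_eq_top]
    exact multiplicity_eq_zero.mpr (fun h => v.isPrime.ne_top (top_le_iff.mp (Ideal.le_of_dvd h)))
  | insert a s ha ih =>
    rw [Finset.prod_insert ha, Finset.sum_insert ha,
      mult_mul v (hf a (Finset.mem_insert_self a s))
        (Finset.prod_ne_zero_iff.mpr fun i hi => hf i (Finset.mem_insert_of_mem hi)),
      ih fun i hi => hf i (Finset.mem_insert_of_mem hi)]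

/-- two nonzero ideals with the same multiplicities are equal. -/
theorem ideal_ext_mult {I J : Ideal R} (hI : I ≠ ⊥) (hJ : J ≠ ⊥)
    (h : ∀ v : HeightOneSpectrum R, multiplicity v.asIdeal I = multiplicity v.asIdeal J) :
    I = J := by
  rw [← Ideal.finprod_heightOneSpectrum_pow_multiplicity hI,
    ← Ideal.finprod_heightOneSpectrum_pow_multiplicity hJ]
  exact finprod_congr fun v => by rw [h v]

theorem mult_self_pow (v : HeightOneSpectrum R) (k : ℕ) :
    multiplicity v.asIdeal (v.asIdeal ^ k) = k :=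
  multiplicity_pow_self v.ne_bot v.prime.not_isUnit k

theorem mult_pow_of_ne {v w : HeightOneSpectrum R} (h : w ≠ v) (k : ℕ) :
    multiplicity w.asIdeal (v.asIdeal ^ k) = 0 := by
  rw [multiplicity_eq_zero]
  intro hdvd
  have h1 : w.asIdeal ∣ v.asIdeal := w.prime.dvd_of_dvd_pow hdvd
  have h2 : v.asIdeal ≤ w.asIdeal := Ideal.le_of_dvd h1
  have hvmax : v.asIdeal.IsMaximal := v.isPrime.isMaximal v.ne_bot
  have := hvmax.eq_of_le w.isPrime.ne_top h2
  exact h (HeightOneSpectrum.ext this.symm)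

/-- the ideal `∏ v ^ (n v)`. -/
noncomputable def idealOf (n : HeightOneSpectrum R →₀ ℕ) : Ideal R :=
  n.prod fun v k => v.asIdeal ^ k

theorem idealOf_ne_bot (n : HeightOneSpectrum R →₀ ℕ) : idealOf n ≠ ⊥ := by
  unfold idealOf Finsupp.prod
  exact Finset.prod_ne_zero_iff.mpr fun v _ => pow_ne_zero _ v.ne_bot

theorem mult_idealOf (n : HeightOneSpectrum R →₀ ℕ) (w : HeightOneSpectrum R) :
    multiplicity w.asIdeal (idealOf n) = n w := by
  classical
  unfold idealOf Finsupp.prod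
  rw [mult_prod w _ _ fun v _ => pow_ne_zero _ v.ne_bot]
  rw [Finset.sum_eq_single w]
  · exact mult_self_pow w _
  · intro v _ hvw
    exact mult_pow_of_ne (Ne.symm hvw) _
  · intro hw
    rw [Finsupp.notMem_support_iff.mp hw, pow_zero, Ideal.one_eq_top]
    exact multiplicity_eq_zero.mpr (fun h => w.isPrime.ne_top (top_le_iff.mp (Ideal.le_of_dvd h)))

/-- the multiplicity function of a nonzero ideal has finite support. -/
theorem finite_support_mult {I : Ideal R} (hI : I ≠ ⊥) :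
    (Function.support fun v : HeightOneSpectrum R => (multiplicity v.asIdeal I : ℤ)).Finite := by
  apply (Ideal.finite_factors hI).subset
  intro v hv
  rw [Function.mem_support, Ne, Nat.cast_eq_zero, multiplicity_eq_zero, not_not] at hv
  exact hv

/-- `v ↦ ord_v J₁ - ord_v J₂`, as a finitely supported function. -/
noncomputable def multDiff (J₁ J₂ : Ideal R) (h₁ : J₁ ≠ ⊥) (h₂ : J₂ ≠ ⊥) :
    HeightOneSpectrum R →₀ ℤ :=
  Finsupp.ofSupportFinite
    (fun v => (multiplicity v.asIdeal J₁ : ℤ) - (multiplicity v.asIdeal J₂ : ℤ))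
    (((finite_support_mult h₁).union (finite_support_mult h₂)).subset
      (Function.support_sub _ _))

theorem multDiff_apply (J₁ J₂ : Ideal R) (h₁ : J₁ ≠ ⊥) (h₂ : J₂ ≠ ⊥) (v : HeightOneSpectrum R) :
    multDiff J₁ J₂ h₁ h₂ v =
      (multiplicity v.asIdeal J₁ : ℤ) - (multiplicity v.asIdeal J₂ : ℤ) := rfl

end Dedekind

/-! ### Number fields -/

section NF

variable (K M : Type) [Field K] [NumberField K] [Field M] [NumberField M] [Algebra K M]

/-- the action of `τ` on the ideals of `𝓞 M`, as a multiplicative equivalence. -/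
noncomputable def smulEquiv (τ : M ≃ₐ[K] M) : Ideal (𝓞 M) ≃* Ideal (𝓞 M) :=
  idealMulEquiv (intAut K M τ)

theorem smulEquiv_apply (τ : M ≃ₐ[K] M) (J : Ideal (𝓞 M)) : smulEquiv K M τ J = τ • J := rfl

theorem smulEquiv_asIdeal (τ : M ≃ₐ[K] M) (v : HeightOneSpectrum (𝓞 M)) :
    smulEquiv K M τ v.asIdeal = (primePerm K M τ v).asIdeal :=
  (primePerm_asIdeal K M τ v).symm

/-- **equivariance of multiplicities.** -/
theorem mult_smul (τ : M ≃ₐ[K] M) (v : HeightOneSpectrum (𝓞 M)) (J : Ideal (𝓞 M)) :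
    multiplicity (primePerm K M τ v).asIdeal (τ • J) = multiplicity v.asIdeal J := by
  rw [← smulEquiv_asIdeal, ← smulEquiv_apply]
  exact multiplicity_map_eq (smulEquiv K M τ)

theorem smul_ne_bot (τ : M ≃ₐ[K] M) {J : Ideal (𝓞 M)} (hJ : J ≠ ⊥) : τ • J ≠ ⊥ := by
  rw [← smulEquiv_apply]
  intro h
  apply hJ
  have : smulEquiv K M τ J = smulEquiv K M τ ⊥ := by
    rw [h]
    exact (map_zero (smulEquiv K M τ).toMonoidWithZeroHom).symm
  exact (smulEquiv K M τ).injective this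

/-- the valuation of an integer is the multiplicity of the prime in the principal ideal. -/
theorem ordM_eq_mult (v : HeightOneSpectrum (𝓞 M)) (u : Mˣ) (b : 𝓞 M)
    (hub : (u : M) = algebraMap (𝓞 M) M b) :
    ordM M v (Additive.ofMul u) = (multiplicity v.asIdeal (Ideal.span {b}) : ℤ) := by
  have hb : b ≠ 0 := by
    rintro rfl
    rw [map_zero] at hub
    exact u.ne_zero hub
  rw [ordM_apply, hub, HeightOneSpectrum.valuation_of_algebraMap,
    HeightOneSpectrum.intValuation_eq_exp_neg_multiplicity v hb, WithZero.log_exp, neg_neg]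

/-! ### The product of the conjugates of an ideal -/

/-- `∏_{i<p} σ^i • J`. -/
noncomputable def conjProd (σ : M ≃ₐ[K] M) (p : ℕ) (J : Ideal (𝓞 M)) : Ideal (𝓞 M) :=
  ∏ i ∈ Finset.range p, (σ ^ i) • J

theorem conjProd_ne_bot (σ : M ≃ₐ[K] M) (p : ℕ) {J : Ideal (𝓞 M)} (hJ : J ≠ ⊥) :
    conjProd K M σ p J ≠ ⊥ :=
  Finset.prod_ne_zero_iff.mpr fun i _ => smul_ne_bot K M (σ ^ i) hJ

theorem smul_conjProd (σ : M ≃ₐ[K] M) (p : ℕ) (hσp : σ ^ p = 1) {J : Ideal (𝓞 M)} (hJ : J ≠ ⊥) :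
    σ • conjProd K M σ p J = conjProd K M σ p J := by
  unfold conjProd
  rw [← smulEquiv_apply, map_prod]
  have h1 : ∀ i ∈ Finset.range p, smulEquiv K M σ ((σ ^ i) • J) = (σ ^ (i + 1)) • J := by
    intro i _
    rw [smulEquiv_apply, smul_smul, ← pow_succ']
  rw [Finset.prod_congr rfl h1]
  have h2 := Finset.prod_range_succ' (fun i => (σ ^ i) • J) p
  have h3 := Finset.prod_range_succ (fun i => (σ ^ i) • J) p
  rw [h3] at h2
  simp only [hσp, pow_zero] at h2
  have h0 : (1 : M ≃ₐ[K] M) • J ≠ ⊥ := smul_ne_bot K M 1 hJ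
  exact (mul_right_cancel₀ h0 h2).symm

theorem smul_conjProd_of_mem (σ : M ≃ₐ[K] M) (p : ℕ) (hσp : σ ^ p = 1) {J : Ideal (𝓞 M)}
    (hJ : J ≠ ⊥) {τ : M ≃ₐ[K] M} (hτ : τ ∈ Subgroup.zpowers σ) :
    τ • conjProd K M σ p J = conjProd K M σ p J := by
  have hle : Subgroup.zpowers σ ≤ MulAction.stabilizer (M ≃ₐ[K] M) (conjProd K M σ p J) := by
    rw [Subgroup.zpowers_le]
    exact smul_conjProd K M σ p hσp hJ
  exact hle hτ

variable [IsGalois K M]

theorem relNorm_conjProd (σ : M ≃ₐ[K] M) (p : ℕ) (J : Ideal (𝓞 M)) :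
    Ideal.relNorm (𝓞 K) (conjProd K M σ p J) = Ideal.relNorm (𝓞 K) J ^ p := by
  unfold conjProd
  rw [map_prod, Finset.prod_congr rfl (fun i _ => Ideal.relNorm_smul (𝓞 K) (σ ^ i) J),
    Finset.prod_const, Finset.card_range]

theorem finrank_int_eq (p : ℕ) (hcard : Nat.card (M ≃ₐ[K] M) = p) :
    Module.finrank (𝓞 K) (𝓞 M) = p := by
  rw [← IsFractionRing.finrank_eq (𝓞 K) K (𝓞 M) M, ← IsGalois.card_aut_eq_finrank, hcard]

/-- **Key identity**: in an unramified cyclic extension, the product of the conjugates of an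
ideal is the extension of its relative norm. -/
theorem conjProd_eq_map_relNorm (σ : M ≃ₐ[K] M) (p : ℕ) (hcard : Nat.card (M ≃ₐ[K] M) = p)
    (hσ : ∀ τ : M ≃ₐ[K] M, τ ∈ Subgroup.zpowers σ)
    (hunr : ∀ v : HeightOneSpectrum (𝓞 M), v.asIdeal.ramificationIdx (𝓞 K) = 1)
    {J : Ideal (𝓞 M)} (hJ : J ≠ ⊥) :
    conjProd K M σ p J = (Ideal.relNorm (𝓞 K) J).map (algebraMap (𝓞 K) (𝓞 M)) := by
  have hσp : σ ^ p = 1 := by rw [← hcard]; exact pow_card_eq_one'
  have hp0 : p ≠ 0 := by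
    rw [← hcard]
    exact Nat.card_pos.ne'
  obtain ⟨𝔠, h𝔠⟩ := InvariantIdeals.exists_map_eq_of_forall_smul_eq
    (A := 𝓞 K) (B := 𝓞 M) (G := M ≃ₐ[K] M)
    (fun P hP hP0 => hunr ⟨P, hP, hP0⟩) (conjProd K M σ p J) (conjProd_ne_bot K M σ p hJ)
    (fun τ => smul_conjProd_of_mem K M σ p hσp hJ (hσ τ))
  have h1 : 𝔠 ^ p = Ideal.relNorm (𝓞 K) J ^ p := by
    rw [← relNorm_conjProd K M σ p J, ← h𝔠, Ideal.relNorm_algebraMap, finrank_int_eq K M p hcard]
  have h2 : 𝔠 = Ideal.relNorm (𝓞 K) J := by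
    apply dvd_antisymm
    · exact (UniqueFactorizationMonoid.pow_dvd_pow_iff_dvd hp0).mp (dvd_of_eq h1)
    · exact (UniqueFactorizationMonoid.pow_dvd_pow_iff_dvd hp0).mp (dvd_of_eq h1.symm)
  rw [← h𝔠, h2]

/-! ### Invariance under the whole group -/

omit [IsGalois K M] in
/-- a function on the primes of `M` invariant under a generator `σ` is invariant under every
element of the Galois group. -/
theorem invariant_of_generator (σ : M ≃ₐ[K] M)
    (hσ : ∀ τ : M ≃ₐ[K] M, τ ∈ Subgroup.zpowers σ) {α : Type*}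
    (c : HeightOneSpectrum (𝓞 M) → α) (hc : ∀ v, c (primePerm K M σ v) = c v)
    (τ : M ≃ₐ[K] M) (v : HeightOneSpectrum (𝓞 M)) : c (primePerm K M τ v) = c v := by
  let H : Subgroup (M ≃ₐ[K] M) :=
    { carrier := {τ | ∀ v, c (primePerm K M τ v) = c v}
      mul_mem' := by
        intro a b ha hb v
        rw [primePerm_mul, Equiv.Perm.mul_apply, ha, hb]
      one_mem' := by
        intro v
        rw [primePerm_one, Equiv.Perm.one_apply]
      inv_mem' := by
        intro a ha v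
        rw [← ha (primePerm K M a⁻¹ v), ← Equiv.Perm.mul_apply, ← primePerm_mul,
          mul_inv_cancel, primePerm_one, Equiv.Perm.one_apply] }
  have hle : Subgroup.zpowers σ ≤ H := (Subgroup.zpowers_le (H := H)).mpr hc
  exact hle (hσ τ) v

/-! ### One half: an invariant effective divisor -/

/-- For an invariant *effective* divisor `n` (with `𝔄 = ∏ v^{n v}`), the hypothesis produces
`a, b ∈ 𝓞 K` and an ideal `J` of `𝓞 M` with
`ord_v a + n v = ord_v b + ∑_{i<p} ord_{σ^i v} J` for every prime `v` of `M`. -/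
theorem exists_of_effective (σ : M ≃ₐ[K] M) (p : ℕ) (hcard : Nat.card (M ≃ₐ[K] M) = p)
    (hσ : ∀ τ : M ≃ₐ[K] M, τ ∈ Subgroup.zpowers σ)
    (hunr : ∀ v : HeightOneSpectrum (𝓞 M), v.asIdeal.ramificationIdx (𝓞 K) = 1)
    (Hyp : ∀ I : Ideal (𝓞 K), I ≠ ⊥ → ∃ (a b : 𝓞 K) (J : Ideal (𝓞 M)), a ≠ 0 ∧ b ≠ 0 ∧ J ≠ ⊥ ∧
      Ideal.span {a} * I = Ideal.span {b} * Ideal.relNorm (𝓞 K) J)
    (n : HeightOneSpectrum (𝓞 M) →₀ ℕ) (hn : ∀ v, n (primePerm K M σ v) = n v) :
    ∃ (a b : 𝓞 K) (J : Ideal (𝓞 M)), a ≠ 0 ∧ b ≠ 0 ∧ J ≠ ⊥ ∧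
      ∀ v : HeightOneSpectrum (𝓞 M),
        multiplicity v.asIdeal (Ideal.span {algebraMap (𝓞 K) (𝓞 M) a}) + n v =
          multiplicity v.asIdeal (Ideal.span {algebraMap (𝓞 K) (𝓞 M) b}) +
            ∑ i ∈ Finset.range p, multiplicity ((primePerm K M σ ^ i) v).asIdeal J := by
  have hnτ := invariant_of_generator K M σ hσ n hn
  have hinv : ∀ τ : M ≃ₐ[K] M, τ • idealOf n = idealOf n := by
    intro τ
    apply ideal_ext_mult (smul_ne_bot K M τ (idealOf_ne_bot n)) (idealOf_ne_bot n)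
    intro v
    obtain ⟨v', rfl⟩ := (primePerm K M τ).surjective v
    rw [mult_smul, mult_idealOf, mult_idealOf, hnτ]
  obtain ⟨𝔞, h𝔞⟩ := InvariantIdeals.exists_map_eq_of_forall_smul_eq
    (A := 𝓞 K) (B := 𝓞 M) (G := M ≃ₐ[K] M)
    (fun P hP hP0 => hunr ⟨P, hP, hP0⟩) (idealOf n) (idealOf_ne_bot n) hinv
  have h𝔞0 : 𝔞 ≠ ⊥ := by
    rintro rfl
    rw [Ideal.map_bot] at h𝔞
    exact idealOf_ne_bot n h𝔞.symm
  obtain ⟨a, b, J, ha, hb, hJ, hEq⟩ := Hyp 𝔞 h𝔞0
  refine ⟨a, b, J, ha, hb, hJ, fun v => ?_⟩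
  have hσ' : ∀ τ : M ≃ₐ[K] M, τ ∈ Subgroup.zpowers σ⁻¹ := by
    intro τ
    rw [Subgroup.zpowers_inv]
    exact hσ τ
  have hmap := congrArg (Ideal.map (algebraMap (𝓞 K) (𝓞 M))) hEq
  rw [Ideal.map_mul, Ideal.map_mul, Ideal.map_span, Ideal.map_span, Set.image_singleton,
    Set.image_singleton, h𝔞, ← conjProd_eq_map_relNorm K M σ⁻¹ p hcard hσ' hunr hJ] at hmap
  have hinj : Function.Injective (algebraMap (𝓞 K) (𝓞 M)) :=
    FaithfulSMul.algebraMap_injective (𝓞 K) (𝓞 M)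
  have ha' : Ideal.span {algebraMap (𝓞 K) (𝓞 M) a} ≠ ⊥ := by
    rw [Ne, Ideal.span_singleton_eq_bot]
    exact fun h => ha (hinj (h.trans (map_zero _).symm))
  have hb' : Ideal.span {algebraMap (𝓞 K) (𝓞 M) b} ≠ ⊥ := by
    rw [Ne, Ideal.span_singleton_eq_bot]
    exact fun h => hb (hinj (h.trans (map_zero _).symm))
  have hmult := congrArg (multiplicity v.asIdeal) hmap
  rw [mult_mul v ha' (idealOf_ne_bot n), mult_mul v hb' (conjProd_ne_bot K M σ⁻¹ p hJ),
    mult_idealOf] at hmult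
  rw [hmult]
  congr 1
  unfold conjProd
  rw [mult_prod v _ _ (fun i _ => smul_ne_bot K M _ hJ)]
  apply Finset.sum_congr rfl
  intro i _
  have h1 : primePerm K M (σ⁻¹ ^ i) ((primePerm K M σ ^ i) v) = v := by
    rw [← primePerm_pow, ← Equiv.Perm.mul_apply, ← primePerm_mul, inv_pow, inv_mul_cancel,
      primePerm_one, Equiv.Perm.one_apply]
  conv_lhs => rw [← h1]
  exact mult_smul K M (σ⁻¹ ^ i) _ J

/-! ### The valuation of an element of `K` viewed in `M` -/

omit [IsGalois K M] in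
/-- the unit of `K` attached to a nonzero integer. -/
noncomputable def unitOf (a : 𝓞 K) (ha : a ≠ 0) : Kˣ :=
  Units.mk0 (algebraMap (𝓞 K) K a)
    (fun h => ha (RingOfIntegers.coe_injective (h.trans (map_zero _).symm)))

omit [IsGalois K M] in
theorem ordM_unitOf (v : HeightOneSpectrum (𝓞 M)) (a : 𝓞 K) (ha : a ≠ 0) :
    ordM M v (Additive.ofMul (Units.map (algebraMap K M : K →* M) (unitOf K a ha))) =
      (multiplicity v.asIdeal (Ideal.span {algebraMap (𝓞 K) (𝓞 M) a}) : ℤ) := by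
  apply ordM_eq_mult
  show algebraMap K M (algebraMap (𝓞 K) K a) = _
  rw [← IsScalarTower.algebraMap_apply, IsScalarTower.algebraMap_apply (𝓞 K) (𝓞 M) M]

/-! ### The main statement (row B.inst2) -/

/-- **Row B.inst2.**  `M/K` cyclic with generator `σ`, `p = #Gal(M/K)`, unramified at all finite
primes (`hunr`, in the form `Ideal.ramificationIdx (𝓞 K) = 1` for all height one primes of `𝓞 M`).
If every nonzero ideal of `𝓞 K` is, up to principal ideals, the relative norm of an ideal of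
`𝓞 M`, then every `σ`-invariant divisor `c` of `M` is `div(β) + N(d)` with `β ∈ Kˣ`. -/
theorem allNorms_of_ideals (σ : M ≃ₐ[K] M) (p : ℕ) (hcard : Nat.card (M ≃ₐ[K] M) = p)
    (hσ : ∀ τ : M ≃ₐ[K] M, τ ∈ Subgroup.zpowers σ)
    (hunr : ∀ v : HeightOneSpectrum (𝓞 M), v.asIdeal.ramificationIdx (𝓞 K) = 1)
    (Hyp : ∀ I : Ideal (𝓞 K), I ≠ ⊥ → ∃ (a b : 𝓞 K) (J : Ideal (𝓞 M)), a ≠ 0 ∧ b ≠ 0 ∧ J ≠ ⊥ ∧
      Ideal.span {a} * I = Ideal.span {b} * Ideal.relNorm (𝓞 K) J)
    (c : HeightOneSpectrum (𝓞 M) →₀ ℤ) (hc : ∀ v, c (primePerm K M σ v) = c v) :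
    ∃ β : Kˣ, ∃ d : HeightOneSpectrum (𝓞 M) →₀ ℤ, ∀ v,
      c v = ordM M v (Additive.ofMul (Units.map (algebraMap K M) β)) +
        ∑ i ∈ Finset.range p, d ((primePerm K M σ ^ i) v) := by
  -- positive and negative parts
  let n₁ : HeightOneSpectrum (𝓞 M) →₀ ℕ := c.mapRange Int.toNat Int.toNat_zero
  let n₂ : HeightOneSpectrum (𝓞 M) →₀ ℕ := (-c).mapRange Int.toNat Int.toNat_zero
  have hn₁ : ∀ v, n₁ (primePerm K M σ v) = n₁ v := by
    intro v
    simp only [n₁, Finsupp.mapRange_apply, hc]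
  have hn₂ : ∀ v, n₂ (primePerm K M σ v) = n₂ v := by
    intro v
    simp only [n₂, Finsupp.mapRange_apply, Finsupp.neg_apply, hc]
  have hcn : ∀ v, c v = (n₁ v : ℤ) - (n₂ v : ℤ) := by
    intro v
    simp only [n₁, n₂, Finsupp.mapRange_apply, Finsupp.neg_apply]
    exact (Int.toNat_sub_toNat_neg (c v)).symm
  obtain ⟨a₁, b₁, J₁, ha₁, hb₁, hJ₁, h₁⟩ :=
    exists_of_effective K M σ p hcard hσ hunr Hyp n₁ hn₁
  obtain ⟨a₂, b₂, J₂, ha₂, hb₂, hJ₂, h₂⟩ :=
    exists_of_effective K M σ p hcard hσ hunr Hyp n₂ hn₂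
  refine ⟨unitOf K b₁ hb₁ * unitOf K a₂ ha₂ * (unitOf K a₁ ha₁)⁻¹ * (unitOf K b₂ hb₂)⁻¹,
    multDiff J₁ J₂ hJ₁ hJ₂, fun v => ?_⟩
  let φ : Additive Kˣ →+ ℤ :=
    (ordM M v).comp (MonoidHom.toAdditive (Units.map (algebraMap K M : K →* M)))
  have hφ : ∀ x : Kˣ, φ (Additive.ofMul x) =
      ordM M v (Additive.ofMul (Units.map (algebraMap K M : K →* M) x)) := fun _ => rfl
  rw [← hφ, ofMul_mul, ofMul_mul, ofMul_mul, ofMul_inv, ofMul_inv, map_add, map_add, map_add,
    map_neg, map_neg, hφ, hφ, hφ, hφ, ordM_unitOf, ordM_unitOf, ordM_unitOf, ordM_unitOf, hcn v]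
  simp only [multDiff_apply, Finset.sum_sub_distrib]
  have e₁ := congrArg (Nat.cast : ℕ → ℤ) (h₁ v)
  have e₂ := congrArg (Nat.cast : ℕ → ℤ) (h₂ v)
  rw [Nat.cast_add, Nat.cast_add, Nat.cast_sum] at e₁ e₂
  linarith

end NF

end Fermat.Agent.S14.AllNormsOfIdeals
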