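/-
S14, block B2.alg, lemma row 115 (B.inst3 ClassGen) — BACKUP copy by helper14.

A finite set `S` of primes of `M`, stable under `σ ∈ Gal(M/K)` and containing a given finite
set `T`, such that every divisor `d` (finitely supported `ℤ`-valued function on the primes of `M`)
is, outside `S`, the divisor of an element `z ∈ Mˣ`.  (Finiteness of the class group.)
-/
import Mathlib
import Fermat.Agent.S14.GalPrimes

set_option autoImplicit false

open NumberField IsDedekindDomain nonZeroDivisors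

namespace Fermat.Agent.S14.ClassGenB

open Fermat.Agent.S14.NormIndexConcrete

variable (K M : Type) [Field K] [NumberField K] [Field M] [NumberField M] [Algebra K M]

/-- The additive valuation `ordM` of `x ∈ Mˣ` is the multiplicity of `v` in the principal
fractional ideal `(x)`. -/
theorem ordM_eq_count (v : HeightOneSpectrum (𝓞 M)) (x : Mˣ) :
    ordM M v (Additive.ofMul x) =
      FractionalIdeal.count M v (FractionalIdeal.spanSingleton (𝓞 M)⁰ (x : M)) := by
  classical
  obtain ⟨a, b, hb, hab⟩ := IsFractionRing.div_surjective (A := 𝓞 M) (x : M)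
  have hb0 : b ≠ 0 := nonZeroDivisors.ne_zero hb
  have hbM : algebraMap (𝓞 M) M b ≠ 0 := by
    rwa [Ne, FaithfulSMul.algebraMap_eq_zero_iff]
  have ha0 : a ≠ 0 := by
    rintro rfl
    rw [map_zero, zero_div] at hab
    exact x.ne_zero hab.symm
  have haM : algebraMap (𝓞 M) M a ≠ 0 := by
    rwa [Ne, FaithfulSMul.algebraMap_eq_zero_iff]
  -- the valuation side
  have hmul : (x : M) * algebraMap (𝓞 M) M b = algebraMap (𝓞 M) M a := by
    rw [← hab, div_mul_cancel₀ _ hbM]
  have hval : v.valuation M (x : M) * v.valuation M (algebraMap (𝓞 M) M b) =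
      v.valuation M (algebraMap (𝓞 M) M a) := by
    rw [← map_mul, hmul]
  have hx0 : v.valuation M (x : M) ≠ 0 := (Valuation.ne_zero_iff _).mpr x.ne_zero
  have hvb0 : v.valuation M (algebraMap (𝓞 M) M b) ≠ 0 := (Valuation.ne_zero_iff _).mpr hbM
  have hlog := congrArg WithZero.log hval
  rw [WithZero.log_mul hx0 hvb0, HeightOneSpectrum.valuation_of_algebraMap,
    HeightOneSpectrum.valuation_of_algebraMap, v.intValuation_if_neg ha0,
    v.intValuation_if_neg hb0, WithZero.log_exp, WithZero.log_exp] at hlog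
  -- the ideal side
  have hI : FractionalIdeal.spanSingleton (𝓞 M)⁰ (x : M) ≠ 0 := by
    rw [Ne, FractionalIdeal.spanSingleton_eq_zero_iff]
    exact x.ne_zero
  have hrepr : FractionalIdeal.spanSingleton (𝓞 M)⁰ (x : M) =
      FractionalIdeal.spanSingleton (𝓞 M)⁰ ((algebraMap (𝓞 M) M) b)⁻¹ *
        ((Ideal.span {a} : Ideal (𝓞 M)) : FractionalIdeal (𝓞 M)⁰ M) := by
    rw [FractionalIdeal.coeIdeal_span_singleton, FractionalIdeal.spanSingleton_mul_spanSingleton,
      ← hab, div_eq_inv_mul]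
  rw [FractionalIdeal.count_well_defined M v hI hrepr, ordM_apply]
  linarith

/-- Main statement with an auxiliary finite set `T`. -/
theorem exists_finset_generating_of_subset (σ : M ≃ₐ[K] M)
    (T : Finset (HeightOneSpectrum (𝓞 M))) :
    ∃ S : Finset (HeightOneSpectrum (𝓞 M)), T ⊆ S ∧ (∀ v ∈ S, primePerm K M σ v ∈ S) ∧
      ∀ d : HeightOneSpectrum (𝓞 M) →₀ ℤ, ∃ z : Mˣ,
        ∀ v ∉ S, ordM M v (Additive.ofMul z) = d v := by
  classical
  have hfd : FiniteDimensional K M := inferInstance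
  -- representatives of the ideal classes
  have hrep : ∀ c : ClassGroup (𝓞 M), ∃ J : (Ideal (𝓞 M))⁰, ClassGroup.mk0 J = c :=
    fun c => ClassGroup.mk0_surjective c
  choose rep hrep' using hrep
  have hrep0 : ∀ c, (rep c : Ideal (𝓞 M)) ≠ 0 := fun c => nonZeroDivisors.coe_ne_zero (rep c)
  let S₀ : Finset (HeightOneSpectrum (𝓞 M)) :=
    Finset.univ.biUnion fun c => (Ideal.finite_factors (hrep0 c)).toFinset
  let S₁ : Finset (HeightOneSpectrum (𝓞 M)) := T ∪ S₀
  let S : Finset (HeightOneSpectrum (𝓞 M)) :=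
    (Finset.range (orderOf σ)).biUnion fun i => S₁.image ((primePerm K M σ) ^ i)
  have hord : 0 < orderOf σ := orderOf_pos σ
  have hS₁S : S₁ ⊆ S := by
    intro v hv
    refine Finset.mem_biUnion.mpr ⟨0, Finset.mem_range.mpr hord, ?_⟩
    exact Finset.mem_image.mpr ⟨v, hv, by simp⟩
  refine ⟨S, ?_, ?_, ?_⟩
  · exact (Finset.subset_union_left).trans hS₁S
  · intro v hv
    obtain ⟨i, hi, hvi⟩ := Finset.mem_biUnion.mp hv
    obtain ⟨w, hw, rfl⟩ := Finset.mem_image.mp hvi
    rw [Finset.mem_range] at hi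
    have hstep : primePerm K M σ (((primePerm K M σ) ^ i) w) = ((primePerm K M σ) ^ (i + 1)) w := by
      rw [pow_succ', Equiv.Perm.mul_apply]
    rw [hstep]
    by_cases hlt : i + 1 < orderOf σ
    · exact Finset.mem_biUnion.mpr ⟨i + 1, Finset.mem_range.mpr hlt,
        Finset.mem_image.mpr ⟨w, hw, rfl⟩⟩
    · have heq : i + 1 = orderOf σ := by omega
      have h1 : (primePerm K M σ) ^ (i + 1) = 1 := by
        rw [← Fermat.Agent.S14.GalPrimes.primePerm_pow, heq, pow_orderOf_eq_one,
          Fermat.Agent.S14.GalPrimes.primePerm_one]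
      rw [h1, Equiv.Perm.one_apply]
      exact hS₁S hw
  · intro d
    -- the fractional ideal with divisor `d`
    set I : FractionalIdeal (𝓞 M)⁰ M :=
      d.prod (fun w n => ((w.asIdeal : Ideal (𝓞 M)) : FractionalIdeal (𝓞 M)⁰ M) ^ n) with hIdef
    have hI0 : I ≠ 0 := by
      rw [hIdef, Finsupp.prod, Finset.prod_ne_zero_iff]
      intro w _
      exact zpow_ne_zero _ (FractionalIdeal.coeIdeal_ne_zero.mpr w.ne_bot)
    let Iu : (FractionalIdeal (𝓞 M)⁰ M)ˣ := Units.mk0 I hI0
    set J : (Ideal (𝓞 M))⁰ := rep (ClassGroup.mk M Iu) with hJdef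
    have hJ : ClassGroup.mk0 J = ClassGroup.mk M Iu := hrep' _
    have hJ' := congrArg (ClassGroup.equiv M) hJ
    rw [ClassGroup.equiv_mk0, ClassGroup.equiv_mk, QuotientGroup.mk'_eq_mk'] at hJ'
    obtain ⟨y, ⟨x, rfl⟩, hx⟩ := hJ'
    refine ⟨x, fun v hv => ?_⟩
    have hx' : ((J : Ideal (𝓞 M)) : FractionalIdeal (𝓞 M)⁰ M) *
        FractionalIdeal.spanSingleton (𝓞 M)⁰ (x : M) = I := by
      have := congrArg Units.val hx
      simpa [Iu] using this
    have hJ0 : ((J : Ideal (𝓞 M)) : FractionalIdeal (𝓞 M)⁰ M) ≠ 0 :=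
      FractionalIdeal.coeIdeal_ne_zero.mpr (nonZeroDivisors.coe_ne_zero J)
    have hxs : FractionalIdeal.spanSingleton (𝓞 M)⁰ (x : M) ≠ 0 := by
      rw [Ne, FractionalIdeal.spanSingleton_eq_zero_iff]
      exact x.ne_zero
    have hcount := congrArg (FractionalIdeal.count M v) hx'
    rw [FractionalIdeal.count_mul M v hJ0 hxs, hIdef, FractionalIdeal.count_finsuppProd] at hcount
    -- `v` does not divide `J`
    have hvJ : FractionalIdeal.count M v ((J : Ideal (𝓞 M)) : FractionalIdeal (𝓞 M)⁰ M) = 0 := by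
      rw [FractionalIdeal.count_coe M v (nonZeroDivisors.coe_ne_zero J)]
      by_contra hne
      have hne' : (Associates.mk v.asIdeal).count (Associates.mk (J : Ideal (𝓞 M))).factors ≠ 0 := by
        intro h0
        exact hne (by rw [h0]; rfl)
      have hdvd : v.asIdeal ∣ (J : Ideal (𝓞 M)) := by
        have := (Associates.count_ne_zero_iff_dvd (nonZeroDivisors.coe_ne_zero J)
          v.irreducible).mp hne'
        exact this
      apply hv
      apply hS₁S
      refine Finset.mem_union_right _ (Finset.mem_biUnion.mpr ⟨ClassGroup.mk M Iu, Finset.mem_univ _, ?_⟩)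
      rw [Set.Finite.mem_toFinset]
      exact hdvd
    rw [hvJ, zero_add] at hcount
    rw [ordM_eq_count, hcount]

/-- **Row 115, exact shape.** -/
theorem exists_finset_generating (σ : M ≃ₐ[K] M) :
    ∃ S : Finset (HeightOneSpectrum (𝓞 M)), (∀ v ∈ S, primePerm K M σ v ∈ S) ∧
      ∀ d : HeightOneSpectrum (𝓞 M) →₀ ℤ, ∃ z : Mˣ,
        ∀ v ∉ S, ordM M v (Additive.ofMul z) = d v := by
  obtain ⟨S, -, h1, h2⟩ := exists_finset_generating_of_subset K M σ ∅
  exact ⟨S, h1, h2⟩

end Fermat.Agent.S14.ClassGenB
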