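import Fermat.Agent.S14.NormIndexDefs

/-!
# Concrete objects for the norm-index inequality: `M/K` number fields

Definitions only (shared by the rows B.inst1 - B.inst6): the endomorphism of `Additive Mˣ` induced by
`σ ∈ Gal(M/K)`, the permutation of the primes of `M`, the additive valuations.
-/

set_option autoImplicit false
set_option linter.unusedSectionVars false

open NumberField IsDedekindDomain

namespace Fermat.Agent.S14.NormIndexConcrete

variable (K M : Type) [Field K] [NumberField K] [Field M] [NumberField M] [Algebra K M]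

/-- `σ` acting on `Additive Mˣ`, as a `ℤ`-linear endomorphism. -/
noncomputable def sigmaEnd (σ : M ≃ₐ[K] M) : Module.End ℤ (Additive Mˣ) :=
  (MonoidHom.toAdditive (Units.map ((σ : M →+* M) : M →* M))).toIntLinearMap

@[simp] theorem sigmaEnd_apply (σ : M ≃ₐ[K] M) (x : Mˣ) :
    sigmaEnd K M σ (Additive.ofMul x) = Additive.ofMul (Units.map ((σ : M →+* M) : M →* M) x) := rfl

/-- the permutation of the primes of `M` induced by `σ` (`Q ↦ σ(Q)`). -/
noncomputable def primePerm (σ : M ≃ₐ[K] M) : Equiv.Perm (HeightOneSpectrum (𝓞 M)) :=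
  HeightOneSpectrum.equivOfRingEquiv (MulSemiringAction.toRingEquiv (M ≃ₐ[K] M) (𝓞 M) σ)

/-- the additive `v`-adic valuation on `Mˣ` (`≥ 0` on integers): `v.valuation M x = exp (-(ordM v x))`. -/
noncomputable def ordM (v : HeightOneSpectrum (𝓞 M)) : Additive Mˣ →+ ℤ :=
  AddMonoidHom.mk' (fun x => -(WithZero.log (v.valuation M ((Additive.toMul x : Mˣ) : M))))
    (by
      intro a b
      have ha : v.valuation M ((Additive.toMul a : Mˣ) : M) ≠ 0 :=
        (Valuation.ne_zero_iff _).mpr (Units.ne_zero _)
      have hb : v.valuation M ((Additive.toMul b : Mˣ) : M) ≠ 0 :=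
        (Valuation.ne_zero_iff _).mpr (Units.ne_zero _)
      simp only [toMul_add, Units.val_mul, map_mul]
      rw [WithZero.log_mul ha hb]
      ring)

theorem ordM_apply (v : HeightOneSpectrum (𝓞 M)) (x : Mˣ) :
    ordM M v (Additive.ofMul x) = -(WithZero.log (v.valuation M (x : M))) := rfl

/-- the prime of `K` below a prime of `M`. -/
noncomputable def primeBelow (v : HeightOneSpectrum (𝓞 M)) : HeightOneSpectrum (𝓞 K) :=
  v.under (𝓞 K)

end Fermat.Agent.S14.NormIndexConcrete
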