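/-
S14 / block (R1) — ADAPTER from helper31's announced export `not_forall_principal_mul_relNorm`
("M/K cyclic of prime degree p, unramified, K totally complex ⇒ NOT every ideal of K is
principal × relative norm") to `BlockFirstIneq p` of `Blocks.lean`.  Owner: helper6.

* `AllIdealsNorms K M` : the ideal-level statement `∀ I ≠ ⊥, ∃ a b J, (a) I = (b) N(J)`.
* `le_index_normClasses` : `¬ AllIdealsNorms K M → p ≤ (normClasses K M).index` for `[M:K] = p`.
* `ramificationIdx_eq_one_of_unram`, `ramificationIdx'_eq_one_of_unram` : `Unram K M`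
  (Ideal.inertia form) ⇒ ramification index `1` (new / old Mathlib forms).
* `isComplex_of_cyclotomic` : all infinite places of `ℚ(ζ_p)`, `3 ≤ p`, are complex.
* `blockFirstIneq_of_exportNew / Old / Inertia` : the three possible shapes of the export
  (closed Props `ExportNew`, `ExportOld`, `ExportInertia`) each give `BlockFirstIneq p`.
-/
import Fermat.Agent.S14.Blocks
import Fermat.Agent.S14.NormIndexConcrete

set_option autoImplicit false
set_option linter.unusedSectionVars false

open NumberField nonZeroDivisors IsDedekindDomain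

namespace Fermat.Agent.S14.FirstIneqAdapter

open Fermat.Agent.S14.NormIndexConcrete

section general

variable (K M : Type) [Field K] [NumberField K] [Field M] [NumberField M] [Algebra K M]

/-- Every nonzero ideal of `𝓞 K` is (principal) × (relative norm of an ideal of `𝓞 M`), in the
fraction-free form `(a) I = (b) N(J)`. -/
def AllIdealsNorms : Prop :=
  ∀ I : Ideal (𝓞 K), I ≠ ⊥ → ∃ (a b : 𝓞 K) (J : Ideal (𝓞 M)), a ≠ 0 ∧ b ≠ 0 ∧ J ≠ ⊥ ∧
    Ideal.span {a} * I = Ideal.span {b} * Ideal.relNorm (𝓞 K) J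

variable {K M}

theorem mem_nzd_of_ne_bot {I : Ideal (𝓞 K)} (hI : I ≠ ⊥) : I ∈ (Ideal (𝓞 K))⁰ :=
  mem_nonZeroDivisors_iff_ne_zero.mpr hI

theorem ne_bot_of_mem_nzd (I : (Ideal (𝓞 K))⁰) : (I : Ideal (𝓞 K)) ≠ ⊥ :=
  nonZeroDivisors.coe_ne_zero I

/-- Every element of `normClasses K M` is the class of a single relative norm. -/
theorem exists_relNorm_of_mem_normClasses [IsGalois K M] {c : ClassGroup (𝓞 K)}
    (hc : c ∈ normClasses K M) :
    ∃ (J : Ideal (𝓞 M)) (I : (Ideal (𝓞 K))⁰), J ≠ ⊥ ∧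
      (I : Ideal (𝓞 K)) = Ideal.relNorm (𝓞 K) J ∧ c = ClassGroup.mk0 I := by
  unfold normClasses at hc
  induction hc using Subgroup.closure_induction with
  | mem x hx => exact hx
  | one =>
    refine ⟨⊤, 1, top_ne_bot, ?_, ?_⟩
    · rw [Ideal.relNorm_top]; exact Ideal.one_eq_top
    · rw [map_one]
  | mul x y _ _ hx hy =>
    obtain ⟨J₁, I₁, hJ₁, hI₁, rfl⟩ := hx
    obtain ⟨J₂, I₂, hJ₂, hI₂, rfl⟩ := hy
    refine ⟨J₁ * J₂, I₁ * I₂, mul_ne_zero hJ₁ hJ₂, ?_, ?_⟩
    · rw [map_mul, ← hI₁, ← hI₂]; rfl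
    · rw [map_mul]
  | inv x _ hx =>
    obtain ⟨J, I, hJ, hI, rfl⟩ := hx
    set h := Fintype.card (ClassGroup (𝓞 K)) with hh
    have hpos : 0 < h := Fintype.card_pos
    refine ⟨J ^ (h - 1), I ^ (h - 1), pow_ne_zero _ hJ, ?_, ?_⟩
    · rw [map_pow, ← hI]; rfl
    · rw [map_pow]
      have h1 : (ClassGroup.mk0 I) ^ h = 1 := pow_card_eq_one
      have h2 : (ClassGroup.mk0 I) ^ (h - 1) * ClassGroup.mk0 I = 1 := by
        rw [← pow_succ, Nat.sub_add_cancel hpos, h1]
      exact (eq_inv_of_mul_eq_one_left h2).symm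

/-- If the norm classes are everything, every ideal is principal × norm. -/
theorem allIdealsNorms_of_normClasses_eq_top [IsGalois K M] (h : normClasses K M = ⊤) :
    AllIdealsNorms K M := by
  intro I hI
  have hmem : ClassGroup.mk0 ⟨I, mem_nzd_of_ne_bot hI⟩ ∈ normClasses K M := by rw [h]; trivial
  obtain ⟨J, I', hJ, hI', hc⟩ := exists_relNorm_of_mem_normClasses hmem
  obtain ⟨x, y, hx, hy, hxy⟩ := ClassGroup.mk0_eq_mk0_iff.mp hc
  exact ⟨x, y, J, hx, hy, hJ, by rw [← hI']; exact hxy⟩

/-- `p`-th powers of classes are norm classes (`[M:K] = p`). -/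
theorem pow_mem_normClasses [IsGalois K M] {p : ℕ} (hdeg : Module.finrank K M = p)
    (c : ClassGroup (𝓞 K)) : c ^ p ∈ normClasses K M := by
  obtain ⟨I, rfl⟩ := ClassGroup.mk0_surjective c
  refine Subgroup.subset_closure ⟨(I : Ideal (𝓞 K)).map (algebraMap (𝓞 K) (𝓞 M)), I ^ p, ?_, ?_, ?_⟩
  · exact Ideal.map_ne_bot_of_ne_bot (ne_bot_of_mem_nzd I)
  · rw [Ideal.relNorm_algebraMap, ← IsFractionRing.finrank_eq (𝓞 K) K (𝓞 M) M, hdeg]
    rfl
  · rw [map_pow]

/-- **Adapter**: "not every ideal is principal × norm" gives the first inequality in the form of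
`Blocks.lean`. -/
theorem le_index_normClasses [IsGalois K M] {p : ℕ} (hp : p.Prime)
    (hdeg : Module.finrank K M = p) (h : ¬ AllIdealsNorms K M) :
    p ≤ (normClasses K M).index := by
  have hne : normClasses K M ≠ ⊤ := fun htop => h (allIdealsNorms_of_normClasses_eq_top htop)
  obtain ⟨x, -, hx⟩ := SetLike.exists_of_lt (lt_top_iff_ne_top.mpr hne)
  have hfin : Finite (ClassGroup (𝓞 K) ⧸ normClasses K M) := inferInstance
  set q : ClassGroup (𝓞 K) ⧸ normClasses K M := QuotientGroup.mk x with hq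
  have hq1 : q ≠ 1 := by
    rw [hq, Ne, QuotientGroup.eq_one_iff]; exact hx
  have hqp : q ^ p = 1 := by
    rw [hq, ← QuotientGroup.mk_pow, QuotientGroup.eq_one_iff]
    exact pow_mem_normClasses hdeg x
  have hord : orderOf q = p := by
    rcases (Nat.dvd_prime hp).mp (orderOf_dvd_of_pow_eq_one hqp) with h1 | h1
    · exact absurd (orderOf_eq_one_iff.mp h1) hq1
    · exact h1
  have hdvd : p ∣ Nat.card (ClassGroup (𝓞 K) ⧸ normClasses K M) := by
    rw [← hord]; exact orderOf_dvd_natCard q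
  rw [Subgroup.index]
  exact Nat.le_of_dvd Nat.card_pos hdvd


end general

section unram

variable {K M : Type} [Field K] [NumberField K] [Field M] [NumberField M] [Algebra K M]
  [IsGalois K M]

/-- `Unram` (trivial inertia groups) gives ramification index one, new Mathlib form. -/
theorem ramificationIdx_eq_one_of_unram (hU : Unram K M) (P : Ideal (𝓞 M)) [P.IsPrime]
    (hP : P ≠ ⊥) : P.ramificationIdx (𝓞 K) = 1 := by
  have hlo : P.LiesOver (P.under (𝓞 K)) := ⟨rfl⟩
  have h1 : Nat.card (P.inertia (M ≃ₐ[K] M)) = Ideal.ramificationIdxIn (P.under (𝓞 K)) (𝓞 M) :=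
    Ideal.card_inertia_eq_ramificationIdxIn (G := M ≃ₐ[K] M) (P.under (𝓞 K)) P
  rw [Ideal.ramificationIdxIn_eq_ramificationIdx (P.under (𝓞 K)) P (M ≃ₐ[K] M)] at h1
  rw [← h1]
  have hbot : P.inertia (M ≃ₐ[K] M) = ⊥ := by
    rw [eq_bot_iff]
    intro σ hσ
    rw [Subgroup.mem_bot]
    exact hU P inferInstance hP σ hσ
  rw [hbot]
  exact Subgroup.card_bot

/-- `Unram` gives ramification index one, old Mathlib form over `HeightOneSpectrum`. -/
theorem ramificationIdx'_eq_one_of_unram (hU : Unram K M) (v : HeightOneSpectrum (𝓞 M)) :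
    Ideal.ramificationIdx' (primeBelow K M v).asIdeal v.asIdeal = 1 := by
  have : v.asIdeal.LiesOver (primeBelow K M v).asIdeal := ⟨rfl⟩
  rw [Ideal.ramificationIdx'_eq_ramificationIdx (primeBelow K M v).asIdeal v.asIdeal
    (primeBelow K M v).ne_bot]
  exact ramificationIdx_eq_one_of_unram hU v.asIdeal v.ne_bot


end unram

/-- All infinite places of `ℚ(ζ_p)`, `3 ≤ p`, are complex. -/
theorem isComplex_of_cyclotomic {p : ℕ} (K : Type) [Field K] [NumberField K]
    [IsCyclotomicExtension {p} ℚ K] (h3 : 3 ≤ p) (w : InfinitePlace K) : w.IsComplex := by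
  have : NeZero p := ⟨by omega⟩
  exact (IsCyclotomicExtension.Rat.isTotallyComplex (n := p) K (by omega)).isComplex w

/-- helper31's export, hypothesis `hunr` in the NEW Mathlib form `P.ramificationIdx (𝓞 K) = 1`. -/
def ExportNew : Prop :=
  ∀ (K M : Type) [Field K] [NumberField K] [Field M] [NumberField M] [Algebra K M] [IsGalois K M]
    (p : ℕ) [Fact p.Prime], Nat.card (M ≃ₐ[K] M) = p → (∀ w : InfinitePlace K, w.IsComplex) →
    (∀ P : Ideal (𝓞 M), P.IsPrime → P ≠ ⊥ → P.ramificationIdx (𝓞 K) = 1) →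
    ¬ AllIdealsNorms K M

/-- helper31's export, hypothesis `hunr` in the OLD form over `HeightOneSpectrum`. -/
def ExportOld : Prop :=
  ∀ (K M : Type) [Field K] [NumberField K] [Field M] [NumberField M] [Algebra K M] [IsGalois K M]
    (p : ℕ) [Fact p.Prime], Nat.card (M ≃ₐ[K] M) = p → (∀ w : InfinitePlace K, w.IsComplex) →
    (∀ v : HeightOneSpectrum (𝓞 M),
      Ideal.ramificationIdx' (primeBelow K M v).asIdeal v.asIdeal = 1) →
    ¬ AllIdealsNorms K M

/-- helper31's export, hypothesis `hunr` in the `Ideal.inertia` form (`Unram K M`). -/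
def ExportInertia : Prop :=
  ∀ (K M : Type) [Field K] [NumberField K] [Field M] [NumberField M] [Algebra K M] [IsGalois K M]
    (p : ℕ) [Fact p.Prime], Nat.card (M ≃ₐ[K] M) = p → (∀ w : InfinitePlace K, w.IsComplex) →
    Unram K M → ¬ AllIdealsNorms K M

theorem exportInertia_of_exportNew (h : ExportNew) : ExportInertia := by
  intro K M _ _ _ _ _ _ p _ hcard hcx hU
  exact h K M p hcard hcx (fun P hP hP0 => by
    have := hP
    exact ramificationIdx_eq_one_of_unram hU P hP0)

theorem exportInertia_of_exportOld (h : ExportOld) : ExportInertia := by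
  intro K M _ _ _ _ _ _ p _ hcard hcx hU
  exact h K M p hcard hcx (fun v => ramificationIdx'_eq_one_of_unram hU v)

/-- **The adapter**: the export in `Ideal.inertia` form gives `BlockFirstIneq p`. -/
theorem blockFirstIneq_of_exportInertia {p : ℕ} (h : ExportInertia) : BlockFirstIneq p := by
  intro K M _ _ _ _ _ _ _ hp h3 hdeg hU
  have : Fact p.Prime := ⟨hp⟩
  have hcard : Nat.card (M ≃ₐ[K] M) = p := by
    rw [IsGalois.card_aut_eq_finrank, hdeg]
  exact le_index_normClasses hp hdeg
    (h K M p hcard (isComplex_of_cyclotomic K h3) hU)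

theorem blockFirstIneq_of_exportNew {p : ℕ} (h : ExportNew) : BlockFirstIneq p :=
  blockFirstIneq_of_exportInertia (exportInertia_of_exportNew h)

theorem blockFirstIneq_of_exportOld {p : ℕ} (h : ExportOld) : BlockFirstIneq p :=
  blockFirstIneq_of_exportInertia (exportInertia_of_exportOld h)

end Fermat.Agent.S14.FirstIneqAdapter
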