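import Fermat.Agent.S14.NormIndexConcrete

/-!
# Hilbert 90 in additive form for a cyclic extension `M/K` of number fields (S14, row B.inst6)

`σ` a generator of `Gal(M/K)` of order `p`.  We show `sigmaEnd σ ^ p = 1`, identify
`normEnd p (sigmaEnd σ)` with the field norm, deduce Hilbert's theorem 90 in additive form, and
describe the fixed points of `sigmaEnd σ`.
-/

set_option autoImplicit false
set_option linter.unusedSectionVars false

open NumberField

namespace Fermat.Agent.S14.H90Additive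

open Fermat.Agent.S14.NormIndexConcrete Fermat.Agent.S14.HerbrandPrime

variable (K M : Type) [Field K] [NumberField K] [Field M] [NumberField M] [Algebra K M]

theorem sigmaEnd_one : sigmaEnd K M (1 : M ≃ₐ[K] M) = 1 := by
  apply LinearMap.ext
  intro x
  obtain ⟨x, rfl⟩ := Additive.ofMul.surjective x
  rw [sigmaEnd_apply]
  apply congrArg Additive.ofMul
  ext
  simp

theorem sigmaEnd_mul (σ τ : M ≃ₐ[K] M) :
    sigmaEnd K M (σ * τ) = sigmaEnd K M σ * sigmaEnd K M τ := by
  apply LinearMap.ext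
  intro x
  obtain ⟨x, rfl⟩ := Additive.ofMul.surjective x
  rw [Module.End.mul_apply, sigmaEnd_apply, sigmaEnd_apply, sigmaEnd_apply]
  apply congrArg Additive.ofMul
  ext
  simp

theorem sigmaEnd_pow_eq (σ : M ≃ₐ[K] M) (n : ℕ) :
    sigmaEnd K M (σ ^ n) = sigmaEnd K M σ ^ n := by
  induction n with
  | zero => rw [pow_zero, pow_zero, sigmaEnd_one]
  | succ n ih => rw [pow_succ, pow_succ, sigmaEnd_mul, ih]

theorem sigmaEnd_pow_apply (σ : M ≃ₐ[K] M) (n : ℕ) (x : Mˣ) :
    (sigmaEnd K M σ ^ n) (Additive.ofMul x)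
      = Additive.ofMul (Units.map (((σ ^ n : M ≃ₐ[K] M) : M →+* M) : M →* M) x) := by
  rw [← sigmaEnd_pow_eq, sigmaEnd_apply]

variable {K M}

/-- (1) `sigmaEnd σ ^ p = 1` when `σ` has order `p`. -/
theorem sigmaEnd_pow {p : ℕ} (σ : M ≃ₐ[K] M) (hord : orderOf σ = p) :
    sigmaEnd K M σ ^ p = 1 := by
  rw [← sigmaEnd_pow_eq, ← hord, pow_orderOf_eq_one, sigmaEnd_one]

/-- enumeration of a cyclic group: product over the group = product over the powers of a
generator. -/
theorem prod_eq_prod_range_pow {G : Type*} [Group G] [Fintype G] {A : Type*} [CommMonoid A]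
    (g : G) (hg : ∀ x, x ∈ Subgroup.zpowers g) (f : G → A) :
    ∏ x : G, f x = ∏ i ∈ Finset.range (orderOf g), f (g ^ i) := by
  classical
  have hcard : orderOf g = Fintype.card G := by
    rw [← Nat.card_eq_fintype_card]
    exact orderOf_eq_card_of_forall_mem_zpowers hg
  symm
  apply Finset.prod_bij (fun i _ => g ^ i)
  · intro i _; exact Finset.mem_univ _
  · intro i hi j hj hij
    exact pow_injOn_Iio_orderOf (Finset.mem_range.mp hi) (Finset.mem_range.mp hj) hij
  · intro x _
    have hx := hg x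
    rw [← mem_powers_iff_mem_zpowers, mem_powers_iff_mem_range_orderOf] at hx
    obtain ⟨i, hi, rfl⟩ := Finset.mem_image.mp hx
    exact ⟨i, hi, rfl⟩
  · intro i _; rfl

variable [IsGalois K M]

/-- (2) `normEnd p (sigmaEnd σ)` is the field norm. -/
theorem normEnd_apply {p : ℕ} (σ : M ≃ₐ[K] M) (hσ : ∀ τ, τ ∈ Subgroup.zpowers σ)
    (hord : orderOf σ = p) (x : Mˣ) :
    normEnd p (sigmaEnd K M σ) (Additive.ofMul x)
      = Additive.ofMul (Units.map ((algebraMap K M : K →+* M) : K →* M)
          (Units.map (Algebra.norm K : M →* K) x)) := by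
  classical
  unfold normEnd
  rw [LinearMap.sum_apply]
  simp only [sigmaEnd_pow_apply]
  rw [← ofMul_prod]
  apply congrArg Additive.ofMul
  ext
  rw [Units.coe_prod]
  simp only [Units.coe_map, MonoidHom.coe_coe, RingHom.coe_coe]
  rw [Algebra.norm_eq_prod_automorphisms, prod_eq_prod_range_pow σ hσ, hord]

/-- (3) Hilbert's theorem 90, additive form. -/
theorem hilbert90 {p : ℕ} (σ : M ≃ₐ[K] M) (hσ : ∀ τ, τ ∈ Subgroup.zpowers σ)
    (hord : orderOf σ = p) (x : Additive Mˣ) (hx : normEnd p (sigmaEnd K M σ) x = 0) :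
    ∃ y, x = sigmaEnd K M σ y - y := by
  obtain ⟨x, rfl⟩ := Additive.ofMul.surjective x
  rw [normEnd_apply σ hσ hord] at hx
  have h1 : Units.map ((algebraMap K M : K →+* M) : K →* M)
      (Units.map (Algebra.norm K : M →* K) x) = 1 := by
    rw [← ofMul_eq_zero]; exact hx
  have h2 : algebraMap K M (Algebra.norm K (x : M)) = 1 := by
    have := congrArg (fun u : Mˣ => (u : M)) h1
    simpa using this
  have h3 : Algebra.norm K (x : M) = 1 :=
    (algebraMap K M).injective (by rw [h2, map_one])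
  haveI : IsCyclic (M ≃ₐ[K] M) := ⟨σ, hσ⟩
  obtain ⟨y, hy⟩ := groupCohomology.exists_div_of_norm_eq_one (K := K) (L := M) hσ h3
  refine ⟨Additive.ofMul y⁻¹, ?_⟩
  rw [sigmaEnd_apply, ← ofMul_div]
  apply congrArg Additive.ofMul
  ext
  simp only [Units.val_div_eq_div_val, Units.coe_map, MonoidHom.coe_coe, RingHom.coe_coe,
    Units.val_inv_eq_inv_val, map_inv₀]
  rw [← hy]
  have hy0 : (y : M) ≠ 0 := y.ne_zero
  have hsy0 : σ (y : M) ≠ 0 := by simpa using hy0
  field_simp

/-- (4) the fixed points of `sigmaEnd σ` are the elements of `Kˣ`. -/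
theorem sigmaEnd_eq_self_iff (σ : M ≃ₐ[K] M) (hσ : ∀ τ, τ ∈ Subgroup.zpowers σ)
    (x : Additive Mˣ) :
    sigmaEnd K M σ x = x ↔
      ∃ β : Kˣ, x = Additive.ofMul (Units.map ((algebraMap K M : K →+* M) : K →* M) β) := by
  obtain ⟨x, rfl⟩ := Additive.ofMul.surjective x
  rw [sigmaEnd_apply]
  constructor
  · intro h
    have hfix : σ (x : M) = x := by
      have := congrArg (fun u : Additive Mˣ => ((Additive.toMul u : Mˣ) : M)) h
      simpa using this
    have hall : ∀ τ : M ≃ₐ[K] M, τ (x : M) = x := by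
      intro τ
      obtain ⟨n, rfl⟩ := Subgroup.mem_zpowers_iff.mp (hσ τ)
      have hsub : σ ∈ MulAction.stabilizer (M ≃ₐ[K] M) (x : M) := hfix
      have := Subgroup.zpow_mem _ hsub n
      exact this
    obtain ⟨b, hb⟩ := (IsGalois.mem_range_algebraMap_iff_fixed (F := K) (E := M) (x : M)).mpr hall
    have hb0 : b ≠ 0 := by
      rintro rfl
      rw [map_zero] at hb
      exact x.ne_zero hb.symm
    refine ⟨Units.mk0 b hb0, ?_⟩
    apply congrArg Additive.ofMul
    ext
    simp [hb]
  · rintro ⟨β, hβ⟩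
    have hx : x = Units.map ((algebraMap K M : K →+* M) : K →* M) β := Additive.ofMul.injective hβ
    apply congrArg Additive.ofMul
    ext
    rw [hx]
    simp

end Fermat.Agent.S14.H90Additive
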