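import Fermat.Agent.S14.HerbrandPrime

/-!
# Herbrand quotient of a cyclic group of prime order on a finitely generated abelian group

`main_fg`: the version of `HerbrandPrime.main_free` for finitely generated `ℤ`-modules possibly with
torsion (S14, block B2.alg).
-/

set_option autoImplicit false
set_option linter.unusedSectionVars false
set_option linter.unusedVariables false
open Module
namespace Fermat.Agent.S14.HerbrandFg
open Fermat.Agent.S14.HerbrandPrime

variable {X : Type*} [AddCommGroup X]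

/-- a finite `ℤ`-module has rank `0`. -/
theorem finrank_eq_zero_of_finite' (Y : Type*) [AddCommGroup Y] [Finite Y] : finrank ℤ Y = 0 := by
  have : Module.Finite ℤ Y := Module.Finite.of_finite
  rw [Module.finrank_eq_zero_iff_isTorsion]
  exact isAddTorsion_iff_isTorsion_int.mp isAddTorsion_of_finite

/-- finite index ⇒ same rank. -/
theorem finrank_eq_of_relIndex_ne_zero [Module.Finite ℤ X] (P Q : Submodule ℤ X) (hPQ : P ≤ Q)
    (h : P.toAddSubgroup.relIndex Q.toAddSubgroup ≠ 0) : finrank ℤ P = finrank ℤ Q := by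
  set P' : Submodule ℤ Q := P.comap Q.subtype with hP'
  have e : P' ≃ₗ[ℤ] P := Submodule.comapSubtypeEquivOfLe hPQ
  have hrn := P'.finrank_quotient_add_finrank
  have hfin : Finite (Q ⧸ P') := by
    have : P'.toAddSubgroup.index ≠ 0 := by
      have : P'.toAddSubgroup = P.toAddSubgroup.addSubgroupOf Q.toAddSubgroup := by
        ext x; rfl
      rw [this]; exact h
    exact AddSubgroup.index_ne_zero_iff_finite.mp this
  rw [finrank_eq_zero_of_finite', zero_add] at hrn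
  rw [← hrn, e.finrank_eq]

/-- transfer of `qa` along the inclusion of a stable submodule. -/
theorem qa_top_eq (f g : X →+ X) (Y : Submodule ℤ X) (f' g' : Y →+ Y)
    (hf : ∀ a : Y, (f' a : X) = f a) (hg : ∀ a : Y, (g' a : X) = g a) :
    qa f' g' ⊤ = qa f g Y.toAddSubgroup := by
  unfold qa
  have hinj : Function.Injective (Y.subtype.toAddMonoidHom) := Y.subtype_injective
  rw [← AddSubgroup.relIndex_map_map_of_injective _ _ hinj]
  congr 1
  · ext y
    simp only [AddSubgroup.mem_map, AddSubgroup.mem_top, true_and, LinearMap.toAddMonoidHom_coe,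
      Submodule.subtype_apply, exists_exists_eq_and, Submodule.mem_toAddSubgroup]
    constructor
    · rintro ⟨a, rfl⟩
      exact ⟨a, a.2, (hg a).symm⟩
    · rintro ⟨x, hx, rfl⟩
      exact ⟨⟨x, hx⟩, hg ⟨x, hx⟩⟩
  · ext y
    simp only [AddSubgroup.mem_map, AddSubgroup.mem_inf, AddSubgroup.mem_top, true_and,
      AddMonoidHom.mem_ker, LinearMap.toAddMonoidHom_coe, Submodule.subtype_apply,
      Submodule.mem_toAddSubgroup]
    constructor
    · rintro ⟨a, ha, rfl⟩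
      refine ⟨a.2, ?_⟩
      rw [← hf a, ha]; rfl
    · rintro ⟨hy, hfy⟩
      refine ⟨⟨y, hy⟩, ?_, rfl⟩
      apply Subtype.ext
      rw [hf ⟨y, hy⟩]; exact hfy


/-- there is a positive integer killing the torsion -/
theorem exists_nat_kill_torsion [Module.Finite ℤ X] :
    ∃ n : ℕ, 0 < n ∧ ∀ x : X, ∀ m : ℤ, m ≠ 0 → m • x = 0 → (n : ℤ) • x = 0 := by
  have hT : Finite (Submodule.torsion ℤ X) :=
    Module.finite_of_fg_torsion _ Submodule.torsion_isTorsion
  refine ⟨Nat.card (Submodule.torsion ℤ X), Nat.card_pos, ?_⟩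
  intro x m hm hx
  have hxT : x ∈ Submodule.torsion ℤ X :=
    (Submodule.mem_torsion_iff x).mpr ⟨⟨m, mem_nonZeroDivisors_of_ne_zero hm⟩, hx⟩
  have h := card_nsmul_eq_zero' (G := Submodule.torsion ℤ X) (x := ⟨x, hxT⟩)
  have h2 := congrArg (Subtype.val) h
  simpa using h2

/-- the submodule `n • X`. -/
def nX (n : ℕ) : Submodule ℤ X := LinearMap.range ((n : ℤ) • (1 : Module.End ℤ X))

theorem mem_nX {n : ℕ} {y : X} : y ∈ nX (X := X) n ↔ ∃ x : X, (n : ℤ) • x = y := by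
  unfold nX
  simp [LinearMap.mem_range]

theorem nX_index_ne_zero [Module.Finite ℤ X] {n : ℕ} (hn : 0 < n) : (nX (X := X) n).toAddSubgroup.index ≠ 0 := by
  rw [AddSubgroup.index_ne_zero_iff_finite]
  have : Module.Finite ℤ (X ⧸ nX (X := X) n) := inferInstance
  apply Module.finite_of_fg_torsion (X ⧸ nX (X := X) n)
  intro y
  refine ⟨⟨(n : ℤ), mem_nonZeroDivisors_of_ne_zero (by exact_mod_cast hn.ne')⟩, ?_⟩
  obtain ⟨x, rfl⟩ := Submodule.Quotient.mk_surjective _ y
  change (n : ℤ) • (Submodule.Quotient.mk x : X ⧸ nX (X := X) n) = 0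
  rw [← Submodule.Quotient.mk_smul, Submodule.Quotient.mk_eq_zero, mem_nX]
  exact ⟨x, rfl⟩

theorem nX_torsionFree {n : ℕ}
    (hn : ∀ x : X, ∀ m : ℤ, m ≠ 0 → m • x = 0 → (n : ℤ) • x = 0) :
    Module.IsTorsionFree ℤ (nX (X := X) n) := by
  apply Module.IsTorsionFree.of_smul_eq_zero
  rintro r ⟨y, hy⟩ h
  by_cases hr : r = 0
  · exact Or.inl hr
  right
  obtain ⟨x, rfl⟩ := mem_nX.mp hy
  have h1 : r • ((n : ℤ) • x) = 0 := by
    have := congrArg Subtype.val h
    simpa using this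
  by_cases hn0 : (n : ℤ) = 0
  · apply Subtype.ext; simp [hn0]
  have h2 : (r * (n : ℤ)) • x = 0 := by rw [mul_smul]; exact h1
  have h3 := hn x (r * n) (mul_ne_zero hr hn0) h2
  apply Subtype.ext
  exact h3


theorem map_nX_mem (n : ℕ) (φ : Module.End ℤ X) : ∀ x ∈ nX (X := X) n, φ x ∈ nX (X := X) n := by
  intro x hx
  obtain ⟨y, rfl⟩ := mem_nX.mp hx
  exact mem_nX.mpr ⟨φ y, by rw [map_smul]⟩

/-- kernel of a restricted endomorphism has the same rank when the submodule has finite index. -/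
theorem finrank_ker_restrict [Module.Finite ℤ X] (Y : Submodule ℤ X)
    (hY : Y.toAddSubgroup.index ≠ 0) (φ : Module.End ℤ X) (φ' : Module.End ℤ Y)
    (h : ∀ a : Y, (φ' a : X) = φ a) :
    finrank ℤ (LinearMap.ker φ') = finrank ℤ (LinearMap.ker φ) := by
  have e := Submodule.equivMapOfInjective Y.subtype Y.subtype_injective (LinearMap.ker φ')
  rw [e.finrank_eq]
  have hmap : (LinearMap.ker φ').map Y.subtype = Y ⊓ LinearMap.ker φ := by
    ext x
    simp only [Submodule.mem_map, LinearMap.mem_ker, Submodule.subtype_apply, Submodule.mem_inf]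
    constructor
    · rintro ⟨a, ha, rfl⟩
      refine ⟨a.2, ?_⟩
      rw [← h a, ha]; rfl
    · rintro ⟨hx, hφ⟩
      refine ⟨⟨x, hx⟩, ?_, rfl⟩
      apply Subtype.ext
      rw [h ⟨x, hx⟩]; exact hφ
  rw [hmap]
  apply finrank_eq_of_relIndex_ne_zero _ _ inf_le_right
  have : (Y ⊓ LinearMap.ker φ).toAddSubgroup =
      Y.toAddSubgroup ⊓ (LinearMap.ker φ).toAddSubgroup := rfl
  rw [this, AddSubgroup.inf_relIndex_right]
  intro h0
  have := AddSubgroup.relIndex_dvd_index_of_normal Y.toAddSubgroup (LinearMap.ker φ).toAddSubgroup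
  rw [h0] at this
  exact hY (Nat.eq_zero_of_zero_dvd this)

section main
variable [Module.Finite ℤ X] (p : ℕ) [hp : Fact p.Prime] (σ : Module.End ℤ X) (hσ : σ ^ p = 1)

include hσ in
theorem main_fg :
    ∃ b : ℕ, finrank ℤ X = finrank ℤ (LinearMap.ker (σ - 1 : Module.End ℤ X)) + (p - 1) * b ∧
      qa (Dh σ) (Nh p σ) ⊤ ≠ 0 ∧ qa (Nh p σ) (Dh σ) ⊤ ≠ 0 ∧
      qa (Dh σ) (Nh p σ) ⊤ * p ^ b =
        qa (Nh p σ) (Dh σ) ⊤ * p ^ finrank ℤ (LinearMap.ker (σ - 1 : Module.End ℤ X)) := by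
  obtain ⟨n, hn0, hn⟩ := exists_nat_kill_torsion (X := X)
  set X₀ : Submodule ℤ X := nX n with hX₀
  have hstab : ∀ x ∈ X₀, σ x ∈ X₀ := by
    intro x hx
    obtain ⟨y, rfl⟩ := mem_nX.mp hx
    exact mem_nX.mpr ⟨σ y, by rw [map_smul]⟩
  set σ₀ : Module.End ℤ X₀ := σ.restrict hstab with hσ₀
  have hpow : ∀ (i : ℕ) (x : X₀), ((σ₀ ^ i) x : X) = (σ ^ i) x := by
    intro i
    induction i with
    | zero => intro x; simp
    | succ k ih =>
      intro x
      rw [pow_succ', pow_succ', Module.End.mul_apply, Module.End.mul_apply, hσ₀,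
        LinearMap.coe_restrict_apply, ← hσ₀, ih]
  have hσ₀p : σ₀ ^ p = 1 := by
    ext x
    rw [hpow, hσ]; simp
  have : Module.IsTorsionFree ℤ X₀ := nX_torsionFree hn
  have : Module.Free ℤ X₀ := Module.free_of_finite_type_torsion_free'
  obtain ⟨b, hb, hq1, hq2, hq⟩ := main_free p σ₀ hσ₀p
  -- transfer
  have hD : ∀ a : X₀, ((Dh σ₀) a : X) = (Dh σ) a := by
    intro a
    change ((σ₀ - 1 : Module.End ℤ X₀) a : X) = (σ - 1 : Module.End ℤ X) a
    simp [hσ₀]
  have hN : ∀ a : X₀, ((Nh p σ₀) a : X) = (Nh p σ) a := by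
    intro a
    change ((normEnd p σ₀) a : X) = (normEnd p σ) a
    unfold normEnd
    rw [LinearMap.sum_apply, LinearMap.sum_apply, AddSubmonoidClass.coe_finsetSum]
    exact Finset.sum_congr rfl (fun i _ => hpow i a)
  have t1 : qa (Dh σ₀) (Nh p σ₀) ⊤ = qa (Dh σ) (Nh p σ) X₀.toAddSubgroup :=
    qa_top_eq (Dh σ) (Nh p σ) X₀ (Dh σ₀) (Nh p σ₀) hD hN
  have t2 : qa (Nh p σ₀) (Dh σ₀) ⊤ = qa (Nh p σ) (Dh σ) X₀.toAddSubgroup :=
    qa_top_eq (Nh p σ) (Dh σ) X₀ (Nh p σ₀) (Dh σ₀) hN hD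
  rw [t1] at hq1 hq
  rw [t2] at hq2 hq
  have hDN : ∀ x, (Dh σ) ((Nh p σ) x) = 0 := fun x => sub_one_normEnd_apply p σ hσ x
  have hND : ∀ x, (Nh p σ) ((Dh σ) x) = 0 := fun x => normEnd_sub_one_apply p σ hσ x
  set A : AddSubgroup X := X₀.toAddSubgroup with hA
  have hidx : A.index ≠ 0 := nX_index_ne_zero hn0
  have hI : A.relIndex ⊤ ≠ 0 := by rw [AddSubgroup.relIndex_top_right]; exact hidx
  have hle : A ≤ ⊤ := le_top
  have hDA : A.map (Dh σ) ≤ A := by
    rintro _ ⟨x, hx, rfl⟩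
    exact map_nX_mem n (σ - 1) x hx
  have hNA : A.map (Nh p σ) ≤ A := by
    rintro _ ⟨x, hx, rfl⟩
    exact map_nX_mem n (normEnd p σ) x hx
  have hDtop : (⊤ : AddSubgroup X).map (Dh σ) ≤ ⊤ := le_top
  have hNtop : (⊤ : AddSubgroup X).map (Nh p σ) ≤ ⊤ := le_top
  have key := qa_mul_qa_eq (Dh σ) (Nh p σ) hDN hND hle hDA hNA hDtop hNtop hI
  have nz1 := (qa_ne_zero_iff (Dh σ) (Nh p σ) hDN hle hNA hNtop hI).mpr hq1
  have nz2 := (qa_ne_zero_iff (Nh p σ) (Dh σ) hND hle hDA hDtop hI).mpr hq2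
  -- ranks
  have r1 : finrank ℤ (LinearMap.ker (σ₀ - 1 : Module.End ℤ X₀)) =
      finrank ℤ (LinearMap.ker (σ - 1 : Module.End ℤ X)) :=
    finrank_ker_restrict X₀ hidx (σ - 1) (σ₀ - 1) hD
  have r2 : finrank ℤ (LinearMap.ker (normEnd p σ₀)) = finrank ℤ (LinearMap.ker (normEnd p σ)) :=
    finrank_ker_restrict X₀ hidx (normEnd p σ) (normEnd p σ₀) hN
  have r3 : finrank ℤ X = finrank ℤ (LinearMap.ker (σ - 1 : Module.End ℤ X)) +
      finrank ℤ (LinearMap.ker (normEnd p σ)) := by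
    have h1 := (LinearMap.ker (σ - 1 : Module.End ℤ X)).finrank_quotient_add_finrank
    have h2 := (LinearMap.quotKerEquivRange (σ - 1 : Module.End ℤ X)).finrank_eq
    have hle' : LinearMap.range (σ - 1 : Module.End ℤ X) ≤ LinearMap.ker (normEnd p σ) := by
      rintro _ ⟨x, rfl⟩
      exact hND x
    have h3 := finrank_eq_of_relIndex_ne_zero _ _ hle' (by
      have : qa (Nh p σ) (Dh σ) ⊤ =
          (LinearMap.range (σ - 1 : Module.End ℤ X)).toAddSubgroup.relIndex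
            (LinearMap.ker (normEnd p σ)).toAddSubgroup := by
        unfold qa
        congr 1
        · ext y; simp [LinearMap.mem_range]
        · ext y; simp
      rw [← this]; exact nz2)
    rw [← h1, h2, h3, add_comm]
  refine ⟨b, ?_, nz1, nz2, ?_⟩
  · rw [r3, ← r2, hb]
  · rw [r1] at hq
    have hc : (qa (Dh σ) (Nh p σ) ⊤ * p ^ b) * qa (Nh p σ) (Dh σ) A =
        (qa (Nh p σ) (Dh σ) ⊤ * p ^ finrank ℤ (LinearMap.ker (σ - 1 : Module.End ℤ X))) *
          qa (Nh p σ) (Dh σ) A := by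
      calc (qa (Dh σ) (Nh p σ) ⊤ * p ^ b) * qa (Nh p σ) (Dh σ) A
          = (qa (Dh σ) (Nh p σ) ⊤ * qa (Nh p σ) (Dh σ) A) * p ^ b := by ring
        _ = qa (Nh p σ) (Dh σ) ⊤ * (qa (Dh σ) (Nh p σ) A * p ^ b) := by rw [key]; ring
        _ = _ := by rw [hq]; ring
    exact Nat.eq_of_mul_eq_mul_right (Nat.pos_of_ne_zero hq2) hc

end main

end Fermat.Agent.S14.HerbrandFg
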