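import Fermat.Agent.S14.NormIndexDefs
import Fermat.Agent.S14.HerbrandFg

/-!
# The abstract norm-index inequality (S14, block B2.alg)

`Datum.not_allNorms`: for an abstract datum of a cyclic unramified extension of prime degree `p`
(see `NormIndexDefs`), with a finite `τ`-stable set `S` of primes generating the class group, and
the rank formulas of the `S`-units, NOT every ideal of the base is principal times a norm.
-/

set_option autoImplicit false
set_option linter.unusedSectionVars false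
set_option linter.unusedVariables false

open Module

namespace Fermat.Agent.S14.NormIndexCore

open Fermat.Agent.S14.HerbrandPrime Fermat.Agent.S14.HerbrandFg Fermat.Agent.S14.NormIndexDefs

variable {p : ℕ} {X : Type*} [AddCommGroup X] {PM PK : Type*}

-- ===== part C1 =====


section basic
variable (D : Datum p X PM PK)

theorem ord_pow_equiv (i : ℕ) (Q : PM) (x : X) :
    D.ord ((D.τ ^ i) Q) ((D.σ ^ i) x) = D.ord Q x := by
  induction i generalizing Q x with
  | zero => simp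
  | succ k ih =>
    rw [pow_succ', pow_succ', Equiv.Perm.mul_apply, Module.End.mul_apply, D.ord_equiv, ih]

theorem tau_pow_p_apply (Q : PM) : (D.τ ^ p) Q = Q := by
  rw [D.τ_pow]; rfl

theorem sigma_pow_p_apply (x : X) : (D.σ ^ p) x = x := by
  rw [D.σ_pow]; rfl

/-- `ord_Q (σ^i x) = ord_{τ^(p-i) Q} x` -/
theorem ord_sigma_pow (i : ℕ) (hi : i ≤ p) (Q : PM) (x : X) :
    D.ord Q ((D.σ ^ i) x) = D.ord ((D.τ ^ (p - i)) Q) x := by
  have h := ord_pow_equiv D (p - i) Q ((D.σ ^ i) x)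
  rw [← Module.End.mul_apply, ← pow_add, Nat.sub_add_cancel hi, sigma_pow_p_apply] at h
  exact h.symm

theorem sum_range_tau_reflect {A : Type*} [AddCommMonoid A] (G : PM → A) (Q : PM) :
    ∑ i ∈ Finset.range p, G ((D.τ ^ (p - i)) Q) = ∑ i ∈ Finset.range p, G ((D.τ ^ i) Q) := by
  rcases Nat.eq_zero_or_pos p with h0 | hpos
  · subst h0; simp
  obtain ⟨q, rfl⟩ : ∃ q, p = q + 1 := ⟨p - 1, by omega⟩
  have h1 : ∑ i ∈ Finset.range (q + 1), G ((D.τ ^ (q + 1 - i)) Q) =
      ∑ i ∈ Finset.range (q + 1), G ((D.τ ^ ((q + 1 - 1 - i) + 1)) Q) := by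
    refine Finset.sum_congr rfl fun i hi => ?_
    have := Finset.mem_range.mp hi
    congr 3; omega
  rw [h1, Finset.sum_range_reflect (fun j => G ((D.τ ^ (j + 1)) Q)) (q + 1)]
  rw [Finset.sum_range_succ, Finset.sum_range_succ' (fun i => G ((D.τ ^ i) Q))]
  rw [tau_pow_p_apply]
  simp

/-- `ord_Q (N x) = Σ_i ord_{τ^i Q} x` -/
theorem ord_norm (Q : PM) (x : X) :
    D.ord Q (normEnd p D.σ x) = ∑ i ∈ Finset.range p, D.ord ((D.τ ^ i) Q) x := by
  unfold normEnd
  rw [LinearMap.sum_apply, map_sum, ← sum_range_tau_reflect D (fun Q' => D.ord Q' x) Q]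
  refine Finset.sum_congr rfl fun i hi => ?_
  exact ord_sigma_pow D i (Finset.mem_range.mp hi).le Q x

theorem ord_norm_of_fixed (Q : PM) (hQ : D.τ Q = Q) (x : X) :
    D.ord Q (normEnd p D.σ x) = p * D.ord Q x := by
  rw [ord_norm]
  have : ∀ i : ℕ, (D.τ ^ i) Q = Q := by
    intro i
    induction i with
    | zero => simp
    | succ k ih => rw [pow_succ, Equiv.Perm.mul_apply, hQ, ih]
  simp [this]

end basic


-- ===== part C2 =====


section stable
variable (D : Datum p X PM PK) (S : Finset PM) (hSτ : ∀ Q ∈ S, D.τ Q ∈ S)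

include hSτ in
theorem pow_mem_of_mem (i : ℕ) {Q : PM} (hQ : Q ∈ S) : (D.τ ^ i) Q ∈ S := by
  induction i with
  | zero => simpa using hQ
  | succ k ih => rw [pow_succ', Equiv.Perm.mul_apply]; exact hSτ _ ih

include hSτ in
theorem mem_of_tau_mem (hp : 0 < p) {Q : PM} (hQ : D.τ Q ∈ S) : Q ∈ S := by
  have h := pow_mem_of_mem D S hSτ (p - 1) hQ
  rw [← Equiv.Perm.mul_apply, ← pow_succ, Nat.sub_add_cancel hp, tau_pow_p_apply] at h
  exact h

include hSτ in
theorem mem_of_pow_mem (hp : 0 < p) (i : ℕ) {Q : PM} (hQ : (D.τ ^ i) Q ∈ S) : Q ∈ S := by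
  induction i with
  | zero => simpa using hQ
  | succ k ih =>
    rw [pow_succ', Equiv.Perm.mul_apply] at hQ
    exact ih (mem_of_tau_mem D S hSτ hp hQ)

include hSτ in
theorem sigma_mem_sUnits (hp : 0 < p) {x : X} (hx : x ∈ D.sUnits S) : D.σ x ∈ D.sUnits S := by
  intro Q hQ
  have h1 : D.τ (D.τ.symm Q) = Q := D.τ.apply_symm_apply Q
  have h2 : D.τ.symm Q ∉ S := by
    intro h
    apply hQ
    rw [← h1]; exact hSτ _ h
  rw [← h1, D.ord_equiv]
  exact hx _ h2

include hSτ in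
/-- the key construction: under `AllNorms`, every `τ`-invariant divisor is, off `S`, the divisor of a
`σ`-invariant element; at the `τ`-fixed primes the values agree modulo `p`. -/
theorem exists_invariant_of_allNorms (hp : 0 < p) (hAll : D.AllNorms)
    (hSgen : ∀ d : PM →₀ ℤ, ∃ z : X, ∀ Q ∉ S, D.ord Q z = d Q)
    (c : PM →₀ ℤ) (hc : ∀ Q, c (D.τ Q) = c Q) :
    ∃ β : X, D.σ β = β ∧ (∀ Q ∉ S, D.ord Q β = c Q) ∧
      ∀ Q, D.τ Q = Q → ∃ k : ℤ, D.ord Q β = c Q + p * k := by
  obtain ⟨β, hβ, d, hd⟩ := hAll c hc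
  obtain ⟨z, hz⟩ := hSgen d
  refine ⟨β + normEnd p D.σ z, ?_, ?_, ?_⟩
  · rw [map_add, hβ]
    congr 1
    have := sub_one_normEnd_apply p D.σ D.σ_pow z
    simp only [LinearMap.sub_apply, Module.End.one_apply] at this
    exact sub_eq_zero.mp this
  · intro Q hQ
    rw [map_add, ord_norm, hd Q]
    congr 1
    refine Finset.sum_congr rfl fun i _ => ?_
    apply hz
    intro h
    exact hQ (mem_of_pow_mem D S hSτ hp i h)
  · intro Q hQ
    refine ⟨D.ord Q z - d Q, ?_⟩
    rw [map_add, ord_norm_of_fixed D Q hQ, hd Q]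
    have : ∀ i : ℕ, (D.τ ^ i) Q = Q := by
      intro i
      induction i with
      | zero => simp
      | succ k ih => rw [pow_succ, Equiv.Perm.mul_apply, hQ, ih]
    simp only [this, Finset.sum_const, Finset.card_range, nsmul_eq_mul]
    ring

end stable


-- ===== part C3 =====


section h1
variable (D : Datum p X PM PK) (S : Finset PM) (hSτ : ∀ Q ∈ S, D.τ Q ∈ S)

include hSτ in
/-- `H^1` of the `S`-units vanishes under `AllNorms`: `U ∩ ker N ⊆ (σ - 1) U`. -/
theorem ker_norm_le_map_sub_one (hp : 0 < p) (hAll : D.AllNorms)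
    (hSgen : ∀ d : PM →₀ ℤ, ∃ z : X, ∀ Q ∉ S, D.ord Q z = d Q) :
    (D.sUnits S).toAddSubgroup ⊓ (Nh p D.σ).ker ≤ (D.sUnits S).toAddSubgroup.map (Dh D.σ) := by
  classical
  rintro u ⟨hu, hNu⟩
  have hNu' : normEnd p D.σ u = 0 := hNu
  obtain ⟨y, hy⟩ := D.hilbert90 u hNu'
  -- the divisor of `y` off `S`
  have hfin : (Function.support (fun Q => if Q ∈ S then (0 : ℤ) else D.ord Q y)).Finite := by
    apply (D.ord_finite y).subset
    intro Q hQ
    simp only [Function.mem_support, ne_eq] at hQ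
    by_cases h : Q ∈ S
    · simp [h] at hQ
    · simpa [h] using hQ
  set c : PM →₀ ℤ := Finsupp.ofSupportFinite _ hfin with hc
  have hcapp : ∀ Q, c Q = if Q ∈ S then (0 : ℤ) else D.ord Q y := fun Q => rfl
  have hcinv : ∀ Q, c (D.τ Q) = c Q := by
    intro Q
    rw [hcapp, hcapp]
    by_cases h : Q ∈ S
    · simp [h, hSτ Q h]
    · have h' : D.τ Q ∉ S := fun h'' => h (mem_of_tau_mem D S hSτ hp h'')
      simp only [h, h', if_false]
      have e1 := D.ord_equiv Q y
      have e2 : D.σ y = y + u := by rw [hy]; abel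
      rw [e2, map_add] at e1
      have e3 : D.ord (D.τ Q) u = 0 := hu _ h'
      rw [e3, add_zero] at e1
      exact e1
  obtain ⟨β, hβ, hβS, -⟩ := exists_invariant_of_allNorms D S hSτ hp hAll hSgen c hcinv
  refine ⟨y - β, ?_, ?_⟩
  · intro Q hQ
    rw [map_sub, hβS Q hQ, hcapp]
    simp [hQ]
  · change (D.σ - 1 : Module.End ℤ X) (y - β) = u
    simp only [LinearMap.sub_apply, Module.End.one_apply, map_sub, hβ]
    rw [hy]; abel

end h1


-- ===== part C4 =====


/-- the `τ`-fixed primes in `S`. -/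
def fixedS [DecidableEq PM] (D : Datum p X PM PK) (S : Finset PM) : Finset PM :=
  S.filter (fun Q => D.τ Q = Q)

theorem mem_fixedS [DecidableEq PM] (D : Datum p X PM PK) (S : Finset PM) (Q : PM) :
    Q ∈ fixedS D S ↔ Q ∈ S ∧ D.τ Q = Q := by
  unfold fixedS; simp

/-- reduction modulo `p` of the valuations at the primes of `T`. -/
noncomputable def Phi (D : Datum p X PM PK) (T : Finset PM) : X →+ (T → ZMod p) :=
  AddMonoidHom.pi (fun Q : T => (Int.castAddHom (ZMod p)).comp (D.ord Q))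

theorem Phi_apply (D : Datum p X PM PK) (T : Finset PM) (x : X) (Q : T) :
    Phi D T x Q = ((D.ord Q x : ℤ) : ZMod p) := rfl

section h0
variable [DecidableEq PM] (D : Datum p X PM PK) (S : Finset PM) (hSτ : ∀ Q ∈ S, D.τ Q ∈ S)

include hSτ in
theorem Phi_surjOn [hp : Fact p.Prime] (hAll : D.AllNorms)
    (hSgen : ∀ d : PM →₀ ℤ, ∃ z : X, ∀ Q ∉ S, D.ord Q z = d Q) (a : fixedS D S → ZMod p) :
    ∃ x ∈ (D.sUnits S).toAddSubgroup ⊓ (Dh D.σ).ker, Phi D (fixedS D S) x = a := by
  have hp0 : 0 < p := hp.out.pos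
  set cf : PM → ℤ := fun Q => if h : Q ∈ fixedS D S then ((a ⟨Q, h⟩).val : ℤ) else 0 with hcf
  set c : PM →₀ ℤ := Finsupp.onFinset (fixedS D S) cf (by
    intro Q hQ
    by_contra h
    apply hQ
    simp [hcf, h]) with hc
  have hcapp : ∀ Q, c Q = cf Q := fun Q => rfl
  have hcinv : ∀ Q, c (D.τ Q) = c Q := by
    intro Q
    by_cases h : Q ∈ fixedS D S
    · rw [((mem_fixedS D S Q).mp h).2]
    · have h' : D.τ Q ∉ fixedS D S := by
        intro h''
        have h3 := (mem_fixedS D S _).mp h''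
        have h4 : D.τ Q = Q := D.τ.injective h3.2
        rw [h4] at h''
        exact h h''
      rw [hcapp, hcapp]
      simp [hcf, h, h']
  obtain ⟨β, hβ, hβS, hβT⟩ := exists_invariant_of_allNorms D S hSτ hp0 hAll hSgen c hcinv
  refine ⟨β, ⟨?_, ?_⟩, ?_⟩
  · intro Q hQ
    rw [hβS Q hQ, hcapp]
    have : Q ∉ fixedS D S := fun h => hQ ((mem_fixedS D S Q).mp h).1
    simp [hcf, this]
  · change (D.σ - 1 : Module.End ℤ X) β = 0
    simp [hβ]
  · funext Q
    rw [Phi_apply]
    obtain ⟨k, hk⟩ := hβT Q ((mem_fixedS D S Q).mp Q.2).2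
    rw [hk, hcapp]
    have : cf Q = ((a Q).val : ℤ) := by
      simp [hcf, Q.2]
    rw [this]
    push_cast
    simp

include hSτ in
theorem pow_card_dvd_qa [hp : Fact p.Prime] (hAll : D.AllNorms)
    (hSgen : ∀ d : PM →₀ ℤ, ∃ z : X, ∀ Q ∉ S, D.ord Q z = d Q) :
    p ^ (fixedS D S).card ∣ qa (Dh D.σ) (Nh p D.σ) (D.sUnits S).toAddSubgroup := by
  have hp0 : 0 < p := hp.out.pos
  set U := (D.sUnits S).toAddSubgroup with hU
  set T := fixedS D S with hT
  set NU := U.map (Nh p D.σ) with hNU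
  set Uσ := U ⊓ (Dh D.σ).ker with hUσ
  set KΦ := Uσ ⊓ (Phi D T).ker with hKΦ
  have hDN : ∀ x, (Dh D.σ) ((Nh p D.σ) x) = 0 := fun x => sub_one_normEnd_apply p D.σ D.σ_pow x
  have hNUU : NU ≤ U := by
    rintro _ ⟨x, hx, rfl⟩
    change normEnd p D.σ x ∈ D.sUnits S
    intro Q hQ
    rw [ord_norm]
    apply Finset.sum_eq_zero
    intro i _
    apply hx
    intro h
    exact hQ (mem_of_pow_mem D S hSτ hp0 i h)
  have h1 : NU ≤ KΦ := by
    intro y hy
    refine ⟨⟨hNUU hy, ?_⟩, ?_⟩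
    · obtain ⟨x, -, rfl⟩ := hy
      exact hDN x
    · obtain ⟨x, hx, rfl⟩ := hy
      change Phi D T (normEnd p D.σ x) = 0
      funext Q
      rw [Phi_apply]
      change ((D.ord Q (normEnd p D.σ x) : ℤ) : ZMod p) = 0
      rw [ord_norm_of_fixed D Q ((mem_fixedS D S Q).mp Q.2).2]
      push_cast
      simp
  have h2 : KΦ ≤ Uσ := inf_le_left
  have hmul := AddSubgroup.relIndex_mul_relIndex NU KΦ Uσ h1 h2
  have hcard : KΦ.relIndex Uσ = p ^ T.card := by
    rw [hKΦ, AddSubgroup.inf_relIndex_left, AddSubgroup.relIndex_ker]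
    have htop : Uσ.map (Phi D T) = ⊤ := by
      rw [eq_top_iff]
      intro a _
      obtain ⟨x, hx, hxa⟩ := Phi_surjOn D S hSτ hAll hSgen a
      exact ⟨x, hx, hxa⟩
    rw [htop]
    rw [Nat.card_congr (AddSubgroup.topEquiv (G := T → ZMod p)).toEquiv]
    rw [Nat.card_fun, Nat.card_zmod, Nat.card_eq_fintype_card, Fintype.card_coe]
  unfold qa
  rw [← hmul, hcard]
  exact Dvd.intro_left _ rfl

end h0


-- ===== part C5 =====


section orbits
variable [DecidableEq PM] [DecidableEq PK] (D : Datum p X PM PK) (S : Finset PM)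
  (hSτ : ∀ Q ∈ S, D.τ Q ∈ S)

theorem tau_pow_fixed {Q : PM} (hQ : D.τ Q = Q) (i : ℕ) : (D.τ ^ i) Q = Q := by
  induction i with
  | zero => simp
  | succ k ih => rw [pow_succ, Equiv.Perm.mul_apply, hQ, ih]

include hSτ in
theorem fibre_eq_image (hp : 0 < p) {Q₀ : PM} (hQ₀ : Q₀ ∈ S) :
    S.filter (fun Q => D.π Q = D.π Q₀) = (Finset.range p).image (fun i => (D.τ ^ i) Q₀) := by
  ext Q
  simp only [Finset.mem_filter, Finset.mem_image, Finset.mem_range]
  constructor
  · rintro ⟨hQ, hπ⟩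
    obtain ⟨i, hi⟩ := (D.π_eq_iff Q₀ Q).mp hπ.symm
    refine ⟨i % p, Nat.mod_lt _ hp, ?_⟩
    rw [← pow_eq_pow_mod i D.τ_pow, hi]
  · rintro ⟨i, -, rfl⟩
    exact ⟨pow_mem_of_mem D S hSτ i hQ₀, ((D.π_eq_iff Q₀ _).mpr ⟨i, rfl⟩).symm⟩

include hSτ in
theorem card_fibre_add [hp : Fact p.Prime] {w : PK} (hw : w ∈ S.image D.π) :
    (S.filter (fun Q => D.π Q = w)).card +
      (p - 1) * ((fixedS D S).filter (fun Q => D.π Q = w)).card = p := by
  have hp0 : 0 < p := hp.out.pos
  obtain ⟨Q₀, hQ₀, rfl⟩ := Finset.mem_image.mp hw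
  have hF := fibre_eq_image D S hSτ hp0 hQ₀
  have hTsub : (fixedS D S).filter (fun Q => D.π Q = D.π Q₀) ⊆
      S.filter (fun Q => D.π Q = D.π Q₀) := by
    intro Q hQ
    rw [Finset.mem_filter] at hQ ⊢
    exact ⟨((mem_fixedS D S Q).mp hQ.1).1, hQ.2⟩
  by_cases hfix : D.τ Q₀ = Q₀
  · -- the fibre is `{Q₀}`
    have h1 : S.filter (fun Q => D.π Q = D.π Q₀) = {Q₀} := by
      rw [hF]
      ext Q
      simp only [Finset.mem_image, Finset.mem_range, Finset.mem_singleton, tau_pow_fixed D hfix]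
      constructor
      · rintro ⟨i, -, rfl⟩; rfl
      · rintro rfl; exact ⟨0, hp0, rfl⟩
    have h2 : (fixedS D S).filter (fun Q => D.π Q = D.π Q₀) = {Q₀} := by
      apply Finset.Subset.antisymm
      · rw [← h1]; exact hTsub
      · intro Q hQ
        rw [Finset.mem_singleton] at hQ
        subst hQ
        rw [Finset.mem_filter]
        exact ⟨(mem_fixedS D S Q).mpr ⟨hQ₀, hfix⟩, rfl⟩
    rw [h1, h2, Finset.card_singleton]
    omega
  · -- the fibre has `p` elements, none fixed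
    have hper : Function.IsPeriodicPt D.τ p Q₀ := by
      unfold Function.IsPeriodicPt Function.IsFixedPt
      rw [Equiv.Perm.iterate_eq_pow, tau_pow_p_apply]
    have hmin : Function.minimalPeriod D.τ Q₀ = p := by
      rcases (Nat.dvd_prime hp.out).mp hper.minimalPeriod_dvd with h | h
      · exact absurd (Function.minimalPeriod_eq_one_iff_isFixedPt.mp h) hfix
      · exact h
    have hinj : Set.InjOn (fun i => (D.τ ^ i) Q₀) (Finset.range p : Set ℕ) := by
      have := Function.iterate_injOn_Iio_minimalPeriod (f := D.τ) (x := Q₀)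
      rw [hmin] at this
      intro i hi j hj hij
      apply this
      · simpa using hi
      · simpa using hj
      · simpa [Equiv.Perm.iterate_eq_pow] using hij
    have h1 : (S.filter (fun Q => D.π Q = D.π Q₀)).card = p := by
      rw [hF, Finset.card_image_of_injOn hinj, Finset.card_range]
    have h2 : (fixedS D S).filter (fun Q => D.π Q = D.π Q₀) = ∅ := by
      rw [Finset.eq_empty_iff_forall_notMem]
      intro Q hQ
      have hQF := hTsub hQ
      rw [hF, Finset.mem_image] at hQF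
      obtain ⟨i, -, rfl⟩ := hQF
      rw [Finset.mem_filter] at hQ
      have h3 := ((mem_fixedS D S _).mp hQ.1).2
      apply hfix
      apply (D.τ ^ i).injective
      rw [← Equiv.Perm.mul_apply, ← pow_succ, pow_succ', Equiv.Perm.mul_apply]
      exact h3
    rw [h1, h2, Finset.card_empty]
    omega

include hSτ in
/-- orbit counting: `|S| + (p-1) * #fixed = p * #orbits`. -/
theorem card_add_fixed [hp : Fact p.Prime] :
    S.card + (p - 1) * (fixedS D S).card = p * (S.image D.π).card := by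
  have e1 := Finset.card_eq_sum_card_image D.π S
  have e2 := Finset.card_eq_sum_card_fiberwise (f := D.π) (s := fixedS D S) (t := S.image D.π)
    (fun Q hQ => Finset.mem_image_of_mem _ ((mem_fixedS D S Q).mp hQ).1)
  rw [e1, e2, Finset.mul_sum, ← Finset.sum_add_distrib]
  rw [Finset.sum_congr rfl (fun w hw => card_fibre_add D S hSτ hw)]
  rw [Finset.sum_const, smul_eq_mul, mul_comm]

end orbits


-- ===== part C6 =====


/-- `main_fg` for a stable finitely generated submodule, expressed inside the ambient module. -/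
theorem main_fg_submodule (p : ℕ) [hp : Fact p.Prime] (σ : Module.End ℤ X) (hσ : σ ^ p = 1)
    (U : Submodule ℤ X) [Module.Finite ℤ U] (hstab : ∀ x ∈ U, σ x ∈ U) :
    ∃ b : ℕ, finrank ℤ U =
        finrank ℤ (U ⊓ LinearMap.ker (σ - 1 : Module.End ℤ X) : Submodule ℤ X) + (p - 1) * b ∧
      qa (Dh σ) (Nh p σ) U.toAddSubgroup ≠ 0 ∧ qa (Nh p σ) (Dh σ) U.toAddSubgroup ≠ 0 ∧
      qa (Dh σ) (Nh p σ) U.toAddSubgroup * p ^ b =
        qa (Nh p σ) (Dh σ) U.toAddSubgroup *
          p ^ finrank ℤ (U ⊓ LinearMap.ker (σ - 1 : Module.End ℤ X) : Submodule ℤ X) := by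
  set σU : Module.End ℤ U := σ.restrict hstab with hσU
  have hpow : ∀ (i : ℕ) (x : U), ((σU ^ i) x : X) = (σ ^ i) x := by
    intro i
    induction i with
    | zero => intro x; simp
    | succ k ih =>
      intro x
      rw [pow_succ', pow_succ', Module.End.mul_apply, Module.End.mul_apply, hσU,
        LinearMap.coe_restrict_apply, ← hσU, ih]
  have hσUp : σU ^ p = 1 := by
    ext x
    rw [hpow, hσ]; simp
  obtain ⟨b, hb, hq1, hq2, hq⟩ := main_fg p σU hσUp
  have hD : ∀ a : U, ((Dh σU) a : X) = (Dh σ) a := by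
    intro a
    change ((σU - 1 : Module.End ℤ U) a : X) = (σ - 1 : Module.End ℤ X) a
    simp [hσU]
  have hN : ∀ a : U, ((Nh p σU) a : X) = (Nh p σ) a := by
    intro a
    change ((normEnd p σU) a : X) = (normEnd p σ) a
    unfold normEnd
    rw [LinearMap.sum_apply, LinearMap.sum_apply, AddSubmonoidClass.coe_finsetSum]
    exact Finset.sum_congr rfl (fun i _ => hpow i a)
  have t1 : qa (Dh σU) (Nh p σU) ⊤ = qa (Dh σ) (Nh p σ) U.toAddSubgroup :=
    qa_top_eq (Dh σ) (Nh p σ) U (Dh σU) (Nh p σU) hD hN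
  have t2 : qa (Nh p σU) (Dh σU) ⊤ = qa (Nh p σ) (Dh σ) U.toAddSubgroup :=
    qa_top_eq (Nh p σ) (Dh σ) U (Nh p σU) (Dh σU) hN hD
  have hk : finrank ℤ (LinearMap.ker (σU - 1 : Module.End ℤ U)) =
      finrank ℤ (U ⊓ LinearMap.ker (σ - 1 : Module.End ℤ X) : Submodule ℤ X) := by
    have e := Submodule.equivMapOfInjective U.subtype U.subtype_injective
      (LinearMap.ker (σU - 1 : Module.End ℤ U))
    rw [e.finrank_eq]
    have hmap : (LinearMap.ker (σU - 1 : Module.End ℤ U)).map U.subtype =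
        U ⊓ LinearMap.ker (σ - 1 : Module.End ℤ X) := by
      ext x
      simp only [Submodule.mem_map, LinearMap.mem_ker, Submodule.subtype_apply, Submodule.mem_inf]
      constructor
      · rintro ⟨a, ha, rfl⟩
        refine ⟨a.2, ?_⟩
        have := hD a
        change ((σU - 1 : Module.End ℤ U) a : X) = (σ - 1 : Module.End ℤ X) a at this
        rw [← this, ha]; rfl
      · rintro ⟨hx, hφ⟩
        refine ⟨⟨x, hx⟩, ?_, rfl⟩
        apply Subtype.ext
        have := hD ⟨x, hx⟩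
        change ((σU - 1 : Module.End ℤ U) ⟨x, hx⟩ : X) = (σ - 1 : Module.End ℤ X) x at this
        rw [this]; exact hφ
    rw [hmap]
  rw [t1] at hq1 hq
  rw [t2] at hq2 hq
  rw [hk] at hb hq
  exact ⟨b, hb, hq1, hq2, hq⟩

theorem Datum.not_allNorms [hp : Fact p.Prime] [DecidableEq PM] [DecidableEq PK]
    (D : Datum p X PM PK) (S : Finset PM)
    (hSτ : ∀ Q ∈ S, D.τ Q ∈ S)
    (hSgen : ∀ d : PM →₀ ℤ, ∃ z : X, ∀ Q ∉ S, D.ord Q z = d Q)
    [Module.Finite ℤ (D.sUnits S)]
    (RM RK : ℕ) (hR : RM + 1 = p * (RK + 1))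
    (hrank : finrank ℤ (D.sUnits S) = RM + S.card)
    (hrankK : finrank ℤ ((D.sUnits S) ⊓ LinearMap.ker (D.σ - 1 : Module.End ℤ X) : Submodule ℤ X) =
      RK + (S.image D.π).card) :
    ¬ D.AllNorms := by
  intro hAll
  have hp0 : 0 < p := hp.out.pos
  have hstab : ∀ x ∈ D.sUnits S, D.σ x ∈ D.sUnits S :=
    fun x hx => sigma_mem_sUnits D S hSτ hp0 hx
  obtain ⟨b, hb, hq1, hq2, hq⟩ := main_fg_submodule p D.σ D.σ_pow (D.sUnits S) hstab
  -- `h1 = 1`
  have h1 : qa (Nh p D.σ) (Dh D.σ) (D.sUnits S).toAddSubgroup = 1 := by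
    unfold qa
    rw [AddSubgroup.relIndex_eq_one]
    exact ker_norm_le_map_sub_one D S hSτ hp0 hAll hSgen
  -- `p ^ t ∣ h0`
  obtain ⟨k, hk⟩ := pow_card_dvd_qa D S hSτ hAll hSgen
  have horb := card_add_fixed D S hSτ
  set t := (fixedS D S).card with ht
  set sM := S.card with hsM
  set sK := (S.image D.π).card with hsK
  rw [hrankK] at hb hq
  rw [hrank] at hb
  rw [h1, one_mul, hk] at hq
  obtain ⟨q, rfl⟩ : ∃ q, p = q + 1 := ⟨p - 1, by omega⟩
  have hq1' : 1 ≤ q := by have := hp.out.two_le; omega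
  simp only [Nat.add_sub_cancel] at hb horb
  have hbt : b + t = RK + sK + 1 := by
    have : q * (b + t) = q * (RK + sK + 1) := by nlinarith
    exact Nat.eq_of_mul_eq_mul_left (by omega) this
  have h3 : k * (q + 1) ^ (b + t) = (q + 1) ^ (RK + sK) := by
    rw [← hq, pow_add]; ring
  rw [hbt, pow_succ] at h3
  have h4 : (k * (q + 1)) * (q + 1) ^ (RK + sK) = 1 * (q + 1) ^ (RK + sK) := by
    rw [one_mul]
    calc (k * (q + 1)) * (q + 1) ^ (RK + sK) = k * ((q + 1) ^ (RK + sK) * (q + 1)) := by ring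
      _ = _ := h3
  have h5 := Nat.eq_of_mul_eq_mul_right (pow_pos (by omega) _) h4
  have h6 : q + 1 ∣ 1 := Dvd.intro_left k h5
  have := Nat.le_of_dvd one_pos h6
  omega

end Fermat.Agent.S14.NormIndexCore
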