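/-
S14 / block B2.alg, row B.inst5 (lemma 117; owner helper54, requester helper31).

For `K` totally complex and `[M:K] = p`:  `Units.rank M + 1 = p * (Units.rank K + 1)`.
-/
import Fermat.Agent.S14.NormIndexConcrete

set_option autoImplicit false
set_option linter.unusedSectionVars false

open NumberField NumberField.InfinitePlace

namespace Fermat.Agent.S14.RankPlaces

variable (K M : Type) [Field K] [NumberField K] [Field M] [NumberField M] [Algebra K M]

/-- If `K` is totally complex then so is any finite extension `M`. -/
theorem isComplex_of_forall_isComplex (hcx : ∀ w : InfinitePlace K, w.IsComplex)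
    (w : InfinitePlace M) : w.IsComplex := by
  rw [← not_isReal_iff_isComplex]
  intro hw
  have h1 : (w.comap (algebraMap K M)).IsReal := hw.comap (algebraMap K M)
  exact (not_isReal_iff_isComplex.mpr (hcx _)) h1

/-- For a totally complex number field, twice the number of infinite places is the degree. -/
theorem two_mul_card_infinitePlace (F : Type) [Field F] [NumberField F]
    (hcx : ∀ w : InfinitePlace F, w.IsComplex) :
    2 * Fintype.card (InfinitePlace F) = Module.finrank ℚ F := by
  classical
  have h0 : nrRealPlaces F = 0 := by
    unfold nrRealPlaces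
    rw [Fintype.card_eq_zero_iff]
    exact ⟨fun ⟨w, hw⟩ => (not_isReal_iff_isComplex.mpr (hcx w)) hw⟩
  have h1 := card_add_two_mul_card_eq_rank F
  have h2 : Fintype.card (InfinitePlace F) = nrRealPlaces F + nrComplexPlaces F :=
    card_eq_nrRealPlaces_add_nrComplexPlaces F
  unfold nrRealPlaces nrComplexPlaces at *
  omega

/-- **Row B.inst5.** -/
theorem rank_add_one_eq (p : ℕ) (hdeg : Module.finrank K M = p)
    (hcx : ∀ w : InfinitePlace K, w.IsComplex) :
    NumberField.Units.rank M + 1 = p * (NumberField.Units.rank K + 1) := by
  classical
  have hK := two_mul_card_infinitePlace K hcx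
  have hM := two_mul_card_infinitePlace M (isComplex_of_forall_isComplex K M hcx)
  have htower : Module.finrank ℚ K * Module.finrank K M = Module.finrank ℚ M :=
    Module.finrank_mul_finrank ℚ K M
  have hposK : 0 < Fintype.card (InfinitePlace K) := Fintype.card_pos
  have hposM : 0 < Fintype.card (InfinitePlace M) := Fintype.card_pos
  unfold NumberField.Units.rank
  rw [Nat.sub_add_cancel hposM, Nat.sub_add_cancel hposK]
  rw [hdeg] at htower
  have : 2 * Fintype.card (InfinitePlace M) = 2 * (p * Fintype.card (InfinitePlace K)) := by
    rw [hM, ← htower, ← hK]; ring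
  omega

end Fermat.Agent.S14.RankPlaces
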