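import Mathlib

/-!
# S14, block (B): Dirichlet's `S`-unit theorem (rank form)

For a Dedekind domain `R` with fraction field `K`, a finite set `S` of primes, finite class group
and finitely generated unit group, the group `S.unit K` of `S`-units (Mathlib's `Set.unit`) is a
finitely generated abelian group of rank `rank Rˣ + #S`.  For a number field `M` this gives
`finrank ℤ (Additive (S.unit M)) = NumberField.Units.rank M + S.card`.
-/

set_option autoImplicit false

open IsDedekindDomain Module

namespace Fermat.Agent.S14.SUnitTheorem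

section Dedekind

variable {R : Type*} [CommRing R] [IsDedekindDomain R] (K : Type*) [Field K] [Algebra R K]
  [IsFractionRing R K] (S : Set (HeightOneSpectrum R))

/-- The additive valuation vector of an `S`-unit: `x ↦ (v ↦ -ord_v x)_{v ∈ S}`. -/
noncomputable def ordS : Additive (S.unit K) →+ (S → ℤ) where
  toFun x v := Multiplicative.toAdd
    ((v : HeightOneSpectrum R).valuationOfNeZero ((Additive.toMul x : S.unit K) : Kˣ))
  map_zero' := by
    funext v
    simp
  map_add' x y := by
    funext v
    simp [map_mul]

theorem ordS_apply (x : Additive (S.unit K)) (v : S) :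
    ordS K S x v = Multiplicative.toAdd
      ((v : HeightOneSpectrum R).valuationOfNeZero ((Additive.toMul x : S.unit K) : Kˣ)) := rfl

/-- An element of `Kˣ` all of whose valuations are `1` comes from a unit of `R`. -/
theorem exists_unit_of_forall_valuation_eq_one (x : Kˣ)
    (hx : ∀ v : HeightOneSpectrum R, v.valuation K (x : K) = 1) :
    ∃ u : Rˣ, Units.map (algebraMap R K : R →* K) u = x := by
  obtain ⟨r, hr⟩ := HeightOneSpectrum.mem_integers_of_valuation_le_one K (x : K)
    (fun v => (hx v).le)
  obtain ⟨s, hs⟩ := HeightOneSpectrum.mem_integers_of_valuation_le_one K ((x⁻¹ : Kˣ) : K)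
    (fun v => by
      rw [Units.val_inv_eq_inv_val, map_inv₀, hx v, inv_one])
  have hinj := IsFractionRing.injective R K
  have hrs : r * s = 1 := by
    apply hinj
    rw [map_mul, hr, hs, map_one, Units.mul_inv]
  have hsr : s * r = 1 := by rw [mul_comm]; exact hrs
  refine ⟨⟨r, s, hrs, hsr⟩, ?_⟩
  ext
  simpa using hr


/-- Units of `R` are `S`-units. -/
noncomputable def unitsToSUnit : Rˣ →* S.unit K where
  toFun u := ⟨Units.map (algebraMap R K : R →* K) u, fun v _ => by
    have h := HeightOneSpectrum.valuation_of_unit_eq (K := K) v u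
    have h2 := HeightOneSpectrum.valuationOfNeZero_eq (K := K) v
      (Units.map (algebraMap R K : R →* K) u)
    rw [h] at h2
    exact h2.symm⟩
  map_one' := by
    apply Subtype.ext
    simp
  map_mul' a b := by
    apply Subtype.ext
    simp

theorem coe_unitsToSUnit (u : Rˣ) :
    ((unitsToSUnit K S u : S.unit K) : Kˣ) = Units.map (algebraMap R K : R →* K) u := rfl

theorem unitsToSUnit_injective : Function.Injective (unitsToSUnit K S) := by
  intro a b h
  have h1 : Units.map (algebraMap R K : R →* K) a = Units.map (algebraMap R K : R →* K) b :=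
    congrArg Subtype.val h
  have h2 : algebraMap R K (a : R) = algebraMap R K (b : R) := congrArg Units.val h1
  exact Units.ext (IsFractionRing.injective R K h2)

/-- The kernel of `ordS` consists exactly of the units of `R`. -/
theorem ordS_eq_zero_iff (x : Additive (S.unit K)) :
    ordS K S x = 0 ↔ ∃ u : Rˣ, unitsToSUnit K S u = Additive.toMul x := by
  constructor
  · intro h
    have hall : ∀ v : HeightOneSpectrum R,
        v.valuation K (((Additive.toMul x : S.unit K) : Kˣ) : K) = 1 := by
      intro v
      by_cases hv : v ∈ S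
      · have h1 := congrFun h ⟨v, hv⟩
        rw [ordS_apply] at h1
        have h2 : v.valuationOfNeZero ((Additive.toMul x : S.unit K) : Kˣ) = 1 := by
          simpa using h1
        have h3 := HeightOneSpectrum.valuationOfNeZero_eq (K := K) v
          ((Additive.toMul x : S.unit K) : Kˣ)
        rw [h2] at h3
        exact h3.symm
      · exact (Additive.toMul x : S.unit K).2 v hv
    obtain ⟨u, hu⟩ := exists_unit_of_forall_valuation_eq_one K _ hall
    exact ⟨u, Subtype.ext hu⟩
  · rintro ⟨u, hu⟩
    funext v
    rw [ordS_apply, ← hu, coe_unitsToSUnit, HeightOneSpectrum.valuation_of_unit_eq]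
    rfl


/-- `ordS` as a `ℤ`-linear map. -/
noncomputable def ordLin : Additive (S.unit K) →ₗ[ℤ] (S → ℤ) := (ordS K S).toIntLinearMap

theorem ordLin_apply (x : Additive (S.unit K)) : ordLin K S x = ordS K S x := rfl

/-- The inclusion of the units of `R` into the `S`-units, as a `ℤ`-linear map. -/
noncomputable def unitsLin : Additive Rˣ →ₗ[ℤ] Additive (S.unit K) :=
  (MonoidHom.toAdditive (unitsToSUnit K S)).toIntLinearMap

theorem unitsLin_apply (u : Additive Rˣ) :
    unitsLin K S u = Additive.ofMul (unitsToSUnit K S (Additive.toMul u)) := rfl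

theorem unitsLin_injective : Function.Injective (unitsLin K S) := by
  intro a b h
  have h1 : unitsToSUnit K S (Additive.toMul a) = unitsToSUnit K S (Additive.toMul b) := by
    simpa [unitsLin_apply] using h
  exact Additive.toMul.injective (unitsToSUnit_injective K S h1)

theorem range_unitsLin : LinearMap.range (unitsLin K S) = LinearMap.ker (ordLin K S) := by
  ext x
  rw [LinearMap.mem_range, LinearMap.mem_ker, ordLin_apply, ordS_eq_zero_iff]
  constructor
  · rintro ⟨u, rfl⟩
    exact ⟨Additive.toMul u, rfl⟩
  · rintro ⟨u, hu⟩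
    exact ⟨Additive.ofMul u, by rw [unitsLin_apply]; exact congrArg Additive.ofMul hu⟩

theorem finrank_ker_ordLin :
    finrank ℤ (LinearMap.ker (ordLin K S)) = finrank ℤ (Additive Rˣ) := by
  rw [← range_unitsLin, LinearMap.finrank_range_of_inj (unitsLin_injective K S)]

/-- For every `v ∈ S` some nonzero multiple of the `v`-th unit vector is a valuation vector:
`v ^ h` is principal. -/
theorem exists_ordS_eq_smul_single [Finite (ClassGroup R)] [DecidableEq S] (v : S) :
    ∃ (x : Additive (S.unit K)) (c : ℤ), c ≠ 0 ∧ ordS K S x = c • Pi.single v 1 := by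
  classical
  set h := Nat.card (ClassGroup R) with hh
  have hpos : 0 < h := Nat.card_pos
  have hv0 : v.1.asIdeal ∈ nonZeroDivisors (Ideal R) :=
    mem_nonZeroDivisors_of_ne_zero v.1.ne_bot
  set J : nonZeroDivisors (Ideal R) := ⟨v.1.asIdeal, hv0⟩ with hJ
  have h1 : ClassGroup.mk0 (J ^ h) = 1 := by
    rw [map_pow, hh, pow_card_eq_one']
  have h2 : ((J ^ h : nonZeroDivisors (Ideal R)) : Ideal R).IsPrincipal :=
    (ClassGroup.mk0_eq_one_iff (J ^ h).2).mp h1
  obtain ⟨a, ha⟩ := h2.principal
  have hJh : ((J ^ h : nonZeroDivisors (Ideal R)) : Ideal R) = v.1.asIdeal ^ h := by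
    simp [hJ]
  rw [hJh] at ha
  have ha' : v.1.asIdeal ^ h = Ideal.span {a} := ha
  have ha0 : a ≠ 0 := by
    rintro rfl
    have : v.1.asIdeal ^ h = ⊥ := by rw [ha']; simp
    exact v.1.ne_bot (pow_eq_zero_iff hpos.ne' |>.mp this)
  have haK : algebraMap R K a ≠ 0 := by
    rwa [Ne, map_eq_zero_iff _ (IsFractionRing.injective R K)]
  have hav : a ∈ v.1.asIdeal := by
    have : a ∈ v.1.asIdeal ^ h := by rw [ha']; exact Ideal.mem_span_singleton_self a
    exact Ideal.pow_le_self hpos.ne' this
  have haw : ∀ w : HeightOneSpectrum R, w ≠ v.1 → a ∉ w.asIdeal := by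
    intro w hw haw
    have h3 : v.1.asIdeal ^ h ≤ w.asIdeal := by
      rw [ha']
      exact (Ideal.span_singleton_le_iff_mem _).mpr haw
    have h4 : v.1.asIdeal ≤ w.asIdeal := w.isPrime.le_of_pow_le h3
    have h5 : v.1.asIdeal = w.asIdeal := v.1.isMaximal.eq_of_le w.isPrime.ne_top h4
    exact hw (HeightOneSpectrum.ext h5.symm)
  have hval1 : ∀ w : HeightOneSpectrum R, w ≠ v.1 → w.valuation K (algebraMap R K a) = 1 :=
    fun w hw => (HeightOneSpectrum.valuation_eq_one_iff_notMem (K := K) w).mpr (haw w hw)
  have hvalv : v.1.valuation K (algebraMap R K a) ≠ 1 := by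
    intro h6
    exact (HeightOneSpectrum.valuation_eq_one_iff_notMem (K := K) v.1).mp h6 hav
  set xK : Kˣ := Units.mk0 (algebraMap R K a) haK with hxK
  have hxmem : xK ∈ S.unit K := by
    intro w hw
    apply hval1 w
    rintro rfl
    exact hw v.2
  set c : ℤ := Multiplicative.toAdd (v.1.valuationOfNeZero xK) with hc
  refine ⟨Additive.ofMul ⟨xK, hxmem⟩, c, ?_, ?_⟩
  · intro hc0
    apply hvalv
    have h7 : v.1.valuationOfNeZero xK = 1 := by
      have : Multiplicative.toAdd (v.1.valuationOfNeZero xK) = 0 := hc0
      simpa using this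
    have h8 := HeightOneSpectrum.valuationOfNeZero_eq (K := K) v.1 xK
    rw [h7] at h8
    exact h8.symm
  · funext w
    rw [ordS_apply]
    by_cases hwv : w = v
    · subst hwv
      simp [hc]
    · have hw' : (w : HeightOneSpectrum R) ≠ v.1 := fun h9 => hwv (Subtype.ext h9)
      have h10 := HeightOneSpectrum.valuationOfNeZero_eq (K := K) w.1 xK
      have h11 : ((w.1.valuationOfNeZero xK : Multiplicative ℤ) : WithZero (Multiplicative ℤ)) = 1 := by
        rw [h10]
        exact hval1 w.1 hw'
      have h12 : w.1.valuationOfNeZero xK = 1 := by exact_mod_cast h11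
      simp [h12, hwv]


/-- The valuation vectors of `S`-units form a subgroup of full rank in `ℤ^S`. -/
theorem finrank_range_ordLin [Finite (ClassGroup R)] [Finite S] :
    finrank ℤ (LinearMap.range (ordLin K S)) = Nat.card S := by
  classical
  have : Fintype S := Fintype.ofFinite S
  rw [Nat.card_eq_fintype_card]
  apply le_antisymm
  · calc finrank ℤ (LinearMap.range (ordLin K S)) ≤ finrank ℤ (S → ℤ) := Submodule.finrank_le _
      _ = Fintype.card S := by simp
  · choose x c hc hx using exists_ordS_eq_smul_single K S
    set b : S → (S → ℤ) := fun v => c v • Pi.single v 1 with hb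
    have hli : LinearIndependent ℤ b := by
      rw [Fintype.linearIndependent_iff]
      intro g hg i
      have h1 := congrFun hg i
      simp only [hb, Finset.sum_apply, Pi.smul_apply, Pi.single_apply, smul_eq_mul, mul_ite,
        mul_one, mul_zero, Finset.sum_ite_eq, Finset.mem_univ, if_true, Pi.zero_apply] at h1
      rcases mul_eq_zero.mp h1 with h2 | h2
      · exact h2
      · exact absurd h2 (hc i)
    have hspan : Submodule.span ℤ (Set.range b) ≤ LinearMap.range (ordLin K S) := by
      rw [Submodule.span_le]
      rintro _ ⟨v, rfl⟩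
      exact ⟨x v, hx v⟩
    calc Fintype.card S = finrank ℤ (Submodule.span ℤ (Set.range b)) :=
          (finrank_span_eq_card hli).symm
      _ ≤ finrank ℤ (LinearMap.range (ordLin K S)) := Submodule.finrank_mono hspan

/-- **Dirichlet's `S`-unit theorem, finite generation.** -/
theorem finite_sUnit [Module.Finite ℤ (Additive Rˣ)] [Finite S] :
    Module.Finite ℤ (Additive (S.unit K)) := by
  have h1 : Module.Finite ℤ (LinearMap.ker (ordLin K S)) := by
    rw [← range_unitsLin]
    exact Module.Finite.range _
  have h2 : Module.Finite ℤ (LinearMap.range (ordLin K S)) := inferInstance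
  have h3 : Module.Finite ℤ (Additive (S.unit K) ⧸ LinearMap.ker (ordLin K S)) :=
    Module.Finite.equiv (ordLin K S).quotKerEquivRange.symm
  exact Module.Finite.of_submodule_quotient (LinearMap.ker (ordLin K S))

/-- **Dirichlet's `S`-unit theorem, rank form.** -/
theorem finrank_sUnit_eq [Module.Finite ℤ (Additive Rˣ)] [Finite (ClassGroup R)] [Finite S] :
    finrank ℤ (Additive (S.unit K)) = finrank ℤ (Additive Rˣ) + Nat.card S := by
  have := finite_sUnit K S
  have h := (LinearMap.ker (ordLin K S)).finrank_quotient_add_finrank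
  rw [(ordLin K S).quotKerEquivRange.finrank_eq, finrank_range_ordLin, finrank_ker_ordLin] at h
  omega

end Dedekind

section NumberFieldCase

open NumberField

variable (M : Type*) [Field M] [NumberField M] (S : Finset (HeightOneSpectrum (𝓞 M)))

/-- **Dirichlet's `S`-unit theorem** for number fields: the `S`-units are finitely generated. -/
theorem finite_sUnit_numberField :
    Module.Finite ℤ (Additive ((S : Set (HeightOneSpectrum (𝓞 M))).unit M)) := by
  have : Finite (S : Set (HeightOneSpectrum (𝓞 M))) := S.finite_toSet.to_subtype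
  exact finite_sUnit M (S : Set (HeightOneSpectrum (𝓞 M)))

/-- **Dirichlet's `S`-unit theorem** for number fields: the rank of the `S`-units is
`r₁ + r₂ - 1 + #S`. -/
theorem finrank_sUnit_numberField :
    finrank ℤ (Additive ((S : Set (HeightOneSpectrum (𝓞 M))).unit M)) =
      NumberField.Units.rank M + S.card := by
  have : Finite (S : Set (HeightOneSpectrum (𝓞 M))) := S.finite_toSet.to_subtype
  rw [finrank_sUnit_eq M (S : Set (HeightOneSpectrum (𝓞 M))), NumberField.Units.finrank_eq]
  congr 1
  simp

end NumberFieldCase

end Fermat.Agent.S14.SUnitTheorem
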