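import Fermat.Agent.S14.NormIndexConcrete
import Fermat.Agent.S14.SUnitTheorem

/-!
# S14, block B2.alg, row B.inst4: ranks of the `S`-units and of their Galois invariants

`M/K` number fields (`K M : Type`), notation of `NormIndexConcrete` (`ordM`, `sigmaEnd`, `primePerm`,
`primeBelow`).

* `sUnits M S : Submodule ℤ (Additive Mˣ)` is `U(S) = {x | ∀ v ∉ S, ordM M v x = 0}`
  (the carrier of `Datum.sUnits` for the concrete datum, see `datum_sUnits_eq`).
* `finite_sUnits`, `finrank_sUnits`: `U(S)` is finitely generated of rank `Units.rank M + #S`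
  (transport of helper50's `SUnitTheorem` along `sUnitEquiv`).
* `finrank_invariants`: for `σ` a generator of `Gal(M/K)` and `S` stable under `primePerm K M σ`, the
  `σ`-invariant `S`-units `U(S) ⊓ ker (σ - 1)` have rank `Units.rank K + #(primes of K below S)`.
  No hypothesis on ramification is needed (`ord_v β = e · ord_w β` with `e ≠ 0`).
-/

set_option autoImplicit false
set_option linter.unusedSectionVars false

open NumberField IsDedekindDomain Module
open scoped Pointwise

namespace Fermat.Agent.S14.SUnitRanks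

open Fermat.Agent.S14.NormIndexConcrete

section One

variable (M : Type) [Field M] [NumberField M]

/-- `ordM` vanishes iff the valuation is `1`. -/
theorem ordM_eq_zero_iff (v : HeightOneSpectrum (𝓞 M)) (x : Mˣ) :
    ordM M v (Additive.ofMul x) = 0 ↔ v.valuation M (x : M) = 1 := by
  have hx : v.valuation M (x : M) ≠ 0 := (Valuation.ne_zero_iff _).mpr (Units.ne_zero _)
  rw [ordM_apply, neg_eq_zero]
  constructor
  · intro h
    have := WithZero.exp_log hx
    rw [h] at this
    simpa using this.symm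
  · intro h
    rw [h]
    simp

/-- The `S`-units of `M`, as a `ℤ`-submodule of `Additive Mˣ`: `U(S) = {x | ∀ v ∉ S, ord_v x = 0}`. -/
def sUnits (S : Finset (HeightOneSpectrum (𝓞 M))) : Submodule ℤ (Additive Mˣ) where
  carrier := {x | ∀ v ∉ S, ordM M v x = 0}
  add_mem' := by
    intro a b ha hb v hv
    simp [ha v hv, hb v hv]
  zero_mem' := by intro v _; simp
  smul_mem' := by
    intro c x hx v hv
    simp [hx v hv]

theorem mem_sUnits (S : Finset (HeightOneSpectrum (𝓞 M))) (x : Additive Mˣ) :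
    x ∈ sUnits M S ↔ ∀ v ∉ S, ordM M v x = 0 := Iff.rfl

theorem mem_sUnits_iff_valuation (S : Finset (HeightOneSpectrum (𝓞 M))) (x : Mˣ) :
    Additive.ofMul x ∈ sUnits M S ↔ ∀ v ∉ S, v.valuation M (x : M) = 1 := by
  simp only [mem_sUnits, ordM_eq_zero_iff]

theorem mem_sUnits_iff_mem_unit (S : Finset (HeightOneSpectrum (𝓞 M))) (x : Mˣ) :
    Additive.ofMul x ∈ sUnits M S ↔ x ∈ (S : Set (HeightOneSpectrum (𝓞 M))).unit M := by
  rw [mem_sUnits_iff_valuation]
  constructor
  · intro h v hv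
    exact h v (by simpa using hv)
  · intro h v hv
    exact h v (by simpa using hv)

/-- The inclusion of Mathlib's `Set.unit` into `Additive Mˣ`, as a `ℤ`-linear map. -/
noncomputable def unitIncl (S : Finset (HeightOneSpectrum (𝓞 M))) :
    Additive ((S : Set (HeightOneSpectrum (𝓞 M))).unit M) →ₗ[ℤ] Additive Mˣ :=
  (MonoidHom.toAdditive ((S : Set (HeightOneSpectrum (𝓞 M))).unit M).subtype).toIntLinearMap

theorem unitIncl_apply (S : Finset (HeightOneSpectrum (𝓞 M)))
    (x : Additive ((S : Set (HeightOneSpectrum (𝓞 M))).unit M)) :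
    unitIncl M S x = Additive.ofMul ((Additive.toMul x : (S : Set (HeightOneSpectrum (𝓞 M))).unit M) : Mˣ) := rfl

theorem unitIncl_injective (S : Finset (HeightOneSpectrum (𝓞 M))) :
    Function.Injective (unitIncl M S) := by
  intro x y h
  have h' : ((Additive.toMul x : (S : Set (HeightOneSpectrum (𝓞 M))).unit M) : Mˣ) = (Additive.toMul y : (S : Set (HeightOneSpectrum (𝓞 M))).unit M) :=
    Additive.ofMul.injective h
  exact Additive.toMul.injective (Subtype.ext h')

theorem range_unitIncl (S : Finset (HeightOneSpectrum (𝓞 M))) :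
    LinearMap.range (unitIncl M S) = sUnits M S := by
  ext y
  constructor
  · rintro ⟨x, rfl⟩
    rw [unitIncl_apply]
    exact (mem_sUnits_iff_mem_unit M S _).mpr (Additive.toMul x).2
  · intro hy
    refine ⟨Additive.ofMul ⟨Additive.toMul y, (mem_sUnits_iff_mem_unit M S _).mp hy⟩, rfl⟩

/-- The obvious identification of Mathlib's `Set.unit` with `U(S)`. -/
noncomputable def sUnitEquiv (S : Finset (HeightOneSpectrum (𝓞 M))) :
    Additive ((S : Set (HeightOneSpectrum (𝓞 M))).unit M) ≃ₗ[ℤ] sUnits M S :=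
  (LinearEquiv.ofInjective (unitIncl M S) (unitIncl_injective M S)).trans
    (LinearEquiv.ofEq _ _ (range_unitIncl M S))

theorem sUnitEquiv_apply (S : Finset (HeightOneSpectrum (𝓞 M)))
    (x : Additive ((S : Set (HeightOneSpectrum (𝓞 M))).unit M)) :
    ((sUnitEquiv M S x : sUnits M S) : Additive Mˣ) =
      Additive.ofMul ((Additive.toMul x : (S : Set (HeightOneSpectrum (𝓞 M))).unit M) : Mˣ) := rfl

instance finite_sUnits (S : Finset (HeightOneSpectrum (𝓞 M))) : Module.Finite ℤ (sUnits M S) :=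
  haveI := SUnitTheorem.finite_sUnit_numberField M S
  Module.Finite.equiv (sUnitEquiv M S)

theorem finrank_sUnits (S : Finset (HeightOneSpectrum (𝓞 M))) :
    finrank ℤ (sUnits M S) = NumberField.Units.rank M + S.card := by
  rw [← (sUnitEquiv M S).finrank_eq, SUnitTheorem.finrank_sUnit_numberField]

end One

section Two

variable (K M : Type) [Field K] [NumberField K] [Field M] [NumberField M] [Algebra K M]

/-! ### The Galois action on the primes of `M` -/

theorem primePerm_asIdeal (σ : M ≃ₐ[K] M) (v : HeightOneSpectrum (𝓞 M)) :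
    (primePerm K M σ v).asIdeal = σ • v.asIdeal := by
  rw [Ideal.pointwise_smul_eq_comap]
  rfl

theorem primePerm_one (v : HeightOneSpectrum (𝓞 M)) : primePerm K M 1 v = v := by
  apply HeightOneSpectrum.ext
  rw [primePerm_asIdeal, one_smul]

theorem primePerm_mul (σ τ : M ≃ₐ[K] M) (v : HeightOneSpectrum (𝓞 M)) :
    primePerm K M (σ * τ) v = primePerm K M σ (primePerm K M τ v) := by
  apply HeightOneSpectrum.ext
  rw [primePerm_asIdeal, primePerm_asIdeal, primePerm_asIdeal, mul_smul]

theorem primePerm_pow_mem (σ : M ≃ₐ[K] M) (S : Finset (HeightOneSpectrum (𝓞 M)))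
    (hS : ∀ v ∈ S, primePerm K M σ v ∈ S) (n : ℕ) : ∀ v ∈ S, primePerm K M (σ ^ n) v ∈ S := by
  induction n with
  | zero => intro v hv; simpa [primePerm_one] using hv
  | succ n ih =>
    intro v hv
    rw [pow_succ', primePerm_mul]
    exact hS _ (ih v hv)

theorem primePerm_mem_of_generator [FiniteDimensional K M] (σ : M ≃ₐ[K] M)
    (hσ : ∀ τ : M ≃ₐ[K] M, τ ∈ Subgroup.zpowers σ)
    (S : Finset (HeightOneSpectrum (𝓞 M))) (hS : ∀ v ∈ S, primePerm K M σ v ∈ S)
    (τ : M ≃ₐ[K] M) : ∀ v ∈ S, primePerm K M τ v ∈ S := by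
  have hfin : IsOfFinOrder σ := isOfFinOrder_of_finite σ
  obtain ⟨n, rfl⟩ := (hfin.mem_powers_iff_mem_zpowers).mpr (hσ τ)
  exact primePerm_pow_mem K M σ S hS n

instance liesOver_primeBelow (v : HeightOneSpectrum (𝓞 M)) :
    v.asIdeal.LiesOver (primeBelow K M v).asIdeal :=
  (inferInstance : v.asIdeal.LiesOver (v.asIdeal.under (𝓞 K)))

theorem primeBelow_asIdeal (v : HeightOneSpectrum (𝓞 M)) :
    (primeBelow K M v).asIdeal = v.asIdeal.under (𝓞 K) := rfl

/-- Galois acts transitively on the primes above a given prime. -/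
theorem exists_primePerm_eq [IsGalois K M] {v v' : HeightOneSpectrum (𝓞 M)}
    (h : primeBelow K M v = primeBelow K M v') : ∃ τ : M ≃ₐ[K] M, primePerm K M τ v = v' := by
  have : v'.asIdeal.LiesOver (primeBelow K M v).asIdeal := by
    rw [h]; infer_instance
  obtain ⟨τ, hτ⟩ := Ideal.exists_smul_eq_of_isGaloisGroup (primeBelow K M v).asIdeal
    v.asIdeal v'.asIdeal (M ≃ₐ[K] M)
  refine ⟨τ, HeightOneSpectrum.ext ?_⟩
  rw [primePerm_asIdeal, hτ]

/-- Every prime of `K` lies below a prime of `M`. -/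
theorem primeBelow_surjective : Function.Surjective (primeBelow K M) := by
  intro w
  obtain ⟨Q, -, hQ, hQw⟩ := Ideal.exists_ideal_over_prime_of_isIntegral (S := 𝓞 M) w.asIdeal ⊥
    (by
      rw [Ideal.comap_bot_of_injective _ (FaithfulSMul.algebraMap_injective (𝓞 K) (𝓞 M))]
      exact bot_le)
  have hQ0 : Q ≠ ⊥ := by
    rintro rfl
    rw [Ideal.comap_bot_of_injective _ (FaithfulSMul.algebraMap_injective (𝓞 K) (𝓞 M))] at hQw
    exact w.ne_bot hQw.symm
  refine ⟨⟨Q, hQ, hQ0⟩, HeightOneSpectrum.ext ?_⟩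
  rw [primeBelow_asIdeal]
  exact hQw


/-! ### Base change of units from `K` to `M` -/

/-- `Kˣ → Mˣ`, as a `ℤ`-linear map on the additive copies. -/
noncomputable def baseChange : Additive Kˣ →ₗ[ℤ] Additive Mˣ :=
  (MonoidHom.toAdditive (Units.map ((algebraMap K M : K →+* M) : K →* M))).toIntLinearMap

theorem baseChange_apply (β : Kˣ) :
    baseChange K M (Additive.ofMul β) =
      Additive.ofMul (Units.map ((algebraMap K M : K →+* M) : K →* M) β) := rfl

theorem baseChange_injective : Function.Injective (baseChange K M) := by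
  intro x y h
  have h' : Units.map ((algebraMap K M : K →+* M) : K →* M) (Additive.toMul x) =
      Units.map ((algebraMap K M : K →+* M) : K →* M) (Additive.toMul y) :=
    Additive.ofMul.injective h
  have h'' : algebraMap K M ((Additive.toMul x : Kˣ) : K) = algebraMap K M ((Additive.toMul y : Kˣ) : K) := by
    simpa using congrArg (fun u : Mˣ => (u : M)) h'
  exact Additive.toMul.injective (Units.ext ((algebraMap K M).injective h''))

/-- `ord_v (β) = 0` iff `ord_w (β) = 0` for `w` the prime of `K` below `v` and `β ∈ Kˣ`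
(no hypothesis on ramification: `ord_v β = e · ord_w β` with `e ≠ 0`). -/
theorem ordM_baseChange_eq_zero_iff (v : HeightOneSpectrum (𝓞 M)) (β : Kˣ) :
    ordM M v (baseChange K M (Additive.ofMul β)) = 0 ↔
      ordM K (primeBelow K M v) (Additive.ofMul β) = 0 := by
  rw [baseChange_apply, ordM_eq_zero_iff, ordM_eq_zero_iff]
  have hval := HeightOneSpectrum.valuation_liesOver M (primeBelow K M v) v (β : K)
  have he : (primeBelow K M v).asIdeal.ramificationIdx' v.asIdeal ≠ 0 :=
    Ideal.IsDedekindDomain.ramificationIdx'_ne_zero_of_liesOver v.asIdeal (primeBelow K M v).ne_bot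
  have hcoe : ((Units.map ((algebraMap K M : K →+* M) : K →* M) β : Mˣ) : M) = algebraMap K M (β : K) := rfl
  rw [hcoe, ← hval, pow_eq_one_iff]
  simp [he]

/-- An element of `Mˣ` fixed by a generator of the Galois group comes from `Kˣ`. -/
theorem exists_baseChange_eq_of_fixed [IsGalois K M] (σ : M ≃ₐ[K] M)
    (hσ : ∀ τ : M ≃ₐ[K] M, τ ∈ Subgroup.zpowers σ) (x : Additive Mˣ)
    (hx : sigmaEnd K M σ x = x) : ∃ β : Additive Kˣ, baseChange K M β = x := by
  obtain ⟨x, rfl⟩ := Additive.ofMul.surjective x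
  have hfix : σ (x : M) = x := by
    have := congrArg (fun u : Additive Mˣ => ((Additive.toMul u : Mˣ) : M)) hx
    simpa using this
  have hall : ∀ τ : M ≃ₐ[K] M, τ (x : M) = x := by
    intro τ
    obtain ⟨n, rfl⟩ := Subgroup.mem_zpowers_iff.mp (hσ τ)
    have hstab : σ ∈ MulAction.stabilizer (M ≃ₐ[K] M) (x : M) := hfix
    exact (Subgroup.zpow_mem _ hstab n)
  obtain ⟨b, hb⟩ := (IntermediateField.mem_bot).mp ((IsGalois.mem_bot_iff_fixed (F := K) (x : M)).mpr hall)
  have hb0 : b ≠ 0 := by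
    rintro rfl
    rw [map_zero] at hb
    exact x.ne_zero hb.symm
  refine ⟨Additive.ofMul (Units.mk0 b hb0), ?_⟩
  rw [baseChange_apply]
  congr 1
  ext
  simpa using hb


/-! ### The `σ`-invariant `S`-units -/

theorem sigmaEnd_baseChange (σ : M ≃ₐ[K] M) (β : Additive Kˣ) :
    sigmaEnd K M σ (baseChange K M β) = baseChange K M β := by
  obtain ⟨β, rfl⟩ := Additive.ofMul.surjective β
  rw [baseChange_apply, sigmaEnd_apply]
  congr 1
  ext
  simp

theorem mem_ker_sigmaEnd_sub_one (σ : M ≃ₐ[K] M) (x : Additive Mˣ) :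
    x ∈ LinearMap.ker (sigmaEnd K M σ - 1) ↔ sigmaEnd K M σ x = x := by
  rw [LinearMap.mem_ker, LinearMap.sub_apply, Module.End.one_apply, sub_eq_zero]

/-- `β ∈ Kˣ` is (after base change) a `σ`-invariant `S`-unit of `M` iff it is an `S_K`-unit of `K`,
where `S_K` is the set of primes of `K` below `S` (`S` Galois-stable). -/
theorem baseChange_mem_iff [IsGalois K M] [DecidableEq (HeightOneSpectrum (𝓞 K))]
    (σ : M ≃ₐ[K] M) (hσ : ∀ τ : M ≃ₐ[K] M, τ ∈ Subgroup.zpowers σ)
    (S : Finset (HeightOneSpectrum (𝓞 M))) (hS : ∀ v ∈ S, primePerm K M σ v ∈ S)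
    (β : Additive Kˣ) :
    baseChange K M β ∈ sUnits M S ⊓ LinearMap.ker (sigmaEnd K M σ - 1) ↔
      β ∈ sUnits K (S.image (primeBelow K M)) := by
  obtain ⟨β, rfl⟩ := Additive.ofMul.surjective β
  constructor
  · rintro ⟨h1, -⟩ w hw
    obtain ⟨v, rfl⟩ := primeBelow_surjective K M w
    have hv : v ∉ S := fun hv => hw (Finset.mem_image_of_mem _ hv)
    exact (ordM_baseChange_eq_zero_iff K M v β).mp (h1 v hv)
  · intro h
    refine ⟨?_, (mem_ker_sigmaEnd_sub_one K M σ _).mpr (sigmaEnd_baseChange K M σ _)⟩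
    intro v hv
    refine (ordM_baseChange_eq_zero_iff K M v β).mpr (h _ ?_)
    intro hmem
    obtain ⟨v', hv', hvv'⟩ := Finset.mem_image.mp hmem
    obtain ⟨τ, rfl⟩ := exists_primePerm_eq K M hvv'
    exact hv (primePerm_mem_of_generator K M σ hσ S hS τ v' hv')

/-- The `S_K`-units of `K` are identified with the `σ`-invariant `S`-units of `M`. -/
noncomputable def invariantsEquiv [IsGalois K M] [DecidableEq (HeightOneSpectrum (𝓞 K))]
    (σ : M ≃ₐ[K] M) (hσ : ∀ τ : M ≃ₐ[K] M, τ ∈ Subgroup.zpowers σ)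
    (S : Finset (HeightOneSpectrum (𝓞 M))) (hS : ∀ v ∈ S, primePerm K M σ v ∈ S) :
    sUnits K (S.image (primeBelow K M)) ≃ₗ[ℤ]
      ↥(sUnits M S ⊓ LinearMap.ker (sigmaEnd K M σ - 1)) := by
  refine (LinearEquiv.ofInjective ((baseChange K M).comp (sUnits K (S.image (primeBelow K M))).subtype)
    ?_).trans (LinearEquiv.ofEq _ _ ?_)
  · intro x y h
    exact Subtype.ext (baseChange_injective K M h)
  · ext x
    constructor
    · rintro ⟨β, rfl⟩
      exact (baseChange_mem_iff K M σ hσ S hS β.1).mpr β.2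
    · intro hx
      obtain ⟨β, rfl⟩ := exists_baseChange_eq_of_fixed K M σ hσ x
        ((mem_ker_sigmaEnd_sub_one K M σ x).mp hx.2)
      exact ⟨⟨β, (baseChange_mem_iff K M σ hσ S hS β).mp hx⟩, rfl⟩

theorem invariantsEquiv_apply [IsGalois K M] [DecidableEq (HeightOneSpectrum (𝓞 K))]
    (σ : M ≃ₐ[K] M) (hσ : ∀ τ : M ≃ₐ[K] M, τ ∈ Subgroup.zpowers σ)
    (S : Finset (HeightOneSpectrum (𝓞 M))) (hS : ∀ v ∈ S, primePerm K M σ v ∈ S)
    (β : sUnits K (S.image (primeBelow K M))) :
    ((invariantsEquiv K M σ hσ S hS β : ↥(sUnits M S ⊓ LinearMap.ker (sigmaEnd K M σ - 1))) :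
      Additive Mˣ) = baseChange K M β.1 := rfl

/-- The `σ`-invariant `S`-units form a finitely generated group. -/
theorem finite_invariants [IsGalois K M]
    (σ : M ≃ₐ[K] M) (hσ : ∀ τ : M ≃ₐ[K] M, τ ∈ Subgroup.zpowers σ)
    (S : Finset (HeightOneSpectrum (𝓞 M))) (hS : ∀ v ∈ S, primePerm K M σ v ∈ S) :
    Module.Finite ℤ ↥(sUnits M S ⊓ LinearMap.ker (sigmaEnd K M σ - 1)) := by
  classical
  exact Module.Finite.equiv (invariantsEquiv K M σ hσ S hS)

/-- **Rank of the invariants.**  For `σ` a generator of `Gal(M/K)` and `S` a finite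
`σ`-stable set of primes of `M`, the `σ`-invariant `S`-units have rank
`rank 𝓞_Kˣ + #(primes of K below S)`. (No hypothesis on ramification is needed.) -/
theorem finrank_invariants [IsGalois K M] [DecidableEq (HeightOneSpectrum (𝓞 K))]
    (σ : M ≃ₐ[K] M) (hσ : ∀ τ : M ≃ₐ[K] M, τ ∈ Subgroup.zpowers σ)
    (S : Finset (HeightOneSpectrum (𝓞 M))) (hS : ∀ v ∈ S, primePerm K M σ v ∈ S) :
    finrank ℤ ↥(sUnits M S ⊓ LinearMap.ker (sigmaEnd K M σ - 1)) =
      NumberField.Units.rank K + (S.image (primeBelow K M)).card := by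
  rw [← (invariantsEquiv K M σ hσ S hS).finrank_eq, finrank_sUnits]


/-- `Set.ncard` form of `finrank_invariants` (no `DecidableEq` needed). -/
theorem finrank_invariants_ncard [IsGalois K M]
    (σ : M ≃ₐ[K] M) (hσ : ∀ τ : M ≃ₐ[K] M, τ ∈ Subgroup.zpowers σ)
    (S : Finset (HeightOneSpectrum (𝓞 M))) (hS : ∀ v ∈ S, primePerm K M σ v ∈ S) :
    finrank ℤ ↥(sUnits M S ⊓ LinearMap.ker (sigmaEnd K M σ - 1)) =
      NumberField.Units.rank K + (primeBelow K M '' (S : Set (HeightOneSpectrum (𝓞 M)))).ncard := by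
  classical
  rw [finrank_invariants K M σ hσ S hS, ← Finset.coe_image, Set.ncard_coe_finset]

/-- Adapter: for any abstract datum on `Additive Mˣ` whose valuations are the `ordM M v`, the
`S`-units of the datum are `sUnits M S`. -/
theorem datum_sUnits_eq {p : ℕ} {PK : Type*}
    (D : NormIndexDefs.Datum p (Additive Mˣ) (HeightOneSpectrum (𝓞 M)) PK)
    (hD : ∀ v, D.ord v = ordM M v) (S : Finset (HeightOneSpectrum (𝓞 M))) :
    D.sUnits S = sUnits M S := by
  ext x
  simp only [NormIndexDefs.Datum.mem_sUnits, mem_sUnits, hD]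

end Two

end Fermat.Agent.S14.SUnitRanks
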