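/-
S14 / block B2.alg (first inequality) — FINAL ASSEMBLY modulo lemma rows 115 (ClassGen) and 119
(AllNormsOfIdeals), which enter as the explicit hypotheses `ClassGenHyp` / `AllNormsConcl`.
Owner: helper31.

* `datum K M p σ hσ hord` : the concrete `NormIndexDefs.Datum` of a cyclic extension of number fields.
* `not_allNormsConcl` : `ClassGenHyp K M σ → ¬ AllNormsConcl K M p σ` (K totally complex, `[M:K] = p`).
* `not_allIdealsNorms_of_rows` : the two rows ⇒ `¬ FirstIneqAdapter.AllIdealsNorms K M`.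
-/
import Fermat.Agent.S14.NormIndexCore
import Fermat.Agent.S14.GalPrimes
import Fermat.Agent.S14.H90Additive
import Fermat.Agent.S14.SUnitRanks
import Fermat.Agent.S14.RankPlaces
import Fermat.Agent.S14.FirstIneqAdapter

set_option autoImplicit false
set_option linter.unusedSectionVars false
set_option linter.unusedVariables false

open NumberField IsDedekindDomain Module

namespace Fermat.Agent.S14.NormIndex

open Fermat.Agent.S14.NormIndexDefs Fermat.Agent.S14.NormIndexConcrete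
  Fermat.Agent.S14.NormIndexCore Fermat.Agent.S14.HerbrandPrime

variable (K M : Type) [Field K] [NumberField K] [Field M] [NumberField M] [Algebra K M]
  [IsGalois K M]

/-- the concrete datum of a cyclic extension `M/K` of number fields with generator `σ` of order `p`. -/
noncomputable def datum (p : ℕ) (σ : M ≃ₐ[K] M) (hσ : ∀ τ : M ≃ₐ[K] M, τ ∈ Subgroup.zpowers σ)
    (hord : orderOf σ = p) :
    Datum p (Additive Mˣ) (HeightOneSpectrum (𝓞 M)) (HeightOneSpectrum (𝓞 K)) where
  σ := sigmaEnd K M σ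
  σ_pow := H90Additive.sigmaEnd_pow σ hord
  τ := primePerm K M σ
  τ_pow := by
    rw [← GalPrimes.primePerm_pow, ← hord, pow_orderOf_eq_one, GalPrimes.primePerm_one]
  π := primeBelow K M
  π_eq_iff := GalPrimes.primeBelow_eq_iff_of_generator K M σ hσ
  ord := ordM M
  ord_equiv := fun Q x => GalPrimes.ordM_primePerm K M σ Q (Additive.toMul x)
  ord_finite := GalPrimes.ordM_finite M
  hilbert90 := H90Additive.hilbert90 σ hσ hord

/-- The shape of lemma row 115 (B.inst3 ClassGen). -/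
def ClassGenHyp (σ : M ≃ₐ[K] M) : Prop :=
  ∃ S : Finset (HeightOneSpectrum (𝓞 M)), (∀ v ∈ S, primePerm K M σ v ∈ S) ∧
    ∀ d : HeightOneSpectrum (𝓞 M) →₀ ℤ, ∃ z : Mˣ, ∀ v ∉ S, ordM M v (Additive.ofMul z) = d v

/-- The shape of the conclusion of lemma row 119 (B.inst2 AllNormsOfIdeals). -/
def AllNormsConcl (p : ℕ) (σ : M ≃ₐ[K] M) : Prop :=
  ∀ c : HeightOneSpectrum (𝓞 M) →₀ ℤ, (∀ v, c (primePerm K M σ v) = c v) →
    ∃ β : Kˣ, ∃ d : HeightOneSpectrum (𝓞 M) →₀ ℤ, ∀ v,
      c v = ordM M v (Additive.ofMul (Units.map (algebraMap K M : K →* M) β)) +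
        ∑ i ∈ Finset.range p, d ((primePerm K M σ ^ i) v)

/-- `AllNormsConcl` gives `Datum.AllNorms` for the concrete datum. -/
theorem allNorms_of_concl (p : ℕ) (σ : M ≃ₐ[K] M) (hσ : ∀ τ : M ≃ₐ[K] M, τ ∈ Subgroup.zpowers σ)
    (hord : orderOf σ = p) (h : AllNormsConcl K M p σ) : (datum K M p σ hσ hord).AllNorms := by
  intro c hc
  obtain ⟨β, d, hd⟩ := h c hc
  refine ⟨Additive.ofMul (Units.map (algebraMap K M : K →* M) β), ?_, d, hd⟩
  exact (H90Additive.sigmaEnd_eq_self_iff σ hσ _).mpr ⟨β, rfl⟩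

/-- The first inequality, given the two rows as hypotheses: not every ideal-level datum is a norm. -/
theorem not_allNormsConcl (p : ℕ) [hp : Fact p.Prime] (σ : M ≃ₐ[K] M)
    (hσ : ∀ τ : M ≃ₐ[K] M, τ ∈ Subgroup.zpowers σ) (hord : orderOf σ = p)
    (hdeg : Module.finrank K M = p) (hcx : ∀ w : InfinitePlace K, w.IsComplex)
    (hgen : ClassGenHyp K M σ) : ¬ AllNormsConcl K M p σ := by
  classical
  intro hall
  obtain ⟨S, hSτ, hSgen⟩ := hgen
  set D := datum K M p σ hσ hord with hD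
  have hsU : D.sUnits S = SUnitRanks.sUnits M S :=
    SUnitRanks.datum_sUnits_eq M D (fun v => rfl) S
  have hfin : Module.Finite ℤ (D.sUnits S) := by rw [hsU]; infer_instance
  have hrank : finrank ℤ (D.sUnits S) = Units.rank M + S.card := by
    rw [hsU]; exact SUnitRanks.finrank_sUnits M S
  have hrankK : finrank ℤ ((D.sUnits S) ⊓ LinearMap.ker (D.σ - 1 : Module.End ℤ (Additive Mˣ)) :
      Submodule ℤ (Additive Mˣ)) = Units.rank K + (S.image D.π).card := by
    rw [hsU]; exact SUnitRanks.finrank_invariants K M σ hσ S hSτ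
  have hgen' : ∀ d : HeightOneSpectrum (𝓞 M) →₀ ℤ, ∃ z : Additive Mˣ, ∀ Q ∉ S, D.ord Q z = d Q := by
    intro d
    obtain ⟨z, hz⟩ := hSgen d
    exact ⟨Additive.ofMul z, hz⟩
  exact Datum.not_allNorms D S hSτ hgen' (Units.rank M) (Units.rank K)
    (RankPlaces.rank_add_one_eq K M p hdeg hcx) hrank hrankK
    (allNorms_of_concl K M p σ hσ hord hall)

/-- **First inequality, ideal form**, given rows 115 and 119 as hypotheses. -/
theorem not_allIdealsNorms_of_rows (p : ℕ) [hp : Fact p.Prime]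
    (hcard : Nat.card (M ≃ₐ[K] M) = p) (hcx : ∀ w : InfinitePlace K, w.IsComplex)
    (h115 : ∀ σ : M ≃ₐ[K] M, ClassGenHyp K M σ)
    (h119 : ∀ σ : M ≃ₐ[K] M, (∀ τ : M ≃ₐ[K] M, τ ∈ Subgroup.zpowers σ) → orderOf σ = p →
      FirstIneqAdapter.AllIdealsNorms K M → AllNormsConcl K M p σ) :
    ¬ FirstIneqAdapter.AllIdealsNorms K M := by
  intro hall
  have hcyc : IsCyclic (M ≃ₐ[K] M) := isCyclic_of_prime_card hcard
  obtain ⟨σ, hσ⟩ := hcyc.exists_generator
  have hord : orderOf σ = p := by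
    rw [orderOf_eq_card_of_forall_mem_zpowers hσ, hcard]
  have hdeg : Module.finrank K M = p := by
    rw [← IsGalois.card_aut_eq_finrank, hcard]
  exact not_allNormsConcl K M p σ hσ hord hdeg hcx (h115 σ) (h119 σ hσ hord hall)

end Fermat.Agent.S14.NormIndex
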