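/-
S14 / block (R1) — THE FIRST INEQUALITY, unconditional.  Owner: helper31.

`blockFirstIneq : BlockFirstIneq p` : for `K = ℚ(ζ_p)`, `M/K` Galois of degree `p`, unramified,
the subgroup of norm classes has index at least `p` in the class group of `K`.

Assembly of: `NormIndex.not_allIdealsNorms_of_rows` (helper31: Herbrand quotient of `S`-units, abstract
core `NormIndexCore.Datum.not_allNorms`), `ClassGenB.exists_finset_generating` (helper14),
`AllNormsOfIdeals.allNorms_of_ideals` (helper88, helper10), `GalPrimes` (helper76), `H90Additive`
(helper46), `SUnitRanks` (helper28) on `SUnitTheorem` (helper50), `RankPlaces` (helper54),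
`FirstIneqAdapter` (helper6).
-/
import Fermat.Agent.S14.NormIndex
import Fermat.Agent.S14.ClassGenB
import Fermat.Agent.S14.AllNormsOfIdeals

set_option autoImplicit false

open NumberField IsDedekindDomain

namespace Fermat.Agent.S14.BlockFirstIneqProof

/-- `M/K` cyclic of prime degree `p`, unramified, `K` totally complex: not every ideal of `K` is
(principal) × (relative norm from `M`). -/
theorem exportNew : FirstIneqAdapter.ExportNew := by
  intro K M _ _ _ _ _ _ p _ hcard hcx hunr
  apply NormIndex.not_allIdealsNorms_of_rows K M p hcard hcx
  · intro σ
    exact ClassGenB.exists_finset_generating K M σ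
  · intro σ hσ _ hall
    exact AllNormsOfIdeals.allNorms_of_ideals K M σ p hcard hσ
      (fun v => hunr v.asIdeal v.isPrime v.ne_bot) hall

/-- **The first inequality** in the form of `Blocks.lean`. -/
theorem blockFirstIneq {p : ℕ} : BlockFirstIneq p :=
  FirstIneqAdapter.blockFirstIneq_of_exportNew exportNew

end Fermat.Agent.S14.BlockFirstIneqProof
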