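/-
S14 — the norm homomorphism on class groups (helper61).

* `classLift`  : a monoid hom on nonzero ideals that kills principal ideals factors through
                 `ClassGroup.mk0`.
* `relNorm0`   : the relative norm as a monoid hom on nonzero ideals of rings of integers.
* `classNorm`  : the induced norm hom `ClassGroup (𝓞 F) →* ClassGroup (𝓞 K)`.
* `map_normClasses_le` : norm classes of `L/F` push down to norm classes of `M/K`
                 (`K ⊆ M ⊆ L`, `K ⊆ F ⊆ L`): the "norm down to `K`" step of the crossing argument.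
* `mk0_pow_finrank_mem_normClasses` : `[I] ^ [M:K]` is a norm class (extended ideals).
-/
import Fermat.Agent.S14.Defs

set_option autoImplicit false

namespace Fermat.Agent.S14.ClassNorm

open NumberField nonZeroDivisors Fermat.Agent.S14

/-! ### Factoring a monoid hom on ideals through the class group -/

section lift

variable {R : Type*} [CommRing R] [IsDedekindDomain R] {G : Type*} [Group G]

/-- The principal ideal `(x)`, `x ≠ 0`, as a nonzero ideal. -/
noncomputable def span0 (x : R) (hx : x ≠ 0) : (Ideal R)⁰ :=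
  ⟨Ideal.span {x}, mem_nonZeroDivisors_of_ne_zero (by
    rwa [Ne, Ideal.zero_eq_bot, Ideal.span_singleton_eq_bot])⟩

@[simp] theorem coe_span0 (x : R) (hx : x ≠ 0) : (span0 x hx : Ideal R) = Ideal.span {x} := rfl

theorem isPrincipal_span0 (x : R) (hx : x ≠ 0) : (span0 x hx : Ideal R).IsPrincipal :=
  ⟨⟨x, rfl⟩⟩

/-- A monoid hom on nonzero ideals which kills principal ideals is constant on ideal classes. -/
theorem eq_of_mk0_eq (f : (Ideal R)⁰ →* G)
    (hf : ∀ I : (Ideal R)⁰, (I : Ideal R).IsPrincipal → f I = 1) {I J : (Ideal R)⁰}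
    (h : ClassGroup.mk0 I = ClassGroup.mk0 J) : f I = f J := by
  obtain ⟨x, y, hx, hy, hxy⟩ := ClassGroup.mk0_eq_mk0_iff.mp h
  have e : span0 x hx * I = span0 y hy * J := Subtype.ext (by simpa using hxy)
  have := congrArg f e
  rwa [map_mul, map_mul, hf _ (isPrincipal_span0 x hx), hf _ (isPrincipal_span0 y hy), one_mul,
    one_mul] at this

/-- **Universal property of `ClassGroup.mk0`**: a monoid hom on nonzero ideals which kills
principal ideals factors through the class group. -/
noncomputable def classLift (f : (Ideal R)⁰ →* G)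
    (hf : ∀ I : (Ideal R)⁰, (I : Ideal R).IsPrincipal → f I = 1) : ClassGroup R →* G where
  toFun c := f (Classical.choose (ClassGroup.mk0_surjective c))
  map_one' := by
    have h := Classical.choose_spec (ClassGroup.mk0_surjective (1 : ClassGroup R))
    rw [eq_of_mk0_eq f hf (h.trans (map_one _).symm), map_one]
  map_mul' a b := by
    have ha := Classical.choose_spec (ClassGroup.mk0_surjective a)
    have hb := Classical.choose_spec (ClassGroup.mk0_surjective b)
    have hab := Classical.choose_spec (ClassGroup.mk0_surjective (a * b))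
    rw [← map_mul]
    refine eq_of_mk0_eq f hf ?_
    rw [hab, map_mul, ha, hb]

@[simp] theorem classLift_mk0 (f : (Ideal R)⁰ →* G)
    (hf : ∀ I : (Ideal R)⁰, (I : Ideal R).IsPrincipal → f I = 1) (I : (Ideal R)⁰) :
    classLift f hf (ClassGroup.mk0 I) = f I :=
  eq_of_mk0_eq f hf (Classical.choose_spec (ClassGroup.mk0_surjective (ClassGroup.mk0 I)))

theorem classLift_surjective (f : (Ideal R)⁰ →* G)
    (hf : ∀ I : (Ideal R)⁰, (I : Ideal R).IsPrincipal → f I = 1)
    (hs : Function.Surjective f) : Function.Surjective (classLift f hf) := fun g => by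
  obtain ⟨I, rfl⟩ := hs g
  exact ⟨ClassGroup.mk0 I, classLift_mk0 f hf I⟩

/-- Two homs out of the class group agreeing on all `mk0 I` are equal. -/
theorem hom_ext_mk0 {φ ψ : ClassGroup R →* G}
    (h : ∀ I : (Ideal R)⁰, φ (ClassGroup.mk0 I) = ψ (ClassGroup.mk0 I)) : φ = ψ := by
  ext c
  obtain ⟨I, rfl⟩ := ClassGroup.mk0_surjective c
  exact h I

end lift

/-! ### The relative norm on nonzero ideals and on class groups -/

section norm

variable (K F : Type*) [Field K] [NumberField K] [Field F] [NumberField F] [Algebra K F]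

/-- The relative norm `N_{F/K}` as a monoid hom on nonzero ideals. -/
noncomputable def relNorm0 : (Ideal (𝓞 F))⁰ →* (Ideal (𝓞 K))⁰ where
  toFun I := ⟨Ideal.relNorm (𝓞 K) (I : Ideal (𝓞 F)), mem_nonZeroDivisors_of_ne_zero (by
    rw [Ne, Ideal.zero_eq_bot, Ideal.relNorm_eq_bot_iff]
    exact nonZeroDivisors.coe_ne_zero I)⟩
  map_one' := Subtype.ext (by simp)
  map_mul' I J := Subtype.ext (by simp)

@[simp] theorem coe_relNorm0 (I : (Ideal (𝓞 F))⁰) :
    (relNorm0 K F I : Ideal (𝓞 K)) = Ideal.relNorm (𝓞 K) (I : Ideal (𝓞 F)) := rfl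

theorem isPrincipal_relNorm0 (I : (Ideal (𝓞 F))⁰) (hI : (I : Ideal (𝓞 F)).IsPrincipal) :
    (relNorm0 K F I : Ideal (𝓞 K)).IsPrincipal := by
  obtain ⟨⟨x, hx⟩⟩ := hI
  rw [coe_relNorm0, hx]
  exact ⟨⟨_, Ideal.relNorm_singleton (𝓞 K) x⟩⟩

/-- **The norm homomorphism on class groups** `N_{F/K} : Cl(F) → Cl(K)`. -/
noncomputable def classNorm : ClassGroup (𝓞 F) →* ClassGroup (𝓞 K) :=
  classLift (ClassGroup.mk0.comp (relNorm0 K F)) (fun I hI => by
    rw [MonoidHom.comp_apply]
    exact (ClassGroup.mk0_eq_one_iff (relNorm0 K F I).2).mpr (isPrincipal_relNorm0 K F I hI))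

@[simp] theorem classNorm_mk0 (I : (Ideal (𝓞 F))⁰) :
    classNorm K F (ClassGroup.mk0 I) = ClassGroup.mk0 (relNorm0 K F I) :=
  classLift_mk0 _ _ I

/-- Variant of `classNorm_mk0` for a nonzero ideal of `𝓞 K` given with a proof that it is the
relative norm. -/
theorem classNorm_mk0_eq (I : (Ideal (𝓞 F))⁰) (J : (Ideal (𝓞 K))⁰)
    (h : (J : Ideal (𝓞 K)) = Ideal.relNorm (𝓞 K) (I : Ideal (𝓞 F))) :
    classNorm K F (ClassGroup.mk0 I) = ClassGroup.mk0 J := by
  rw [classNorm_mk0]
  congr 1
  exact Subtype.ext h.symm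

end norm

/-! ### Towers -/

section tower

variable (K F L : Type*) [Field K] [NumberField K] [Field F] [NumberField F] [Field L]
  [NumberField L] [Algebra K F] [Algebra F L] [Algebra K L] [IsScalarTower K F L]

theorem relNorm0_relNorm0 (J : (Ideal (𝓞 L))⁰) :
    relNorm0 K F (relNorm0 F L J) = relNorm0 K L J :=
  Subtype.ext (Ideal.relNorm_relNorm (𝓞 K) (𝓞 F) (J : Ideal (𝓞 L)))

theorem classNorm_classNorm (c : ClassGroup (𝓞 L)) :
    classNorm K F (classNorm F L c) = classNorm K L c := by
  obtain ⟨J, rfl⟩ := ClassGroup.mk0_surjective c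
  simp only [classNorm_mk0, relNorm0_relNorm0]

end tower

/-! ### Norm classes push down -/

section pushdown

variable (K M F L : Type*) [Field K] [NumberField K] [Field M] [NumberField M] [Field F]
  [NumberField F] [Field L] [NumberField L] [Algebra K M] [Algebra K F] [Algebra M L]
  [Algebra F L] [Algebra K L] [IsScalarTower K M L] [IsScalarTower K F L]

/-- **Norming down**: for a square of number fields `K ⊆ M ⊆ L`, `K ⊆ F ⊆ L`, the norm hom
`Cl(F) → Cl(K)` maps the norm classes of `L/F` into the norm classes of `M/K`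
(`N_{F/K} N_{L/F} = N_{M/K} N_{L/M}`). -/
theorem map_normClasses_le :
    (normClasses F L).map (classNorm K F) ≤ normClasses K M := by
  rw [Subgroup.map_le_iff_le_comap, normClasses, Subgroup.closure_le]
  rintro c ⟨J, I, hJ, hI, rfl⟩
  rw [SetLike.mem_coe, Subgroup.mem_comap, classNorm_mk0]
  have hJ' : Ideal.relNorm (𝓞 M) J ≠ ⊥ := by rwa [Ne, Ideal.relNorm_eq_bot_iff]
  refine Subgroup.subset_closure ⟨Ideal.relNorm (𝓞 M) J, relNorm0 K F I, hJ', ?_, rfl⟩
  rw [coe_relNorm0, hI, Ideal.relNorm_relNorm (𝓞 K) (𝓞 F) J, Ideal.relNorm_relNorm (𝓞 K) (𝓞 M) J]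

theorem classNorm_mem_normClasses {c : ClassGroup (𝓞 F)} (hc : c ∈ normClasses F L) :
    classNorm K F c ∈ normClasses K M :=
  map_normClasses_le K M F L (Subgroup.mem_map_of_mem _ hc)

/-- Consumer form for the crossing: if two nonzero ideals of `𝓞 F` differ by a norm class of
`L/F`, their relative norms to `K` differ by a norm class of `M/K`. -/
theorem mk0_relNorm0_div_mem {c c' : (Ideal (𝓞 F))⁰}
    (h : ClassGroup.mk0 c / ClassGroup.mk0 c' ∈ normClasses F L) :
    ClassGroup.mk0 (relNorm0 K F c) / ClassGroup.mk0 (relNorm0 K F c') ∈ normClasses K M := by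
  have := classNorm_mem_normClasses K M F L h
  rwa [map_div, classNorm_mk0, classNorm_mk0] at this

end pushdown

/-! ### `[M:K]`-th powers are norm classes -/

section pow

variable (K M : Type*) [Field K] [NumberField K] [Field M] [NumberField M] [Algebra K M]

theorem finrank_ringOfIntegers : Module.finrank (𝓞 K) (𝓞 M) = Module.finrank K M :=
  (IsFractionRing.finrank_eq (𝓞 K) K (𝓞 M) M).symm

/-- The class of the relative norm of a nonzero ideal is a norm class. -/
theorem mk0_mem_normClasses (J : Ideal (𝓞 M)) (hJ : J ≠ ⊥) (I : (Ideal (𝓞 K))⁰)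
    (hI : (I : Ideal (𝓞 K)) = Ideal.relNorm (𝓞 K) J) :
    ClassGroup.mk0 I ∈ normClasses K M :=
  Subgroup.subset_closure ⟨J, I, hJ, hI, rfl⟩

/-- `[I] ^ [M:K]` is a norm class: it is the class of `N_{M/K}(I 𝓞_M)`. -/
theorem mk0_pow_finrank_mem_normClasses (I : (Ideal (𝓞 K))⁰) :
    ClassGroup.mk0 I ^ Module.finrank K M ∈ normClasses K M := by
  rw [← map_pow]
  refine mk0_mem_normClasses K M ((I : Ideal (𝓞 K)).map (algebraMap (𝓞 K) (𝓞 M))) ?_ _ ?_
  · rw [Ne, Ideal.map_eq_bot_iff_of_injective (FaithfulSMul.algebraMap_injective (𝓞 K) (𝓞 M))]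
    exact nonZeroDivisors.coe_ne_zero I
  · rw [Ideal.relNorm_algebraMap, finrank_ringOfIntegers]
    rfl

/-- Every element of `Cl(K) ⧸ normClasses` is killed by `[M:K]`. -/
theorem pow_finrank_mem_normClasses (c : ClassGroup (𝓞 K)) :
    c ^ Module.finrank K M ∈ normClasses K M := by
  obtain ⟨I, rfl⟩ := ClassGroup.mk0_surjective c
  exact mk0_pow_finrank_mem_normClasses K M I

end pow

end Fermat.Agent.S14.ClassNorm
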