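import Mathlib

/-!
# Unramified base change (S14, block D / crossing support)

Setting: `K ⊆ L` Galois, `K ⊆ E`, and `L'` a field containing `L` and `E` compatibly and
generated by them (`L' = L·E`, hypothesis `IsCompositum L E L'`).  Then

* `resHom : Gal(L'/E) →* Gal(L/K)` (restriction) is an injective group homomorphism
  (`resHom_injective`), compatible with the inclusions (`algebraMap_resHom`);
* `L'/E` is Galois (`isGalois_of_isCompositum`), commutative / cyclic if `L/K` is, and
  `[L':E] ∣ [L:K]`;
* if `L/K` is unramified at all finite primes (every `Ideal.inertia` group of a nonzero prime of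
  `𝓞 L` is trivial — the unfolded form of `Fermat.Agent.S14.ArtinMap.Unram`) then so is `L'/E`
  (`unram_of_isCompositum`).

Everything is stated for abstract fields with `Algebra` + `IsScalarTower` instances, as in the
other S14 files.  (Total complexity passes up by Mathlib's
`NumberField.isTotallyComplex_of_algebra`.)
-/

namespace Fermat.Agent.S14.UnramBaseChange

open NumberField IntermediateField Polynomial

/-- The hypothesis "`L' = L·E`": `L'` is generated over `E` by the image of `L`. -/
def IsCompositum (L E L' : Type*) [Field L] [Field E] [Field L'] [Algebra L L']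
    [Algebra E L'] : Prop :=
  IntermediateField.adjoin E (Set.range (algebraMap L L')) = ⊤

section Fields

variable {K L E L' : Type*} [Field K] [Field L] [Field E] [Field L']
  [Algebra K L] [Algebra K E] [Algebra L L'] [Algebra E L'] [Algebra K L']
  [IsScalarTower K L L'] [IsScalarTower K E L']

/-- Restriction `Gal(L'/E) → Gal(L/K)` for `L/K` normal. -/
noncomputable def resHom [Normal K L] : (L' ≃ₐ[E] L') →* (L ≃ₐ[K] L) :=
  (AlgEquiv.restrictNormalHom (F := K) (K₁ := L') L).comp
    (AlgEquiv.restrictScalarsHom K : (L' ≃ₐ[E] L') →* (L' ≃ₐ[K] L'))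

theorem algebraMap_resHom [Normal K L] (σ : L' ≃ₐ[E] L') (y : L) :
    algebraMap L L' (resHom (K := K) (L := L) σ y) = σ (algebraMap L L' y) :=
  AlgEquiv.restrictNormal_commutes (σ.restrictScalars K) L y

theorem resHom_injective [Normal K L] (h : IsCompositum L E L') :
    Function.Injective (resHom (K := K) (L := L) (E := E) (L' := L')) := by
  rw [injective_iff_map_eq_one]
  intro σ hσ
  have hfix : ∀ y : L, σ (algebraMap L L' y) = algebraMap L L' y := by
    intro y
    rw [← algebraMap_resHom (K := K), hσ]
    rfl
  ext x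
  have hx : x ∈ IntermediateField.adjoin E (Set.range (algebraMap L L')) := by
    rw [h]; trivial
  induction hx using IntermediateField.adjoin_induction with
  | mem y hy =>
    obtain ⟨z, rfl⟩ := hy
    simpa using hfix z
  | algebraMap e => simp
  | add a b _ _ ha hb =>
    simp only [map_add, ha, hb]
  | inv a _ ha =>
    simp only [map_inv₀, ha]
  | mul a b _ _ ha hb =>
    simp only [map_mul, ha, hb]

/-- `L·E / E` is Galois when `L/K` is (finite) Galois. -/
theorem isGalois_of_isCompositum [FiniteDimensional K L] [IsGalois K L]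
    (h : IsCompositum L E L') : IsGalois E L' := by
  obtain ⟨f, hsep, hsf⟩ := IsGalois.is_separable_splitting_field (F := K) (E := L)
  set g : E[X] := f.map (algebraMap K E) with hg
  have hgsep : g.Separable := hsep.map
  have hg0 : g ≠ 0 := hgsep.ne_zero
  have hmapeq : g.map (algebraMap E L') = (f.map (algebraMap K L)).map (algebraMap L L') := by
    rw [hg, Polynomial.map_map, Polynomial.map_map, ← IsScalarTower.algebraMap_eq,
      ← IsScalarTower.algebraMap_eq]
  have hgsplits : (g.map (algebraMap E L')).Splits := by
    rw [hmapeq]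
    exact (hsf.splits).map _
  have hroot : ∀ y ∈ f.rootSet L, algebraMap L L' y ∈ g.rootSet L' := by
    intro y hy
    rw [Polynomial.mem_rootSet] at hy ⊢
    refine ⟨hg0, ?_⟩
    have h1 : (aeval (algebraMap L L' y)) g = algebraMap L L' ((aeval y) f) := by
      rw [hg, aeval_map_algebraMap, aeval_algebraMap_apply]
    rw [h1, hy.2, map_zero]
  have hsub : Set.range (algebraMap L L') ⊆
      (IntermediateField.adjoin E (g.rootSet L') : Set L') := by
    rintro _ ⟨y, rfl⟩
    have hy : y ∈ Algebra.adjoin K (f.rootSet L) := by
      rw [hsf.adjoin_rootSet]; trivial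
    induction hy using Algebra.adjoin_induction with
    | mem y hy => exact IntermediateField.subset_adjoin E _ (hroot y hy)
    | algebraMap k =>
      rw [← IsScalarTower.algebraMap_apply K L L', IsScalarTower.algebraMap_apply K E L']
      exact IntermediateField.algebraMap_mem _ _
    | add a b _ _ ha hb => rw [map_add]; exact add_mem ha hb
    | mul a b _ _ ha hb => rw [map_mul]; exact mul_mem ha hb
  have htop : IntermediateField.adjoin E (g.rootSet L') = ⊤ := by
    rw [eq_top_iff, ← h]
    exact IntermediateField.adjoin_le_iff.mpr hsub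
  have hsf' : g.IsSplittingField E (IntermediateField.adjoin E (g.rootSet L')) :=
    IntermediateField.adjoin_rootSet_isSplittingField hgsplits
  have hgal : IsGalois E (IntermediateField.adjoin E (g.rootSet L')) :=
    IsGalois.of_separable_splitting_field hgsep
  rw [htop] at hgal
  exact IsGalois.of_algEquiv (IntermediateField.topEquiv (F := E) (E := L'))

/-- `Gal(L·E/E)` is commutative when `Gal(L/K)` is. -/
theorem isMulCommutative_of_isCompositum [Normal K L] (h : IsCompositum L E L')
    [IsMulCommutative (L ≃ₐ[K] L)] : IsMulCommutative (L' ≃ₐ[E] L') :=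
  ⟨⟨fun a b => resHom_injective (K := K) (L := L) h (by
    rw [map_mul, map_mul, mul_comm'])⟩⟩

/-- `Gal(L·E/E)` is cyclic when `Gal(L/K)` is. -/
theorem isCyclic_of_isCompositum [Normal K L] (h : IsCompositum L E L')
    [IsCyclic (L ≃ₐ[K] L)] : IsCyclic (L' ≃ₐ[E] L') :=
  isCyclic_of_injective _ (resHom_injective (K := K) (L := L) h)

/-- `|Gal(L·E/E)|` divides `|Gal(L/K)|`. -/
theorem card_dvd_of_isCompositum [Normal K L] [FiniteDimensional K L]
    (h : IsCompositum L E L') :
    Nat.card (L' ≃ₐ[E] L') ∣ Nat.card (L ≃ₐ[K] L) :=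
  Subgroup.card_dvd_of_injective _ (resHom_injective (K := K) (L := L) h)

/-- `[L·E : E]` divides `[L : K]` for `L/K` finite Galois. -/
theorem finrank_dvd_of_isCompositum [FiniteDimensional K L] [IsGalois K L]
    [FiniteDimensional E L'] (h : IsCompositum L E L') :
    Module.finrank E L' ∣ Module.finrank K L := by
  have := isGalois_of_isCompositum (K := K) h
  rw [← IsGalois.card_aut_eq_finrank, ← IsGalois.card_aut_eq_finrank]
  exact card_dvd_of_isCompositum (K := K) h

/-- If `[L:K] = p` is prime and `L·E ≠ E` (i.e. `[L·E:E] ≠ 1`) then `[L·E:E] = p`, and the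
restriction map is bijective. -/
theorem finrank_eq_of_prime [FiniteDimensional K L] [IsGalois K L]
    [FiniteDimensional E L'] (h : IsCompositum L E L') {p : ℕ} (hp : p.Prime)
    (hKL : Module.finrank K L = p) (hne : Module.finrank E L' ≠ 1) :
    Module.finrank E L' = p := by
  have hd := finrank_dvd_of_isCompositum (K := K) h
  rw [hKL] at hd
  rcases (Nat.dvd_prime hp).mp hd with h1 | h1
  · exact absurd h1 hne
  · exact h1

theorem resHom_bijective_of_finrank_eq [FiniteDimensional K L] [IsGalois K L]
    [FiniteDimensional E L'] (h : IsCompositum L E L')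
    (hdeg : Module.finrank E L' = Module.finrank K L) :
    Function.Bijective (resHom (K := K) (L := L) (E := E) (L' := L')) := by
  have := isGalois_of_isCompositum (K := K) h
  have hinj := resHom_injective (K := K) (L := L) h
  have hcard : Nat.card (L' ≃ₐ[E] L') = Nat.card (L ≃ₐ[K] L) := by
    rw [IsGalois.card_aut_eq_finrank, IsGalois.card_aut_eq_finrank, hdeg]
  have : Finite (L ≃ₐ[K] L) := inferInstance
  have : Finite (L' ≃ₐ[E] L') := inferInstance
  exact (Nat.bijective_iff_injective_and_card _).mpr ⟨hinj, hcard⟩

end Fields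

section NF

variable {K L E L' : Type*} [Field K] [Field L] [Field E] [Field L']
  [NumberField L] [NumberField L']
  [Algebra K L] [Algebra K E] [Algebra L L'] [Algebra E L'] [Algebra K L']
  [IsScalarTower K L L'] [IsScalarTower K E L']

/-- `L/K` is unramified at all finite primes: every inertia group is trivial. This is the
unfolded form of `Fermat.Agent.S14.ArtinMap.Unram`. -/
def Unram (K L : Type*) [Field K] [Field L] [NumberField L] [Algebra K L] : Prop :=
  ∀ (P : Ideal (𝓞 L)), P.IsPrime → P ≠ ⊥ →
    ∀ σ : L ≃ₐ[K] L, σ ∈ P.inertia (L ≃ₐ[K] L) → σ = 1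

omit [NumberField L] [NumberField L'] in
theorem algebraMap_resHom_smul [Normal K L] (σ : L' ≃ₐ[E] L') (y : 𝓞 L) :
    algebraMap (𝓞 L) (𝓞 L') (((resHom σ : L ≃ₐ[K] L) • y : 𝓞 L)) =
      (σ • (algebraMap (𝓞 L) (𝓞 L') y) : 𝓞 L') := by
  apply RingOfIntegers.ext
  change algebraMap L L' ((resHom (K := K) (L := L) σ) (y : L)) = σ (algebraMap L L' (y : L))
  exact algebraMap_resHom (K := K) (L := L) σ (y : L)

/-- **Unramified base change**: if `L/K` is unramified at all finite primes then so is
`L·E/E`. -/
theorem unram_of_isCompositum [Normal K L] (h : IsCompositum L E L') (hU : Unram K L) :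
    Unram E L' := by
  intro P' hP' hP'0 σ hσ
  apply resHom_injective (K := K) (L := L) h
  rw [map_one]
  have hcomap_prime : (P'.comap (algebraMap (𝓞 L) (𝓞 L'))).IsPrime := hP'.comap _
  refine hU (P'.comap (algebraMap (𝓞 L) (𝓞 L'))) hcomap_prime ?_ _ ?_
  · intro hbot
    have : Algebra.IsIntegral (𝓞 L) (𝓞 L') := inferInstance
    exact hP'0 (Ideal.eq_bot_of_comap_eq_bot hbot)
  · intro y
    change algebraMap (𝓞 L) (𝓞 L') ((resHom (K := K) (L := L) σ : L ≃ₐ[K] L) • y - y) ∈ P'
    rw [map_sub, algebraMap_resHom_smul]
    exact hσ _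

end NF

end Fermat.Agent.S14.UnramBaseChange
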