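import Mathlib
import Fermat.Agent.S14.Defs
import Fermat.Agent.S14.UnramBaseChange
import Fermat.Agent.S14.NormClassesDegreeOne

/-!
# S14, block (C): the auxiliary fields of the crossing argument, for a GENERAL subgroup `H`

`K`, `M`, `Ω` are fields with `K → M → Ω` (abstract types, `IsScalarTower K M Ω`), `Ω/K` finite
Galois, and `H ≤ Gal(Ω/K)` is ANY subgroup.  We put

* `auxF K Ω H = Ω^H`                        (an `IntermediateField K Ω`),
* `auxL K M Ω H = F·M ⊆ Ω`                  (an `IntermediateField (auxF K Ω H) Ω`),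

so that all `Algebra` / `IsScalarTower` instances between `K`, `F`, `L`, `Ω` are the automatic ones
of nested intermediate fields; `Algebra M L` is the corestriction of `M → Ω` (instance below).

Results (the data needed by the single-field lemma and the linking lemma of the crossing):

* `isCompositum_auxL`     : `UnramBaseChange.IsCompositum M F L`  (so `L/F` Galois, `resHom`
                            injective, `Unram` base change, ... all apply);
* `resHom_bijective`, `finrank_auxL` : if `res : H → Gal(M/K)` is onto then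
                            `Gal(L/F) ≃ Gal(M/K)` and `[L:F] = [M:K]`;
* `isCyclotomicExtension_auxF` : if no nontrivial element of `H` fixes the primitive `m`-th root
                            of unity `ζ ∈ Ω` then `Ω = F(ζ)` is `m`-cyclotomic over `F`;
* `unram_auxL`            : `Unram K M → Unram F L`;
* `absNorm_under_auxF`, `relNorm_under_auxF` : if `φ ∈ H` is an arithmetic Frobenius at a prime
                            `𝔓` of `Ω` then `𝔓 ∩ 𝓞 F` has residue degree one over `𝔓 ∩ 𝓞 K`;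
* `absNorm_under_of_le`, `relNorm_under_of_le` : degree-one descent along `Ω^H ⊆ Ω^H'` (`H' ≤ H`).

The cyclic case `H = ⟨φ⟩` with `M` an intermediate field of `Ω` is helper64's `CrossingField.lean`;
the general subgroup is what the LINKING lemma needs (`H_i = ⟨φ_i⟩ ⊔ N_i` and `H₁ ⊓ H₂`, see
`CrossingLink.lean`), with all fields inside the single field `Ω = M(ζ_{ℓ₁ℓ₂})`.
-/

set_option autoImplicit false
set_option linter.unusedSectionVars false

namespace Fermat.Agent.S14.CrossingAux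

open NumberField IntermediateField Fermat.Agent.S14.UnramBaseChange Polynomial

section Defs

variable (K M Ω : Type*) [Field K] [Field M] [Field Ω] [Algebra K M] [Algebra K Ω] [Algebra M Ω]
  [IsScalarTower K M Ω]

/-- The auxiliary field `F = Ω^H`. -/
abbrev auxF (H : Subgroup (Ω ≃ₐ[K] Ω)) : IntermediateField K Ω := IntermediateField.fixedField H

/-- The compositum `L = F·M` inside `Ω`, as an intermediate field of `Ω/F`. -/
abbrev auxL (H : Subgroup (Ω ≃ₐ[K] Ω)) : IntermediateField (auxF K Ω H) Ω :=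
  IntermediateField.adjoin (auxF K Ω H) (Set.range (algebraMap M Ω))

variable {K M Ω}

/-- `M → L = F·M`. -/
noncomputable def toAuxL (H : Subgroup (Ω ≃ₐ[K] Ω)) : M →+* auxL K M Ω H :=
  (algebraMap M Ω).codRestrict (auxL K M Ω H).toSubfield.toSubring
    (fun x => IntermediateField.subset_adjoin _ _ ⟨x, rfl⟩)

noncomputable instance algebraAuxL (H : Subgroup (Ω ≃ₐ[K] Ω)) : Algebra M (auxL K M Ω H) :=
  (toAuxL H).toAlgebra

theorem coe_algebraMap_auxL (H : Subgroup (Ω ≃ₐ[K] Ω)) (x : M) :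
    ((algebraMap M (auxL K M Ω H) x : auxL K M Ω H) : Ω) = algebraMap M Ω x := rfl

instance isScalarTower_auxL (H : Subgroup (Ω ≃ₐ[K] Ω)) : IsScalarTower K M (auxL K M Ω H) :=
  IsScalarTower.of_algebraMap_eq (fun x => by
    apply Subtype.ext
    rw [coe_algebraMap_auxL]
    exact IsScalarTower.algebraMap_apply K M Ω x)

instance isScalarTower_auxL' (H : Subgroup (Ω ≃ₐ[K] Ω)) : IsScalarTower M (auxL K M Ω H) Ω :=
  IsScalarTower.of_algebraMap_eq (fun _ => rfl)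


/-- `L = F·M`. -/
theorem isCompositum_auxL (H : Subgroup (Ω ≃ₐ[K] Ω)) :
    IsCompositum M (auxF K Ω H) (auxL K M Ω H) := by
  unfold IsCompositum
  apply IntermediateField.map_injective (auxL K M Ω H).val
  rw [IntermediateField.adjoin_map, ← AlgHom.fieldRange_eq_map, IntermediateField.fieldRange_val]
  congr 1
  ext x
  constructor
  · rintro ⟨y, ⟨z, rfl⟩, rfl⟩
    exact ⟨z, rfl⟩
  · rintro ⟨z, rfl⟩
    exact ⟨algebraMap M _ z, ⟨z, rfl⟩, rfl⟩

end Defs

section Galois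

variable {K M Ω : Type*} [Field K] [Field M] [Field Ω] [Algebra K M] [Algebra K Ω] [Algebra M Ω]
  [IsScalarTower K M Ω] [FiniteDimensional K Ω] [IsGalois K Ω]

/-- An element of `H` as an automorphism of `Ω` over `F = Ω^H`. -/
noncomputable def liftF (H : Subgroup (Ω ≃ₐ[K] Ω)) (γ : Ω ≃ₐ[K] Ω) (hγ : γ ∈ H) :
    Ω ≃ₐ[auxF K Ω H] Ω :=
  (auxF K Ω H).fixingSubgroupEquiv
    ⟨γ, by rw [IntermediateField.fixingSubgroup_fixedField]; exact hγ⟩

theorem liftF_apply (H : Subgroup (Ω ≃ₐ[K] Ω)) (γ : Ω ≃ₐ[K] Ω) (hγ : γ ∈ H) (x : Ω) :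
    liftF H γ hγ x = γ x := rfl

theorem restrictScalars_mem (H : Subgroup (Ω ≃ₐ[K] Ω)) (σ : Ω ≃ₐ[auxF K Ω H] Ω) :
    σ.restrictScalars K ∈ H := by
  have h : σ.restrictScalars K ∈ (auxF K Ω H).fixingSubgroup := by
    rw [IntermediateField.mem_fixingSubgroup_iff]
    intro x hx
    exact σ.commutes ⟨x, hx⟩
  rwa [IntermediateField.fixingSubgroup_fixedField] at h

end Galois

section Galois

variable {K M Ω : Type*} [Field K] [Field M] [Field Ω] [Algebra K M] [Algebra K Ω] [Algebra M Ω]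
  [IsScalarTower K M Ω] [FiniteDimensional K Ω] [IsGalois K Ω] [FiniteDimensional K M]
  [IsGalois K M]

instance isGalois_auxL (H : Subgroup (Ω ≃ₐ[K] Ω)) : IsGalois (auxF K Ω H) (auxL K M Ω H) :=
  isGalois_of_isCompositum (K := K) (L := M) (isCompositum_auxL H)

/-- **(ii)** if `res` maps `H` onto `Gal(M/K)` then `Gal(FM/F) → Gal(M/K)` is onto. -/
theorem resHom_surjective (H : Subgroup (Ω ≃ₐ[K] Ω))
    (hres : ∀ g : M ≃ₐ[K] M, ∃ γ ∈ H, AlgEquiv.restrictNormalHom M γ = g) :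
    Function.Surjective
      (resHom (K := K) (L := M) (E := auxF K Ω H) (L' := auxL K M Ω H)) := by
  intro g
  obtain ⟨γ, hγ, rfl⟩ := hres g
  refine ⟨AlgEquiv.restrictNormalHom (auxL K M Ω H) (liftF H γ hγ), ?_⟩
  ext y
  apply (algebraMap M Ω).injective
  have h1 := algebraMap_resHom (K := K) (L := M) (E := auxF K Ω H) (L' := auxL K M Ω H)
    (AlgEquiv.restrictNormalHom (auxL K M Ω H) (liftF H γ hγ)) y
  have h2 : algebraMap (auxL K M Ω H) Ω
      ((AlgEquiv.restrictNormalHom (auxL K M Ω H) (liftF H γ hγ)) (algebraMap M (auxL K M Ω H) y))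
      = (liftF H γ hγ) (algebraMap (auxL K M Ω H) Ω (algebraMap M (auxL K M Ω H) y)) :=
    AlgEquiv.restrictNormal_commutes (liftF H γ hγ) (auxL K M Ω H) _
  have h3 : algebraMap M Ω ((AlgEquiv.restrictNormalHom M γ) y) = γ (algebraMap M Ω y) :=
    AlgEquiv.restrictNormal_commutes γ M y
  rw [h3]
  have h4 := congrArg (algebraMap (auxL K M Ω H) Ω) h1
  rw [h2] at h4
  exact h4

theorem resHom_bijective (H : Subgroup (Ω ≃ₐ[K] Ω))
    (hres : ∀ g : M ≃ₐ[K] M, ∃ γ ∈ H, AlgEquiv.restrictNormalHom M γ = g) :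
    Function.Bijective
      (resHom (K := K) (L := M) (E := auxF K Ω H) (L' := auxL K M Ω H)) :=
  ⟨resHom_injective (K := K) (L := M) (isCompositum_auxL H), resHom_surjective H hres⟩

theorem finrank_auxL (H : Subgroup (Ω ≃ₐ[K] Ω))
    (hres : ∀ g : M ≃ₐ[K] M, ∃ γ ∈ H, AlgEquiv.restrictNormalHom M γ = g) :
    Module.finrank (auxF K Ω H) (auxL K M Ω H) = Module.finrank K M := by
  rw [← IsGalois.card_aut_eq_finrank, ← IsGalois.card_aut_eq_finrank]
  exact Nat.card_congr (Equiv.ofBijective _ (resHom_bijective H hres))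

end Galois

section Cyclo

variable {K Ω : Type*} [Field K] [Field Ω] [Algebra K Ω] [FiniteDimensional K Ω] [IsGalois K Ω]

/-- **(i)** if no nontrivial element of `H` fixes the primitive `m`-th root of unity `ζ`, then
`Ω = F(ζ)` is an `m`-cyclotomic extension of `F = Ω^H`. -/
theorem isCyclotomicExtension_auxF (H : Subgroup (Ω ≃ₐ[K] Ω)) {m : ℕ} [NeZero m] {ζ : Ω}
    (hζ : IsPrimitiveRoot ζ m) (hker : ∀ γ ∈ H, γ ζ = ζ → γ = 1) :
    IsCyclotomicExtension {m} (auxF K Ω H) Ω := by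
  have hgal : IsGalois (auxF K Ω H) Ω := inferInstance
  -- `F(ζ) = Ω` by the Galois correspondence
  have htop : IntermediateField.adjoin (auxF K Ω H) {ζ} = ⊤ := by
    rw [← IsGalois.fixedField_fixingSubgroup (IntermediateField.adjoin (auxF K Ω H) {ζ})]
    have hbot : (IntermediateField.adjoin (auxF K Ω H) {ζ}).fixingSubgroup = ⊥ := by
      rw [eq_bot_iff]
      intro σ hσ
      rw [Subgroup.mem_bot]
      have hσζ : σ ζ = ζ := by
        rw [IntermediateField.mem_fixingSubgroup_iff] at hσ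
        exact hσ ζ (IntermediateField.mem_adjoin_simple_self _ ζ)
      have h1 : σ.restrictScalars K = 1 := hker _ (restrictScalars_mem H σ) hσζ
      ext x
      have := DFunLike.congr_fun h1 x
      simpa using this
    rw [hbot, IntermediateField.fixedField_bot]
  have hint : IsAlgebraic (auxF K Ω H) ζ := IsAlgebraic.of_finite _ ζ
  have htop' : Algebra.adjoin (auxF K Ω H) {ζ} = ⊤ := by
    rw [← IntermediateField.adjoin_simple_toSubalgebra_of_isAlgebraic hint, htop,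
      IntermediateField.top_toSubalgebra]
  rw [IsCyclotomicExtension.iff_singleton]
  refine ⟨⟨ζ, hζ⟩, fun x => ?_⟩
  have hx : x ∈ Algebra.adjoin (auxF K Ω H) {ζ} := by rw [htop']; trivial
  refine Algebra.adjoin_mono ?_ hx
  rintro _ rfl
  exact hζ.pow_eq_one

end Cyclo

section Card

/-- In a finite integral domain all of whose elements satisfy `x ^ N = x` (`1 < N`) there are at
most `N` elements. -/
theorem natCard_le_of_forall_pow_eq {k : Type*} [CommRing k] [IsDomain k] [Finite k] {N : ℕ}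
    (hN : 1 < N) (h : ∀ x : k, x ^ N = x) : Nat.card k ≤ N := by
  classical
  cases nonempty_fintype k
  have hdeg : (X ^ N - X : k[X]).natDegree = N := by
    have h1 : (X : k[X]).degree < (X ^ N : k[X]).degree := by
      rw [degree_X_pow, degree_X]
      exact mod_cast hN
    rw [natDegree_eq_of_degree_eq (degree_sub_eq_left_of_degree_lt h1), natDegree_X_pow]
  have hne : (X ^ N - X : k[X]) ≠ 0 := ne_zero_of_natDegree_gt (n := 1) (by rw [hdeg]; exact hN)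
  have hsub : (Finset.univ : Finset k).val ⊆ (X ^ N - X : k[X]).roots := by
    intro x _
    rw [mem_roots hne, IsRoot.def, eval_sub, eval_pow, eval_X, h x, sub_self]
  have := card_le_degree_of_subset_roots hsub
  rw [hdeg, Finset.card_univ] at this
  rwa [Nat.card_eq_fintype_card]

variable {F : Type*} [Field F] [NumberField F]

theorem natCard_quot_eq_absNorm (W : Ideal (𝓞 F)) : Nat.card (𝓞 F ⧸ W) = Ideal.absNorm W := by
  rw [Ideal.absNorm_apply, Submodule.cardQuot_apply]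

/-- If every integer `x` of `F` satisfies `x ^ N ≡ x mod W` then `N(W) ≤ N`. -/
theorem absNorm_le_of_forall_pow_sub_mem (W : Ideal (𝓞 F)) [W.IsPrime] (hW0 : W ≠ ⊥) {N : ℕ}
    (hN : 1 < N) (hW : ∀ x : 𝓞 F, x ^ N - x ∈ W) : Ideal.absNorm W ≤ N := by
  have : Finite (𝓞 F ⧸ W) := Ideal.finiteQuotientOfFreeOfNeBot W hW0
  rw [← natCard_quot_eq_absNorm]
  apply natCard_le_of_forall_pow_eq hN
  intro x
  obtain ⟨x, rfl⟩ := Ideal.Quotient.mk_surjective x
  rw [← map_pow, Ideal.Quotient.eq]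
  exact hW x

/-- If moreover `N = r` is a prime number lying in `W`, then `N(W) = r`. -/
theorem absNorm_eq_of_forall_pow_sub_mem (W : Ideal (𝓞 F)) [hWp : W.IsPrime] (hW0 : W ≠ ⊥) {r : ℕ}
    (hr : r.Prime) (hrW : (r : 𝓞 F) ∈ W) (hW : ∀ x : 𝓞 F, x ^ r - x ∈ W) :
    Ideal.absNorm W = r := by
  apply le_antisymm (absNorm_le_of_forall_pow_sub_mem W hW0 hr.one_lt hW)
  have hq0 : Ideal.absNorm W ≠ 0 := by
    rw [Ne, Ideal.absNorm_eq_zero_iff]
    exact hW0
  have hqW : ((Ideal.absNorm W : ℕ) : 𝓞 F) ∈ W := Ideal.absNorm_mem W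
  have hdvd : r ∣ Ideal.absNorm W := by
    rw [hr.dvd_iff_not_coprime]
    intro hcop
    have h1 : ((Nat.gcd r (Ideal.absNorm W) : ℕ) : 𝓞 F) ∈ W := by
      have hb := Nat.gcd_eq_gcd_ab r (Ideal.absNorm W)
      have hcast : ((Nat.gcd r (Ideal.absNorm W) : ℕ) : 𝓞 F)
          = (r : 𝓞 F) * ((Nat.gcdA r (Ideal.absNorm W) : ℤ) : 𝓞 F)
            + ((Ideal.absNorm W : ℕ) : 𝓞 F) * ((Nat.gcdB r (Ideal.absNorm W) : ℤ) : 𝓞 F) := by
        have := congrArg (fun z : ℤ => (z : 𝓞 F)) hb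
        simpa using this
      rw [hcast]
      exact W.add_mem (W.mul_mem_right _ hrW) (W.mul_mem_right _ hqW)
    rw [Nat.Coprime] at hcop
    rw [hcop, Nat.cast_one] at h1
    exact hWp.ne_top ((Ideal.eq_top_iff_one W).mpr h1)
  exact Nat.le_of_dvd (Nat.pos_of_ne_zero hq0) hdvd

end Card

section Primes

variable {K Ω : Type*} [Field K] [NumberField K] [Field Ω] [NumberField Ω] [Algebra K Ω]
  [IsGalois K Ω]

theorem coe_algebraMap_int (H : Subgroup (Ω ≃ₐ[K] Ω)) (x : 𝓞 (auxF K Ω H)) :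
    ((algebraMap (𝓞 (auxF K Ω H)) (𝓞 Ω) x : 𝓞 Ω) : Ω) = ((x : auxF K Ω H) : Ω) := rfl

theorem apply_coe_of_mem (H : Subgroup (Ω ≃ₐ[K] Ω)) {φ : Ω ≃ₐ[K] Ω} (hφ : φ ∈ H)
    (x : auxF K Ω H) : φ (x : Ω) = x :=
  x.2 ⟨φ, hφ⟩

/-- **(a)** If `φ ∈ H` is an arithmetic Frobenius at `𝔓`, the prime `𝔓 ∩ 𝓞 F` of `F = Ω^H` has the
same absolute norm as `𝔓 ∩ 𝓞 K` (residue degree one). -/
theorem absNorm_under_auxF (H : Subgroup (Ω ≃ₐ[K] Ω)) {φ : Ω ≃ₐ[K] Ω} (hφ : φ ∈ H)
    (𝔓 : Ideal (𝓞 Ω)) [𝔓.IsPrime] (h𝔓 : 𝔓 ≠ ⊥) (hfrob : IsArithFrobAt (𝓞 K) φ 𝔓) :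
    Ideal.absNorm (𝔓.under (𝓞 (auxF K Ω H))) = Ideal.absNorm (𝔓.under (𝓞 K)) := by
  set P := 𝔓.under (𝓞 (auxF K Ω H)) with hP
  set v := 𝔓.under (𝓞 K) with hv
  have hP0 : P ≠ ⊥ := Ideal.under_ne_bot _ h𝔓
  have hv0 : v ≠ ⊥ := Ideal.under_ne_bot _ h𝔓
  have hvP : P.under (𝓞 K) = v := by
    rw [hP, hv, Ideal.under_under]
  have hpow : Ideal.absNorm v ^ P.inertiaDeg (𝓞 K) = Ideal.absNorm P := by
    rw [← hvP]
    exact Ideal.absNorm_pow_inertiaDeg (P.under (𝓞 K)) P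
  have hN : 1 < Ideal.absNorm v := by
    have h0 : Ideal.absNorm v ≠ 0 := by rwa [Ne, Ideal.absNorm_eq_zero_iff]
    have h1 : Ideal.absNorm v ≠ 1 := by
      rw [Ne, Ideal.absNorm_eq_one_iff]
      exact Ideal.IsPrime.ne_top inferInstance
    omega
  have hle : Ideal.absNorm P ≤ Ideal.absNorm v := by
    apply absNorm_le_of_forall_pow_sub_mem P hP0 hN
    intro x
    have h1 := hfrob (algebraMap (𝓞 (auxF K Ω H)) (𝓞 Ω) x)
    rw [natCard_quot_eq_absNorm] at h1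
    have h2 : (MulSemiringAction.toAlgHom (𝓞 K) (𝓞 Ω) φ)
        (algebraMap (𝓞 (auxF K Ω H)) (𝓞 Ω) x) = algebraMap (𝓞 (auxF K Ω H)) (𝓞 Ω) x := by
      apply RingOfIntegers.ext
      show φ ((algebraMap (𝓞 (auxF K Ω H)) (𝓞 Ω) x : 𝓞 Ω) : Ω) = _
      rw [coe_algebraMap_int]
      exact apply_coe_of_mem H hφ _
    rw [h2] at h1
    rw [hP, Ideal.under_def, Ideal.mem_comap, map_sub, map_pow]
    rw [← neg_mem_iff, neg_sub]
    exact h1
  rw [← hpow] at hle ⊢
  have hf : P.inertiaDeg (𝓞 K) ≤ 1 := by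
    by_contra hcon
    push Not at hcon
    have : Ideal.absNorm v ^ 1 < Ideal.absNorm v ^ P.inertiaDeg (𝓞 K) :=
      Nat.pow_lt_pow_right hN hcon
    rw [pow_one] at this
    omega
  have hf' : 0 < P.inertiaDeg (𝓞 K) := Ideal.inertiaDeg_pos P (𝓞 K)
  have : P.inertiaDeg (𝓞 K) = 1 := by omega
  rw [this, pow_one]

end Primes

section Descent

variable {K Ω : Type*} [Field K] [NumberField K] [Field Ω] [NumberField Ω] [Algebra K Ω]
  [IsGalois K Ω]

/-- An integer of `Ω^H` is an integer of the bigger field `Ω^H'` (`H' ≤ H`). -/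
theorem exists_int_of_le {H H' : Subgroup (Ω ≃ₐ[K] Ω)} (hle : H' ≤ H) (x : 𝓞 (auxF K Ω H)) :
    ∃ y : 𝓞 (auxF K Ω H'), algebraMap (𝓞 (auxF K Ω H')) (𝓞 Ω) y
      = algebraMap (𝓞 (auxF K Ω H)) (𝓞 Ω) x := by
  have hmem : ((x : auxF K Ω H) : Ω) ∈ auxF K Ω H' :=
    IntermediateField.fixedField_antitone hle (x : auxF K Ω H).2
  have hint : IsIntegral ℤ (⟨((x : auxF K Ω H) : Ω), hmem⟩ : auxF K Ω H') := by
    have h1 : IsIntegral ℤ ((x : auxF K Ω H) : Ω) :=
      (algebraMap (𝓞 (auxF K Ω H)) (𝓞 Ω) x).2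
    exact (isIntegral_algebraMap_iff (B := Ω)
      (algebraMap (auxF K Ω H') Ω).injective).mp h1
  exact ⟨⟨_, hint⟩, RingOfIntegers.ext rfl⟩

/-- **Degree-one descent.** If `𝔔 ∩ 𝓞(Ω^H')` has prime absolute norm `r` and `H' ≤ H` then
`𝔔 ∩ 𝓞(Ω^H)` has absolute norm `r`. -/
theorem absNorm_under_of_le {H H' : Subgroup (Ω ≃ₐ[K] Ω)} (hle : H' ≤ H)
    (𝔔 : Ideal (𝓞 Ω)) [𝔔.IsPrime] (h𝔔 : 𝔔 ≠ ⊥) {r : ℕ} (hr : r.Prime)
    (hnorm : Ideal.absNorm (𝔔.under (𝓞 (auxF K Ω H'))) = r) :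
    Ideal.absNorm (𝔔.under (𝓞 (auxF K Ω H))) = r := by
  set Q' := 𝔔.under (𝓞 (auxF K Ω H')) with hQ'
  have hQ'0 : Q' ≠ ⊥ := Ideal.under_ne_bot _ h𝔔
  have hr𝔔 : (r : 𝓞 Ω) ∈ 𝔔 := by
    have h1 : ((Ideal.absNorm Q' : ℕ) : 𝓞 (auxF K Ω H')) ∈ Q' := Ideal.absNorm_mem Q'
    rw [hnorm, hQ', Ideal.under_def, Ideal.mem_comap, map_natCast] at h1
    exact h1
  have hpow : ∀ y : 𝓞 (auxF K Ω H'), y ^ r - y ∈ Q' := by
    intro y
    have : Finite (𝓞 (auxF K Ω H') ⧸ Q') := Ideal.finiteQuotientOfFreeOfNeBot Q' hQ'0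
    have hmax : Q'.IsMaximal := Ring.DimensionLEOne.maximalOfPrime hQ'0 inferInstance
    let _ := Ideal.Quotient.field Q'
    cases nonempty_fintype (𝓞 (auxF K Ω H') ⧸ Q')
    have hcard : Fintype.card (𝓞 (auxF K Ω H') ⧸ Q') = r := by
      rw [← Nat.card_eq_fintype_card, natCard_quot_eq_absNorm, hnorm]
    have := FiniteField.pow_card (Ideal.Quotient.mk Q' y)
    rw [hcard, ← map_pow, Ideal.Quotient.eq] at this
    exact this
  apply absNorm_eq_of_forall_pow_sub_mem _ (Ideal.under_ne_bot _ h𝔔) hr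
  · rw [Ideal.under_def, Ideal.mem_comap, map_natCast]
    exact hr𝔔
  · intro x
    obtain ⟨y, hy⟩ := exists_int_of_le hle x
    have h1 := hpow y
    rw [hQ', Ideal.under_def, Ideal.mem_comap, map_sub, map_pow, hy] at h1
    rw [Ideal.under_def, Ideal.mem_comap, map_sub, map_pow]
    exact h1

end Descent

section NF

variable {K M Ω : Type*} [Field K] [NumberField K] [Field M] [NumberField M] [Field Ω]
  [NumberField Ω] [Algebra K M] [Algebra K Ω] [Algebra M Ω] [IsScalarTower K M Ω]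

/-- **Unramified base change** for `L = F·M` over `F = Ω^H`. -/
theorem unram_auxL [IsGalois K M] (H : Subgroup (Ω ≃ₐ[K] Ω)) (hU : Fermat.Agent.S14.Unram K M) :
    Fermat.Agent.S14.Unram (auxF K Ω H) (auxL K M Ω H) :=
  unram_of_isCompositum (K := K) (L := M) (isCompositum_auxL H) hU

/-- `F = Ω^H` is totally complex when `K` is. -/
theorem isTotallyComplex_auxF [IsTotallyComplex K] (H : Subgroup (Ω ≃ₐ[K] Ω)) :
    IsTotallyComplex (auxF K Ω H) :=
  isTotallyComplex_of_algebra K (auxF K Ω H)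

variable [IsGalois K Ω]

/-- **(a)** relative-norm form: `N_{F/K}(𝔓 ∩ 𝓞 F) = 𝔓 ∩ 𝓞 K` when some `φ ∈ H` is an arithmetic
Frobenius at `𝔓`. -/
theorem relNorm_under_auxF (H : Subgroup (Ω ≃ₐ[K] Ω)) {φ : Ω ≃ₐ[K] Ω} (hφ : φ ∈ H)
    (𝔓 : Ideal (𝓞 Ω)) [𝔓.IsPrime] (h𝔓 : 𝔓 ≠ ⊥) (hfrob : IsArithFrobAt (𝓞 K) φ 𝔓) :
    Ideal.relNorm (𝓞 K) (𝔓.under (𝓞 (auxF K Ω H))) = 𝔓.under (𝓞 K) := by
  set P := 𝔓.under (𝓞 (auxF K Ω H)) with hP
  have hP0 : P ≠ ⊥ := Ideal.under_ne_bot _ h𝔓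
  have hvP : P.under (𝓞 K) = 𝔓.under (𝓞 K) := by rw [hP, Ideal.under_under]
  have hPmax : P.IsMaximal := Ring.DimensionLEOne.maximalOfPrime hP0 inferInstance
  have hvmax : (P.under (𝓞 K)).IsMaximal :=
    Ring.DimensionLEOne.maximalOfPrime (Ideal.under_ne_bot _ hP0) inferInstance
  have hpow : Ideal.absNorm (P.under (𝓞 K)) ^ P.inertiaDeg (𝓞 K) = Ideal.absNorm P :=
    Ideal.absNorm_pow_inertiaDeg (P.under (𝓞 K)) P
  have habs : Ideal.absNorm P = Ideal.absNorm (P.under (𝓞 K)) := by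
    rw [hvP]; exact absNorm_under_auxF H hφ 𝔓 h𝔓 hfrob
  have hN : 1 < Ideal.absNorm (P.under (𝓞 K)) := by
    have h0 : Ideal.absNorm (P.under (𝓞 K)) ≠ 0 := by
      rw [Ne, Ideal.absNorm_eq_zero_iff]; exact Ideal.under_ne_bot _ hP0
    have h1 : Ideal.absNorm (P.under (𝓞 K)) ≠ 1 := by
      rw [Ne, Ideal.absNorm_eq_one_iff]
      exact Ideal.IsPrime.ne_top inferInstance
    omega
  have hf : P.inertiaDeg (𝓞 K) = 1 := by
    rw [habs] at hpow
    exact Nat.pow_eq_self_iff hN |>.mp hpow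
  rw [← hvP, Ideal.relNorm_eq_pow_of_isMaximal P (P.under (𝓞 K)), hf, pow_one]

/-- Degree-one descent, relative-norm form: if `𝔔 ∩ 𝓞(Ω^H')` has prime absolute norm and `H' ≤ H`
then `N_{F/K}(𝔔 ∩ 𝓞 F) = 𝔔 ∩ 𝓞 K` for `F = Ω^H`, and `𝔔 ∩ 𝓞 K` has the same prime norm. -/
theorem relNorm_under_of_le {H H' : Subgroup (Ω ≃ₐ[K] Ω)} (hle : H' ≤ H)
    (𝔔 : Ideal (𝓞 Ω)) [𝔔.IsPrime] (h𝔔 : 𝔔 ≠ ⊥) {r : ℕ} (hr : r.Prime)
    (hnorm : Ideal.absNorm (𝔔.under (𝓞 (auxF K Ω H'))) = r) :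
    Ideal.relNorm (𝓞 K) (𝔔.under (𝓞 (auxF K Ω H))) = 𝔔.under (𝓞 K) := by
  have h1 := absNorm_under_of_le hle 𝔔 h𝔔 hr hnorm
  have h2 := Fermat.Agent.S14.NormClassesDegreeOne.relNorm_eq_under_of_prime K (auxF K Ω H)
    (𝔔.under (𝓞 (auxF K Ω H))) (Ideal.under_ne_bot _ h𝔔) (by rw [h1]; exact hr)
  rw [h2, Ideal.under_under]

/-- The prime of `K` below a prime of `Ω^H'` of prime absolute norm `r` has absolute norm `r`. -/
theorem absNorm_under_base {H' : Subgroup (Ω ≃ₐ[K] Ω)}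
    (𝔔 : Ideal (𝓞 Ω)) [𝔔.IsPrime] {r : ℕ} (hr : r.Prime)
    (hnorm : Ideal.absNorm (𝔔.under (𝓞 (auxF K Ω H'))) = r) :
    Ideal.absNorm (𝔔.under (𝓞 K)) = r := by
  have hf := Fermat.Agent.S14.NormClassesDegreeOne.inertiaDeg_eq_one_of_prime K (auxF K Ω H')
    (𝔔.under (𝓞 (auxF K Ω H'))) (by rw [hnorm]; exact hr)
  have hpow := Ideal.absNorm_pow_inertiaDeg ((𝔔.under (𝓞 (auxF K Ω H'))).under (𝓞 K))
    (𝔔.under (𝓞 (auxF K Ω H')))
  rw [hf, pow_one, Ideal.under_under, hnorm] at hpow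
  exact hpow

end NF

end Fermat.Agent.S14.CrossingAux

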