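-- S14 / block (C), crossing argument: the ABSTRACT deduction (Mathlib only).  Owner: helper78.
-- `art` plays the role of the Artin map of an unramified cyclic extension `M / K` of prime degree
-- `p` on the nonzero ideals of `R = 𝓞 K`, `NC` the subgroup of the class group generated by the
-- classes of norms of ideals of `M`.  From
--   * split primes are norms, `p`-th powers are norms, `NC ≠ ⊤` (first inequality),
--   * the LINKING property (two non-split primes are linked through a third ideal `w`, the output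
--     of the single-field crossing lemma applied to two auxiliary fields),
-- we deduce that `art` kills principal ideals.
import Mathlib

set_option autoImplicit false

namespace Fermat.Agent.S14.CrossingCore

open Ideal nonZeroDivisors

variable {R : Type*} [CommRing R] [IsDedekindDomain R]
variable {G : Type*} [CommGroup G]

/-- Induction on the prime factorisation of a nonzero ideal. -/
theorem ideal_induction (P : Ideal R → Prop) (h1 : P ⊤)
    (hmul : ∀ (v I : Ideal R), v ≠ ⊥ → Prime v → I ≠ ⊥ → P I → P (v * I))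
    (I : Ideal R) (hI : I ≠ ⊥) : P I := by
  revert hI
  refine UniqueFactorizationMonoid.induction_on_prime (P := fun I => I ≠ ⊥ → P I) I ?_ ?_ ?_
  · intro h
    exact absurd rfl h
  · intro J hJ _
    rw [Ideal.isUnit_iff] at hJ
    rw [hJ]
    exact h1
  · intro J v hJ hv ih _
    exact hmul v J hv.ne_zero hv hJ (ih hJ)

theorem mem_nzd {I : Ideal R} (hI : I ≠ ⊥) : I ∈ (Ideal R)⁰ :=
  mem_nonZeroDivisors_iff_ne_zero.mpr hI

section Main

variable (p : ℕ) [hp : Fact p.Prime]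

/-- In a group of prime order every element is a power of a given non-identity element. -/
theorem exists_pow_eq (hG : Nat.card G = p) {g₀ : G} (hg₀ : g₀ ≠ 1) (h : G) :
    ∃ d : ℕ, h = g₀ ^ d := by
  have : Finite G := Nat.finite_of_card_ne_zero (by rw [hG]; exact hp.out.ne_zero)
  have hz : Subgroup.zpowers g₀ = ⊤ := zpowers_eq_top_of_prime_card hG hg₀
  have hmem : h ∈ Subgroup.zpowers g₀ := by rw [hz]; trivial
  obtain ⟨k, hk⟩ := (mem_powers_iff_mem_zpowers.mpr hmem)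
  exact ⟨k, hk.symm⟩

theorem pow_prime_eq_one (hG : Nat.card G = p) (g : G) : g ^ p = 1 := by
  have : Finite G := Nat.finite_of_card_ne_zero (by rw [hG]; exact hp.out.ne_zero)
  rw [← hG]
  exact _root_.pow_card_eq_one'

theorem orderOf_eq_of_pow_prime {H : Type*} [Group H] {g : H} (hgp : g ^ p = 1) (hg : g ≠ 1) :
    orderOf g = p := by
  have h1 : orderOf g ∣ p := orderOf_dvd_of_pow_eq_one hgp
  rcases (Nat.dvd_prime hp.out).mp h1 with h | h
  · exact absurd (orderOf_eq_one_iff.mp h) hg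
  · exact h

/-- `g ^ d = 1` iff `p ∣ d`, for `g ≠ 1` with `g ^ p = 1`. -/
theorem pow_eq_one_iff_dvd {H : Type*} [Group H] {g : H} (hgp : g ^ p = 1) (hg : g ≠ 1) (d : ℕ) :
    g ^ d = 1 ↔ p ∣ d := by
  rw [← orderOf_eq_of_pow_prime p hgp hg]
  exact orderOf_dvd_iff_pow_eq_one.symm

/-- In a commutative group killed by `p`, `e`-th powers can be cancelled when `p ∤ e`. -/
theorem eq_of_pow_eq_pow {H : Type*} [CommGroup H] (hH : ∀ h : H, h ^ p = 1) {a b : H} {e : ℕ}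
    (he : ¬ p ∣ e) (hab : a ^ e = b ^ e) : a = b := by
  have h1 : (a * b⁻¹) ^ e = 1 := by rw [mul_pow, inv_pow, hab, mul_inv_cancel]
  by_contra hne
  have hne' : a * b⁻¹ ≠ 1 := fun h => hne (mul_inv_eq_one.mp h)
  exact he ((pow_eq_one_iff_dvd p (hH _) hne' e).mp h1)

/-- **Abstract crossing deduction.** -/
theorem art_principal_eq_one
    (art : (Ideal R)⁰ →* G) (hG : Nat.card G = p)
    (NC : Subgroup (ClassGroup R))
    (hpow : ∀ c : ClassGroup R, c ^ p ∈ NC)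
    (hne : NC ≠ ⊤)
    (hsplit : ∀ (v : Ideal R) (hv : v ≠ ⊥), Prime v → art ⟨v, mem_nzd hv⟩ = 1 →
      ClassGroup.mk0 ⟨v, mem_nzd hv⟩ ∈ NC)
    (hlink : ∀ (v₁ v₂ : Ideal R) (h₁ : v₁ ≠ ⊥) (h₂ : v₂ ≠ ⊥), Prime v₁ → Prime v₂ →
      art ⟨v₁, mem_nzd h₁⟩ ≠ 1 → art ⟨v₂, mem_nzd h₂⟩ ≠ 1 →
      ∃ w : (Ideal R)⁰, art w ≠ 1 ∧
        (∀ a b : ℕ, art ⟨v₁, mem_nzd h₁⟩ ^ a = art w ^ b →
          ClassGroup.mk0 ⟨v₁, mem_nzd h₁⟩ ^ a * (ClassGroup.mk0 w ^ b)⁻¹ ∈ NC) ∧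
        (∀ a b : ℕ, art ⟨v₂, mem_nzd h₂⟩ ^ a = art w ^ b →
          ClassGroup.mk0 ⟨v₂, mem_nzd h₂⟩ ^ a * (ClassGroup.mk0 w ^ b)⁻¹ ∈ NC))
    (I : Ideal R) (hI : I ≠ ⊥) (hprin : I.IsPrincipal) :
    art ⟨I, mem_nzd hI⟩ = 1 := by
  classical
  have hmulsub : ∀ (v J : Ideal R) (hv : v ≠ ⊥) (hJ : J ≠ ⊥) (h : v * J ≠ ⊥),
      (⟨v * J, mem_nzd h⟩ : (Ideal R)⁰) = ⟨v, mem_nzd hv⟩ * ⟨J, mem_nzd hJ⟩ :=
    fun _ _ _ _ _ => rfl
  have htop : ∀ h : (⊤ : Ideal R) ≠ ⊥, (⟨⊤, mem_nzd h⟩ : (Ideal R)⁰) = 1 := fun _ =>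
    Subtype.ext Ideal.one_eq_top.symm
  by_cases hall : ∀ (v : Ideal R) (hv : v ≠ ⊥), Prime v → art ⟨v, mem_nzd hv⟩ = 1
  · -- `art` is trivial
    refine ideal_induction (fun I => ∀ hI : I ≠ ⊥, art ⟨I, mem_nzd hI⟩ = 1) ?_ ?_ I hI hI
    · intro h
      rw [htop h, map_one]
    · intro v J hv hvp hJ ih h
      rw [hmulsub v J hv hJ h, map_mul, hall v hv hvp, ih hJ, one_mul]
  · push Not at hall
    obtain ⟨v₀, hv₀, hv₀p, hg₀⟩ := hall
    set g₀ := art ⟨v₀, mem_nzd hv₀⟩ with hg₀def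
    have hg₀p : g₀ ^ p = 1 := pow_prime_eq_one p hG g₀
    have hordg : orderOf g₀ = p := orderOf_eq_of_pow_prime p hg₀p hg₀
    let π : ClassGroup R →* (ClassGroup R ⧸ NC) := QuotientGroup.mk' NC
    have hπ1 : ∀ c, π c = 1 ↔ c ∈ NC := fun c => QuotientGroup.eq_one_iff c
    set x₀ : ClassGroup R ⧸ NC := π (ClassGroup.mk0 ⟨v₀, mem_nzd hv₀⟩) with hx₀
    have hQp : ∀ q : ClassGroup R ⧸ NC, q ^ p = 1 := by
      intro q
      obtain ⟨c, rfl⟩ := QuotientGroup.mk'_surjective NC q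
      rw [← map_pow, hπ1]
      exact hpow c
    have hx₀pow : ∀ d d' : ℕ, g₀ ^ d = g₀ ^ d' → x₀ ^ d = x₀ ^ d' := by
      intro d d' h
      rw [pow_eq_pow_iff_modEq, hordg] at h
      rw [pow_eq_pow_iff_modEq]
      exact h.of_dvd (orderOf_dvd_of_pow_eq_one (hQp x₀))
    -- primes
    have hprime : ∀ (v : Ideal R) (hv : v ≠ ⊥), Prime v → ∀ d : ℕ,
        art ⟨v, mem_nzd hv⟩ = g₀ ^ d → π (ClassGroup.mk0 ⟨v, mem_nzd hv⟩) = x₀ ^ d := by
      intro v hv hvp d hd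
      by_cases hv1 : art ⟨v, mem_nzd hv⟩ = 1
      · rw [(hπ1 _).mpr (hsplit v hv hvp hv1)]
        have : g₀ ^ d = g₀ ^ 0 := by rw [← hd, hv1, pow_zero]
        rw [hx₀pow d 0 this, pow_zero]
      · obtain ⟨w, hw, h1, h2⟩ := hlink v v₀ hv hv₀ hvp hv₀p hv1 hg₀
        obtain ⟨e, he⟩ := exists_pow_eq p hG hg₀ (art w)
        have hpe : ¬ p ∣ e := by
          intro hdvd
          exact hw (by rw [he]; exact (pow_eq_one_iff_dvd p hg₀p hg₀ e).mpr hdvd)
        have r1 := h1 e d (by rw [hd, he, ← pow_mul, ← pow_mul, mul_comm])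
        have r2 := h2 e 1 (by rw [← hg₀def, he, pow_one])
        rw [← hπ1, map_mul, map_inv, map_pow, map_pow, mul_inv_eq_one] at r1 r2
        rw [pow_one] at r2
        apply eq_of_pow_eq_pow p hQp hpe
        rw [r1, ← r2, ← hx₀, ← pow_mul, ← pow_mul, mul_comm]
    -- all ideals
    have hideal : ∀ (J : Ideal R) (hJ : J ≠ ⊥) (d : ℕ),
        art ⟨J, mem_nzd hJ⟩ = g₀ ^ d → π (ClassGroup.mk0 ⟨J, mem_nzd hJ⟩) = x₀ ^ d := by
      intro J hJ
      refine ideal_induction (fun J => ∀ (hJ : J ≠ ⊥) (d : ℕ),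
        art ⟨J, mem_nzd hJ⟩ = g₀ ^ d → π (ClassGroup.mk0 ⟨J, mem_nzd hJ⟩) = x₀ ^ d) ?_ ?_ J hJ hJ
      · intro h d hd
        rw [htop h, map_one] at hd
        rw [htop h, map_one, map_one]
        have : g₀ ^ d = g₀ ^ 0 := by rw [← hd, pow_zero]
        rw [hx₀pow d 0 this, pow_zero]
      · intro v J hv hvp hJ ih h d hd
        obtain ⟨dv, hdv⟩ := exists_pow_eq p hG hg₀ (art ⟨v, mem_nzd hv⟩)
        obtain ⟨dJ, hdJ⟩ := exists_pow_eq p hG hg₀ (art ⟨J, mem_nzd hJ⟩)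
        rw [hmulsub v J hv hJ h, map_mul, hdv, hdJ, ← pow_add] at hd
        rw [hmulsub v J hv hJ h, map_mul, map_mul, hprime v hv hvp dv hdv, ih hJ dJ hdJ,
          ← pow_add]
        exact hx₀pow _ _ hd
    -- `x₀ ≠ 1`
    have hx₀ne : x₀ ≠ 1 := by
      intro h1
      apply hne
      rw [eq_top_iff]
      intro c _
      obtain ⟨J, rfl⟩ := ClassGroup.mk0_surjective c
      obtain ⟨d, hd⟩ := exists_pow_eq p hG hg₀ (art J)
      have hJ : (J : Ideal R) ≠ ⊥ := mem_nonZeroDivisors_iff_ne_zero.mp J.2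
      have := hideal J hJ d hd
      rw [h1, one_pow] at this
      exact (hπ1 _).mp this
    -- conclusion
    obtain ⟨d, hd⟩ := exists_pow_eq p hG hg₀ (art ⟨I, mem_nzd hI⟩)
    have h1 := hideal I hI d hd
    rw [(ClassGroup.mk0_eq_one_iff (mem_nzd hI)).mpr hprin, map_one] at h1
    rw [hd]
    exact (pow_eq_one_iff_dvd p hg₀p hg₀ d).mpr
      ((pow_eq_one_iff_dvd p (hQp x₀) hx₀ne d).mp h1.symm)

end Main

end Fermat.Agent.S14.CrossingCore
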