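/-
S14 / crossing block, item (3) of helper78's design v1 (owner: helper54).

For a number field `M` and `n` coprime to `discr M`, the cyclotomic polynomial `Φ_n` stays
irreducible over `M`.  Hence for `Ω = M(ζ_n)` the cyclotomic character `Gal(Ω/M) → (ℤ/n)ˣ` is
onto, and for `K ≤ M` with `M/K` normal every pair `(s, u) ∈ Gal(M/K) × (ℤ/n)ˣ` is realised by an
element of `Gal(Ω/K)`.

Main results (namespace `Fermat.Agent.S14.CrossingDisjoint`):
* `finrank_eq_totient`, `irreducible_cyclotomic`
* `exists_algEquiv_apply_eq_pow` : the cyclotomic character of `Ω/M` is onto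
* `normal_of_isCyclotomicExtension`, `isGalois_of_isCyclotomicExtension`
* `exists_algEquiv_restrict_eq_and_apply_eq_pow` : realisation of pairs `(s, u)`
* `algEquiv_ext_of_apply_zeta` : an element of `Gal(Ω/K)` is determined by its restriction to `M`
  and its value at `ζ`.
-/
import Mathlib

set_option autoImplicit false

open NumberField Polynomial IntermediateField

namespace Fermat.Agent.S14.CrossingDisjoint

/-- The absolute discriminant of the `n`-th cyclotomic field divides `n ^ φ(n)`. -/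
theorem natAbs_discr_cyclotomic_dvd (n : ℕ) [NeZero n] (F : Type*) [Field F] [NumberField F]
    [IsCyclotomicExtension {n} ℚ F] : (discr F).natAbs ∣ n ^ n.totient := by
  rw [IsCyclotomicExtension.Rat.natAbs_discr n F]
  exact Nat.div_dvd_of_dvd (Nat.prod_primeFactors_pow_totient_ediv_dvd (NeZero.pos n))

section degree

variable (M : Type*) [Field M] [NumberField M] (n : ℕ) [NeZero n]
variable (Ω : Type*) [Field Ω] [Algebra M Ω] [IsCyclotomicExtension {n} M Ω]

/-- `[M(ζ_n) : M] = φ(n)` when `n` is coprime to the discriminant of `M`. -/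
theorem finrank_eq_totient (hn : Nat.Coprime n (discr M).natAbs) :
    Module.finrank M Ω = n.totient := by
  have : NumberField Ω := IsCyclotomicExtension.numberField {n} M Ω
  set ζ := IsCyclotomicExtension.zeta n M Ω with hζdef
  have hζ : IsPrimitiveRoot ζ n := IsCyclotomicExtension.zeta_spec n M Ω
  -- the two intermediate fields
  let K₁ : IntermediateField ℚ Ω := ℚ⟮ζ⟯
  let K₂ : IntermediateField ℚ Ω := (IsScalarTower.toAlgHom ℚ M Ω).fieldRange
  have hcyc : IsCyclotomicExtension {n} ℚ K₁ :=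
    hζ.intermediateField_adjoin_isCyclotomicExtension ℚ
  have hgal : IsGalois ℚ K₁ := IsCyclotomicExtension.isGalois {n} ℚ K₁
  -- discriminants
  have hd₂ : discr K₂ = discr M := by
    symm
    exact discr_eq_discr_of_algEquiv M (AlgEquiv.ofInjectiveField (IsScalarTower.toAlgHom ℚ M Ω))
  have hcop : IsCoprime (discr K₁) (discr K₂) := by
    rw [Int.isCoprime_iff_nat_coprime, hd₂]
    exact Nat.Coprime.coprime_dvd_left (natAbs_discr_cyclotomic_dvd n K₁) (Nat.Coprime.pow_left _ hn)
  have hdisj : K₁.LinearDisjoint K₂ := linearDisjoint_of_isGalois_isCoprime_discr Ω K₁ K₂ hcop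
  -- the compositum is everything
  have htop : K₁ ⊔ K₂ = ⊤ := by
    rw [eq_top_iff]
    rintro x -
    have hx : x ∈ Algebra.adjoin M {ζ} := by
      rw [IsCyclotomicExtension.adjoin_primitive_root_eq_top hζ]; trivial
    induction hx using Algebra.adjoin_induction with
    | mem y hy =>
      rw [Set.mem_singleton_iff] at hy
      subst hy
      exact (le_sup_left : K₁ ≤ K₁ ⊔ K₂) (mem_adjoin_simple_self ℚ ζ)
    | algebraMap r =>
      exact (le_sup_right : K₂ ≤ K₁ ⊔ K₂) ⟨r, rfl⟩
    | add y z _ _ hy hz => exact add_mem hy hz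
    | mul y z _ _ hy hz => exact mul_mem hy hz
  have h1 : Module.finrank K₂ Ω = Module.finrank ℚ K₁ := hdisj.finrank_right_eq_finrank htop
  have h2 : Module.finrank ℚ K₁ = n.totient :=
    IsCyclotomicExtension.finrank K₁ (Polynomial.cyclotomic.irreducible_rat (NeZero.pos n))
  -- transfer from `K₂` to `M`
  have h3 : Module.finrank ℚ K₂ = Module.finrank ℚ M :=
    (AlgEquiv.ofInjectiveField (IsScalarTower.toAlgHom ℚ M Ω)).toLinearEquiv.finrank_eq.symm
  have h4 : Module.finrank ℚ K₂ * Module.finrank K₂ Ω = Module.finrank ℚ Ω :=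
    Module.finrank_mul_finrank ℚ K₂ Ω
  have h5 : Module.finrank ℚ M * Module.finrank M Ω = Module.finrank ℚ Ω :=
    Module.finrank_mul_finrank ℚ M Ω
  have hpos : 0 < Module.finrank ℚ M := Module.finrank_pos
  rw [h3, ← h5] at h4
  have := Nat.eq_of_mul_eq_mul_left hpos h4
  omega

end degree

section irreducible

variable (M : Type*) [Field M] [NumberField M] (n : ℕ) [NeZero n]

/-- `Φ_n` is irreducible over a number field whose discriminant is coprime to `n`. -/
theorem irreducible_cyclotomic (hn : Nat.Coprime n (discr M).natAbs) :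
    Irreducible (cyclotomic n M) := by
  let Ω := CyclotomicField n M
  have hfin : Module.finrank M Ω = n.totient := finrank_eq_totient M n Ω hn
  set ζ := IsCyclotomicExtension.zeta n M Ω with hζdef
  have hζ : IsPrimitiveRoot ζ n := IsCyclotomicExtension.zeta_spec n M Ω
  have hint : IsIntegral M ζ := Algebra.IsIntegral.isIntegral ζ
  have hdvd : minpoly M ζ ∣ cyclotomic n M := by
    apply minpoly.dvd
    rw [aeval_def, eval₂_eq_eval_map, map_cyclotomic]
    exact hζ.isRoot_cyclotomic (NeZero.pos n)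
  have htop : M⟮ζ⟯ = ⊤ := by
    have := IsCyclotomicExtension.adjoin_primitive_root_eq_top (A := M) hζ
    rw [← IntermediateField.toSubalgebra_inj,
      IntermediateField.adjoin_simple_toSubalgebra_of_isAlgebraic hint.isAlgebraic,
      this, IntermediateField.top_toSubalgebra]
  have hdeg : (minpoly M ζ).natDegree = n.totient := by
    rw [← IntermediateField.adjoin.finrank hint, htop, IntermediateField.finrank_top', hfin]
  have heq : cyclotomic n M = minpoly M ζ := by
    refine Polynomial.eq_of_monic_of_dvd_of_natDegree_le (minpoly.monic hint)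
      (cyclotomic.monic n M) hdvd ?_
    rw [hdeg, natDegree_cyclotomic]
  rw [heq]
  exact minpoly.irreducible hint

end irreducible

section character

variable (M : Type*) [Field M] [NumberField M] (n : ℕ) [NeZero n]
variable (Ω : Type*) [Field Ω] [Algebra M Ω] [IsCyclotomicExtension {n} M Ω]

/-- The cyclotomic character of `Ω/M` is onto. -/
theorem exists_algEquiv_apply_eq_pow (hn : Nat.Coprime n (discr M).natAbs) {ζ : Ω}
    (hζ : IsPrimitiveRoot ζ n) (u : (ZMod n)ˣ) :
    ∃ τ : Ω ≃ₐ[M] Ω, τ ζ = ζ ^ (u : ZMod n).val := by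
  have hirr := irreducible_cyclotomic M n hn
  have hz := IsCyclotomicExtension.zeta_spec n M Ω
  have hμ : IsPrimitiveRoot (IsCyclotomicExtension.zeta n M Ω ^ (u : ZMod n).val) n :=
    hz.pow_of_coprime _ (ZMod.val_coe_unit_coprime u)
  obtain ⟨i, -, hi⟩ := hz.eq_pow_of_pow_eq_one hζ.pow_eq_one
  refine ⟨IsCyclotomicExtension.fromZetaAut hμ hirr, ?_⟩
  rw [← hi, map_pow, IsCyclotomicExtension.fromZetaAut_spec, ← pow_mul, ← pow_mul, mul_comm]

end character

section tower

variable (K M : Type*) [Field K] [Field M] [Algebra K M] (n : ℕ) [NeZero n]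
variable (Ω : Type*) [Field Ω] [Algebra M Ω] [Algebra K Ω] [IsScalarTower K M Ω]
  [IsCyclotomicExtension {n} M Ω]

include M n in
/-- `M(ζ_n)/K` is normal when `M/K` is normal. -/
theorem normal_of_isCyclotomicExtension [Normal K M] : Normal K Ω := by
  have hfinMΩ : Algebra.IsIntegral M Ω := IsCyclotomicExtension.integral {n} M Ω
  have hintKM : Algebra.IsIntegral K M := inferInstance
  have hint : Algebra.IsIntegral K Ω := Algebra.IsIntegral.trans (R := K) M
  set ζ := IsCyclotomicExtension.zeta n M Ω with hζdef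
  have hζ : IsPrimitiveRoot ζ n := IsCyclotomicExtension.zeta_spec n M Ω
  set E₁ : IntermediateField K Ω := (IsScalarTower.toAlgHom K M Ω).fieldRange with hE₁
  set E₂ : IntermediateField K Ω := K⟮ζ⟯ with hE₂
  have h₁ : Normal K E₁ :=
    Normal.of_algEquiv (AlgEquiv.ofInjectiveField (IsScalarTower.toAlgHom K M Ω))
  have hcyc : IsCyclotomicExtension {n} K E₂ := hζ.intermediateField_adjoin_isCyclotomicExtension K
  have h₂ : Normal K E₂ := (IsCyclotomicExtension.isGalois {n} K E₂).to_normal
  have hsup : Normal K ↥(E₁ ⊔ E₂) := IntermediateField.normal_sup K Ω E₁ E₂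
  have htop : E₁ ⊔ E₂ = ⊤ := by
    rw [eq_top_iff]
    rintro x -
    have hx : x ∈ Algebra.adjoin M {ζ} := by
      rw [IsCyclotomicExtension.adjoin_primitive_root_eq_top hζ]; trivial
    induction hx using Algebra.adjoin_induction with
    | mem y hy =>
      rw [Set.mem_singleton_iff] at hy
      subst hy
      exact (le_sup_right : E₂ ≤ E₁ ⊔ E₂) (mem_adjoin_simple_self K ζ)
    | algebraMap r =>
      exact (le_sup_left : E₁ ≤ E₁ ⊔ E₂) ⟨r, rfl⟩
    | add y z _ _ hy hz => exact add_mem hy hz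
    | mul y z _ _ hy hz => exact mul_mem hy hz
  rw [htop] at hsup
  exact Normal.of_algEquiv (IntermediateField.topEquiv (F := K) (E := Ω))

include M n in
/-- `M(ζ_n)/K` is Galois when `M/K` is. -/
theorem isGalois_of_isCyclotomicExtension [IsGalois K M] : IsGalois K Ω := by
  have h1 : Normal K Ω := normal_of_isCyclotomicExtension K M n Ω
  have h2 : IsGalois M Ω := IsCyclotomicExtension.isGalois {n} M Ω
  have h3 : Algebra.IsSeparable K Ω := Algebra.IsSeparable.trans K M Ω
  exact ⟨⟩

omit [Algebra K M] [IsScalarTower K M Ω] in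
include n in
/-- An element of `Gal(Ω/K)` is determined by its values on `M` and on a primitive root. -/
theorem algEquiv_ext_of_apply_zeta {ζ : Ω} (hζ : IsPrimitiveRoot ζ n) {τ τ' : Ω ≃ₐ[K] Ω}
    (hM : ∀ x : M, τ (algebraMap M Ω x) = τ' (algebraMap M Ω x)) (hz : τ ζ = τ' ζ) : τ = τ' := by
  ext x
  have hx : x ∈ Algebra.adjoin M {ζ} := by
    rw [IsCyclotomicExtension.adjoin_primitive_root_eq_top hζ]; trivial
  induction hx using Algebra.adjoin_induction with
  | mem y hy =>
    rw [Set.mem_singleton_iff] at hy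
    subst hy
    exact hz
  | algebraMap r => exact hM r
  | add y z _ _ hy hz => rw [map_add, map_add, hy, hz]
  | mul y z _ _ hy hz => rw [map_mul, map_mul, hy, hz]

end tower

section realise

variable (K M : Type*) [Field K] [Field M] [NumberField M] [Algebra K M] (n : ℕ) [NeZero n]
variable (Ω : Type*) [Field Ω] [Algebra M Ω] [Algebra K Ω] [IsScalarTower K M Ω]
  [IsCyclotomicExtension {n} M Ω]

/-- Every pair `(s, u) ∈ Gal(M/K) × (ℤ/n)ˣ` is realised by an element of `Gal(Ω/K)`. -/
theorem exists_algEquiv_restrict_eq_and_apply_eq_pow [Normal K M]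
    (hn : Nat.Coprime n (discr M).natAbs) {ζ : Ω} (hζ : IsPrimitiveRoot ζ n)
    (s : M ≃ₐ[K] M) (u : (ZMod n)ˣ) :
    ∃ τ : Ω ≃ₐ[K] Ω, (∀ x : M, τ (algebraMap M Ω x) = algebraMap M Ω (s x)) ∧
      τ ζ = ζ ^ (u : ZMod n).val := by
  have hnorm : Normal K Ω := normal_of_isCyclotomicExtension K M n Ω
  -- lift `s`
  let τ₀ : Ω ≃ₐ[K] Ω := s.liftNormal Ω
  have hτ₀ : ∀ x : M, τ₀ (algebraMap M Ω x) = algebraMap M Ω (s x) :=
    fun x => AlgEquiv.liftNormal_commutes s Ω x
  -- `τ₀ ζ = ζ ^ a` with `a` a unit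
  have hζ' : IsPrimitiveRoot (τ₀ ζ) n := hζ.map_of_injective τ₀.injective
  obtain ⟨a, -, ha⟩ := hζ.eq_pow_of_pow_eq_one hζ'.pow_eq_one
  have hacop : a.Coprime n := (hζ.pow_iff_coprime (NeZero.pos n) a).mp (ha ▸ hζ')
  let ua : (ZMod n)ˣ := ZMod.unitOfCoprime a hacop
  -- correct by an element of `Gal(Ω/M)`
  obtain ⟨τ₁, hτ₁⟩ := exists_algEquiv_apply_eq_pow M n Ω hn hζ (u * ua⁻¹)
  refine ⟨(τ₁.restrictScalars K).trans τ₀, fun x => ?_, ?_⟩
  · simp only [AlgEquiv.trans_apply, AlgEquiv.restrictScalars_apply, AlgEquiv.commutes, hτ₀]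
  · simp only [AlgEquiv.trans_apply, AlgEquiv.restrictScalars_apply, hτ₁, map_pow, ← ha, ← pow_mul]
    -- exponents agree modulo `n`
    refine pow_eq_pow_of_modEq ?_ hζ.pow_eq_one
    rw [← ZMod.natCast_eq_natCast_iff]
    push_cast
    rw [ZMod.natCast_zmod_val, ZMod.natCast_zmod_val]
    have hua : ((ua : (ZMod n)ˣ) : ZMod n) = (a : ZMod n) := ZMod.coe_unitOfCoprime a hacop
    rw [← hua, mul_left_comm, ← Units.val_mul, mul_inv_cancel, Units.val_one, mul_one]

/-- `restrictNormal` form of `exists_algEquiv_restrict_eq_and_apply_eq_pow`. -/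
theorem exists_algEquiv_restrictNormal_eq_and_apply_eq_pow [Normal K M]
    (hn : Nat.Coprime n (discr M).natAbs) {ζ : Ω} (hζ : IsPrimitiveRoot ζ n)
    (s : M ≃ₐ[K] M) (u : (ZMod n)ˣ) :
    ∃ τ : Ω ≃ₐ[K] Ω, τ.restrictNormal M = s ∧ τ ζ = ζ ^ (u : ZMod n).val := by
  obtain ⟨τ, h1, h2⟩ := exists_algEquiv_restrict_eq_and_apply_eq_pow K M n Ω hn hζ s u
  refine ⟨τ, ?_, h2⟩
  ext x
  apply (algebraMap M Ω).injective
  rw [AlgEquiv.restrictNormal_commutes, h1]

end realise

end Fermat.Agent.S14.CrossingDisjoint
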