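/-
S14 / piece C1.cycloFrob (helper35).

Explicit cyclotomic Frobenius and the glue "principal ideals prime to `m` have trivial Artin
symbol in every unramified abelian extension `L/F` contained in an `m`-cyclotomic extension `C/F`"
(report 830 (S1a) / 833 (iii) of the S14 plan).  Mathlib only.

Main results (namespace `Fermat.Agent.S14.CycloFrob`):
* `frob_zeta` : an arithmetic Frobenius at a prime `P ∌ m` of `𝓞 C` sends an `m`-th root of unity
  `ζ` to `ζ ^ N(P ∩ 𝓞 F)`.
* `isArithFrobAt_restrict` : restriction of arithmetic Frobenius elements to subextensions.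
* `norm_rat_nonneg`, `norm_int_pos`, `absNorm_span_singleton_eq` : norms in totally complex fields.
* `norm_int_congr` : `a ≡ b mod m` implies `N a ≡ N b mod m`.
* `IsArtinAway m art` : the hypotheses on an Artin map `art` of `L/F`.
* `exists_aut` : for `I` prime to `m`, `art I = τ|_L` with `τ ζ = ζ ^ N(I)` on `m`-th roots of `1`.
* `art_eq_of_absNorm_modEq` : `art I` only depends on `N(I) mod m`.
* `art_span_singleton_eq_one`, `principal_dies` : the glue.
-/
import Mathlib

set_option autoImplicit false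

open NumberField nonZeroDivisors

namespace Fermat.Agent.S14.CycloFrob

/-! ### Arithmetic Frobenius elements and roots of unity -/

section FrobZeta

variable {F C : Type*} [Field F] [NumberField F] [Field C] [NumberField C] [Algebra F C]
  [IsGalois F C]

omit [NumberField F] [NumberField C] [IsGalois F C] in
/-- The value in `C` of the action of `σ : Gal(C/F)` on an integer. -/
theorem coe_smul_int (σ : C ≃ₐ[F] C) (x : 𝓞 C) : ((σ • x : 𝓞 C) : C) = σ (x : C) := rfl

omit [Field C] [NumberField C] [Algebra F C] [IsGalois F C] in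
/-- `Nat.card (𝓞 F ⧸ v) = absNorm v`. -/
theorem natCard_quot_eq_absNorm (v : Ideal (𝓞 F)) : Nat.card (𝓞 F ⧸ v) = Ideal.absNorm v := by
  rw [Ideal.absNorm_apply, Submodule.cardQuot_apply]

/-- An arithmetic Frobenius at a prime `P` of `𝓞 C` not containing `m` raises every `m`-th root
of unity to the power `absNorm (P.under (𝓞 F))`. -/
theorem frob_zeta {m : ℕ} {ζ : C} (hζ : ζ ^ m = 1) (P : Ideal (𝓞 C)) [P.IsPrime]
    (hm : (m : 𝓞 C) ∉ P) (σ : C ≃ₐ[F] C) (hσ : IsArithFrobAt (𝓞 F) σ P) :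
    σ ζ = ζ ^ Ideal.absNorm (P.under (𝓞 F)) := by
  have hm0 : m ≠ 0 := by
    rintro rfl
    exact hm (by simp)
  have hint : IsIntegral ℤ ζ := by
    refine ⟨Polynomial.X ^ m - 1, Polynomial.monic_X_pow_sub_C 1 hm0, ?_⟩
    simp [hζ]
  set ζ' : 𝓞 C := ⟨ζ, hint⟩ with hζ'
  have h1 : ζ' ^ m = 1 := by
    apply RingOfIntegers.ext
    show algebraMap (𝓞 C) C (ζ' ^ m) = algebraMap (𝓞 C) C 1
    rw [map_pow, map_one]
    exact hζ
  have h2 := AlgHom.IsArithFrobAt.apply_of_pow_eq_one hσ h1 hm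
  have h3 := congrArg (fun x : 𝓞 C => (x : C)) h2
  simp only [MulSemiringAction.toAlgHom_apply, coe_smul_int, map_pow] at h3
  rw [natCard_quot_eq_absNorm] at h3
  exact h3

end FrobZeta

/-! ### Restriction of Frobenius elements -/

section Restrict

variable {F L C : Type*} [Field F] [NumberField F] [Field L] [NumberField L] [Field C]
  [NumberField C] [Algebra F L] [Algebra F C] [Algebra L C] [IsScalarTower F L C]
  [IsGalois F L] [IsGalois F C]

omit [NumberField F] [NumberField L] [NumberField C] [IsGalois F C] in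
/-- Compatibility of the Galois actions on integers with restriction. -/
theorem algebraMap_restrict_smul (τ : C ≃ₐ[F] C) (x : 𝓞 L) :
    algebraMap (𝓞 L) (𝓞 C) (AlgEquiv.restrictNormalHom L τ • x) =
      τ • algebraMap (𝓞 L) (𝓞 C) x := by
  apply RingOfIntegers.ext
  show algebraMap L C ((AlgEquiv.restrictNormalHom L τ) (x : L)) = τ (algebraMap L C (x : L))
  exact AlgEquiv.restrictNormal_commutes τ L (x : L)

/-- The restriction to `L` of an arithmetic Frobenius at `𝔓` (in `C/F`) is an arithmetic Frobenius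
at `𝔓 ∩ 𝓞 L` (in `L/F`). -/
theorem isArithFrobAt_restrict (τ : C ≃ₐ[F] C) (𝔓 : Ideal (𝓞 C))
    (hτ : IsArithFrobAt (𝓞 F) τ 𝔓) :
    IsArithFrobAt (𝓞 F) (AlgEquiv.restrictNormalHom L τ) (𝔓.under (𝓞 L)) := by
  intro x
  have h := hτ (algebraMap (𝓞 L) (𝓞 C) x)
  rw [Ideal.under_under]
  rw [Ideal.under_def, Ideal.mem_comap, map_sub, map_pow]
  simp only [MulSemiringAction.toAlgHom_apply] at h ⊢
  rw [algebraMap_restrict_smul]
  exact h

end Restrict

/-! ### Norms in totally complex fields -/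

section Positivity

open ComplexConjugate

/-- A product over a finite set stable under a fixed-point-free involution `c` of a function with
`g (c i) = conj (g i)` is a nonnegative real number. -/
theorem prod_involution_conj_nonneg {ι : Type*} [DecidableEq ι] (c : ι → ι)
    (hc : Function.Involutive c) (hfix : ∀ i, c i ≠ i) (g : ι → ℂ)
    (hg : ∀ i, g (c i) = conj (g i)) (s : Finset ι) (hs : ∀ i ∈ s, c i ∈ s) :
    ∃ r : ℝ, 0 ≤ r ∧ ∏ i ∈ s, g i = (r : ℂ) := by
  induction s using Finset.strongInduction with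
  | H s ih =>
    rcases s.eq_empty_or_nonempty with rfl | ⟨i, hi⟩
    · exact ⟨1, zero_le_one, by simp⟩
    · have hci : c i ∈ s.erase i := Finset.mem_erase.mpr ⟨hfix i, hs i hi⟩
      set t := (s.erase i).erase (c i) with ht
      have hts : t ⊂ s := by
        refine Finset.ssubset_of_subset_of_ssubset (Finset.erase_subset _ _) ?_
        exact Finset.erase_ssubset hi
      have htc : ∀ j ∈ t, c j ∈ t := by
        intro j hj
        rw [ht, Finset.mem_erase, Finset.mem_erase] at hj ⊢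
        obtain ⟨h1, h2, h3⟩ := hj
        refine ⟨fun h => h2 ?_, fun h => h1 ?_, hs j h3⟩
        · exact hc.injective h
        · rw [← h, hc j]
      obtain ⟨r, hr0, hr⟩ := ih t hts htc
      refine ⟨Complex.normSq (g i) * r, mul_nonneg (Complex.normSq_nonneg _) hr0, ?_⟩
      rw [← Finset.mul_prod_erase s g hi, ← Finset.mul_prod_erase (s.erase i) g hci, ← ht, hr,
        hg i, ← mul_assoc, Complex.mul_conj]
      push_cast
      ring

variable {F : Type*} [Field F] [NumberField F]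

/-- In a totally complex number field, norms (to `ℚ`) are nonnegative. -/
theorem norm_rat_nonneg [IsTotallyComplex F] (x : F) : 0 ≤ Algebra.norm ℚ x := by
  classical
  have h1 := Algebra.norm_eq_prod_embeddings ℚ ℂ x
  have h2 : ∏ σ : F →ₐ[ℚ] ℂ, σ x = ∏ φ : F →+* ℂ, φ x :=
    Fintype.prod_equiv (RingHom.equivRatAlgHom F ℂ).symm _ _ (fun σ => rfl)
  obtain ⟨r, hr0, hr⟩ := prod_involution_conj_nonneg
    (fun φ : F →+* ℂ => ComplexEmbedding.conjugate φ)
    (fun φ => by simp)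
    (fun φ h => IsTotallyComplex.complexEmbedding_not_isReal φ
      (ComplexEmbedding.isReal_iff.mpr h))
    (fun φ => φ x) (fun φ => rfl) Finset.univ (fun i _ => Finset.mem_univ _)
  rw [h2, hr] at h1
  have h3 : ((Algebra.norm ℚ x : ℚ) : ℝ) = r := by
    have : ((Algebra.norm ℚ x : ℚ) : ℂ) = ((r : ℝ) : ℂ) := by simpa using h1
    exact_mod_cast this
  have : (0 : ℝ) ≤ ((Algebra.norm ℚ x : ℚ) : ℝ) := h3 ▸ hr0
  exact_mod_cast this

/-- In a totally complex number field, norms of nonzero integers are positive. -/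
theorem norm_int_pos [IsTotallyComplex F] (x : 𝓞 F) (hx : x ≠ 0) : 0 < Algebra.norm ℤ x := by
  have h1 : 0 ≤ Algebra.norm ℤ x := by
    have := norm_rat_nonneg (x : F)
    rw [← Algebra.coe_norm_int] at this
    exact_mod_cast this
  have h2 : Algebra.norm ℤ x ≠ 0 := by
    rw [Ne, Algebra.norm_eq_zero_iff]
    exact hx
  omega

/-- In a totally complex number field the absolute norm of a principal ideal is the norm of a
generator (no sign). -/
theorem absNorm_span_singleton_eq [IsTotallyComplex F] (x : 𝓞 F) :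
    (Ideal.absNorm (Ideal.span {x}) : ℤ) = Algebra.norm ℤ x := by
  rw [Ideal.absNorm_span_singleton]
  by_cases hx : x = 0
  · simp [hx]
  · have := norm_int_pos x hx
    omega

/-- Congruent integers have congruent norms. -/
theorem norm_int_congr (m : ℕ) (a b : 𝓞 F) (h : a - b ∈ Ideal.span {(m : 𝓞 F)}) :
    (Algebra.norm ℤ a : ZMod m) = (Algebra.norm ℤ b : ZMod m) := by
  classical
  obtain ⟨c, hc⟩ := Ideal.mem_span_singleton'.mp h
  have hab : a = b + c * (m : 𝓞 F) := by rw [hc]; ring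
  set bas := RingOfIntegers.basis F
  rw [Algebra.norm_eq_matrix_det bas a, Algebra.norm_eq_matrix_det bas b]
  show Int.castRingHom (ZMod m) _ = Int.castRingHom (ZMod m) _
  rw [RingHom.map_det, RingHom.map_det]
  congr 1
  rw [hab, map_add, map_mul, map_natCast, map_add, map_mul, map_natCast]
  have : ((m : ℕ) : Matrix (Module.Free.ChooseBasisIndex ℤ (𝓞 F))
      (Module.Free.ChooseBasisIndex ℤ (𝓞 F)) (ZMod m)) = 0 := by
    ext i j
    simp [Matrix.natCast_apply]
  rw [this, mul_zero, add_zero]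

/-- In a totally complex field, congruent integers generate ideals with congruent absolute
norms. -/
theorem absNorm_span_singleton_modEq [IsTotallyComplex F] (m : ℕ) (a b : 𝓞 F)
    (h : a - b ∈ Ideal.span {(m : 𝓞 F)}) :
    Ideal.absNorm (Ideal.span {a}) ≡ Ideal.absNorm (Ideal.span {b}) [MOD m] := by
  rw [← ZMod.natCast_eq_natCast_iff]
  have h1 := norm_int_congr m a b h
  rw [← absNorm_span_singleton_eq a, ← absNorm_span_singleton_eq b] at h1
  simpa using h1

end Positivity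

/-! ### Artin maps inside cyclotomic extensions -/

section Artin

variable {F L C : Type*} [Field F] [NumberField F] [Field L] [NumberField L] [Field C]
  [NumberField C] [Algebra F L] [Algebra F C] [Algebra L C] [IsScalarTower F L C]
  [IsGalois F L]

/-- The hypotheses on an "Artin map" `art` of `L/F` used in this file: `art` is multiplicative on
nonzero ideals; at every prime `v` of `F` not containing `m`, `art v` is an arithmetic Frobenius
at every prime of `L` over `v`; and arithmetic Frobenius elements at primes of `L` not containing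
`m` are unique (i.e. `L/F` is unramified there). -/
structure IsArtinAway (m : ℕ) (art : Ideal (𝓞 F) → (L ≃ₐ[F] L)) : Prop where
  one : art ⊤ = 1
  mul : ∀ I J : Ideal (𝓞 F), I ≠ ⊥ → J ≠ ⊥ → art (I * J) = art I * art J
  frob : ∀ (v : Ideal (𝓞 F)), v.IsPrime → v ≠ ⊥ → (m : 𝓞 F) ∉ v →
    ∀ (P : Ideal (𝓞 L)), P.IsPrime → P.under (𝓞 F) = v → IsArithFrobAt (𝓞 F) (art v) P
  unram : ∀ (P : Ideal (𝓞 L)), P.IsPrime → P ≠ ⊥ → (m : 𝓞 L) ∉ P →
    ∀ σ : L ≃ₐ[F] L, σ ∈ P.inertia (L ≃ₐ[F] L) → σ = 1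

variable {m : ℕ} {art : Ideal (𝓞 F) → (L ≃ₐ[F] L)}

theorem natCast_mem_under {A B : Type*} [CommRing A] [CommRing B] [Algebra A B] (P : Ideal B)
    (m : ℕ) : (m : A) ∈ P.under A ↔ (m : B) ∈ P := by
  rw [Ideal.under_def, Ideal.mem_comap, map_natCast]

variable [IsGalois F C]

/-- **Explicit cyclotomic Frobenius.** For a prime `v` of `F` not containing `m`, the Artin symbol
`art v` is the restriction to `L` of an automorphism `τ` of `C` with `τ ζ = ζ ^ N(v)` for all
`m`-th roots of unity `ζ` of `C`. -/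
theorem exists_aut_prime (hA : IsArtinAway m art) (v : Ideal (𝓞 F)) (hv : v.IsPrime)
    (hv0 : v ≠ ⊥) (hvm : (m : 𝓞 F) ∉ v) :
    ∃ τ : C ≃ₐ[F] C, (∀ ζ : C, ζ ^ m = 1 → τ ζ = ζ ^ Ideal.absNorm v) ∧
      AlgEquiv.restrictNormalHom L τ = art v := by
  have := hv
  obtain ⟨𝔓, -, h𝔓, h𝔓v⟩ := Ideal.exists_ideal_over_prime_of_isIntegral (S := 𝓞 C) v ⊥
    (by rw [Ideal.comap_bot_of_injective _ (RingOfIntegers.algebraMap.injective F C)]; exact bot_le)
  have := h𝔓
  have h𝔓v' : 𝔓.under (𝓞 F) = v := h𝔓v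
  have h𝔓0 : 𝔓 ≠ ⊥ := by
    rintro rfl
    rw [Ideal.under_def, Ideal.comap_bot_of_injective _ (RingOfIntegers.algebraMap.injective F C)]
      at h𝔓v'
    exact hv0 h𝔓v'.symm
  have : Finite (𝓞 C ⧸ 𝔓) := Ideal.finiteQuotientOfFreeOfNeBot 𝔓 h𝔓0
  have hm𝔓 : (m : 𝓞 C) ∉ 𝔓 := by
    rw [← natCast_mem_under (A := 𝓞 F), h𝔓v']
    exact hvm
  obtain ⟨τ, hτ⟩ := IsArithFrobAt.exists_of_isInvariant (𝓞 F) (C ≃ₐ[F] C) 𝔓
  refine ⟨τ, fun ζ hζ => ?_, ?_⟩
  · rw [frob_zeta hζ 𝔓 hm𝔓 τ hτ, h𝔓v']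
  · set P : Ideal (𝓞 L) := 𝔓.under (𝓞 L) with hP
    have hPprime : P.IsPrime := Ideal.IsPrime.under (𝓞 L) 𝔓
    have hPv : P.under (𝓞 F) = v := by rw [hP, Ideal.under_under, h𝔓v']
    have hP0 : P ≠ ⊥ := by
      intro h0
      rw [h0, Ideal.under_def,
        Ideal.comap_bot_of_injective _ (RingOfIntegers.algebraMap.injective F L)] at hPv
      exact hv0 hPv.symm
    have hmP : (m : 𝓞 L) ∉ P := by
      rw [hP, natCast_mem_under]
      exact hm𝔓
    have h1 : IsArithFrobAt (𝓞 F) (AlgEquiv.restrictNormalHom L τ) P :=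
      isArithFrobAt_restrict τ 𝔓 hτ
    have h2 : IsArithFrobAt (𝓞 F) (art v) P := hA.frob v hv hv0 hvm P hPprime hPv
    have h3 := IsArithFrobAt.mul_inv_mem_inertia h1 h2
    have h4 := hA.unram P hPprime hP0 hmP _ h3
    exact mul_inv_eq_one.mp h4

/-- For a nonzero ideal `I` of `F` prime to `m`, the Artin symbol `art I` is the restriction to `L`
of an automorphism `τ` of `C` with `τ ζ = ζ ^ N(I)` for all `m`-th roots of unity `ζ` of `C`. -/
theorem exists_aut (hA : IsArtinAway m art) (I : Ideal (𝓞 F)) (hI : I ≠ ⊥)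
    (hIm : IsCoprime I (Ideal.span {(m : 𝓞 F)})) :
    ∃ τ : C ≃ₐ[F] C, (∀ ζ : C, ζ ^ m = 1 → τ ζ = ζ ^ Ideal.absNorm I) ∧
      AlgEquiv.restrictNormalHom L τ = art I := by
  induction I using UniqueFactorizationMonoid.induction_on_prime with
  | h₁ => exact absurd Ideal.zero_eq_bot hI
  | h₂ x hx =>
    rw [Ideal.isUnit_iff] at hx
    subst hx
    exact ⟨1, fun ζ _ => by simp, by rw [map_one, hA.one]⟩
  | h₃ a p ha hp ih =>
    have hp0 : p ≠ ⊥ := hp.ne_zero
    have hpprime : p.IsPrime := (Ideal.prime_iff_isPrime hp0).mp hp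
    have ha0 : a ≠ ⊥ := ha
    have hpm : (m : 𝓞 F) ∉ p := by
      intro hmem
      have h1 : IsCoprime p (Ideal.span {(m : 𝓞 F)}) := hIm.of_mul_left_left
      rw [Ideal.isCoprime_iff_sup_eq, sup_eq_left.mpr ((Ideal.span_singleton_le_iff_mem p).mpr hmem)]
        at h1
      exact hpprime.ne_top h1
    obtain ⟨τp, hτp, hτp'⟩ := exists_aut_prime (C := C) hA p hpprime hp0 hpm
    obtain ⟨τa, hτa, hτa'⟩ := ih ha0 hIm.of_mul_left_right
    refine ⟨τp * τa, fun ζ hζ => ?_, by rw [map_mul, hτp', hτa', hA.mul p a hp0 ha0]⟩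
    rw [AlgEquiv.mul_apply, hτa ζ hζ, map_pow, hτp ζ hζ, ← pow_mul, map_mul]

/-- Inside an `m`-cyclotomic extension, the Artin symbol of an ideal prime to `m` only depends on
its absolute norm modulo `m`. -/
theorem art_eq_of_absNorm_modEq [IsCyclotomicExtension {m} F C] (hA : IsArtinAway m art)
    (I J : Ideal (𝓞 F)) (hI : I ≠ ⊥) (hJ : J ≠ ⊥)
    (hIm : IsCoprime I (Ideal.span {(m : 𝓞 F)})) (hJm : IsCoprime J (Ideal.span {(m : 𝓞 F)}))
    (h : Ideal.absNorm I ≡ Ideal.absNorm J [MOD m]) : art I = art J := by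
  obtain ⟨τI, hτI, hτI'⟩ := exists_aut (C := C) hA I hI hIm
  obtain ⟨τJ, hτJ, hτJ'⟩ := exists_aut (C := C) hA J hJ hJm
  have hadj := ((IsCyclotomicExtension.iff_adjoin_eq_top {m} F C).mp inferInstance).2
  have heq : (τI : C →ₐ[F] C) = (τJ : C →ₐ[F] C) := by
    apply AlgHom.ext_of_adjoin_eq_top hadj
    rintro ζ ⟨n, hn, -, hζ⟩
    rw [Set.mem_singleton_iff] at hn
    subst hn
    show τI ζ = τJ ζ
    rw [hτI ζ hζ, hτJ ζ hζ, pow_eq_pow_mod (Ideal.absNorm I) hζ,
      pow_eq_pow_mod (Ideal.absNorm J) hζ]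
    congr 1
  have : τI = τJ := AlgEquiv.coe_toAlgHom_injective heq
  rw [← hτI', ← hτJ', this]

/-- **Principal ideals die** (function form).  Let `L/F` be a Galois extension of number fields
contained in an `m`-cyclotomic extension `C/F`, `F` totally complex, and let `art` be an Artin map
of `L/F` away from `m`.  Assume that norms from `L` have trivial Artin symbol and that the norm
`(𝓞 L / m)ˣ → (𝓞 F / m)ˣ` is onto.  Then every principal ideal of `F` prime to `m` has trivial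
Artin symbol. -/
theorem art_span_singleton_eq_one [IsTotallyComplex F] [IsCyclotomicExtension {m} F C]
    (hA : IsArtinAway m art)
    (hsurj : ∀ x : 𝓞 F, IsCoprime (Ideal.span {x}) (Ideal.span {(m : 𝓞 F)}) →
      ∃ y : 𝓞 L, Algebra.intNorm (𝓞 F) (𝓞 L) y - x ∈ Ideal.span {(m : 𝓞 F)})
    (hnorm : ∀ y : 𝓞 L, y ≠ 0 → art (Ideal.span {Algebra.intNorm (𝓞 F) (𝓞 L) y}) = 1)
    (x : 𝓞 F) (hx : x ≠ 0) (hxm : IsCoprime (Ideal.span {x}) (Ideal.span {(m : 𝓞 F)})) :
    art (Ideal.span {x}) = 1 := by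
  -- choose `y ≠ 0` with `N y ≡ x mod m`
  obtain ⟨y, hy0, hy⟩ : ∃ y : 𝓞 L, y ≠ 0 ∧
      Algebra.intNorm (𝓞 F) (𝓞 L) y - x ∈ Ideal.span {(m : 𝓞 F)} := by
    obtain ⟨y, hy⟩ := hsurj x hxm
    by_cases hy0 : y = 0
    · refine ⟨1, one_ne_zero, ?_⟩
      rw [hy0, Algebra.intNorm_zero, zero_sub, neg_mem_iff] at hy
      have htop : Ideal.span {(m : 𝓞 F)} = ⊤ := by
        have h1 := Ideal.isCoprime_iff_sup_eq.mp hxm
        rwa [sup_eq_right.mpr ((Ideal.span_singleton_le_iff_mem _).mpr hy)] at h1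
      rw [htop]
      exact Submodule.mem_top
    · exact ⟨y, hy0, hy⟩
  set n := Algebra.intNorm (𝓞 F) (𝓞 L) y with hn
  have hn0 : n ≠ 0 := by
    rw [hn, Ne, Algebra.intNorm_eq_zero]
    exact hy0
  have hnm : IsCoprime (Ideal.span {n}) (Ideal.span {(m : 𝓞 F)}) := by
    rw [Ideal.isCoprime_iff_sup_eq, eq_top_iff, ← Ideal.isCoprime_iff_sup_eq.mp hxm]
    refine sup_le ?_ le_sup_right
    rw [Ideal.span_singleton_le_iff_mem]
    have : x = n - (n - x) := by ring
    rw [this]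
    exact sub_mem (Ideal.mem_sup_left (Ideal.mem_span_singleton_self n)) (Ideal.mem_sup_right hy)
  have hmod : Ideal.absNorm (Ideal.span {x}) ≡ Ideal.absNorm (Ideal.span {n}) [MOD m] := by
    refine (absNorm_span_singleton_modEq m n x hy).symm
  rw [art_eq_of_absNorm_modEq (C := C) hA _ _ (by simpa using hx) (by simpa using hn0) hxm hnm hmod]
  exact hnorm y hy0

/-- **Principal ideals die** (monoid-hom form, the shape of `ArtinMap.art`). -/
theorem principal_dies [IsTotallyComplex F] [IsCyclotomicExtension {m} F C]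
    (art' : (Ideal (𝓞 F))⁰ →* (L ≃ₐ[F] L))
    (hfrob : ∀ (v : Ideal (𝓞 F)) (_ : v.IsPrime) (hv0 : v ≠ ⊥), (m : 𝓞 F) ∉ v →
      ∀ (P : Ideal (𝓞 L)), P.IsPrime → P.under (𝓞 F) = v →
        IsArithFrobAt (𝓞 F) (art' ⟨v, mem_nonZeroDivisors_of_ne_zero hv0⟩) P)
    (hunr : ∀ (P : Ideal (𝓞 L)), P.IsPrime → P ≠ ⊥ → (m : 𝓞 L) ∉ P →
      ∀ σ : L ≃ₐ[F] L, σ ∈ P.inertia (L ≃ₐ[F] L) → σ = 1)
    (hsurj : ∀ x : 𝓞 F, IsCoprime (Ideal.span {x}) (Ideal.span {(m : 𝓞 F)}) →
      ∃ y : 𝓞 L, Algebra.intNorm (𝓞 F) (𝓞 L) y - x ∈ Ideal.span {(m : 𝓞 F)})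
    (hnorm : ∀ (y : 𝓞 L) (hy : y ≠ 0), art' ⟨Ideal.span {Algebra.intNorm (𝓞 F) (𝓞 L) y},
      mem_nonZeroDivisors_of_ne_zero (by
        rw [Ne, Ideal.zero_eq_bot, Ideal.span_singleton_eq_bot, Algebra.intNorm_eq_zero]
        exact hy)⟩ = 1)
    (x : 𝓞 F) (hx : x ≠ 0) (hxm : IsCoprime (Ideal.span {x}) (Ideal.span {(m : 𝓞 F)})) :
    art' ⟨Ideal.span {x}, mem_nonZeroDivisors_of_ne_zero (by
      rw [Ne, Ideal.zero_eq_bot, Ideal.span_singleton_eq_bot]; exact hx)⟩ = 1 := by
  classical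
  set art : Ideal (𝓞 F) → (L ≃ₐ[F] L) := fun I =>
    if h : I ≠ ⊥ then art' ⟨I, mem_nonZeroDivisors_of_ne_zero h⟩ else 1 with hart
  have hart_ne : ∀ (I : Ideal (𝓞 F)) (h : I ≠ ⊥),
      art I = art' ⟨I, mem_nonZeroDivisors_of_ne_zero h⟩ := fun I h => by
    simp only [hart, dif_pos h]
  have hA : IsArtinAway m art := by
    refine ⟨?_, ?_, ?_, hunr⟩
    · rw [hart_ne ⊤ top_ne_bot]
      have : (⟨⊤, mem_nonZeroDivisors_of_ne_zero top_ne_bot⟩ : (Ideal (𝓞 F))⁰) = 1 := by
        ext1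
        exact Ideal.one_eq_top.symm
      rw [this, map_one]
    · intro I J hI hJ
      have hIJ : I * J ≠ ⊥ := mul_ne_zero hI hJ
      rw [hart_ne _ hIJ, hart_ne _ hI, hart_ne _ hJ, ← map_mul]
      rfl
    · intro v hv hv0 hvm P hP hPv
      rw [hart_ne v hv0]
      exact hfrob v hv hv0 hvm P hP hPv
  have hx' : Ideal.span {x} ≠ ⊥ := by
    rw [Ne, Ideal.span_singleton_eq_bot]; exact hx
  have := art_span_singleton_eq_one (C := C) hA hsurj (fun y hy => by
    have h0 : Ideal.span {Algebra.intNorm (𝓞 F) (𝓞 L) y} ≠ ⊥ := by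
      rw [Ne, Ideal.span_singleton_eq_bot, Algebra.intNorm_eq_zero]; exact hy
    rw [hart_ne _ h0]
    exact hnorm y hy) x hx hxm
  rw [hart_ne _ hx'] at this
  exact this

end Artin

end Fermat.Agent.S14.CycloFrob
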