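/-
S14 / crossing plan v2, row T5 (helper35).

`exists_frob`: in the common setting `K ⊆ M ⊆ Ω` (`M/K`, `Ω/K` Galois, `M/K` unramified with Artin
map `art`), for every prime `q` of `K` there are a prime `𝔔` of `Ω` over `q` and an arithmetic
Frobenius `φ ∈ Gal(Ω/K)` at `𝔔` whose restriction to `M` is `art q` and which raises every root of
unity of order prime to `N q` to the power `N q`.
-/
import Fermat.Agent.S14.CycloFrob
import Fermat.Agent.S14.ArtinMapGen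

set_option autoImplicit false

namespace Fermat.Agent.S14.CrossingFrobExists

open NumberField nonZeroDivisors Fermat.Agent.S14

variable {K M Ω : Type} [Field K] [NumberField K] [Field M] [NumberField M] [Field Ω]
  [NumberField Ω] [Algebra K M] [Algebra K Ω] [Algebra M Ω] [IsScalarTower K M Ω]
  [IsGalois K M] [IsGalois K Ω]

/-- A natural number prime to the absolute norm of a nonzero prime `q` is not in `q`. -/
theorem natCast_not_mem_of_coprime (q : Ideal (𝓞 K)) (hq : q.IsPrime) (n : ℕ)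
    (hn : Nat.Coprime n (Ideal.absNorm q)) : (n : 𝓞 K) ∉ q := by
  intro hmem
  have hN : ((Ideal.absNorm q : ℕ) : 𝓞 K) ∈ q := by
    have := Ideal.absNorm_mem q
    exact_mod_cast this
  have h1 : ((Nat.gcd n (Ideal.absNorm q) : ℕ) : 𝓞 K) ∈ q := by
    have hgcd : ((Nat.gcd n (Ideal.absNorm q) : ℕ) : ℤ) =
        n * Nat.gcdA n (Ideal.absNorm q) + Ideal.absNorm q * Nat.gcdB n (Ideal.absNorm q) :=
      Nat.gcd_eq_gcd_ab n (Ideal.absNorm q)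
    have hcast : ((Nat.gcd n (Ideal.absNorm q) : ℕ) : 𝓞 K) =
        (n : 𝓞 K) * ((Nat.gcdA n (Ideal.absNorm q) : ℤ) : 𝓞 K) +
          ((Ideal.absNorm q : ℕ) : 𝓞 K) * ((Nat.gcdB n (Ideal.absNorm q) : ℤ) : 𝓞 K) := by
      have := congrArg (fun z : ℤ => (z : 𝓞 K)) hgcd
      push_cast at this
      exact_mod_cast this
    rw [hcast]
    exact q.add_mem (q.mul_mem_right _ hmem) (q.mul_mem_right _ hN)
  rw [Nat.Coprime] at hn
  rw [hn, Nat.cast_one] at h1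
  exact hq.ne_top ((Ideal.eq_top_iff_one q).mpr h1)

/-- **Row T5.** Existence of a Frobenius of `Ω/K` over `q` restricting to the Artin symbol. -/
theorem exists_frob (hU : Unram K M) (art : (Ideal (𝓞 K))⁰ →* (M ≃ₐ[K] M))
    (hart : IsArtinMap K M art) (q : (Ideal (𝓞 K))⁰) (hq : (q : Ideal (𝓞 K)).IsPrime) :
    ∃ (𝔔 : Ideal (𝓞 Ω)) (φ : Ω ≃ₐ[K] Ω), 𝔔.IsPrime ∧ 𝔔 ≠ ⊥ ∧
      𝔔.under (𝓞 K) = (q : Ideal (𝓞 K)) ∧ IsArithFrobAt (𝓞 K) φ 𝔔 ∧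
      AlgEquiv.restrictNormalHom M φ = art q ∧
      ∀ (n : ℕ) (ζ : Ω), ζ ^ n = 1 → Nat.Coprime n (Ideal.absNorm (q : Ideal (𝓞 K))) →
        φ ζ = ζ ^ Ideal.absNorm (q : Ideal (𝓞 K)) := by
  have hq0 : (q : Ideal (𝓞 K)) ≠ ⊥ := mem_nonZeroDivisors_iff_ne_zero.mp q.2
  have := hq
  obtain ⟨𝔔, -, h𝔔, h𝔔q⟩ := Ideal.exists_ideal_over_prime_of_isIntegral (S := 𝓞 Ω)
    (q : Ideal (𝓞 K)) ⊥
    (by rw [Ideal.comap_bot_of_injective _ (RingOfIntegers.algebraMap.injective K Ω)]; exact bot_le)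
  have := h𝔔
  have h𝔔q' : 𝔔.under (𝓞 K) = (q : Ideal (𝓞 K)) := h𝔔q
  have h𝔔0 : 𝔔 ≠ ⊥ := by
    rintro rfl
    rw [Ideal.under_def, Ideal.comap_bot_of_injective _ (RingOfIntegers.algebraMap.injective K Ω)]
      at h𝔔q'
    exact hq0 h𝔔q'.symm
  have : Finite (𝓞 Ω ⧸ 𝔔) := Ideal.finiteQuotientOfFreeOfNeBot 𝔔 h𝔔0
  obtain ⟨φ, hφ⟩ := IsArithFrobAt.exists_of_isInvariant (𝓞 K) (Ω ≃ₐ[K] Ω) 𝔔
  refine ⟨𝔔, φ, h𝔔, h𝔔0, h𝔔q', hφ, ?_, ?_⟩
  · -- restriction to `M` is the Artin symbol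
    set P : Ideal (𝓞 M) := 𝔔.under (𝓞 M) with hP
    have hPprime : P.IsPrime := Ideal.IsPrime.under (𝓞 M) 𝔔
    have hPq : P.under (𝓞 K) = (q : Ideal (𝓞 K)) := by rw [hP, Ideal.under_under, h𝔔q']
    have h1 : IsArithFrobAt (𝓞 K) (AlgEquiv.restrictNormalHom M φ) P :=
      CycloFrob.isArithFrobAt_restrict φ 𝔔 hφ
    exact hart.eq_of_isArithFrobAt hU q hq P hPprime ⟨hPq.symm⟩ _ h1
  · intro n ζ hζ hn
    have hn𝔔 : (n : 𝓞 Ω) ∉ 𝔔 := by
      rw [← CycloFrob.natCast_mem_under (A := 𝓞 K), h𝔔q']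
      exact natCast_not_mem_of_coprime _ hq n hn
    rw [CycloFrob.frob_zeta hζ 𝔔 hn𝔔 φ hφ, h𝔔q']

end Fermat.Agent.S14.CrossingFrobExists
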