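import Mathlib
import Fermat.Agent.S14.CrossingDisjoint

/-!
# S14, block (C), row T6: the two cyclotomic characters of `Gal(Ω/K)`, `Ω = M(ζ_{ℓ₁ℓ₂})`

Instantiation of the hypotheses `hinj`, `hsurj`, `hord` of `CrossingLink` for
`Γ = Ω ≃ₐ[K] Ω`, `G = M ≃ₐ[K] M`, `res = AlgEquiv.restrictNormalHom M`,
`χ₁ = chi1 : Γ →* (ZMod ℓ₁)ˣ`, `χ₂ = chi2 : Γ →* (ZMod ℓ₂)ˣ`
(the characters giving the action on `ζ ^ ℓ₂`, a primitive `ℓ₁`-th root, resp. on `ζ ^ ℓ₁`).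
Owner: helper54.
-/

set_option autoImplicit false

namespace Fermat.Agent.S14.CrossingChar

open NumberField

/-! ### Primitive roots of order `ℓ₁`, `ℓ₂` from one of order `ℓ₁ ℓ₂` -/

section roots

variable {Ω : Type*} [CommRing Ω] {l1 l2 : ℕ}

theorem isPrimitiveRoot_pow_right [NeZero l1] [NeZero l2] {ζ : Ω}
    (hζ : IsPrimitiveRoot ζ (l1 * l2)) : IsPrimitiveRoot (ζ ^ l2) l1 :=
  hζ.pow (Nat.mul_pos (NeZero.pos l1) (NeZero.pos l2)) (mul_comm l1 l2)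

theorem isPrimitiveRoot_pow_left [NeZero l1] [NeZero l2] {ζ : Ω}
    (hζ : IsPrimitiveRoot ζ (l1 * l2)) : IsPrimitiveRoot (ζ ^ l1) l2 :=
  hζ.pow (Nat.mul_pos (NeZero.pos l1) (NeZero.pos l2)) rfl

end roots

/-! ### The characters -/

section chars

variable (K : Type*) {Ω : Type*} [Field K] [Field Ω] [Algebra K Ω] {l1 l2 : ℕ}
  [NeZero l1] [NeZero l2]

/-- The character of `Gal(Ω/K)` on the `ℓ₁`-th roots of unity (through `ζ ^ ℓ₂`). -/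
noncomputable def chi1 {ζ : Ω} (hζ : IsPrimitiveRoot ζ (l1 * l2)) :
    (Ω ≃ₐ[K] Ω) →* (ZMod l1)ˣ :=
  (isPrimitiveRoot_pow_right hζ).autToPow K

/-- The character of `Gal(Ω/K)` on the `ℓ₂`-th roots of unity (through `ζ ^ ℓ₁`). -/
noncomputable def chi2 {ζ : Ω} (hζ : IsPrimitiveRoot ζ (l1 * l2)) :
    (Ω ≃ₐ[K] Ω) →* (ZMod l2)ˣ :=
  (isPrimitiveRoot_pow_left hζ).autToPow K

variable {K}

theorem chi1_spec {ζ : Ω} (hζ : IsPrimitiveRoot ζ (l1 * l2)) (σ : Ω ≃ₐ[K] Ω) :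
    (ζ ^ l2) ^ ((chi1 K hζ σ : (ZMod l1)ˣ) : ZMod l1).val = σ (ζ ^ l2) :=
  (isPrimitiveRoot_pow_right hζ).autToPow_spec K σ

theorem chi2_spec {ζ : Ω} (hζ : IsPrimitiveRoot ζ (l1 * l2)) (σ : Ω ≃ₐ[K] Ω) :
    (ζ ^ l1) ^ ((chi2 K hζ σ : (ZMod l2)ˣ) : ZMod l2).val = σ (ζ ^ l1) :=
  (isPrimitiveRoot_pow_left hζ).autToPow_spec K σ

/-- Abstract form: a character `autToPow` is determined by the exponent. -/
theorem coe_autToPow_eq_of_apply_eq_pow {n : ℕ} [NeZero n] {μ : Ω} (hμ : IsPrimitiveRoot μ n)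
    (σ : Ω ≃ₐ[K] Ω) (N : ℕ) (h : σ μ = μ ^ N) :
    ((hμ.autToPow K σ : (ZMod n)ˣ) : ZMod n) = (N : ZMod n) := by
  have h1 := hμ.autToPow_spec K σ
  rw [h] at h1
  have h3 : ((hμ.autToPow K σ : (ZMod n)ˣ) : ZMod n).val % n = N % n :=
    hμ.pow_inj (Nat.mod_lt _ (NeZero.pos n)) (Nat.mod_lt _ (NeZero.pos n))
      (by rw [← pow_eq_pow_mod _ hμ.pow_eq_one, ← pow_eq_pow_mod _ hμ.pow_eq_one, h1])
  have h2 := (ZMod.natCast_eq_natCast_iff _ _ _).mpr h3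
  rwa [ZMod.natCast_zmod_val] at h2

/-- If `φ ζ = ζ ^ N` then `χ₁ φ = N mod ℓ₁`. -/
theorem chi1_coe_eq_of_apply_eq_pow {ζ : Ω} (hζ : IsPrimitiveRoot ζ (l1 * l2)) (φ : Ω ≃ₐ[K] Ω)
    (N : ℕ) (h : φ ζ = ζ ^ N) :
    ((chi1 K hζ φ : (ZMod l1)ˣ) : ZMod l1) = (N : ZMod l1) := by
  apply coe_autToPow_eq_of_apply_eq_pow
  rw [map_pow, h, ← pow_mul, ← pow_mul, mul_comm]

/-- If `φ ζ = ζ ^ N` then `χ₂ φ = N mod ℓ₂`. -/
theorem chi2_coe_eq_of_apply_eq_pow {ζ : Ω} (hζ : IsPrimitiveRoot ζ (l1 * l2)) (φ : Ω ≃ₐ[K] Ω)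
    (N : ℕ) (h : φ ζ = ζ ^ N) :
    ((chi2 K hζ φ : (ZMod l2)ˣ) : ZMod l2) = (N : ZMod l2) := by
  apply coe_autToPow_eq_of_apply_eq_pow
  rw [map_pow, h, ← pow_mul, ← pow_mul, mul_comm]

/-- `hord` of `CrossingLink`, for `χ₁`. -/
theorem dvd_orderOf_chi1 {ζ : Ω} (hζ : IsPrimitiveRoot ζ (l1 * l2)) (φ : Ω ≃ₐ[K] Ω)
    (N : ℕ) (h : φ ζ = ζ ^ N) {p : ℕ} (ho : p ∣ orderOf (N : ZMod l1)) :
    p ∣ orderOf (chi1 K hζ φ) := by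
  rwa [← orderOf_units, chi1_coe_eq_of_apply_eq_pow hζ φ N h]

/-- `hord` of `CrossingLink`, for `χ₂`. -/
theorem dvd_orderOf_chi2 {ζ : Ω} (hζ : IsPrimitiveRoot ζ (l1 * l2)) (φ : Ω ≃ₐ[K] Ω)
    (N : ℕ) (h : φ ζ = ζ ^ N) {p : ℕ} (ho : p ∣ orderOf (N : ZMod l2)) :
    p ∣ orderOf (chi2 K hζ φ) := by
  rwa [← orderOf_units, chi2_coe_eq_of_apply_eq_pow hζ φ N h]

/-- An automorphism fixing `ζ` has trivial characters. -/
theorem chi1_eq_one_of_apply_eq {ζ : Ω} (hζ : IsPrimitiveRoot ζ (l1 * l2)) (σ : Ω ≃ₐ[K] Ω)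
    (h : σ ζ = ζ) : chi1 K hζ σ = 1 := by
  apply Units.ext
  rw [chi1_coe_eq_of_apply_eq_pow hζ σ 1 (by rw [h, pow_one]), Nat.cast_one, Units.val_one]

theorem chi2_eq_one_of_apply_eq {ζ : Ω} (hζ : IsPrimitiveRoot ζ (l1 * l2)) (σ : Ω ≃ₐ[K] Ω)
    (h : σ ζ = ζ) : chi2 K hζ σ = 1 := by
  apply Units.ext
  rw [chi2_coe_eq_of_apply_eq_pow hζ σ 1 (by rw [h, pow_one]), Nat.cast_one, Units.val_one]

/-- Trivial `χ₁`: `σ` fixes `ζ ^ ℓ₂`. -/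
theorem apply_pow_right_eq_of_chi1_eq_one (h1 : 1 < l1) {ζ : Ω}
    (hζ : IsPrimitiveRoot ζ (l1 * l2)) (σ : Ω ≃ₐ[K] Ω) (h : chi1 K hζ σ = 1) :
    σ (ζ ^ l2) = ζ ^ l2 := by
  have : Fact (1 < l1) := ⟨h1⟩
  rw [← chi1_spec hζ σ, h, Units.val_one, ZMod.val_one, pow_one]

theorem apply_pow_left_eq_of_chi2_eq_one (h2 : 1 < l2) {ζ : Ω}
    (hζ : IsPrimitiveRoot ζ (l1 * l2)) (σ : Ω ≃ₐ[K] Ω) (h : chi2 K hζ σ = 1) :
    σ (ζ ^ l1) = ζ ^ l1 := by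
  have : Fact (1 < l2) := ⟨h2⟩
  rw [← chi2_spec hζ σ, h, Units.val_one, ZMod.val_one, pow_one]

/-- Both characters trivial: `σ` fixes `ζ`. -/
theorem apply_zeta_eq_of_chi_eq_one (h1 : 1 < l1) (h2 : 1 < l2) (hcop : Nat.Coprime l1 l2)
    {ζ : Ω} (hζ : IsPrimitiveRoot ζ (l1 * l2)) (σ : Ω ≃ₐ[K] Ω)
    (hc1 : chi1 K hζ σ = 1) (hc2 : chi2 K hζ σ = 1) : σ ζ = ζ := by
  have e1 := apply_pow_right_eq_of_chi1_eq_one h1 hζ σ hc1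
  have e2 := apply_pow_left_eq_of_chi2_eq_one h2 hζ σ hc2
  have hcop' : IsCoprime (l1 : ℤ) (l2 : ℤ) := Nat.isCoprime_iff_coprime.mpr hcop
  obtain ⟨a, b, hab⟩ := hcop'
  have hζ0 : ζ ≠ 0 := hζ.ne_zero (Nat.mul_ne_zero (NeZero.ne l1) (NeZero.ne l2))
  have key : ζ = (ζ ^ l1) ^ a * (ζ ^ l2) ^ b := by
    rw [← zpow_natCast ζ l1, ← zpow_natCast ζ l2, ← zpow_mul, ← zpow_mul, ← zpow_add₀ hζ0,
      mul_comm (l1 : ℤ), mul_comm (l2 : ℤ), hab, zpow_one]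
  calc σ ζ = σ ((ζ ^ l1) ^ a * (ζ ^ l2) ^ b) := by rw [← key]
    _ = (σ (ζ ^ l1)) ^ a * (σ (ζ ^ l2)) ^ b := by rw [map_mul, map_zpow₀, map_zpow₀]
    _ = ζ := by rw [e1, e2, ← key]

end chars

/-! ### Joint injectivity and surjectivity of `(res, χ₁, χ₂)` -/

section main

variable {K M Ω : Type*} [Field K] [Field M] [Field Ω] [Algebra K M] [Algebra K Ω] [Algebra M Ω]
  [IsScalarTower K M Ω] {l1 l2 : ℕ} [NeZero l1] [NeZero l2]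

/-- **`hinj` of `CrossingLink`.**  An element of `Gal(Ω/K)` trivial on `M` and with trivial
characters mod `ℓ₁` and `ℓ₂` is trivial. -/
theorem eq_one_of_res_chi [Normal K M] [IsCyclotomicExtension {l1 * l2} M Ω]
    (h1 : 1 < l1) (h2 : 1 < l2) (hcop : Nat.Coprime l1 l2)
    {ζ : Ω} (hζ : IsPrimitiveRoot ζ (l1 * l2)) (γ : Ω ≃ₐ[K] Ω)
    (hres : AlgEquiv.restrictNormalHom M γ = 1) (hc1 : chi1 K hζ γ = 1)
    (hc2 : chi2 K hζ γ = 1) : γ = 1 := by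
  have : NeZero (l1 * l2) := ⟨Nat.mul_ne_zero (NeZero.ne l1) (NeZero.ne l2)⟩
  refine CrossingDisjoint.algEquiv_ext_of_apply_zeta K M (l1 * l2) Ω hζ (fun x => ?_) ?_
  · have := AlgEquiv.restrictNormal_commutes γ M x
    rw [← this]
    have h' : γ.restrictNormal M = 1 := hres
    rw [h']
    rfl
  · rw [apply_zeta_eq_of_chi_eq_one h1 h2 hcop hζ γ hc1 hc2]
    rfl

/-- An element of `Gal(Ω/K)` with nontrivial restriction to `M` moves an element of `M`. -/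
theorem exists_apply_ne_of_res_ne_one [Normal K M] (σ : Ω ≃ₐ[K] Ω)
    (h : AlgEquiv.restrictNormalHom M σ ≠ 1) :
    ∃ y : M, σ (algebraMap M Ω y) ≠ algebraMap M Ω y := by
  by_contra hcon
  push Not at hcon
  apply h
  ext y
  apply (algebraMap M Ω).injective
  show algebraMap M Ω (σ.restrictNormal M y) = _
  rw [AlgEquiv.restrictNormal_commutes, hcon y]
  rfl

/-- **`hsurj` of `CrossingLink`.**  Every triple `(s, u₁, u₂)` in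
`Gal(M/K) × (ℤ/ℓ₁)ˣ × (ℤ/ℓ₂)ˣ` is realised by an element of `Gal(Ω/K)`. -/
theorem exists_res_chi_eq [NumberField M] [Normal K M] [IsCyclotomicExtension {l1 * l2} M Ω]
    (hcop : Nat.Coprime l1 l2)
    (hdisc : Nat.Coprime (l1 * l2) (discr M).natAbs)
    {ζ : Ω} (hζ : IsPrimitiveRoot ζ (l1 * l2))
    (s : M ≃ₐ[K] M) (u1 : (ZMod l1)ˣ) (u2 : (ZMod l2)ˣ) :
    ∃ σ : Ω ≃ₐ[K] Ω, AlgEquiv.restrictNormalHom M σ = s ∧ chi1 K hζ σ = u1 ∧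
      chi2 K hζ σ = u2 := by
  have : NeZero (l1 * l2) := ⟨Nat.mul_ne_zero (NeZero.ne l1) (NeZero.ne l2)⟩
  -- Chinese remainder theorem
  obtain ⟨a, ha1, ha2⟩ := Nat.chineseRemainder hcop (u1 : ZMod l1).val (u2 : ZMod l2).val
  have hc1 : ((a : ℕ) : ZMod l1) = (u1 : ZMod l1) := by
    rw [(ZMod.natCast_eq_natCast_iff _ _ _).mpr ha1, ZMod.natCast_zmod_val]
  have hc2 : ((a : ℕ) : ZMod l2) = (u2 : ZMod l2) := by
    rw [(ZMod.natCast_eq_natCast_iff _ _ _).mpr ha2, ZMod.natCast_zmod_val]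
  have hcop1 : a.Coprime l1 := by
    rw [← ZMod.isUnit_iff_coprime, hc1]; exact u1.isUnit
  have hcop2 : a.Coprime l2 := by
    rw [← ZMod.isUnit_iff_coprime, hc2]; exact u2.isUnit
  have hcopa : a.Coprime (l1 * l2) := Nat.Coprime.mul_right hcop1 hcop2
  obtain ⟨σ, hσ1, hσ2⟩ :=
    CrossingDisjoint.exists_algEquiv_restrictNormal_eq_and_apply_eq_pow K M (l1 * l2) Ω hdisc hζ s
      (ZMod.unitOfCoprime a hcopa)
  rw [ZMod.coe_unitOfCoprime, ZMod.val_natCast] at hσ2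
  have hσ3 : σ ζ = ζ ^ a := by
    rw [hσ2]
    exact pow_eq_pow_of_modEq (Nat.mod_modEq _ _) hζ.pow_eq_one
  refine ⟨σ, hσ1, ?_, ?_⟩
  · apply Units.ext
    rw [chi1_coe_eq_of_apply_eq_pow hζ σ a hσ3, hc1]
  · apply Units.ext
    rw [chi2_coe_eq_of_apply_eq_pow hζ σ a hσ3, hc2]

end main

end Fermat.Agent.S14.CrossingChar
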