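import Mathlib

/-!
# S14, block (C): the group theory of the LINKING lemma of the crossing argument

`Γ = Gal(Ω/K)` with `Ω = M(ζ_{ℓ₁ℓ₂})`, `res : Γ → G = Gal(M/K)` (prime order `p`),
`χ₁ χ₂` the cyclotomic characters mod `ℓ₁`, `ℓ₂`.  For `φ : Γ` (a Frobenius) and "its own"
character `χ` put `crossH res χ φ = ⟨φ⟩ ⊔ (ker res ⊓ ker χ)`; its fixed field is the auxiliary
field `F ⊆ M(ζ_ℓ)` of the crossing argument, seen inside `Ω`.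

* `crossH_inf_ker_eq_bot` : `H ⊓ (ker χ ⊓ ker χ') = ⊥`            (`⇒ Ω = F(ζ_{ℓ₁ℓ₂})`)
* `exists_mem_crossH_res_eq` : `res` maps `H` onto `G`              (`⇒ M ∩ F = K`, `Gal(MF/F) = G`)
* `exists_mem_inf_res_ne_one` : `∃ σ ∈ H₁ ⊓ H₂, res σ ≠ 1`          (`⇒ M ⊄ F₁F₂`)
* the same two properties for `H₁ ⊓ H₂`.
-/

set_option autoImplicit false

namespace Fermat.Agent.S14.CrossingLink

variable {Γ G U U' : Type*} [Group Γ] [Group G] [CommGroup U] [CommGroup U']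

/-- The subgroup `⟨φ⟩ ⊔ (ker res ⊓ ker χ)` of `Γ`. -/
def crossH (res : Γ →* G) (χ : Γ →* U) (φ : Γ) : Subgroup Γ :=
  Subgroup.zpowers φ ⊔ (res.ker ⊓ χ.ker)

theorem self_mem_crossH (res : Γ →* G) (χ : Γ →* U) (φ : Γ) : φ ∈ crossH res χ φ :=
  Subgroup.mem_sup_left (Subgroup.mem_zpowers φ)

theorem mem_crossH_of_ker {res : Γ →* G} {χ : Γ →* U} {φ γ : Γ} (h1 : res γ = 1)
    (h2 : χ γ = 1) : γ ∈ crossH res χ φ :=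
  Subgroup.mem_sup_right ⟨MonoidHom.mem_ker.mpr h1, MonoidHom.mem_ker.mpr h2⟩

theorem mem_crossH_iff {res : Γ →* G} {χ : Γ →* U} {φ γ : Γ} :
    γ ∈ crossH res χ φ ↔ ∃ b : ℤ, ∃ n : Γ, res n = 1 ∧ χ n = 1 ∧ γ = φ ^ b * n := by
  unfold crossH
  rw [← SetLike.mem_coe, Subgroup.mul_normal, Set.mem_mul]
  constructor
  · rintro ⟨y, ⟨b, rfl⟩, n, hn, rfl⟩
    exact ⟨b, n, MonoidHom.mem_ker.mp hn.1, MonoidHom.mem_ker.mp hn.2, rfl⟩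
  · rintro ⟨b, n, h1, h2, rfl⟩
    exact ⟨φ ^ b, ⟨b, rfl⟩, n, ⟨MonoidHom.mem_ker.mpr h1, MonoidHom.mem_ker.mpr h2⟩, rfl⟩

/-- `γ ∈ H` as soon as `γ` agrees with a power of `φ` under `res` and `χ`. -/
theorem mem_crossH_of_eq_zpow {res : Γ →* G} {χ : Γ →* U} {φ γ : Γ} (b : ℤ)
    (h1 : res γ = res φ ^ b) (h2 : χ γ = χ φ ^ b) : γ ∈ crossH res χ φ := by
  rw [mem_crossH_iff]
  refine ⟨b, (φ ^ b)⁻¹ * γ, ?_, ?_, by group⟩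
  · rw [map_mul, map_inv, map_zpow, h1, inv_mul_cancel]
  · rw [map_mul, map_inv, map_zpow, h2, inv_mul_cancel]

section prime

variable {p : ℕ} [hp : Fact p.Prime]

theorem pow_card_eq_one_of_card (hG : Nat.card G = p) (g : G) : g ^ p = 1 := by
  have : Finite G := Nat.finite_of_card_ne_zero (by rw [hG]; exact hp.out.ne_zero)
  rw [← hG]
  exact pow_card_eq_one'

theorem exists_zpow_eq_of_card (hG : Nat.card G = p) {g₀ : G} (hg₀ : g₀ ≠ 1) (g : G) :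
    ∃ k : ℤ, g₀ ^ k = g := by
  have : Finite G := Nat.finite_of_card_ne_zero (by rw [hG]; exact hp.out.ne_zero)
  have hz : Subgroup.zpowers g₀ = ⊤ := zpowers_eq_top_of_prime_card hG hg₀
  have hmem : g ∈ Subgroup.zpowers g₀ := by rw [hz]; trivial
  exact hmem

/-- **(i)** `H ⊓ (ker χ ⊓ ker χ') = ⊥`: an element of `H` fixing `ζ_{ℓ₁ℓ₂}` is trivial. -/
theorem crossH_inf_ker_eq_bot (res : Γ →* G) (χ : Γ →* U) (χ' : Γ →* U') (φ : Γ)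
    (hG : Nat.card G = p)
    (hinj : ∀ γ : Γ, res γ = 1 → χ γ = 1 → χ' γ = 1 → γ = 1)
    (hord : p ∣ orderOf (χ φ)) :
    crossH res χ φ ⊓ (χ.ker ⊓ χ'.ker) = ⊥ := by
  rw [eq_bot_iff]
  intro γ hγ
  rw [Subgroup.mem_bot]
  obtain ⟨hγH, hγ12⟩ := Subgroup.mem_inf.mp hγ
  obtain ⟨hγ1, hγ2⟩ := Subgroup.mem_inf.mp hγ12
  rw [MonoidHom.mem_ker] at hγ1 hγ2
  obtain ⟨b, n, hn1, hn2, rfl⟩ := mem_crossH_iff.mp hγH
  have hb : χ φ ^ b = 1 := by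
    have := hγ1
    rwa [map_mul, map_zpow, hn2, mul_one] at this
  have hpb : (p : ℤ) ∣ b :=
    (Int.natCast_dvd_natCast.mpr hord).trans (orderOf_dvd_iff_zpow_eq_one.mpr hb)
  have hres : res φ ^ b = 1 := by
    obtain ⟨c, rfl⟩ := hpb
    rw [zpow_mul, zpow_natCast, pow_card_eq_one_of_card hG, one_zpow]
  apply hinj _ _ hγ1 hγ2
  rw [map_mul, map_zpow, hres, hn1, mul_one]

/-- **(ii)** `res` maps `H` onto `G`. -/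
theorem exists_mem_crossH_res_eq (res : Γ →* G) (χ : Γ →* U) (φ : Γ) (hG : Nat.card G = p)
    (hφ : res φ ≠ 1) (g : G) : ∃ γ ∈ crossH res χ φ, res γ = g := by
  obtain ⟨k, hk⟩ := exists_zpow_eq_of_card hG hφ g
  exact ⟨φ ^ k, Subgroup.mem_sup_left ⟨k, rfl⟩, by rw [map_zpow, hk]⟩

/-- **(iii)** the two crossing subgroups share an element acting nontrivially on `M`. -/
theorem exists_mem_inf_res_ne_one (res : Γ →* G) (χ₁ : Γ →* U) (χ₂ : Γ →* U') (φ₁ φ₂ : Γ)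
    (hG : Nat.card G = p)
    (hsurj : ∀ (g : G) (u : U) (u' : U'), ∃ σ : Γ, res σ = g ∧ χ₁ σ = u ∧ χ₂ σ = u')
    (hφ₁ : res φ₁ ≠ 1) (hφ₂ : res φ₂ ≠ 1) :
    ∃ σ : Γ, σ ∈ crossH res χ₁ φ₁ ⊓ crossH res χ₂ φ₂ ∧ res σ ≠ 1 := by
  obtain ⟨x, hx⟩ := exists_zpow_eq_of_card hG hφ₂ (res φ₁)
  obtain ⟨σ, hσ0, hσ1, hσ2⟩ := hsurj (res φ₁) (χ₁ φ₁) (χ₂ φ₂ ^ x)
  refine ⟨σ, ⟨?_, ?_⟩, by rw [hσ0]; exact hφ₁⟩
  · exact mem_crossH_of_eq_zpow 1 (by rw [hσ0, zpow_one]) (by rw [hσ1, zpow_one])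
  · exact mem_crossH_of_eq_zpow x (by rw [hσ0, hx]) hσ2

/-- **(i) for `H₁ ⊓ H₂`.** -/
theorem inf_inf_ker_eq_bot (res : Γ →* G) (χ₁ : Γ →* U) (χ₂ : Γ →* U') (φ₁ φ₂ : Γ)
    (hG : Nat.card G = p)
    (hinj : ∀ γ : Γ, res γ = 1 → χ₁ γ = 1 → χ₂ γ = 1 → γ = 1)
    (hord : p ∣ orderOf (χ₁ φ₁)) :
    (crossH res χ₁ φ₁ ⊓ crossH res χ₂ φ₂) ⊓ (χ₁.ker ⊓ χ₂.ker) = ⊥ := by
  rw [eq_bot_iff, ← crossH_inf_ker_eq_bot res χ₁ χ₂ φ₁ hG hinj hord]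
  exact inf_le_inf_right _ inf_le_left

/-- **(ii) for `H₁ ⊓ H₂`.** -/
theorem exists_mem_inf_res_eq (res : Γ →* G) (χ₁ : Γ →* U) (χ₂ : Γ →* U') (φ₁ φ₂ : Γ)
    (hG : Nat.card G = p)
    (hsurj : ∀ (g : G) (u : U) (u' : U'), ∃ σ : Γ, res σ = g ∧ χ₁ σ = u ∧ χ₂ σ = u')
    (hφ₁ : res φ₁ ≠ 1) (hφ₂ : res φ₂ ≠ 1) (g : G) :
    ∃ γ ∈ crossH res χ₁ φ₁ ⊓ crossH res χ₂ φ₂, res γ = g := by
  obtain ⟨σ, hσ, hσ1⟩ := exists_mem_inf_res_ne_one res χ₁ χ₂ φ₁ φ₂ hG hsurj hφ₁ hφ₂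
  obtain ⟨k, hk⟩ := exists_zpow_eq_of_card hG hσ1 g
  exact ⟨σ ^ k, Subgroup.zpow_mem _ hσ k, by rw [map_zpow, hk]⟩

end prime

end Fermat.Agent.S14.CrossingLink
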