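import Mathlib
import Fermat.Agent.S14.CrossingChar
import Fermat.Agent.S14.CrossingLink

/-!
# S14, block (C), row T6 in SUBGROUP form (backup of helper67's `CrossingLinkField`), helper54

The two crossing subgroups `H_i = ⟨φ_i⟩ ⊔ (ker res ⊓ ker χ_i)` of `Gal(Ω/K)`, `Ω = M(ζ_{ℓ₁ℓ₂})`,
in exactly the shape announced by the crossing sub-architect (report 1073).
-/

set_option autoImplicit false
set_option linter.unusedSectionVars false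

namespace Fermat.Agent.S14.CrossingLinkFieldB

open NumberField Fermat.Agent.S14

variable {K M Ω : Type} [Field K] [NumberField K] [Field M] [NumberField M] [Field Ω]
  [NumberField Ω] [Algebra K M] [Algebra K Ω] [Algebra M Ω] [IsScalarTower K M Ω] [IsGalois K M]
  [IsGalois K Ω]

/-- **T6, subgroup form.** -/
theorem exists_subgroups (l1 l2 : ℕ) [Fact l1.Prime] [Fact l2.Prime] (hne : l1 ≠ l2)
    [IsCyclotomicExtension {l1 * l2} M Ω]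
    (hdisc : Nat.Coprime (l1 * l2) (NumberField.discr M).natAbs) {p : ℕ} [Fact p.Prime]
    (hdeg : Module.finrank K M = p) (ζ : Ω) (hζ : IsPrimitiveRoot ζ (l1 * l2))
    (φ1 φ2 : Ω ≃ₐ[K] Ω) (N1 N2 : ℕ) (h1 : AlgEquiv.restrictNormalHom M φ1 ≠ 1)
    (h2 : AlgEquiv.restrictNormalHom M φ2 ≠ 1) (h1ζ : φ1 ζ = ζ ^ N1) (h2ζ : φ2 ζ = ζ ^ N2)
    (ho1 : p ∣ orderOf (N1 : ZMod l1)) (ho2 : p ∣ orderOf (N2 : ZMod l2)) :
    ∃ H1 H2 : Subgroup (Ω ≃ₐ[K] Ω), φ1 ∈ H1 ∧ φ2 ∈ H2 ∧ (∀ γ ∈ H1, γ ζ = ζ → γ = 1) ∧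
      (∀ γ ∈ H2, γ ζ = ζ → γ = 1) ∧
      ∀ g : M ≃ₐ[K] M, ∃ γ ∈ H1 ⊓ H2, AlgEquiv.restrictNormalHom M γ = g := by
  have hl1 : l1.Prime := Fact.out
  have hl2 : l2.Prime := Fact.out
  have hcop : Nat.Coprime l1 l2 := (Nat.coprime_primes hl1 hl2).mpr hne
  have hG : Nat.card (M ≃ₐ[K] M) = p := by rw [IsGalois.card_aut_eq_finrank, hdeg]
  set res : (Ω ≃ₐ[K] Ω) →* (M ≃ₐ[K] M) := AlgEquiv.restrictNormalHom M with hres
  set χ1 := CrossingChar.chi1 K hζ with hχ1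
  set χ2 := CrossingChar.chi2 K hζ with hχ2
  have hinj : ∀ γ : Ω ≃ₐ[K] Ω, res γ = 1 → χ1 γ = 1 → χ2 γ = 1 → γ = 1 := fun γ a b c =>
    CrossingChar.eq_one_of_res_chi hl1.one_lt hl2.one_lt hcop hζ γ a b c
  have hinj' : ∀ γ : Ω ≃ₐ[K] Ω, res γ = 1 → χ2 γ = 1 → χ1 γ = 1 → γ = 1 := fun γ a b c =>
    hinj γ a c b
  have hsurj : ∀ (g : M ≃ₐ[K] M) (u : (ZMod l1)ˣ) (u' : (ZMod l2)ˣ),
      ∃ σ : Ω ≃ₐ[K] Ω, res σ = g ∧ χ1 σ = u ∧ χ2 σ = u' := fun g u u' =>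
    CrossingChar.exists_res_chi_eq hcop hdisc hζ g u u'
  have hbot1 := CrossingLink.crossH_inf_ker_eq_bot res χ1 χ2 φ1 hG hinj
    (CrossingChar.dvd_orderOf_chi1 hζ φ1 N1 h1ζ ho1)
  have hbot2 := CrossingLink.crossH_inf_ker_eq_bot res χ2 χ1 φ2 hG hinj'
    (CrossingChar.dvd_orderOf_chi2 hζ φ2 N2 h2ζ ho2)
  refine ⟨CrossingLink.crossH res χ1 φ1, CrossingLink.crossH res χ2 φ2,
    CrossingLink.self_mem_crossH _ _ _, CrossingLink.self_mem_crossH _ _ _, ?_, ?_, ?_⟩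
  · intro γ hγ hγζ
    have : γ ∈ CrossingLink.crossH res χ1 φ1 ⊓ (χ1.ker ⊓ χ2.ker) :=
      ⟨hγ, MonoidHom.mem_ker.mpr (CrossingChar.chi1_eq_one_of_apply_eq hζ γ hγζ),
        MonoidHom.mem_ker.mpr (CrossingChar.chi2_eq_one_of_apply_eq hζ γ hγζ)⟩
    rw [hbot1] at this
    exact Subgroup.mem_bot.mp this
  · intro γ hγ hγζ
    have : γ ∈ CrossingLink.crossH res χ2 φ2 ⊓ (χ2.ker ⊓ χ1.ker) :=
      ⟨hγ, MonoidHom.mem_ker.mpr (CrossingChar.chi2_eq_one_of_apply_eq hζ γ hγζ),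
        MonoidHom.mem_ker.mpr (CrossingChar.chi1_eq_one_of_apply_eq hζ γ hγζ)⟩
    rw [hbot2] at this
    exact Subgroup.mem_bot.mp this
  · intro g
    exact CrossingLink.exists_mem_inf_res_eq res χ1 χ2 φ1 φ2 hG hsurj h1 h2 g

end Fermat.Agent.S14.CrossingLinkFieldB
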