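/-
S14 block (D), functoriality of the Artin map against the ABSTRACT interface `IsArtinMap`
(file `Defs.lean`), as assigned by the S14 architect (master plan v1):

* `eq_of_forall_sub_mem`   : uniqueness (Unram): congruent mod one nonzero prime ⇒ equal;
* `monoidHom_ext_of_primes`: monoid homs on nonzero ideals of a Dedekind domain agreeing on
                             primes are equal;
* `pow_smul_sub_pow_mem`   : powers of a Frobenius-like element;
* `resHom_art_eq`          : **(D-bc)** base change: `(art' 𝔄)|_L = art (N_{E/K} 𝔄)`;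
* `art_conj`               : **(D-conj)** `art (τ|_K • I) = τ (art I) τ⁻¹` for `τ ∈ Gal(L/ℚ)`.

All statements are for an ARBITRARY `art` with `IsArtinMap K L art` (plus `Unram K L` for the
uniqueness).  Author: helper59.
-/
import Fermat.Agent.S14.Defs
import Fermat.Agent.S14.UnramBaseChange

set_option autoImplicit false
set_option linter.unusedSectionVars false

namespace Fermat.Agent.S14.ArtinMapFunctB

open NumberField nonZeroDivisors Pointwise Fermat.Agent.S14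
open Fermat.Agent.S14.UnramBaseChange (resHom algebraMap_resHom_smul)

section uniq

variable {K L : Type*} [Field K] [NumberField K] [Field L] [NumberField L] [Algebra K L]

/-- **Uniqueness.**  In an unramified extension, two elements of `Gal(L/K)` which are congruent
modulo one nonzero prime `P` of `𝓞 L` are equal. -/
theorem eq_of_forall_sub_mem (hU : Unram K L) {P : Ideal (𝓞 L)} (hP : P.IsPrime) (hP0 : P ≠ ⊥)
    {σ σ' : L ≃ₐ[K] L} (h : ∀ x : 𝓞 L, σ • x - σ' • x ∈ P) : σ = σ' := by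
  have hmem : σ * σ'⁻¹ ∈ P.inertia (L ≃ₐ[K] L) := by
    intro x
    have := h (σ'⁻¹ • x)
    simpa [mul_smul] using this
  have := hU P hP hP0 _ hmem
  exact mul_inv_eq_one.mp this

/-- Two monoid homs on the nonzero ideals of a Dedekind domain which agree on nonzero primes are
equal. -/
theorem monoidHom_ext_of_primes {R G : Type*} [CommRing R] [IsDedekindDomain R] [Monoid G]
    (f g : (Ideal R)⁰ →* G)
    (h : ∀ v : (Ideal R)⁰, (v : Ideal R).IsPrime → f v = g v) : f = g := by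
  ext I
  obtain ⟨I, hI⟩ := I
  have hI0 : I ≠ 0 := nonZeroDivisors.ne_zero hI
  induction I using UniqueFactorizationMonoid.induction_on_prime with
  | h₁ => exact absurd rfl hI0
  | h₂ x hx =>
    have : (⟨x, hI⟩ : (Ideal R)⁰) = 1 := by
      ext1
      change x = 1
      rw [Ideal.one_eq_top]
      exact Ideal.isUnit_iff.mp hx
    rw [this, map_one, map_one]
  | h₃ a p ha hp ih =>
    have hp0 : p ≠ 0 := hp.ne_zero
    have hpm : p ∈ (Ideal R)⁰ := mem_nonZeroDivisors_of_ne_zero hp0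
    have ham : a ∈ (Ideal R)⁰ := mem_nonZeroDivisors_of_ne_zero ha
    have : (⟨p * a, hI⟩ : (Ideal R)⁰) = ⟨p, hpm⟩ * ⟨a, ham⟩ := rfl
    rw [this, map_mul, map_mul, ih ham ha, h ⟨p, hpm⟩ (Ideal.isPrime_of_prime hp)]

end uniq

/-- Powers of a Frobenius-like element: if `s • x ≡ x ^ q (mod P)` for all `x`, then
`s ^ k • x ≡ x ^ (q ^ k) (mod P)` for all `x`. -/
theorem pow_smul_sub_pow_mem {S G : Type*} [CommRing S] [Group G] [MulSemiringAction G S]
    (P : Ideal S) (s : G) (q : ℕ) (h : ∀ x : S, s • x - x ^ q ∈ P) (k : ℕ) :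
    ∀ x : S, (s ^ k) • x - x ^ (q ^ k) ∈ P := by
  induction k with
  | zero => intro x; simp
  | succ k ih =>
    intro x
    have h1 : (s ^ k) • (s • x) - (s • x) ^ (q ^ k) ∈ P := ih (s • x)
    have h2 : (s • x) ^ (q ^ k) - (x ^ q) ^ (q ^ k) ∈ P :=
      Ideal.mem_of_dvd P (sub_dvd_pow_sub_pow (s • x) (x ^ q) (q ^ k)) (h x)
    have h3 : (s ^ (k + 1)) • x - x ^ (q ^ (k + 1)) =
        ((s ^ k) • (s • x) - (s • x) ^ (q ^ k)) + ((s • x) ^ (q ^ k) - (x ^ q) ^ (q ^ k)) := by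
      rw [pow_succ s k, mul_smul, pow_succ q k, ← pow_mul, mul_comm (q ^ k) q]
      ring
    rw [h3]
    exact P.add_mem h1 h2

section baseChange

variable {K L E L' : Type*} [Field K] [NumberField K] [Field L] [NumberField L]
  [Field E] [NumberField E] [Field L'] [NumberField L']
  [Algebra K L] [Algebra K E] [Algebra L L'] [Algebra E L'] [Algebra K L']
  [IsScalarTower K L L'] [IsScalarTower K E L'] [IsGalois K L] [IsGalois E L']

/-- The relative norm as a monoid hom on nonzero ideals. -/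
noncomputable def relNormHom (K E : Type*) [Field K] [NumberField K] [Field E] [NumberField E]
    [Algebra K E] : (Ideal (𝓞 E))⁰ →* (Ideal (𝓞 K))⁰ where
  toFun 𝔄 := ⟨Ideal.relNorm (𝓞 K) (𝔄 : Ideal (𝓞 E)), by
    rw [mem_nonZeroDivisors_iff_ne_zero, Ideal.zero_eq_bot, Ne, Ideal.relNorm_eq_bot_iff]
    exact nonZeroDivisors.ne_zero 𝔄.2⟩
  map_one' := by
    ext1
    simp
  map_mul' a b := by
    ext1
    simp

@[simp] theorem coe_relNormHom (𝔄 : (Ideal (𝓞 E))⁰) :
    ((relNormHom K E 𝔄 : (Ideal (𝓞 K))⁰) : Ideal (𝓞 K)) =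
      Ideal.relNorm (𝓞 K) (𝔄 : Ideal (𝓞 E)) := rfl

end baseChange

section baseChange

variable {K L E L' : Type*} [Field K] [NumberField K] [Field L] [NumberField L]
  [Field E] [NumberField E] [Field L'] [NumberField L']
  [Algebra K L] [Algebra K E] [Algebra L L'] [Algebra E L'] [Algebra K L']
  [IsScalarTower K L L'] [IsScalarTower K E L'] [IsGalois K L] [IsGalois E L']

theorem resHom_art_prime
    {art : (Ideal (𝓞 K))⁰ →* (L ≃ₐ[K] L)} (hart : IsArtinMap K L art) (hU : Unram K L)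
    {art' : (Ideal (𝓞 E))⁰ →* (L' ≃ₐ[E] L')} (hart' : IsArtinMap E L' art')
    (w : (Ideal (𝓞 E))⁰) (hw : (w : Ideal (𝓞 E)).IsPrime) :
    resHom (K := K) (L := L) (art' w) = art (relNormHom K E w) := by
  classical
  have hw0 : (w : Ideal (𝓞 E)) ≠ ⊥ := nonZeroDivisors.ne_zero w.2
  have hwmax : (w : Ideal (𝓞 E)).IsMaximal := hw.isMaximal hw0
  set v : Ideal (𝓞 K) := (w : Ideal (𝓞 E)).under (𝓞 K) with hv
  have hvp : v.IsPrime := Ideal.IsPrime.under _ _
  have hv0 : v ≠ ⊥ := Ideal.under_ne_bot _ hw0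
  have hvmax : v.IsMaximal := hvp.isMaximal hv0
  have hvm : v ∈ (Ideal (𝓞 K))⁰ := mem_nonZeroDivisors_of_ne_zero hv0
  have hwv : (w : Ideal (𝓞 E)).LiesOver v := ⟨rfl⟩
  set f := (w : Ideal (𝓞 E)).inertiaDeg (𝓞 K) with hf
  have hnorm : relNormHom K E w = (⟨v, hvm⟩ : (Ideal (𝓞 K))⁰) ^ f := by
    ext1
    rw [coe_relNormHom, SubmonoidClass.coe_pow]
    exact Ideal.relNorm_eq_pow_of_isMaximal (w : Ideal (𝓞 E)) v
  rw [hnorm, map_pow]
  -- primes above
  obtain ⟨P', hP'max, hP'w⟩ :=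
    Ideal.exists_maximal_ideal_liesOver_of_isIntegral (S := 𝓞 L') (w : Ideal (𝓞 E))
  have hP'p : P'.IsPrime := hP'max.isPrime
  have hP'0 : P' ≠ ⊥ := Ideal.ne_bot_of_liesOver_of_ne_bot hw0 P'
  set P : Ideal (𝓞 L) := P'.under (𝓞 L) with hP
  have hPp : P.IsPrime := Ideal.IsPrime.under _ _
  have hP0 : P ≠ ⊥ := Ideal.under_ne_bot _ hP'0
  have hP'v : P'.LiesOver v := Ideal.LiesOver.trans P' (w : Ideal (𝓞 E)) v
  have hPv : P.LiesOver v := Ideal.under_liesOver_of_liesOver (𝓞 L) P' v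
  -- Frobenius
  have h1 := hart'.frob w P' hw hP'p hP'w
  have h2 := hart.frob ⟨v, hvm⟩ P hvp hPp hPv
  set q := Nat.card (𝓞 K ⧸ v) with hq
  have hcard : Nat.card (𝓞 E ⧸ (w : Ideal (𝓞 E))) = q ^ f := by
    have := Ideal.absNorm_pow_inertiaDeg v (w : Ideal (𝓞 E))
    rw [Ideal.absNorm_apply, Ideal.absNorm_apply, Submodule.cardQuot_apply,
      Submodule.cardQuot_apply] at this
    exact this.symm
  have h1' : ∀ y : 𝓞 L', (art' w) • y - y ^ (q ^ f) ∈ P' := by
    intro y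
    have := h1 y
    rw [← Ideal.over_def P' (w : Ideal (𝓞 E)), hcard] at this
    exact this
  have h2' : ∀ x : 𝓞 L, (art ⟨v, hvm⟩) • x - x ^ q ∈ P := by
    intro x
    have := h2 x
    rw [← Ideal.over_def P v] at this
    exact this
  have h3 := pow_smul_sub_pow_mem P (art ⟨v, hvm⟩) q h2' f
  refine eq_of_forall_sub_mem hU hPp hP0 ?_
  intro x
  change algebraMap (𝓞 L) (𝓞 L') (_ - _) ∈ P'
  rw [map_sub, algebraMap_resHom_smul]
  have h4 : algebraMap (𝓞 L) (𝓞 L') ((art ⟨v, hvm⟩ ^ f) • x - x ^ (q ^ f)) ∈ P' := h3 x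
  rw [map_sub, map_pow] at h4
  have h5 := h1' (algebraMap (𝓞 L) (𝓞 L') x)
  have := P'.sub_mem h5 h4
  simpa using this

/-- **(D-bc) Base change of the Artin map**, hom form: restriction to `L` of the Artin symbol of
`𝔄` in `L'/E` is the Artin symbol of `N_{E/K} 𝔄` in `L/K`. -/
theorem resHom_art_eq_art_relNormHom
    {art : (Ideal (𝓞 K))⁰ →* (L ≃ₐ[K] L)} (hart : IsArtinMap K L art) (hU : Unram K L)
    {art' : (Ideal (𝓞 E))⁰ →* (L' ≃ₐ[E] L')} (hart' : IsArtinMap E L' art')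
    (𝔄 : (Ideal (𝓞 E))⁰) :
    resHom (K := K) (L := L) (art' 𝔄) = art (relNormHom K E 𝔄) := by
  have := monoidHom_ext_of_primes ((resHom (K := K) (L := L) (E := E) (L' := L')).comp art')
    (art.comp (relNormHom K E)) (fun w hw => resHom_art_prime hart hU hart' w hw)
  exact DFunLike.congr_fun this 𝔄

/-- **(D-bc) Base change of the Artin map**, in the shape of the S14 master plan. -/
theorem resHom_art_eq
    {art : (Ideal (𝓞 K))⁰ →* (L ≃ₐ[K] L)} (hart : IsArtinMap K L art) (hU : Unram K L)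
    {art' : (Ideal (𝓞 E))⁰ →* (L' ≃ₐ[E] L')} (hart' : IsArtinMap E L' art')
    (𝔄 : (Ideal (𝓞 E))⁰) (I : (Ideal (𝓞 K))⁰)
    (hI : (I : Ideal (𝓞 K)) = Ideal.relNorm (𝓞 K) (𝔄 : Ideal (𝓞 E))) :
    resHom (K := K) (L := L) (art' 𝔄) = art I := by
  rw [resHom_art_eq_art_relNormHom hart hU hart']
  congr 1
  exact Subtype.ext hI.symm

end baseChange

section conj

variable {K L : Type*} [Field K] [NumberField K] [Field L] [NumberField L] [Algebra K L]


/-- The action of `Gal(K/ℚ)` on nonzero ideals, as a monoid hom. -/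
noncomputable def smulHom (σ : K ≃ₐ[ℚ] K) : (Ideal (𝓞 K))⁰ →* (Ideal (𝓞 K))⁰ where
  toFun I := ⟨σ • (I : Ideal (𝓞 K)), by
    rw [mem_nonZeroDivisors_iff_ne_zero, Ne, smul_eq_zero_iff_eq]
    exact nonZeroDivisors.ne_zero I.2⟩
  map_one' := by
    ext1
    exact smul_one σ
  map_mul' a b := by
    ext1
    exact smul_mul' σ (a : Ideal (𝓞 K)) (b : Ideal (𝓞 K))

@[simp] theorem coe_smulHom (σ : K ≃ₐ[ℚ] K) (I : (Ideal (𝓞 K))⁰) :
    ((smulHom σ I : (Ideal (𝓞 K))⁰) : Ideal (𝓞 K)) = σ • (I : Ideal (𝓞 K)) := rfl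

/-- An automorphism of `L/ℚ` which fixes `K` pointwise, as an element of `Gal(L/K)`. -/
noncomputable def ofFixes (ρ : L ≃ₐ[ℚ] L)
    (h : ∀ k : K, ρ (algebraMap K L k) = algebraMap K L k) : L ≃ₐ[K] L :=
  AlgEquiv.ofRingEquiv (f := ρ.toRingEquiv) h

@[simp] theorem ofFixes_apply (ρ : L ≃ₐ[ℚ] L)
    (h : ∀ k : K, ρ (algebraMap K L k) = algebraMap K L k) (x : L) : ofFixes ρ h x = ρ x := rfl

theorem restrictScalars_ofFixes (ρ : L ≃ₐ[ℚ] L)
    (h : ∀ k : K, ρ (algebraMap K L k) = algebraMap K L k) :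
    (ofFixes ρ h).restrictScalars ℚ = ρ := by
  ext x
  rfl

theorem ofFixes_smul (ρ : L ≃ₐ[ℚ] L)
    (h : ∀ k : K, ρ (algebraMap K L k) = algebraMap K L k) (x : 𝓞 L) :
    ofFixes ρ h • x = ρ • x := by
  apply RingOfIntegers.ext
  rfl

theorem restrictScalars_smul (s : L ≃ₐ[K] L) (x : 𝓞 L) :
    (s.restrictScalars ℚ) • x = s • x := by
  apply RingOfIntegers.ext
  rfl

variable [Normal ℚ K]

/-- Compatibility of the actions on rings of integers with restriction to `K`. -/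
theorem smul_algebraMap_eq (τ : L ≃ₐ[ℚ] L) (x : 𝓞 K) :
    τ • (algebraMap (𝓞 K) (𝓞 L) x) = algebraMap (𝓞 K) (𝓞 L) ((τ.restrictNormal K) • x) := by
  apply RingOfIntegers.ext
  exact (AlgEquiv.restrictNormal_commutes τ K (x : K)).symm

theorem restrictNormal_inv (τ : L ≃ₐ[ℚ] L) :
    (τ⁻¹).restrictNormal K = (τ.restrictNormal K)⁻¹ :=
  map_inv (AlgEquiv.restrictNormalHom (F := ℚ) (K₁ := L) K) τ

/-- If `P` lies over `v` then `τ • P` lies over `τ|_K • v`. -/
theorem liesOver_smul (τ : L ≃ₐ[ℚ] L) (P : Ideal (𝓞 L)) (v : Ideal (𝓞 K)) [hPv : P.LiesOver v] :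
    (τ • P).LiesOver ((τ.restrictNormal K) • v) := by
  constructor
  ext x
  rw [Ideal.mem_pointwise_smul_iff_inv_smul_mem, Ideal.under_def, Ideal.mem_comap,
    Ideal.mem_pointwise_smul_iff_inv_smul_mem, smul_algebraMap_eq, restrictNormal_inv,
    ← Ideal.mem_of_liesOver P v]

theorem natCard_quotient_smul (σ : K ≃ₐ[ℚ] K) (v : Ideal (𝓞 K)) :
    Nat.card (𝓞 K ⧸ σ • v) = Nat.card (𝓞 K ⧸ v) := by
  have e := Ideal.quotientEquiv v (σ • v) (MulSemiringAction.toRingEquiv (K ≃ₐ[ℚ] K) (𝓞 K) σ)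
    (by rw [Ideal.pointwise_smul_def]; rfl)
  exact (Nat.card_congr e.toEquiv).symm

end conj

section conj

variable {K L : Type*} [Field K] [NumberField K] [Field L] [NumberField L] [Algebra K L]
  [IsGalois K L] [Normal ℚ K]

theorem art_smul_prime
    {art : (Ideal (𝓞 K))⁰ →* (L ≃ₐ[K] L)} (hart : IsArtinMap K L art) (hU : Unram K L)
    (τ : L ≃ₐ[ℚ] L) (v : (Ideal (𝓞 K))⁰) (hv : (v : Ideal (𝓞 K)).IsPrime) :
    (art (smulHom (τ.restrictNormal K) v)).restrictScalars ℚ =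
      τ * (art v).restrictScalars ℚ * τ⁻¹ := by
  classical
  set σ := τ.restrictNormal K with hσ
  have hv0 : (v : Ideal (𝓞 K)) ≠ ⊥ := nonZeroDivisors.ne_zero v.2
  have hvmax : (v : Ideal (𝓞 K)).IsMaximal := hv.isMaximal hv0
  obtain ⟨P, hPmax, hPv⟩ :=
    Ideal.exists_maximal_ideal_liesOver_of_isIntegral (S := 𝓞 L) (v : Ideal (𝓞 K))
  have hPp : P.IsPrime := hPmax.isPrime
  have hP0 : P ≠ ⊥ := Ideal.ne_bot_of_liesOver_of_ne_bot hv0 P
  -- the conjugate prime
  have hP'p : (τ • P).IsPrime := Ideal.IsPrime.smul τ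
  have hP'v : (τ • P).LiesOver (σ • (v : Ideal (𝓞 K))) := liesOver_smul τ P (v : Ideal (𝓞 K))
  have hv'p : (σ • (v : Ideal (𝓞 K))).IsPrime := Ideal.IsPrime.smul σ
  set s := art v with hs
  set s' := art (smulHom σ v) with hs'
  have h1 := hart.frob v P hv hPp hPv
  have h2 := hart.frob (smulHom σ v) (τ • P) hv'p hP'p hP'v
  set q := Nat.card (𝓞 K ⧸ (v : Ideal (𝓞 K))) with hq
  have h1' : ∀ x : 𝓞 L, s • x - x ^ q ∈ P := by
    intro x
    have := h1 x
    rw [← Ideal.over_def P (v : Ideal (𝓞 K))] at this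
    exact this
  have h2' : ∀ y : 𝓞 L, s' • y - y ^ q ∈ τ • P := by
    intro y
    have := h2 y
    rw [← Ideal.over_def (τ • P) (σ • (v : Ideal (𝓞 K))), natCard_quotient_smul] at this
    exact this
  -- the conjugate of `s'` fixes `K`
  have hfix : ∀ k : K, (τ⁻¹ * s'.restrictScalars ℚ * τ) (algebraMap K L k) = algebraMap K L k := by
    intro k
    change τ⁻¹ (s' (τ (algebraMap K L k))) = algebraMap K L k
    rw [← AlgEquiv.restrictNormal_commutes τ K k, s'.commutes, AlgEquiv.restrictNormal_commutes]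
    exact τ.symm_apply_apply _
  have hρ : ofFixes (τ⁻¹ * s'.restrictScalars ℚ * τ) hfix = s := by
    refine eq_of_forall_sub_mem hU hPp hP0 ?_
    intro x
    rw [ofFixes_smul, mul_smul, mul_smul, restrictScalars_smul]
    have h3 := h2' (τ • x)
    rw [Ideal.mem_pointwise_smul_iff_inv_smul_mem, smul_sub, smul_pow', inv_smul_smul] at h3
    have := P.sub_mem h3 (h1' x)
    simpa using this
  have := congrArg (AlgEquiv.restrictScalars ℚ) hρ
  rw [restrictScalars_ofFixes] at this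
  rw [← this]
  group

/-- **(D-conj)**, hom form. -/
theorem art_smulHom
    {art : (Ideal (𝓞 K))⁰ →* (L ≃ₐ[K] L)} (hart : IsArtinMap K L art) (hU : Unram K L)
    (τ : L ≃ₐ[ℚ] L) (I : (Ideal (𝓞 K))⁰) :
    (art (smulHom (τ.restrictNormal K) I)).restrictScalars ℚ =
      τ * (art I).restrictScalars ℚ * τ⁻¹ := by
  have := monoidHom_ext_of_primes
    ((AlgEquiv.restrictScalarsHom ℚ : (L ≃ₐ[K] L) →* (L ≃ₐ[ℚ] L)).comp
      (art.comp (smulHom (τ.restrictNormal K))))
    ((MulAut.conj τ).toMonoidHom.comp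
      ((AlgEquiv.restrictScalarsHom ℚ : (L ≃ₐ[K] L) →* (L ≃ₐ[ℚ] L)).comp art))
    (fun v hv => art_smul_prime hart hU τ v hv)
  exact DFunLike.congr_fun this I

/-- **(D-conj) Galois equivariance of the Artin map**, in the shape of the S14 master plan:
for `τ ∈ Gal(L/ℚ)` and `J = τ|_K • I`, `art J = τ (art I) τ⁻¹` in `Gal(L/ℚ)`. -/
theorem art_conj
    {art : (Ideal (𝓞 K))⁰ →* (L ≃ₐ[K] L)} (hart : IsArtinMap K L art) (hU : Unram K L)
    (τ : L ≃ₐ[ℚ] L) (I J : (Ideal (𝓞 K))⁰)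
    (hJ : (J : Ideal (𝓞 K)) = (τ.restrictNormal K) • (I : Ideal (𝓞 K))) :
    (art J).restrictScalars ℚ = τ * (art I).restrictScalars ℚ * τ⁻¹ := by
  rw [← art_smulHom hart hU τ I]
  congr 2
  exact Subtype.ext hJ

end conj

end Fermat.Agent.S14.ArtinMapFunctB
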