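/-
S14 — crossing block, row T1 (helper78): the field `L_X = M·X` inside `Ω` for an intermediate
field `X` of `Ω/K`, with the `Algebra`/`IsScalarTower` instances that make the abstract-tower
lemmas (`UnramBaseChange`, `ArtinMapFunctB`, `ClassNorm`, `BlockAux`) applicable to
`K ⊆ M`, `K ⊆ ↥X`, `↥X ⊆ ↥(LX M X)`, `M ⊆ ↥(LX M X)`, `↥(LX M X) ⊆ Ω`.
-/
import Fermat.Agent.S14.UnramBaseChange

set_option autoImplicit false

namespace Fermat.Agent.S14.CrossingTower

open NumberField Fermat.Agent.S14

variable {K Ω : Type*} [Field K] [Field Ω] [Algebra K Ω]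

/-- `L_X = M·X` inside `Ω`, as an intermediate field of `Ω/X`. -/
def LX (M : Type*) [Field M] [Algebra M Ω] (X : IntermediateField K Ω) :
    IntermediateField ↥X Ω :=
  IntermediateField.adjoin ↥X (Set.range (algebraMap M Ω))

variable {M : Type*} [Field M] [Algebra M Ω] (X : IntermediateField K Ω)

theorem algebraMap_mem_LX (y : M) : algebraMap M Ω y ∈ LX M X :=
  IntermediateField.subset_adjoin _ _ ⟨y, rfl⟩

/-- `M → L_X`. -/
noncomputable instance algebraLX : Algebra M ↥(LX M X) :=
  ((algebraMap M Ω).codRestrict (LX M X).toSubfield (algebraMap_mem_LX X)).toAlgebra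

@[simp]
theorem coe_algebraMap_LX (y : M) :
    ((algebraMap M ↥(LX M X) y : ↥(LX M X)) : Ω) = algebraMap M Ω y :=
  rfl

instance isScalarTower_LX_top : IsScalarTower M ↥(LX M X) Ω :=
  IsScalarTower.of_algebraMap_eq fun _ => rfl

instance isScalarTower_LX [Algebra K M] [IsScalarTower K M Ω] :
    IsScalarTower K M ↥(LX M X) := by
  refine IsScalarTower.of_algebraMap_eq fun x => ?_
  apply Subtype.ext
  rw [coe_algebraMap_LX, ← IsScalarTower.algebraMap_apply K M Ω]
  rfl

/-- `L_X` is the compositum of `M` and `X`. -/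
theorem isCompositum_LX : UnramBaseChange.IsCompositum M ↥X ↥(LX M X) := by
  unfold UnramBaseChange.IsCompositum
  apply IntermediateField.lift_injective (LX M X)
  rw [IntermediateField.lift_top, IntermediateField.lift_adjoin]
  have : (Subtype.val : ↥(LX M X) → Ω) '' Set.range (algebraMap M ↥(LX M X)) =
      Set.range (algebraMap M Ω) := by
    ext z
    constructor
    · rintro ⟨_, ⟨y, rfl⟩, rfl⟩
      exact ⟨y, rfl⟩
    · rintro ⟨y, rfl⟩
      exact ⟨algebraMap M ↥(LX M X) y, ⟨y, rfl⟩, rfl⟩
  rw [this]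
  rfl

section NumberFields

variable [NumberField K] [NumberField Ω]

example : NumberField ↥X := inferInstance
example : NumberField ↥(LX M X) := inferInstance
example : Algebra (𝓞 K) (𝓞 ↥X) := inferInstance
example : Algebra (𝓞 ↥X) (𝓞 ↥(LX M X)) := inferInstance
example : Algebra (𝓞 ↥X) (𝓞 Ω) := inferInstance
example : Algebra (𝓞 K) (𝓞 ↥(LX M X)) := inferInstance
example : IsScalarTower K ↥X ↥(LX M X) := inferInstance
example : IsScalarTower ↥X ↥(LX M X) Ω := inferInstance
example : IsScalarTower K ↥X Ω := inferInstance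

end NumberFields

end Fermat.Agent.S14.CrossingTower
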