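/-
S14 — crossing block, row T8 (helper56): the LINK STEP.

`X` an intermediate field of `Ω/K`, `L_X = M·X`; `Ω = X(ζ_m)`.  For ideals `𝔞, 𝔟` of `𝓞 X` prime
to `m` with norms `v = N 𝔞`, `w = N 𝔟` down to `K`:  `art v ^ a = art w ^ b` implies
`[v]^a [w]^(-b) ∈ normClasses K M`.

Proof: `L_X/X` is Galois of degree `p`, unramified (helper64 `UnramBaseChange`); `BlockD` gives its
Artin map `artX`; by base change (helper59 `resHom_art_eq`) and injectivity of restriction,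
`artX (𝔞^a) = artX (𝔟^b)`; `BlockAux` gives `[𝔞^a]/[𝔟^b] ∈ normClasses X L_X`; norm down with
helper61's `ClassNorm.mk0_relNorm0_div_mem`.
-/
import Fermat.Agent.S14.CrossingTower
import Fermat.Agent.S14.Blocks
import Fermat.Agent.S14.ClassNorm
import Fermat.Agent.S14.ArtinMapFunctB
import Fermat.Agent.S14.UnramBaseChange

set_option autoImplicit false

namespace Fermat.Agent.S14.CrossingStep

open NumberField nonZeroDivisors IntermediateField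
open Fermat.Agent.S14 Fermat.Agent.S14.CrossingTower Fermat.Agent.S14.UnramBaseChange

variable {K M Ω : Type} [Field K] [NumberField K] [Field M] [NumberField M] [Field Ω]
  [NumberField Ω] [Algebra K M] [Algebra K Ω] [Algebra M Ω] [IsScalarTower K M Ω]
  [IsGalois K M]

/-- **Row T8 of the crossing plan: the link step.** -/
theorem link_step (hD : BlockD) (hAux : BlockAux) {p : ℕ} (hp : p.Prime) (h3 : 3 ≤ p)
    (hζp : ∃ ζ : K, IsPrimitiveRoot ζ p) (hdeg : Module.finrank K M = p) (hU : Unram K M)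
    (art : (Ideal (𝓞 K))⁰ →* (M ≃ₐ[K] M)) (hart : IsArtinMap K M art)
    (X : IntermediateField K Ω) (hX : Module.finrank ↥X ↥(LX M X) ≠ 1)
    (m : ℕ) (hm : 0 < m) [hcyc : IsCyclotomicExtension {m} ↥X Ω]
    (𝔞 𝔟 : (Ideal (𝓞 ↥X))⁰)
    (h𝔞 : IsCoprime (𝔞 : Ideal (𝓞 ↥X)) (Ideal.span {(m : 𝓞 ↥X)}))
    (h𝔟 : IsCoprime (𝔟 : Ideal (𝓞 ↥X)) (Ideal.span {(m : 𝓞 ↥X)}))
    (v w : (Ideal (𝓞 K))⁰)
    (hv : (v : Ideal (𝓞 K)) = Ideal.relNorm (𝓞 K) (𝔞 : Ideal (𝓞 ↥X)))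
    (hw : (w : Ideal (𝓞 K)) = Ideal.relNorm (𝓞 K) (𝔟 : Ideal (𝓞 ↥X)))
    (a b : ℕ) (h : art v ^ a = art w ^ b) :
    ClassGroup.mk0 v ^ a * (ClassGroup.mk0 w ^ b)⁻¹ ∈ normClasses K M := by
  -- the compositum
  have hcomp : IsCompositum M ↥X ↥(LX M X) := isCompositum_LX (M := M) X
  have hgal : IsGalois ↥X ↥(LX M X) := isGalois_of_isCompositum (K := K) hcomp
  have hfin : Module.finrank ↥X ↥(LX M X) = p :=
    finrank_eq_of_prime (K := K) hcomp hp hdeg hX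
  have hUX : Unram ↥X ↥(LX M X) := unram_of_isCompositum (K := K) hcomp hU
  -- commutativity
  have hcard : Nat.card (M ≃ₐ[K] M) = p := by
    rw [IsGalois.card_aut_eq_finrank, hdeg]
  have : Fact p.Prime := ⟨hp⟩
  have hcycM : IsCyclic (M ≃ₐ[K] M) := isCyclic_of_prime_card hcard
  have hcommM : IsMulCommutative (M ≃ₐ[K] M) :=
    ⟨⟨fun a b => IsCyclic.commGroup.mul_comm a b⟩⟩
  have hcommX : IsMulCommutative (↥(LX M X) ≃ₐ[↥X] ↥(LX M X)) :=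
    isMulCommutative_of_isCompositum (K := K) hcomp
  -- Artin map of `LX/X`
  obtain ⟨artX, hartX⟩ := hD ↥X ↥(LX M X) hUX
  -- primitive root in `X`
  obtain ⟨ζ, hζ⟩ := hζp
  have hζX : ∃ ζ' : ↥X, IsPrimitiveRoot ζ' p :=
    ⟨algebraMap K ↥X ζ, hζ.map_of_injective (algebraMap K ↥X).injective⟩
  -- kernel ⊆ norms on ideals prime to `m`
  have hker := hAux ↥X ↥(LX M X) Ω p m hp h3 hm hcyc hζX hfin hUX artX hartX
  -- the two ideals `𝔞 ^ a`, `𝔟 ^ b`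
  have h𝔞a : (𝔞 ^ a) ∈ {I : (Ideal (𝓞 ↥X))⁰ | IsCoprime (I : Ideal (𝓞 ↥X))
      (Ideal.span {(m : 𝓞 ↥X)})} := by
    change IsCoprime ((𝔞 ^ a : (Ideal (𝓞 ↥X))⁰) : Ideal (𝓞 ↥X)) _
    rw [SubmonoidClass.coe_pow]
    exact IsCoprime.pow_left h𝔞
  have h𝔟b : (𝔟 ^ b) ∈ {I : (Ideal (𝓞 ↥X))⁰ | IsCoprime (I : Ideal (𝓞 ↥X))
      (Ideal.span {(m : 𝓞 ↥X)})} := by
    change IsCoprime ((𝔟 ^ b : (Ideal (𝓞 ↥X))⁰) : Ideal (𝓞 ↥X)) _
    rw [SubmonoidClass.coe_pow]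
    exact IsCoprime.pow_left h𝔟
  -- their Artin symbols agree
  have hva : ((v ^ a : (Ideal (𝓞 K))⁰) : Ideal (𝓞 K)) =
      Ideal.relNorm (𝓞 K) ((𝔞 ^ a : (Ideal (𝓞 ↥X))⁰) : Ideal (𝓞 ↥X)) := by
    rw [SubmonoidClass.coe_pow, SubmonoidClass.coe_pow, map_pow, hv]
  have hwb : ((w ^ b : (Ideal (𝓞 K))⁰) : Ideal (𝓞 K)) =
      Ideal.relNorm (𝓞 K) ((𝔟 ^ b : (Ideal (𝓞 ↥X))⁰) : Ideal (𝓞 ↥X)) := by
    rw [SubmonoidClass.coe_pow, SubmonoidClass.coe_pow, map_pow, hw]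
  have e1 := ArtinMapFunctB.resHom_art_eq hart hU hartX (𝔞 ^ a) (v ^ a) hva
  have e2 := ArtinMapFunctB.resHom_art_eq hart hU hartX (𝔟 ^ b) (w ^ b) hwb
  have hartEq : artX (𝔞 ^ a) = artX (𝔟 ^ b) := by
    apply resHom_injective (K := K) (L := M) hcomp
    rw [e1, e2, map_pow, map_pow, h]
  have hmem := hker (𝔞 ^ a) h𝔞a (𝔟 ^ b) h𝔟b hartEq
  -- norm down to `K`
  have hdown := ClassNorm.mk0_relNorm0_div_mem K M ↥X ↥(LX M X) hmem
  have ea : ClassNorm.relNorm0 K ↥X (𝔞 ^ a) = v ^ a := Subtype.ext hva.symm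
  have eb : ClassNorm.relNorm0 K ↥X (𝔟 ^ b) = w ^ b := Subtype.ext hwb.symm
  rw [ea, eb, map_pow, map_pow, div_eq_mul_inv] at hdown
  exact hdown

end Fermat.Agent.S14.CrossingStep
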