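/-
S14 — crossing block, row T9 (helper78's crossing plan v2).  Author: helper59.

`exists_w`: for an intermediate field `E` of `Ω/K` over which `M·E ≠ E`, there are degree-one
primes `𝔴` of `E` of arbitrarily large norm whose norm to `K` has nontrivial Artin symbol in
`Gal(M/K)`.  Proof: `BlockD` + `BlockZ` for `M·E/E` (Galois of degree `p`, unramified:
`UnramBaseChange`), then base change of the Artin map (`ArtinMapFunctB.resHom_art_eq`) and
injectivity of the restriction `Gal(M·E/E) → Gal(M/K)`.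
-/
import Fermat.Agent.S14.Blocks
import Fermat.Agent.S14.ArtinMapFunctB
import Fermat.Agent.S14.CrossingTower

set_option autoImplicit false

namespace Fermat.Agent.S14.CrossingW

open NumberField nonZeroDivisors Fermat.Agent.S14
open Fermat.Agent.S14.UnramBaseChange (IsCompositum resHom)
open Fermat.Agent.S14.CrossingTower (LX isCompositum_LX)

/-- **T9, abstract form.**  `M/K` unramified Galois of prime degree `p` with Artin map `art`;
`E ⊇ K` a number field, `L' = M·E` with `L' ≠ E`.  Then there are degree-one primes `𝔴` of `E` of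
arbitrarily large norm such that `art (N_{E/K} 𝔴) ≠ 1`. -/
theorem exists_w_of_isCompositum {K M E L' : Type} [Field K] [NumberField K] [Field M]
    [NumberField M] [Field E] [NumberField E] [Field L'] [NumberField L']
    [Algebra K M] [Algebra K E] [Algebra M L'] [Algebra E L'] [Algebra K L']
    [IsScalarTower K M L'] [IsScalarTower K E L'] [IsGalois K M]
    (hcomp : IsCompositum M E L') (hD : BlockD) (hZ : BlockZ) {p : ℕ} (hp : p.Prime)
    (hdeg : Module.finrank K M = p) (hU : Unram K M)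
    (art : (Ideal (𝓞 K))⁰ →* (M ≃ₐ[K] M)) (hart : IsArtinMap K M art)
    (hE : Module.finrank E L' ≠ 1) (N : ℕ) :
    ∃ 𝔴 : Ideal (𝓞 E), 𝔴.IsPrime ∧ 𝔴 ≠ ⊥ ∧ (Ideal.absNorm 𝔴).Prime ∧ N < Ideal.absNorm 𝔴 ∧
      ∀ w : (Ideal (𝓞 K))⁰, (w : Ideal (𝓞 K)) = Ideal.relNorm (𝓞 K) 𝔴 → art w ≠ 1 := by
  have hgal : IsGalois E L' := UnramBaseChange.isGalois_of_isCompositum (K := K) hcomp
  have hdeg' : Module.finrank E L' = p :=
    UnramBaseChange.finrank_eq_of_prime (K := K) hcomp hp hdeg hE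
  have hU' : Unram E L' := UnramBaseChange.unram_of_isCompositum (K := K) hcomp hU
  have hcard : Nat.card (L' ≃ₐ[E] L') = p := by
    rw [IsGalois.card_aut_eq_finrank, hdeg']
  have : Fact p.Prime := ⟨hp⟩
  have : IsCyclic (L' ≃ₐ[E] L') := isCyclic_of_prime_card hcard
  have : IsMulCommutative (L' ≃ₐ[E] L') := ⟨⟨fun a b => IsCyclic.commGroup.mul_comm a b⟩⟩
  obtain ⟨art', hart'⟩ := hD E L' hU'
  obtain ⟨Q, hQp, hQn, hQlt, hQ1⟩ := hZ E L' (by rw [hdeg']; exact hp.two_le) hU' art' hart' N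
  refine ⟨(Q : Ideal (𝓞 E)), hQp, nonZeroDivisors.ne_zero Q.2, hQn, hQlt, ?_⟩
  intro w hw hw1
  apply hQ1
  apply UnramBaseChange.resHom_injective (K := K) (L := M) hcomp
  rw [map_one, ArtinMapFunctB.resHom_art_eq hart hU hart' Q w hw, hw1]

section CS

variable {K M Ω : Type} [Field K] [NumberField K] [Field M] [NumberField M] [Field Ω]
  [NumberField Ω] [Algebra K M] [Algebra K Ω] [Algebra M Ω] [IsScalarTower K M Ω]
  [IsGalois K M]

/-- **T9** in the common setting of the crossing plan v2. -/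
theorem exists_w (hD : BlockD) (hZ : BlockZ) {p : ℕ} (hp : p.Prime)
    (hdeg : Module.finrank K M = p) (hU : Unram K M)
    (art : (Ideal (𝓞 K))⁰ →* (M ≃ₐ[K] M)) (hart : IsArtinMap K M art)
    (E : IntermediateField K Ω) (hE : Module.finrank ↥E ↥(LX M E) ≠ 1) (N : ℕ) :
    ∃ 𝔴 : Ideal (𝓞 ↥E), 𝔴.IsPrime ∧ 𝔴 ≠ ⊥ ∧ (Ideal.absNorm 𝔴).Prime ∧ N < Ideal.absNorm 𝔴 ∧
      ∀ w : (Ideal (𝓞 K))⁰, (w : Ideal (𝓞 K)) = Ideal.relNorm (𝓞 K) 𝔴 → art w ≠ 1 :=
  exists_w_of_isCompositum (K := K) (M := M) (E := ↥E) (L' := ↥(LX M E))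
    (isCompositum_LX E) hD hZ hp hdeg hU art hart hE N

end CS

end Fermat.Agent.S14.CrossingW
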