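/-
S14 — crossing block, row T10 (helper78): ARTIN RECIPROCITY for principal ideals of `K = ℚ(ζ_p)` in the
unramified cyclic extension `M/K` of degree `p`, by Artin's crossing argument:
  blockRecip : BlockD → BlockZ → BlockFirstIneq p → BlockAux → BlockRecip p.
Inputs: CrossingCore (abstract deduction), CrossingAux (helper67), CrossingLinkFieldB (helper54),
CrossingFrobExists (helper35), CrossingStep (helper56), CrossingW (helper59), CrossingDisjoint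
(helper54), ClassNorm (helper61), ArtinMapGen (helper55), ArtinLemma (helper67).
-/
import Fermat.Agent.S14.CrossingLinkFieldB
import Fermat.Agent.S14.CrossingFrobExists
import Fermat.Agent.S14.CrossingStep
import Fermat.Agent.S14.CrossingW
import Fermat.Agent.S14.CrossingCore
import Fermat.Agent.S14.CrossingAux
import Fermat.Agent.S14.CrossingDisjoint
import Fermat.Agent.S14.ClassNorm
import Fermat.Agent.S14.ArtinMapGen
import Fermat.Agent.S14.ArtinLemma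

set_option autoImplicit false

namespace Fermat.Agent.S14.Crossing

open NumberField nonZeroDivisors Fermat.Agent.S14 Fermat.Agent.S14.CrossingTower
  Fermat.Agent.S14.CrossingAux

/-- An ideal whose absolute norm is coprime to `m` is coprime to `(m)`. -/
theorem isCoprime_span_natCast_of_coprime_absNorm {F : Type*} [Field F] [NumberField F]
    (m : ℕ) (Q : Ideal (𝓞 F)) (hcop : Nat.Coprime (Ideal.absNorm Q) m) :
    IsCoprime Q (Ideal.span {(m : 𝓞 F)}) := by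
  rw [Ideal.isCoprime_iff_sup_eq, Ideal.eq_top_iff_one]
  have hqmem : ((Ideal.absNorm Q : ℕ) : 𝓞 F) ∈ Q := Ideal.absNorm_mem Q
  have hz : IsCoprime ((Ideal.absNorm Q : ℕ) : ℤ) (m : ℤ) := Nat.isCoprime_iff_coprime.mpr hcop
  obtain ⟨u, v, huv⟩ := hz
  have h1 : (1 : 𝓞 F) = (u : 𝓞 F) * ((Ideal.absNorm Q : ℕ) : 𝓞 F) + (v : 𝓞 F) * (m : 𝓞 F) := by
    have := congrArg (Int.cast : ℤ → 𝓞 F) huv
    push_cast at this
    exact this.symm
  rw [h1]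
  exact Ideal.add_mem _ (Ideal.mem_sup_left (Ideal.mul_mem_left _ _ hqmem))
    (Ideal.mem_sup_right (Ideal.mul_mem_left _ _ (Ideal.subset_span rfl)))

end Fermat.Agent.S14.Crossing

namespace Fermat.Agent.S14.Crossing

open NumberField nonZeroDivisors Fermat.Agent.S14 Fermat.Agent.S14.CrossingTower
  Fermat.Agent.S14.CrossingAux

theorem two_le_absNorm {F : Type*} [Field F] [NumberField F] (v : Ideal (𝓞 F)) (hv : v.IsPrime)
    (hv0 : v ≠ ⊥) : 2 ≤ Ideal.absNorm v := by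
  have h0 : Ideal.absNorm v ≠ 0 := by
    rw [Ne, Ideal.absNorm_eq_zero_iff]; exact hv0
  have h1 : Ideal.absNorm v ≠ 1 := by
    rw [Ne, Ideal.absNorm_eq_one_iff]; exact hv.ne_top
  omega

theorem coprime_of_prime_gt {l a : ℕ} (hl : l.Prime) (ha : 0 < a) (h : a < l) : Nat.Coprime l a := by
  rw [Nat.Prime.coprime_iff_not_dvd hl]
  intro hd
  exact absurd (Nat.le_of_dvd ha hd) (not_le.mpr h)

section link

variable {K M : Type} [Field K] [NumberField K] [Field M] [NumberField M] [Algebra K M]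
  [IsGalois K M]

theorem link (hD : BlockD) (hZ : BlockZ) (hAux : BlockAux) {p : ℕ} (hp : p.Prime) (h3 : 3 ≤ p)
    (hζp : ∃ ζ : K, IsPrimitiveRoot ζ p)
    (hdeg : Module.finrank K M = p) (hU : Unram K M)
    (art : (Ideal (𝓞 K))⁰ →* (M ≃ₐ[K] M)) (hart : IsArtinMap K M art)
    (q1 q2 : (Ideal (𝓞 K))⁰) (hq1 : (q1 : Ideal (𝓞 K)).IsPrime)
    (hq2 : (q2 : Ideal (𝓞 K)).IsPrime) (h1 : art q1 ≠ 1) (h2 : art q2 ≠ 1) :
    ∃ w : (Ideal (𝓞 K))⁰, art w ≠ 1 ∧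
      (∀ a b : ℕ, art q1 ^ a = art w ^ b →
        ClassGroup.mk0 q1 ^ a * (ClassGroup.mk0 w ^ b)⁻¹ ∈ normClasses K M) ∧
      (∀ a b : ℕ, art q2 ^ a = art w ^ b →
        ClassGroup.mk0 q2 ^ a * (ClassGroup.mk0 w ^ b)⁻¹ ∈ normClasses K M) := by
  classical
  have : Fact p.Prime := ⟨hp⟩
  have hp2 : p ≠ 2 := by omega
  have hq10 : (q1 : Ideal (𝓞 K)) ≠ ⊥ := nonZeroDivisors.coe_ne_zero q1
  have hq20 : (q2 : Ideal (𝓞 K)) ≠ ⊥ := nonZeroDivisors.coe_ne_zero q2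
  set N1 := Ideal.absNorm (q1 : Ideal (𝓞 K)) with hN1
  set N2 := Ideal.absNorm (q2 : Ideal (𝓞 K)) with hN2
  have hN1' : 2 ≤ N1 := two_le_absNorm _ hq1 hq10
  have hN2' : 2 ≤ N2 := two_le_absNorm _ hq2 hq20
  set D := (NumberField.discr M).natAbs with hD'
  have hD0 : 0 < D := Int.natAbs_pos.mpr (NumberField.discr_ne_zero M)
  -- the two auxiliary primes
  obtain ⟨l1, s1, hl1, hl1p, hl1N, hB1, -, hs1, hord1⟩ :=
    ArtinLemma.exists_prime_gt_orderOf_eq_prime_pow N1 hN1' p hp2 (max (max N1 N2) D) 0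
  obtain ⟨l2, s2, hl2, hl2p, hl2N, hB2, -, hs2, hord2⟩ :=
    ArtinLemma.exists_prime_gt_orderOf_eq_prime_pow N2 hN2' p hp2 (max (max (max N1 N2) D) l1) 0
  have : Fact l1.Prime := ⟨hl1⟩
  have : Fact l2.Prime := ⟨hl2⟩
  have hne : l1 ≠ l2 := by
    have : l1 < l2 := lt_of_le_of_lt (le_max_right _ _) hB2
    omega
  have hl1_N1 : N1 < l1 := lt_of_le_of_lt ((le_max_left _ _).trans (le_max_left _ _)) hB1
  have hl1_N2 : N2 < l1 := lt_of_le_of_lt ((le_max_right _ _).trans (le_max_left _ _)) hB1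
  have hl1_D : D < l1 := lt_of_le_of_lt (le_max_right _ _) hB1
  have hl2_N1 : N1 < l2 :=
    lt_of_le_of_lt (((le_max_left _ _).trans (le_max_left _ _)).trans (le_max_left _ _)) hB2
  have hl2_N2 : N2 < l2 :=
    lt_of_le_of_lt (((le_max_right _ _).trans (le_max_left _ _)).trans (le_max_left _ _)) hB2
  have hl2_D : D < l2 := lt_of_le_of_lt ((le_max_right _ _).trans (le_max_left _ _)) hB2
  set n := l1 * l2 with hn
  have hn0 : 0 < n := Nat.mul_pos hl1.pos hl2.pos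
  have : NeZero n := ⟨hn0.ne'⟩
  have hcopD : Nat.Coprime n D :=
    Nat.Coprime.mul_left (coprime_of_prime_gt hl1 hD0 hl1_D) (coprime_of_prime_gt hl2 hD0 hl2_D)
  have hcopN1 : Nat.Coprime n N1 :=
    Nat.Coprime.mul_left (coprime_of_prime_gt hl1 (by omega) hl1_N1)
      (coprime_of_prime_gt hl2 (by omega) hl2_N1)
  have hcopN2 : Nat.Coprime n N2 :=
    Nat.Coprime.mul_left (coprime_of_prime_gt hl1 (by omega) hl1_N2)
      (coprime_of_prime_gt hl2 (by omega) hl2_N2)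
  -- the field `Ω = M(ζ_n)`
  let Ω := CyclotomicField n M
  have hgalΩ : IsGalois K Ω := CrossingDisjoint.isGalois_of_isCyclotomicExtension K M n Ω
  set ζ : Ω := IsCyclotomicExtension.zeta n M Ω with hζdef
  have hζ : IsPrimitiveRoot ζ n := IsCyclotomicExtension.zeta_spec n M Ω
  have hζ1 : ζ ^ n = 1 := hζ.pow_eq_one
  -- Frobenius elements
  obtain ⟨𝔔1, φ1, h𝔔1p, h𝔔10, h𝔔1u, hfrob1, hres1, hφ1ζ⟩ :=
    CrossingFrobExists.exists_frob (Ω := Ω) hU art hart q1 hq1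
  obtain ⟨𝔔2, φ2, h𝔔2p, h𝔔20, h𝔔2u, hfrob2, hres2, hφ2ζ⟩ :=
    CrossingFrobExists.exists_frob (Ω := Ω) hU art hart q2 hq2
  have hφ1 : φ1 ζ = ζ ^ N1 := hφ1ζ n ζ hζ1 hcopN1
  have hφ2 : φ2 ζ = ζ ^ N2 := hφ2ζ n ζ hζ1 hcopN2
  -- the subgroups
  obtain ⟨H1, H2, hφ1H, hφ2H, hker1, hker2, hres12⟩ :=
    CrossingLinkFieldB.exists_subgroups (K := K) (M := M) (Ω := Ω) l1 l2 hne hcopD hdeg ζ hζ
      φ1 φ2 N1 N2 (by rw [hres1]; exact h1) (by rw [hres2]; exact h2) hφ1 hφ2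
      (by rw [hord1]; exact dvd_pow_self p (by omega))
      (by rw [hord2]; exact dvd_pow_self p (by omega))
  set H12 : Subgroup (Ω ≃ₐ[K] Ω) := H1 ⊓ H2 with hH12
  have hresH1 : ∀ g : M ≃ₐ[K] M, ∃ γ ∈ H1, AlgEquiv.restrictNormalHom M γ = g := by
    intro g
    obtain ⟨γ, hγ, hg⟩ := hres12 g
    exact ⟨γ, hγ.1, hg⟩
  have hresH2 : ∀ g : M ≃ₐ[K] M, ∃ γ ∈ H2, AlgEquiv.restrictNormalHom M γ = g := by
    intro g
    obtain ⟨γ, hγ, hg⟩ := hres12 g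
    exact ⟨γ, hγ.2, hg⟩
  have hp1 : p ≠ 1 := hp.one_lt.ne'
  have hX1 : Module.finrank ↥(auxF K Ω H1) ↥(LX M (auxF K Ω H1)) ≠ 1 := by
    have := finrank_auxL (M := M) H1 hresH1
    rw [hdeg] at this
    rw [show Module.finrank ↥(auxF K Ω H1) ↥(LX M (auxF K Ω H1)) = p from this]
    exact hp1
  have hX2 : Module.finrank ↥(auxF K Ω H2) ↥(LX M (auxF K Ω H2)) ≠ 1 := by
    have := finrank_auxL (M := M) H2 hresH2
    rw [hdeg] at this
    rw [show Module.finrank ↥(auxF K Ω H2) ↥(LX M (auxF K Ω H2)) = p from this]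
    exact hp1
  have hE : Module.finrank ↥(auxF K Ω H12) ↥(LX M (auxF K Ω H12)) ≠ 1 := by
    have := finrank_auxL (M := M) H12 hres12
    rw [hdeg] at this
    rw [show Module.finrank ↥(auxF K Ω H12) ↥(LX M (auxF K Ω H12)) = p from this]
    exact hp1
  have hcyc1 : IsCyclotomicExtension {n} ↥(auxF K Ω H1) Ω :=
    isCyclotomicExtension_auxF H1 hζ hker1
  have hcyc2 : IsCyclotomicExtension {n} ↥(auxF K Ω H2) Ω :=
    isCyclotomicExtension_auxF H2 hζ hker2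
  -- the linking prime
  obtain ⟨𝔴, h𝔴p, h𝔴0, h𝔴r, h𝔴n, h𝔴art⟩ :=
    CrossingW.exists_w (Ω := Ω) hD hZ hp hdeg hU art hart (auxF K Ω H12) hE n
  have h𝔴p' : 𝔴.IsPrime := h𝔴p
  obtain ⟨𝔔, -, h𝔔p, h𝔔c⟩ :=
    Ideal.exists_ideal_over_prime_of_isIntegral (S := 𝓞 Ω) 𝔴 (⊥ : Ideal (𝓞 Ω)) (by
      rw [Ideal.comap_bot_of_injective _ (FaithfulSMul.algebraMap_injective _ _)]
      exact bot_le)
  have h𝔔u : 𝔔.under (𝓞 ↥(auxF K Ω H12)) = 𝔴 := h𝔔c
  have h𝔔0 : 𝔔 ≠ ⊥ := by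
    rintro rfl
    apply h𝔴0
    rw [← h𝔔u, Ideal.under_def, Ideal.comap_bot_of_injective _
      (FaithfulSMul.algebraMap_injective _ _)]
  set r := Ideal.absNorm 𝔴 with hr
  have hnorm : Ideal.absNorm (𝔔.under (𝓞 ↥(auxF K Ω H12))) = r := by rw [h𝔔u]
  -- `w`
  have hw0 : 𝔔.under (𝓞 K) ≠ ⊥ := Ideal.under_ne_bot _ h𝔔0
  set w : (Ideal (𝓞 K))⁰ := ⟨𝔔.under (𝓞 K), mem_nonZeroDivisors_iff_ne_zero.mpr hw0⟩ with hwdef
  have hwE : (w : Ideal (𝓞 K)) = Ideal.relNorm (𝓞 K) 𝔴 := by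
    rw [← h𝔔u]
    exact (relNorm_under_of_le (le_refl H12) 𝔔 h𝔔0 h𝔴r hnorm).symm
  have hwart : art w ≠ 1 := h𝔴art w hwE
  have hrn : Nat.Coprime r n := by
    rw [Nat.Prime.coprime_iff_not_dvd h𝔴r]
    intro hd
    exact absurd (Nat.le_of_dvd hn0 hd) (not_le.mpr h𝔴n)
  -- the two steps
  have step : ∀ (H : Subgroup (Ω ≃ₐ[K] Ω)) (_ : H12 ≤ H)
      (_ : Module.finrank ↥(auxF K Ω H) ↥(LX M (auxF K Ω H)) ≠ 1)
      (_ : IsCyclotomicExtension {n} ↥(auxF K Ω H) Ω)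
      (q : (Ideal (𝓞 K))⁰) (φ : Ω ≃ₐ[K] Ω) (_ : φ ∈ H) (𝔓 : Ideal (𝓞 Ω)) (_ : 𝔓.IsPrime)
      (_ : 𝔓 ≠ ⊥) (_ : 𝔓.under (𝓞 K) = (q : Ideal (𝓞 K))) (_ : IsArithFrobAt (𝓞 K) φ 𝔓)
      (_ : Nat.Coprime n (Ideal.absNorm (q : Ideal (𝓞 K)))) (a b : ℕ),
      art q ^ a = art w ^ b →
      ClassGroup.mk0 q ^ a * (ClassGroup.mk0 w ^ b)⁻¹ ∈ normClasses K M := by
    intro H hle hX hcyc q φ hφH 𝔓 h𝔓p h𝔓0 h𝔓u hfrob hcop a b hab
    -- `P`
    have hP0 : 𝔓.under (𝓞 ↥(auxF K Ω H)) ≠ ⊥ := Ideal.under_ne_bot _ h𝔓0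
    set P : (Ideal (𝓞 ↥(auxF K Ω H)))⁰ :=
      ⟨𝔓.under (𝓞 ↥(auxF K Ω H)), mem_nonZeroDivisors_iff_ne_zero.mpr hP0⟩ with hPdef
    have hPrel : (q : Ideal (𝓞 K)) = Ideal.relNorm (𝓞 K) (P : Ideal (𝓞 ↥(auxF K Ω H))) := by
      rw [← h𝔓u]
      exact (relNorm_under_auxF H hφH 𝔓 h𝔓0 hfrob).symm
    have hPcop : IsCoprime (P : Ideal (𝓞 ↥(auxF K Ω H)))
        (Ideal.span {(n : 𝓞 ↥(auxF K Ω H))}) := by
      apply isCoprime_span_natCast_of_coprime_absNorm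
      show Nat.Coprime (Ideal.absNorm (𝔓.under (𝓞 ↥(auxF K Ω H)))) n
      rw [absNorm_under_auxF H hφH 𝔓 h𝔓0 hfrob, h𝔓u]
      exact hcop.symm
    -- `W`
    have hW0 : 𝔔.under (𝓞 ↥(auxF K Ω H)) ≠ ⊥ := Ideal.under_ne_bot _ h𝔔0
    set W : (Ideal (𝓞 ↥(auxF K Ω H)))⁰ :=
      ⟨𝔔.under (𝓞 ↥(auxF K Ω H)), mem_nonZeroDivisors_iff_ne_zero.mpr hW0⟩ with hWdef
    have hWrel : (w : Ideal (𝓞 K)) = Ideal.relNorm (𝓞 K) (W : Ideal (𝓞 ↥(auxF K Ω H))) :=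
      (relNorm_under_of_le hle 𝔔 h𝔔0 h𝔴r hnorm).symm
    have hWcop : IsCoprime (W : Ideal (𝓞 ↥(auxF K Ω H)))
        (Ideal.span {(n : 𝓞 ↥(auxF K Ω H))}) := by
      apply isCoprime_span_natCast_of_coprime_absNorm
      show Nat.Coprime (Ideal.absNorm (𝔔.under (𝓞 ↥(auxF K Ω H)))) n
      rw [absNorm_under_of_le hle 𝔔 h𝔔0 h𝔴r hnorm]
      exact hrn
    exact CrossingStep.link_step hD hAux hp h3 hζp hdeg hU art hart (auxF K Ω H) hX n hn0
      P W hPcop hWcop q w hPrel hWrel a b hab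
  refine ⟨w, hwart, ?_, ?_⟩
  · intro a b hab
    exact step H1 inf_le_left hX1 hcyc1 q1 φ1 hφ1H 𝔔1 h𝔔1p h𝔔10 h𝔔1u hfrob1 hcopN1 a b hab
  · intro a b hab
    exact step H2 inf_le_right hX2 hcyc2 q2 φ2 hφ2H 𝔔2 h𝔔2p h𝔔20 h𝔔2u hfrob2 hcopN2 a b hab

end link

/-- Split primes are norms. -/
theorem mk0_mem_normClasses_of_art_eq_one {K M : Type} [Field K] [NumberField K] [Field M]
    [NumberField M] [Algebra K M] [IsGalois K M]
    (art : (Ideal (𝓞 K))⁰ →* (M ≃ₐ[K] M)) (hart : IsArtinMap K M art)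
    (v : (Ideal (𝓞 K))⁰) (hv : (v : Ideal (𝓞 K)).IsPrime) (h1 : art v = 1) :
    ClassGroup.mk0 v ∈ normClasses K M := by
  have hv0 : (v : Ideal (𝓞 K)) ≠ ⊥ := nonZeroDivisors.coe_ne_zero v
  have hvmax : (v : Ideal (𝓞 K)).IsMaximal := hv.isMaximal hv0
  obtain ⟨P, hPmax, hPv⟩ :=
    Ideal.exists_maximal_ideal_liesOver_of_isIntegral (S := 𝓞 M) (v : Ideal (𝓞 K))
  have hPp : P.IsPrime := hPmax.isPrime
  have hf := hart.inertiaDeg_eq_one_of_eq_one v hv h1 P hPp hPv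
  have hP0 : P ≠ ⊥ := ne_bot_of_liesOver_nonZeroDivisors v P hPv
  refine ClassNorm.mk0_mem_normClasses K M P hP0 v ?_
  rw [Ideal.relNorm_eq_pow_of_isMaximal P (v : Ideal (𝓞 K)), hf, pow_one]

/-- **Block (RECIP)**: Artin reciprocity for principal ideals of `K = ℚ(ζ_p)` in the unramified
cyclic extension `M/K` of degree `p`, by Artin's crossing argument. -/
theorem blockRecip {p : ℕ} (hD : BlockD) (hZ : BlockZ) (hFI : BlockFirstIneq p)
    (hAux : BlockAux) : BlockRecip p := by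
  intro K M _ _ _ _ _ _ _ _ hp h3 hdeg hU _ art hart I hI
  classical
  have : Fact p.Prime := ⟨hp⟩
  have hG : Nat.card (M ≃ₐ[K] M) = p := by rw [IsGalois.card_aut_eq_finrank, hdeg]
  have hcyc : IsCyclic (M ≃ₐ[K] M) := isCyclic_of_prime_card hG
  let _ : CommGroup (M ≃ₐ[K] M) := IsCyclic.commGroup
  have hζp : ∃ ζ : K, IsPrimitiveRoot ζ p :=
    IsCyclotomicExtension.exists_isPrimitiveRoot ℚ K (Set.mem_singleton p) hp.ne_zero
  have hI0 : (I : Ideal (𝓞 K)) ≠ ⊥ := nonZeroDivisors.coe_ne_zero I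
  have key := CrossingCore.art_principal_eq_one (R := 𝓞 K) (G := M ≃ₐ[K] M) p art hG
    (normClasses K M)
    (fun c => by
      have := ClassNorm.pow_finrank_mem_normClasses K M c
      rwa [hdeg] at this)
    (fun htop => by
      have h := hFI K M hp h3 hdeg hU
      rw [htop, Subgroup.index_top] at h
      exact absurd h (not_le.mpr hp.one_lt))
    (fun v hv hvp h1 =>
      mk0_mem_normClasses_of_art_eq_one art hart ⟨v, CrossingCore.mem_nzd hv⟩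
        ((Ideal.prime_iff_isPrime hv).mp hvp) h1)
    (fun v₁ v₂ h₁ h₂ hp₁ hp₂ ha₁ ha₂ =>
      link hD hZ hAux hp h3 hζp hdeg hU art hart ⟨v₁, CrossingCore.mem_nzd h₁⟩
        ⟨v₂, CrossingCore.mem_nzd h₂⟩ ((Ideal.prime_iff_isPrime h₁).mp hp₁)
        ((Ideal.prime_iff_isPrime h₂).mp hp₂) ha₁ ha₂)
    (I : Ideal (𝓞 K)) hI0 hI
  exact key

end Fermat.Agent.S14.Crossing
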