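import Fermat.Agent.S14.GalPrimes

/-!
# Descent half of `AllNormsOfIdeals` (row B.inst2 of block B2.alg of S14)

* `exists_descent` : a `σ`-invariant finitely supported `c` on the primes of `M` (`σ` a generator
  of `Gal(M/K)`) is the pull-back of a finitely supported `cK` on the primes of `K`.
* `cnt`, `cnt_span_singleton` : the multiplicity of a prime in an integral ideal, and its value
  on a principal ideal in terms of the valuation.
* `exists_unit_ideal_of_hyp` : from the ideal-level hypothesis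
  (every nonzero ideal `I` of `𝓞 K` satisfies `(a) I = (b) N(J)`), every finitely supported
  `cK : primes of K →₀ ℤ` is of the form `w ↦ ordK w β + cnt w (relNorm J)`.
-/

set_option autoImplicit false
set_option linter.unusedSectionVars false

open NumberField IsDedekindDomain Fermat.Agent.S14.NormIndexConcrete Fermat.Agent.S14.GalPrimes

namespace Fermat.Agent.S14.AllNormsDescent

/-! ### multiplicities of primes in ideals of a Dedekind domain -/

section count

variable {R : Type*} [CommRing R] [IsDedekindDomain R]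

/-- multiplicity of the prime `w` in the ideal `I` (junk for `I = ⊥`). -/
noncomputable def cnt (w : HeightOneSpectrum R) (I : Ideal R) : ℕ :=
  (Associates.mk w.asIdeal).count (Associates.mk I).factors

variable {F : Type*} [Field F] [Algebra R F] [IsFractionRing R F]

theorem count_coe_eq_cnt (w : HeightOneSpectrum R) {I : Ideal R} (hI : I ≠ ⊥) :
    FractionalIdeal.count F w (I : FractionalIdeal (nonZeroDivisors R) F) = (cnt w I : ℤ) :=
  FractionalIdeal.count_coe F w hI

theorem cnt_mul (w : HeightOneSpectrum R) {I J : Ideal R} (hI : I ≠ ⊥) (hJ : J ≠ ⊥) :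
    cnt w (I * J) = cnt w I + cnt w J := by
  have h := FractionalIdeal.count_mul (K := FractionRing R) w
    (I := (I : FractionalIdeal (nonZeroDivisors R) (FractionRing R)))
    (I' := (J : FractionalIdeal (nonZeroDivisors R) (FractionRing R)))
    (FractionalIdeal.coeIdeal_ne_zero.mpr hI) (FractionalIdeal.coeIdeal_ne_zero.mpr hJ)
  rw [← FractionalIdeal.coeIdeal_mul, count_coe_eq_cnt w (mul_ne_zero hI hJ),
    count_coe_eq_cnt w hI, count_coe_eq_cnt w hJ] at h
  exact_mod_cast h

/-- the valuation of a nonzero integer in terms of the multiplicity of its principal ideal. -/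
theorem log_valuation_algebraMap (w : HeightOneSpectrum R) {a : R} (ha : a ≠ 0) :
    WithZero.log (w.valuation F (algebraMap R F a)) = -(cnt w (Ideal.span {a}) : ℤ) := by
  rw [HeightOneSpectrum.valuation_of_algebraMap, w.intValuation_if_neg ha, WithZero.log_exp]
  rfl

end count

/-! ### descent of a Galois-invariant function on the primes of `M` -/

section descent

variable (K M : Type) [Field K] [NumberField K] [Field M] [NumberField M] [Algebra K M]

theorem apply_primePerm_pow (σ : M ≃ₐ[K] M) (c : HeightOneSpectrum (𝓞 M) →₀ ℤ)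
    (hc : ∀ v, c (primePerm K M σ v) = c v) (i : ℕ) (v : HeightOneSpectrum (𝓞 M)) :
    c ((primePerm K M σ ^ i) v) = c v := by
  induction i with
  | zero => simp
  | succ i ih =>
    rw [pow_succ', Equiv.Perm.mul_apply, hc, ih]

/-- **(D1)** a `σ`-invariant `c` descends to the primes of `K`. -/
theorem exists_descent [IsGalois K M] (σ : M ≃ₐ[K] M)
    (hσ : ∀ τ : M ≃ₐ[K] M, τ ∈ Subgroup.zpowers σ)
    (c : HeightOneSpectrum (𝓞 M) →₀ ℤ) (hc : ∀ v, c (primePerm K M σ v) = c v) :
    ∃ cK : HeightOneSpectrum (𝓞 K) →₀ ℤ, ∀ v, c v = cK (primeBelow K M v) := by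
  classical
  have hsurj := primeBelow_surjective K M
  have key : ∀ v v' : HeightOneSpectrum (𝓞 M), primeBelow K M v = primeBelow K M v' →
      c v = c v' := by
    intro v v' h
    obtain ⟨i, hi⟩ := (primeBelow_eq_iff_of_generator K M σ hσ v v').mp h
    rw [← hi, apply_primePerm_pow K M σ c hc]
  let f : HeightOneSpectrum (𝓞 K) → ℤ := fun w => c (Function.surjInv hsurj w)
  have hf : ∀ w, f w ≠ 0 → w ∈ c.support.image (primeBelow K M) := by
    intro w hw
    refine Finset.mem_image.mpr ⟨Function.surjInv hsurj w, ?_, Function.surjInv_eq hsurj w⟩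
    exact Finsupp.mem_support_iff.mpr hw
  refine ⟨Finsupp.onFinset (c.support.image (primeBelow K M)) f hf, fun v => ?_⟩
  rw [Finsupp.onFinset_apply]
  exact key v _ (Function.surjInv_eq hsurj (primeBelow K M v)).symm

end descent

/-! ### from the ideal-level hypothesis to exponent vectors on the primes of `K` -/

section ideals

variable (K M : Type) [Field K] [NumberField K] [Field M] [NumberField M] [Algebra K M]

theorem ordK_mk0 (w : HeightOneSpectrum (𝓞 K)) {x : K} (hx : x ≠ 0) :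
    ordK K w (Units.mk0 x hx) = -(WithZero.log (w.valuation K x)) := rfl

/-- **(D2)+(D3)** the ideal-level hypothesis, applied to a clearing of denominators of
`∏ w ^ cK w`, expresses every exponent vector `cK` as `ordK · β + cnt · (relNorm J)`. -/
theorem exists_unit_ideal_of_hyp
    (Hyp : ∀ I : Ideal (𝓞 K), I ≠ ⊥ → ∃ (a b : 𝓞 K) (J : Ideal (𝓞 M)), a ≠ 0 ∧ b ≠ 0 ∧ J ≠ ⊥ ∧
      Ideal.span {a} * I = Ideal.span {b} * Ideal.relNorm (𝓞 K) J)
    (cK : HeightOneSpectrum (𝓞 K) →₀ ℤ) :
    ∃ (β : Kˣ) (J : Ideal (𝓞 M)), J ≠ ⊥ ∧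
      ∀ w, cK w = ordK K w β + (cnt w (Ideal.relNorm (𝓞 K) J) : ℤ) := by
  classical
  -- the fractional ideal with exponents `cK`
  set Ifr : FractionalIdeal (nonZeroDivisors (𝓞 K)) K :=
    cK.prod (fun w n => (w.asIdeal : FractionalIdeal (nonZeroDivisors (𝓞 K)) K) ^ n) with hIfr
  have hIfr0 : Ifr ≠ 0 := by
    rw [hIfr, Finsupp.prod]
    refine Finset.prod_ne_zero_iff.mpr fun w _ => ?_
    exact zpow_ne_zero _ (FractionalIdeal.coeIdeal_ne_zero.mpr w.ne_bot)
  have hcount : ∀ w, FractionalIdeal.count K w Ifr = cK w := fun w =>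
    FractionalIdeal.count_finsuppProd K w cK
  obtain ⟨a₀, J₀, ha₀, hJ₀⟩ := FractionalIdeal.exists_eq_spanSingleton_mul Ifr
  have hJ₀0 : J₀ ≠ ⊥ := by
    rintro rfl
    apply hIfr0
    rw [hJ₀]
    simp
  have hcount' : ∀ w, cK w = (cnt w J₀ : ℤ) - (cnt w (Ideal.span {a₀}) : ℤ) := fun w => by
    rw [← hcount w, FractionalIdeal.count_well_defined K w hIfr0 hJ₀]
    rfl
  obtain ⟨a, b, J, ha, hb, hJ, hab⟩ := Hyp J₀ hJ₀0
  have hN : Ideal.relNorm (𝓞 K) J ≠ ⊥ := fun h => hJ (Ideal.relNorm_eq_bot_iff.mp h)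
  have hsa : (Ideal.span {a} : Ideal (𝓞 K)) ≠ ⊥ := by
    rwa [ne_eq, Ideal.span_singleton_eq_bot]
  have hsb : (Ideal.span {b} : Ideal (𝓞 K)) ≠ ⊥ := by
    rwa [ne_eq, Ideal.span_singleton_eq_bot]
  have hcnt : ∀ w : HeightOneSpectrum (𝓞 K), cnt w (Ideal.span {a}) + cnt w J₀ =
      cnt w (Ideal.span {b}) + cnt w (Ideal.relNorm (𝓞 K) J) := fun w => by
    rw [← cnt_mul w hsa hJ₀0, ← cnt_mul w hsb hN, hab]
  have haK : (algebraMap (𝓞 K) K a) ≠ 0 := by
    rwa [ne_eq, FaithfulSMul.algebraMap_eq_zero_iff]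
  have hbK : (algebraMap (𝓞 K) K b) ≠ 0 := by
    rwa [ne_eq, FaithfulSMul.algebraMap_eq_zero_iff]
  have ha₀K : (algebraMap (𝓞 K) K a₀) ≠ 0 := by
    rwa [ne_eq, FaithfulSMul.algebraMap_eq_zero_iff]
  have hβ0 : algebraMap (𝓞 K) K b / (algebraMap (𝓞 K) K a * algebraMap (𝓞 K) K a₀) ≠ 0 :=
    div_ne_zero hbK (mul_ne_zero haK ha₀K)
  refine ⟨Units.mk0 _ hβ0, J, hJ, fun w => ?_⟩
  have hva : w.valuation K (algebraMap (𝓞 K) K a) ≠ 0 := (Valuation.ne_zero_iff _).mpr haK
  have hvb : w.valuation K (algebraMap (𝓞 K) K b) ≠ 0 := (Valuation.ne_zero_iff _).mpr hbK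
  have hva₀ : w.valuation K (algebraMap (𝓞 K) K a₀) ≠ 0 := (Valuation.ne_zero_iff _).mpr ha₀K
  rw [ordK_mk0, map_div₀, map_mul, WithZero.log_div hvb (mul_ne_zero hva hva₀),
    WithZero.log_mul hva hva₀, log_valuation_algebraMap w ha, log_valuation_algebraMap w hb,
    log_valuation_algebraMap w ha₀, hcount' w]
  have := hcnt w
  omega

end ideals

/-! ### assembly modulo the `relNorm` multiplicity formula -/

section assembly

variable (K M : Type) [Field K] [NumberField K] [Field M] [NumberField M] [Algebra K M]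

/-- the multiplicities of the primes of `M` in a nonzero ideal, as a finitely supported
function. -/
noncomputable def cntFinsupp (J : Ideal (𝓞 M)) (hJ : J ≠ ⊥) : HeightOneSpectrum (𝓞 M) →₀ ℤ :=
  Finsupp.ofSupportFinite (fun v => (cnt v J : ℤ)) (by
    have h := Associates.finite_factors (R := 𝓞 M) (I := J) hJ
    rw [Filter.eventually_cofinite] at h
    exact h)

theorem cntFinsupp_apply (J : Ideal (𝓞 M)) (hJ : J ≠ ⊥) (v : HeightOneSpectrum (𝓞 M)) :
    cntFinsupp M J hJ v = (cnt v J : ℤ) := rfl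

/-- **Row B.inst2 modulo two local inputs**: `hunr` (valuations of elements of `K` at primes of
`M` = valuations at the prime below; from `GalPrimes.ordM_algebraMap_of_unramified`) and `hrel`
(the multiplicity of `w` in `relNorm J` is the sum of the multiplicities of the `σ^i v`,
`i < p`, in `J`, for `v` above `w`). -/
theorem allNorms_of_relNorm_count [IsGalois K M] (σ : M ≃ₐ[K] M)
    (hσ : ∀ τ : M ≃ₐ[K] M, τ ∈ Subgroup.zpowers σ) (p : ℕ)
    (hunr : ∀ (v : HeightOneSpectrum (𝓞 M)) (β : Kˣ),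
      ordM M v (Additive.ofMul (Units.map (algebraMap K M : K →* M) β)) =
        ordK K (primeBelow K M v) β)
    (hrel : ∀ (J : Ideal (𝓞 M)), J ≠ ⊥ → ∀ v : HeightOneSpectrum (𝓞 M),
      (cnt (primeBelow K M v) (Ideal.relNorm (𝓞 K) J) : ℤ) =
        ∑ i ∈ Finset.range p, (cnt ((primePerm K M σ ^ i) v) J : ℤ))
    (Hyp : ∀ I : Ideal (𝓞 K), I ≠ ⊥ → ∃ (a b : 𝓞 K) (J : Ideal (𝓞 M)), a ≠ 0 ∧ b ≠ 0 ∧ J ≠ ⊥ ∧
      Ideal.span {a} * I = Ideal.span {b} * Ideal.relNorm (𝓞 K) J)
    (c : HeightOneSpectrum (𝓞 M) →₀ ℤ) (hc : ∀ v, c (primePerm K M σ v) = c v) :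
    ∃ β : Kˣ, ∃ d : HeightOneSpectrum (𝓞 M) →₀ ℤ, ∀ v,
      c v = ordM M v (Additive.ofMul (Units.map (algebraMap K M : K →* M) β)) +
        ∑ i ∈ Finset.range p, d ((primePerm K M σ ^ i) v) := by
  obtain ⟨cK, hcK⟩ := exists_descent K M σ hσ c hc
  obtain ⟨β, J, hJ, hβJ⟩ := exists_unit_ideal_of_hyp K M Hyp cK
  refine ⟨β, cntFinsupp M J hJ, fun v => ?_⟩
  rw [hcK v, hβJ (primeBelow K M v), hunr v β, hrel J hJ v]
  rfl

end assembly

end Fermat.Agent.S14.AllNormsDescent
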