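import Mathlib

/-!
# S14, block (C): elementary number theory for Artin's crossing argument

* `exists_prime_orderOf_eq_prime_pow`: for `a ≥ 2`, an odd prime `p` and `s ≥ 1` there is a prime
  `ℓ ≠ p`, `ℓ ∤ a`, such that `a` has multiplicative order exactly `p ^ s` modulo `ℓ`
  (a prime factor of `Φ_{p^s}(a) = 1 + y + ⋯ + y^{p-1}`, `y = a^{p^{s-1}}`).
* `exists_prime_gt_orderOf_eq_prime_pow`: such primes exist above any bound.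
* `artin_lemma_prod`, `artin_lemma_zmod`: Artin's lemma for prime degree `p`.
-/

set_option autoImplicit false

namespace Fermat.Agent.S14.ArtinLemma

open Finset

/-- The "cyclotomic value" `1 + y + ⋯ + y^{p-1}`. -/
def geomVal (p y : ℕ) : ℕ := ∑ i ∈ range p, y ^ i

theorem geomVal_mul (p y : ℕ) (hy : 1 ≤ y) : geomVal p y * (y - 1) = y ^ p - 1 := by
  unfold geomVal
  zify [hy, Nat.one_le_pow p y hy]
  exact geom_sum_mul (y : ℤ) p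

theorem lt_geomVal {p y : ℕ} (hp : 3 ≤ p) (hy : 2 ≤ y) : p < geomVal p y := by
  unfold geomVal
  calc p = ∑ _i ∈ range p, 1 := by simp
    _ < ∑ i ∈ range p, y ^ i := by
        apply Finset.sum_lt_sum
        · intro i _
          exact Nat.one_le_pow _ _ (by omega)
        · refine ⟨1, Finset.mem_range.mpr (by omega), ?_⟩
          rw [pow_one]; omega

/-- If `p ∣ 1 + y + ⋯ + y^{p-1}` then `y ≡ 1 mod p`. -/
theorem dvd_sub_one_of_dvd_geomVal {p y : ℕ} [hp : Fact p.Prime] (hy : 1 ≤ y)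
    (h : p ∣ geomVal p y) : p ∣ y - 1 := by
  have h1 : p ∣ y ^ p - 1 := by
    rw [← geomVal_mul p y hy]; exact Dvd.dvd.mul_right h _
  -- Fermat: `y ^ p ≡ y mod p`
  have h2 : ((y : ZMod p)) ^ p = y := ZMod.pow_card _
  have h3 : ((y ^ p - 1 : ℕ) : ZMod p) = 0 := (ZMod.natCast_eq_zero_iff _ _).mpr h1
  rw [Nat.cast_sub (Nat.one_le_pow p y hy), Nat.cast_pow, h2, Nat.cast_one] at h3
  rw [← ZMod.natCast_eq_zero_iff, Nat.cast_sub hy, Nat.cast_one]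
  exact h3

/-- There is a prime `ℓ ≠ p` dividing `1 + y + ⋯ + y^{p-1}` (`p` odd, `y ≥ 2`). -/
theorem exists_prime_ne_dvd_geomVal {p y : ℕ} [hp : Fact p.Prime] (hp2 : p ≠ 2) (hy : 2 ≤ y) :
    ∃ ℓ : ℕ, ℓ.Prime ∧ ℓ ≠ p ∧ ℓ ∣ geomVal p y := by
  have hp3 : 3 ≤ p := by
    have := hp.out.two_le
    omega
  have hodd : Odd p := hp.out.odd_of_ne_two hp2
  have hlt := lt_geomVal hp3 hy
  have hT0 : geomVal p y ≠ 0 := by omega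
  by_cases hpT : p ∣ geomVal p y
  · -- `v_p(T) = 1`
    have hy1 : p ∣ y - 1 := dvd_sub_one_of_dvd_geomVal (by omega) hpT
    have hpy : ¬ p ∣ y := by
      intro hpy
      have : p ∣ 1 := by
        have h := Nat.dvd_sub hpy hy1
        rwa [Nat.sub_sub_self (by omega : 1 ≤ y)] at h
      exact hp.out.one_lt.ne' (Nat.dvd_one.mp this)
    have hLTE := padicValNat.pow_sub_pow (p := p) hodd (x := y) (y := 1) (by omega)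
      hy1 hpy (n := p) hp.out.ne_zero
    rw [one_pow, padicValNat_self] at hLTE
    have hmul := geomVal_mul p y (by omega)
    have hy10 : y - 1 ≠ 0 := by omega
    have hv : padicValNat p (geomVal p y) = 1 := by
      have := padicValNat.mul (p := p) hT0 hy10
      rw [hmul, hLTE] at this
      omega
    -- write `T = p * T'`
    obtain ⟨T', hT'⟩ := hpT
    have hT'1 : 1 < T' := by
      by_contra hcon
      have : T' = 0 ∨ T' = 1 := by omega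
      rcases this with h0 | h1
      · rw [h0, mul_zero] at hT'; exact hT0 hT'
      · rw [h1, mul_one] at hT'; omega
    have hpT' : ¬ p ∣ T' := by
      intro hdiv
      obtain ⟨c, hc⟩ := hdiv
      have hpp : p ^ 2 ∣ geomVal p y := ⟨c, by rw [hT', hc]; ring⟩
      have := (padicValNat_dvd_iff_le hT0).mp hpp
      omega
    obtain ⟨ℓ, hℓ, hℓT'⟩ := Nat.exists_prime_and_dvd (by omega : T' ≠ 1)
    refine ⟨ℓ, hℓ, ?_, ?_⟩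
    · rintro rfl; exact hpT' hℓT'
    · rw [hT']; exact Dvd.dvd.mul_left hℓT' _
  · obtain ⟨ℓ, hℓ, hℓT⟩ := Nat.exists_prime_and_dvd (by omega : geomVal p y ≠ 1)
    refine ⟨ℓ, hℓ, ?_, hℓT⟩
    rintro rfl; exact hpT hℓT

/-- A prime `ℓ ≠ p` dividing `1 + y + ⋯ + y^{p-1}` with `y = a^{p^n}`: then `a` has order exactly
`p^(n+1)` modulo `ℓ`, and `ℓ ∤ a`. -/
theorem orderOf_eq_of_dvd_geomVal {p a n ℓ : ℕ} [hp : Fact p.Prime] [hℓ : Fact ℓ.Prime]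
    (hℓp : ℓ ≠ p) (hdvd : ℓ ∣ geomVal p (a ^ p ^ n)) :
    orderOf ((a : ZMod ℓ)) = p ^ (n + 1) ∧ ¬ ℓ ∣ a := by
  set x : ZMod ℓ := (a : ZMod ℓ) with hx
  have hT : (∑ i ∈ range p, (x ^ p ^ n) ^ i) = 0 := by
    have := (ZMod.natCast_eq_zero_iff (geomVal p (a ^ p ^ n)) ℓ).mpr hdvd
    unfold geomVal at this
    push_cast at this
    exact this
  have hfin : x ^ p ^ (n + 1) = 1 := by
    have h := geom_sum_mul (x ^ p ^ n) p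
    rw [hT, zero_mul] at h
    rw [pow_succ, pow_mul]
    exact (sub_eq_zero.mp h.symm)
  have hnot : ¬ x ^ p ^ n = 1 := by
    intro h1
    rw [h1] at hT
    simp only [one_pow, sum_const, card_range, nsmul_eq_mul, mul_one] at hT
    have : ℓ ∣ p := (ZMod.natCast_eq_zero_iff p ℓ).mp hT
    rcases (Nat.dvd_prime hp.out).mp this with h | h
    · exact hℓ.out.one_lt.ne' h
    · exact hℓp h
  refine ⟨orderOf_eq_prime_pow hnot hfin, ?_⟩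
  intro hℓa
  have hx0 : x = 0 := (ZMod.natCast_eq_zero_iff a ℓ).mpr hℓa
  rw [hx0, zero_pow (pow_ne_zero _ hp.out.ne_zero)] at hfin
  exact zero_ne_one hfin

/-- **Primes with prescribed prime-power order.** For `a ≥ 2`, `p` an odd prime and `n : ℕ` there
is a prime `ℓ ≠ p` not dividing `a` such that `a` has order exactly `p ^ (n+1)` modulo `ℓ`. -/
theorem exists_prime_orderOf_eq_prime_pow (a : ℕ) (ha : 2 ≤ a) (p : ℕ) [hp : Fact p.Prime]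
    (hp2 : p ≠ 2) (n : ℕ) :
    ∃ ℓ : ℕ, ℓ.Prime ∧ ℓ ≠ p ∧ ¬ ℓ ∣ a ∧ orderOf ((a : ZMod ℓ)) = p ^ (n + 1) := by
  have hy : 2 ≤ a ^ p ^ n := by
    calc 2 ≤ a := ha
      _ = a ^ 1 := (pow_one a).symm
      _ ≤ a ^ p ^ n := Nat.pow_le_pow_right (by omega) (Nat.one_le_pow _ _ hp.out.pos)
  obtain ⟨ℓ, hℓ, hℓp, hdvd⟩ := exists_prime_ne_dvd_geomVal (p := p) hp2 hy
  have : Fact ℓ.Prime := ⟨hℓ⟩
  obtain ⟨h1, h2⟩ := orderOf_eq_of_dvd_geomVal hℓp hdvd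
  exact ⟨ℓ, hℓ, hℓp, h2, h1⟩

/-- The order of `a` modulo a prime `ℓ ∤ a` divides `ℓ - 1`. -/
theorem orderOf_dvd_pred {a ℓ : ℕ} [hℓ : Fact ℓ.Prime] (h : ¬ ℓ ∣ a) :
    orderOf ((a : ZMod ℓ)) ∣ ℓ - 1 := by
  apply orderOf_dvd_of_pow_eq_one
  apply ZMod.pow_card_sub_one_eq_one
  rwa [Ne, ZMod.natCast_eq_zero_iff]

/-- Such primes exist above any bound, with order an arbitrarily large power of `p`. -/
theorem exists_prime_gt_orderOf_eq_prime_pow (a : ℕ) (ha : 2 ≤ a) (p : ℕ) [hp : Fact p.Prime]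
    (hp2 : p ≠ 2) (B s₀ : ℕ) :
    ∃ ℓ s : ℕ, ℓ.Prime ∧ ℓ ≠ p ∧ ¬ ℓ ∣ a ∧ B < ℓ ∧ s₀ ≤ s ∧ 1 ≤ s ∧
      orderOf ((a : ZMod ℓ)) = p ^ s := by
  set n := max B s₀ with hn
  obtain ⟨ℓ, hℓ, hℓp, hℓa, hord⟩ := exists_prime_orderOf_eq_prime_pow a ha p hp2 n
  have : Fact ℓ.Prime := ⟨hℓ⟩
  refine ⟨ℓ, n + 1, hℓ, hℓp, hℓa, ?_, ?_, by omega, hord⟩
  · have h1 := orderOf_dvd_pred hℓa
    rw [hord] at h1
    have h2 : p ^ (n + 1) ≤ ℓ - 1 := Nat.le_of_dvd (by have := hℓ.two_le; omega) h1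
    have h3 : n + 1 < p ^ (n + 1) := Nat.lt_pow_self hp.out.one_lt
    have : B ≤ n := le_max_left _ _
    omega
  · have : s₀ ≤ n := le_max_right _ _
    omega

/-- **Artin's lemma, arithmetic core** (prime degree `p`): two distinct large primes `ℓ₁ ≠ ℓ₂`
modulo which `a` has orders `p ^ s₁` and `p ^ s₂` with `1 ≤ s₁ < s₂`. -/
theorem exists_two_primes (a : ℕ) (ha : 2 ≤ a) (p : ℕ) [hp : Fact p.Prime] (hp2 : p ≠ 2)
    (B : ℕ) :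
    ∃ ℓ₁ ℓ₂ s₁ s₂ : ℕ, ℓ₁.Prime ∧ ℓ₂.Prime ∧ ℓ₁ ≠ ℓ₂ ∧ ℓ₁ ≠ p ∧ ℓ₂ ≠ p ∧ B < ℓ₁ ∧ B < ℓ₂ ∧
      ¬ ℓ₁ ∣ a ∧ ¬ ℓ₂ ∣ a ∧ 1 ≤ s₁ ∧ s₁ < s₂ ∧
      orderOf ((a : ZMod ℓ₁)) = p ^ s₁ ∧ orderOf ((a : ZMod ℓ₂)) = p ^ s₂ := by
  obtain ⟨ℓ₁, s₁, hℓ₁, hℓ₁p, hℓ₁a, hB₁, -, hs₁, hord₁⟩ :=
    exists_prime_gt_orderOf_eq_prime_pow a ha p hp2 B 0
  obtain ⟨ℓ₂, s₂, hℓ₂, hℓ₂p, hℓ₂a, hB₂, hs₂, -, hord₂⟩ :=
    exists_prime_gt_orderOf_eq_prime_pow a ha p hp2 B (s₁ + 1)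
  refine ⟨ℓ₁, ℓ₂, s₁, s₂, hℓ₁, hℓ₂, ?_, hℓ₁p, hℓ₂p, hB₁, hB₂, hℓ₁a, hℓ₂a, hs₁, by omega,
    hord₁, hord₂⟩
  rintro rfl
  rw [hord₁] at hord₂
  have := Nat.pow_right_injective hp.out.two_le hord₂
  omega

/-- **Artin's lemma, group-theoretic core**: in a product of two groups, if `x₁` has order `p^s₁`
and `x₂` has order `p^s₂` with `1 ≤ s₁ ≤ s₂`, then `α = (x₁, x₂)` and `β = (x₁, 1)` have orders
divisible by `p` and generate subgroups meeting trivially. -/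
theorem zpowers_inf_zpowers_eq_bot {G₁ G₂ : Type*} [Group G₁] [Group G₂] {p s₁ s₂ : ℕ}
    (hs₁ : 1 ≤ s₁) (hs : s₁ ≤ s₂) {x₁ : G₁} {x₂ : G₂} (h₁ : orderOf x₁ = p ^ s₁)
    (h₂ : orderOf x₂ = p ^ s₂) :
    p ∣ orderOf ((x₁, x₂) : G₁ × G₂) ∧ p ∣ orderOf ((x₁, 1) : G₁ × G₂) ∧
      Subgroup.zpowers ((x₁, x₂) : G₁ × G₂) ⊓ Subgroup.zpowers ((x₁, 1) : G₁ × G₂) = ⊥ := by
  have hp1 : p ∣ p ^ s₁ := dvd_pow_self p (by omega)
  refine ⟨?_, ?_, ?_⟩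
  · rw [Prod.orderOf_mk, h₁]
    exact hp1.trans (Nat.dvd_lcm_left _ _)
  · rw [Prod.orderOf_mk, h₁]
    exact hp1.trans (Nat.dvd_lcm_left _ _)
  · rw [eq_bot_iff]
    intro z hz
    obtain ⟨⟨i, hi⟩, ⟨j, hj⟩⟩ := hz
    rw [Subgroup.mem_bot]
    have hi' : ((x₁, x₂) : G₁ × G₂) ^ i = z := hi
    have hj' : ((x₁, 1) : G₁ × G₂) ^ j = z := hj
    have h2 : x₂ ^ i = 1 := by
      have := congrArg Prod.snd (hi'.trans hj'.symm)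
      simpa using this
    have hdvd₂ : (orderOf x₂ : ℤ) ∣ i := orderOf_dvd_iff_zpow_eq_one.mpr h2
    have hdvd₁ : (orderOf x₁ : ℤ) ∣ i := by
      rw [h₁]
      rw [h₂] at hdvd₂
      refine Dvd.dvd.trans ?_ hdvd₂
      exact_mod_cast pow_dvd_pow p hs
    have h1 : x₁ ^ i = 1 := orderOf_dvd_iff_zpow_eq_one.mp hdvd₁
    rw [← hi']
    ext
    · simpa using h1
    · simpa using h2

/-- The CRT isomorphism on unit groups. -/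
noncomputable def unitsCRT {m n : ℕ} (h : m.Coprime n) :
    (ZMod (m * n))ˣ ≃* (ZMod m)ˣ × (ZMod n)ˣ :=
  (Units.mapEquiv (ZMod.chineseRemainder h).toMulEquiv).trans MulEquiv.prodUnits

theorem unitsCRT_unitOfCoprime {m n : ℕ} (h : m.Coprime n) (a : ℕ) (ha : a.Coprime (m * n)) :
    unitsCRT h (ZMod.unitOfCoprime a ha)
      = (ZMod.unitOfCoprime a (Nat.Coprime.coprime_mul_right_right ha),
         ZMod.unitOfCoprime a (Nat.Coprime.coprime_mul_left_right ha)) := by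
  ext
  · simp [unitsCRT, MulEquiv.prodUnits]
  · simp [unitsCRT, MulEquiv.prodUnits]

/-- **Artin's lemma** (prime degree `p`, `p` odd): for `a ≥ 2` and any bound `B` there is a
squarefree `m = ℓ₁ ℓ₂`, all of whose prime factors are `> B` and `≠ p`, coprime to `a`, such that
the class `α` of `a` in `(ℤ/m)ˣ` has order divisible by `p`, and there is `β ∈ (ℤ/m)ˣ` of order
divisible by `p` with `⟨α⟩ ∩ ⟨β⟩ = 1`. -/
theorem artin_lemma_zmod (a : ℕ) (ha : 2 ≤ a) (p : ℕ) [hp : Fact p.Prime] (hp2 : p ≠ 2)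
    (B : ℕ) :
    ∃ ℓ₁ ℓ₂ : ℕ, ℓ₁.Prime ∧ ℓ₂.Prime ∧ ℓ₁ ≠ ℓ₂ ∧ ℓ₁ ≠ p ∧ ℓ₂ ≠ p ∧ B < ℓ₁ ∧ B < ℓ₂ ∧
      ∃ hcop : a.Coprime (ℓ₁ * ℓ₂), ∃ β : (ZMod (ℓ₁ * ℓ₂))ˣ,
        p ∣ orderOf (ZMod.unitOfCoprime a hcop) ∧ p ∣ orderOf β ∧
        Subgroup.zpowers (ZMod.unitOfCoprime a hcop) ⊓ Subgroup.zpowers β = ⊥ := by
  obtain ⟨ℓ₁, ℓ₂, s₁, s₂, hℓ₁, hℓ₂, hne, hℓ₁p, hℓ₂p, hB₁, hB₂, hℓ₁a, hℓ₂a, hs₁, hs, hord₁, hord₂⟩ :=
    exists_two_primes a ha p hp2 B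
  have hc₁ : a.Coprime ℓ₁ := ((Nat.Prime.coprime_iff_not_dvd hℓ₁).mpr hℓ₁a).symm
  have hc₂ : a.Coprime ℓ₂ := ((Nat.Prime.coprime_iff_not_dvd hℓ₂).mpr hℓ₂a).symm
  have hcop : a.Coprime (ℓ₁ * ℓ₂) := Nat.Coprime.mul_right hc₁ hc₂
  have h12 : ℓ₁.Coprime ℓ₂ := (Nat.coprime_primes hℓ₁ hℓ₂).mpr hne
  refine ⟨ℓ₁, ℓ₂, hℓ₁, hℓ₂, hne, hℓ₁p, hℓ₂p, hB₁, hB₂, hcop, ?_⟩
  set e := unitsCRT h12 with he
  set x₁ : (ZMod ℓ₁)ˣ := ZMod.unitOfCoprime a hc₁ with hx₁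
  set x₂ : (ZMod ℓ₂)ˣ := ZMod.unitOfCoprime a hc₂ with hx₂
  have ho₁ : orderOf x₁ = p ^ s₁ := by
    rw [← orderOf_units, hx₁, ZMod.coe_unitOfCoprime, hord₁]
  have ho₂ : orderOf x₂ = p ^ s₂ := by
    rw [← orderOf_units, hx₂, ZMod.coe_unitOfCoprime, hord₂]
  have hα : e (ZMod.unitOfCoprime a hcop) = (x₁, x₂) := unitsCRT_unitOfCoprime h12 a hcop
  obtain ⟨hpα, hpβ, hbot⟩ := zpowers_inf_zpowers_eq_bot (p := p) hs₁ hs.le ho₁ ho₂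
  refine ⟨e.symm (x₁, 1), ?_, ?_, ?_⟩
  · rw [← MulEquiv.orderOf_eq e, hα]; exact hpα
  · rw [← MulEquiv.orderOf_eq e, MulEquiv.apply_symm_apply]; exact hpβ
  · rw [eq_bot_iff]
    intro z hz
    rw [Subgroup.mem_bot]
    have hz' : e z ∈ Subgroup.zpowers ((x₁, x₂) : (ZMod ℓ₁)ˣ × (ZMod ℓ₂)ˣ)
        ⊓ Subgroup.zpowers ((x₁, 1) : (ZMod ℓ₁)ˣ × (ZMod ℓ₂)ˣ) := by
      obtain ⟨⟨i, hi⟩, ⟨j, hj⟩⟩ := hz
      refine ⟨⟨i, ?_⟩, ⟨j, ?_⟩⟩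
      · show ((x₁, x₂) : (ZMod ℓ₁)ˣ × (ZMod ℓ₂)ˣ) ^ i = e z
        rw [← hα, ← map_zpow]; exact congrArg e hi
      · show ((x₁, 1) : (ZMod ℓ₁)ˣ × (ZMod ℓ₂)ˣ) ^ j = e z
        have : e (e.symm (x₁, 1)) = (x₁, 1) := e.apply_symm_apply _
        rw [← this, ← map_zpow]; exact congrArg e hj
    rw [hbot, Subgroup.mem_bot] at hz'
    exact (MulEquiv.map_eq_one_iff e).mp hz'

end Fermat.Agent.S14.ArtinLemma
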