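/-
S14 groundwork, block (C): the elementary number theory behind Artin's lemma
(Lang, Algebraic Number Theory, Ch. X §2, Lemmas 1 and 2) and the group theory of the
crossing trick.  Mathlib only.

Main results (namespace `Fermat.Agent.S14.ArtinLemmaNT`):
* `exists_prime_orderOf_eq`     : `a ≥ 2`, `q` prime, `r ≥ 2` ⟹ a prime `l` with `ord_l(a) = q^r`.
* `exists_prime_gt_orderOf_eq`  : the same with `l > B` and `r ≥ r₀` arbitrary.
* `Good`, `exists_good`         : Lemma 2 in elementary form (congruences in `ZMod m`).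
* `exists_units`                : Lemma 2 in `(ZMod m)ˣ` with `Subgroup.zpowers`.
* `fst_eq_one_of_mem_closure_pair` : the subgroup generated by `(σ, β)`, `(τ, α)` in `G × C`
  meets `G × 1` trivially.
-/
import Mathlib

namespace Fermat.Agent.S14.ArtinLemmaNT

open Finset

theorem lt_geomSum {x q : ℕ} (hx : 2 ≤ x) (hq : 2 ≤ q) : q < ∑ j ∈ range q, x ^ j := by
  have h1 : ∑ _j ∈ range q, 1 < ∑ j ∈ range q, x ^ j := by
    apply Finset.sum_lt_sum
    · intro i _
      exact Nat.one_le_pow _ _ (by omega)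
    · refine ⟨1, Finset.mem_range.mpr (by omega), ?_⟩
      simp only [pow_one]
      omega
  simpa using h1

theorem pow_eq_one_of_dvd_geomSum {x q l : ℕ} (hl : l ∣ ∑ j ∈ range q, x ^ j) :
    (x : ZMod l) ^ q = 1 := by
  have h0 : ((∑ j ∈ range q, x ^ j : ℕ) : ZMod l) = 0 := (ZMod.natCast_eq_zero_iff _ _).mpr hl
  have h1 := geom_sum_mul (x : ZMod l) q
  rw [Nat.cast_sum] at h0
  simp only [Nat.cast_pow] at h0
  rw [h0, zero_mul] at h1
  exact (sub_eq_zero.mp h1.symm)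

theorem geomSum_cast_of_eq_one {x q l : ℕ} (hx : (x : ZMod l) = 1) :
    ((∑ j ∈ range q, x ^ j : ℕ) : ZMod l) = q := by
  rw [Nat.cast_sum]
  simp [hx]

theorem cast_eq_one_of_dvd_sub_one {x l : ℕ} (hx : 1 ≤ x) (h : l ∣ x - 1) : (x : ZMod l) = 1 := by
  have : ((x - 1 : ℕ) : ZMod l) = 0 := (ZMod.natCast_eq_zero_iff _ _).mpr h
  rwa [Nat.cast_sub hx, Nat.cast_one, sub_eq_zero] at this

/-- The `q`-part of the geometric sum is exactly `q` when `q ∣ x - 1` (odd `q`). -/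
theorem padicValNat_geomSum_odd {x q : ℕ} (hq : q.Prime) (hodd : Odd q) (hx : 2 ≤ x)
    (hqx : q ∣ x - 1) : padicValNat q (∑ j ∈ range q, x ^ j) = 1 := by
  have : Fact q.Prime := ⟨hq⟩
  have hnx : ¬ q ∣ x := by
    intro h
    have h1 : q ∣ 1 := by
      have := Nat.dvd_sub h hqx
      rwa [Nat.sub_sub_self (by omega : 1 ≤ x)] at this
    exact hq.one_lt.ne' (Nat.dvd_one.mp h1)
  have h1 := padicValNat.pow_sub_pow (p := q) hodd (x := x) (y := 1) (by omega) hqx hnx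
    (n := q) hq.ne_zero
  rw [one_pow, padicValNat_self] at h1
  have h2 := geom_sum_mul_of_one_le (x := x) (by omega) q
  have hT : (∑ j ∈ range q, x ^ j) ≠ 0 := by
    have := lt_geomSum hx hq.two_le
    omega
  have hx1 : x - 1 ≠ 0 := by omega
  rw [← h2, padicValNat.mul hT hx1] at h1
  omega

/-- Lang, ANT X.2 Lemma 1 (core): a prime dividing the geometric sum but not `x - 1`. -/
theorem exists_prime_dvd_geomSum {a q r : ℕ} (ha : 2 ≤ a) (hq : q.Prime) (hr : 2 ≤ r) :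
    ∃ l : ℕ, l.Prime ∧ l ∣ ∑ j ∈ range q, (a ^ q ^ (r - 1)) ^ j ∧ ¬ l ∣ a ^ q ^ (r - 1) - 1 := by
  set x := a ^ q ^ (r - 1) with hxdef
  have hx : 2 ≤ x := by
    calc 2 ≤ a := ha
      _ = a ^ 1 := (pow_one a).symm
      _ ≤ a ^ q ^ (r - 1) := Nat.pow_le_pow_right (by omega) (Nat.one_le_pow _ _ hq.pos)
  set T := ∑ j ∈ range q, x ^ j with hTdef
  have hTq : q < T := lt_geomSum hx hq.two_le
  by_contra hcon
  simp only [not_exists, not_and, not_not] at hcon
  -- every prime factor of `T` equals `q`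
  have hA : ∀ {l : ℕ}, l.Prime → l ∣ T → l = q := by
    intro l hl hlT
    have h1 : (x : ZMod l) = 1 := cast_eq_one_of_dvd_sub_one (by omega) (hcon l hl hlT)
    have h2 : ((T : ℕ) : ZMod l) = q := geomSum_cast_of_eq_one h1
    have h3 : ((T : ℕ) : ZMod l) = 0 := (ZMod.natCast_eq_zero_iff _ _).mpr hlT
    have h4 : l ∣ q := (ZMod.natCast_eq_zero_iff _ _).mp (h2 ▸ h3)
    exact (Nat.prime_dvd_prime_iff_eq hl hq).mp h4
  have hT0 : T ≠ 0 := by omega
  have hTpow := Nat.eq_prime_pow_of_unique_prime_dvd hT0 hA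
  set e := T.primeFactorsList.length with he
  have hqT : q ∣ T := by
    obtain ⟨l, hl, hlT⟩ := Nat.exists_prime_and_dvd (show T ≠ 1 by have := hq.two_le; omega)
    rwa [hA hl hlT] at hlT
  have hqx : q ∣ x - 1 := hcon q hq hqT
  -- `e = 1`
  have he1 : e = 1 := by
    rcases hq.eq_two_or_odd' with h2 | hodd
    · -- `q = 2`
      subst h2
      have hT2 : T = 1 + x := by
        rw [hTdef]; simp [Finset.sum_range_succ]
      obtain ⟨s, hs⟩ : ∃ s, r - 1 = s + 1 := ⟨r - 2, by omega⟩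
      have hxw : x = (a ^ 2 ^ s) ^ 2 := by
        rw [hxdef, hs, pow_succ, pow_mul]
      set w := a ^ 2 ^ s
      have hxodd : ¬ 2 ∣ x := by
        intro h
        have : 2 ∣ 1 := by
          have := Nat.dvd_sub h hqx
          rwa [Nat.sub_sub_self (by omega : 1 ≤ x)] at this
        omega
      have hwodd : Odd w := by
        rcases Nat.even_or_odd w with hw | hw
        · exfalso; apply hxodd; rw [hxw]
          exact dvd_pow hw.two_dvd (by norm_num)
        · exact hw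
      obtain ⟨k, hk⟩ := hwodd
      have hT4 : T % 4 = 2 := by
        rw [hT2, hxw, hk]
        ring_nf
        omega
      rcases Nat.lt_or_ge e 2 with h | h
      · interval_cases e
        · rw [pow_zero] at hTpow; omega
        · rfl
      · exfalso
        obtain ⟨d, hd⟩ := Nat.exists_eq_add_of_le h
        rw [hd, pow_add] at hTpow
        omega
    · -- `q` odd
      have h1 := padicValNat_geomSum_odd hq hodd hx hqx
      rw [← hTdef, hTpow] at h1
      have : Fact q.Prime := ⟨hq⟩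
      rwa [padicValNat.prime_pow] at h1
  rw [he1, pow_one] at hTpow
  omega


/-- Lang, ANT X.2 Lemma 1: for `a ≥ 2`, `q` prime, `r ≥ 2` there is a prime `l` such that
`a mod l` has multiplicative order exactly `q ^ r`. -/
theorem exists_prime_orderOf_eq (a q r : ℕ) (ha : 2 ≤ a) (hq : q.Prime) (hr : 2 ≤ r) :
    ∃ l : ℕ, l.Prime ∧ a.Coprime l ∧ orderOf (a : ZMod l) = q ^ r := by
  obtain ⟨l, hl, hlT, hlx⟩ := exists_prime_dvd_geomSum ha hq hr
  have hx1le : 1 ≤ a ^ q ^ (r - 1) := Nat.one_le_pow _ _ (by omega)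
  have hxq : ((a ^ q ^ (r - 1) : ℕ) : ZMod l) ^ q = 1 := pow_eq_one_of_dvd_geomSum hlT
  have hx1 : ((a ^ q ^ (r - 1) : ℕ) : ZMod l) ≠ 1 := by
    intro h
    apply hlx
    have : ((a ^ q ^ (r - 1) - 1 : ℕ) : ZMod l) = 0 := by
      rw [Nat.cast_sub hx1le, h, Nat.cast_one, sub_self]
    exact (ZMod.natCast_eq_zero_iff _ _).mp this
  rw [Nat.cast_pow] at hxq hx1
  have hfact : Fact q.Prime := ⟨hq⟩
  have hr' : r = (r - 1) + 1 := by omega
  have hord : orderOf (a : ZMod l) = q ^ r := by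
    rw [hr']
    apply orderOf_eq_prime_pow
    · exact hx1
    · rw [pow_succ, pow_mul]; exact hxq
  refine ⟨l, hl, ?_, hord⟩
  have hpow : (a : ZMod l) ^ q ^ r = 1 := by
    rw [← hord]; exact pow_orderOf_eq_one _
  have hunit : IsUnit (a : ZMod l) := IsUnit.of_pow_eq_one hpow (pow_ne_zero _ hq.ne_zero)
  exact (ZMod.isUnit_iff_coprime a l).mp hunit

/-- Arbitrarily large primes `l` (and exponents) with `ord_l(a) = q ^ r`. -/
theorem exists_prime_gt_orderOf_eq (a q : ℕ) (ha : 2 ≤ a) (hq : q.Prime) (r₀ B : ℕ) :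
    ∃ r l : ℕ, r₀ ≤ r ∧ l.Prime ∧ B < l ∧ a.Coprime l ∧ orderOf (a : ZMod l) = q ^ r := by
  set r := max (max r₀ 2) B with hr
  obtain ⟨l, hl, hco, hord⟩ := exists_prime_orderOf_eq a q r ha hq (by omega)
  refine ⟨r, l, by omega, hl, ?_, hco, hord⟩
  have : Fact l.Prime := ⟨hl⟩
  have h1 : orderOf (a : ZMod l) ≤ Fintype.card (ZMod l) := orderOf_le_card_univ
  rw [ZMod.card, hord] at h1
  have h2 : B < 2 ^ r := lt_of_le_of_lt (by omega : B ≤ r) Nat.lt_two_pow_self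
  have h3 : 2 ^ r ≤ q ^ r := Nat.pow_le_pow_left hq.two_le r
  omega


/-- Reduction of orders along `ZMod m → ZMod m₁` for `m₁ ∣ m`. -/
theorem orderOf_cast_dvd {m₁ m : ℕ} (h : m₁ ∣ m) (x : ℕ) :
    orderOf (x : ZMod m₁) ∣ orderOf (x : ZMod m) := by
  have := orderOf_map_dvd (ZMod.castHom h (ZMod m₁)).toMonoidHom (x : ZMod m)
  simpa using this

theorem pow_eq_of_dvd {m₁ m : ℕ} (h : m₁ ∣ m) {x y u v : ℕ}
    (hxy : (x : ZMod m) ^ u = (y : ZMod m) ^ v) : (x : ZMod m₁) ^ u = (y : ZMod m₁) ^ v := by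
  have := congrArg (ZMod.castHom h (ZMod m₁)) hxy
  rwa [map_pow, map_pow, map_natCast, map_natCast] at this

theorem pow_eq_one_of_coprime_mul {m₁ m₂ : ℕ} (hco : m₁.Coprime m₂) {x u : ℕ}
    (h₁ : (x : ZMod m₁) ^ u = 1) (h₂ : (x : ZMod m₂) ^ u = 1) : (x : ZMod (m₁ * m₂)) ^ u = 1 := by
  have e₁ : ((x ^ u : ℕ) : ZMod m₁) = ((1 : ℕ) : ZMod m₁) := by simpa using h₁
  have e₂ : ((x ^ u : ℕ) : ZMod m₂) = ((1 : ℕ) : ZMod m₂) := by simpa using h₂
  rw [ZMod.natCast_eq_natCast_iff] at e₁ e₂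
  have := (Nat.modEq_and_modEq_iff_modEq_mul hco).mp ⟨e₁, e₂⟩
  have e := (ZMod.natCast_eq_natCast_iff _ _ _).mpr this
  simpa using e

/-- The conclusion of Artin's lemma (Lang, ANT X.2 Lemma 2) for a modulus `m` and an auxiliary
residue `b`. -/
structure Good (a n N m b : ℕ) : Prop where
  one_lt : 1 < m
  squarefree : Squarefree m
  coprime_N : m.Coprime N
  coprime_a : a.Coprime m
  coprime_b : b.Coprime m
  dvd_a : n ∣ orderOf (a : ZMod m)
  dvd_b : n ∣ orderOf (b : ZMod m)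
  inter : ∀ u v : ℕ, (a : ZMod m) ^ u = (b : ZMod m) ^ v → (a : ZMod m) ^ u = 1

theorem Good.of_dvd {a n n' N m b : ℕ} (h : Good a n N m b) (hn : n' ∣ n) : Good a n' N m b :=
  { h with dvd_a := hn.trans h.dvd_a, dvd_b := hn.trans h.dvd_b }

/-- The prime power case. -/
theorem exists_good_prime_pow (a : ℕ) (ha : 2 ≤ a) (q : ℕ) (hq : q.Prime) (r N : ℕ) (hN : 0 < N) :
    ∃ m b, Good a (q ^ r) N m b := by
  obtain ⟨r₁, l₁, hr₁, hl₁, hB₁, hco₁, hord₁⟩ := exists_prime_gt_orderOf_eq a q ha hq r N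
  obtain ⟨r₂, l₂, hr₂, hl₂, hB₂, hco₂, hord₂⟩ :=
    exists_prime_gt_orderOf_eq a q ha hq (r₁ + 1) (max N l₁)
  have hne : l₁ ≠ l₂ := by omega
  have hco : l₁.Coprime l₂ := (Nat.coprime_primes hl₁ hl₂).mpr hne
  obtain ⟨b, hb₁, hb₂⟩ := Nat.chineseRemainder hco a 1
  have hbz₁ : (b : ZMod l₁) = (a : ZMod l₁) := (ZMod.natCast_eq_natCast_iff _ _ _).mpr hb₁
  have hbz₂ : (b : ZMod l₂) = 1 := by
    have := (ZMod.natCast_eq_natCast_iff _ _ _).mpr hb₂
    simpa using this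
  have hcoN : ∀ {l : ℕ}, l.Prime → N < l → l.Coprime N := by
    intro l hl hlt
    exact (Nat.Prime.coprime_iff_not_dvd hl).mpr (Nat.not_dvd_of_pos_of_lt hN hlt)
  refine ⟨l₁ * l₂, b, ?_⟩
  refine
    { one_lt := ?_
      squarefree := ?_
      coprime_N := ?_
      coprime_a := ?_
      coprime_b := ?_
      dvd_a := ?_
      dvd_b := ?_
      inter := ?_ }
  · have := hl₁.two_le; have := hl₂.two_le; nlinarith
  · rw [Nat.squarefree_mul_iff]
    exact ⟨hco, hl₁.prime.squarefree, hl₂.prime.squarefree⟩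
  · exact Nat.Coprime.mul_left (hcoN hl₁ hB₁) (hcoN hl₂ (by omega))
  · exact Nat.Coprime.mul_right hco₁ hco₂
  · apply Nat.Coprime.mul_right
    · show Nat.gcd b l₁ = 1
      rw [hb₁.gcd_eq]; exact hco₁
    · show Nat.gcd b l₂ = 1
      rw [hb₂.gcd_eq]; simp
  · refine dvd_trans ?_ (orderOf_cast_dvd (dvd_mul_right l₁ l₂) a)
    rw [hord₁]; exact pow_dvd_pow q hr₁
  · refine dvd_trans ?_ (orderOf_cast_dvd (dvd_mul_right l₁ l₂) b)
    rw [hbz₁, hord₁]; exact pow_dvd_pow q hr₁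
  · intro u v huv
    have h₂ := pow_eq_of_dvd (dvd_mul_left l₂ l₁) huv
    rw [hbz₂, one_pow] at h₂
    have hdvd : q ^ r₂ ∣ u := by
      rw [← hord₂]; exact orderOf_dvd_of_pow_eq_one h₂
    have h₁ : (a : ZMod l₁) ^ u = 1 := by
      apply orderOf_dvd_iff_pow_eq_one.mp
      rw [hord₁]
      exact (pow_dvd_pow q (by omega)).trans hdvd
    exact pow_eq_one_of_coprime_mul hco h₁ h₂


/-- Gluing two instances with coprime orders and coprime moduli. -/
theorem Good.mul {a n₁ n₂ N m₁ m₂ b₁ b₂ : ℕ} (hn : n₁.Coprime n₂) (h₁ : Good a n₁ N m₁ b₁)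
    (h₂ : Good a n₂ (N * m₁) m₂ b₂) : ∃ b, Good a (n₁ * n₂) N (m₁ * m₂) b := by
  have hco : m₁.Coprime m₂ := (Nat.Coprime.coprime_mul_left_right h₂.coprime_N).symm
  have hco2N : m₂.Coprime N := Nat.Coprime.coprime_mul_right_right h₂.coprime_N
  obtain ⟨b, hb₁, hb₂⟩ := Nat.chineseRemainder hco b₁ b₂
  have hbz₁ : (b : ZMod m₁) = (b₁ : ZMod m₁) := (ZMod.natCast_eq_natCast_iff _ _ _).mpr hb₁
  have hbz₂ : (b : ZMod m₂) = (b₂ : ZMod m₂) := (ZMod.natCast_eq_natCast_iff _ _ _).mpr hb₂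
  refine ⟨b, ?_⟩
  refine
    { one_lt := ?_
      squarefree := ?_
      coprime_N := ?_
      coprime_a := ?_
      coprime_b := ?_
      dvd_a := ?_
      dvd_b := ?_
      inter := ?_ }
  · have := h₁.one_lt; have := h₂.one_lt; nlinarith
  · rw [Nat.squarefree_mul_iff]
    exact ⟨hco, h₁.squarefree, h₂.squarefree⟩
  · exact Nat.Coprime.mul_left h₁.coprime_N hco2N
  · exact Nat.Coprime.mul_right h₁.coprime_a h₂.coprime_a
  · apply Nat.Coprime.mul_right
    · show Nat.gcd b m₁ = 1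
      rw [hb₁.gcd_eq]; exact h₁.coprime_b
    · show Nat.gcd b m₂ = 1
      rw [hb₂.gcd_eq]; exact h₂.coprime_b
  · exact Nat.Coprime.mul_dvd_of_dvd_of_dvd hn
      (h₁.dvd_a.trans (orderOf_cast_dvd (dvd_mul_right m₁ m₂) a))
      (h₂.dvd_a.trans (orderOf_cast_dvd (dvd_mul_left m₂ m₁) a))
  · refine Nat.Coprime.mul_dvd_of_dvd_of_dvd hn
      (dvd_trans ?_ (orderOf_cast_dvd (dvd_mul_right m₁ m₂) b))
      (dvd_trans ?_ (orderOf_cast_dvd (dvd_mul_left m₂ m₁) b))
    · rw [hbz₁]; exact h₁.dvd_b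
    · rw [hbz₂]; exact h₂.dvd_b
  · intro u v huv
    have e₁ := pow_eq_of_dvd (dvd_mul_right m₁ m₂) huv
    have e₂ := pow_eq_of_dvd (dvd_mul_left m₂ m₁) huv
    rw [hbz₁] at e₁
    rw [hbz₂] at e₂
    exact pow_eq_one_of_coprime_mul hco (h₁.inter u v e₁) (h₂.inter u v e₂)

/-- **Artin's lemma, elementary form** (Lang, ANT X.2 Lemma 2).  For `a ≥ 2`, `n ≥ 1` and any
`N ≥ 1` there is a squarefree modulus `m > 1` prime to `N` and to `a`, and `b` prime to `m`, such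
that the orders of `a` and `b` in `(ℤ/m)ˣ` are both divisible by `n` and the cyclic groups they
generate meet trivially. -/
theorem exists_good (a : ℕ) (ha : 2 ≤ a) (n : ℕ) (hn : 0 < n) :
    ∀ N : ℕ, 0 < N → ∃ m b, Good a n N m b := by
  induction n using Nat.recOnPosPrimePosCoprime with
  | prime_pow q r hq hr =>
    intro N hN
    exact exists_good_prime_pow a ha q hq r N hN
  | zero => exact absurd hn (lt_irrefl 0)
  | one =>
    intro N hN
    obtain ⟨m, b, h⟩ := exists_good_prime_pow a ha 2 Nat.prime_two 0 N hN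
    exact ⟨m, b, h.of_dvd (by simp)⟩
  | coprime n₁ n₂ h1 h2 hco ih₁ ih₂ =>
    intro N hN
    obtain ⟨m₁, b₁, g₁⟩ := ih₁ (by omega) N hN
    obtain ⟨m₂, b₂, g₂⟩ := ih₂ (by omega) (N * m₁) (Nat.mul_pos hN (by have := g₁.one_lt; omega))
    obtain ⟨b, g⟩ := g₁.mul hco g₂
    exact ⟨m₁ * m₂, b, g⟩

/-- Artin's lemma in the unit group `(ZMod m)ˣ`: the cyclic subgroups generated by the classes of
`a` and `b` have orders divisible by `n` and trivial intersection. -/
theorem exists_units (a : ℕ) (ha : 2 ≤ a) (n : ℕ) (hn : 0 < n) (N : ℕ) (hN : 0 < N) :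
    ∃ m : ℕ, 1 < m ∧ Squarefree m ∧ m.Coprime N ∧ ∃ (hco : a.Coprime m) (β : (ZMod m)ˣ),
      n ∣ orderOf (ZMod.unitOfCoprime a hco) ∧ n ∣ orderOf β ∧
        Subgroup.zpowers (ZMod.unitOfCoprime a hco) ⊓ Subgroup.zpowers β = ⊥ := by
  obtain ⟨m, b, g⟩ := exists_good a ha n hn N hN
  have : NeZero m := ⟨by have := g.one_lt; omega⟩
  refine ⟨m, g.one_lt, g.squarefree, g.coprime_N, g.coprime_a, ZMod.unitOfCoprime b g.coprime_b,
    ?_, ?_, ?_⟩
  · rw [← orderOf_units, ZMod.coe_unitOfCoprime]; exact g.dvd_a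
  · rw [← orderOf_units, ZMod.coe_unitOfCoprime]; exact g.dvd_b
  · rw [eq_bot_iff]
    intro x hx
    rw [Subgroup.mem_inf] at hx
    obtain ⟨hxa, hxb⟩ := hx
    rw [← mem_powers_iff_mem_zpowers] at hxa hxb
    obtain ⟨u, rfl⟩ := hxa
    obtain ⟨v, hv⟩ := hxb
    rw [Subgroup.mem_bot]
    have h1 : (a : ZMod m) ^ u = (b : ZMod m) ^ v := by
      have := congrArg (fun y : (ZMod m)ˣ => (y : ZMod m)) hv.symm
      simpa using this
    have h2 := g.inter u v h1
    apply Units.ext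
    simpa using h2

/-- The group theory of Artin's crossing trick: in `G × C` (`G` of exponent `n`), the subgroup
generated by `(σ, β)` and `(τ, α)` meets `G × 1` trivially as soon as the orders of `α` and `β`
are divisible by `n` and `⟨α⟩ ∩ ⟨β⟩ = 1`. -/
theorem fst_eq_one_of_mem_closure_pair {G C : Type*} [CommGroup G] [CommGroup C] {n : ℕ}
    (hG : ∀ g : G, g ^ n = 1) (σ τ : G) {α β : C} (hα : n ∣ orderOf α) (hβ : n ∣ orderOf β)
    (hint : Subgroup.zpowers α ⊓ Subgroup.zpowers β = ⊥) {x : G × C}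
    (hx : x ∈ Subgroup.closure ({(σ, β), (τ, α)} : Set (G × C))) (hx2 : x.2 = 1) : x.1 = 1 := by
  rw [Subgroup.mem_closure_pair] at hx
  obtain ⟨i, j, rfl⟩ := hx
  simp only [Prod.pow_mk, Prod.mk_mul_mk] at hx2 ⊢
  have hzG : ∀ (g : G) (k : ℤ), (n : ℤ) ∣ k → g ^ k = 1 := by
    intro g k hk
    obtain ⟨c, rfl⟩ := hk
    rw [zpow_mul, zpow_natCast, hG, one_zpow]
  have hβi : β ^ i = 1 := by
    have hmem : β ^ i ∈ Subgroup.zpowers α ⊓ Subgroup.zpowers β := by
      refine Subgroup.mem_inf.mpr ⟨?_, ⟨i, rfl⟩⟩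
      refine ⟨-j, ?_⟩
      show α ^ (-j) = β ^ i
      rw [zpow_neg, eq_comm, ← mul_eq_one_iff_eq_inv]
      exact hx2
    rw [hint, Subgroup.mem_bot] at hmem
    exact hmem
  have hαj : α ^ j = 1 := by
    rwa [hβi, one_mul] at hx2
  have hi : (n : ℤ) ∣ i :=
    (Int.natCast_dvd_natCast.mpr hβ).trans (orderOf_dvd_iff_zpow_eq_one.mpr hβi)
  have hj : (n : ℤ) ∣ j :=
    (Int.natCast_dvd_natCast.mpr hα).trans (orderOf_dvd_iff_zpow_eq_one.mpr hαj)
  rw [hzG σ i hi, hzG τ j hj, one_mul]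

/-- The same subgroup projects onto any subgroup of `G` containing... at least it contains an
element with first coordinate `σ`. -/
theorem exists_mem_closure_pair_fst {G C : Type*} [CommGroup G] [CommGroup C] (σ τ : G) (α β : C) :
    ∃ x ∈ Subgroup.closure ({(σ, β), (τ, α)} : Set (G × C)), x.1 = σ :=
  ⟨(σ, β), Subgroup.subset_closure (by simp), rfl⟩

end Fermat.Agent.S14.ArtinLemmaNT
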