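import Mathlib

/-!
# The Artin map on ideals for an unramified abelian extension of number fields

`K ⊆ L` number fields, `L/K` abelian Galois.  For a nonzero prime `v` of `𝓞 K` we define
`frob K L v : Gal(L/K)`, a Frobenius element at every prime of `𝓞 L` above `v`; when `L/K` is
unramified (`Unram K L`) it is the unique such element.  `art K L : (Ideal (𝓞 K))⁰ →* Gal(L/K)`
is its multiplicative extension.
-/

open NumberField

open scoped IsMulCommutative Pointwise nonZeroDivisors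

namespace Fermat.Agent.S14.ArtinMap

section Defs

variable (K L : Type*) [Field K] [NumberField K] [Field L] [NumberField L] [Algebra K L]

section Basic

set_option linter.unusedSectionVars false

/-- `L/K` is unramified at all finite primes, in inertia-group form. -/
def Unram [IsGalois K L] : Prop :=
  ∀ P : Ideal (𝓞 L), P.IsPrime → P ≠ ⊥ → ∀ σ : Gal(L/K), σ ∈ P.inertia Gal(L/K) → σ = 1

variable {K} in
theorem exists_prime_over (v : Ideal (𝓞 K)) [v.IsPrime] :
    ∃ P : Ideal (𝓞 L), P.IsPrime ∧ P.LiesOver v := by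
  obtain ⟨⟨P, hP1, hP2⟩⟩ := Ideal.nonempty_primesOver (S := 𝓞 L) v
  exact ⟨P, hP1, hP2⟩

variable {K L} in
theorem finite_quotient_of_liesOver {v : Ideal (𝓞 K)} (hv : v ≠ ⊥) (P : Ideal (𝓞 L))
    [P.LiesOver v] : Finite (𝓞 L ⧸ P) :=
  Ideal.finiteQuotientOfFreeOfNeBot P (Ideal.ne_bot_of_liesOver_of_ne_bot hv P)

end Basic

variable [IsAbelianGalois K L]

/-- The Frobenius element of a nonzero prime `v` of `𝓞 K` in the abelian extension `L/K`
(junk value `1` if `v` is not a nonzero prime). -/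
noncomputable def frob (v : Ideal (𝓞 K)) : Gal(L/K) := by
  classical
  exact
    if h : v.IsPrime ∧ v ≠ ⊥ then
      haveI := h.1
      let P := (exists_prime_over L v).choose
      haveI : P.IsPrime := (exists_prime_over L v).choose_spec.1
      haveI : P.LiesOver v := (exists_prime_over L v).choose_spec.2
      haveI : Finite (𝓞 L ⧸ P) := finite_quotient_of_liesOver h.2 P
      arithFrobAt (𝓞 K) Gal(L/K) P
    else 1

variable {K L}

theorem frob_of_not {v : Ideal (𝓞 K)} (h : ¬ (v.IsPrime ∧ v ≠ ⊥)) : frob K L v = 1 := by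
  classical
  simp only [frob, dif_neg h]

/-- `frob K L v` is a Frobenius element at EVERY prime of `𝓞 L` above `v` (only abelian needed). -/
theorem frob_spec {v : Ideal (𝓞 K)} [hv : v.IsPrime] (hv0 : v ≠ ⊥) (P : Ideal (𝓞 L)) [P.IsPrime]
    [hP : P.LiesOver v] : IsArithFrobAt (𝓞 K) (frob K L v) P := by
  classical
  have h : v.IsPrime ∧ v ≠ ⊥ := ⟨hv, hv0⟩
  let P₀ := (exists_prime_over L v).choose
  have : P₀.IsPrime := (exists_prime_over L v).choose_spec.1
  have : P₀.LiesOver v := (exists_prime_over L v).choose_spec.2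
  have : Finite (𝓞 L ⧸ P₀) := finite_quotient_of_liesOver hv0 P₀
  have : Finite (𝓞 L ⧸ P) := finite_quotient_of_liesOver hv0 P
  have h1 : frob K L v = arithFrobAt (𝓞 K) Gal(L/K) P₀ := by
    simp only [frob, dif_pos h]
    rfl
  have h2 : IsConj (arithFrobAt (𝓞 K) Gal(L/K) P₀) (arithFrobAt (𝓞 K) Gal(L/K) P) :=
    isConj_arithFrobAt (𝓞 K) Gal(L/K) P₀ P
      ((Ideal.LiesOver.over (p := v) (P := P₀)).symm.trans (Ideal.LiesOver.over (p := v) (P := P)))
  have h3 : arithFrobAt (𝓞 K) Gal(L/K) P₀ = arithFrobAt (𝓞 K) Gal(L/K) P := by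
    obtain ⟨c, hc⟩ := h2
    rw [SemiconjBy, mul_comm] at hc
    exact mul_right_cancel hc
  rw [h1, h3]
  exact IsArithFrobAt.arithFrobAt (𝓞 K) Gal(L/K) P

/-- In the unramified case the Frobenius is unique. -/
theorem frob_unique (hU : Unram K L) {v : Ideal (𝓞 K)} [v.IsPrime] (hv0 : v ≠ ⊥)
    (P : Ideal (𝓞 L)) [P.IsPrime] [P.LiesOver v] {σ : Gal(L/K)}
    (hσ : IsArithFrobAt (𝓞 K) σ P) : σ = frob K L v := by
  have h := hσ.mul_inv_mem_inertia (frob_spec (K := K) (L := L) hv0 P)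
  have := hU P inferInstance (Ideal.ne_bot_of_liesOver_of_ne_bot hv0 P) _ h
  exact mul_inv_eq_one.mp this

/-! ### The Artin map on nonzero ideals -/

open UniqueFactorizationMonoid in
variable (K L) in
/-- The Artin map `(Ideal (𝓞 K))⁰ →* Gal(L/K)`: multiplicative extension of `frob`. -/
noncomputable def art : (Ideal (𝓞 K))⁰ →* Gal(L/K) where
  toFun I := ((normalizedFactors (I : Ideal (𝓞 K))).map (frob K L)).prod
  map_one' := by
    simp only [Submonoid.coe_one, normalizedFactors_one, Multiset.map_zero, Multiset.prod_zero]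
  map_mul' I J := by
    have hI : (I : Ideal (𝓞 K)) ≠ 0 := nonZeroDivisors.coe_ne_zero I
    have hJ : (J : Ideal (𝓞 K)) ≠ 0 := nonZeroDivisors.coe_ne_zero J
    simp only [Submonoid.coe_mul, normalizedFactors_mul hI hJ, Multiset.map_add, Multiset.prod_add]

open UniqueFactorizationMonoid in
theorem art_apply (I : (Ideal (𝓞 K))⁰) :
    art K L I = ((normalizedFactors (I : Ideal (𝓞 K))).map (frob K L)).prod := rfl

open UniqueFactorizationMonoid in
theorem art_prime (v : (Ideal (𝓞 K))⁰) (hv : (v : Ideal (𝓞 K)).IsPrime) :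
    art K L v = frob K L v := by
  have hv0 : (v : Ideal (𝓞 K)) ≠ ⊥ := nonZeroDivisors.coe_ne_zero v
  have hirr : Irreducible (v : Ideal (𝓞 K)) := (Ideal.prime_of_isPrime hv0 hv).irreducible
  rw [art_apply, normalizedFactors_irreducible hirr, normalize_eq]
  simp

/-- If `frob` is trivial at every prime factor, then `art I = 1`. -/
theorem art_eq_one_of_forall_prime (I : (Ideal (𝓞 K))⁰)
    (h : ∀ v : Ideal (𝓞 K), v.IsPrime → v ≠ ⊥ → (I : Ideal (𝓞 K)) ≤ v → frob K L v = 1) :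
    art K L I = 1 := by
  rw [art_apply]
  apply Multiset.prod_eq_one
  intro g hg
  obtain ⟨v, hv, rfl⟩ := Multiset.mem_map.mp hg
  have hI : (I : Ideal (𝓞 K)) ≠ 0 := nonZeroDivisors.coe_ne_zero I
  have hp := UniqueFactorizationMonoid.prime_of_normalized_factor v hv
  exact h v (Ideal.isPrime_of_prime hp) hp.ne_zero
    (Ideal.le_of_dvd (UniqueFactorizationMonoid.dvd_of_mem_normalizedFactors hv))


end Defs

/-! ### Order of the Frobenius, norms die -/

section Galois

variable {K L : Type*} [Field K] [NumberField K] [Field L] [NumberField L] [Algebra K L]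
  [IsGalois K L]

/-- Iterating a Frobenius element: `σ^n x ≡ x^(q^n) mod P`. -/
theorem mk_pow_smul {P : Ideal (𝓞 L)} [P.IsPrime] {σ : Gal(L/K)}
    (hσ : IsArithFrobAt (𝓞 K) σ P) (n : ℕ) (x : 𝓞 L) :
    Ideal.Quotient.mk P (σ ^ n • x) =
      (Ideal.Quotient.mk P x) ^ (Nat.card (𝓞 K ⧸ P.under (𝓞 K)) ^ n) := by
  induction n generalizing x with
  | zero => simp
  | succ n ih =>
    rw [pow_succ', mul_smul]
    have := hσ.mk_apply (σ ^ n • x)
    simp only [MulSemiringAction.toAlgHom_apply] at this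
    rw [this, ih, ← pow_mul, pow_succ]

/-- If `σ^n = 1` for a Frobenius `σ` at `P`, then the inertia degree divides `n`. -/
theorem inertiaDeg_dvd_of_pow_eq_one {v : Ideal (𝓞 K)} [v.IsPrime] (hv0 : v ≠ ⊥)
    {P : Ideal (𝓞 L)} [P.IsPrime] [P.LiesOver v] {σ : Gal(L/K)}
    (hσ : IsArithFrobAt (𝓞 K) σ P) {n : ℕ} (hn : σ ^ n = 1) :
    P.inertiaDeg (𝓞 K) ∣ n := by
  have hP0 : P ≠ ⊥ := Ideal.ne_bot_of_liesOver_of_ne_bot hv0 P
  have : v.IsMaximal := Ring.DimensionLEOne.maximalOfPrime hv0 inferInstance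
  have : P.IsMaximal := Ring.DimensionLEOne.maximalOfPrime hP0 inferInstance
  have hover : P.under (𝓞 K) = v := (Ideal.over_def P v).symm
  have : Finite (𝓞 L ⧸ P) := Ideal.finiteQuotientOfFreeOfNeBot P hP0
  have : Finite (𝓞 K ⧸ v) := Ideal.finiteQuotientOfFreeOfNeBot v hv0
  let _ : Field (𝓞 L ⧸ P) := Ideal.Quotient.field P
  let _ : Field (𝓞 K ⧸ v) := Ideal.Quotient.field v
  let _ := Fintype.ofFinite (𝓞 K ⧸ v)
  rw [Ideal.inertiaDeg_eq_of_isMaximal v P, ← FiniteField.orderOf_frobeniusAlgHom]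
  apply orderOf_dvd_of_pow_eq_one
  apply DFunLike.ext _ _
  intro x
  obtain ⟨x, rfl⟩ := Ideal.Quotient.mk_surjective x
  rw [AlgHom.coe_pow, FiniteField.coe_frobeniusAlgHom, pow_iterate, AlgHom.one_apply]
  have := mk_pow_smul hσ n x
  rw [hn, one_smul, hover, Nat.card_eq_fintype_card] at this
  exact this.symm

/-- `σ^f = 1` on the residue field, i.e. `σ^f ∈ inertia`. -/
theorem pow_inertiaDeg_mem_inertia {v : Ideal (𝓞 K)} [v.IsPrime] (hv0 : v ≠ ⊥)
    {P : Ideal (𝓞 L)} [P.IsPrime] [P.LiesOver v] {σ : Gal(L/K)}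
    (hσ : IsArithFrobAt (𝓞 K) σ P) :
    σ ^ (P.inertiaDeg (𝓞 K)) ∈ P.inertia Gal(L/K) := by
  intro x
  change σ ^ P.inertiaDeg (𝓞 K) • x - x ∈ P
  rw [← Ideal.Quotient.eq, mk_pow_smul hσ]
  have hP0 : P ≠ ⊥ := Ideal.ne_bot_of_liesOver_of_ne_bot hv0 P
  have : v.IsMaximal := Ring.DimensionLEOne.maximalOfPrime hv0 inferInstance
  have : P.IsMaximal := Ring.DimensionLEOne.maximalOfPrime hP0 inferInstance
  have hover : P.under (𝓞 K) = v := (Ideal.over_def P v).symm
  have hc := Ideal.cardQuot_pow_inertiaDeg v P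
  rw [Submodule.cardQuot_apply, Submodule.cardQuot_apply] at hc
  rw [hover, hc]
  have : Finite (𝓞 L ⧸ P) := Ideal.finiteQuotientOfFreeOfNeBot P hP0
  let _ : Field (𝓞 L ⧸ P) := Ideal.Quotient.field P
  let _ := Fintype.ofFinite (𝓞 L ⧸ P)
  rw [Nat.card_eq_fintype_card, FiniteField.pow_card]

end Galois

section Order

/-- A monoid hom out of the nonzero ideals of a Dedekind domain which kills all nonzero primes
is trivial. -/
theorem monoidHom_eq_one_of_forall_prime {R : Type*} [CommRing R] [IsDedekindDomain R]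
    {G : Type*} [Monoid G] (φ : (Ideal R)⁰ →* G)
    (h : ∀ (v : Ideal R) (hv : v ∈ (Ideal R)⁰), v.IsPrime → φ ⟨v, hv⟩ = 1)
    (I : (Ideal R)⁰) : φ I = 1 := by
  obtain ⟨I, hI⟩ := I
  induction I using UniqueFactorizationMonoid.induction_on_prime with
  | h₁ => exact absurd rfl (nonZeroDivisors.ne_zero hI)
  | h₂ x hx =>
    have : x = 1 := by simpa using hx
    subst this
    exact map_one φ
  | h₃ a p ha0 hp ih =>
    have hp0 : p ∈ (Ideal R)⁰ := mem_nonZeroDivisors_of_ne_zero hp.ne_zero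
    have ha : a ∈ (Ideal R)⁰ := mem_nonZeroDivisors_of_ne_zero ha0
    have : (⟨p * a, hI⟩ : (Ideal R)⁰) = ⟨p, hp0⟩ * ⟨a, ha⟩ := rfl
    rw [this, map_mul, ih ha, h p hp0 (Ideal.isPrime_of_prime hp), one_mul]

variable {K L : Type*} [Field K] [NumberField K] [Field L] [NumberField L] [Algebra K L]

section

variable [IsAbelianGalois K L]

theorem frob_pow_inertiaDeg (hU : Unram K L) {v : Ideal (𝓞 K)} [v.IsPrime] (hv0 : v ≠ ⊥)
    (P : Ideal (𝓞 L)) [P.IsPrime] [P.LiesOver v] :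
    frob K L v ^ (P.inertiaDeg (𝓞 K)) = 1 :=
  hU P inferInstance (Ideal.ne_bot_of_liesOver_of_ne_bot hv0 P) _
    (pow_inertiaDeg_mem_inertia hv0 (frob_spec hv0 P))

theorem orderOf_frob (hU : Unram K L) {v : Ideal (𝓞 K)} [v.IsPrime] (hv0 : v ≠ ⊥)
    (P : Ideal (𝓞 L)) [P.IsPrime] [P.LiesOver v] :
    orderOf (frob K L v) = P.inertiaDeg (𝓞 K) :=
  Nat.dvd_antisymm (orderOf_dvd_of_pow_eq_one (frob_pow_inertiaDeg hU hv0 P))
    (inertiaDeg_dvd_of_pow_eq_one hv0 (frob_spec hv0 P) (pow_orderOf_eq_one _))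

theorem frob_eq_one_iff (hU : Unram K L) {v : Ideal (𝓞 K)} [v.IsPrime] (hv0 : v ≠ ⊥)
    (P : Ideal (𝓞 L)) [P.IsPrime] [P.LiesOver v] :
    frob K L v = 1 ↔ P.inertiaDeg (𝓞 K) = 1 := by
  rw [← orderOf_frob hU hv0 P, orderOf_eq_one_iff]

end

end Order

section Norm

variable (K : Type*) {L : Type*} [Field K] [NumberField K] [Field L] [NumberField L] [Algebra K L]

/-- The relative norm as a monoid hom on nonzero ideals. -/
noncomputable def relNorm₀ : (Ideal (𝓞 L))⁰ →* (Ideal (𝓞 K))⁰ where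
  toFun J := ⟨Ideal.relNorm (𝓞 K) (J : Ideal (𝓞 L)),
    mem_nonZeroDivisors_of_ne_zero (Ideal.relNorm_eq_bot_iff.not.mpr (nonZeroDivisors.coe_ne_zero J))⟩
  map_one' := by
    apply Subtype.ext
    simp [Ideal.one_eq_top]
  map_mul' I J := by
    apply Subtype.ext
    simp

@[simp] theorem coe_relNorm₀ (J : (Ideal (𝓞 L))⁰) :
    ((relNorm₀ K J : (Ideal (𝓞 K))⁰) : Ideal (𝓞 K)) = Ideal.relNorm (𝓞 K) (J : Ideal (𝓞 L)) := rfl

variable {K}

/-- NORMS DIE: the Artin map of an unramified abelian extension kills relative norms. -/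
theorem art_relNorm [IsAbelianGalois K L] (hU : Unram K L) (J : (Ideal (𝓞 L))⁰) :
    art K L (relNorm₀ K J) = 1 := by
  refine monoidHom_eq_one_of_forall_prime ((art K L).comp (relNorm₀ K)) ?_ J
  intro P hP hPprime
  have hP0 : P ≠ ⊥ := nonZeroDivisors.ne_zero hP
  set v : Ideal (𝓞 K) := P.under (𝓞 K) with hv
  have : P.LiesOver v := ⟨rfl⟩
  have hv0 : v ≠ ⊥ := Ideal.under_ne_bot (𝓞 K) hP0
  have hvprime : v.IsPrime := inferInstance
  have : v.IsMaximal := Ring.DimensionLEOne.maximalOfPrime hv0 inferInstance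
  have : P.IsMaximal := Ring.DimensionLEOne.maximalOfPrime hP0 inferInstance
  have hvmem : v ∈ (Ideal (𝓞 K))⁰ := mem_nonZeroDivisors_of_ne_zero hv0
  have h1 : relNorm₀ K ⟨P, hP⟩ = (⟨v, hvmem⟩ : (Ideal (𝓞 K))⁰) ^ (P.inertiaDeg (𝓞 K)) := by
    apply Subtype.ext
    simp only [coe_relNorm₀, SubmonoidClass.coe_pow]
    exact Ideal.relNorm_eq_pow_of_isMaximal P v
  rw [MonoidHom.comp_apply, h1, map_pow, art_prime _ hvprime]
  exact frob_pow_inertiaDeg hU hv0 P

end Norm

section Ramification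

variable {K L : Type*} [Field K] [NumberField K] [Field L] [NumberField L] [Algebra K L]
  [IsGalois K L]

theorem card_inertia_eq_ramificationIdx (P : Ideal (𝓞 L)) [P.IsPrime] (hP0 : P ≠ ⊥) :
    Nat.card (P.inertia Gal(L/K)) = P.ramificationIdx (𝓞 K) := by
  set v : Ideal (𝓞 K) := P.under (𝓞 K) with hv
  have : P.LiesOver v := ⟨rfl⟩
  have hv0 : v ≠ ⊥ := Ideal.under_ne_bot (𝓞 K) hP0
  have : v.IsMaximal := Ring.DimensionLEOne.maximalOfPrime hv0 inferInstance
  have : Finite (𝓞 K ⧸ v) := Ideal.finiteQuotientOfFreeOfNeBot v hv0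
  have : Finite v.ResidueField := inferInstance
  rw [Ideal.card_inertia_eq_ramificationIdxIn v P,
    Ideal.ramificationIdxIn_eq_ramificationIdx v P Gal(L/K)]

theorem unram_of_ramificationIdx
    (h : ∀ P : Ideal (𝓞 L), P.IsPrime → P ≠ ⊥ → P.ramificationIdx (𝓞 K) = 1) : Unram K L := by
  intro P hP hP0 σ hσ
  have hc := card_inertia_eq_ramificationIdx (K := K) P hP0
  rw [h P hP hP0] at hc
  have : Subsingleton (P.inertia Gal(L/K)) := (Nat.card_eq_one_iff_unique.mp hc).1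
  have := Subsingleton.elim (⟨σ, hσ⟩ : P.inertia Gal(L/K)) 1
  exact congrArg Subtype.val this

theorem ramificationIdx_eq_one_of_unram (hU : Unram K L) (P : Ideal (𝓞 L)) [hP : P.IsPrime]
    (hP0 : P ≠ ⊥) : P.ramificationIdx (𝓞 K) = 1 := by
  rw [← card_inertia_eq_ramificationIdx (K := K) P hP0, Nat.card_eq_one_iff_unique]
  refine ⟨⟨fun a b => ?_⟩, ⟨1⟩⟩
  apply Subtype.ext
  rw [hU P hP hP0 a a.2, hU P hP hP0 b b.2]

end Ramification

end Fermat.Agent.S14.ArtinMap
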