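/-
S14, block (D), abstract part (owner: helper90).
General lemmas about ANY Artin map `art` (in the sense of `IsArtinMap`) of an unramified Galois
extension `L/K` of number fields:
* `eq_art_of_isArithFrobAt` (D-uniq): a Frobenius at a prime over `v` is `art v`;
* `art_pow_inertiaDeg` (D-pow): `art v ^ f(P|v) = 1`;
* `art_eq_one_iff`, `orderOf_art` (D-one);
* `art_relNorm` (D-norm): norms of ideals of `𝓞 L` die.
-/
import Mathlib
import Fermat.Agent.S14.Defs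

set_option autoImplicit false
set_option linter.unusedSectionVars false

namespace Fermat.Agent.S14.ArtinMapAbs

open NumberField nonZeroDivisors Fermat.Agent.S14

variable {K L : Type*} [Field K] [NumberField K] [Field L] [NumberField L] [Algebra K L]
  [IsGalois K L]

/-- Iterating a Frobenius: `σ ^ n • x ≡ x ^ (q ^ n) mod P`. -/
theorem pow_smul_sub_pow_mem {σ : L ≃ₐ[K] L} {P : Ideal (𝓞 L)}
    (H : IsArithFrobAt (𝓞 K) σ P) (n : ℕ) (x : 𝓞 L) :
    (σ ^ n) • x - x ^ (Nat.card (𝓞 K ⧸ P.under (𝓞 K)) ^ n) ∈ P := by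
  induction n generalizing x with
  | zero => simp
  | succ n ih =>
    have h1 := ih (σ • x)
    have h2 : (σ • x) ^ (Nat.card (𝓞 K ⧸ P.under (𝓞 K)) ^ n) -
        (x ^ Nat.card (𝓞 K ⧸ P.under (𝓞 K))) ^ (Nat.card (𝓞 K ⧸ P.under (𝓞 K)) ^ n) ∈ P := by
      obtain ⟨c, hc⟩ := sub_dvd_pow_sub_pow (σ • x) (x ^ Nat.card (𝓞 K ⧸ P.under (𝓞 K)))
        (Nat.card (𝓞 K ⧸ P.under (𝓞 K)) ^ n)
      rw [hc]
      exact P.mul_mem_right _ (H x)
    have h3 := P.add_mem h1 h2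
    rw [pow_succ, mul_smul]
    have h4 : x ^ Nat.card (𝓞 K ⧸ P.under (𝓞 K)) ^ (n + 1) =
        (x ^ Nat.card (𝓞 K ⧸ P.under (𝓞 K))) ^ (Nat.card (𝓞 K ⧸ P.under (𝓞 K)) ^ n) := by
      rw [← pow_mul, pow_succ, mul_comm]
    rw [h4]
    convert h3 using 1
    ring

/-- In the residue field at a nonzero prime `P`, `x ^ #(𝓞 L / P) = x`. -/
theorem pow_card_sub_mem (P : Ideal (𝓞 L)) [P.IsPrime] (hP : P ≠ ⊥) (x : 𝓞 L) :
    x ^ Nat.card (𝓞 L ⧸ P) - x ∈ P := by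
  have : P.IsMaximal := Ideal.IsPrime.isMaximal inferInstance hP
  let _ := Ideal.Quotient.field P
  have : Finite (𝓞 L ⧸ P) := Ideal.finiteQuotientOfFreeOfNeBot P hP
  have := Fintype.ofFinite (𝓞 L ⧸ P)
  rw [← Ideal.Quotient.eq, map_pow, Nat.card_eq_fintype_card]
  exact FiniteField.pow_card _

omit [IsGalois K L] in
theorem card_pow_inertiaDeg (P : Ideal (𝓞 L)) [P.IsPrime] (hP : P ≠ ⊥) :
    Nat.card (𝓞 K ⧸ P.under (𝓞 K)) ^ P.inertiaDeg (𝓞 K) = Nat.card (𝓞 L ⧸ P) := by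
  have : P.IsMaximal := Ideal.IsPrime.isMaximal inferInstance hP
  have : (P.under (𝓞 K)).IsMaximal := Ideal.IsMaximal.under (𝓞 K) P
  have := Ideal.cardQuot_pow_inertiaDeg (P.under (𝓞 K)) P
  rwa [Submodule.cardQuot_apply, Submodule.cardQuot_apply] at this

omit [IsGalois K L] in
/-- A prime lying over a nonzero ideal is nonzero. -/
theorem ne_bot_of_liesOver (v : (Ideal (𝓞 K))⁰) (P : Ideal (𝓞 L))
    (hPv : P.LiesOver (v : Ideal (𝓞 K))) : P ≠ ⊥ := by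
  rintro rfl
  have h := (Ideal.liesOver_iff _ _).mp hPv
  have h0 : (v : Ideal (𝓞 K)) ≠ 0 := nonZeroDivisors.coe_ne_zero v
  apply h0
  rw [h, Ideal.zero_eq_bot, Ideal.under_bot]

variable {art : (Ideal (𝓞 K))⁰ →* (L ≃ₐ[K] L)}

/-- **(D-uniq)** In an unramified extension, any Frobenius at a prime over `v` is `art v`. -/
theorem eq_art_of_isArithFrobAt (hart : IsArtinMap K L art) (hU : Unram K L)
    (v : (Ideal (𝓞 K))⁰) (P : Ideal (𝓞 L)) (hv : (v : Ideal (𝓞 K)).IsPrime) (hP : P.IsPrime)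
    (hPv : P.LiesOver (v : Ideal (𝓞 K))) {σ : L ≃ₐ[K] L} (hσ : IsArithFrobAt (𝓞 K) σ P) :
    σ = art v := by
  have h := hσ.mul_inv_mem_inertia (hart.frob v P hv hP hPv)
  exact mul_inv_eq_one.mp (hU P hP (ne_bot_of_liesOver v P hPv) _ h)

/-- If `σ ^ n = 1` for a Frobenius `σ` at `P`, then `x ^ (q ^ n) ≡ x mod P` for all `x`. -/
theorem pow_pow_sub_mem_of_pow_eq_one {σ : L ≃ₐ[K] L} {P : Ideal (𝓞 L)}
    (H : IsArithFrobAt (𝓞 K) σ P) {n : ℕ} (hn : σ ^ n = 1) (x : 𝓞 L) :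
    x ^ (Nat.card (𝓞 K ⧸ P.under (𝓞 K)) ^ n) - x ∈ P := by
  have h := pow_smul_sub_pow_mem H n x
  rw [hn, one_smul] at h
  have := P.neg_mem h
  rwa [neg_sub] at this

/-- **(D-pow)** `art v ^ f(P | v) = 1`. -/
theorem art_pow_inertiaDeg (hart : IsArtinMap K L art) (hU : Unram K L)
    (v : (Ideal (𝓞 K))⁰) (P : Ideal (𝓞 L)) (hv : (v : Ideal (𝓞 K)).IsPrime) (hP : P.IsPrime)
    (hPv : P.LiesOver (v : Ideal (𝓞 K))) : art v ^ P.inertiaDeg (𝓞 K) = 1 := by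
  have hPne := ne_bot_of_liesOver v P hPv
  refine hU P hP hPne _ ?_
  intro x
  have h1 := pow_smul_sub_pow_mem (hart.frob v P hv hP hPv) (P.inertiaDeg (𝓞 K)) x
  rw [card_pow_inertiaDeg P hPne] at h1
  have h2 := pow_card_sub_mem P hPne x
  have := P.add_mem h1 h2
  simpa using this

open Polynomial in
/-- If `x ^ m ≡ x mod P` for all `x` (with `m > 1`) then the residue field has at most `m`
elements. -/
theorem card_le_of_forall_pow_sub_mem (P : Ideal (𝓞 L)) [P.IsPrime] (hP : P ≠ ⊥) {m : ℕ}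
    (hm : 1 < m) (h : ∀ x : 𝓞 L, x ^ m - x ∈ P) : Nat.card (𝓞 L ⧸ P) ≤ m := by
  have : P.IsMaximal := Ideal.IsPrime.isMaximal inferInstance hP
  let _ := Ideal.Quotient.field P
  have : Finite (𝓞 L ⧸ P) := Ideal.finiteQuotientOfFreeOfNeBot P hP
  have := Fintype.ofFinite (𝓞 L ⧸ P)
  classical
  have hpoly : (X ^ m - X : (𝓞 L ⧸ P)[X]) ≠ 0 := FiniteField.X_pow_card_sub_X_ne_zero _ hm
  have hsub : (Finset.univ : Finset (𝓞 L ⧸ P)) ⊆ (X ^ m - X : (𝓞 L ⧸ P)[X]).roots.toFinset := by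
    intro a _
    obtain ⟨x, rfl⟩ := Ideal.Quotient.mk_surjective a
    rw [Multiset.mem_toFinset, mem_roots hpoly, IsRoot, eval_sub, eval_pow, eval_X, ← map_pow,
      ← map_sub, Ideal.Quotient.eq_zero_iff_mem]
    exact h x
  calc Nat.card (𝓞 L ⧸ P) = (Finset.univ : Finset (𝓞 L ⧸ P)).card := by
        rw [Nat.card_eq_fintype_card, Finset.card_univ]
    _ ≤ (X ^ m - X : (𝓞 L ⧸ P)[X]).roots.toFinset.card := Finset.card_le_card hsub
    _ ≤ Multiset.card (X ^ m - X : (𝓞 L ⧸ P)[X]).roots := Multiset.toFinset_card_le _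
    _ ≤ (X ^ m - X : (𝓞 L ⧸ P)[X]).natDegree := card_roots' _
    _ = m := FiniteField.X_pow_card_sub_X_natDegree_eq _ hm

omit [IsGalois K L] in
/-- The residue field of `𝓞 K` below a nonzero prime of `𝓞 L` has at least two elements. -/
theorem one_lt_card_under (P : Ideal (𝓞 L)) [P.IsPrime] (hP : P ≠ ⊥) :
    1 < Nat.card (𝓞 K ⧸ P.under (𝓞 K)) := by
  have : P.IsMaximal := Ideal.IsPrime.isMaximal inferInstance hP
  have hmax : (P.under (𝓞 K)).IsMaximal := Ideal.IsMaximal.under (𝓞 K) P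
  have hne : P.under (𝓞 K) ≠ ⊥ := by
    intro h
    have := card_pow_inertiaDeg (K := K) P hP
    rw [h] at this
    have hinf : Nat.card (𝓞 K ⧸ (⊥ : Ideal (𝓞 K))) = 0 := by
      have : Infinite (𝓞 K ⧸ (⊥ : Ideal (𝓞 K))) :=
        Infinite.of_injective _ (RingEquiv.quotientBot (𝓞 K)).symm.injective
      exact Nat.card_eq_zero_of_infinite
    rw [hinf, zero_pow (Ideal.inertiaDeg_pos P (𝓞 K)).ne'] at this
    have hfin : Finite (𝓞 L ⧸ P) := Ideal.finiteQuotientOfFreeOfNeBot P hP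
    exact (Nat.card_pos (α := 𝓞 L ⧸ P)).ne' this.symm
  have : Finite (𝓞 K ⧸ P.under (𝓞 K)) := Ideal.finiteQuotientOfFreeOfNeBot _ hne
  have : Nontrivial (𝓞 K ⧸ P.under (𝓞 K)) := Ideal.Quotient.nontrivial_iff.mpr hmax.ne_top
  exact Finite.one_lt_card

/-- `σ ^ n = 1` for a Frobenius at `P` forces `f(P) ≤ n` (for `n > 0`). -/
theorem inertiaDeg_le_of_pow_eq_one {σ : L ≃ₐ[K] L} {P : Ideal (𝓞 L)} [P.IsPrime] (hP : P ≠ ⊥)
    (H : IsArithFrobAt (𝓞 K) σ P) {n : ℕ} (hn0 : 0 < n) (hn : σ ^ n = 1) :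
    P.inertiaDeg (𝓞 K) ≤ n := by
  have hq := one_lt_card_under (K := K) P hP
  have h1 : 1 < Nat.card (𝓞 K ⧸ P.under (𝓞 K)) ^ n := Nat.one_lt_pow hn0.ne' hq
  have h2 := card_le_of_forall_pow_sub_mem P hP h1 (pow_pow_sub_mem_of_pow_eq_one H hn)
  rw [← card_pow_inertiaDeg (K := K) P hP] at h2
  exact (Nat.pow_le_pow_iff_right hq).mp h2

/-- **(D-one)**, order form: the order of `art v` is the residue degree of any prime over `v`. -/
theorem orderOf_art (hart : IsArtinMap K L art) (hU : Unram K L)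
    (v : (Ideal (𝓞 K))⁰) (P : Ideal (𝓞 L)) (hv : (v : Ideal (𝓞 K)).IsPrime) (hP : P.IsPrime)
    (hPv : P.LiesOver (v : Ideal (𝓞 K))) : orderOf (art v) = P.inertiaDeg (𝓞 K) := by
  have hPne := ne_bot_of_liesOver v P hPv
  rw [orderOf_eq_iff (Ideal.inertiaDeg_pos P (𝓞 K))]
  refine ⟨art_pow_inertiaDeg hart hU v P hv hP hPv, fun m hm hm0 hpow => ?_⟩
  have := inertiaDeg_le_of_pow_eq_one hPne (hart.frob v P hv hP hPv) hm0 hpow
  omega

/-- **(D-one)**: `art v = 1` iff the residue degree of a (any) prime over `v` is one. -/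
theorem art_eq_one_iff (hart : IsArtinMap K L art) (hU : Unram K L)
    (v : (Ideal (𝓞 K))⁰) (P : Ideal (𝓞 L)) (hv : (v : Ideal (𝓞 K)).IsPrime) (hP : P.IsPrime)
    (hPv : P.LiesOver (v : Ideal (𝓞 K))) : art v = 1 ↔ P.inertiaDeg (𝓞 K) = 1 := by
  rw [← orderOf_art hart hU v P hv hP hPv, orderOf_eq_one_iff]

/-- **(D-norm)**: the Artin symbol of the relative norm of a nonzero ideal of `𝓞 L` is trivial. -/
theorem art_relNorm (hart : IsArtinMap K L art) (hU : Unram K L) (J : Ideal (𝓞 L))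
    (hJ : J ≠ ⊥) (I : (Ideal (𝓞 K))⁰) (hI : (I : Ideal (𝓞 K)) = Ideal.relNorm (𝓞 K) J) :
    art I = 1 := by
  induction J using UniqueFactorizationMonoid.induction_on_prime generalizing I with
  | h₁ => exact absurd Ideal.zero_eq_bot hJ
  | h₂ J hunit =>
    rw [Ideal.isUnit_iff] at hunit
    rw [hunit, Ideal.relNorm_top] at hI
    have : I = 1 := Subtype.ext (by rw [hI]; exact Ideal.one_eq_top.symm)
    rw [this, map_one]
  | h₃ a p ha hp ih =>
    have hpP : p.IsPrime := Ideal.isPrime_of_prime hp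
    have hp0 : p ≠ ⊥ := hp.ne_zero
    have ha0 : a ≠ ⊥ := ha
    have hnp : Ideal.relNorm (𝓞 K) p ≠ 0 := fun h => hp0 (Ideal.relNorm_eq_bot_iff.mp h)
    have hna : Ideal.relNorm (𝓞 K) a ≠ 0 := fun h => ha0 (Ideal.relNorm_eq_bot_iff.mp h)
    set Ip : (Ideal (𝓞 K))⁰ := ⟨Ideal.relNorm (𝓞 K) p, mem_nonZeroDivisors_of_ne_zero hnp⟩
    set Ia : (Ideal (𝓞 K))⁰ := ⟨Ideal.relNorm (𝓞 K) a, mem_nonZeroDivisors_of_ne_zero hna⟩
    have hmul : I = Ip * Ia := Subtype.ext (by rw [hI, map_mul]; rfl)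
    rw [hmul, map_mul, ih ha0 Ia rfl, mul_one]
    -- the prime factor
    have hpmax : p.IsMaximal := Ideal.IsPrime.isMaximal hpP hp0
    have hvmax : (p.under (𝓞 K)).IsMaximal := Ideal.IsMaximal.under (𝓞 K) p
    have hv0 : p.under (𝓞 K) ≠ 0 := by
      intro h
      apply hnp
      have h1 := Ideal.relNorm_eq_pow_of_isMaximal p (p.under (𝓞 K))
      rw [h1, h, zero_pow (Ideal.inertiaDeg_pos p (𝓞 K)).ne']
    set v : (Ideal (𝓞 K))⁰ := ⟨p.under (𝓞 K), mem_nonZeroDivisors_of_ne_zero hv0⟩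
    have hIp : Ip = v ^ p.inertiaDeg (𝓞 K) :=
      Subtype.ext (by
        rw [SubmonoidClass.coe_pow]
        exact Ideal.relNorm_eq_pow_of_isMaximal p (p.under (𝓞 K)))
    rw [hIp, map_pow]
    exact art_pow_inertiaDeg hart hU v p hvmax.isPrime hpP ⟨rfl⟩

/-- Two monoid homs on nonzero ideals that agree on nonzero primes are equal. -/
theorem hom_ext_of_prime {G : Type*} [Monoid G] {φ ψ : (Ideal (𝓞 K))⁰ →* G}
    (h : ∀ v : (Ideal (𝓞 K))⁰, (v : Ideal (𝓞 K)).IsPrime → φ v = ψ v) : φ = ψ := by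
  ext I
  obtain ⟨I, hI⟩ := I
  induction I using UniqueFactorizationMonoid.induction_on_prime with
  | h₁ => exact absurd rfl (nonZeroDivisors.ne_zero hI)
  | h₂ J hunit =>
    rw [Ideal.isUnit_iff] at hunit
    have : (⟨J, hI⟩ : (Ideal (𝓞 K))⁰) = 1 :=
      Subtype.ext (hunit.trans Ideal.one_eq_top.symm)
    rw [this, map_one, map_one]
  | h₃ a p ha hp ih =>
    have hp0 : p ≠ 0 := hp.ne_zero
    set Ip : (Ideal (𝓞 K))⁰ := ⟨p, mem_nonZeroDivisors_of_ne_zero hp0⟩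
    set Ia : (Ideal (𝓞 K))⁰ := ⟨a, mem_nonZeroDivisors_of_ne_zero ha⟩
    have hmul : (⟨p * a, hI⟩ : (Ideal (𝓞 K))⁰) = Ip * Ia := Subtype.ext rfl
    rw [hmul, map_mul, map_mul, ih Ia.2, h Ip (Ideal.isPrime_of_prime hp)]

/-- **Uniqueness of the Artin map** of an unramified extension. -/
theorem art_unique {art' : (Ideal (𝓞 K))⁰ →* (L ≃ₐ[K] L)} (hart : IsArtinMap K L art)
    (hart' : IsArtinMap K L art') (hU : Unram K L) : art' = art := by
  refine hom_ext_of_prime fun v hv => ?_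
  have hv0 : (v : Ideal (𝓞 K)) ≠ ⊥ := nonZeroDivisors.coe_ne_zero v
  have hvmax : (v : Ideal (𝓞 K)).IsMaximal := Ideal.IsPrime.isMaximal hv hv0
  obtain ⟨P, hPmax, hPv⟩ :=
    Ideal.exists_maximal_ideal_liesOver_of_isIntegral (S := 𝓞 L) (v : Ideal (𝓞 K))
  exact eq_art_of_isArithFrobAt hart hU v P hv hPmax.isPrime hPv
    (hart'.frob v P hv hPmax.isPrime hPv)

end Fermat.Agent.S14.ArtinMapAbs
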