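/-
S14, stage 1 (helper14): pure-algebra reduction of `ExtVanishingCts p` to the vanishing of a
Selmer group of cocycles `b : G_ℚ → 𝔽_p` with `b (σ τ) = χ τ * b σ + b τ` (χ = mod-`p` cyclotomic
character).  No number theory here.
-/
import Mathlib
import Fermat.Prelude.Def_ExtCitation_AdmissibleExtension_v2

set_option autoImplicit false

namespace Fermat.Agent.S14.Cocycle

open ExtCitation ValuationSubring

/-- The absolute Galois group of `ℚ` (as used by the frozen statement). -/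
abbrev GQ := AlgebraicClosure ℚ ≃ₐ[ℚ] AlgebraicClosure ℚ

variable (p : ℕ) [Fact p.Prime]

/-- The mod-`p` cyclotomic character, valued in `ZMod p`. -/
noncomputable def chi (σ : GQ) : ZMod p := (cycloExp p σ : ZMod p)

theorem chi_eq (σ : GQ) :
    haveI : NeZero p := ⟨(Fact.out : p.Prime).ne_zero⟩
    chi p σ = ((modularCyclotomicCharacter (AlgebraicClosure ℚ) (card_rootsOfUnity_eq_self p)
      (σ : AlgebraicClosure ℚ ≃+* AlgebraicClosure ℚ) : (ZMod p)ˣ) : ZMod p) := by
  have : NeZero p := ⟨(Fact.out : p.Prime).ne_zero⟩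
  unfold chi cycloExp
  exact ZMod.natCast_zmod_val _

theorem chi_one : chi p 1 = 1 := by
  have : NeZero p := ⟨(Fact.out : p.Prime).ne_zero⟩
  rw [chi_eq]
  have : ((1 : GQ) : AlgebraicClosure ℚ ≃+* AlgebraicClosure ℚ) = 1 := rfl
  rw [this, map_one]
  rfl

theorem chi_mul (σ τ : GQ) : chi p (σ * τ) = chi p σ * chi p τ := by
  have : NeZero p := ⟨(Fact.out : p.Prime).ne_zero⟩
  rw [chi_eq, chi_eq, chi_eq]
  have : ((σ * τ : GQ) : AlgebraicClosure ℚ ≃+* AlgebraicClosure ℚ)
      = (σ : AlgebraicClosure ℚ ≃+* AlgebraicClosure ℚ) * (τ : _ ≃+* _) := rfl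
  rw [this, map_mul]
  rfl

theorem chi_ne_zero (σ : GQ) : chi p σ ≠ 0 := by
  have : NeZero p := ⟨(Fact.out : p.Prime).ne_zero⟩
  rw [chi_eq]
  exact Units.ne_zero _

theorem chi_inv (σ : GQ) : chi p σ⁻¹ = (chi p σ)⁻¹ := by
  have h := chi_mul p σ σ⁻¹
  rw [mul_inv_cancel, chi_one] at h
  exact eq_inv_of_mul_eq_one_right h.symm


/-- A *Selmer cocycle*: a crossed homomorphism `b : G_ℚ → 𝔽_p` for the character `χ`
(`b (σ τ) = χ τ * b σ + b τ`), continuous, trivial on every inertia group away from `p`, and a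
coboundary on every decomposition group above `p`. -/
structure IsSelmer (b : GQ → ZMod p) : Prop where
  cocycle : ∀ σ τ : GQ, b (σ * τ) = chi p τ * b σ + b τ
  open_ker : IsOpen {σ : GQ | chi p σ = 1 ∧ b σ = 0}
  unram : ∀ ℓ : ℕ, ℓ.Prime → ℓ ≠ p →
    ∀ A : ValuationSubring (AlgebraicClosure ℚ), A.LiesOverPrime ℓ →
      ∀ σ ∈ A.inertiaSubgroupIn ℚ, chi p σ = 1 ∧ b σ = 0
  loc_split : ∀ A : ValuationSubring (AlgebraicClosure ℚ), A.LiesOverPrime p →
    ∃ t : ZMod p, ∀ σ ∈ A.decompositionSubgroup ℚ, b σ = (chi p σ - 1) * t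

/-- `b` is a coboundary. -/
def IsCoboundary (b : GQ → ZMod p) : Prop := ∃ t : ZMod p, ∀ σ : GQ, b σ = (chi p σ - 1) * t

/-- Every Selmer cocycle is a coboundary. -/
def SelmerVanishing : Prop := ∀ b : GQ → ZMod p, IsSelmer p b → IsCoboundary p b

variable {p}

theorem cocycle_one {b : GQ → ZMod p} (hb : ∀ σ τ : GQ, b (σ * τ) = chi p τ * b σ + b τ) :
    b 1 = 0 := by
  have h := hb 1 1
  rw [mul_one, chi_one, one_mul] at h
  exact left_eq_add.mp h

/-- A cocycle vanishing on `ker χ` is a coboundary (the "Maschke" case). -/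
theorem isCoboundary_of_trivial_on_ker {b : GQ → ZMod p}
    (hb : ∀ σ τ : GQ, b (σ * τ) = chi p τ * b σ + b τ)
    (h0 : ∀ σ : GQ, chi p σ = 1 → b σ = 0) : IsCoboundary p b := by
  by_cases hall : ∀ σ : GQ, chi p σ = 1
  · exact ⟨0, fun σ => by rw [h0 σ (hall σ), mul_zero]⟩
  · push Not at hall
    obtain ⟨σ₀, hσ₀⟩ := hall
    have hne : chi p σ₀ - 1 ≠ 0 := sub_ne_zero.mpr hσ₀
    refine ⟨b σ₀ / (chi p σ₀ - 1), fun σ => ?_⟩
    -- commutator trick
    have hc : chi p (σ * σ₀ * σ⁻¹ * σ₀⁻¹) = 1 := by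
      rw [chi_mul, chi_mul, chi_mul, chi_inv, chi_inv]
      have h1 := chi_ne_zero p σ
      have h2 := chi_ne_zero p σ₀
      field_simp
    have hbc := h0 _ hc
    have hdec : σ * σ₀ = (σ * σ₀ * σ⁻¹ * σ₀⁻¹) * (σ₀ * σ) := by group
    have h1 : b (σ * σ₀) = b (σ₀ * σ) := by
      conv_lhs => rw [hdec]
      rw [hb, hbc, mul_zero, zero_add]
    rw [hb, hb] at h1
    -- χ σ₀ * b σ + b σ₀ = χ σ * b σ₀ + b σ
    have h2 : (chi p σ₀ - 1) * b σ = (chi p σ - 1) * b σ₀ := by linear_combination h1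
    field_simp
    linear_combination h2

section main

variable {V : Type} [AddCommGroup V] [Module (ZMod p) V]
  [DistribMulAction GQ V] [SMulCommClass GQ (ZMod p) V]

/-- The main reduction. -/
theorem splitsGlobally_of_selmerVanishing (h : SelmerVanishing p)
    (C : Submodule (ZMod p) V) (hadm : IsAdmissibleExtensionCts p V C) : SplitsGlobally C := by
  have hp : p.Prime := Fact.out
  have hadm' := hadm.toIsAdmissibleExtension
  -- finiteness
  have hVfin : Finite V := Nat.finite_of_card_ne_zero (by rw [hadm'.card_total]; exact pow_ne_zero 2 hp.ne_zero)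
  have hCfin : Finite C := Nat.finite_of_card_ne_zero (by rw [hadm'.card_sub]; exact hp.ne_zero)
  -- a nonzero element of C
  obtain ⟨e₁, he₁C, he₁0⟩ : ∃ e₁ : V, e₁ ∈ C ∧ e₁ ≠ 0 := by
    by_contra hcon
    push Not at hcon
    have : C = ⊥ := by
      rw [_root_.eq_bot_iff]; intro x hx; exact (Submodule.mem_bot _).mpr (hcon x hx)
    have h1 := hadm'.card_sub
    rw [this] at h1
    simp at h1
    exact hp.one_lt.ne h1
  -- every element of C is a multiple of e₁
  have hspan : ∀ c ∈ C, ∃ a : ZMod p, c = a • e₁ := by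
    let f : ZMod p → C := fun a => ⟨a • e₁, C.smul_mem a he₁C⟩
    have hfinj : Function.Injective f := by
      intro a a' haa
      have h1 : a • e₁ = a' • e₁ := congrArg Subtype.val haa
      by_contra hne
      have h2 : (a - a') • e₁ = 0 := by rw [sub_smul, h1, sub_self]
      rcases smul_eq_zero.mp h2 with h3 | h3
      · exact hne (sub_eq_zero.mp h3)
      · exact he₁0 h3
    have hcard : Nat.card (ZMod p) = Nat.card C := by
      rw [hadm'.card_sub, Nat.card_eq_fintype_card, ZMod.card]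
    have hfbij : Function.Bijective f :=
      (Nat.bijective_iff_injective_and_card f).mpr ⟨hfinj, hcard⟩
    intro c hc
    obtain ⟨a, ha⟩ := hfbij.2 ⟨c, hc⟩
    exact ⟨a, (congrArg Subtype.val ha).symm⟩
  -- an element outside C
  obtain ⟨e₂, he₂⟩ : ∃ e₂ : V, e₂ ∉ C := by
    by_contra hcon
    push Not at hcon
    have : C = ⊤ := by rw [_root_.eq_top_iff]; intro x _; exact hcon x
    have h1 := hadm'.card_sub
    rw [this] at h1
    have h2 : Nat.card (⊤ : Submodule (ZMod p) V) = Nat.card V :=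
      Nat.card_congr (Submodule.topEquiv (R := ZMod p) (M := V)).toEquiv
    rw [h2, hadm'.card_total] at h1
    have : p ^ 2 = p ^ 1 := by rw [h1, pow_one]
    exact absurd (Nat.pow_right_injective hp.two_le this) (by norm_num)
  have he₂smul : ∀ a : ZMod p, a • e₂ ∈ C → a = 0 := by
    intro a ha
    by_contra hne
    apply he₂
    have := C.smul_mem a⁻¹ ha
    rwa [smul_smul, inv_mul_cancel₀ hne, one_smul] at this
  -- the cocycle
  have hb_ex : ∀ σ : GQ, ∃ a : ZMod p, σ • e₂ - chi p σ • e₂ = a • e₁ := fun σ =>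
    hspan _ (hadm'.cyclo_quot σ e₂)
  choose b hb using hb_ex
  have hσe₂ : ∀ σ : GQ, σ • e₂ = chi p σ • e₂ + b σ • e₁ := fun σ => by
    rw [← hb σ]; abel
  have hσe₁ : ∀ σ : GQ, σ • e₁ = e₁ := fun σ => hadm'.fixed_sub σ e₁ he₁C
  have huniq : ∀ a a' c c' : ZMod p, a • e₂ + c • e₁ = a' • e₂ + c' • e₁ → a = a' ∧ c = c' := by
    intro a a' c c' hEq
    have h1 : (a - a') • e₂ = (c' - c) • e₁ := by
      rw [sub_smul, sub_smul]
      have : a • e₂ - a' • e₂ = c' • e₁ - c • e₁ := by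
        rw [sub_eq_sub_iff_add_eq_add, hEq, add_comm]
      exact this
    have h2 : a - a' = 0 := he₂smul _ (by rw [h1]; exact C.smul_mem _ he₁C)
    have h3 : a = a' := sub_eq_zero.mp h2
    refine ⟨h3, ?_⟩
    rw [h2, zero_smul] at h1
    rcases smul_eq_zero.mp h1.symm with h4 | h4
    · exact (sub_eq_zero.mp h4).symm
    · exact absurd h4 he₁0
  have hcocycle : ∀ σ τ : GQ, b (σ * τ) = chi p τ * b σ + b τ := by
    intro σ τ
    have h1 : (σ * τ) • e₂ = chi p (σ * τ) • e₂ + b (σ * τ) • e₁ := hσe₂ _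
    have h2 : (σ * τ) • e₂ = (chi p τ * chi p σ) • e₂ + (chi p τ * b σ + b τ) • e₁ := by
      rw [mul_smul, hσe₂ τ, smul_add, smul_comm σ (chi p τ) e₂, smul_comm σ (b τ) e₁, hσe₁,
        hσe₂ σ, smul_add, smul_smul, smul_smul, add_smul]
      abel
    rw [h1] at h2
    exact (huniq _ _ _ _ h2).2
  -- fixing everything ⇔ χ = 1 ∧ b = 0
  have hdecomp : ∀ x : V, ∃ a c : ZMod p, x = a • e₂ + c • e₁ := by
    let g : ZMod p × ZMod p → V := fun ac => ac.1 • e₂ + ac.2 • e₁
    have hginj : Function.Injective g := by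
      rintro ⟨a, c⟩ ⟨a', c'⟩ hEq
      obtain ⟨h1, h2⟩ := huniq a a' c c' hEq
      rw [h1, h2]
    have hcard : Nat.card (ZMod p × ZMod p) = Nat.card V := by
      rw [hadm'.card_total, Nat.card_prod, Nat.card_eq_fintype_card, ZMod.card, sq]
    have hgbij : Function.Bijective g :=
      (Nat.bijective_iff_injective_and_card g).mpr ⟨hginj, hcard⟩
    intro x
    obtain ⟨⟨a, c⟩, hac⟩ := hgbij.2 x
    exact ⟨a, c, hac.symm⟩
  have hfix_iff : ∀ σ : GQ, (∀ v : V, σ • v = v) ↔ (chi p σ = 1 ∧ b σ = 0) := by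
    intro σ
    constructor
    · intro hfix
      have h1 := hσe₂ σ
      rw [hfix e₂] at h1
      have h2 : (1 : ZMod p) • e₂ + (0 : ZMod p) • e₁ = chi p σ • e₂ + b σ • e₁ := by
        rw [one_smul, zero_smul, add_zero]; exact h1
      obtain ⟨h3, h4⟩ := huniq _ _ _ _ h2
      exact ⟨h3.symm, h4.symm⟩
    · rintro ⟨h1, h2⟩ v
      obtain ⟨a, c, rfl⟩ := hdecomp v
      rw [smul_add, smul_comm σ a e₂, smul_comm σ c e₁, hσe₁, hσe₂ σ, h1, h2, one_smul,
        zero_smul, add_zero]
  have hsel : IsSelmer p b := by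
    refine ⟨hcocycle, ?_, ?_, ?_⟩
    · have : {σ : GQ | chi p σ = 1 ∧ b σ = 0} = {σ : GQ | ∀ v : V, σ • v = v} := by
        ext σ; exact (hfix_iff σ).symm
      rw [this]; exact hadm.open_kernel
    · intro ℓ hℓ hℓp A hA σ hσ
      exact (hfix_iff σ).mp (hadm'.unramified_outside ℓ hℓ hℓp A hA σ hσ)
    · intro A hA
      obtain ⟨C', hC'stab, hC'compl⟩ := hadm'.locally_split A hA
      -- decompose e₂ = c + c'
      have htop : e₂ ∈ C ⊔ C' := by rw [hC'compl.sup_eq_top]; trivial
      obtain ⟨c, hc, c', hc', hcc'⟩ := Submodule.mem_sup.mp htop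
      obtain ⟨s, hs⟩ := hspan c hc
      -- c' = e₂ - s • e₁
      have hc'eq : c' = e₂ + (-s) • e₁ := by
        rw [neg_smul, ← hs, ← hcc']; abel
      refine ⟨-s, fun σ hσ => ?_⟩
      have h1 : σ • c' ∈ C' := hC'stab σ hσ c' hc'
      have h2 : σ • c' - chi p σ • c' ∈ C' := C'.sub_mem h1 (C'.smul_mem _ hc')
      have h3 : σ • c' - chi p σ • c' = (b σ + (-s) - chi p σ * (-s)) • e₁ := by
        rw [hc'eq, smul_add, smul_comm σ (-s) e₁, hσe₁, hσe₂ σ, smul_add, smul_smul, sub_smul,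
          add_smul]
        abel
      have h4 : (b σ + (-s) - chi p σ * (-s)) • e₁ ∈ C ⊓ C' := by
        refine ⟨C.smul_mem _ he₁C, ?_⟩
        rw [← h3]; exact h2
      rw [hC'compl.inf_eq_bot, Submodule.mem_bot] at h4
      rcases smul_eq_zero.mp h4 with h5 | h5
      · linear_combination h5
      · exact absurd h5 he₁0
  obtain ⟨t, ht⟩ := h b hsel
  -- the global complement
  refine ⟨Submodule.span (ZMod p) {e₂ + t • e₁}, ?_, ?_⟩
  · intro σ x hx
    obtain ⟨a, rfl⟩ := Submodule.mem_span_singleton.mp hx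
    have : σ • (a • (e₂ + t • e₁)) = (a * chi p σ) • (e₂ + t • e₁) := by
      rw [smul_comm σ a, smul_add, smul_comm σ t e₁, hσe₁, hσe₂ σ, ht σ]
      module
    rw [this]
    exact Submodule.smul_mem _ _ (Submodule.mem_span_singleton_self _)
  · refine IsCompl.of_eq ?_ ?_
    · rw [_root_.eq_bot_iff]
      rintro x ⟨hxC, hxC'⟩
      obtain ⟨a, rfl⟩ := Submodule.mem_span_singleton.mp hxC'
      have h1 : a • e₂ ∈ C := by
        have : a • e₂ = a • (e₂ + t • e₁) - (a * t) • e₁ := by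
          rw [smul_add, smul_smul]; abel
        rw [this]
        exact C.sub_mem hxC (C.smul_mem _ he₁C)
      rw [he₂smul a h1, zero_smul]
      exact Submodule.zero_mem _
    · rw [_root_.eq_top_iff]
      intro x _
      obtain ⟨a, c, rfl⟩ := hdecomp x
      have : a • e₂ + c • e₁ = (c - a * t) • e₁ + a • (e₂ + t • e₁) := by
        rw [smul_add, smul_smul, sub_smul]; abel
      rw [this]
      exact Submodule.add_mem_sup (C.smul_mem _ he₁C)
        (Submodule.smul_mem _ _ (Submodule.mem_span_singleton_self _))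

end main

variable (p)

/-- **Stage-1 reduction of S14**: the frozen `ExtVanishingCts p` follows from the vanishing of the
Selmer group of cocycles. -/
theorem extVanishingCts_of_selmerVanishing (h : SelmerVanishing p) : ExtVanishingCts p := by
  intro V _ _ _ _ C hadm
  exact splitsGlobally_of_selmerVanishing h C hadm

/-- Variant: it suffices to refute Selmer cocycles that are non-trivial on `ker χ`. -/
theorem extVanishingCts_of_no_nontrivial
    (h : ∀ b : GQ → ZMod p, IsSelmer p b → (∃ σ : GQ, chi p σ = 1 ∧ b σ ≠ 0) → False) :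
    ExtVanishingCts p := by
  refine extVanishingCts_of_selmerVanishing p (fun b hb => ?_)
  by_cases h0 : ∀ σ : GQ, chi p σ = 1 → b σ = 0
  · exact isCoboundary_of_trivial_on_ker hb.cocycle h0
  · push Not at h0
    exact (h b hb h0).elim

end Fermat.Agent.S14.Cocycle
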