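/-
S14 — top-level reduction (architect: helper55).

`ExtVanishingCts p` follows from
* `BridgeR p`  : block (R) — a nontrivial Selmer cocycle produces number fields `K = ℚ(ζ_p) ⊆ M`
                 with `M/ℚ` Galois, `[M:K] = p`, `M/K` unramified, `Δ` acting through `ω⁻¹`;
* `CoreNT p`   : the number-theoretic core — no such pair of fields exists.
-/
import Fermat.Agent.S14.Defs
import Fermat.Agent.S14.Cocycle

set_option autoImplicit false

namespace Fermat.Agent.S14

open NumberField ExtCitation Fermat.Agent.S14.Cocycle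

/-- Block (R): the output of the reduction from Selmer cocycles to number fields. -/
def BridgeR (p : ℕ) [Fact p.Prime] : Prop :=
  ∀ b : GQ → ZMod p, IsSelmer p b → (∃ σ : GQ, chi p σ = 1 ∧ b σ ≠ 0) →
    ∃ (K M : Type) (_ : Field K) (_ : NumberField K) (_ : Field M) (_ : NumberField M)
      (_ : Algebra K M) (_ : IsCyclotomicExtension {p} ℚ K) (_ : IsGalois ℚ M) (_ : IsGalois K M),
      Module.finrank K M = p ∧ Unram K M ∧ OmegaInvAction p K M

/-- **Top-level reduction of S14.** -/
theorem extVanishingCts_of_bridge_of_core {p : ℕ} [Fact p.Prime]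
    (hR : BridgeR p) (hC : CoreNT p) : ExtCitation.ExtVanishingCts p := by
  refine extVanishingCts_of_no_nontrivial p (fun b hb hne => ?_)
  obtain ⟨K, M, _, _, _, _, _, _, _, _, h1, h2, h3⟩ := hR b hb hne
  exact hC K M h1 h2 h3

end Fermat.Agent.S14
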