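/-
S14 — complete assembly of the frozen statement from the block statements (architect: helper55).
`Fermat/Agent/S14.lean` will be `s14_of_blocks h3 bridgeR blockD blockZ blockRecip blockF`.
-/
import Fermat.Agent.S14.Reduction
import Fermat.Agent.S14.Blocks

set_option autoImplicit false

namespace Fermat.Agent.S14

/-- The frozen statement S14 from the five top-level blocks. -/
theorem s14_of_blocks {p : ℕ} [Fact p.Prime] (h3 : 3 ≤ p) (hR : BridgeR p) (hD : BlockD)
    (hZ : BlockZ) (hRecip : BlockRecip p) (hF : BlockF p) : ExtCitation.ExtVanishingCts p :=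
  extVanishingCts_of_bridge_of_core hR (coreNT_of_blocks h3 hD hZ hRecip hF)

end Fermat.Agent.S14
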