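/-
S14 — crossing block (sub-architect: helper78): closed `Prop`s for the external inputs of
`blockRecip`, in exactly the shape in which the crossing consumes them.

  blockRecip : BlockD → BlockZ → BlockFirstIneq p → PrincipalDiesCyclo → SecondIneq →
      BlockNormDie → BlockBaseChange → BlockRecip p        (file `Crossing.lean`)

Owners: `PrincipalDiesCyclo` (helper35 ⇐ helper15 NormSurj + `BlockNormDie`),
`SecondIneq` (helper42 ⇐ Z1), `BlockNormDie` (helper43), `BlockBaseChange` (helper59).
-/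
import Fermat.Agent.S14.Blocks
import Fermat.Agent.S14.UnramBaseChange

set_option autoImplicit false

namespace Fermat.Agent.S14.CrossingBlocks

open NumberField nonZeroDivisors Fermat.Agent.S14

/-- **(C1)** explicit cyclotomic reciprocity + local norm surjectivity: `F` totally complex,
`L/F` unramified Galois, `L ⊆ C = F(ζ_m)`: the Artin symbol of every nonzero principal ideal of
`𝓞 F` prime to `m` is trivial. -/
def PrincipalDiesCyclo : Prop :=
  ∀ (F L C : Type) [Field F] [NumberField F] [Field L] [NumberField L] [Field C] [NumberField C]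
    [Algebra F L] [Algebra F C] [Algebra L C] [IsScalarTower F L C] [IsGalois F L]
    [IsTotallyComplex F] (m : ℕ) [NeZero m] [IsCyclotomicExtension {m} F C],
    Unram F L → ∀ art : (Ideal (𝓞 F))⁰ →* (L ≃ₐ[F] L), IsArtinMap F L art →
    ∀ I : (Ideal (𝓞 F))⁰, (I : Ideal (𝓞 F)).IsPrincipal →
      IsCoprime (I : Ideal (𝓞 F)) (Ideal.span {(m : 𝓞 F)}) → art I = 1

/-- **(Z2)** the second (analytic) inequality at modulus `1`, with a finite exceptional set:
a subgroup `H` of the class group of `E` containing the classes of the primes below all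
degree-one primes of `E'` of norm `> N₀` has index at most `[E' : E]`.  (No Galois hypothesis.) -/
def SecondIneq : Prop :=
  ∀ (E E' : Type) [Field E] [NumberField E] [Field E'] [NumberField E'] [Algebra E E']
    (H : Subgroup (ClassGroup (𝓞 E))) (N₀ : ℕ),
    (∀ (Q : Ideal (𝓞 E')) (_ : Q.IsPrime) (hQ0 : Q ≠ ⊥), (Ideal.absNorm Q).Prime →
      N₀ < Ideal.absNorm Q →
      ClassGroup.mk0 (⟨Q.under (𝓞 E),
        mem_nonZeroDivisors_iff_ne_zero.mpr (Ideal.under_ne_bot (𝓞 E) hQ0)⟩ : (Ideal (𝓞 E))⁰)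
        ∈ H) →
    H.index ≤ Module.finrank E E'

/-- **(D-norm)** relative norms of ideals of `𝓞 L` have trivial Artin symbol. -/
def BlockNormDie : Prop :=
  ∀ (K L : Type) [Field K] [NumberField K] [Field L] [NumberField L] [Algebra K L]
    [IsGalois K L],
    Unram K L → ∀ art : (Ideal (𝓞 K))⁰ →* (L ≃ₐ[K] L), IsArtinMap K L art →
    ∀ (J : Ideal (𝓞 L)) (I : (Ideal (𝓞 K))⁰),
      (I : Ideal (𝓞 K)) = Ideal.relNorm (𝓞 K) J → art I = 1

/-- **(D-bc)** base change / norm functoriality of the Artin map: `L' = L·E`,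
`res (art' 𝔄) = art (N_{E/K} 𝔄)`. -/
def BlockBaseChange : Prop :=
  ∀ (K L E L' : Type) [Field K] [NumberField K] [Field L] [NumberField L] [Field E]
    [NumberField E] [Field L'] [NumberField L'] [Algebra K L] [Algebra K E] [Algebra L L']
    [Algebra E L'] [Algebra K L'] [IsScalarTower K L L'] [IsScalarTower K E L']
    [IsGalois K L] [IsGalois E L'],
    UnramBaseChange.IsCompositum L E L' → Unram K L →
    ∀ (art : (Ideal (𝓞 K))⁰ →* (L ≃ₐ[K] L)) (art' : (Ideal (𝓞 E))⁰ →* (L' ≃ₐ[E] L')),
    IsArtinMap K L art → IsArtinMap E L' art' →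
    ∀ (𝔄 : (Ideal (𝓞 E))⁰) (I : (Ideal (𝓞 K))⁰),
      (I : Ideal (𝓞 K)) = Ideal.relNorm (𝓞 K) (𝔄 : Ideal (𝓞 E)) →
      UnramBaseChange.resHom (art' 𝔄) = art I

end Fermat.Agent.S14.CrossingBlocks
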