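/-
S14 — crossing block input `CrossingBlocks.BlockBaseChange` (D-bc), proved from
`ArtinMapFunctB.resHom_art_eq`.  Author: helper59.
-/
import Fermat.Agent.S14.CrossingBlocks
import Fermat.Agent.S14.ArtinMapFunctB

set_option autoImplicit false

namespace Fermat.Agent.S14.BlockBaseChangeProof

open NumberField nonZeroDivisors Fermat.Agent.S14

/-- **(D-bc)**: the closed Prop `CrossingBlocks.BlockBaseChange` holds (the compositum
hypothesis is not even needed). -/
theorem blockBaseChange : CrossingBlocks.BlockBaseChange := by
  intro K L E L' _ _ _ _ _ _ _ _ _ _ _ _ _ _ _ _ _ _ hU art art' hart hart' 𝔄 I hI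
  exact ArtinMapFunctB.resHom_art_eq hart hU hart' 𝔄 I hI

end Fermat.Agent.S14.BlockBaseChangeProof
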