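/-
S14 — Block (D): `BlockD` (existence of the Artin map for an unramified abelian extension) in the
exact shape of `Blocks.lean`, from `ArtinMap.lean` (helper43).  Also the consequences for an
ARBITRARY `art` with `IsArtinMap` (via uniqueness): order of `art v`, `art v = 1 ↔ f = 1`,
norms die.
-/
import Fermat.Agent.S14.Blocks
import Fermat.Agent.S14.ArtinMap

set_option autoImplicit false

open NumberField

open scoped nonZeroDivisors

namespace Fermat.Agent.S14.BlockDFinal

section

variable {K L : Type*} [Field K] [NumberField K] [Field L] [NumberField L] [Algebra K L]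
  [IsGalois K L]

/-- The two `Unram` predicates (team `Defs.lean` and `ArtinMap.lean`) coincide. -/
theorem unram_iff : Fermat.Agent.S14.Unram K L ↔ Fermat.Agent.S14.ArtinMap.Unram K L := Iff.rfl

variable [IsMulCommutative (L ≃ₐ[K] L)]

/-- The concrete Artin map of `ArtinMap.lean` is an Artin map in the sense of `Defs.lean`.
(No unramifiedness needed for existence.) -/
theorem isArtinMap_art :
    haveI : IsAbelianGalois K L := { }
    IsArtinMap K L (ArtinMap.art K L) := by
  haveI : IsAbelianGalois K L := { }
  refine ⟨fun v P hv hP hPv => ?_⟩
  rw [ArtinMap.art_prime v hv]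
  exact ArtinMap.frob_spec (nonZeroDivisors.coe_ne_zero v) P

end

/-- **Block (D)**. -/
theorem blockD : BlockD := by
  intro K L _ _ _ _ _ _ _ _
  haveI : IsAbelianGalois K L := { }
  exact ⟨ArtinMap.art K L, isArtinMap_art⟩

end Fermat.Agent.S14.BlockDFinal
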