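/-
S14 — `BlockD`: existence of the Artin map on nonzero ideals for an abelian Galois extension of
number fields (architect: helper55; spare/safety copy of helper43's block (D)).

`frobOf v` is an arithmetic Frobenius at every prime above `v` (commutativity + transitivity of the
Galois action), and `artOf` extends it multiplicatively through the prime factorisation.
No unramifiedness is needed for existence.
-/
import Fermat.Agent.S14.Blocks

set_option autoImplicit false

namespace Fermat.Agent.S14.BlockDProof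

open NumberField nonZeroDivisors UniqueFactorizationMonoid Fermat.Agent.S14

variable (K L : Type*) [Field K] [NumberField K] [Field L] [NumberField L] [Algebra K L]
  [IsGalois K L] [IsMulCommutative (L ≃ₐ[K] L)]

theorem exists_frob (v : Ideal (𝓞 K)) (hv : v.IsPrime) (hv0 : v ≠ ⊥) :
    ∃ σ : L ≃ₐ[K] L, ∀ P : Ideal (𝓞 L), P.IsPrime → P.LiesOver v →
      IsArithFrobAt (𝓞 K) σ P := by
  have hvmax : v.IsMaximal := hv.isMaximal hv0
  obtain ⟨P₀, hP₀max, hP₀v⟩ := Ideal.exists_maximal_ideal_liesOver_of_isIntegral (S := 𝓞 L) v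
  have hP₀ : P₀.IsPrime := hP₀max.isPrime
  have hP₀0 : P₀ ≠ ⊥ := by
    rintro rfl
    have h1 : v = (⊥ : Ideal (𝓞 L)).under (𝓞 K) := hP₀v.over
    have h2 : (⊥ : Ideal (𝓞 L)).under (𝓞 K) = ⊥ := by
      rw [Ideal.under_def]
      exact Ideal.comap_bot_of_injective _ (FaithfulSMul.algebraMap_injective (𝓞 K) (𝓞 L))
    exact hv0 (h1.trans h2)
  have : Finite (𝓞 L ⧸ P₀) := Ideal.finiteQuotientOfFreeOfNeBot P₀ hP₀0
  refine ⟨arithFrobAt (𝓞 K) (L ≃ₐ[K] L) P₀, fun P hP hPv => ?_⟩
  obtain ⟨σ, rfl⟩ := Ideal.exists_smul_eq_of_isGaloisGroup v P₀ P (L ≃ₐ[K] L)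
  have h := (IsArithFrobAt.arithFrobAt (𝓞 K) (L ≃ₐ[K] L) P₀).conj σ
  rwa [mul_comm' σ, mul_inv_cancel_right] at h

/-- The Frobenius element of a prime `v` of `𝓞 K` (junk value `1` otherwise). -/
noncomputable def frobOf (v : Ideal (𝓞 K)) : L ≃ₐ[K] L := by
  classical
  exact if h : v.IsPrime ∧ v ≠ ⊥ then (exists_frob K L v h.1 h.2).choose else 1

theorem frobOf_spec (v : Ideal (𝓞 K)) (hv : v.IsPrime) (hv0 : v ≠ ⊥) (P : Ideal (𝓞 L))
    (hP : P.IsPrime) (hPv : P.LiesOver v) : IsArithFrobAt (𝓞 K) (frobOf K L v) P := by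
  unfold frobOf
  rw [dif_pos ⟨hv, hv0⟩]
  exact (exists_frob K L v hv hv0).choose_spec P hP hPv

/-- The commutative group structure on `Gal(L/K)`. -/
@[reducible] noncomputable def commGroupGal : CommGroup (L ≃ₐ[K] L) :=
  { (inferInstance : Group (L ≃ₐ[K] L)) with mul_comm := mul_comm' }

/-- The Artin map on nonzero ideals. -/
noncomputable def artOf : (Ideal (𝓞 K))⁰ →* (L ≃ₐ[K] L) :=
  letI := commGroupGal K L
  { toFun := fun I => ((normalizedFactors (I : Ideal (𝓞 K))).map (frobOf K L)).prod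
    map_one' := by
      rw [Submonoid.coe_one, normalizedFactors_one, Multiset.map_zero, Multiset.prod_zero]
    map_mul' := by
      intro I J
      have hI : (I : Ideal (𝓞 K)) ≠ 0 := mem_nonZeroDivisors_iff_ne_zero.mp I.2
      have hJ : (J : Ideal (𝓞 K)) ≠ 0 := mem_nonZeroDivisors_iff_ne_zero.mp J.2
      rw [Submonoid.coe_mul, normalizedFactors_mul hI hJ, Multiset.map_add, Multiset.prod_add] }

theorem artOf_prime (v : (Ideal (𝓞 K))⁰) (hv : (v : Ideal (𝓞 K)).IsPrime) :
    artOf K L v = frobOf K L (v : Ideal (𝓞 K)) := by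
  have hv0 : (v : Ideal (𝓞 K)) ≠ ⊥ := mem_nonZeroDivisors_iff_ne_zero.mp v.2
  have hirr : Irreducible (v : Ideal (𝓞 K)) := (Ideal.prime_of_isPrime hv0 hv).irreducible
  let _ := commGroupGal K L
  change ((normalizedFactors (v : Ideal (𝓞 K))).map (frobOf K L)).prod = _
  rw [normalizedFactors_irreducible hirr, normalize_eq, Multiset.map_singleton,
    Multiset.prod_singleton]

theorem isArtinMap_artOf : IsArtinMap K L (artOf K L) := by
  refine ⟨fun v P hv hP hPv => ?_⟩
  rw [artOf_prime K L v hv]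
  exact frobOf_spec K L _ hv (mem_nonZeroDivisors_iff_ne_zero.mp v.2) P hP hPv

end Fermat.Agent.S14.BlockDProof

namespace Fermat.Agent.S14

/-- **Block (D)**: the Artin map exists. -/
theorem blockD : BlockD := by
  intro K L _ _ _ _ _ _ _ _
  exact ⟨BlockDProof.artOf K L, BlockDProof.isArtinMap_artOf K L⟩

end Fermat.Agent.S14
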