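/-
S14 — crossing block input `CrossingBlocks.BlockNormDie` (D-norm), adapter from helper90's
`ArtinMapAbs.art_relNorm`.  Author: helper59.
-/
import Fermat.Agent.S14.CrossingBlocks
import Fermat.Agent.S14.ArtinMapAbs

set_option autoImplicit false

namespace Fermat.Agent.S14.BlockNormDieProof

open NumberField nonZeroDivisors Fermat.Agent.S14

/-- **(D-norm)**: the closed Prop `CrossingBlocks.BlockNormDie` holds. -/
theorem blockNormDie : CrossingBlocks.BlockNormDie := by
  intro K L _ _ _ _ _ _ hU art hart J I hI
  have hJ : J ≠ ⊥ := by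
    rintro rfl
    rw [Ideal.relNorm_bot] at hI
    exact nonZeroDivisors.ne_zero I.2 hI
  exact ArtinMapAbs.art_relNorm hart hU J hJ I hI

end Fermat.Agent.S14.BlockNormDieProof
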