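/-
S14, bridge glue (helper14): the hypothesis `InertiaLifts` of `S14/NFGlue.lean` is a theorem.

Route II of the shared bridge: the ideal-theoretic inertia group of a prime `P` of a finite Galois
`M/ℚ` sits inside the inertia subgroup of a valuation subring `B` of `M` over a rational prime
(`Lib/Ram/Minkowski`, helper80); `B` is the restriction of a valuation subring `A` of `ℚ̄`, and
`I_A → I_B` is onto (`Lib/InertiaRestrict`, helper79).
-/
import Mathlib
import Fermat.Agent.S14.NFGlue
import Fermat.Agent.Lib.InertiaRestrict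
import Fermat.Agent.Lib.Ram.Minkowski

set_option autoImplicit false

namespace Fermat.Agent.S14.BridgeGlue

open Fermat.Agent.S14.Cocycle Fermat.Agent.S14.NFGlue NumberField ValuationSubring

/-- A nonzero prime of the ring of integers of a number field contains a rational prime. -/
theorem exists_prime_mem (M : Type*) [Field M] [NumberField M] (P : Ideal (𝓞 M)) (hP : P.IsPrime)
    (hP0 : P ≠ ⊥) : ∃ ℓ : ℕ, ℓ.Prime ∧ ((ℓ : ℤ) : 𝓞 M) ∈ P := by
  have h1 : P.under ℤ ≠ ⊥ := Ideal.under_ne_bot ℤ hP0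
  have h2 : (P.under ℤ).IsPrime := Ideal.IsPrime.under ℤ P
  obtain ⟨n, hn⟩ := (IsPrincipalIdealRing.principal (P.under ℤ)).principal
  have hn' : P.under ℤ = Ideal.span {n} := hn
  have hn0 : n ≠ 0 := by
    rintro rfl
    apply h1
    rw [hn']
    simp
  have hnp : Prime n := by
    rw [hn'] at h2
    exact (Ideal.span_singleton_prime hn0).mp h2
  refine ⟨n.natAbs, Int.prime_iff_natAbs_prime.mp hnp, ?_⟩
  have h3 : ((n.natAbs : ℤ)) ∈ P.under ℤ := by
    rw [hn', Ideal.mem_span_singleton]
    exact Int.dvd_natAbs_self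
  have h4 := Ideal.mem_comap.mp h3
  rwa [algebraMap_int_eq, eq_intCast] at h4

/-- **The bridge.** -/
theorem inertiaLifts : InertiaLifts := by
  intro M _ _ P hP hP0 g hg
  have hnf : NumberField M :=
    { to_charZero := inferInstance, to_finiteDimensional := inferInstance }
  obtain ⟨ℓ, hℓ, hℓP⟩ := exists_prime_mem M P hP hP0
  obtain ⟨B, hB, hgB⟩ :=
    Fermat.Agent.Lib.Ram.Minkowski.exists_valuationSubring_mem_inertiaSubgroupIn M ℓ hℓ P hℓP g hg
  obtain ⟨A, hA⟩ := Fermat.Agent.Lib.InertiaRestrict.exists_comap_eq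
    (algebraMap M (AlgebraicClosure ℚ)) B
  have hG : IsGalois ℚ (AlgebraicClosure ℚ) :=
    Fermat.Agent.S14.KernelField.isGalois_rat_algebraicClosure
  obtain ⟨τ, hτ, hτg⟩ := Fermat.Agent.Lib.InertiaRestrict.exists_mem_inertia M A g
    (by rw [hA]; exact hgB)
  refine ⟨ℓ, A, τ, hℓ, ?_, hτ, hτg⟩
  -- `A` lies over `ℓ` because `B` does
  have h1 : ((ℓ : M)) ∈ (A.comap (algebraMap M (AlgebraicClosure ℚ))).nonunits := by
    rw [hA]; exact hB
  rw [Fermat.Agent.Lib.InertiaRestrict.mem_nonunits_comap_iff] at h1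
  simpa [ValuationSubring.LiesOverPrime] using h1

/-- **S14 from the number-field statement alone.** -/
theorem extVanishingCts_of_noUnramExt' (p : ℕ) [Fact p.Prime] (h : NoUnramExt p) :
    ExtCitation.ExtVanishingCts p :=
  extVanishingCts_of_noUnramExt p inertiaLifts h

end Fermat.Agent.S14.BridgeGlue
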