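import Mathlib

/-!
# Products over the characters of a finite abelian group

For a finite abelian group `A`, `a : A` and a real `0 ≤ x < 1`,
`1 ≤ ‖∏ ψ : A →* ℂˣ, (1 - ψ a * x)⁻¹‖`.
(The product equals `(1 - x ^ f) ^ (-|A| / f)` with `f = orderOf a`; we only need the bound,
which follows from `-log (1 - z) = ∑ z ^ n / n` and orthogonality of characters.)
-/

namespace Fermat.Agent.S14.CharProd

open Complex

variable {A : Type*} [CommGroup A] [Finite A]

/-- The exponent of a finite group is nonzero (as a `NeZero` fact; use as a local instance). -/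
theorem neZero_exponent : NeZero (Monoid.exponent A) := ⟨Monoid.exponent_ne_zero_of_finite⟩

/-- The `Fintype` structure on the character group (use as a local instance). -/
@[instance_reducible]
noncomputable def fintypeChar : Fintype (A →* ℂˣ) := Fintype.ofFinite _

attribute [local instance] neZero_exponent fintypeChar

/-- Character values have norm one. -/
lemma norm_char (ψ : A →* ℂˣ) (a : A) : ‖((ψ a : ℂˣ) : ℂ)‖ = 1 := by
  have hpos : 0 < orderOf a := orderOf_pos a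
  have h : ((ψ a : ℂˣ) : ℂ) ^ orderOf a = 1 := by
    rw [← Units.val_pow_eq_pow_val, ← map_pow, pow_orderOf_eq_one, map_one, Units.val_one]
  exact Complex.norm_eq_one_of_pow_eq_one h hpos.ne'

/-- Orthogonality: the sum of the values of all characters at `1` is `|A|`. -/
lemma sum_char_one :
    ∑ ψ : A →* ℂˣ, ((ψ (1 : A) : ℂˣ) : ℂ) = (Nat.card A : ℂ) := by
  simp only [map_one, Units.val_one, Finset.sum_const, Finset.card_univ, nsmul_eq_mul, mul_one]
  rw [← Nat.card_eq_fintype_card, CommGroup.card_monoidHom_of_hasEnoughRootsOfUnity]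

/-- Orthogonality: the sum of the values of all characters at `b ≠ 1` is `0`. -/
lemma sum_char_eq_zero {b : A} (hb : b ≠ 1) :
    ∑ ψ : A →* ℂˣ, ((ψ b : ℂˣ) : ℂ) = 0 := by
  obtain ⟨ψ₀, hψ₀⟩ := CommGroup.exists_apply_ne_one_of_hasEnoughRootsOfUnity A ℂ hb
  set S := ∑ ψ : A →* ℂˣ, ((ψ b : ℂˣ) : ℂ) with hS
  have h1 : ((ψ₀ b : ℂˣ) : ℂ) * S = S := by
    rw [hS, Finset.mul_sum]
    refine Fintype.sum_equiv (Equiv.mulLeft ψ₀) _ _ (fun ψ => ?_)
    simp [MonoidHom.mul_apply]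
  have h2 : (((ψ₀ b : ℂˣ) : ℂ) - 1) * S = 0 := by rw [sub_mul, h1, one_mul, sub_self]
  rcases mul_eq_zero.mp h2 with h | h
  · exfalso
    apply hψ₀
    have : ((ψ₀ b : ℂˣ) : ℂ) = 1 := sub_eq_zero.mp h
    exact Units.ext this
  · exact h

lemma sum_char_re_nonneg (b : A) : 0 ≤ (∑ ψ : A →* ℂˣ, ((ψ b : ℂˣ) : ℂ)).re := by
  by_cases hb : b = 1
  · subst hb
    rw [sum_char_one]
    simp
  · rw [sum_char_eq_zero hb]
    simp

/-- The key bound: each Euler factor of `∏ ψ, L(s, ψ)` has norm at least one. -/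
theorem one_le_norm_prod_inv (a : A) {x : ℝ} (hx0 : 0 ≤ x) (hx1 : x < 1) :
    1 ≤ ‖∏ ψ : A →* ℂˣ, (1 - ((ψ a : ℂˣ) : ℂ) * (x : ℂ))⁻¹‖ := by
  have hz : ∀ ψ : A →* ℂˣ, ‖((ψ a : ℂˣ) : ℂ) * (x : ℂ)‖ < 1 := by
    intro ψ
    rw [norm_mul, norm_char, one_mul, Complex.norm_real, Real.norm_of_nonneg hx0]
    exact hx1
  -- each factor is `exp (-log (1 - z))`
  have hfac : ∀ ψ : A →* ℂˣ, (1 - ((ψ a : ℂˣ) : ℂ) * (x : ℂ))⁻¹ =
      Complex.exp (-Complex.log (1 - ((ψ a : ℂˣ) : ℂ) * (x : ℂ))) := by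
    intro ψ
    have hne : 1 - ((ψ a : ℂˣ) : ℂ) * (x : ℂ) ≠ 0 := by
      intro h
      have h1 : ((ψ a : ℂˣ) : ℂ) * (x : ℂ) = 1 := (sub_eq_zero.mp h).symm
      have := hz ψ
      rw [h1, norm_one] at this
      exact lt_irrefl _ this
    rw [Complex.exp_neg, Complex.exp_log hne]
  -- the sum of the logs
  have hsum : HasSum (fun n : ℕ => ∑ ψ : A →* ℂˣ, (((ψ a : ℂˣ) : ℂ) * (x : ℂ)) ^ n / n)
      (∑ ψ : A →* ℂˣ, -Complex.log (1 - ((ψ a : ℂˣ) : ℂ) * (x : ℂ))) :=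
    hasSum_sum (fun ψ _ => Complex.hasSum_taylorSeries_neg_log (hz ψ))
  have hre := Complex.reCLM.hasSum hsum
  have hnonneg : 0 ≤ (∑ ψ : A →* ℂˣ, -Complex.log (1 - ((ψ a : ℂˣ) : ℂ) * (x : ℂ))).re := by
    refine HasSum.nonneg (fun n => ?_) hre
    simp only [Complex.reCLM_apply]
    have h1 : ∑ ψ : A →* ℂˣ, (((ψ a : ℂˣ) : ℂ) * (x : ℂ)) ^ n / n =
        ((x ^ n / n : ℝ) : ℂ) * ∑ ψ : A →* ℂˣ, ((ψ (a ^ n) : ℂˣ) : ℂ) := by
      rw [Finset.mul_sum]
      refine Finset.sum_congr rfl (fun ψ _ => ?_)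
      rw [map_pow, Units.val_pow_eq_pow_val, mul_pow]
      push_cast
      ring
    rw [h1, Complex.re_ofReal_mul]
    exact mul_nonneg (div_nonneg (pow_nonneg hx0 n) (Nat.cast_nonneg n)) (sum_char_re_nonneg _)
  rw [Finset.prod_congr rfl (fun ψ _ => hfac ψ), ← Complex.exp_sum, Complex.norm_exp]
  exact Real.one_le_exp hnonneg

/-- For the trivial class the Euler factor is `(1 - x)⁻¹ ^ |A|`. -/
theorem prod_inv_one (x : ℂ) :
    ∏ ψ : A →* ℂˣ, (1 - ((ψ (1 : A) : ℂˣ) : ℂ) * x)⁻¹ = ((1 - x)⁻¹) ^ Nat.card A := by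
  simp only [map_one, Units.val_one, one_mul, Finset.prod_const, Finset.card_univ]
  rw [← Nat.card_eq_fintype_card, CommGroup.card_monoidHom_of_hasEnoughRootsOfUnity]

end Fermat.Agent.S14.CharProd
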