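/-
S14 — crossing block, row T3 of helper78's plan v2 (report 1044).  Owner: helper15.  Mathlib only.

`isCyclotomicExtension_of_fixes`: inside a finite Galois extension `Ω/K`, if the only element of
`Gal(Ω/K)` fixing the intermediate field `X` pointwise and fixing the primitive `m`-th root of unity
`ζ` is the identity, then `Ω = X(ζ)`, i.e. `Ω/X` is an `m`-th cyclotomic extension.
-/
import Mathlib

set_option autoImplicit false

namespace Fermat.Agent.S14.CrossingCyclo

open IntermediateField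

variable {K Ω : Type*} [Field K] [Field Ω] [Algebra K Ω]

/-- If every `X`-automorphism of `Ω` fixing `ζ` is trivial (and `Ω/X` is finite Galois), then
`X(ζ) = Ω`. -/
theorem adjoin_eq_top_of_fixes [FiniteDimensional K Ω] [IsGalois K Ω]
    (X : IntermediateField K Ω) (ζ : Ω)
    (h : ∀ σ : Ω ≃ₐ[K] Ω, (∀ x ∈ X, σ x = x) → σ ζ = ζ → σ = 1) :
    IntermediateField.adjoin (↥X) ({ζ} : Set Ω) = ⊤ := by
  have hfix : (IntermediateField.adjoin (↥X) ({ζ} : Set Ω)).fixingSubgroup = ⊥ := by
    rw [eq_bot_iff]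
    intro τ hτ
    rw [Subgroup.mem_bot]
    have hτζ : τ ζ = ζ := by
      have := (IntermediateField.mem_fixingSubgroup_iff _ τ).mp hτ ζ
        (IntermediateField.mem_adjoin_simple_self (↥X) ζ)
      simpa using this
    have h1 : (τ.restrictScalars K) = 1 := by
      apply h
      · intro x hx
        exact τ.commutes (⟨x, hx⟩ : ↥X)
      · exact hτζ
    ext y
    have := congrArg (fun f : Ω ≃ₐ[K] Ω => f y) h1
    simpa using this
  have := IsGalois.fixedField_fixingSubgroup
    (IntermediateField.adjoin (↥X) ({ζ} : Set Ω))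
  rw [hfix] at this
  rw [← this]
  exact IntermediateField.fixedField_bot

/-- **Row T3.**  Inside a finite Galois extension `Ω/K`: if the only `σ ∈ Gal(Ω/K)` fixing `X`
pointwise and fixing the primitive `m`-th root of unity `ζ` is `1`, then `Ω/X` is an `m`-th
cyclotomic extension. -/
theorem isCyclotomicExtension_of_fixes [FiniteDimensional K Ω] [IsGalois K Ω]
    (X : IntermediateField K Ω) (m : ℕ) [NeZero m] (ζ : Ω) (hζ : IsPrimitiveRoot ζ m)
    (h : ∀ σ : Ω ≃ₐ[K] Ω, (∀ x ∈ X, σ x = x) → σ ζ = ζ → σ = 1) :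
    IsCyclotomicExtension {m} (↥X) Ω := by
  have htop := adjoin_eq_top_of_fixes X ζ h
  have halg : Algebra.adjoin (↥X) ({ζ} : Set Ω) = ⊤ :=
    IntermediateField.adjoin_eq_top_iff.mp htop
  rw [IsCyclotomicExtension.iff_singleton]
  refine ⟨⟨ζ, hζ⟩, fun x => ?_⟩
  have hx : x ∈ Algebra.adjoin (↥X) ({ζ} : Set Ω) := by rw [halg]; exact Algebra.mem_top
  refine Algebra.adjoin_mono ?_ hx
  intro b hb
  rw [Set.mem_singleton_iff] at hb
  subst hb
  exact hζ.pow_eq_one

/-- The same statement in the common setting (CS) of the crossing plan: number fields. -/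
theorem isCyclotomicExtension_of_fixes_nf {K Ω : Type} [Field K] [NumberField K] [Field Ω]
    [NumberField Ω] [Algebra K Ω] [IsGalois K Ω]
    (X : IntermediateField K Ω) (m : ℕ) [NeZero m] (ζ : Ω) (hζ : IsPrimitiveRoot ζ m)
    (h : ∀ σ : Ω ≃ₐ[K] Ω, (∀ x ∈ X, σ x = x) → σ ζ = ζ → σ = 1) :
    IsCyclotomicExtension {m} (↥X) Ω :=
  isCyclotomicExtension_of_fixes X m ζ hζ h

end Fermat.Agent.S14.CrossingCyclo
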