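/-
S14 — crossing block, row T2 (helper89): if some `σ ∈ Gal(Ω/K)` fixes the intermediate field `X`
pointwise but moves an element of `M`, then `L_X = M·X` is a proper extension of `X`, i.e.
`[L_X : X] ≠ 1`.
-/
import Fermat.Agent.S14.CrossingTower

set_option autoImplicit false

namespace Fermat.Agent.S14.CrossingDeg

open NumberField Fermat.Agent.S14 Fermat.Agent.S14.CrossingTower

variable {K Ω : Type*} [Field K] [Field Ω] [Algebra K Ω]
variable {M : Type*} [Field M] [Algebra M Ω]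

/-- If `[L_X : X] = 1` then every element of `M` lies (inside `Ω`) in `X`. -/
theorem algebraMap_mem_of_finrank_LX_eq_one (X : IntermediateField K Ω)
    (h1 : Module.finrank ↥X ↥(LX M X) = 1) (y : M) : algebraMap M Ω y ∈ X := by
  have hbot : LX M X = ⊥ := IntermediateField.finrank_eq_one_iff.mp h1
  have hmem : algebraMap M Ω y ∈ LX M X := algebraMap_mem_LX X y
  rw [hbot, IntermediateField.mem_bot] at hmem
  obtain ⟨x, hx⟩ := hmem
  rw [← hx]
  exact x.2

/-- **Row T2.** If some `σ : Ω ≃ₐ[K] Ω` fixes `X` pointwise and moves an element of `M`, then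
`[L_X : X] ≠ 1`. -/
theorem finrank_LX_ne_one (X : IntermediateField K Ω)
    (h : ∃ σ : Ω ≃ₐ[K] Ω, (∀ x ∈ X, σ x = x) ∧
      ∃ y : M, σ (algebraMap M Ω y) ≠ algebraMap M Ω y) :
    Module.finrank ↥X ↥(LX M X) ≠ 1 := by
  intro h1
  obtain ⟨σ, hfix, y, hy⟩ := h
  exact hy (hfix _ (algebraMap_mem_of_finrank_LX_eq_one X h1 y))

/-- Contrapositive form: if `[L_X : X] = 1`, every `σ` fixing `X` pointwise fixes `M` pointwise. -/
theorem fixes_of_finrank_LX_eq_one (X : IntermediateField K Ω)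
    (h1 : Module.finrank ↥X ↥(LX M X) = 1) (σ : Ω ≃ₐ[K] Ω) (hfix : ∀ x ∈ X, σ x = x) (y : M) :
    σ (algebraMap M Ω y) = algebraMap M Ω y :=
  hfix _ (algebraMap_mem_of_finrank_LX_eq_one X h1 y)

end Fermat.Agent.S14.CrossingDeg
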