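import Mathlib
import Fermat.Agent.S14.Defs
import Fermat.Agent.S14.UnramBaseChange

/-!
# The auxiliary field of Artin's crossing argument (S14, block C; helper78 design v1 item (1))

Ambient: `Ω/K` finite Galois, `M : IntermediateField K Ω` Galois over `K`, `φ ∈ Gal(Ω/K)`.

* `auxField φ : IntermediateField K Ω` is the fixed field `F` of `⟨φ⟩` (`mem_auxField_iff`).
* (c) `inf_auxField_eq_bot`: if `φ|_M` generates `Gal(M/K)` then `M ⊓ F = ⊥`.
* (b) `le_auxField_sup_adjoin`: if every power of `φ` fixing `ζ` fixes `M` then `M ≤ F ⊔ K⟮ζ⟯`;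
  `auxField_sup_adjoin_eq_top`: if moreover `M ⊔ K⟮ζ⟯ = ⊤` then `F ⊔ K⟮ζ⟯ = ⊤`, and then
  `isCyclotomicExtension_auxField : IsCyclotomicExtension {l} ↥F Ω`.
* type level: `auxL M φ : IntermediateField ↥F Ω` is `L = M·F`; instances `Algebra ↥M ↥L`,
  `IsScalarTower K ↥M ↥L`, `IsGalois ↥F ↥L`; `isCompositum_auxL`; `resHom_bijective`
  (`Gal(L/F) ≃ Gal(M/K)` by restriction), `finrank_auxL : [L:F] = [M:K]`,
  `unram_auxL : Unram K M → Unram F L`.
* (a) prime side: if `φ` is an arithmetic Frobenius at a nonzero prime `Q` of `𝓞 Ω` then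
  `P = Q ∩ 𝓞 F` has inertia degree one over `𝔮 = Q ∩ 𝓞 K` and `relNorm P = 𝔮`.
-/

namespace Fermat.Agent.S14.CrossingField

open IntermediateField NumberField Polynomial Fermat.Agent.S14.UnramBaseChange

variable {K Ω : Type*} [Field K] [Field Ω] [Algebra K Ω]

/-- The fixed field of the cyclic group generated by `φ`. -/
def auxField (φ : Ω ≃ₐ[K] Ω) : IntermediateField K Ω :=
  IntermediateField.fixedField (Subgroup.zpowers φ)

theorem mem_auxField_iff (φ : Ω ≃ₐ[K] Ω) (x : Ω) : x ∈ auxField φ ↔ φ x = x := by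
  unfold auxField
  rw [IntermediateField.mem_fixedField_iff]
  constructor
  · intro h
    exact h φ (Subgroup.mem_zpowers φ)
  · intro h σ hσ
    obtain ⟨n, rfl⟩ := Subgroup.mem_zpowers_iff.mp hσ
    have hfix : ∀ ψ : Ω ≃ₐ[K] Ω, ψ x = x → ψ⁻¹ x = x := by
      intro ψ hψ
      have : ψ⁻¹ (ψ x) = x := by
        change ψ.symm (ψ x) = x
        simp
      rw [hψ] at this
      exact this
    have hpow : ∀ m : ℕ, (φ ^ m) x = x := by
      intro m
      induction m with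
      | zero => simp
      | succ k ih =>
        rw [pow_succ]
        change (φ ^ k) (φ x) = x
        rw [h, ih]
    rcases Int.eq_nat_or_neg n with ⟨m, rfl | rfl⟩
    · simpa using hpow m
    · rw [zpow_neg, zpow_natCast]
      exact hfix _ (hpow m)

/-- A natural-number version of the hypothesis `hb` implies the integer version. -/
theorem hb_int_of_nat (M : IntermediateField K Ω) (φ : Ω ≃ₐ[K] Ω) (ζ : Ω)
    (hb : ∀ b : ℕ, (φ ^ b) ζ = ζ → ∀ x ∈ M, (φ ^ b) x = x) :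
    ∀ b : ℤ, (φ ^ b) ζ = ζ → ∀ x ∈ M, (φ ^ b) x = x := by
  have hinv : ∀ (ψ : Ω ≃ₐ[K] Ω) (y : Ω), ψ y = y → ψ⁻¹ y = y := by
    intro ψ y hψ
    have : ψ⁻¹ (ψ y) = y := by
      change ψ.symm (ψ y) = y
      simp
    rw [hψ] at this
    exact this
  intro b hbζ x hx
  rcases Int.eq_nat_or_neg b with ⟨m, rfl | rfl⟩
  · rw [zpow_natCast] at hbζ ⊢
    exact hb m hbζ x hx
  · rw [zpow_neg, zpow_natCast] at hbζ ⊢
    have h1 : (φ ^ m) ζ = ζ := by
      have := hinv _ _ hbζ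
      rwa [inv_inv] at this
    exact hinv _ _ (hb m h1 x hx)

section Galois

variable [FiniteDimensional K Ω]

theorem fixingSubgroup_auxField (φ : Ω ≃ₐ[K] Ω) :
    (auxField φ).fixingSubgroup = Subgroup.zpowers φ :=
  IntermediateField.fixingSubgroup_fixedField _

variable (M : IntermediateField K Ω)

/-- (c) If `φ|_M` generates `Gal(M/K)` then `M ∩ F = K`. -/
theorem inf_auxField_eq_bot [IsGalois K M] (φ : Ω ≃ₐ[K] Ω)
    (hgen : ∀ σ : M ≃ₐ[K] M, σ ∈ Subgroup.zpowers (AlgEquiv.restrictNormalHom M φ)) :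
    M ⊓ auxField φ = ⊥ := by
  rw [eq_bot_iff]
  intro x hx
  obtain ⟨hxM, hxF⟩ := IntermediateField.mem_inf.mp hx
  rw [mem_auxField_iff] at hxF
  have hfix : ∀ σ : M ≃ₐ[K] M, σ ⟨x, hxM⟩ = ⟨x, hxM⟩ := by
    have hres : (AlgEquiv.restrictNormalHom M φ) ⟨x, hxM⟩ = ⟨x, hxM⟩ := by
      apply Subtype.ext
      rw [AlgEquiv.restrictNormalHom_apply]
      exact hxF
    have hK : (⟨x, hxM⟩ : M) ∈ IntermediateField.fixedField
        (Subgroup.zpowers (AlgEquiv.restrictNormalHom M φ)) :=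
      (mem_auxField_iff (AlgEquiv.restrictNormalHom M φ) (⟨x, hxM⟩ : M)).mpr hres
    intro σ
    exact (IntermediateField.mem_fixedField_iff _ _).mp hK σ (hgen σ)
  have hbot : (⟨x, hxM⟩ : M) ∈ (⊥ : IntermediateField K M) :=
    (IsGalois.mem_bot_iff_fixed (F := K) (E := M) _).mpr hfix
  obtain ⟨k, hk⟩ := IntermediateField.mem_bot.mp hbot
  rw [IntermediateField.mem_bot]
  refine ⟨k, ?_⟩
  have := congrArg (Subtype.val) hk
  simpa using this

/-- (b) If every power of `φ` fixing `ζ` fixes `M` pointwise, then `M ⊆ F(ζ)`. -/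
theorem le_auxField_sup_adjoin [IsGalois K Ω] (φ : Ω ≃ₐ[K] Ω) (ζ : Ω)
    (hb : ∀ b : ℤ, (φ ^ b) ζ = ζ → ∀ x ∈ M, (φ ^ b) x = x) :
    M ≤ auxField φ ⊔ K⟮ζ⟯ := by
  have h1 : (auxField φ ⊔ K⟮ζ⟯).fixingSubgroup ≤ M.fixingSubgroup := by
    intro σ hσ
    rw [IntermediateField.fixingSubgroup_sup, Subgroup.mem_inf, fixingSubgroup_auxField] at hσ
    obtain ⟨hσ1, hσ2⟩ := hσ
    obtain ⟨b, rfl⟩ := Subgroup.mem_zpowers_iff.mp hσ1
    rw [IntermediateField.mem_fixingSubgroup_iff] at hσ2 ⊢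
    exact hb b (hσ2 ζ (IntermediateField.mem_adjoin_simple_self K ζ))
  have h2 := IntermediateField.fixedField_antitone h1
  rw [IsGalois.fixedField_fixingSubgroup, IsGalois.fixedField_fixingSubgroup] at h2
  exact h2

/-- (b') If moreover `Ω = M(ζ)` then `Ω = F(ζ)`. -/
theorem auxField_sup_adjoin_eq_top [IsGalois K Ω] (φ : Ω ≃ₐ[K] Ω) (ζ : Ω)
    (hb : ∀ b : ℤ, (φ ^ b) ζ = ζ → ∀ x ∈ M, (φ ^ b) x = x)
    (htop : M ⊔ K⟮ζ⟯ = ⊤) : auxField φ ⊔ K⟮ζ⟯ = ⊤ := by
  rw [eq_top_iff, ← htop]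
  exact sup_le (le_auxField_sup_adjoin M φ ζ hb) le_sup_right

/-- If `Ω = F(ζ)` with `ζ` a primitive `l`-th root of unity, then `Ω/F` is `l`-cyclotomic. -/
theorem isCyclotomicExtension_auxField (φ : Ω ≃ₐ[K] Ω) (ζ : Ω) (l : ℕ) [NeZero l]
    (hζ : IsPrimitiveRoot ζ l) (htop : auxField φ ⊔ K⟮ζ⟯ = ⊤) :
    IsCyclotomicExtension {l} ↥(auxField φ) Ω := by
  rw [IsCyclotomicExtension.iff_singleton]
  refine ⟨⟨ζ, hζ⟩, fun x => ?_⟩
  have hmono : Algebra.adjoin ↥(auxField φ) ({ζ} : Set Ω) ≤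
      Algebra.adjoin ↥(auxField φ) {b : Ω | b ^ l = 1} :=
    Algebra.adjoin_mono (by
      intro b hb
      rw [Set.mem_singleton_iff] at hb
      rw [hb]
      exact hζ.pow_eq_one)
  apply hmono
  have halg : IsAlgebraic ↥(auxField φ) ζ := IsAlgebraic.of_finite _ ζ
  rw [← IntermediateField.adjoin_simple_toSubalgebra_of_isAlgebraic halg]
  change x ∈ IntermediateField.adjoin ↥(auxField φ) {ζ}
  have h1 : (IntermediateField.adjoin ↥(auxField φ) ({ζ} : Set Ω)).restrictScalars K = ⊤ := by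
    rw [IntermediateField.restrictScalars_adjoin_eq_sup, htop]
  have : x ∈ (IntermediateField.adjoin ↥(auxField φ) ({ζ} : Set Ω)).restrictScalars K := by
    rw [h1]; trivial
  exact this

end Galois

/-! ### Type level: `L = M·F` over `F` -/

section TypeLevel

variable (M : IntermediateField K Ω) (φ : Ω ≃ₐ[K] Ω)

/-- `L = M·F` as an intermediate field of `Ω/F`, `F = auxField φ`. -/
def auxL : IntermediateField ↥(auxField φ) Ω :=
  IntermediateField.extendScalars (le_sup_right : auxField φ ≤ M ⊔ auxField φ)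

theorem mem_auxL_iff (x : Ω) : x ∈ auxL M φ ↔ x ∈ M ⊔ auxField φ := Iff.rfl

/-- The inclusion `M → L`. -/
def toAuxL : ↥M →+* ↥(auxL M φ) where
  toFun x := ⟨(x : Ω), (le_sup_left : M ≤ M ⊔ auxField φ) x.2⟩
  map_one' := rfl
  map_mul' _ _ := rfl
  map_zero' := rfl
  map_add' _ _ := rfl

noncomputable instance instAlgebraAuxL : Algebra ↥M ↥(auxL M φ) := (toAuxL M φ).toAlgebra

theorem coe_algebraMap_auxL (x : ↥M) :
    ((algebraMap ↥M ↥(auxL M φ) x : ↥(auxL M φ)) : Ω) = x := rfl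

instance instIsScalarTowerAuxL : IsScalarTower K ↥M ↥(auxL M φ) :=
  IsScalarTower.of_algebraMap_eq (fun k => by
    apply Subtype.ext
    rfl)

instance instIsScalarTowerAuxLTop : IsScalarTower ↥M ↥(auxL M φ) Ω :=
  IsScalarTower.of_algebraMap_eq (fun _ => rfl)

theorem sup_eq_adjoin_union :
    M ⊔ auxField φ = IntermediateField.adjoin K ((M : Set Ω) ∪ (auxField φ : Set Ω)) := by
  rw [IntermediateField.adjoin_union, IntermediateField.adjoin_self,
    IntermediateField.adjoin_self]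

theorem isCompositum_auxL : IsCompositum ↥M ↥(auxField φ) ↥(auxL M φ) := by
  unfold IsCompositum
  rw [eq_top_iff]
  rintro ⟨x, hx⟩ -
  have hsup := sup_eq_adjoin_union M φ
  have hmem : ∀ y, y ∈ IntermediateField.adjoin K ((M : Set Ω) ∪ (auxField φ : Set Ω)) →
      y ∈ auxL M φ := fun y hy => by rw [mem_auxL_iff, hsup]; exact hy
  have key : ∀ (y : Ω)
      (hy : y ∈ IntermediateField.adjoin K ((M : Set Ω) ∪ (auxField φ : Set Ω))),
      (⟨y, hmem y hy⟩ : ↥(auxL M φ)) ∈ IntermediateField.adjoin ↥(auxField φ)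
        (Set.range (algebraMap ↥M ↥(auxL M φ))) := by
    intro y hy
    induction hy using IntermediateField.adjoin_induction with
    | mem y hy =>
      rcases hy with hyM | hyF
      · exact IntermediateField.subset_adjoin _ _ ⟨⟨y, hyM⟩, rfl⟩
      · have : (⟨y, hmem y (IntermediateField.subset_adjoin K _ (Or.inr hyF))⟩ :
            ↥(auxL M φ)) = algebraMap ↥(auxField φ) ↥(auxL M φ) ⟨y, hyF⟩ := rfl
        rw [this]
        exact IntermediateField.algebraMap_mem _ _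
    | algebraMap k =>
      have : (⟨algebraMap K Ω k, hmem _ (IntermediateField.algebraMap_mem _ k)⟩ :
          ↥(auxL M φ)) =
          algebraMap ↥(auxField φ) ↥(auxL M φ) (algebraMap K ↥(auxField φ) k) := rfl
      rw [this]
      exact IntermediateField.algebraMap_mem _ _
    | add a b ha hb iha ihb => exact add_mem iha ihb
    | inv a ha iha => exact inv_mem iha
    | mul a b ha hb iha ihb => exact mul_mem iha ihb
  exact key x (by rw [← hsup]; exact hx)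

section Gal

variable [FiniteDimensional K Ω] [IsGalois K Ω] [IsGalois K M]

instance instIsGaloisAuxL : IsGalois ↥(auxField φ) ↥(auxL M φ) :=
  isGalois_of_isCompositum (K := K) (isCompositum_auxL M φ)

/-- `φ` as an `F`-automorphism of `Ω`. -/
noncomputable def phiF : Ω ≃ₐ[↥(auxField φ)] Ω :=
  IntermediateField.fixingSubgroupEquiv (auxField φ)
    ⟨φ, by rw [fixingSubgroup_auxField]; exact Subgroup.mem_zpowers φ⟩

omit [IsGalois K Ω] in
theorem phiF_apply (x : Ω) : phiF φ x = φ x := rfl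

/-- `φ` restricted to `L`. -/
noncomputable def phiL : ↥(auxL M φ) ≃ₐ[↥(auxField φ)] ↥(auxL M φ) :=
  AlgEquiv.restrictNormalHom (F := ↥(auxField φ)) (K₁ := Ω) ↥(auxL M φ) (phiF φ)

omit [IsGalois K Ω] in
theorem coe_phiL_apply (y : ↥(auxL M φ)) :
    ((phiL M φ y : ↥(auxL M φ)) : Ω) = φ (y : Ω) := by
  unfold phiL
  rw [AlgEquiv.restrictNormalHom_apply]
  rfl

omit [IsGalois K Ω] in
theorem resHom_phiL :
    resHom (K := K) (L := ↥M) (E := ↥(auxField φ)) (L' := ↥(auxL M φ)) (phiL M φ) =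
      AlgEquiv.restrictNormalHom (F := K) (K₁ := Ω) ↥M φ := by
  ext x
  have h1 := algebraMap_resHom (K := K) (L := ↥M) (E := ↥(auxField φ)) (L' := ↥(auxL M φ))
    (phiL M φ) x
  have h2 := congrArg (Subtype.val) h1
  rw [coe_algebraMap_auxL, coe_phiL_apply, coe_algebraMap_auxL] at h2
  rw [h2, AlgEquiv.restrictNormalHom_apply]

omit [IsGalois K Ω] in
theorem resHom_surjective
    (hgen : ∀ σ : M ≃ₐ[K] M, σ ∈ Subgroup.zpowers (AlgEquiv.restrictNormalHom M φ)) :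
    Function.Surjective
      (resHom (K := K) (L := ↥M) (E := ↥(auxField φ)) (L' := ↥(auxL M φ))) := by
  intro σ
  obtain ⟨n, hn⟩ := Subgroup.mem_zpowers_iff.mp (hgen σ)
  refine ⟨(phiL M φ) ^ n, ?_⟩
  rw [map_zpow, resHom_phiL, hn]

omit [IsGalois K Ω] in
/-- Restriction `Gal(L/F) → Gal(M/K)` is bijective when `φ|_M` generates `Gal(M/K)`. -/
theorem resHom_bijective
    (hgen : ∀ σ : M ≃ₐ[K] M, σ ∈ Subgroup.zpowers (AlgEquiv.restrictNormalHom M φ)) :
    Function.Bijective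
      (resHom (K := K) (L := ↥M) (E := ↥(auxField φ)) (L' := ↥(auxL M φ))) :=
  ⟨resHom_injective (K := K) (isCompositum_auxL M φ), resHom_surjective M φ hgen⟩

omit [IsGalois K Ω] in
/-- `[L:F] = [M:K]` when `φ|_M` generates `Gal(M/K)`. -/
theorem finrank_auxL
    (hgen : ∀ σ : M ≃ₐ[K] M, σ ∈ Subgroup.zpowers (AlgEquiv.restrictNormalHom M φ)) :
    Module.finrank ↥(auxField φ) ↥(auxL M φ) = Module.finrank K ↥M := by
  rw [← IsGalois.card_aut_eq_finrank, ← IsGalois.card_aut_eq_finrank]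
  exact Nat.card_eq_of_bijective _ (resHom_bijective M φ hgen)

end Gal

end TypeLevel

/-! ### Number fields -/

/-- A finite field in which every element satisfies `x ^ q = x` (`2 ≤ q`) has at most `q`
elements. -/
theorem card_le_of_forall_pow_eq {k : Type*} [Field k] [Finite k] {q : ℕ} (hq : 2 ≤ q)
    (h : ∀ x : k, x ^ q = x) : Nat.card k ≤ q := by
  classical
  have := Fintype.ofFinite k
  have hp : (X ^ q - X : k[X]) ≠ 0 := FiniteField.X_pow_card_sub_X_ne_zero k (by omega)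
  have hdeg : (X ^ q - X : k[X]).natDegree = q :=
    FiniteField.X_pow_card_sub_X_natDegree_eq k (by omega)
  have hsub : (Finset.univ : Finset k).val ⊆ (X ^ q - X : k[X]).roots := by
    intro x _
    rw [mem_roots hp, IsRoot.def, eval_sub, eval_pow, eval_X, h x, sub_self]
  have := Polynomial.card_le_degree_of_subset_roots hsub
  rw [hdeg, Finset.card_univ] at this
  rw [Nat.card_eq_fintype_card]
  exact this

section NF

variable {K Ω : Type*} [Field K] [Field Ω] [Algebra K Ω] [NumberField K] [NumberField Ω]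
  [IsGalois K Ω]

omit [IsGalois K Ω] in
/-- **Unramified base change** for the auxiliary extension `L/F`. -/
theorem unram_auxL (M : IntermediateField K Ω) [IsGalois K M] (φ : Ω ≃ₐ[K] Ω)
    (hU : Fermat.Agent.S14.Unram K ↥M) :
    Fermat.Agent.S14.Unram ↥(auxField φ) ↥(auxL M φ) :=
  unram_of_isCompositum (K := K) (isCompositum_auxL M φ) hU

variable (φ : Ω ≃ₐ[K] Ω) (Q : Ideal (𝓞 Ω)) [hQ : Q.IsPrime]

omit [NumberField K] [NumberField Ω] [IsGalois K Ω] in
theorem smul_algebraMap_auxField (x : 𝓞 ↥(auxField φ)) :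
    φ • (algebraMap (𝓞 ↥(auxField φ)) (𝓞 Ω) x) = algebraMap (𝓞 ↥(auxField φ)) (𝓞 Ω) x := by
  apply RingOfIntegers.ext
  change φ ((x : ↥(auxField φ)) : Ω) = ((x : ↥(auxField φ)) : Ω)
  exact (mem_auxField_iff φ _).mp (x : ↥(auxField φ)).2

omit hQ in
theorem pow_sub_mem_under (hφ : IsArithFrobAt (𝓞 K) φ Q) (x : 𝓞 ↥(auxField φ)) :
    x - x ^ Nat.card (𝓞 K ⧸ Q.under (𝓞 K)) ∈ Q.under (𝓞 ↥(auxField φ)) := by
  rw [Ideal.under_def, Ideal.mem_comap, map_sub, map_pow]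
  have h := hφ (algebraMap (𝓞 ↥(auxField φ)) (𝓞 Ω) x)
  rw [MulSemiringAction.toAlgHom_apply, smul_algebraMap_auxField] at h
  exact h

/-- (a) If `φ` is an arithmetic Frobenius at `Q` then `P = Q ∩ 𝓞 F` has inertia degree one
over `𝓞 K`. -/
theorem inertiaDeg_under_auxField (hQ0 : Q ≠ ⊥) (hφ : IsArithFrobAt (𝓞 K) φ Q) :
    (Q.under (𝓞 ↥(auxField φ))).inertiaDeg (𝓞 K) = 1 := by
  have hQmax : Q.IsMaximal := hQ.isMaximal hQ0
  have hPmax : (Q.under (𝓞 ↥(auxField φ))).IsMaximal :=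
    Ideal.isMaximal_comap_of_isIntegral_of_isMaximal Q
  have hpmax : (Q.under (𝓞 K)).IsMaximal :=
    Ideal.isMaximal_comap_of_isIntegral_of_isMaximal Q
  have hfin : Finite (𝓞 K ⧸ Q.under (𝓞 K)) := hφ.finite_quotient
  rw [Ideal.inertiaDeg_eq_of_isMaximal (Q.under (𝓞 K)) (Q.under (𝓞 ↥(auxField φ)))]
  set q := Nat.card (𝓞 K ⧸ Q.under (𝓞 K)) with hq
  let _ : Field (𝓞 K ⧸ Q.under (𝓞 K)) := Ideal.Quotient.field _
  let _ : Field (𝓞 ↥(auxField φ) ⧸ Q.under (𝓞 ↥(auxField φ))) := Ideal.Quotient.field _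
  have hq2 : 2 ≤ q := Finite.one_lt_card
  have hpoweq : ∀ y : 𝓞 ↥(auxField φ) ⧸ Q.under (𝓞 ↥(auxField φ)), y ^ q = y := by
    intro y
    obtain ⟨x, rfl⟩ := Ideal.Quotient.mk_surjective y
    rw [← map_pow, eq_comm, Ideal.Quotient.eq]
    exact pow_sub_mem_under φ Q hφ x
  have hfinP : Finite (𝓞 ↥(auxField φ) ⧸ Q.under (𝓞 ↥(auxField φ))) := by
    have : Q.under (𝓞 ↥(auxField φ)) ≠ ⊥ := by
      intro hbot
      exact hQ0 (Ideal.eq_bot_of_comap_eq_bot hbot)
    exact Ideal.finiteQuotientOfFreeOfNeBot _ this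
  have hcard_le := card_le_of_forall_pow_eq hq2 hpoweq
  have hmodfin : Module.Finite (𝓞 K ⧸ Q.under (𝓞 K))
      (𝓞 ↥(auxField φ) ⧸ Q.under (𝓞 ↥(auxField φ))) := Module.Finite.of_finite
  have hcard := Module.natCard_eq_pow_finrank (K := 𝓞 K ⧸ Q.under (𝓞 K))
    (V := 𝓞 ↥(auxField φ) ⧸ Q.under (𝓞 ↥(auxField φ)))
  rw [hcard, ← hq] at hcard_le
  have hpos : 0 < Module.finrank (𝓞 K ⧸ Q.under (𝓞 K))
      (𝓞 ↥(auxField φ) ⧸ Q.under (𝓞 ↥(auxField φ))) := Module.finrank_pos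
  have : Module.finrank (𝓞 K ⧸ Q.under (𝓞 K))
      (𝓞 ↥(auxField φ) ⧸ Q.under (𝓞 ↥(auxField φ))) ≤ 1 := by
    by_contra hlt
    push Not at hlt
    have : q ^ 2 ≤ q := le_trans (Nat.pow_le_pow_right (by omega) hlt) hcard_le
    nlinarith
  omega

/-- (a') `relNorm (Q ∩ 𝓞 F) = Q ∩ 𝓞 K`. -/
theorem relNorm_under_auxField (hQ0 : Q ≠ ⊥) (hφ : IsArithFrobAt (𝓞 K) φ Q) :
    Ideal.relNorm (𝓞 K) (Q.under (𝓞 ↥(auxField φ))) = Q.under (𝓞 K) := by
  have hQmax : Q.IsMaximal := hQ.isMaximal hQ0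
  have hPmax : (Q.under (𝓞 ↥(auxField φ))).IsMaximal :=
    Ideal.isMaximal_comap_of_isIntegral_of_isMaximal Q
  have hpmax : (Q.under (𝓞 K)).IsMaximal :=
    Ideal.isMaximal_comap_of_isIntegral_of_isMaximal Q
  rw [Ideal.relNorm_eq_pow_of_isMaximal (Q.under (𝓞 ↥(auxField φ))) (Q.under (𝓞 K)),
    inertiaDeg_under_auxField φ Q hQ0 hφ, pow_one]

end NF

end Fermat.Agent.S14.CrossingField
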