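import Mathlib
import Fermat.Agent.S14.Defs
import Fermat.Agent.S14.UnramBaseChange

/-!
# Auxiliary fields of the crossing argument for a general subgroup (S14, block C)

Generalisation of `CrossingField.lean` (cyclic case `H = ⟨φ⟩`) requested by the linking lemma:
ambient `Ω/K` finite Galois, `M F : IntermediateField K Ω`, typically `F = fixedField H` for a
subgroup `H` of `Gal(Ω/K)`.

* type level (any `F`): `compL M F : IntermediateField ↥F Ω` is `L = M·F`; instances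
  `Algebra ↥M ↥L`, `IsScalarTower K ↥M ↥L`, `IsScalarTower ↥M ↥L Ω`, `IsGalois ↥F ↥L`;
  `isCompositum_compL`; `unram_compL : Unram K M → Unram F L`.
* lifting: for `σ ∈ F.fixingSubgroup`, `liftF F σ hσ : Ω ≃ₐ[↥F] Ω`, `liftL M F σ hσ : L ≃ₐ[↥F] L`
  with `resHom_liftL : resHom (liftL M F σ hσ) = restrictNormalHom M σ`.
* (ii) if restriction maps `F.fixingSubgroup` onto `Gal(M/K)`: `resHom_bijective`,
  `finrank_compL : [L:F] = [M:K]`, `inf_eq_bot : M ⊓ F = ⊥`.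
* (i) if no nontrivial element of `F.fixingSubgroup` fixes `ζ`: `sup_adjoin_eq_top : F ⊔ K⟮ζ⟯ = ⊤`
  and `isCyclotomicExtension_of_sup_adjoin_eq_top : IsCyclotomicExtension {l} ↥F Ω`.
* subgroup versions (`F = fixF H`), `fixF_inf : fixF (H₁ ⊓ H₂) = fixF H₁ ⊔ fixF H₂`.
* (a) prime side: if `φ` fixes `F` pointwise and is an arithmetic Frobenius at a nonzero prime
  `Q` of `𝓞 Ω` then `P = Q ∩ 𝓞 F` has inertia degree one over `𝔮 = Q ∩ 𝓞 K`, `relNorm P = 𝔮`.
-/

namespace Fermat.Agent.S14.CrossingFieldH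

open IntermediateField NumberField Polynomial Fermat.Agent.S14.UnramBaseChange

variable {K Ω : Type*} [Field K] [Field Ω] [Algebra K Ω]

/-! ### Type level: `L = M·F` over `F` -/

section TypeLevel

variable (M F : IntermediateField K Ω)

/-- `L = M·F` as an intermediate field of `Ω/F`. -/
def compL : IntermediateField ↥F Ω :=
  IntermediateField.extendScalars (le_sup_right : F ≤ M ⊔ F)

theorem mem_compL_iff (x : Ω) : x ∈ compL M F ↔ x ∈ M ⊔ F := Iff.rfl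

/-- The inclusion `M → L`. -/
def toCompL : ↥M →+* ↥(compL M F) where
  toFun x := ⟨(x : Ω), (le_sup_left : M ≤ M ⊔ F) x.2⟩
  map_one' := rfl
  map_mul' _ _ := rfl
  map_zero' := rfl
  map_add' _ _ := rfl

noncomputable instance instAlgebraCompL : Algebra ↥M ↥(compL M F) := (toCompL M F).toAlgebra

theorem coe_algebraMap_compL (x : ↥M) :
    ((algebraMap ↥M ↥(compL M F) x : ↥(compL M F)) : Ω) = x := rfl

instance instIsScalarTowerCompL : IsScalarTower K ↥M ↥(compL M F) :=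
  IsScalarTower.of_algebraMap_eq (fun k => by
    apply Subtype.ext
    rfl)

instance instIsScalarTowerCompLTop : IsScalarTower ↥M ↥(compL M F) Ω :=
  IsScalarTower.of_algebraMap_eq (fun _ => rfl)

theorem sup_eq_adjoin_union :
    M ⊔ F = IntermediateField.adjoin K ((M : Set Ω) ∪ (F : Set Ω)) := by
  rw [IntermediateField.adjoin_union, IntermediateField.adjoin_self,
    IntermediateField.adjoin_self]

theorem isCompositum_compL : IsCompositum ↥M ↥F ↥(compL M F) := by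
  unfold IsCompositum
  rw [eq_top_iff]
  rintro ⟨x, hx⟩ -
  have hsup := sup_eq_adjoin_union M F
  have hmem : ∀ y, y ∈ IntermediateField.adjoin K ((M : Set Ω) ∪ (F : Set Ω)) →
      y ∈ compL M F := fun y hy => by rw [mem_compL_iff, hsup]; exact hy
  have key : ∀ (y : Ω)
      (hy : y ∈ IntermediateField.adjoin K ((M : Set Ω) ∪ (F : Set Ω))),
      (⟨y, hmem y hy⟩ : ↥(compL M F)) ∈ IntermediateField.adjoin ↥F
        (Set.range (algebraMap ↥M ↥(compL M F))) := by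
    intro y hy
    induction hy using IntermediateField.adjoin_induction with
    | mem y hy =>
      rcases hy with hyM | hyF
      · exact IntermediateField.subset_adjoin _ _ ⟨⟨y, hyM⟩, rfl⟩
      · have : (⟨y, hmem y (IntermediateField.subset_adjoin K _ (Or.inr hyF))⟩ :
            ↥(compL M F)) = algebraMap ↥F ↥(compL M F) ⟨y, hyF⟩ := rfl
        rw [this]
        exact IntermediateField.algebraMap_mem _ _
    | algebraMap k =>
      have : (⟨algebraMap K Ω k, hmem _ (IntermediateField.algebraMap_mem _ k)⟩ :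
          ↥(compL M F)) =
          algebraMap ↥F ↥(compL M F) (algebraMap K ↥F k) := rfl
      rw [this]
      exact IntermediateField.algebraMap_mem _ _
    | add a b ha hb iha ihb => exact add_mem iha ihb
    | inv a ha iha => exact inv_mem iha
    | mul a b ha hb iha ihb => exact mul_mem iha ihb
  exact key x (by rw [← hsup]; exact hx)

section Gal

variable [FiniteDimensional K Ω] [IsGalois K M]

instance instIsGaloisCompL : IsGalois ↥F ↥(compL M F) :=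
  isGalois_of_isCompositum (K := K) (isCompositum_compL M F)

variable {F}

/-- `σ ∈ Gal(Ω/K)` fixing `F` pointwise, as an `F`-automorphism of `Ω`. -/
noncomputable def liftF (σ : Ω ≃ₐ[K] Ω) (hσ : σ ∈ F.fixingSubgroup) : Ω ≃ₐ[↥F] Ω :=
  IntermediateField.fixingSubgroupEquiv F ⟨σ, hσ⟩

omit [FiniteDimensional K Ω] in
theorem liftF_apply (σ : Ω ≃ₐ[K] Ω) (hσ : σ ∈ F.fixingSubgroup) (x : Ω) :
    liftF σ hσ x = σ x := rfl

/-- `σ` restricted to `L`. -/
noncomputable def liftL (σ : Ω ≃ₐ[K] Ω) (hσ : σ ∈ F.fixingSubgroup) :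
    ↥(compL M F) ≃ₐ[↥F] ↥(compL M F) :=
  AlgEquiv.restrictNormalHom (F := ↥F) (K₁ := Ω) ↥(compL M F) (liftF σ hσ)

theorem coe_liftL_apply (σ : Ω ≃ₐ[K] Ω) (hσ : σ ∈ F.fixingSubgroup) (y : ↥(compL M F)) :
    ((liftL M σ hσ y : ↥(compL M F)) : Ω) = σ (y : Ω) := by
  unfold liftL
  rw [AlgEquiv.restrictNormalHom_apply]
  rfl

theorem resHom_liftL (σ : Ω ≃ₐ[K] Ω) (hσ : σ ∈ F.fixingSubgroup) :
    resHom (K := K) (L := ↥M) (E := ↥F) (L' := ↥(compL M F)) (liftL M σ hσ) =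
      AlgEquiv.restrictNormalHom (F := K) (K₁ := Ω) ↥M σ := by
  ext x
  have h1 := algebraMap_resHom (K := K) (L := ↥M) (E := ↥F) (L' := ↥(compL M F))
    (liftL M σ hσ) x
  have h2 := congrArg (Subtype.val) h1
  rw [coe_algebraMap_compL, coe_liftL_apply, coe_algebraMap_compL] at h2
  rw [h2, AlgEquiv.restrictNormalHom_apply]

variable (F)

theorem resHom_surjective
    (hres : ∀ s : M ≃ₐ[K] M, ∃ σ ∈ F.fixingSubgroup, AlgEquiv.restrictNormalHom M σ = s) :
    Function.Surjective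
      (resHom (K := K) (L := ↥M) (E := ↥F) (L' := ↥(compL M F))) := by
  intro s
  obtain ⟨σ, hσ, hs⟩ := hres s
  exact ⟨liftL M σ hσ, by rw [resHom_liftL, hs]⟩

/-- Restriction `Gal(L/F) → Gal(M/K)` is bijective when `Gal(Ω/F)` maps onto `Gal(M/K)`. -/
theorem resHom_bijective
    (hres : ∀ s : M ≃ₐ[K] M, ∃ σ ∈ F.fixingSubgroup, AlgEquiv.restrictNormalHom M σ = s) :
    Function.Bijective
      (resHom (K := K) (L := ↥M) (E := ↥F) (L' := ↥(compL M F))) :=
  ⟨resHom_injective (K := K) (isCompositum_compL M F), resHom_surjective M F hres⟩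

/-- `[L:F] = [M:K]` when `Gal(Ω/F)` maps onto `Gal(M/K)`. -/
theorem finrank_compL
    (hres : ∀ s : M ≃ₐ[K] M, ∃ σ ∈ F.fixingSubgroup, AlgEquiv.restrictNormalHom M σ = s) :
    Module.finrank ↥F ↥(compL M F) = Module.finrank K ↥M := by
  rw [← IsGalois.card_aut_eq_finrank, ← IsGalois.card_aut_eq_finrank]
  exact Nat.card_eq_of_bijective _ (resHom_bijective M F hres)

/-- (ii) `M ∩ F = K` when `Gal(Ω/F)` maps onto `Gal(M/K)`. -/
theorem inf_eq_bot
    (hres : ∀ s : M ≃ₐ[K] M, ∃ σ ∈ F.fixingSubgroup, AlgEquiv.restrictNormalHom M σ = s) :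
    M ⊓ F = ⊥ := by
  rw [eq_bot_iff]
  intro x hx
  obtain ⟨hxM, hxF⟩ := IntermediateField.mem_inf.mp hx
  have hfix : ∀ s : M ≃ₐ[K] M, s ⟨x, hxM⟩ = ⟨x, hxM⟩ := by
    intro s
    obtain ⟨σ, hσ, rfl⟩ := hres s
    apply Subtype.ext
    rw [AlgEquiv.restrictNormalHom_apply]
    exact (IntermediateField.mem_fixingSubgroup_iff F σ).mp hσ x hxF
  have hbot : (⟨x, hxM⟩ : M) ∈ (⊥ : IntermediateField K M) :=
    (IsGalois.mem_bot_iff_fixed (F := K) (E := M) _).mpr hfix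
  obtain ⟨k, hk⟩ := IntermediateField.mem_bot.mp hbot
  rw [IntermediateField.mem_bot]
  refine ⟨k, ?_⟩
  have := congrArg (Subtype.val) hk
  simpa using this

end Gal

end TypeLevel

/-! ### `Ω = F(ζ)` -/

section Cyclo

variable [FiniteDimensional K Ω] [IsGalois K Ω] (F : IntermediateField K Ω)

/-- (i) If no nontrivial element of `Gal(Ω/F)` fixes `ζ`, then `Ω = F(ζ)`. -/
theorem sup_adjoin_eq_top (ζ : Ω)
    (hi : ∀ σ ∈ F.fixingSubgroup, σ ζ = ζ → σ = 1) : F ⊔ K⟮ζ⟯ = ⊤ := by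
  have h1 : (F ⊔ K⟮ζ⟯).fixingSubgroup = ⊥ := by
    rw [eq_bot_iff]
    intro σ hσ
    rw [IntermediateField.fixingSubgroup_sup, Subgroup.mem_inf] at hσ
    obtain ⟨hσ1, hσ2⟩ := hσ
    rw [IntermediateField.mem_fixingSubgroup_iff] at hσ2
    rw [Subgroup.mem_bot]
    exact hi σ hσ1 (hσ2 ζ (IntermediateField.mem_adjoin_simple_self K ζ))
  have h2 := congrArg IntermediateField.fixedField h1
  rw [IsGalois.fixedField_fixingSubgroup] at h2
  rw [h2]
  exact IntermediateField.fixedField_bot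

omit [FiniteDimensional K Ω] [IsGalois K Ω] in
/-- If `Ω = F(ζ)` with `ζ` a primitive `l`-th root of unity, then `Ω/F` is `l`-cyclotomic. -/
theorem isCyclotomicExtension_of_sup_adjoin_eq_top [FiniteDimensional K Ω] (ζ : Ω) (l : ℕ)
    [NeZero l] (hζ : IsPrimitiveRoot ζ l) (htop : F ⊔ K⟮ζ⟯ = ⊤) :
    IsCyclotomicExtension {l} ↥F Ω := by
  rw [IsCyclotomicExtension.iff_singleton]
  refine ⟨⟨ζ, hζ⟩, fun x => ?_⟩
  have hmono : Algebra.adjoin ↥F ({ζ} : Set Ω) ≤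
      Algebra.adjoin ↥F {b : Ω | b ^ l = 1} :=
    Algebra.adjoin_mono (by
      intro b hb
      rw [Set.mem_singleton_iff] at hb
      rw [hb]
      exact hζ.pow_eq_one)
  apply hmono
  have halg : IsAlgebraic ↥F ζ := IsAlgebraic.of_finite _ ζ
  rw [← IntermediateField.adjoin_simple_toSubalgebra_of_isAlgebraic halg]
  change x ∈ IntermediateField.adjoin ↥F {ζ}
  have h1 : (IntermediateField.adjoin ↥F ({ζ} : Set Ω)).restrictScalars K = ⊤ := by
    rw [IntermediateField.restrictScalars_adjoin_eq_sup, htop]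
  have : x ∈ (IntermediateField.adjoin ↥F ({ζ} : Set Ω)).restrictScalars K := by
    rw [h1]; trivial
  exact this

/-- (i) bundled: if no nontrivial element of `Gal(Ω/F)` fixes the primitive `l`-th root of unity
`ζ`, then `Ω/F` is `l`-cyclotomic. -/
theorem isCyclotomicExtension_of_fixingSubgroup (ζ : Ω) (l : ℕ) [NeZero l]
    (hζ : IsPrimitiveRoot ζ l) (hi : ∀ σ ∈ F.fixingSubgroup, σ ζ = ζ → σ = 1) :
    IsCyclotomicExtension {l} ↥F Ω :=
  isCyclotomicExtension_of_sup_adjoin_eq_top F ζ l hζ (sup_adjoin_eq_top F ζ hi)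

end Cyclo

/-! ### Subgroup versions -/

section Sub

variable (H : Subgroup (Ω ≃ₐ[K] Ω))

/-- The fixed field of a subgroup `H` of `Gal(Ω/K)`. -/
def fixF : IntermediateField K Ω := IntermediateField.fixedField H

theorem mem_fixF_iff (x : Ω) : x ∈ fixF H ↔ ∀ σ ∈ H, σ x = x :=
  IntermediateField.mem_fixedField_iff H x

theorem le_fixingSubgroup_fixF : H ≤ (fixF H).fixingSubgroup :=
  IntermediateField.le_iff_le H (fixF H) |>.mp le_rfl

variable [FiniteDimensional K Ω]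

theorem fixingSubgroup_fixF : (fixF H).fixingSubgroup = H :=
  IntermediateField.fixingSubgroup_fixedField H

theorem fixF_inf [IsGalois K Ω] (H₁ H₂ : Subgroup (Ω ≃ₐ[K] Ω)) :
    fixF (H₁ ⊓ H₂) = fixF H₁ ⊔ fixF H₂ := by
  have h := IntermediateField.fixingSubgroup_sup (F := K) (E := Ω) (K := fixF H₁) (L := fixF H₂)
  rw [fixingSubgroup_fixF, fixingSubgroup_fixF] at h
  have h2 := congrArg IntermediateField.fixedField h
  rw [IsGalois.fixedField_fixingSubgroup] at h2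
  exact h2.symm

omit [FiniteDimensional K Ω] in
/-- The hypothesis (ii) of the general crossing for `F = fixF H`. -/
theorem hres_fixF (M : IntermediateField K Ω) [IsGalois K M]
    (hres : ∀ s : M ≃ₐ[K] M, ∃ σ ∈ H, AlgEquiv.restrictNormalHom M σ = s) :
    ∀ s : M ≃ₐ[K] M, ∃ σ ∈ (fixF H).fixingSubgroup, AlgEquiv.restrictNormalHom M σ = s := by
  intro s
  obtain ⟨σ, hσ, hs⟩ := hres s
  exact ⟨σ, le_fixingSubgroup_fixF H hσ, hs⟩

/-- The hypothesis (i) of the general crossing for `F = fixF H`. -/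
theorem hi_fixF (ζ : Ω) (hi : ∀ σ ∈ H, σ ζ = ζ → σ = 1) :
    ∀ σ ∈ (fixF H).fixingSubgroup, σ ζ = ζ → σ = 1 := by
  rw [fixingSubgroup_fixF]
  exact hi

end Sub

/-! ### Number fields -/

section NF

variable {K Ω : Type*} [Field K] [Field Ω] [Algebra K Ω] [NumberField K] [NumberField Ω]

/-- **Unramified base change** for `L = M·F` over `F`. -/
theorem unram_compL (M F : IntermediateField K Ω) [IsGalois K M]
    (hU : Fermat.Agent.S14.Unram K ↥M) :
    Fermat.Agent.S14.Unram ↥F ↥(compL M F) :=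
  unram_of_isCompositum (K := K) (isCompositum_compL M F) hU

variable [IsGalois K Ω] (F : IntermediateField K Ω) (φ : Ω ≃ₐ[K] Ω) (Q : Ideal (𝓞 Ω))
  [hQ : Q.IsPrime]

omit [NumberField K] [NumberField Ω] [IsGalois K Ω] hQ in
theorem smul_algebraMap_of_fixes (hφF : ∀ x ∈ F, φ x = x) (x : 𝓞 ↥F) :
    φ • (algebraMap (𝓞 ↥F) (𝓞 Ω) x) = algebraMap (𝓞 ↥F) (𝓞 Ω) x := by
  apply RingOfIntegers.ext
  change φ ((x : ↥F) : Ω) = ((x : ↥F) : Ω)
  exact hφF _ (x : ↥F).2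

omit hQ in
theorem pow_sub_mem_under (hφF : ∀ x ∈ F, φ x = x) (hφ : IsArithFrobAt (𝓞 K) φ Q)
    (x : 𝓞 ↥F) :
    x - x ^ Nat.card (𝓞 K ⧸ Q.under (𝓞 K)) ∈ Q.under (𝓞 ↥F) := by
  rw [Ideal.under_def, Ideal.mem_comap, map_sub, map_pow]
  have h := hφ (algebraMap (𝓞 ↥F) (𝓞 Ω) x)
  rw [MulSemiringAction.toAlgHom_apply, smul_algebraMap_of_fixes F φ hφF] at h
  exact h

/-- A finite field in which every element satisfies `x ^ q = x` (`2 ≤ q`) has at most `q`
elements. -/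
theorem card_le_of_forall_pow_eq {k : Type*} [Field k] [Finite k] {q : ℕ} (hq : 2 ≤ q)
    (h : ∀ x : k, x ^ q = x) : Nat.card k ≤ q := by
  classical
  have := Fintype.ofFinite k
  have hp : (X ^ q - X : k[X]) ≠ 0 := FiniteField.X_pow_card_sub_X_ne_zero k (by omega)
  have hdeg : (X ^ q - X : k[X]).natDegree = q :=
    FiniteField.X_pow_card_sub_X_natDegree_eq k (by omega)
  have hsub : (Finset.univ : Finset k).val ⊆ (X ^ q - X : k[X]).roots := by
    intro x _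
    rw [mem_roots hp, IsRoot.def, eval_sub, eval_pow, eval_X, h x, sub_self]
  have := Polynomial.card_le_degree_of_subset_roots hsub
  rw [hdeg] at this
  rw [Nat.card_eq_fintype_card]
  exact this

/-- (a) If `φ` fixes `F` pointwise and is an arithmetic Frobenius at `Q` then `P = Q ∩ 𝓞 F` has
inertia degree one over `𝓞 K`. -/
theorem inertiaDeg_under_eq_one (hφF : ∀ x ∈ F, φ x = x) (hQ0 : Q ≠ ⊥)
    (hφ : IsArithFrobAt (𝓞 K) φ Q) :
    (Q.under (𝓞 ↥F)).inertiaDeg (𝓞 K) = 1 := by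
  have hQmax : Q.IsMaximal := hQ.isMaximal hQ0
  have hPmax : (Q.under (𝓞 ↥F)).IsMaximal :=
    Ideal.isMaximal_comap_of_isIntegral_of_isMaximal Q
  have hpmax : (Q.under (𝓞 K)).IsMaximal :=
    Ideal.isMaximal_comap_of_isIntegral_of_isMaximal Q
  have hfin : Finite (𝓞 K ⧸ Q.under (𝓞 K)) := hφ.finite_quotient
  rw [Ideal.inertiaDeg_eq_of_isMaximal (Q.under (𝓞 K)) (Q.under (𝓞 ↥F))]
  set q := Nat.card (𝓞 K ⧸ Q.under (𝓞 K)) with hq
  let _ : Field (𝓞 K ⧸ Q.under (𝓞 K)) := Ideal.Quotient.field _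
  let _ : Field (𝓞 ↥F ⧸ Q.under (𝓞 ↥F)) := Ideal.Quotient.field _
  have hq2 : 2 ≤ q := Finite.one_lt_card
  have hpoweq : ∀ y : 𝓞 ↥F ⧸ Q.under (𝓞 ↥F), y ^ q = y := by
    intro y
    obtain ⟨x, rfl⟩ := Ideal.Quotient.mk_surjective y
    rw [← map_pow, eq_comm, Ideal.Quotient.eq]
    exact pow_sub_mem_under F φ Q hφF hφ x
  have hfinP : Finite (𝓞 ↥F ⧸ Q.under (𝓞 ↥F)) := by
    have : Q.under (𝓞 ↥F) ≠ ⊥ := by
      intro hbot
      exact hQ0 (Ideal.eq_bot_of_comap_eq_bot hbot)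
    exact Ideal.finiteQuotientOfFreeOfNeBot _ this
  have hcard_le := card_le_of_forall_pow_eq hq2 hpoweq
  have hmodfin : Module.Finite (𝓞 K ⧸ Q.under (𝓞 K))
      (𝓞 ↥F ⧸ Q.under (𝓞 ↥F)) := Module.Finite.of_finite
  have hcard := Module.natCard_eq_pow_finrank (K := 𝓞 K ⧸ Q.under (𝓞 K))
    (V := 𝓞 ↥F ⧸ Q.under (𝓞 ↥F))
  rw [hcard, ← hq] at hcard_le
  have hpos : 0 < Module.finrank (𝓞 K ⧸ Q.under (𝓞 K))
      (𝓞 ↥F ⧸ Q.under (𝓞 ↥F)) := Module.finrank_pos
  have : Module.finrank (𝓞 K ⧸ Q.under (𝓞 K))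
      (𝓞 ↥F ⧸ Q.under (𝓞 ↥F)) ≤ 1 := by
    by_contra hlt
    push Not at hlt
    have : q ^ 2 ≤ q := le_trans (Nat.pow_le_pow_right (by omega) hlt) hcard_le
    nlinarith
  omega

/-- (a') `relNorm (Q ∩ 𝓞 F) = Q ∩ 𝓞 K`. -/
theorem relNorm_under_eq (hφF : ∀ x ∈ F, φ x = x) (hQ0 : Q ≠ ⊥)
    (hφ : IsArithFrobAt (𝓞 K) φ Q) :
    Ideal.relNorm (𝓞 K) (Q.under (𝓞 ↥F)) = Q.under (𝓞 K) := by
  have hQmax : Q.IsMaximal := hQ.isMaximal hQ0
  have hPmax : (Q.under (𝓞 ↥F)).IsMaximal :=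
    Ideal.isMaximal_comap_of_isIntegral_of_isMaximal Q
  have hpmax : (Q.under (𝓞 K)).IsMaximal :=
    Ideal.isMaximal_comap_of_isIntegral_of_isMaximal Q
  rw [Ideal.relNorm_eq_pow_of_isMaximal (Q.under (𝓞 ↥F)) (Q.under (𝓞 K)),
    inertiaDeg_under_eq_one F φ Q hφF hQ0 hφ, pow_one]

/-- (a) for `F = fixF H`, `φ ∈ H`. -/
theorem inertiaDeg_under_fixF (H : Subgroup (Ω ≃ₐ[K] Ω)) (hφH : φ ∈ H) (hQ0 : Q ≠ ⊥)
    (hφ : IsArithFrobAt (𝓞 K) φ Q) :
    (Q.under (𝓞 ↥(fixF H))).inertiaDeg (𝓞 K) = 1 :=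
  inertiaDeg_under_eq_one (fixF H) φ Q (fun x hx => (mem_fixF_iff H x).mp hx φ hφH) hQ0 hφ

/-- (a') for `F = fixF H`, `φ ∈ H`. -/
theorem relNorm_under_fixF (H : Subgroup (Ω ≃ₐ[K] Ω)) (hφH : φ ∈ H) (hQ0 : Q ≠ ⊥)
    (hφ : IsArithFrobAt (𝓞 K) φ Q) :
    Ideal.relNorm (𝓞 K) (Q.under (𝓞 ↥(fixF H))) = Q.under (𝓞 K) :=
  relNorm_under_eq (fixF H) φ Q (fun x hx => (mem_fixF_iff H x).mp hx φ hφH) hQ0 hφ

end NF

end Fermat.Agent.S14.CrossingFieldH
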