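/-
S14 — crossing block, HEDGE of row T10 (final assembly), half (a).  Owner: helper15.

`blockRecip_of_link : BlockFirstIneq p → LinkStatement p → BlockRecip p`:
the abstract crossing deduction `CrossingCore.art_principal_eq_one` instantiated at
`R = 𝓞 K`, `G = Gal(M/K)`, `NC = normClasses K M`; the hypotheses `hpow`, `hne`, `hsplit` are
discharged here, the LINKING hypothesis is isolated as the closed Prop `LinkStatement p`.
-/
import Fermat.Agent.S14.Blocks
import Fermat.Agent.S14.CrossingCore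
import Fermat.Agent.S14.FirstIneqAdapter
import Fermat.Agent.S14.ArtinMapGen

set_option autoImplicit false

namespace Fermat.Agent.S14.CrossingFinalB

open NumberField nonZeroDivisors Fermat.Agent.S14

/-- The LINKING property of the crossing argument for one extension `M/K` with Artin map `art`:
two primes with nontrivial Artin symbol are linked through a third ideal `w`. -/
def LinkFor (K M : Type) [Field K] [NumberField K] [Field M] [NumberField M] [Algebra K M]
    [IsGalois K M] (art : (Ideal (𝓞 K))⁰ →* (M ≃ₐ[K] M)) : Prop :=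
  ∀ v₁ v₂ : (Ideal (𝓞 K))⁰, (v₁ : Ideal (𝓞 K)).IsPrime → (v₂ : Ideal (𝓞 K)).IsPrime →
    art v₁ ≠ 1 → art v₂ ≠ 1 →
    ∃ w : (Ideal (𝓞 K))⁰, art w ≠ 1 ∧
      (∀ a b : ℕ, art v₁ ^ a = art w ^ b →
        ClassGroup.mk0 v₁ ^ a * (ClassGroup.mk0 w ^ b)⁻¹ ∈ normClasses K M) ∧
      (∀ a b : ℕ, art v₂ ^ a = art w ^ b →
        ClassGroup.mk0 v₂ ^ a * (ClassGroup.mk0 w ^ b)⁻¹ ∈ normClasses K M)

/-- The linking property for all extensions `M/K` of `BlockRecip p`. -/
def LinkStatement (p : ℕ) : Prop :=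
  ∀ (K M : Type) [Field K] [NumberField K] [Field M] [NumberField M] [Algebra K M]
    [IsCyclotomicExtension {p} ℚ K] [IsGalois ℚ M] [IsGalois K M],
    p.Prime → 3 ≤ p → Module.finrank K M = p → Unram K M →
    ∀ art : (Ideal (𝓞 K))⁰ →* (M ≃ₐ[K] M), IsArtinMap K M art → LinkFor K M art

section

variable {K M : Type} [Field K] [NumberField K] [Field M] [NumberField M] [Algebra K M]
  [IsGalois K M]

/-- A prime with trivial Artin symbol is the relative norm of any prime above it. -/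
theorem mk0_mem_normClasses_of_art_eq_one {art : (Ideal (𝓞 K))⁰ →* (M ≃ₐ[K] M)}
    (hart : IsArtinMap K M art) (v : (Ideal (𝓞 K))⁰) (hv : (v : Ideal (𝓞 K)).IsPrime)
    (h1 : art v = 1) : ClassGroup.mk0 v ∈ normClasses K M := by
  have hv0 : (v : Ideal (𝓞 K)) ≠ ⊥ := mem_nonZeroDivisors_iff_ne_zero.mp v.2
  have hvmax : (v : Ideal (𝓞 K)).IsMaximal := hv.isMaximal hv0
  obtain ⟨P, hPmax, hPv⟩ := Ideal.exists_maximal_ideal_liesOver_of_isIntegral
    (S := 𝓞 M) (v : Ideal (𝓞 K))
  have hP0 : P ≠ ⊥ := ne_bot_of_liesOver_nonZeroDivisors v P hPv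
  have hf : P.inertiaDeg (𝓞 K) = 1 :=
    hart.inertiaDeg_eq_one_of_eq_one v hv h1 P hPmax.isPrime hPv
  apply Subgroup.subset_closure
  refine ⟨P, v, hP0, ?_, rfl⟩
  have hover : P.under (𝓞 K) = (v : Ideal (𝓞 K)) := hPv.over.symm
  have hqmax : (P.under (𝓞 K)).IsMaximal := by rw [hover]; exact hvmax
  rw [Ideal.relNorm_eq_pow_of_isMaximal P (P.under (𝓞 K)), hf, pow_one, hover]

end

/-- **T10, half (a).**  First inequality + linking ⇒ reciprocity for principal ideals. -/
theorem blockRecip_of_link {p : ℕ} (hFI : BlockFirstIneq p) (hL : LinkStatement p) :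
    BlockRecip p := by
  intro K M _ _ _ _ _ _ _ _ hp h3 hdeg hU _ art hart I hprin
  have hpF : Fact p.Prime := ⟨hp⟩
  have hcard : Nat.card (M ≃ₐ[K] M) = p := by
    rw [IsGalois.card_aut_eq_finrank, hdeg]
  have hcyc : IsCyclic (M ≃ₐ[K] M) := isCyclic_of_prime_card hcard
  have hlink := hL K M hp h3 hdeg hU art hart
  have hidx : p ≤ (normClasses K M).index := hFI K M hp h3 hdeg hU
  have hne : normClasses K M ≠ ⊤ := by
    intro htop
    rw [htop, Subgroup.index_top] at hidx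
    exact absurd hidx (by have := hp.two_le; omega)
  let _ : CommGroup (M ≃ₐ[K] M) := IsCyclic.commGroup
  have hI0 : (I : Ideal (𝓞 K)) ≠ ⊥ := mem_nonZeroDivisors_iff_ne_zero.mp I.2
  have key := CrossingCore.art_principal_eq_one (R := 𝓞 K) (G := M ≃ₐ[K] M) p art hcard
    (normClasses K M) (FirstIneqAdapter.pow_mem_normClasses hdeg) hne
    (fun v hv hvp h1 =>
      mk0_mem_normClasses_of_art_eq_one hart ⟨v, CrossingCore.mem_nzd hv⟩
        (Ideal.isPrime_of_prime hvp) h1)
    (fun v₁ v₂ h₁ h₂ hp₁ hp₂ ha₁ ha₂ =>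
      hlink ⟨v₁, CrossingCore.mem_nzd h₁⟩ ⟨v₂, CrossingCore.mem_nzd h₂⟩
        (Ideal.isPrime_of_prime hp₁) (Ideal.isPrime_of_prime hp₂) ha₁ ha₂)
    (I : Ideal (𝓞 K)) hI0 hprin
  exact key

end Fermat.Agent.S14.CrossingFinalB
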