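import Mathlib

/-!
# S14, block (C): the group theory of Artin's crossing argument

`G` is a finite cyclic group generated by `σ` (the Galois group of the cyclic extension `L/k`),
`A` an abelian group (the Galois group of the auxiliary cyclotomic extension `k(ζ_m)/k`), so that
`G × A = Gal(L(ζ_m)/k)` when `L ∩ k(ζ_m) = k`.  Given `g : G` (the Frobenius of `𝔭` in `L/k`),
`a : A` (the Frobenius of `𝔭` in `k(ζ_m)/k`) and `τ : A`, both of order divisible by `|G|` and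
generating independent cyclic subgroups (Artin's lemma), put `H = ⟨(σ, τ), (g, a)⟩`.  Then

* `(g, a) ∈ H`                 (`𝔭` splits completely in `E = Fix H`);
* `H ⊔ (1 × A) = ⊤`            (`L ∩ E = k`, and `LE/E` is cyclic of degree `|G|`);
* `H ⊓ (G × 1) = ⊥`            (`E(ζ_m) = L(ζ_m)`, so `LE ⊆ E(ζ_m)`).
-/

set_option autoImplicit false

namespace Fermat.Agent.S14.CrossingGroup

variable {G A : Type*} [Group G] [CommGroup A]

/-- The crossing subgroup `H = ⟨(σ, τ), (g, a)⟩` of `G × A`. -/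
def crossSubgroup (σ g : G) (τ a : A) : Subgroup (G × A) :=
  Subgroup.closure {((σ, τ) : G × A), ((g, a) : G × A)}

theorem mk_mem_crossSubgroup_left (σ g : G) (τ a : A) :
    ((σ, τ) : G × A) ∈ crossSubgroup σ g τ a :=
  Subgroup.subset_closure (Set.mem_insert _ _)

theorem mk_mem_crossSubgroup_right (σ g : G) (τ a : A) :
    ((g, a) : G × A) ∈ crossSubgroup σ g τ a :=
  Subgroup.subset_closure (Set.mem_insert_of_mem _ rfl)

/-- Elements of `H` are of the form `(σ,τ)^x (g,a)^y` when `G` is commutative on the relevant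
elements (here: `G` cyclic generated by `σ`, so `g` is a power of `σ`). -/
theorem exists_zpow_of_mem_crossSubgroup {σ g : G} {τ a : A} (hg : g ∈ Subgroup.zpowers σ)
    {z : G × A} (hz : z ∈ crossSubgroup σ g τ a) :
    ∃ x y : ℤ, z = ((σ, τ) : G × A) ^ x * ((g, a) : G × A) ^ y := by
  have hcomm : Commute ((σ, τ) : G × A) ((g, a) : G × A) := by
    obtain ⟨k, rfl⟩ := hg
    have h1 : Commute σ (σ ^ k) := (Commute.refl σ).zpow_right k
    have h2 : Commute τ a := Commute.all τ a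
    exact Prod.ext h1.eq h2.eq
  unfold crossSubgroup at hz
  induction hz using Subgroup.closure_induction with
  | mem w hw =>
    rcases hw with rfl | hw
    · exact ⟨1, 0, by simp⟩
    · rw [Set.mem_singleton_iff] at hw
      subst hw
      exact ⟨0, 1, by simp⟩
  | one => exact ⟨0, 0, by simp⟩
  | mul u v _ _ hu hv =>
    obtain ⟨x, y, rfl⟩ := hu
    obtain ⟨x', y', rfl⟩ := hv
    refine ⟨x + x', y + y', ?_⟩
    rw [zpow_add, zpow_add]
    have hc : Commute (((g, a) : G × A) ^ y) (((σ, τ) : G × A) ^ x') :=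
      (hcomm.symm.zpow_zpow y x')
    calc ((σ, τ) : G × A) ^ x * ((g, a) : G × A) ^ y * (((σ, τ) : G × A) ^ x' * ((g, a) : G × A) ^ y')
        = ((σ, τ) : G × A) ^ x * (((g, a) : G × A) ^ y * ((σ, τ) : G × A) ^ x') * ((g, a) : G × A) ^ y' := by
          group
      _ = ((σ, τ) : G × A) ^ x * (((σ, τ) : G × A) ^ x' * ((g, a) : G × A) ^ y) * ((g, a) : G × A) ^ y' := by
          rw [hc.eq]
      _ = _ := by group
  | inv u _ hu =>
    obtain ⟨x, y, rfl⟩ := hu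
    refine ⟨-x, -y, ?_⟩
    rw [mul_inv_rev, ← zpow_neg, ← zpow_neg]
    exact ((hcomm.zpow_zpow (-x) (-y)).eq).symm

/-- **(ii)** `H ⊔ (1 × A) = ⊤` when `σ` generates `G`. -/
theorem crossSubgroup_sup_eq_top {σ g : G} {τ a : A} (hσ : ∀ x : G, x ∈ Subgroup.zpowers σ) :
    crossSubgroup σ g τ a ⊔ (⊥ : Subgroup G).prod (⊤ : Subgroup A) = ⊤ := by
  rw [eq_top_iff]
  rintro ⟨x, b⟩ -
  set S := crossSubgroup σ g τ a ⊔ (⊥ : Subgroup G).prod (⊤ : Subgroup A) with hS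
  have h1 : ((σ, τ) : G × A) ∈ S := Subgroup.mem_sup_left (mk_mem_crossSubgroup_left σ g τ a)
  have hA : ∀ c : A, ((1, c) : G × A) ∈ S := fun c =>
    Subgroup.mem_sup_right (Subgroup.mem_prod.mpr ⟨Subgroup.mem_bot.mpr rfl, Subgroup.mem_top c⟩)
  have h2 : ((σ, 1) : G × A) ∈ S := by
    have := S.mul_mem h1 (hA τ⁻¹)
    simpa using this
  obtain ⟨k, rfl⟩ := hσ x
  have h3 : ((σ ^ k, 1) : G × A) ∈ S := by
    have := S.zpow_mem h2 k
    simpa using this
  have := S.mul_mem h3 (hA b)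
  simpa using this

/-- **(iii)** `H ⊓ (G × 1) = ⊥`: uses Artin's lemma (`|G| ∣ ord τ`, `|G| ∣ ord a`,
`⟨τ⟩ ∩ ⟨a⟩ = 1`). -/
theorem crossSubgroup_inf_eq_bot [Finite G] {σ g : G} {τ a : A}
    (hg : g ∈ Subgroup.zpowers σ)
    (hτ : Nat.card G ∣ orderOf τ) (ha : Nat.card G ∣ orderOf a)
    (hind : Subgroup.zpowers a ⊓ Subgroup.zpowers τ = ⊥) :
    crossSubgroup σ g τ a ⊓ (⊤ : Subgroup G).prod (⊥ : Subgroup A) = ⊥ := by
  rw [eq_bot_iff]
  rintro z ⟨hzH, hz1⟩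
  rw [Subgroup.mem_bot]
  obtain ⟨x, y, rfl⟩ := exists_zpow_of_mem_crossSubgroup hg hzH
  have hsnd : τ ^ x * a ^ y = 1 := by
    have := (Subgroup.mem_prod.mp hz1).2
    rw [Subgroup.mem_bot] at this
    simpa using this
  -- `τ^x = (a^y)⁻¹ ∈ ⟨τ⟩ ∩ ⟨a⟩ = 1`
  have hτx : τ ^ x = (a ^ y)⁻¹ := eq_inv_of_mul_eq_one_left hsnd
  have hmem : τ ^ x ∈ Subgroup.zpowers a ⊓ Subgroup.zpowers τ := by
    refine ⟨?_, ⟨x, rfl⟩⟩
    rw [hτx]
    exact (Subgroup.zpowers a).inv_mem ⟨y, rfl⟩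
  rw [hind, Subgroup.mem_bot] at hmem
  have hay : a ^ y = 1 := by
    rw [hmem] at hτx
    exact inv_eq_one.mp hτx.symm
  have hx : (Nat.card G : ℤ) ∣ x :=
    (Int.natCast_dvd_natCast.mpr hτ).trans (orderOf_dvd_iff_zpow_eq_one.mpr hmem)
  have hy : (Nat.card G : ℤ) ∣ y :=
    (Int.natCast_dvd_natCast.mpr ha).trans (orderOf_dvd_iff_zpow_eq_one.mpr hay)
  have hpow : ∀ (u : G) (k : ℤ), (Nat.card G : ℤ) ∣ k → u ^ k = 1 := by
    intro u k hk
    apply orderOf_dvd_iff_zpow_eq_one.mp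
    exact (Int.natCast_dvd_natCast.mpr (orderOf_dvd_natCard u)).trans hk
  ext
  · simp [hpow σ x hx, hpow g y hy]
  · simpa using hsnd

/-- **(i)+(ii)+(iii)** bundled. -/
theorem crossing [Finite G] {σ g : G} {τ a : A} (hσ : ∀ x : G, x ∈ Subgroup.zpowers σ)
    (hτ : Nat.card G ∣ orderOf τ) (ha : Nat.card G ∣ orderOf a)
    (hind : Subgroup.zpowers a ⊓ Subgroup.zpowers τ = ⊥) :
    ((g, a) : G × A) ∈ crossSubgroup σ g τ a ∧
      crossSubgroup σ g τ a ⊔ (⊥ : Subgroup G).prod (⊤ : Subgroup A) = ⊤ ∧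
      crossSubgroup σ g τ a ⊓ (⊤ : Subgroup G).prod (⊥ : Subgroup A) = ⊥ :=
  ⟨mk_mem_crossSubgroup_right σ g τ a, crossSubgroup_sup_eq_top hσ,
    crossSubgroup_inf_eq_bot (hσ g) hτ ha hind⟩

end Fermat.Agent.S14.CrossingGroup
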