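/-
S14 piece C.moving+thm1 (helper56): ideal-theoretic glue for "Theorem 1 at modulus 1"
(single-field step of the crossing argument).  Mathlib + helper17's `MovingLemma` only.

Setting: `R` a Dedekind domain, `m ≠ ⊥` an ideal, `art : (Ideal R)⁰ →* G` a hom on nonzero ideals
which kills the principal ideals coprime to `m`.  Then

* `art_eq_of_mk0_eq`      : on ideals coprime to `m`, `art` only depends on the ideal class;
* `exists_artCl`          : `art` descends to a hom `φ : ClassGroup R →* G` with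
                            `φ (mk0 c) = art c` for every `c` coprime to `m`;
* `art_eq_one_of_mk0_mem_closure` : `art` kills every ideal coprime to `m` whose class lies in the
                            subgroup generated by classes of ideals coprime to `m` killed by `art`;
* `mk0_mem_of_art_eq_one` : INDEX ARGUMENT.  `G` of prime order `p`, `H ≤ ClassGroup R` of index
                            `≤ p`, `H ∩ I(m) ⊆ ker art`, `art` nontrivial on `I(m)`
                            `⟹  ker art ∩ I(m) ⊆ H`;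
* `isCoprime_relNorm`     : relative norms of ideals coprime to `m S` are coprime to `m`;
* `art_eq_one_of_class_mem` : norm version (if `art` also kills norms of ideals coprime to `m S`
                            it kills every ideal coprime to `m` whose class is a quotient of classes
                            of norms — no coprimality assumption on those).
-/
import Mathlib
import Fermat.Agent.S14.MovingLemma

set_option autoImplicit false

namespace Fermat.Agent.S14.KerArtPrincipal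

open Ideal
open scoped nonZeroDivisors

variable {R : Type*} [CommRing R] [IsDedekindDomain R]

theorem coe_ne_bot (I : (Ideal R)⁰) : (I : Ideal R) ≠ ⊥ := by
  have := mem_nonZeroDivisors_iff_ne_zero.mp I.2
  simpa [Ideal.zero_eq_bot] using this

/-- The nonzero principal ideal `(x)`, as an element of `(Ideal R)⁰`. -/
noncomputable def span₀ (x : R) (hx : x ≠ 0) : (Ideal R)⁰ :=
  ⟨Ideal.span {x}, mem_nonZeroDivisors_iff_ne_zero.mpr
    (by rw [Ne, Ideal.zero_eq_bot, Ideal.span_singleton_eq_bot]; exact hx)⟩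

@[simp] theorem coe_span₀ (x : R) (hx : x ≠ 0) : ((span₀ x hx : (Ideal R)⁰) : Ideal R) =
    Ideal.span {x} := rfl

/-- Every ideal class contains an integral ideal coprime to `m` (`IsCoprime` form of helper17's
moving lemma). -/
theorem exists_mk0_eq_and_isCoprime (C : ClassGroup R) {m : Ideal R} (hm : m ≠ ⊥) :
    ∃ J : (Ideal R)⁰, ClassGroup.mk0 J = C ∧ IsCoprime (J : Ideal R) m := by
  obtain ⟨J, hJ, hcop⟩ := MovingLemma.exists_mk0_eq_sup_eq_top C m hm
  exact ⟨J, hJ, (Ideal.isCoprime_iff_sup_eq).mpr hcop⟩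

/-- If `(x) * 𝔞 = (y) * 𝔟` with `𝔞`, `𝔟` coprime to `m`, then the principal parts can be
chosen coprime to `m` as well. -/
theorem exists_span_mul_eq_isCoprime {𝔞 𝔟 m : Ideal R} {x y : R} (hx : x ≠ 0) (hy : y ≠ 0)
    (h : Ideal.span {x} * 𝔞 = Ideal.span {y} * 𝔟) (h𝔞0 : 𝔞 ≠ ⊥)
    (h𝔞 : IsCoprime 𝔞 m) (h𝔟 : IsCoprime 𝔟 m) :
    ∃ x' y' : R, x' ≠ 0 ∧ y' ≠ 0 ∧ IsCoprime (Ideal.span {x'}) m ∧ IsCoprime (Ideal.span {y'}) m ∧
      Ideal.span {x'} * 𝔞 = Ideal.span {y'} * 𝔟 := by
  -- `a ∈ 𝔞` with `a ≡ 1 mod m`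
  obtain ⟨a, ha, b, hb, hab⟩ : ∃ a ∈ 𝔞, ∃ b ∈ m, a + b = 1 := by
    rw [Ideal.isCoprime_iff_sup_eq, Ideal.eq_top_iff_one] at h𝔞
    exact Submodule.mem_sup.mp h𝔞
  have hacop : IsCoprime (Ideal.span {a}) m := by
    rw [Ideal.isCoprime_iff_sup_eq, Ideal.eq_top_iff_one, ← hab]
    exact Submodule.add_mem_sup (Ideal.mem_span_singleton_self a) hb
  -- `x * a ∈ (x) * 𝔞 = (y) * 𝔟`, so `x * a = y * z` with `z ∈ 𝔟`
  have hax : x * a ∈ Ideal.span {y} * 𝔟 := by
    rw [← h]
    exact Ideal.mul_mem_mul (Ideal.mem_span_singleton_self x) ha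
  obtain ⟨z, -, hz⟩ := Ideal.mem_span_singleton_mul.mp hax
  -- `(z) * 𝔞 = (a) * 𝔟`
  have key : Ideal.span {z} * 𝔞 = Ideal.span {a} * 𝔟 := by
    have hy' : Ideal.span {y} ≠ (0 : Ideal R) := by
      simpa [Ideal.zero_eq_bot, Ideal.span_singleton_eq_bot] using hy
    apply mul_left_cancel₀ hy'
    calc Ideal.span {y} * (Ideal.span {z} * 𝔞)
        = Ideal.span {y * z} * 𝔞 := by rw [← mul_assoc, Ideal.span_singleton_mul_span_singleton]
      _ = Ideal.span {x * a} * 𝔞 := by rw [hz]
      _ = Ideal.span {a} * (Ideal.span {x} * 𝔞) := by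
          rw [← Ideal.span_singleton_mul_span_singleton]; ring
      _ = Ideal.span {a} * (Ideal.span {y} * 𝔟) := by rw [h]
      _ = Ideal.span {y} * (Ideal.span {a} * 𝔟) := by ring
  have hzcop : IsCoprime (Ideal.span {z}) m := by
    have h1 : IsCoprime (Ideal.span {a} * 𝔟) m := IsCoprime.mul_left hacop h𝔟
    rw [← key] at h1
    exact (IsCoprime.mul_left_iff.mp h1).1
  by_cases ha0 : a = 0
  · -- then `m = ⊤`; everything is coprime to `m`
    have hmtop : m = ⊤ := by
      subst ha0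
      rw [Ideal.isCoprime_iff_sup_eq] at hacop
      simpa using hacop
    refine ⟨x, y, hx, hy, ?_, ?_, h⟩ <;>
    · rw [hmtop, Ideal.isCoprime_iff_sup_eq, sup_top_eq]
  · have hz0 : z ≠ 0 := by
      rintro rfl
      have : Ideal.span {a} * 𝔟 = ⊥ := by rw [← key]; simp
      rcases Ideal.mul_eq_bot.mp this with h' | h'
      · exact ha0 (Ideal.span_singleton_eq_bot.mp h')
      · rw [h', Ideal.mul_bot] at h
        rcases Ideal.mul_eq_bot.mp h with h'' | h''
        · exact hx (Ideal.span_singleton_eq_bot.mp h'')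
        · exact h𝔞0 h''
    exact ⟨z, a, hz0, ha0, hzcop, hacop, key⟩

section ClassFunction

variable {G : Type*} [Group G] (art : (Ideal R)⁰ →* G) {m : Ideal R}

/-- **`art` is a class function on ideals coprime to `m`**, as soon as it kills the principal
ideals coprime to `m`. -/
theorem art_eq_of_mk0_eq
    (hprinc : ∀ (x : R) (hx : x ≠ 0), IsCoprime (Ideal.span {x}) m → art (span₀ x hx) = 1)
    {c c' : (Ideal R)⁰} (hc : IsCoprime (c : Ideal R) m) (hc' : IsCoprime (c' : Ideal R) m)
    (h : ClassGroup.mk0 c = ClassGroup.mk0 c') : art c = art c' := by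
  obtain ⟨x, y, hx, hy, hxy⟩ := ClassGroup.mk0_eq_mk0_iff.mp h
  obtain ⟨x', y', hx'0, hy'0, hx'm, hy'm, hfin⟩ :=
    exists_span_mul_eq_isCoprime hx hy hxy (coe_ne_bot c) hc hc'
  have hfin' : span₀ x' hx'0 * c = span₀ y' hy'0 * c' := by
    apply Subtype.ext
    simpa using hfin
  have := congrArg art hfin'
  rw [map_mul, map_mul, hprinc x' hx'0 hx'm, hprinc y' hy'0 hy'm, one_mul, one_mul] at this
  exact this

/-- **Descent to the class group.** If `art` kills the principal ideals coprime to `m ≠ ⊥`, there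
is a hom `φ : ClassGroup R →* G` with `φ (mk0 c) = art c` for all `c` coprime to `m`. -/
theorem exists_artCl (hm : m ≠ ⊥)
    (hprinc : ∀ (x : R) (hx : x ≠ 0), IsCoprime (Ideal.span {x}) m → art (span₀ x hx) = 1) :
    ∃ φ : ClassGroup R →* G, ∀ c : (Ideal R)⁰, IsCoprime (c : Ideal R) m →
      φ (ClassGroup.mk0 c) = art c := by
  classical
  choose rep hrep hrepm using fun C : ClassGroup R => exists_mk0_eq_and_isCoprime C hm
  have hkey : ∀ (C : ClassGroup R) (c : (Ideal R)⁰), IsCoprime (c : Ideal R) m →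
      ClassGroup.mk0 c = C → art (rep C) = art c := fun C c hc hcC =>
    art_eq_of_mk0_eq art hprinc (hrepm C) hc ((hrep C).trans hcC.symm)
  refine ⟨{ toFun := fun C => art (rep C), map_one' := ?_, map_mul' := ?_ }, ?_⟩
  · have h1 : IsCoprime (((1 : (Ideal R)⁰) : Ideal R)) m := by
      rw [Submonoid.coe_one, Ideal.one_eq_top, Ideal.isCoprime_iff_sup_eq, top_sup_eq]
    rw [hkey 1 1 h1 (map_one _), map_one]
  · intro C C'
    have h1 : IsCoprime ((rep C * rep C' : (Ideal R)⁰) : Ideal R) m := by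
      rw [Submonoid.coe_mul]
      exact IsCoprime.mul_left (hrepm C) (hrepm C')
    rw [hkey (C * C') (rep C * rep C') h1 (by rw [map_mul, hrep, hrep]), map_mul]
  · intro c hc
    exact hkey (ClassGroup.mk0 c) c hc rfl

/-- `art` kills every ideal coprime to `m` whose class lies in the subgroup generated by the
classes of a set `T` of ideals coprime to `m` killed by `art`. -/
theorem art_eq_one_of_mk0_mem_closure (hm : m ≠ ⊥)
    (hprinc : ∀ (x : R) (hx : x ≠ 0), IsCoprime (Ideal.span {x}) m → art (span₀ x hx) = 1)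
    (T : Set (Ideal R)⁰) (hT : ∀ t ∈ T, IsCoprime (t : Ideal R) m ∧ art t = 1)
    {c : (Ideal R)⁰} (hc : IsCoprime (c : Ideal R) m)
    (hcl : ClassGroup.mk0 c ∈ Subgroup.closure (ClassGroup.mk0 '' T)) : art c = 1 := by
  obtain ⟨φ, hφ⟩ := exists_artCl art hm hprinc
  rw [← hφ c hc]
  have hle : Subgroup.closure (ClassGroup.mk0 '' T) ≤ φ.ker := by
    rw [Subgroup.closure_le]
    rintro _ ⟨t, ht, rfl⟩
    rw [SetLike.mem_coe, MonoidHom.mem_ker, hφ t (hT t ht).1]
    exact (hT t ht).2
  exact MonoidHom.mem_ker.mp (hle hcl)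

end ClassFunction

/-- **Abstract index argument.** `G` of prime order `p`, `art` a hom from nonzero ideals to `G`,
`H` a subgroup of the class group of index `≤ p`. If `art` kills the ideals prime to `m` whose
class lies in `H`, and `art` is nontrivial on some ideal prime to `m`, then conversely every ideal
prime to `m` killed by `art` has its class in `H`. -/
theorem mk0_mem_of_art_eq_one
    {G : Type*} [Group G] {p : ℕ} (hp : p.Prime) (hG : Nat.card G = p)
    (art : (Ideal R)⁰ →* G) (H : Subgroup (ClassGroup R)) (hH : H.index ≤ p) (hH0 : H.index ≠ 0)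
    {m : Ideal R}
    (hker : ∀ c : (Ideal R)⁰, IsCoprime (c : Ideal R) m → ClassGroup.mk0 c ∈ H → art c = 1)
    (hsurj : ∃ q : (Ideal R)⁰, IsCoprime (q : Ideal R) m ∧ art q ≠ 1)
    (c : (Ideal R)⁰) (hc : IsCoprime (c : Ideal R) m) (hart : art c = 1) :
    ClassGroup.mk0 c ∈ H := by
  classical
  obtain ⟨q, hqm, hq1⟩ := hsurj
  have : Finite G := Nat.finite_of_card_ne_zero (by rw [hG]; exact hp.ne_zero)
  -- `art q` has order `p`
  have hordg : orderOf (art q) = p := by
    have h1 : orderOf (art q) ∣ p := hG ▸ orderOf_dvd_natCard (art q)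
    rcases (Nat.dvd_prime hp).mp h1 with h | h
    · exact absurd (orderOf_eq_one_iff.mp h) hq1
    · exact h
  -- the quotient `Q = Cl / H`
  have : H.FiniteIndex := ⟨hH0⟩
  let φ : ClassGroup R →* ClassGroup R ⧸ H := QuotientGroup.mk' H
  have hφ : ∀ x, φ x = 1 ↔ x ∈ H := fun x => QuotientGroup.eq_one_iff x
  set x : ClassGroup R ⧸ H := φ (ClassGroup.mk0 q) with hx
  have hcardQ : Nat.card (ClassGroup R ⧸ H) = H.index := (Subgroup.index_eq_card H).symm
  have hcop_pow : ∀ n : ℕ, IsCoprime ((q ^ n : (Ideal R)⁰) : Ideal R) m := by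
    intro n
    rw [SubmonoidClass.coe_pow]
    exact IsCoprime.pow_left hqm
  -- `p ∣ orderOf x`
  have hpx : p ∣ orderOf x := by
    have h1 : x ^ orderOf x = 1 := pow_orderOf_eq_one x
    rw [hx, ← map_pow, ← map_pow, hφ] at h1
    have h2 := hker (q ^ orderOf x) (hcop_pow _) h1
    rw [map_pow] at h2
    rw [← hordg]
    exact orderOf_dvd_of_pow_eq_one h2
  have hxpos : 0 < orderOf x := orderOf_pos x
  have hxle : orderOf x ≤ p := by
    have h1 : orderOf x ∣ Nat.card (ClassGroup R ⧸ H) := orderOf_dvd_natCard x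
    rw [hcardQ] at h1
    exact (Nat.le_of_dvd (Nat.pos_of_ne_zero hH0) h1).trans hH
  have hxp : orderOf x = p := le_antisymm hxle (Nat.le_of_dvd hxpos hpx)
  have hidx : H.index = p := by
    have h1 : orderOf x ∣ H.index := hcardQ ▸ orderOf_dvd_natCard x
    rw [hxp] at h1
    exact le_antisymm hH (Nat.le_of_dvd (Nat.pos_of_ne_zero hH0) h1)
  -- `x` generates `Q`
  have htop : Subgroup.zpowers x = ⊤ := by
    apply Subgroup.eq_top_of_card_eq
    rw [Nat.card_zpowers, hxp, hcardQ, hidx]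
  have hcmem : φ (ClassGroup.mk0 c) ∈ Subgroup.zpowers x := by rw [htop]; trivial
  obtain ⟨k, hk⟩ := Subgroup.mem_zpowers_iff.mp hcmem
  -- choose `n : ℕ` with `p ∣ k + n`
  obtain ⟨n, hn⟩ : ∃ n : ℕ, (p : ℤ) ∣ k + n := by
    refine ⟨((-k) % (p : ℤ)).toNat, ?_⟩
    have hp0 : (p : ℤ) ≠ 0 := by exact_mod_cast hp.ne_zero
    have h1 : 0 ≤ (-k) % (p : ℤ) := Int.emod_nonneg _ hp0
    rw [Int.toNat_of_nonneg h1]
    have h2 : (p : ℤ) ∣ (-k) - (-k) % (p : ℤ) := Int.dvd_self_sub_emod
    have h3 : k + (-k) % (p : ℤ) = -((-k) - (-k) % (p : ℤ)) := by ring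
    rw [h3]
    exact (dvd_neg).mpr h2
  have hxpow : x ^ (k + n) = 1 := by
    obtain ⟨t, ht⟩ := hn
    rw [ht, zpow_mul, zpow_natCast, ← hxp, pow_orderOf_eq_one, one_zpow]
  have h1 : φ (ClassGroup.mk0 (c * q ^ n)) = 1 := by
    rw [map_mul, map_mul, map_pow, map_pow, ← hk, ← hx, ← zpow_natCast, ← zpow_add]
    exact hxpow
  rw [hφ] at h1
  have hcop : IsCoprime ((c * q ^ n : (Ideal R)⁰) : Ideal R) m := by
    rw [Submonoid.coe_mul]
    exact IsCoprime.mul_left hc (hcop_pow n)
  have h2 := hker _ hcop h1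
  rw [map_mul, hart, one_mul, map_pow] at h2
  have h3 : p ∣ n := by
    rw [← hordg]
    exact orderOf_dvd_of_pow_eq_one h2
  have h4 : (p : ℤ) ∣ k := by
    have : (p : ℤ) ∣ (n : ℤ) := by exact_mod_cast h3
    exact (Int.dvd_add_left this).mp hn
  have h5 : φ (ClassGroup.mk0 c) = 1 := by
    obtain ⟨t, ht⟩ := h4
    rw [← hk, ht, zpow_mul, zpow_natCast, ← hxp, pow_orderOf_eq_one, one_zpow]
  exact (hφ _).mp h5

/-! ### Relative norms -/

section RelNorm

variable {S : Type*} [CommRing S] [IsDedekindDomain S] [Algebra R S] [Module.Finite R S]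
  [Module.IsTorsionFree R S]

/-- The relative norm of an ideal coprime to `m S` is coprime to `m`. -/
theorem isCoprime_relNorm {m : Ideal R} (B : Ideal S) (hB : B ≠ ⊥)
    (h : IsCoprime B (m.map (algebraMap R S))) : IsCoprime (Ideal.relNorm R B) m := by
  induction B using UniqueFactorizationMonoid.induction_on_prime with
  | h₁ => exact absurd rfl hB
  | h₂ x hx =>
    rw [Ideal.isUnit_iff] at hx
    subst hx
    rw [Ideal.relNorm_top, Ideal.isCoprime_iff_sup_eq, top_sup_eq]
  | h₃ A Q hA hQ ih =>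
    have hA' : A ≠ ⊥ := by simpa [Ideal.zero_eq_bot] using hA
    obtain ⟨hQm, hAm⟩ := IsCoprime.mul_left_iff.mp h
    rw [map_mul]
    refine IsCoprime.mul_left ?_ (ih hA' hAm)
    -- the prime case
    have hQprime : Q.IsPrime := Ideal.isPrime_of_prime hQ
    have hQ0 : Q ≠ ⊥ := hQ.ne_zero
    set q : Ideal R := Q.under R with hq
    have hlo : Q.LiesOver q := ⟨rfl⟩
    have hqp : q.IsPrime := Ideal.IsPrime.under R Q
    obtain ⟨s, hs⟩ := Ideal.exists_relNorm_eq_pow_of_isPrime Q q
    rw [hs]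
    apply IsCoprime.pow_left
    by_cases hq0 : q = ⊥
    · exfalso
      have : Q.LiesOver (⊥ : Ideal R) := hq0 ▸ hlo
      exact hQ0 (Ideal.eq_bot_of_liesOver_bot R Q)
    · have hqmax : q.IsMaximal := Ring.DimensionLEOne.maximalOfPrime hq0 hqp
      rw [Ideal.isCoprime_iff_sup_eq]
      by_contra hne
      have hle : m ≤ q := by
        have := hqmax.eq_of_le hne le_sup_left
        rw [this]
        exact le_sup_right
      have hle' : m.map (algebraMap R S) ≤ Q := by
        rw [Ideal.map_le_iff_le_comap]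
        exact hle
      rw [Ideal.isCoprime_iff_sup_eq] at hQm
      have : Q = ⊤ := by
        rw [← hQm]
        exact (sup_eq_left.mpr hle').symm
      exact hQprime.ne_top this

variable (R) in
/-- `Ideal.relNorm` as a monoid hom on nonzero ideals. -/
noncomputable def relNorm₀ : (Ideal S)⁰ →* (Ideal R)⁰ where
  toFun B := ⟨Ideal.relNorm R (B : Ideal S), mem_nonZeroDivisors_iff_ne_zero.mpr (by
    rw [Ne, Ideal.zero_eq_bot, Ideal.relNorm_eq_bot_iff]; exact coe_ne_bot B)⟩
  map_one' := by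
    apply Subtype.ext
    simp [Ideal.one_eq_top]
  map_mul' B₁ B₂ := by
    apply Subtype.ext
    simp

@[simp] theorem coe_relNorm₀ (B : (Ideal S)⁰) :
    ((relNorm₀ R B : (Ideal R)⁰) : Ideal R) = Ideal.relNorm R (B : Ideal S) := rfl

omit [Module.Finite R S] in
theorem map_ne_bot {m : Ideal R} (hm : m ≠ ⊥) : m.map (algebraMap R S) ≠ ⊥ := by
  rw [Ne, Ideal.map_eq_bot_iff_of_injective (FaithfulSMul.algebraMap_injective R S)]
  exact hm

/-- The class of a norm only depends on the class: `mk0 B = mk0 B' → mk0 (N B) = mk0 (N B')`. -/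
theorem mk0_relNorm₀_eq_of_mk0_eq {B B' : (Ideal S)⁰} (h : ClassGroup.mk0 B = ClassGroup.mk0 B') :
    ClassGroup.mk0 (relNorm₀ R B) = ClassGroup.mk0 (relNorm₀ R B') := by
  obtain ⟨u, v, hu, hv, huv⟩ := ClassGroup.mk0_eq_mk0_iff.mp h
  have hN := congrArg (Ideal.relNorm R) huv
  rw [map_mul, map_mul, Ideal.relNorm_singleton, Ideal.relNorm_singleton] at hN
  have hne : ∀ w : S, w ≠ 0 → Algebra.intNorm R S w ≠ 0 := by
    intro w hw h0
    have h1 : Ideal.relNorm R (Ideal.span {w}) = ⊥ := by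
      rw [Ideal.relNorm_singleton, h0]; simp
    rw [Ideal.relNorm_eq_bot_iff, Ideal.span_singleton_eq_bot] at h1
    exact hw h1
  exact ClassGroup.mk0_eq_mk0_iff.mpr ⟨_, _, hne u hu, hne v hv, hN⟩

/-- **Classes of norms die.** If `art` kills principal ideals prime to `m` and norms of ideals
prime to `m S`, then it kills every ideal prime to `m` whose class is a quotient of two classes of
norms (of arbitrary nonzero ideals of `S`). -/
theorem art_eq_one_of_class_mem
    {G : Type*} [Group G] (art : (Ideal R)⁰ →* G) {m : Ideal R} (hm : m ≠ ⊥)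
    (hnorm : ∀ B : (Ideal S)⁰, IsCoprime (B : Ideal S) (m.map (algebraMap R S)) →
      art (relNorm₀ R B) = 1)
    (hprinc : ∀ (x : R) (hx : x ≠ 0), IsCoprime (Ideal.span {x}) m → art (span₀ x hx) = 1)
    (c : (Ideal R)⁰) (hc : IsCoprime (c : Ideal R) m)
    (hcl : ∃ B₁ B₂ : (Ideal S)⁰, ClassGroup.mk0 c * ClassGroup.mk0 (relNorm₀ R B₂) =
      ClassGroup.mk0 (relNorm₀ R B₁)) :
    art c = 1 := by
  obtain ⟨B₁, B₂, hB⟩ := hcl
  obtain ⟨φ, hφ⟩ := exists_artCl art hm hprinc
  have hM : m.map (algebraMap R S) ≠ ⊥ := map_ne_bot hm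
  -- `φ` kills classes of norms
  have hφN : ∀ B : (Ideal S)⁰, φ (ClassGroup.mk0 (relNorm₀ R B)) = 1 := by
    intro B
    obtain ⟨B', hB', hcop⟩ := exists_mk0_eq_and_isCoprime (ClassGroup.mk0 B) hM
    rw [← mk0_relNorm₀_eq_of_mk0_eq hB',
      hφ _ (by simpa using isCoprime_relNorm _ (coe_ne_bot B') hcop)]
    exact hnorm B' hcop
  have := congrArg φ hB
  rw [map_mul, hφN, hφN, mul_one, hφ c hc] at this
  exact this

end RelNorm

end Fermat.Agent.S14.KerArtPrincipal
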