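/-
S14 — crossing plan v2, row T7 (helper61): norming down from `E` to `X ≤ E`.

`X ≤ E` intermediate fields of `Ω/K`, `𝔴` a nonzero ideal of `𝓞 E` prime to `m`.  Then
`𝔞 := N_{E/X} 𝔴` is a nonzero ideal of `𝓞 X`, prime to `m`, with `N_{X/K} 𝔞 = N_{E/K} 𝔴`.
-/
import Fermat.Agent.S14.KerArtPrincipal

set_option autoImplicit false

namespace Fermat.Agent.S14.CrossingNormDown

open NumberField

variable {K Ω : Type*} [Field K] [NumberField K] [Field Ω] [NumberField Ω] [Algebra K Ω]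

/-- **Row T7.** -/
theorem exists_relNorm_eq (X E : IntermediateField K Ω) (hXE : X ≤ E) (m : ℕ) (hm : 0 < m)
    (𝔴 : Ideal (𝓞 ↥E)) (h0 : 𝔴 ≠ ⊥) (hc : IsCoprime 𝔴 (Ideal.span {(m : 𝓞 ↥E)})) :
    ∃ 𝔞 : Ideal (𝓞 ↥X), 𝔞 ≠ ⊥ ∧ IsCoprime 𝔞 (Ideal.span {(m : 𝓞 ↥X)}) ∧
      Ideal.relNorm (𝓞 K) 𝔞 = Ideal.relNorm (𝓞 K) 𝔴 := by
  have _ := hm
  let _ : Algebra ↥X ↥E := (IntermediateField.inclusion hXE).toRingHom.toAlgebra
  have : IsScalarTower K ↥X ↥E := IsScalarTower.of_algebraMap_eq (fun x => by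
    apply Subtype.ext
    rfl)
  refine ⟨Ideal.relNorm (𝓞 ↥X) 𝔴, ?_, ?_, ?_⟩
  · rwa [Ne, Ideal.relNorm_eq_bot_iff]
  · apply KerArtPrincipal.isCoprime_relNorm 𝔴 h0
    rwa [Ideal.map_span, Set.image_singleton, map_natCast]
  · exact Ideal.relNorm_relNorm (𝓞 K) (𝓞 ↥X) 𝔴

end Fermat.Agent.S14.CrossingNormDown
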