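/-
S14 — crossing block, HEDGE of row T10 (final assembly), half (b) + assembly.  Owner: helper15.

* `exists_subgroups`  : row T6 in subgroup form (from helper67 `CrossingLink` + helper54
  `CrossingChar`).
* `link_one`          : the link step for one auxiliary field `X = Ω^H` (rows T2, T3, T4, T7, T8).
* `link_of_omega`     : the LINKING property inside `Ω = M(ζ_{ℓ₁ℓ₂})` (rows T5, T6, T9).
* `linkStatement`     : `BlockD → BlockZ → BlockAux → CrossingFinalB.LinkStatement p`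
  (Artin's lemma for `ℓ₁, ℓ₂`, `Ω := CyclotomicField (ℓ₁ℓ₂) M`).
* `blockRecip`        : `BlockD → BlockZ → BlockFirstIneq p → BlockAux → BlockRecip p`.
-/
import Fermat.Agent.S14.CrossingAux
import Fermat.Agent.S14.CrossingStep
import Fermat.Agent.S14.CrossingW
import Fermat.Agent.S14.CrossingDeg
import Fermat.Agent.S14.CrossingNormDown
import Fermat.Agent.S14.CrossingFrobExists
import Fermat.Agent.S14.CrossingLink
import Fermat.Agent.S14.CrossingChar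
import Fermat.Agent.S14.CrossingFinalB
import Fermat.Agent.S14.ArtinLemma

set_option autoImplicit false
set_option linter.unusedSectionVars false

namespace Fermat.Agent.S14.CrossingLinkB

open NumberField nonZeroDivisors Fermat.Agent.S14
open Fermat.Agent.S14.CrossingTower (LX)
open Fermat.Agent.S14.CrossingAux (auxF)

/-- A nonzero prime of a number field is coprime to every natural number prime to its norm. -/
theorem isCoprime_span_natCast {F : Type} [Field F] [NumberField F] (P : Ideal (𝓞 F))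
    (hP : P.IsPrime) (hP0 : P ≠ ⊥) (n : ℕ) (hn : Nat.Coprime n (Ideal.absNorm P)) :
    IsCoprime P (Ideal.span {(n : 𝓞 F)}) := by
  have hmax : P.IsMaximal := hP.isMaximal hP0
  have hnot : (n : 𝓞 F) ∉ P := CrossingFrobExists.natCast_not_mem_of_coprime P hP n hn
  rw [Ideal.isCoprime_iff_sup_eq]
  by_contra hne
  have hle : P ≤ P ⊔ Ideal.span {(n : 𝓞 F)} := le_sup_left
  have heq := hmax.eq_of_le hne hle
  apply hnot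
  rw [heq]
  exact Ideal.mem_sup_right (Ideal.subset_span rfl)


section CS

variable {K M Ω : Type} [Field K] [NumberField K] [Field M] [NumberField M] [Field Ω]
  [NumberField Ω] [Algebra K M] [Algebra K Ω] [Algebra M Ω] [IsScalarTower K M Ω]
  [IsGalois K M] [IsGalois K Ω]

/-- The link step for ONE auxiliary field `X = Ω^H`, with the linking ideal `𝔴` living in the
bigger field `E = Ω^{H'}`, `H' ≤ H`. -/
theorem link_one (hD : BlockD) (hAux : BlockAux) {p : ℕ} (hp : p.Prime) (h3 : 3 ≤ p)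
    (hζp : ∃ ζ : K, IsPrimitiveRoot ζ p) (hdeg : Module.finrank K M = p) (hU : Unram K M)
    (art : (Ideal (𝓞 K))⁰ →* (M ≃ₐ[K] M)) (hart : IsArtinMap K M art)
    (m : ℕ) (hm : 0 < m) (ζ : Ω) (hζ : IsPrimitiveRoot ζ m)
    (H H' : Subgroup (Ω ≃ₐ[K] Ω)) (hle : H' ≤ H)
    (hk : ∀ γ ∈ H, γ ζ = ζ → γ = 1)
    (hmove : ∃ γ ∈ H, ∃ y : M, γ (algebraMap M Ω y) ≠ algebraMap M Ω y)
    (v : (Ideal (𝓞 K))⁰) (hcv : Nat.Coprime m (Ideal.absNorm (v : Ideal (𝓞 K))))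
    (𝔔 : Ideal (𝓞 Ω)) (h𝔔p : 𝔔.IsPrime) (h𝔔0 : 𝔔 ≠ ⊥)
    (hund : 𝔔.under (𝓞 K) = (v : Ideal (𝓞 K)))
    (φ : Ω ≃ₐ[K] Ω) (hφ : φ ∈ H) (hfrob : IsArithFrobAt (𝓞 K) φ 𝔔)
    (𝔴 : Ideal (𝓞 ↥(auxF K Ω H'))) (h𝔴0 : 𝔴 ≠ ⊥)
    (hco : IsCoprime 𝔴 (Ideal.span {(m : 𝓞 ↥(auxF K Ω H'))}))
    (w : (Ideal (𝓞 K))⁰) (hw : (w : Ideal (𝓞 K)) = Ideal.relNorm (𝓞 K) 𝔴)
    (a b : ℕ) (h : art v ^ a = art w ^ b) :
    ClassGroup.mk0 v ^ a * (ClassGroup.mk0 w ^ b)⁻¹ ∈ normClasses K M := by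
  have : NeZero m := ⟨hm.ne'⟩
  have := h𝔔p
  -- the field `X`
  have hXE : auxF K Ω H ≤ auxF K Ω H' := IntermediateField.fixedField_antitone hle
  obtain ⟨γ, hγ, y, hy⟩ := hmove
  have hfix : ∀ x ∈ auxF K Ω H, γ x = x := fun x hx => hx ⟨γ, hγ⟩
  have hdegX : Module.finrank ↥(auxF K Ω H) ↥(LX M (auxF K Ω H)) ≠ 1 :=
    CrossingDeg.finrank_LX_ne_one (auxF K Ω H) ⟨γ, hfix, y, hy⟩
  have hcyc : IsCyclotomicExtension {m} ↥(auxF K Ω H) Ω :=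
    CrossingAux.isCyclotomicExtension_auxF H hζ hk
  -- the prime `𝔞` of `X` below `𝔔`
  have hrel : Ideal.relNorm (𝓞 K) (𝔔.under (𝓞 ↥(auxF K Ω H))) = 𝔔.under (𝓞 K) :=
    CrossingAux.relNorm_under_auxF H hφ 𝔔 h𝔔0 hfrob
  have habs : Ideal.absNorm (𝔔.under (𝓞 ↥(auxF K Ω H))) = Ideal.absNorm (𝔔.under (𝓞 K)) :=
    CrossingAux.absNorm_under_auxF H hφ 𝔔 h𝔔0 hfrob
  have h𝔞0 : 𝔔.under (𝓞 ↥(auxF K Ω H)) ≠ ⊥ := Ideal.under_ne_bot _ h𝔔0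
  have h𝔞co : IsCoprime (𝔔.under (𝓞 ↥(auxF K Ω H))) (Ideal.span {(m : 𝓞 ↥(auxF K Ω H))}) := by
    apply isCoprime_span_natCast _ inferInstance h𝔞0
    rw [habs, hund]
    exact hcv
  -- the ideal `𝔟` of `X` with the same norm as `𝔴`
  obtain ⟨𝔟, h𝔟0, h𝔟co, h𝔟rel⟩ :=
    CrossingNormDown.exists_relNorm_eq (auxF K Ω H) (auxF K Ω H') hXE m hm 𝔴 h𝔴0 hco
  exact CrossingStep.link_step hD hAux hp h3 hζp hdeg hU art hart (auxF K Ω H) hdegX m hm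
    ⟨𝔔.under (𝓞 ↥(auxF K Ω H)), mem_nonZeroDivisors_iff_ne_zero.mpr h𝔞0⟩
    ⟨𝔟, mem_nonZeroDivisors_iff_ne_zero.mpr h𝔟0⟩ h𝔞co h𝔟co v w
    (by rw [hrel, hund]) (by rw [hw, h𝔟rel]) a b h
/-- **Row T6 (subgroup form), hedge.** -/
theorem exists_subgroups (l1 l2 : ℕ) [hl1 : Fact l1.Prime] [hl2 : Fact l2.Prime] (hne : l1 ≠ l2)
    [IsCyclotomicExtension {l1 * l2} M Ω]
    (hdisc : Nat.Coprime (l1 * l2) (NumberField.discr M).natAbs) {p : ℕ} [Fact p.Prime]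
    (hdeg : Module.finrank K M = p) (ζ : Ω) (hζ : IsPrimitiveRoot ζ (l1 * l2))
    (φ1 φ2 : Ω ≃ₐ[K] Ω) (N1 N2 : ℕ)
    (h1 : AlgEquiv.restrictNormalHom M φ1 ≠ 1) (h2 : AlgEquiv.restrictNormalHom M φ2 ≠ 1)
    (h1ζ : φ1 ζ = ζ ^ N1) (h2ζ : φ2 ζ = ζ ^ N2)
    (ho1 : p ∣ orderOf (N1 : ZMod l1)) (ho2 : p ∣ orderOf (N2 : ZMod l2)) :
    ∃ H1 H2 : Subgroup (Ω ≃ₐ[K] Ω), φ1 ∈ H1 ∧ φ2 ∈ H2 ∧
      (∀ γ ∈ H1, γ ζ = ζ → γ = 1) ∧ (∀ γ ∈ H2, γ ζ = ζ → γ = 1) ∧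
      ∀ g : M ≃ₐ[K] M, ∃ γ ∈ H1 ⊓ H2, AlgEquiv.restrictNormalHom M γ = g := by
  have hl1' : 1 < l1 := hl1.out.one_lt
  have hl2' : 1 < l2 := hl2.out.one_lt
  have hcop : Nat.Coprime l1 l2 := (Nat.coprime_primes hl1.out hl2.out).mpr hne
  have hG : Nat.card (M ≃ₐ[K] M) = p := by
    rw [IsGalois.card_aut_eq_finrank, hdeg]
  set res : (Ω ≃ₐ[K] Ω) →* (M ≃ₐ[K] M) := AlgEquiv.restrictNormalHom M with hres
  set χ₁ := CrossingChar.chi1 K hζ with hχ₁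
  set χ₂ := CrossingChar.chi2 K hζ with hχ₂
  have hinj : ∀ γ : Ω ≃ₐ[K] Ω, res γ = 1 → χ₁ γ = 1 → χ₂ γ = 1 → γ = 1 :=
    fun γ a b c => CrossingChar.eq_one_of_res_chi hl1' hl2' hcop hζ γ a b c
  have hinj' : ∀ γ : Ω ≃ₐ[K] Ω, res γ = 1 → χ₂ γ = 1 → χ₁ γ = 1 → γ = 1 :=
    fun γ a b c => hinj γ a c b
  have hsurj : ∀ (g : M ≃ₐ[K] M) (u : (ZMod l1)ˣ) (u' : (ZMod l2)ˣ),
      ∃ σ : Ω ≃ₐ[K] Ω, res σ = g ∧ χ₁ σ = u ∧ χ₂ σ = u' :=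
    fun g u u' => CrossingChar.exists_res_chi_eq hcop hdisc hζ g u u'
  have hord1 : p ∣ orderOf (χ₁ φ1) := CrossingChar.dvd_orderOf_chi1 hζ φ1 N1 h1ζ ho1
  have hord2 : p ∣ orderOf (χ₂ φ2) := CrossingChar.dvd_orderOf_chi2 hζ φ2 N2 h2ζ ho2
  refine ⟨CrossingLink.crossH res χ₁ φ1, CrossingLink.crossH res χ₂ φ2,
    CrossingLink.self_mem_crossH _ _ _, CrossingLink.self_mem_crossH _ _ _, ?_, ?_, ?_⟩
  · intro γ hγ hγζ
    have hbot := CrossingLink.crossH_inf_ker_eq_bot res χ₁ χ₂ φ1 hG hinj hord1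
    have hmem : γ ∈ CrossingLink.crossH res χ₁ φ1 ⊓ (χ₁.ker ⊓ χ₂.ker) :=
      ⟨hγ, MonoidHom.mem_ker.mpr (CrossingChar.chi1_eq_one_of_apply_eq hζ γ hγζ),
        MonoidHom.mem_ker.mpr (CrossingChar.chi2_eq_one_of_apply_eq hζ γ hγζ)⟩
    rw [hbot] at hmem
    exact Subgroup.mem_bot.mp hmem
  · intro γ hγ hγζ
    have hbot := CrossingLink.crossH_inf_ker_eq_bot res χ₂ χ₁ φ2 hG hinj' hord2
    have hmem : γ ∈ CrossingLink.crossH res χ₂ φ2 ⊓ (χ₂.ker ⊓ χ₁.ker) :=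
      ⟨hγ, MonoidHom.mem_ker.mpr (CrossingChar.chi2_eq_one_of_apply_eq hζ γ hγζ),
        MonoidHom.mem_ker.mpr (CrossingChar.chi1_eq_one_of_apply_eq hζ γ hγζ)⟩
    rw [hbot] at hmem
    exact Subgroup.mem_bot.mp hmem
  · intro g
    exact CrossingLink.exists_mem_inf_res_eq res χ₁ χ₂ φ1 φ2 hG hsurj h1 h2 g


/-- The LINKING property inside one field `Ω = M(ζ_{ℓ₁ℓ₂})`. -/
theorem link_of_omega (hD : BlockD) (hZ : BlockZ) (hAux : BlockAux) {p : ℕ} (hp : p.Prime)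
    (h3 : 3 ≤ p) (hζp : ∃ ζ : K, IsPrimitiveRoot ζ p) (hdeg : Module.finrank K M = p)
    (hU : Unram K M) (art : (Ideal (𝓞 K))⁰ →* (M ≃ₐ[K] M)) (hart : IsArtinMap K M art)
    (l1 l2 : ℕ) [hl1 : Fact l1.Prime] [hl2 : Fact l2.Prime] (hne : l1 ≠ l2)
    [IsCyclotomicExtension {l1 * l2} M Ω]
    (hdisc : Nat.Coprime (l1 * l2) (NumberField.discr M).natAbs)
    (v₁ v₂ : (Ideal (𝓞 K))⁰) (hv₁ : (v₁ : Ideal (𝓞 K)).IsPrime)
    (hv₂ : (v₂ : Ideal (𝓞 K)).IsPrime) (ha₁ : art v₁ ≠ 1) (ha₂ : art v₂ ≠ 1)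
    (hc₁ : Nat.Coprime (l1 * l2) (Ideal.absNorm (v₁ : Ideal (𝓞 K))))
    (hc₂ : Nat.Coprime (l1 * l2) (Ideal.absNorm (v₂ : Ideal (𝓞 K))))
    (ho₁ : p ∣ orderOf ((Ideal.absNorm (v₁ : Ideal (𝓞 K)) : ℕ) : ZMod l1))
    (ho₂ : p ∣ orderOf ((Ideal.absNorm (v₂ : Ideal (𝓞 K)) : ℕ) : ZMod l2)) :
    ∃ w : (Ideal (𝓞 K))⁰, art w ≠ 1 ∧
      (∀ a b : ℕ, art v₁ ^ a = art w ^ b →
        ClassGroup.mk0 v₁ ^ a * (ClassGroup.mk0 w ^ b)⁻¹ ∈ normClasses K M) ∧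
      (∀ a b : ℕ, art v₂ ^ a = art w ^ b →
        ClassGroup.mk0 v₂ ^ a * (ClassGroup.mk0 w ^ b)⁻¹ ∈ normClasses K M) := by
  have hpF : Fact p.Prime := ⟨hp⟩
  have hm : 0 < l1 * l2 := Nat.mul_pos hl1.out.pos hl2.out.pos
  have hmNe : NeZero (l1 * l2) := ⟨hm.ne'⟩
  -- the root of unity
  obtain ⟨ζ, hζ⟩ : ∃ ζ : Ω, IsPrimitiveRoot ζ (l1 * l2) :=
    ⟨IsCyclotomicExtension.zeta (l1 * l2) M Ω, IsCyclotomicExtension.zeta_spec (l1 * l2) M Ω⟩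
  -- Frobenius elements (T5)
  obtain ⟨𝔔₁, φ₁, h𝔔₁p, h𝔔₁0, hund₁, hfrob₁, hres₁, hpow₁⟩ :=
    CrossingFrobExists.exists_frob (Ω := Ω) hU art hart v₁ hv₁
  obtain ⟨𝔔₂, φ₂, h𝔔₂p, h𝔔₂0, hund₂, hfrob₂, hres₂, hpow₂⟩ :=
    CrossingFrobExists.exists_frob (Ω := Ω) hU art hart v₂ hv₂
  have h1ζ := hpow₁ (l1 * l2) ζ hζ.pow_eq_one hc₁
  have h2ζ := hpow₂ (l1 * l2) ζ hζ.pow_eq_one hc₂
  -- the subgroups (T6)
  obtain ⟨H1, H2, hφ1, hφ2, hk1, hk2, hresall⟩ :=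
    exists_subgroups l1 l2 hne hdisc hdeg ζ hζ φ₁ φ₂ _ _ (by rw [hres₁]; exact ha₁)
      (by rw [hres₂]; exact ha₂) h1ζ h2ζ ho₁ ho₂
  -- an element of `H1 ⊓ H2` moving `M`
  obtain ⟨γ, hγ, hγres⟩ := hresall (art v₁)
  have hγne : AlgEquiv.restrictNormalHom M γ ≠ 1 := by rw [hγres]; exact ha₁
  obtain ⟨y, hy⟩ := CrossingChar.exists_apply_ne_of_res_ne_one γ hγne
  -- the degree-one prime `𝔴` of `E` (T9)
  have hfixE : ∀ x ∈ auxF K Ω (H1 ⊓ H2), γ x = x := fun x hx => hx ⟨γ, hγ⟩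
  have hdegE : Module.finrank ↥(auxF K Ω (H1 ⊓ H2)) ↥(LX M (auxF K Ω (H1 ⊓ H2))) ≠ 1 :=
    CrossingDeg.finrank_LX_ne_one (auxF K Ω (H1 ⊓ H2)) ⟨γ, hfixE, y, hy⟩
  obtain ⟨𝔴, h𝔴p, h𝔴0, h𝔴n, h𝔴lt, h𝔴art⟩ :=
    CrossingW.exists_w hD hZ hp hdeg hU art hart (auxF K Ω (H1 ⊓ H2)) hdegE (l1 * l2)
  have hco𝔴 : IsCoprime 𝔴 (Ideal.span {((l1 * l2 : ℕ) : 𝓞 ↥(auxF K Ω (H1 ⊓ H2)))}) := by
    apply isCoprime_span_natCast 𝔴 h𝔴p h𝔴0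
    exact ((Nat.Prime.coprime_iff_not_dvd h𝔴n).mpr (Nat.not_dvd_of_pos_of_lt hm h𝔴lt)).symm
  have hw0 : Ideal.relNorm (𝓞 K) 𝔴 ≠ ⊥ := by
    rw [Ne, Ideal.relNorm_eq_bot_iff]; exact h𝔴0
  refine ⟨⟨Ideal.relNorm (𝓞 K) 𝔴, mem_nonZeroDivisors_iff_ne_zero.mpr hw0⟩,
    h𝔴art _ rfl, fun a b h => ?_, fun a b h => ?_⟩
  · exact link_one hD hAux hp h3 hζp hdeg hU art hart (l1 * l2) hm ζ hζ H1 (H1 ⊓ H2) inf_le_left
      hk1 ⟨γ, hγ.1, y, hy⟩ v₁ hc₁ 𝔔₁ h𝔔₁p h𝔔₁0 hund₁ φ₁ hφ1 hfrob₁ 𝔴 h𝔴0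
      (by exact_mod_cast hco𝔴) _ rfl a b h
  · exact link_one hD hAux hp h3 hζp hdeg hU art hart (l1 * l2) hm ζ hζ H2 (H1 ⊓ H2) inf_le_right
      hk2 ⟨γ, hγ.2, y, hy⟩ v₂ hc₂ 𝔔₂ h𝔔₂p h𝔔₂0 hund₂ φ₂ hφ2 hfrob₂ 𝔴 h𝔴0
      (by exact_mod_cast hco𝔴) _ rfl a b h

end CS

/-- A nonzero prime ideal of a number field has absolute norm `≥ 2`. -/
theorem two_le_absNorm_of_isPrime {F : Type} [Field F] [NumberField F] (P : Ideal (𝓞 F))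
    (hP : P.IsPrime) (hP0 : P ≠ ⊥) : 2 ≤ Ideal.absNorm P := by
  have h0 : Ideal.absNorm P ≠ 0 := by
    rw [Ne, Ideal.absNorm_eq_zero_iff]; exact hP0
  have h1 : Ideal.absNorm P ≠ 1 := by
    rw [Ne, Ideal.absNorm_eq_one_iff]; exact hP.ne_top
  omega

/-- A prime bigger than a positive number is coprime to it. -/
theorem coprime_of_prime_of_lt {l n : ℕ} (hl : l.Prime) (hn : 0 < n) (h : n < l) :
    Nat.Coprime l n :=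
  (Nat.Prime.coprime_iff_not_dvd hl).mpr (Nat.not_dvd_of_pos_of_lt hn h)

/-- **T10, half (b).**  The LINKING property from `BlockD`, `BlockZ`, `BlockAux`. -/
theorem linkStatement {p : ℕ} (hD : BlockD) (hZ : BlockZ) (hAux : BlockAux) :
    CrossingFinalB.LinkStatement p := by
  intro K M _ _ _ _ _ _ _ _ hp h3 hdeg hU art hart v₁ v₂ hv₁ hv₂ ha₁ ha₂
  have hpF : Fact p.Prime := ⟨hp⟩
  have hpNe : NeZero p := ⟨hp.ne_zero⟩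
  have hζp : ∃ ζ : K, IsPrimitiveRoot ζ p :=
    ⟨IsCyclotomicExtension.zeta p ℚ K, IsCyclotomicExtension.zeta_spec p ℚ K⟩
  have hv₁0 : (v₁ : Ideal (𝓞 K)) ≠ ⊥ := mem_nonZeroDivisors_iff_ne_zero.mp v₁.2
  have hv₂0 : (v₂ : Ideal (𝓞 K)) ≠ ⊥ := mem_nonZeroDivisors_iff_ne_zero.mp v₂.2
  have hN1 : 2 ≤ Ideal.absNorm (v₁ : Ideal (𝓞 K)) := two_le_absNorm_of_isPrime _ hv₁ hv₁0
  have hN2 : 2 ≤ Ideal.absNorm (v₂ : Ideal (𝓞 K)) := two_le_absNorm_of_isPrime _ hv₂ hv₂0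
  have hD0 : 0 < (NumberField.discr M).natAbs := Int.natAbs_pos.mpr (NumberField.discr_ne_zero M)
  have hp2 : p ≠ 2 := by omega
  -- the two auxiliary primes
  obtain ⟨l1, s1, hl1, -, -, hBl1, -, hs1, hord1⟩ :=
    ArtinLemma.exists_prime_gt_orderOf_eq_prime_pow (Ideal.absNorm (v₁ : Ideal (𝓞 K))) hN1 p hp2
      (max (max (Ideal.absNorm (v₁ : Ideal (𝓞 K))) (Ideal.absNorm (v₂ : Ideal (𝓞 K))))
        (NumberField.discr M).natAbs) 0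
  obtain ⟨l2, s2, hl2, -, -, hBl2, -, hs2, hord2⟩ :=
    ArtinLemma.exists_prime_gt_orderOf_eq_prime_pow (Ideal.absNorm (v₂ : Ideal (𝓞 K))) hN2 p hp2
      (max (max (max (Ideal.absNorm (v₁ : Ideal (𝓞 K))) (Ideal.absNorm (v₂ : Ideal (𝓞 K))))
        (NumberField.discr M).natAbs) l1) 0
  have hl1F : Fact l1.Prime := ⟨hl1⟩
  have hl2F : Fact l2.Prime := ⟨hl2⟩
  have hne : l1 ≠ l2 := by
    have : l1 < l2 := lt_of_le_of_lt (le_max_right _ _) hBl2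
    omega
  have b11 : Ideal.absNorm (v₁ : Ideal (𝓞 K)) < l1 :=
    lt_of_le_of_lt (le_trans (le_max_left _ _) (le_max_left _ _)) hBl1
  have b12 : Ideal.absNorm (v₂ : Ideal (𝓞 K)) < l1 :=
    lt_of_le_of_lt (le_trans (le_max_right _ _) (le_max_left _ _)) hBl1
  have b1D : (NumberField.discr M).natAbs < l1 := lt_of_le_of_lt (le_max_right _ _) hBl1
  have b21 : Ideal.absNorm (v₁ : Ideal (𝓞 K)) < l2 :=
    lt_of_le_of_lt (le_trans (le_trans (le_max_left _ _) (le_max_left _ _)) (le_max_left _ _)) hBl2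
  have b22 : Ideal.absNorm (v₂ : Ideal (𝓞 K)) < l2 :=
    lt_of_le_of_lt (le_trans (le_trans (le_max_right _ _) (le_max_left _ _)) (le_max_left _ _)) hBl2
  have b2D : (NumberField.discr M).natAbs < l2 :=
    lt_of_le_of_lt (le_trans (le_max_right _ _) (le_max_left _ _)) hBl2
  have hc₁ : Nat.Coprime (l1 * l2) (Ideal.absNorm (v₁ : Ideal (𝓞 K))) :=
    Nat.Coprime.mul_left (coprime_of_prime_of_lt hl1 (by omega) b11)
      (coprime_of_prime_of_lt hl2 (by omega) b21)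
  have hc₂ : Nat.Coprime (l1 * l2) (Ideal.absNorm (v₂ : Ideal (𝓞 K))) :=
    Nat.Coprime.mul_left (coprime_of_prime_of_lt hl1 (by omega) b12)
      (coprime_of_prime_of_lt hl2 (by omega) b22)
  have hdisc : Nat.Coprime (l1 * l2) (NumberField.discr M).natAbs :=
    Nat.Coprime.mul_left (coprime_of_prime_of_lt hl1 hD0 b1D) (coprime_of_prime_of_lt hl2 hD0 b2D)
  have ho₁ : p ∣ orderOf ((Ideal.absNorm (v₁ : Ideal (𝓞 K)) : ℕ) : ZMod l1) := by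
    rw [hord1]; exact dvd_pow_self p (by omega)
  have ho₂ : p ∣ orderOf ((Ideal.absNorm (v₂ : Ideal (𝓞 K)) : ℕ) : ZMod l2) := by
    rw [hord2]; exact dvd_pow_self p (by omega)
  -- the field `Ω = M(ζ_{ℓ₁ℓ₂})`
  have hmNe : NeZero (l1 * l2) := ⟨Nat.mul_ne_zero hl1.ne_zero hl2.ne_zero⟩
  have hgal : IsGalois K (CyclotomicField (l1 * l2) M) :=
    CrossingDisjoint.isGalois_of_isCyclotomicExtension K M (l1 * l2) (CyclotomicField (l1 * l2) M)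
  exact link_of_omega (Ω := CyclotomicField (l1 * l2) M) hD hZ hAux hp h3 hζp hdeg hU art hart
    l1 l2 hne hdisc v₁ v₂ hv₁ hv₂ ha₁ ha₂ hc₁ hc₂ ho₁ ho₂

/-- **T10 (hedge).**  `BlockRecip p` from the closed blocks. -/
theorem blockRecip {p : ℕ} (hD : BlockD) (hZ : BlockZ) (hFI : BlockFirstIneq p)
    (hAux : BlockAux) : BlockRecip p :=
  CrossingFinalB.blockRecip_of_link hFI (linkStatement hD hZ hAux)

end Fermat.Agent.S14.CrossingLinkB
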