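import Mathlib
import Fermat.Agent.S14.Defs
import Fermat.Agent.S14.ArtinMapGen
import Fermat.Agent.S14.ArtinLemma
import Fermat.Agent.S14.CycloFrob
import Fermat.Agent.S14.CrossingDisjoint
import Fermat.Agent.S14.CrossingLink
import Fermat.Agent.S14.CrossingAux

/-!
# S14, block (C), row T6: the linking subgroups inside `Ω = M(ζ_{ℓ₁ℓ₂})`

Concrete instantiation of the group theory of `CrossingLink.lean`: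
`Γ = Gal(Ω/K)`, `res = AlgEquiv.restrictNormalHom M`, `χ_i` = cyclotomic character mod `ℓ_i`
(`chi₁`, `chi₂`, computed on `ζ ^ ℓ₂`, `ζ ^ ℓ₁`).

* `eq_one_of_res_chi`  : `(res, χ₁, χ₂)` is jointly injective;
* `exists_res_chi`     : jointly surjective when `ℓ₁ℓ₂` is prime to `discr M` (helper54's
                         `CrossingDisjoint`);
* `exists_subgroups`   : **row T6** in helper78's shape (report 1073);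
* `restrictNormalHom_frob`, `frob_apply_zeta` : an arithmetic Frobenius `φ` of `Ω/K` at a prime over
  `v ∌ ℓ₁ℓ₂` has `res φ = art v` and `φ ζ = ζ ^ N v`;
* `exists_link_subgroups` : T6 fed with Frobenius elements, output as `IsCrossingSubgroup`s
  (the hypotheses `hres`/`hker` of `CrossingAux`) for `H₁`, `H₂` and `H₁ ⊓ H₂`.
-/

set_option autoImplicit false
set_option linter.unusedSectionVars false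
set_option linter.style.haveILetI false

namespace Fermat.Agent.S14.CrossingLinkField

open NumberField nonZeroDivisors Fermat.Agent.S14 Fermat.Agent.S14.CrossingDisjoint
  Fermat.Agent.S14.CrossingLink Fermat.Agent.S14.ArtinLemma

section Char

variable {K Ω : Type*} [Field K] [Field Ω] [Algebra K Ω]

/-- The cyclotomic character of `Gal(Ω/K)` modulo the factor `b` of `n = a * b`, computed on the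
primitive `b`-th root of unity `ζ ^ a`. -/
noncomputable def chiOf {n a b : ℕ} [NeZero b] {ζ : Ω} (hζ : IsPrimitiveRoot ζ n) (hn0 : 0 < n)
    (hn : n = a * b) : (Ω ≃ₐ[K] Ω) →* (ZMod b)ˣ :=
  (hζ.pow hn0 hn).autToPow K

theorem chiOf_spec {n a b : ℕ} [NeZero b] {ζ : Ω} (hζ : IsPrimitiveRoot ζ n) (hn0 : 0 < n)
    (hn : n = a * b) (γ : Ω ≃ₐ[K] Ω) :
    (ζ ^ a) ^ ((chiOf (K := K) hζ hn0 hn γ : (ZMod b)ˣ) : ZMod b).val = γ (ζ ^ a) :=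
  (hζ.pow hn0 hn).autToPow_spec K γ

/-- If `γ ζ = ζ ^ c` then `χ γ = c mod b`. -/
theorem chiOf_eq_natCast {n a b : ℕ} [NeZero b] {ζ : Ω} (hζ : IsPrimitiveRoot ζ n) (hn0 : 0 < n)
    (hn : n = a * b) (γ : Ω ≃ₐ[K] Ω) {c : ℕ} (hc : γ ζ = ζ ^ c) :
    ((chiOf (K := K) hζ hn0 hn γ : (ZMod b)ˣ) : ZMod b) = (c : ZMod b) := by
  have hprim := hζ.pow hn0 hn
  have h1 := chiOf_spec (K := K) hζ hn0 hn γ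
  have h2 : γ (ζ ^ a) = (ζ ^ a) ^ c := by
    rw [map_pow, hc, ← pow_mul, ← pow_mul, mul_comm]
  rw [h2] at h1
  set m := ((chiOf (K := K) hζ hn0 hn γ : (ZMod b)ˣ) : ZMod b).val with hm
  have hx0 : ζ ^ a ≠ 0 := hprim.ne_zero (NeZero.ne b)
  have h3 : (ζ ^ a) ^ ((m : ℤ) - (c : ℤ)) = 1 := by
    rw [zpow_sub₀ hx0, zpow_natCast, zpow_natCast, h1, div_self (pow_ne_zero _ hx0)]
  have hd := (hprim.zpow_eq_one_iff_dvd _).mp h3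
  have h4 := (ZMod.intCast_eq_intCast_iff_dvd_sub (c : ℤ) (m : ℤ) b).mpr hd
  rw [Int.cast_natCast, Int.cast_natCast, hm, ZMod.natCast_zmod_val] at h4
  exact h4.symm

/-- If `χ γ = 1` then `γ` fixes `ζ ^ a`. -/
theorem apply_pow_of_chiOf_eq_one {n a b : ℕ} [NeZero b] {ζ : Ω} (hζ : IsPrimitiveRoot ζ n)
    (hn0 : 0 < n) (hn : n = a * b) (hb : 1 < b) (γ : Ω ≃ₐ[K] Ω)
    (h : chiOf (K := K) hζ hn0 hn γ = 1) : γ (ζ ^ a) = ζ ^ a := by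
  have h1 := chiOf_spec (K := K) hζ hn0 hn γ
  have : Fact (1 < b) := ⟨hb⟩
  rw [h, Units.val_one, ZMod.val_one, pow_one] at h1
  exact h1.symm

end Char

section CRT

theorem unitsCRT_symm_val_fst {m n : ℕ} [NeZero m] [NeZero n] (h : m.Coprime n)
    (u₁ : (ZMod m)ˣ) (u₂ : (ZMod n)ˣ) :
    ((((unitsCRT h).symm (u₁, u₂) : (ZMod (m * n))ˣ) : ZMod (m * n)).val : ZMod m)
      = (u₁ : ZMod m) := by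
  set u := (unitsCRT h).symm (u₁, u₂) with hu
  have h1 : unitsCRT h u = (u₁, u₂) := by rw [hu, MulEquiv.apply_symm_apply]
  have h2 : ((unitsCRT h u).1 : ZMod m) = ZMod.cast (u : ZMod (m * n)) := by
    simp [unitsCRT, MulEquiv.prodUnits, ZMod.chineseRemainder]
  rw [h1] at h2
  rw [ZMod.natCast_val]
  exact h2.symm

theorem unitsCRT_symm_val_snd {m n : ℕ} [NeZero m] [NeZero n] (h : m.Coprime n)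
    (u₁ : (ZMod m)ˣ) (u₂ : (ZMod n)ˣ) :
    ((((unitsCRT h).symm (u₁, u₂) : (ZMod (m * n))ˣ) : ZMod (m * n)).val : ZMod n)
      = (u₂ : ZMod n) := by
  set u := (unitsCRT h).symm (u₁, u₂) with hu
  have h1 : unitsCRT h u = (u₁, u₂) := by rw [hu, MulEquiv.apply_symm_apply]
  have h2 : ((unitsCRT h u).2 : ZMod n) = ZMod.cast (u : ZMod (m * n)) := by
    simp [unitsCRT, MulEquiv.prodUnits, ZMod.chineseRemainder]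
  rw [h1] at h2
  rw [ZMod.natCast_val]
  exact h2.symm

end CRT

section Tower

variable (K M : Type*) [Field K] [Field M] [NumberField M] [Algebra K M]
  (ℓ₁ ℓ₂ : ℕ) [hℓ₁ : Fact ℓ₁.Prime] [hℓ₂ : Fact ℓ₂.Prime]
variable (Ω : Type*) [Field Ω] [Algebra M Ω] [Algebra K Ω] [IsScalarTower K M Ω]
  [IsCyclotomicExtension {ℓ₁ * ℓ₂} M Ω]

theorem mul_pos' : 0 < ℓ₁ * ℓ₂ := Nat.mul_pos hℓ₁.out.pos hℓ₂.out.pos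

/-- The character modulo `ℓ₁`. -/
noncomputable def chi₁ {ζ : Ω} (hζ : IsPrimitiveRoot ζ (ℓ₁ * ℓ₂)) : (Ω ≃ₐ[K] Ω) →* (ZMod ℓ₁)ˣ :=
  chiOf (K := K) hζ (mul_pos' ℓ₁ ℓ₂) (mul_comm ℓ₁ ℓ₂)

/-- The character modulo `ℓ₂`. -/
noncomputable def chi₂ {ζ : Ω} (hζ : IsPrimitiveRoot ζ (ℓ₁ * ℓ₂)) : (Ω ≃ₐ[K] Ω) →* (ZMod ℓ₂)ˣ :=
  chiOf (K := K) hζ (mul_pos' ℓ₁ ℓ₂) rfl

variable {K M ℓ₁ ℓ₂ Ω}

theorem chi₁_eq_natCast {ζ : Ω} (hζ : IsPrimitiveRoot ζ (ℓ₁ * ℓ₂)) (γ : Ω ≃ₐ[K] Ω) {c : ℕ}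
    (hc : γ ζ = ζ ^ c) : ((chi₁ K ℓ₁ ℓ₂ Ω hζ γ : (ZMod ℓ₁)ˣ) : ZMod ℓ₁) = (c : ZMod ℓ₁) :=
  chiOf_eq_natCast hζ _ _ γ hc

theorem chi₂_eq_natCast {ζ : Ω} (hζ : IsPrimitiveRoot ζ (ℓ₁ * ℓ₂)) (γ : Ω ≃ₐ[K] Ω) {c : ℕ}
    (hc : γ ζ = ζ ^ c) : ((chi₂ K ℓ₁ ℓ₂ Ω hζ γ : (ZMod ℓ₂)ˣ) : ZMod ℓ₂) = (c : ZMod ℓ₂) :=
  chiOf_eq_natCast hζ _ _ γ hc

/-- An element fixing `ζ` has trivial characters. -/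
theorem chi_eq_one_of_apply_zeta {ζ : Ω} (hζ : IsPrimitiveRoot ζ (ℓ₁ * ℓ₂)) (γ : Ω ≃ₐ[K] Ω)
    (h : γ ζ = ζ) : chi₁ K ℓ₁ ℓ₂ Ω hζ γ = 1 ∧ chi₂ K ℓ₁ ℓ₂ Ω hζ γ = 1 := by
  have h' : γ ζ = ζ ^ 1 := by rw [pow_one, h]
  constructor
  · apply Units.ext
    rw [chi₁_eq_natCast hζ γ h', Nat.cast_one, Units.val_one]
  · apply Units.ext
    rw [chi₂_eq_natCast hζ γ h', Nat.cast_one, Units.val_one]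

/-- An element of `Gal(Ω/K)` with trivial characters mod `ℓ₁` and `ℓ₂` fixes `ζ`. -/
theorem apply_zeta_of_chi_eq_one (hne : ℓ₁ ≠ ℓ₂) {ζ : Ω} (hζ : IsPrimitiveRoot ζ (ℓ₁ * ℓ₂))
    (γ : Ω ≃ₐ[K] Ω) (h1 : chi₁ K ℓ₁ ℓ₂ Ω hζ γ = 1) (h2 : chi₂ K ℓ₁ ℓ₂ Ω hζ γ = 1) :
    γ ζ = ζ := by
  have e1 : γ (ζ ^ ℓ₂) = ζ ^ ℓ₂ :=
    apply_pow_of_chiOf_eq_one hζ _ _ hℓ₁.out.one_lt γ h1
  have e2 : γ (ζ ^ ℓ₁) = ζ ^ ℓ₁ :=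
    apply_pow_of_chiOf_eq_one hζ _ _ hℓ₂.out.one_lt γ h2
  have hcop : Nat.Coprime ℓ₁ ℓ₂ := (Nat.coprime_primes hℓ₁.out hℓ₂.out).mpr hne
  have hb := Nat.gcd_eq_gcd_ab ℓ₁ ℓ₂
  rw [hcop.gcd_eq_one, Nat.cast_one] at hb
  have hζ0 : ζ ≠ 0 := hζ.ne_zero (mul_pos' ℓ₁ ℓ₂).ne'
  have hz : ζ = (ζ ^ ℓ₁) ^ (Nat.gcdA ℓ₁ ℓ₂) * (ζ ^ ℓ₂) ^ (Nat.gcdB ℓ₁ ℓ₂) := by
    rw [← zpow_natCast, ← zpow_natCast, ← zpow_mul, ← zpow_mul, ← zpow_add₀ hζ0, ← hb, zpow_one]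
  conv_lhs => rw [hz]
  rw [map_mul, map_zpow₀, map_zpow₀, e1, e2, ← hz]

/-- **Joint injectivity** of `(res, χ₁, χ₂)` on `Gal(Ω/K)`. -/
theorem eq_one_of_res_chi [Normal K M] (hne : ℓ₁ ≠ ℓ₂) {ζ : Ω}
    (hζ : IsPrimitiveRoot ζ (ℓ₁ * ℓ₂)) (γ : Ω ≃ₐ[K] Ω)
    (h0 : AlgEquiv.restrictNormalHom M γ = 1) (h1 : chi₁ K ℓ₁ ℓ₂ Ω hζ γ = 1)
    (h2 : chi₂ K ℓ₁ ℓ₂ Ω hζ γ = 1) : γ = 1 := by
  haveI : NeZero (ℓ₁ * ℓ₂) := ⟨(mul_pos' ℓ₁ ℓ₂).ne'⟩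
  apply algEquiv_ext_of_apply_zeta K M (ℓ₁ * ℓ₂) Ω hζ
  · intro x
    have := AlgEquiv.restrictNormal_commutes γ M x
    rw [← this]
    have h3 : γ.restrictNormal M = 1 := h0
    rw [h3]
    rfl
  · rw [apply_zeta_of_chi_eq_one hne hζ γ h1 h2]
    rfl

/-- **Joint surjectivity** of `(res, χ₁, χ₂)` when `ℓ₁ℓ₂` is prime to the discriminant of `M`. -/
theorem exists_res_chi [Normal K M] (hne : ℓ₁ ≠ ℓ₂)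
    (hdisc : Nat.Coprime (ℓ₁ * ℓ₂) (discr M).natAbs) {ζ : Ω}
    (hζ : IsPrimitiveRoot ζ (ℓ₁ * ℓ₂)) (g : M ≃ₐ[K] M) (u₁ : (ZMod ℓ₁)ˣ) (u₂ : (ZMod ℓ₂)ˣ) :
    ∃ σ : Ω ≃ₐ[K] Ω, AlgEquiv.restrictNormalHom M σ = g ∧ chi₁ K ℓ₁ ℓ₂ Ω hζ σ = u₁ ∧
      chi₂ K ℓ₁ ℓ₂ Ω hζ σ = u₂ := by
  haveI : NeZero (ℓ₁ * ℓ₂) := ⟨(mul_pos' ℓ₁ ℓ₂).ne'⟩
  haveI : NeZero ℓ₁ := ⟨hℓ₁.out.ne_zero⟩
  haveI : NeZero ℓ₂ := ⟨hℓ₂.out.ne_zero⟩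
  have hcop : Nat.Coprime ℓ₁ ℓ₂ := (Nat.coprime_primes hℓ₁.out hℓ₂.out).mpr hne
  obtain ⟨τ, hτ1, hτ2⟩ := exists_algEquiv_restrictNormal_eq_and_apply_eq_pow K M (ℓ₁ * ℓ₂) Ω
    hdisc hζ g ((unitsCRT hcop).symm (u₁, u₂))
  refine ⟨τ, hτ1, ?_, ?_⟩
  · apply Units.ext
    rw [chi₁_eq_natCast hζ τ hτ2]
    exact unitsCRT_symm_val_fst hcop u₁ u₂
  · apply Units.ext
    rw [chi₂_eq_natCast hζ τ hτ2]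
    exact unitsCRT_symm_val_snd hcop u₁ u₂

end Tower

section Subgroups

variable {K M Ω : Type*} [Field K] [Field M] [NumberField M] [Field Ω]
  [Algebra K M] [Algebra K Ω] [Algebra M Ω] [IsScalarTower K M Ω]
  [FiniteDimensional K M] [IsGalois K M]
  {ℓ₁ ℓ₂ : ℕ} [hℓ₁ : Fact ℓ₁.Prime] [hℓ₂ : Fact ℓ₂.Prime] [IsCyclotomicExtension {ℓ₁ * ℓ₂} M Ω]

/-- **Row T6 (subgroup form).**  Inside `Ω = M(ζ_{ℓ₁ℓ₂})`, from `φ₁ φ₂ : Gal(Ω/K)` acting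
nontrivially on `M`, with `φ_i ζ = ζ ^ N_i` and `p ∣ ord_{ℓ_i}(N_i)`, the subgroups
`H_i = ⟨φ_i⟩ ⊔ (ker res ⊓ ker χ_i)` satisfy: `φ_i ∈ H_i`; no nontrivial element of `H_i` fixes `ζ`;
`H₁ ⊓ H₂` (hence `H₁`, `H₂`) restricts onto `Gal(M/K)`. -/
theorem exists_subgroups (hne : ℓ₁ ≠ ℓ₂)
    (hdisc : Nat.Coprime (ℓ₁ * ℓ₂) (NumberField.discr M).natAbs) {p : ℕ} [hp : Fact p.Prime]
    (hdeg : Module.finrank K M = p) (ζ : Ω) (hζ : IsPrimitiveRoot ζ (ℓ₁ * ℓ₂))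
    (φ₁ φ₂ : Ω ≃ₐ[K] Ω) (N₁ N₂ : ℕ)
    (h1 : AlgEquiv.restrictNormalHom M φ₁ ≠ 1) (h2 : AlgEquiv.restrictNormalHom M φ₂ ≠ 1)
    (h1ζ : φ₁ ζ = ζ ^ N₁) (h2ζ : φ₂ ζ = ζ ^ N₂)
    (ho1 : p ∣ orderOf (N₁ : ZMod ℓ₁)) (ho2 : p ∣ orderOf (N₂ : ZMod ℓ₂)) :
    ∃ H₁ H₂ : Subgroup (Ω ≃ₐ[K] Ω), φ₁ ∈ H₁ ∧ φ₂ ∈ H₂ ∧
      (∀ γ ∈ H₁, γ ζ = ζ → γ = 1) ∧ (∀ γ ∈ H₂, γ ζ = ζ → γ = 1) ∧
      ∀ g : M ≃ₐ[K] M, ∃ γ ∈ H₁ ⊓ H₂, AlgEquiv.restrictNormalHom M γ = g := by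
  have hcard : Nat.card (M ≃ₐ[K] M) = p := by rw [IsGalois.card_aut_eq_finrank, hdeg]
  set res : (Ω ≃ₐ[K] Ω) →* (M ≃ₐ[K] M) := AlgEquiv.restrictNormalHom M with hres
  set χ₁ := chi₁ K ℓ₁ ℓ₂ Ω hζ with hχ₁
  set χ₂ := chi₂ K ℓ₁ ℓ₂ Ω hζ with hχ₂
  have ho₁ : p ∣ orderOf (χ₁ φ₁) := by
    rw [← orderOf_units, chi₁_eq_natCast hζ φ₁ h1ζ]; exact ho1
  have ho₂ : p ∣ orderOf (χ₂ φ₂) := by
    rw [← orderOf_units, chi₂_eq_natCast hζ φ₂ h2ζ]; exact ho2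
  have hinj : ∀ γ : Ω ≃ₐ[K] Ω, res γ = 1 → χ₁ γ = 1 → χ₂ γ = 1 → γ = 1 :=
    fun γ h0 h1 h2 => eq_one_of_res_chi hne hζ γ h0 h1 h2
  have hinj' : ∀ γ : Ω ≃ₐ[K] Ω, res γ = 1 → χ₂ γ = 1 → χ₁ γ = 1 → γ = 1 :=
    fun γ h0 h2 h1 => hinj γ h0 h1 h2
  have hsurj : ∀ (g : M ≃ₐ[K] M) (u : (ZMod ℓ₁)ˣ) (u' : (ZMod ℓ₂)ˣ),
      ∃ σ : Ω ≃ₐ[K] Ω, res σ = g ∧ χ₁ σ = u ∧ χ₂ σ = u' :=
    fun g u u' => exists_res_chi hne hdisc hζ g u u'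
  have hker : ∀ (H : Subgroup (Ω ≃ₐ[K] Ω)), H ⊓ (χ₁.ker ⊓ χ₂.ker) = ⊥ →
      ∀ γ ∈ H, γ ζ = ζ → γ = 1 := by
    intro H hH γ hγ hfix
    obtain ⟨h1, h2⟩ := chi_eq_one_of_apply_zeta hζ γ hfix
    have : γ ∈ H ⊓ (χ₁.ker ⊓ χ₂.ker) :=
      ⟨hγ, MonoidHom.mem_ker.mpr h1, MonoidHom.mem_ker.mpr h2⟩
    rw [hH] at this
    exact Subgroup.mem_bot.mp this
  refine ⟨crossH res χ₁ φ₁, crossH res χ₂ φ₂, self_mem_crossH _ _ _, self_mem_crossH _ _ _,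
    ?_, ?_, ?_⟩
  · exact hker _ (crossH_inf_ker_eq_bot res χ₁ χ₂ φ₁ hcard hinj ho₁)
  · refine hker _ ?_
    have := crossH_inf_ker_eq_bot res χ₂ χ₁ φ₂ hcard hinj' ho₂
    rwa [inf_comm χ₂.ker χ₁.ker] at this
  · exact fun g => exists_mem_inf_res_eq res χ₁ χ₂ φ₁ φ₂ hcard hsurj h1 h2 g

end Subgroups

section Frob

variable {K M Ω : Type*} [Field K] [NumberField K] [Field M] [NumberField M] [Field Ω]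
  [NumberField Ω] [Algebra K M] [Algebra K Ω] [Algebra M Ω] [IsScalarTower K M Ω]
  [IsGalois K M] [IsGalois K Ω]

/-- The restriction to `M` of an arithmetic Frobenius of `Ω/K` over `v` is the Artin symbol of
`v` in the unramified extension `M/K`. -/
theorem restrictNormalHom_frob {art : (Ideal (𝓞 K))⁰ →* (M ≃ₐ[K] M)} (hart : IsArtinMap K M art)
    (hU : Unram K M) (v : (Ideal (𝓞 K))⁰) (hv : (v : Ideal (𝓞 K)).IsPrime)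
    (𝔓 : Ideal (𝓞 Ω)) [h𝔓 : 𝔓.IsPrime] (hover : 𝔓.under (𝓞 K) = (v : Ideal (𝓞 K)))
    (φ : Ω ≃ₐ[K] Ω) (hφ : IsArithFrobAt (𝓞 K) φ 𝔓) :
    AlgEquiv.restrictNormalHom M φ = art v := by
  have h1 := CycloFrob.isArithFrobAt_restrict (F := K) (L := M) (C := Ω) φ 𝔓 hφ
  have hP : (𝔓.under (𝓞 M)).IsPrime := inferInstance
  have hover' : (𝔓.under (𝓞 M)).LiesOver (v : Ideal (𝓞 K)) := by
    constructor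
    rw [← hover, Ideal.under_under]
  exact hart.eq_of_isArithFrobAt hU v hv (𝔓.under (𝓞 M)) hP hover' _ h1

end Frob

section FrobChi

variable {K M Ω : Type*} [Field K] [NumberField K] [Field M] [NumberField M] [Field Ω]
  [NumberField Ω] [Algebra K M] [Algebra K Ω] [Algebra M Ω] [IsScalarTower K M Ω]
  [IsGalois K Ω]
  {ℓ₁ ℓ₂ : ℕ} [hℓ₁ : Fact ℓ₁.Prime] [hℓ₂ : Fact ℓ₂.Prime]

/-- An arithmetic Frobenius at a prime `𝔓 ∌ ℓ₁ℓ₂` raises `ζ` to the power `N(𝔓 ∩ 𝓞 K)`. -/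
theorem frob_apply_zeta {ζ : Ω} (hζ : IsPrimitiveRoot ζ (ℓ₁ * ℓ₂)) (𝔓 : Ideal (𝓞 Ω)) [𝔓.IsPrime]
    (hm : ((ℓ₁ * ℓ₂ : ℕ) : 𝓞 Ω) ∉ 𝔓) (φ : Ω ≃ₐ[K] Ω) (hφ : IsArithFrobAt (𝓞 K) φ 𝔓) :
    φ ζ = ζ ^ Ideal.absNorm (𝔓.under (𝓞 K)) :=
  CycloFrob.frob_zeta hζ.pow_eq_one 𝔓 hm φ hφ

theorem dvd_orderOf_chi₁_frob {p : ℕ} {ζ : Ω} (hζ : IsPrimitiveRoot ζ (ℓ₁ * ℓ₂))
    (𝔓 : Ideal (𝓞 Ω)) [𝔓.IsPrime] (hm : ((ℓ₁ * ℓ₂ : ℕ) : 𝓞 Ω) ∉ 𝔓) (φ : Ω ≃ₐ[K] Ω)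
    (hφ : IsArithFrobAt (𝓞 K) φ 𝔓)
    (hord : p ∣ orderOf ((Ideal.absNorm (𝔓.under (𝓞 K)) : ZMod ℓ₁))) :
    p ∣ orderOf (chi₁ K ℓ₁ ℓ₂ Ω hζ φ) := by
  rw [← orderOf_units, chi₁_eq_natCast hζ φ (frob_apply_zeta hζ 𝔓 hm φ hφ)]
  exact hord

theorem dvd_orderOf_chi₂_frob {p : ℕ} {ζ : Ω} (hζ : IsPrimitiveRoot ζ (ℓ₁ * ℓ₂))
    (𝔓 : Ideal (𝓞 Ω)) [𝔓.IsPrime] (hm : ((ℓ₁ * ℓ₂ : ℕ) : 𝓞 Ω) ∉ 𝔓) (φ : Ω ≃ₐ[K] Ω)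
    (hφ : IsArithFrobAt (𝓞 K) φ 𝔓)
    (hord : p ∣ orderOf ((Ideal.absNorm (𝔓.under (𝓞 K)) : ZMod ℓ₂))) :
    p ∣ orderOf (chi₂ K ℓ₁ ℓ₂ Ω hζ φ) := by
  rw [← orderOf_units, chi₂_eq_natCast hζ φ (frob_apply_zeta hζ 𝔓 hm φ hφ)]
  exact hord

end FrobChi

/-- `H ≤ Gal(Ω/K)` is a *crossing subgroup* (relative to `M` and the root of unity `ζ`): it
restricts ONTO `Gal(M/K)` and contains no nontrivial element fixing `ζ`.  These are exactly the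
hypotheses `hres`, `hker` of `CrossingAux.finrank_auxL`, `CrossingAux.resHom_bijective`,
`CrossingAux.isCyclotomicExtension_auxF`. -/
structure IsCrossingSubgroup {K : Type*} (M : Type*) {Ω : Type*} [Field K] [Field M] [Field Ω]
    [Algebra K M] [Algebra K Ω] [Algebra M Ω] [IsScalarTower K M Ω] [Normal K M] (ζ : Ω)
    (H : Subgroup (Ω ≃ₐ[K] Ω)) : Prop where
  res_onto : ∀ g : M ≃ₐ[K] M, ∃ γ ∈ H, AlgEquiv.restrictNormalHom M γ = g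
  ker : ∀ γ ∈ H, γ ζ = ζ → γ = 1

section Link

variable {K M Ω : Type*} [Field K] [NumberField K] [Field M] [NumberField M] [Field Ω]
  [NumberField Ω] [Algebra K M] [Algebra K Ω] [Algebra M Ω] [IsScalarTower K M Ω]
  [IsGalois K M] [IsGalois K Ω]
  {ℓ₁ ℓ₂ : ℕ} [hℓ₁ : Fact ℓ₁.Prime] [hℓ₂ : Fact ℓ₂.Prime] [IsCyclotomicExtension {ℓ₁ * ℓ₂} M Ω]

/-- **Linking subgroups, fed with Frobenius elements.**  Inside `Ω = M(ζ_{ℓ₁ℓ₂})`, from arithmetic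
Frobenius elements `φ₁, φ₂` at primes `𝔓₁, 𝔓₂ ∌ ℓ₁ℓ₂` over two non-split primes `v₁, v₂` of `K`
(with `p ∣ ord_{ℓ_i}(N v_i)`), the subgroups `H_i = ⟨φ_i⟩ ⊔ (ker res ⊓ ker χ_i)` and `H₁ ⊓ H₂`
are crossing subgroups. -/
theorem exists_link_subgroups {p : ℕ} [hp : Fact p.Prime] (hdeg : Module.finrank K M = p)
    {art : (Ideal (𝓞 K))⁰ →* (M ≃ₐ[K] M)} (hart : IsArtinMap K M art) (hU : Unram K M)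
    (hne : ℓ₁ ≠ ℓ₂) (hdisc : Nat.Coprime (ℓ₁ * ℓ₂) (discr M).natAbs)
    {ζ : Ω} (hζ : IsPrimitiveRoot ζ (ℓ₁ * ℓ₂))
    (v₁ v₂ : (Ideal (𝓞 K))⁰) (hv₁ : (v₁ : Ideal (𝓞 K)).IsPrime) (hv₂ : (v₂ : Ideal (𝓞 K)).IsPrime)
    (ha₁ : art v₁ ≠ 1) (ha₂ : art v₂ ≠ 1)
    (𝔓₁ 𝔓₂ : Ideal (𝓞 Ω)) [𝔓₁.IsPrime] [𝔓₂.IsPrime]
    (hover₁ : 𝔓₁.under (𝓞 K) = (v₁ : Ideal (𝓞 K))) (hover₂ : 𝔓₂.under (𝓞 K) = (v₂ : Ideal (𝓞 K)))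
    (hm₁ : ((ℓ₁ * ℓ₂ : ℕ) : 𝓞 Ω) ∉ 𝔓₁) (hm₂ : ((ℓ₁ * ℓ₂ : ℕ) : 𝓞 Ω) ∉ 𝔓₂)
    (φ₁ φ₂ : Ω ≃ₐ[K] Ω) (hφ₁ : IsArithFrobAt (𝓞 K) φ₁ 𝔓₁) (hφ₂ : IsArithFrobAt (𝓞 K) φ₂ 𝔓₂)
    (hord₁ : p ∣ orderOf ((Ideal.absNorm (v₁ : Ideal (𝓞 K)) : ℕ) : ZMod ℓ₁))
    (hord₂ : p ∣ orderOf ((Ideal.absNorm (v₂ : Ideal (𝓞 K)) : ℕ) : ZMod ℓ₂)) :
    ∃ H₁ H₂ : Subgroup (Ω ≃ₐ[K] Ω), φ₁ ∈ H₁ ∧ φ₂ ∈ H₂ ∧
      IsCrossingSubgroup M ζ H₁ ∧ IsCrossingSubgroup M ζ H₂ ∧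
      IsCrossingSubgroup M ζ (H₁ ⊓ H₂) := by
  have hr₁ : AlgEquiv.restrictNormalHom M φ₁ ≠ 1 := by
    rw [restrictNormalHom_frob hart hU v₁ hv₁ 𝔓₁ hover₁ φ₁ hφ₁]; exact ha₁
  have hr₂ : AlgEquiv.restrictNormalHom M φ₂ ≠ 1 := by
    rw [restrictNormalHom_frob hart hU v₂ hv₂ 𝔓₂ hover₂ φ₂ hφ₂]; exact ha₂
  have hz₁ := frob_apply_zeta hζ 𝔓₁ hm₁ φ₁ hφ₁
  have hz₂ := frob_apply_zeta hζ 𝔓₂ hm₂ φ₂ hφ₂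
  rw [hover₁] at hz₁
  rw [hover₂] at hz₂
  obtain ⟨H₁, H₂, hm1, hm2, hk1, hk2, hres⟩ := exists_subgroups hne hdisc hdeg ζ hζ φ₁ φ₂ _ _
    hr₁ hr₂ hz₁ hz₂ hord₁ hord₂
  refine ⟨H₁, H₂, hm1, hm2, ⟨fun g => ?_, hk1⟩, ⟨fun g => ?_, hk2⟩,
    ⟨hres, fun γ hγ => hk1 γ hγ.1⟩⟩
  · obtain ⟨γ, hγ, h⟩ := hres g
    exact ⟨γ, hγ.1, h⟩
  · obtain ⟨γ, hγ, h⟩ := hres g
    exact ⟨γ, hγ.2, h⟩

end Link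

end Fermat.Agent.S14.CrossingLinkField
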