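/-
S14 / piece C1.cycloFrob, block form (helper35).

`PrincipalDiesCyclo`: principal ideals prime to `m` have trivial Artin symbol in every unramified
Galois extension `L/F` (F totally complex) contained in an `m`-cyclotomic extension `C/F`,
as a closed `Prop` in the vocabulary of `Fermat.Agent.S14.Defs`, deduced from the two closed
inputs `NormSurjMod` (C4, norm surjectivity modulo `m`) and `NormsDie` (D-norm).
-/
import Fermat.Agent.S14.Defs
import Fermat.Agent.S14.CycloFrob

set_option autoImplicit false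

namespace Fermat.Agent.S14.CycloFrobBlock

open NumberField nonZeroDivisors Fermat.Agent.S14

/-- **(C4)** norm surjectivity modulo `m` for an unramified Galois extension: every integer of `F`
prime to `m` is congruent modulo `m` to the norm of an integer of `L`. -/
def NormSurjMod : Prop :=
  ∀ (F L : Type) [Field F] [NumberField F] [Field L] [NumberField L] [Algebra F L] [IsGalois F L]
    (m : ℕ), 0 < m → Unram F L →
    ∀ x : 𝓞 F, IsCoprime (Ideal.span {x}) (Ideal.span {(m : 𝓞 F)}) →
      ∃ y : 𝓞 L, Algebra.intNorm (𝓞 F) (𝓞 L) y - x ∈ Ideal.span {(m : 𝓞 F)}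

/-- **(D-norm)** relative norms of ideals have trivial Artin symbol. -/
def NormsDie : Prop :=
  ∀ (F L : Type) [Field F] [NumberField F] [Field L] [NumberField L] [Algebra F L] [IsGalois F L],
    Unram F L → ∀ art : (Ideal (𝓞 F))⁰ →* (L ≃ₐ[F] L), IsArtinMap F L art →
    ∀ (J : Ideal (𝓞 L)) (I : (Ideal (𝓞 F))⁰), J ≠ ⊥ →
      (I : Ideal (𝓞 F)) = Ideal.relNorm (𝓞 F) J → art I = 1

/-- **(C1)** principal ideals prime to `m` die in unramified subextensions of `F(ζ_m)/F`. -/
def PrincipalDiesCyclo : Prop :=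
  ∀ (F L C : Type) [Field F] [NumberField F] [Field L] [NumberField L] [Field C] [NumberField C]
    [Algebra F L] [Algebra F C] [Algebra L C] [IsScalarTower F L C] [IsGalois F L]
    (m : ℕ), 0 < m → IsCyclotomicExtension {m} F C → IsTotallyComplex F → Unram F L →
    ∀ art : (Ideal (𝓞 F))⁰ →* (L ≃ₐ[F] L), IsArtinMap F L art →
    ∀ I : (Ideal (𝓞 F))⁰, (I : Ideal (𝓞 F)).IsPrincipal →
      IsCoprime (I : Ideal (𝓞 F)) (Ideal.span {(m : 𝓞 F)}) → art I = 1

theorem principalDiesCyclo (h1 : NormSurjMod) (h2 : NormsDie) : PrincipalDiesCyclo := by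
  intro F L C _ _ _ _ _ _ _ _ _ _ _ m hm hcyc hcx hunr art hart I hI hIm
  have : IsGalois F C := IsCyclotomicExtension.isGalois {m} F C
  obtain ⟨x, hx⟩ := hI.principal
  have hx' : (I : Ideal (𝓞 F)) = Ideal.span {x} := hx
  have hx0 : x ≠ 0 := by
    rintro rfl
    have hI0 : (I : Ideal (𝓞 F)) ≠ 0 := nonZeroDivisors.coe_ne_zero I
    apply hI0
    rw [hx', Ideal.zero_eq_bot, Ideal.span_singleton_eq_bot]
  have key := CycloFrob.principal_dies (C := C) (m := m) art
    (fun v hv hv0 _ P hP hPv => hart.frob ⟨v, mem_nonZeroDivisors_of_ne_zero hv0⟩ P hv hP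
      ⟨hPv.symm⟩)
    (fun P hP hP0 _ σ hσ => hunr P hP hP0 σ hσ)
    (fun x hxm => h1 F L m hm hunr x hxm)
    (fun y hy => h2 F L hunr art hart (Ideal.span {y}) _ (by
        rw [Ne, Ideal.span_singleton_eq_bot]; exact hy)
      (by rw [Ideal.relNorm_singleton]))
    x hx0 (hx' ▸ hIm)
  have hI' : I = ⟨Ideal.span {x}, mem_nonZeroDivisors_of_ne_zero (by
      rw [Ne, Ideal.zero_eq_bot, Ideal.span_singleton_eq_bot]; exact hx0)⟩ := Subtype.ext hx'
  rw [hI']
  exact key

end Fermat.Agent.S14.CycloFrobBlock
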