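/-
S14 / piece C1.cycloFrob, final form (helper35).

`principalDiesCyclo : CrossingBlocks.BlockNormDie → CrossingBlocks.PrincipalDiesCyclo`:
the input `PrincipalDiesCyclo` of the crossing block (helper78's `CrossingBlocks.lean`) from the
single remaining input (D-norm), using helper15's local norm surjectivity (`NormSurjGlue`).
-/
import Fermat.Agent.S14.CrossingBlocks
import Fermat.Agent.S14.CycloFrobBlock
import Fermat.Agent.S14.NormSurjGlue

set_option autoImplicit false

namespace Fermat.Agent.S14.CycloFrobFinal

open NumberField nonZeroDivisors Fermat.Agent.S14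

/-- (C4) is proved: local norm surjectivity modulo `m` (helper15). -/
theorem normSurjMod : CycloFrobBlock.NormSurjMod := by
  intro F L _ _ _ _ _ _ m hm hunr x hx
  exact NormSurjGlue.exists_intNorm_sub_mem_span_natCast hunr hm x hx

/-- The two closed forms of (D-norm) agree. -/
theorem normsDie_of_blockNormDie (h : CrossingBlocks.BlockNormDie) : CycloFrobBlock.NormsDie := by
  intro F L _ _ _ _ _ _ hunr art hart J I _ hIJ
  exact h F L hunr art hart J I hIJ

/-- The two closed forms of (C1) agree. -/
theorem principalDiesCyclo_of_block (h : CycloFrobBlock.PrincipalDiesCyclo) :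
    CrossingBlocks.PrincipalDiesCyclo := by
  intro F L C _ _ _ _ _ _ _ _ _ _ _ hcx m hm hcyc hunr art hart I hI hIm
  exact h F L C m (Nat.pos_of_ne_zero (NeZero.ne m)) hcyc hcx hunr art hart I hI hIm

/-- **(C1)** the crossing input `PrincipalDiesCyclo` from (D-norm) alone. -/
theorem principalDiesCyclo (h : CrossingBlocks.BlockNormDie) :
    CrossingBlocks.PrincipalDiesCyclo :=
  principalDiesCyclo_of_block
    (CycloFrobBlock.principalDiesCyclo normSurjMod (normsDie_of_blockNormDie h))

end Fermat.Agent.S14.CycloFrobFinal
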