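/-
S14 / piece C1.cycloFrob, closed (helper35).

`blockNormDie : CrossingBlocks.BlockNormDie` (from helper55's `IsArtinMap.relNorm_eq_one`) and the
UNCONDITIONAL `principalDiesCyclo : CrossingBlocks.PrincipalDiesCyclo`.
-/
import Fermat.Agent.S14.CycloFrobFinal
import Fermat.Agent.S14.ArtinMapNorm

set_option autoImplicit false

namespace Fermat.Agent.S14.CycloFrobClosed

open NumberField nonZeroDivisors Fermat.Agent.S14

/-- **(D-norm)** in the closed form of `CrossingBlocks.lean`. -/
theorem blockNormDie : CrossingBlocks.BlockNormDie := by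
  intro K L _ _ _ _ _ _ hunr art hart J I hI
  have hJ : J ≠ ⊥ := by
    rintro rfl
    have hI0 : (I : Ideal (𝓞 K)) ≠ 0 := nonZeroDivisors.coe_ne_zero I
    apply hI0
    rw [hI, ← Ideal.zero_eq_bot, map_zero]
  exact hart.relNorm_eq_one hunr J hJ I hI

/-- **(C1)**, unconditional: principal ideals prime to `m` have trivial Artin symbol in every
unramified Galois extension `L/F` (`F` totally complex) contained in `C = F(ζ_m)`. -/
theorem principalDiesCyclo : CrossingBlocks.PrincipalDiesCyclo :=
  CycloFrobFinal.principalDiesCyclo blockNormDie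

end Fermat.Agent.S14.CycloFrobClosed
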