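import Mathlib

/-!
# S14, block (B1): factorisation of the Jacobi sum of a degree-one prime of `ℤ[ζ_p]`

For an odd prime `p`, `K = ℚ(ζ_p)` and a prime `Q` of `𝓞 K` of degree one over a rational prime
`q ≠ p`, the ideal `∏_{u > p/2} σ_u⁻¹ • Q` is principal (generated by a Jacobi sum).
This is the only consequence of Stickelberger's theorem needed for S14.
-/

set_option autoImplicit false

open NumberField Pointwise IsCyclotomicExtension IsCyclotomicExtension.Rat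

namespace Fermat.Agent.S14.JacobiFactor

section powersum

variable {F : Type*} [Field F] [Fintype F]

/-- `∑_x x^m (1-x)^m = 0` in a finite field `F` as soon as `2m < #F - 1`. -/
lemma sum_pow_mul_one_sub_pow (m : ℕ) (hm : 2 * m < Fintype.card F - 1) :
    ∑ x : F, x ^ m * (1 - x) ^ m = 0 := by
  have h1 : ∀ x : F, x ^ m * (1 - x) ^ m =
      ∑ j ∈ Finset.range (m + 1), ((-1) ^ j * (m.choose j : F)) * x ^ (m + j) := by
    intro x
    have : (1 - x) ^ m = (-x + 1) ^ m := by ring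
    rw [this, add_pow, Finset.mul_sum]
    refine Finset.sum_congr rfl fun j _ => ?_
    rw [one_pow, neg_pow, pow_add]
    ring
  simp_rw [h1]
  rw [Finset.sum_comm]
  refine Finset.sum_eq_zero fun j hj => ?_
  rw [← Finset.mul_sum]
  have hj' : j ≤ m := Nat.lt_succ_iff.mp (Finset.mem_range.mp hj)
  rw [FiniteField.sum_pow_lt_card_sub_one F (m + j) (by omega), mul_zero]

end powersum

section character

variable {R : Type*} [CommRing R] {p : ℕ} [hp : Fact p.Prime]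

/-- The `p`-th power residue character modulo a maximal ideal `Q` with finite residue field,
with values in the `p`-th roots of unity of `R`. -/
lemma exists_char (Q : Ideal R) [Q.IsMaximal] [Fintype (R ⧸ Q)] [DecidableEq (R ⧸ Q)] {ζ : R}
    (hζ : IsPrimitiveRoot ζ p) (hζQ : ζ - 1 ∉ Q) :
    ∃ (n₀ : ℕ) (χ : MulChar (R ⧸ Q) R), 0 < n₀ ∧ n₀ * p = Fintype.card (R ⧸ Q) - 1 ∧
      χ ^ p = 1 ∧ χ ≠ 1 ∧ (∀ x : (R ⧸ Q)ˣ, ∃ i : ℕ, χ x = ζ ^ i) ∧
      ∀ x : R ⧸ Q, Ideal.Quotient.mk Q (χ x) = x ^ n₀ := by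
  classical
  let _ : Field (R ⧸ Q) := Ideal.Quotient.field Q
  have hp0 : p ≠ 0 := hp.out.ne_zero
  set ζb : R ⧸ Q := Ideal.Quotient.mk Q ζ with hζb
  have h1 : ζb ^ p = 1 := by rw [hζb, ← map_pow, hζ.pow_eq_one, map_one]
  have h2 : ζb ≠ 1 := by
    intro h
    apply hζQ
    rw [← Ideal.Quotient.eq_zero_iff_mem, map_sub, map_one, ← hζb, h, sub_self]
  have hord : orderOf ζb = p := orderOf_eq_prime h1 h2
  have hprim : IsPrimitiveRoot ζb p := hord ▸ IsPrimitiveRoot.orderOf ζb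
  obtain ⟨g, hg⟩ := IsCyclic.exists_generator (α := (R ⧸ Q)ˣ)
  have hcard : Fintype.card (R ⧸ Q)ˣ = Fintype.card (R ⧸ Q) - 1 := Fintype.card_units _
  -- `p ∣ #Fˣ`
  have hζbu : IsUnit ζb := IsUnit.of_pow_eq_one h1 hp0
  have hdvd : p ∣ Fintype.card (R ⧸ Q)ˣ := by
    have : orderOf hζbu.unit = p := by
      rw [← hord, ← orderOf_units, IsUnit.unit_spec]
    rw [← this]
    exact orderOf_dvd_card
  obtain ⟨n₀, hn₀⟩ := hdvd
  have hn₀pos : 0 < n₀ := by
    rcases Nat.eq_zero_or_pos n₀ with h | h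
    · rw [h, mul_zero] at hn₀
      exact absurd hn₀ Fintype.card_ne_zero
    · exact h
  have hgord : orderOf g = Fintype.card (R ⧸ Q)ˣ := by
    rw [orderOf_eq_card_of_forall_mem_zpowers hg, Nat.card_eq_fintype_card]
  -- the element `η = g ^ n₀` of order `p`
  have hη : ((g ^ n₀ : (R ⧸ Q)ˣ) : R ⧸ Q) ^ p = 1 := by
    rw [← Units.val_pow_eq_pow_val, ← pow_mul, mul_comm, ← hn₀, ← hgord, pow_orderOf_eq_one,
      Units.val_one]
  obtain ⟨i, _, hi⟩ := hprim.eq_pow_of_pow_eq_one hη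
  -- the root of unity `ζ' = ζ ^ i` of `R`
  set ζu : Rˣ := (hζ.isUnit hp0).unit ^ i with hζu
  have hζuval : (ζu : R) = ζ ^ i := by rw [hζu, Units.val_pow_eq_pow_val, IsUnit.unit_spec]
  have hmem : ζu ∈ rootsOfUnity (Fintype.card (R ⧸ Q)ˣ) R := by
    rw [mem_rootsOfUnity, Units.ext_iff, Units.val_pow_eq_pow_val, hζuval, Units.val_one, hn₀,
      ← pow_mul, mul_comm i, mul_assoc, pow_mul, hζ.pow_eq_one, one_pow]
  refine ⟨n₀, MulChar.ofRootOfUnity hmem hg, hn₀pos, by rw [mul_comm, ← hn₀, hcard], ?_, ?_, ?_, ?_⟩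
  · -- `χ ^ p = 1`
    rw [MulChar.eq_iff hg, MulChar.pow_apply_coe, MulChar.ofRootOfUnity_spec, MulChar.one_apply_coe,
      hζuval, ← pow_mul, mul_comm, pow_mul, hζ.pow_eq_one, one_pow]
  · -- `χ ≠ 1`
    intro h
    have h3 : (ζu : R) = 1 := by
      rw [← MulChar.ofRootOfUnity_spec hmem hg, h, MulChar.one_apply_coe]
    have h4 : ((g ^ n₀ : (R ⧸ Q)ˣ) : R ⧸ Q) = 1 := by
      rw [← hi, hζb, ← map_pow, ← hζuval, h3, map_one]
    have h5 : g ^ n₀ = 1 := Units.ext (by rw [h4, Units.val_one])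
    have h6 : orderOf g ∣ n₀ := orderOf_dvd_of_pow_eq_one h5
    rw [hgord, hn₀] at h6
    have h7 : p * n₀ ≤ n₀ := Nat.le_of_dvd hn₀pos h6
    have h8 : 2 ≤ p := hp.out.two_le
    nlinarith
  · -- values
    intro x
    obtain ⟨j, hj⟩ := (mem_powers_iff_mem_zpowers).mpr (hg x)
    refine ⟨i * j, ?_⟩
    rw [← hj, Units.val_pow_eq_pow_val, map_pow, MulChar.ofRootOfUnity_spec, hζuval, pow_mul]
  · -- compatibility with the reduction
    intro x
    by_cases hx : IsUnit x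
    · obtain ⟨j, hj⟩ := (mem_powers_iff_mem_zpowers).mpr (hg hx.unit)
      have hj' : g ^ j = hx.unit := hj
      have hxg : x = ((g ^ j : (R ⧸ Q)ˣ) : R ⧸ Q) := by rw [hj', IsUnit.unit_spec]
      rw [hxg, Units.val_pow_eq_pow_val, map_pow, MulChar.ofRootOfUnity_spec, hζuval, map_pow,
        map_pow, ← hζb, hi, Units.val_pow_eq_pow_val, ← pow_mul, ← pow_mul, mul_comm]
    · rw [MulChar.map_nonunit _ hx, map_zero]
      have : x = 0 := by
        by_contra h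
        exact hx (isUnit_iff_ne_zero.mpr h)
      rw [this, zero_pow hn₀pos.ne']

end character

section main

variable {p : ℕ} [hp : Fact p.Prime] {K : Type*} [Field K] [NumberField K]
  [hK : IsCyclotomicExtension {p} ℚ K]

variable (p K) in
/-- The primitive `p`-th root of unity `ζ` of `𝓞 K`. -/
noncomputable def zetaO : 𝓞 K := (zeta_spec p ℚ K).toInteger

lemma zetaO_isPrimitiveRoot : IsPrimitiveRoot (zetaO p K) p :=
  (zeta_spec p ℚ K).toInteger_isPrimitiveRoot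

lemma zetaO_sub_one_dvd : zetaO p K - 1 ∣ (p : 𝓞 K) :=
  (zeta_spec p ℚ K).toInteger_sub_one_dvd_prime'

lemma smul_zetaO (σ : Gal(K/ℚ)) :
    σ • zetaO p K = zetaO p K ^ (galEquivZMod p K σ).val.val :=
  galEquivZMod_smul_of_pow_eq p K σ zetaO_isPrimitiveRoot.pow_eq_one

variable {Q : Ideal (𝓞 K)} [hQp : Q.IsPrime] {q : ℕ}

omit hQp in
lemma natCast_mem (hQ : Ideal.absNorm Q = q) : (q : 𝓞 K) ∈ Q := hQ ▸ Ideal.absNorm_mem Q

lemma zetaO_sub_one_notMem (hq : q.Prime) (hqp : q ≠ p) (hQ : Ideal.absNorm Q = q) :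
    zetaO p K - 1 ∉ Q := by
  intro h
  have h1 : (p : 𝓞 K) ∈ Q := Ideal.mem_of_dvd Q zetaO_sub_one_dvd h
  have h2 : (q : 𝓞 K) ∈ Q := natCast_mem hQ
  have hcop : Nat.Coprime p q := (Nat.coprime_primes hp.out hq).mpr (Ne.symm hqp)
  obtain ⟨a, b, hab⟩ := (Nat.isCoprime_iff_coprime.mpr hcop : IsCoprime (p : ℤ) (q : ℤ))
  have h3 : (1 : 𝓞 K) = (a : 𝓞 K) * p + (b : 𝓞 K) * q := by
    have := congrArg (Int.cast : ℤ → 𝓞 K) hab
    push_cast at this
    exact this.symm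
  have h4 : (1 : 𝓞 K) ∈ Q := by
    rw [h3]
    exact Q.add_mem (Q.mul_mem_left _ h1) (Q.mul_mem_left _ h2)
  exact hQp.ne_top ((Ideal.eq_top_iff_one Q).mpr h4)

section jacobi

variable [hQm : Q.IsMaximal] [Fintype (𝓞 K ⧸ Q)] [DecidableEq (𝓞 K ⧸ Q)]
  {χ : MulChar (𝓞 K ⧸ Q) (𝓞 K)} {n₀ : ℕ}

omit hp [NumberField K] hK hQp [DecidableEq (𝓞 K ⧸ Q)] in
/-- Lemma B: `J(χ^k, χ^k) ∈ Q` for `0 < k < p/2`. -/
lemma jacobiSum_pow_mem (hn₀ : n₀ * p = Fintype.card (𝓞 K ⧸ Q) - 1) (hn₀pos : 0 < n₀)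
    (hmk : ∀ x : 𝓞 K ⧸ Q, Ideal.Quotient.mk Q (χ x) = x ^ n₀) {k : ℕ} (hk : 0 < k)
    (hk2 : 2 * k < p) : jacobiSum (χ ^ k) (χ ^ k) ∈ Q := by
  rw [← Ideal.Quotient.eq_zero_iff_mem, jacobiSum, map_sum]
  have h1 : ∀ x : 𝓞 K ⧸ Q, Ideal.Quotient.mk Q ((χ ^ k) x * (χ ^ k) (1 - x)) =
      x ^ (n₀ * k) * (1 - x) ^ (n₀ * k) := by
    intro x
    rw [map_mul, MulChar.pow_apply' χ hk.ne', MulChar.pow_apply' χ hk.ne', map_pow, map_pow,
      hmk, hmk, ← pow_mul, ← pow_mul]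
  simp_rw [h1]
  let _ : Field (𝓞 K ⧸ Q) := Ideal.Quotient.field Q
  refine sum_pow_mul_one_sub_pow (n₀ * k) ?_
  rw [← hn₀]
  nlinarith

omit hQp hQm [DecidableEq (𝓞 K ⧸ Q)] in
/-- Lemma C: the Galois action on Jacobi sums of characters with values in `⟨ζ⟩`. -/
lemma smul_jacobiSum {ψ : MulChar (𝓞 K ⧸ Q) (𝓞 K)}
    (hψ : ∀ x : (𝓞 K ⧸ Q)ˣ, ∃ i : ℕ, ψ x = zetaO p K ^ i) (σ : Gal(K/ℚ)) :
    σ • jacobiSum ψ ψ =
      jacobiSum (ψ ^ (galEquivZMod p K σ).val.val) (ψ ^ (galEquivZMod p K σ).val.val) := by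
  have key : ψ.ringHomComp (MulSemiringAction.toRingHom Gal(K/ℚ) (𝓞 K) σ) =
      ψ ^ (galEquivZMod p K σ).val.val := by
    ext1 x
    obtain ⟨i, hi⟩ := hψ x
    rw [MulChar.ringHomComp_apply, MulChar.pow_apply_coe, hi,
      MulSemiringAction.toRingHom_apply, smul_pow', smul_zetaO, ← pow_mul, ← pow_mul, mul_comm]
  rw [← key, jacobiSum_ringHomComp, MulSemiringAction.toRingHom_apply]

omit hK hQp [DecidableEq (𝓞 K ⧸ Q)] in
/-- Lemma D: `J(χ,χ) * J(χ⁻¹,χ⁻¹) = #(𝓞 K ⧸ Q)`. -/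
lemma jacobiSum_mul_jacobiSum_inv_eq (hp2 : p ≠ 2) (hχp : χ ^ p = 1) (hχ1 : χ ≠ 1) :
    jacobiSum χ χ * jacobiSum χ⁻¹ χ⁻¹ = (Fintype.card (𝓞 K ⧸ Q) : 𝓞 K) := by
  have hinj : Function.Injective (algebraMap (𝓞 K) K) := FaithfulSMul.algebraMap_injective (𝓞 K) K
  apply hinj
  rw [map_mul, ← jacobiSum_ringHomComp, ← jacobiSum_ringHomComp, ← MulChar.ringHomComp_inv,
    map_natCast]
  let _ : Field (𝓞 K ⧸ Q) := Ideal.Quotient.field Q
  refine jacobiSum_mul_jacobiSum_inv ?_ ((MulChar.ringHomComp_ne_one_iff hinj).mpr hχ1)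
    ((MulChar.ringHomComp_ne_one_iff hinj).mpr hχ1) ?_
  · rw [ringChar.eq_zero]
    exact (CharP.char_ne_zero_of_finite (𝓞 K ⧸ Q) (ringChar (𝓞 K ⧸ Q))).symm
  · rw [← MulChar.ringHomComp_mul, MulChar.ringHomComp_ne_one_iff hinj]
    intro h
    apply hχ1
    have h2 : orderOf χ ∣ 2 := orderOf_dvd_of_pow_eq_one (by rw [pow_two, h])
    have h3 : orderOf χ ∣ p := orderOf_dvd_of_pow_eq_one hχp
    have h4 : Nat.Coprime 2 p := (Nat.coprime_primes Nat.prime_two hp.out).mpr (Ne.symm hp2)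
    have h5 : orderOf χ ∣ 1 := h4 ▸ Nat.dvd_gcd h2 h3
    exact orderOf_eq_one_iff.mp (Nat.dvd_one.mp h5)

end jacobi

section stabilizer

omit hQp in
/-- Lemma E: the stabiliser of a degree-one prime `Q ∤ p` is trivial. -/
lemma eq_one_of_smul_eq (hq : q.Prime) (hcard : Nat.card (𝓞 K ⧸ Q) = q)
    (hζQ : zetaO p K - 1 ∉ Q) {ρ : Gal(K/ℚ)} (h : ρ • Q = Q) : ρ = 1 := by
  classical
  have : Finite (𝓞 K ⧸ Q) := Nat.finite_of_card_ne_zero (hcard ▸ hq.ne_zero)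
  let _ : Fintype (𝓞 K ⧸ Q) := Fintype.ofFinite _
  have hcard' : Fintype.card (𝓞 K ⧸ Q) = q := by rw [← Nat.card_eq_fintype_card, hcard]
  have : NeZero q := ⟨hq.ne_zero⟩
  -- every `x` is congruent to a natural number mod `Q`
  have hnat : ∀ x : 𝓞 K, ∃ n : ℕ, x - n ∈ Q := by
    intro x
    let e := ZMod.ringEquivOfPrime (𝓞 K ⧸ Q) hq hcard'
    obtain ⟨z, hz⟩ := e.surjective (Ideal.Quotient.mk Q x)
    refine ⟨z.val, ?_⟩
    rw [← Ideal.Quotient.eq_zero_iff_mem, map_sub, map_natCast, ← hz, sub_eq_zero]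
    conv_lhs => rw [← ZMod.natCast_zmod_val z]
    rw [map_natCast]
  have hfix : ∀ x : 𝓞 K, ρ • x - x ∈ Q := by
    intro x
    obtain ⟨n, hn⟩ := hnat x
    have h1 : ρ • (x - n) ∈ ρ • Q := Ideal.smul_mem_pointwise_smul_iff.mpr hn
    rw [h] at h1
    have h2 : ρ • (x - (n : 𝓞 K)) = ρ • x - n := by
      rw [smul_sub, ← MulSemiringAction.toRingHom_apply (M := Gal(K/ℚ)) (R := 𝓞 K) ρ (n : 𝓞 K),
        map_natCast]
    rw [h2] at h1
    have h3 := Q.sub_mem h1 hn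
    have h4 : ρ • x - ↑n - (x - ↑n) = ρ • x - x := by ring
    rwa [h4] at h3
  have hz := hfix (zetaO p K)
  rw [smul_zetaO] at hz
  set k := (galEquivZMod p K ρ).val.val with hk
  set z : 𝓞 K ⧸ Q := Ideal.Quotient.mk Q (zetaO p K) with hzdef
  have hz1 : z ^ k = z ^ 1 := by
    rw [pow_one, hzdef, ← map_pow, ← sub_eq_zero, ← map_sub, Ideal.Quotient.eq_zero_iff_mem]
    exact hz
  have hzp : z ^ p = 1 := by
    rw [hzdef, ← map_pow, zetaO_isPrimitiveRoot.pow_eq_one, map_one]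
  have hzne : z ≠ 1 := by
    intro h'
    apply hζQ
    rw [← Ideal.Quotient.eq_zero_iff_mem, map_sub, map_one, ← hzdef, h', sub_self]
  have hord : orderOf z = p := orderOf_eq_prime hzp hzne
  have hfin : IsOfFinOrder z := isOfFinOrder_iff_pow_eq_one.mpr ⟨p, hp.out.pos, hzp⟩
  rw [hfin.pow_inj_mod, hord, Nat.mod_eq_of_lt (ZMod.val_lt _),
    Nat.mod_eq_of_lt hp.out.one_lt] at hz1
  have h5 : ((galEquivZMod p K ρ : (ZMod p)ˣ) : ZMod p) = 1 := by
    rw [← ZMod.natCast_zmod_val ((galEquivZMod p K ρ : (ZMod p)ˣ) : ZMod p), hz1,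
      Nat.cast_one]
  have h6 : galEquivZMod p K ρ = 1 := Units.ext h5
  exact (MulEquiv.map_eq_one_iff (galEquivZMod p K)).mp h6

end stabilizer

section assembly

omit hp hK hQp in
lemma absNorm_smul (σ : Gal(K/ℚ)) (I : Ideal (𝓞 K)) :
    Ideal.absNorm (σ • I) = Ideal.absNorm I := by
  rw [Ideal.absNorm_apply, Ideal.absNorm_apply, Submodule.cardQuot_apply, Submodule.cardQuot_apply]
  have e := Ideal.quotientEquiv I (σ • I) (MulSemiringAction.toRingEquiv Gal(K/ℚ) (𝓞 K) σ)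
    (by rw [Ideal.pointwise_smul_def]; rfl)
  exact (Nat.card_congr e.toEquiv).symm

lemma prod_dvd_of_injOn {ι M : Type*} [CommMonoidWithZero M] [IsCancelMulZero M]
    [Subsingleton Mˣ] (s : Finset ι) (f : ι → M) (hf : Set.InjOn f s)
    (hpr : ∀ i ∈ s, Prime (f i)) (n : M) (hd : ∀ i ∈ s, f i ∣ n) : ∏ i ∈ s, f i ∣ n := by
  classical
  have h := Finset.prod_image (s := s) (g := f) (f := fun x => x) hf
  rw [← h]
  refine Finset.prod_primes_dvd n ?_ ?_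
  · intro a ha
    obtain ⟨i, hi, rfl⟩ := Finset.mem_image.mp ha
    exact hpr i hi
  · intro a ha
    obtain ⟨i, hi, rfl⟩ := Finset.mem_image.mp ha
    exact hd i hi

/-- **Main theorem of block (B1)**, indexed by the Galois group. -/
theorem exists_prod_eq_span (hp2 : p ≠ 2) (hq : q.Prime) (hqp : q ≠ p)
    (hQ : Ideal.absNorm Q = q) :
    ∃ J' : 𝓞 K, ∏ σ ∈ (Finset.univ : Finset Gal(K/ℚ)) with p < 2 * (galEquivZMod p K σ).val.val,
      σ⁻¹ • Q = Ideal.span {J'} := by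
  classical
  have hQ0 : Q ≠ ⊥ := by
    rintro rfl
    rw [Ideal.absNorm_bot] at hQ
    exact hq.ne_zero hQ.symm
  have hQm : Q.IsMaximal := hQp.isMaximal hQ0
  have hcardN : Nat.card (𝓞 K ⧸ Q) = q := by
    rw [← hQ, Ideal.absNorm_apply, Submodule.cardQuot_apply]
  have : Finite (𝓞 K ⧸ Q) := Nat.finite_of_card_ne_zero (hcardN ▸ hq.ne_zero)
  let _ : Fintype (𝓞 K ⧸ Q) := Fintype.ofFinite _
  have hcard : Fintype.card (𝓞 K ⧸ Q) = q := by rw [← Nat.card_eq_fintype_card, hcardN]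
  have hζQ : zetaO p K - 1 ∉ Q := zetaO_sub_one_notMem hq hqp hQ
  obtain ⟨n₀, χ, hn₀pos, hn₀, hχp, hχ1, hχv, hmk⟩ := exists_char Q zetaO_isPrimitiveRoot hζQ
  have hJJ' : jacobiSum χ χ * jacobiSum χ⁻¹ χ⁻¹ = (q : 𝓞 K) := by
    rw [jacobiSum_mul_jacobiSum_inv_eq hp2 hχp hχ1, hcard]
  have hkpos : ∀ σ : Gal(K/ℚ), 0 < (galEquivZMod p K σ).val.val := fun σ =>
    ZMod.val_pos.mpr (Units.ne_zero _)
  have hklt : ∀ σ : Gal(K/ℚ), (galEquivZMod p K σ).val.val < p := fun σ => ZMod.val_lt _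
  have hmem1 : ∀ σ : Gal(K/ℚ), 2 * (galEquivZMod p K σ).val.val < p →
      jacobiSum χ χ ∈ σ⁻¹ • Q := by
    intro σ hσ
    rw [Ideal.mem_inv_pointwise_smul_iff, smul_jacobiSum hχv]
    exact jacobiSum_pow_mem hn₀ hn₀pos hmk (hkpos σ) hσ
  have hχinv : ∀ x : (𝓞 K ⧸ Q)ˣ, ∃ i : ℕ, χ⁻¹ x = zetaO p K ^ i := by
    intro x
    obtain ⟨i, hi⟩ := hχv x⁻¹
    exact ⟨i, by rw [MulChar.inv_apply, Ring.inverse_unit, hi]⟩
  have hmem2 : ∀ σ : Gal(K/ℚ), p < 2 * (galEquivZMod p K σ).val.val →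
      jacobiSum χ⁻¹ χ⁻¹ ∈ σ⁻¹ • Q := by
    intro σ hσ
    rw [Ideal.mem_inv_pointwise_smul_iff, smul_jacobiSum hχinv]
    have h1 : χ⁻¹ ^ (galEquivZMod p K σ).val.val = χ ^ (p - (galEquivZMod p K σ).val.val) := by
      rw [inv_pow]
      symm
      apply eq_inv_of_mul_eq_one_left
      rw [← pow_add, Nat.sub_add_cancel (hklt σ).le, hχp]
    rw [h1]
    have := hklt σ
    exact jacobiSum_pow_mem hn₀ hn₀pos hmk (by omega) (by omega)
  have hnorm : ∀ σ : Gal(K/ℚ), Ideal.absNorm (σ⁻¹ • Q) = q := fun σ => by rw [absNorm_smul, hQ]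
  have hprime : ∀ σ : Gal(K/ℚ), Prime (σ⁻¹ • Q) := by
    intro σ
    refine Ideal.prime_of_isPrime ?_ (Ideal.IsPrime.smul σ⁻¹)
    intro h0
    have := hnorm σ
    rw [h0, Ideal.absNorm_bot] at this
    exact hq.ne_zero this.symm
  have hinj : Function.Injective (fun σ : Gal(K/ℚ) => σ⁻¹ • Q) := by
    intro σ τ h
    have h' : (τ * σ⁻¹) • Q = Q := by
      rw [mul_smul]
      have : σ⁻¹ • Q = τ⁻¹ • Q := h
      rw [this, smul_inv_smul]
    have h1 := eq_one_of_smul_eq hq hcardN hζQ h'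
    exact (mul_inv_eq_one.mp h1).symm
  obtain ⟨A, hA⟩ := prod_dvd_of_injOn
    ((Finset.univ : Finset Gal(K/ℚ)).filter fun σ => 2 * (galEquivZMod p K σ).val.val < p)
    (fun σ => σ⁻¹ • Q) hinj.injOn (fun σ _ => hprime σ) (Ideal.span {jacobiSum χ χ})
    (fun σ hσ => Ideal.dvd_span_singleton.mpr (hmem1 σ (Finset.mem_filter.mp hσ).2))
  obtain ⟨B, hB⟩ := prod_dvd_of_injOn
    ((Finset.univ : Finset Gal(K/ℚ)).filter fun σ => p < 2 * (galEquivZMod p K σ).val.val)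
    (fun σ => σ⁻¹ • Q) hinj.injOn (fun σ _ => hprime σ) (Ideal.span {jacobiSum χ⁻¹ χ⁻¹})
    (fun σ hσ => Ideal.dvd_span_singleton.mpr (hmem2 σ (Finset.mem_filter.mp hσ).2))
  refine ⟨jacobiSum χ⁻¹ χ⁻¹, ?_⟩
  -- norms
  have hrank : Module.finrank ℤ (𝓞 K) = p - 1 := by
    rw [RingOfIntegers.rank, IsCyclotomicExtension.finrank K
      (Polynomial.cyclotomic.irreducible_rat hp.out.pos), Nat.totient_prime hp.out]
  have hcardG : Fintype.card Gal(K/ℚ) = p - 1 := by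
    rw [Fintype.card_congr (galEquivZMod p K).toEquiv, ZMod.card_units_eq_totient,
      Nat.totient_prime hp.out]
  have hS2 : ((Finset.univ : Finset Gal(K/ℚ)).filter fun σ => p < 2 * (galEquivZMod p K σ).val.val)
      = (Finset.univ : Finset Gal(K/ℚ)).filter
          fun σ => ¬ 2 * (galEquivZMod p K σ).val.val < p := by
    refine Finset.filter_congr fun σ _ => ?_
    have hne : 2 * (galEquivZMod p K σ).val.val ≠ p := by
      intro h
      have h2 : 2 ∣ p := ⟨_, h.symm⟩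
      exact hp2 ((Nat.prime_dvd_prime_iff_eq Nat.prime_two hp.out).mp h2).symm
    omega
  have hcount := Finset.card_filter_add_card_filter_not (s := (Finset.univ : Finset Gal(K/ℚ)))
    (fun σ => 2 * (galEquivZMod p K σ).val.val < p)
  rw [← hS2, Finset.card_univ, hcardG] at hcount
  have hprod : Ideal.span {(q : 𝓞 K)} = Ideal.span {jacobiSum χ χ} * Ideal.span {jacobiSum χ⁻¹ χ⁻¹} := by
    rw [Ideal.span_singleton_mul_span_singleton, hJJ']
  have hN := congrArg Ideal.absNorm hprod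
  rw [Ideal.absNorm_span_natCast, hrank, hA, hB, map_mul, map_mul, map_mul, map_prod, map_prod,
    Finset.prod_congr rfl (fun σ _ => hnorm σ), Finset.prod_congr rfl (fun σ _ => hnorm σ),
    Finset.prod_const, Finset.prod_const] at hN
  have hqpos : 0 < q := hq.pos
  have hpow := pow_add q _ _ ▸ congrArg (fun n => q ^ n) hcount
  have hAB : Ideal.absNorm A * Ideal.absNorm B = 1 := by
    refine Nat.eq_of_mul_eq_mul_left (pow_pos hqpos (p - 1)) ?_
    rw [mul_one]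
    conv_lhs => rw [← hpow]
    rw [hN]
    ring
  have hB1 : Ideal.absNorm B = 1 := Nat.eq_one_of_mul_eq_one_left hAB
  rw [hB, Ideal.absNorm_eq_one_iff.mp hB1, Ideal.mul_top]

end assembly

end main

section corollaries

variable {p : ℕ} [hp : Fact p.Prime] {K : Type*} [Field K] [NumberField K]
  [hK : IsCyclotomicExtension {p} ℚ K] {Q : Ideal (𝓞 K)} [hQp : Q.IsPrime] {q : ℕ}

/-- **Main theorem of block (B1)**, indexed by `(ZMod p)ˣ`: `σ_u` is the automorphism with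
`σ_u ζ = ζ ^ u`. -/
theorem exists_prod_units_eq_span (hp2 : p ≠ 2) (hq : q.Prime) (hqp : q ≠ p)
    (hQ : Ideal.absNorm Q = q) :
    ∃ J' : 𝓞 K, ∏ u ∈ (Finset.univ : Finset (ZMod p)ˣ) with p < 2 * u.val.val,
      ((galEquivZMod p K).symm u)⁻¹ • Q = Ideal.span {J'} := by
  classical
  obtain ⟨J', h⟩ := exists_prod_eq_span hp2 hq hqp hQ
  refine ⟨J', ?_⟩
  rw [← h]
  refine (Finset.prod_equiv (galEquivZMod p K).toEquiv ?_ ?_).symm
  · intro σ
    simp only [Finset.mem_filter, Finset.mem_univ, true_and, MulEquiv.toEquiv_eq_coe,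
      EquivLike.coe_coe]
  · intro σ _
    simp only [MulEquiv.toEquiv_eq_coe, EquivLike.coe_coe, MulEquiv.symm_apply_apply]

theorem isPrincipal_prod (hp2 : p ≠ 2) (hq : q.Prime) (hqp : q ≠ p) (hQ : Ideal.absNorm Q = q) :
    (∏ σ ∈ (Finset.univ : Finset Gal(K/ℚ)) with p < 2 * (galEquivZMod p K σ).val.val,
      σ⁻¹ • Q).IsPrincipal := by
  obtain ⟨J', h⟩ := exists_prod_eq_span hp2 hq hqp hQ
  rw [h]
  exact ⟨⟨J', rfl⟩⟩

theorem isPrincipal_prod_units (hp2 : p ≠ 2) (hq : q.Prime) (hqp : q ≠ p)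
    (hQ : Ideal.absNorm Q = q) :
    (∏ u ∈ (Finset.univ : Finset (ZMod p)ˣ) with p < 2 * u.val.val,
      ((galEquivZMod p K).symm u)⁻¹ • Q).IsPrincipal := by
  obtain ⟨J', h⟩ := exists_prod_units_eq_span hp2 hq hqp hQ
  rw [h]
  exact ⟨⟨J', rfl⟩⟩

end corollaries

section arithmetic

variable {p : ℕ} [hp : Fact p.Prime]

/-- The value of the relevant Stickelberger element under the mod `p` cyclotomic character is
`1/8`, a unit. -/
theorem sum_half_mul_eight (hp2 : p ≠ 2) :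
    (∑ u ∈ (Finset.univ : Finset (ZMod p)ˣ) with p < 2 * u.val.val, (u : ZMod p)) * 8 = 1 := by
  classical
  obtain ⟨m, hm⟩ : ∃ m, p = 2 * m + 1 := by
    rcases hp.out.eq_two_or_odd with h | h
    · exact absurd h hp2
    · exact ⟨p / 2, by omega⟩
  -- reindex by natural numbers
  have h1 : (∑ u ∈ (Finset.univ : Finset (ZMod p)ˣ) with p < 2 * u.val.val, (u : ZMod p)) =
      ∑ k ∈ Finset.Ico (m + 1) (2 * m + 1), (k : ZMod p) := by
    refine Finset.sum_bij (fun u _ => u.val.val) ?_ ?_ ?_ ?_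
    · intro u hu
      have h2 := (Finset.mem_filter.mp hu).2
      have h3 : u.val.val < p := ZMod.val_lt _
      rw [Finset.mem_Ico]
      omega
    · intro u _ v _ h
      exact Units.ext (ZMod.val_injective p h)
    · intro k hk
      rw [Finset.mem_Ico] at hk
      have hkp : k < p := by omega
      have hcop : Nat.Coprime k p := by
        rw [Nat.coprime_comm, Nat.Prime.coprime_iff_not_dvd hp.out]
        intro hdvd
        have := Nat.le_of_dvd (by omega) hdvd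
        omega
      refine ⟨ZMod.unitOfCoprime k hcop, ?_, ?_⟩
      · rw [Finset.mem_filter]
        refine ⟨Finset.mem_univ _, ?_⟩
        rw [ZMod.coe_unitOfCoprime, ZMod.val_cast_of_lt hkp]
        omega
      · rw [ZMod.coe_unitOfCoprime, ZMod.val_cast_of_lt hkp]
    · intro u _
      exact (ZMod.natCast_zmod_val _).symm
  rw [h1, ← Nat.cast_sum]
  have h2 : (∑ k ∈ Finset.range (m + 1), k) + ∑ k ∈ Finset.Ico (m + 1) (2 * m + 1), k =
      ∑ k ∈ Finset.range (2 * m + 1), k :=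
    Finset.sum_range_add_sum_Ico _ (by omega)
  have h3 := Finset.sum_range_id_mul_two (m + 1)
  have h4 := Finset.sum_range_id_mul_two (2 * m + 1)
  rw [Nat.add_sub_cancel] at h3 h4
  have h5 : (∑ k ∈ Finset.Ico (m + 1) (2 * m + 1), k) * 2 + (m + 1) * m = (2 * m + 1) * (2 * m) := by
    rw [← h3, ← h4, ← h2]
    ring
  have h6 := congrArg (Nat.cast : ℕ → ZMod p) h5
  have h7 : ((2 * m + 1 : ℕ) : ZMod p) = 0 := by rw [← hm]; exact ZMod.natCast_self p
  push_cast at h6 h7 ⊢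
  linear_combination 4 * h6 + (6 * (m : ZMod p) - 1) * h7

end arithmetic

end Fermat.Agent.S14.JacobiFactor
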