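import Mathlib
import Fermat.Agent.S14.JacobiFactor

/-!
# S14, block (F): the endgame

`p` an odd prime, `K = ℚ(ζ_p)`, `G` a group of exponent `p` (in the application
`G = Gal(M/K)` for an unramified cyclic degree `p` extension `M/K` on which `Gal(K/ℚ)` acts by
`ω⁻¹`).  Let `art` be a multiplicative map from the nonzero ideals of `𝓞 K` to `G` which

* kills principal ideals, and
* is `ω⁻¹`-equivariant: `art (σ • I) = art I ^ n` whenever `n * ω(σ) = 1` in `ZMod p`.

Then `art` is trivial (`art_eq_one`, `monoidHom_eq_one`), hence not onto a nontrivial group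
(`not_surjective`).  The proof is on primes `Q`:

* `Q ∣ p`: `Q = (ζ - 1)` is principal;
* `Q` of degree one over `q ≠ p`: the Jacobi sum factorisation
  `∏_{u > p/2} σ_u⁻¹ • Q` is principal (`JacobiFactor.isPrincipal_prod_units`) and the sum of
  the exponents is `1/8 mod p`, a unit (`JacobiFactor.sum_half_mul_eight`);
* `Q` of degree `> 1`: a nontrivial `σ` fixes `Q`, and `ω⁻¹(σ) ≠ 1`.
-/

set_option autoImplicit false

open NumberField Pointwise IsCyclotomicExtension IsCyclotomicExtension.Rat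
open scoped nonZeroDivisors

namespace Fermat.Agent.S14.Endgame

open Fermat.Agent.S14.JacobiFactor

section group

variable {G : Type*} [Group G]

lemma eq_one_of_pow_eq_one_of_coprime {g : G} {a b : ℕ} (ha : g ^ a = 1) (hb : g ^ b = 1)
    (h : Nat.Coprime a b) : g = 1 := by
  have h1 := orderOf_dvd_of_pow_eq_one ha
  have h2 := orderOf_dvd_of_pow_eq_one hb
  have h3 := Nat.dvd_gcd h1 h2
  rw [h] at h3
  exact orderOf_eq_one_iff.mp (Nat.dvd_one.mp h3)

end group

section primes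

variable {p : ℕ} [hp : Fact p.Prime] {K : Type*} [Field K] [NumberField K]
  [hK : IsCyclotomicExtension {p} ℚ K]

/-- A prime of `𝓞 K` containing `p` is `(ζ - 1)`. -/
lemma eq_span_of_natCast_mem {Q : Ideal (𝓞 K)} [hQ : Q.IsPrime] (h : (p : 𝓞 K) ∈ Q) :
    Q = Ideal.span {zetaO p K - 1} := by
  have hle : Ideal.span {(p : ℤ)} ≤ Q.under ℤ := by
    rw [Ideal.span_singleton_le_iff_mem, Ideal.under_def, Ideal.mem_comap]
    simpa using h
  have hmax : (Ideal.span {(p : ℤ)}).IsMaximal := Int.ideal_span_isMaximal_of_prime p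
  have hne : Q.under ℤ ≠ ⊤ := (inferInstance : (Q.under ℤ).IsPrime).ne_top
  have heq : Ideal.span {(p : ℤ)} = Q.under ℤ := hmax.eq_of_le hne hle
  have : Q.LiesOver (Ideal.span {(p : ℤ)}) := ⟨heq⟩
  exact eq_span_zeta_sub_one_of_liesOver' p K (zeta_spec p ℚ K) Q

include hK in
omit hp in
/-- A prime of `𝓞 K` of residue degree `> 1` is fixed by a nontrivial element of `Gal(K/ℚ)`. -/
lemma exists_ne_one_smul_eq {Q : Ideal (𝓞 K)} [hQ : Q.IsPrime] {q : ℕ} (hq : q.Prime)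
    (hqQ : (q : 𝓞 K) ∈ Q) (hne : Ideal.absNorm Q ≠ q) :
    ∃ σ : Gal(K/ℚ), σ ≠ 1 ∧ σ • Q = Q := by
  have : IsGalois ℚ K := IsCyclotomicExtension.isGalois {p} ℚ K
  have hle : Ideal.span {(q : ℤ)} ≤ Q.under ℤ := by
    rw [Ideal.span_singleton_le_iff_mem, Ideal.under_def, Ideal.mem_comap]
    simpa using hqQ
  have : Fact q.Prime := ⟨hq⟩
  have hmax : (Ideal.span {(q : ℤ)}).IsMaximal := Int.ideal_span_isMaximal_of_prime q
  have hne' : Q.under ℤ ≠ ⊤ := (inferInstance : (Q.under ℤ).IsPrime).ne_top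
  have heq : Ideal.span {(q : ℤ)} = Q.under ℤ := hmax.eq_of_le hne' hle
  have hlo : Q.LiesOver (Ideal.span {(q : ℤ)}) := ⟨heq⟩
  have hprime : (Ideal.span {(q : ℤ)}).IsPrime := hmax.isPrime
  have hcard := Ideal.card_stabilizer_eq_card_inertia_mul_finrank (G := Gal(K/ℚ))
    (Ideal.span {(q : ℤ)}) Q
  have hnorm := Ideal.absNorm_eq_pow_inertiaDeg' Q hq
  have hQ0 : Q ≠ ⊥ := by
    rintro rfl
    have h0 : (q : 𝓞 K) = 0 := by simpa using hqQ
    exact hq.ne_zero (by exact_mod_cast h0)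
  have hQm : Q.IsMaximal := hQ.isMaximal hQ0
  rw [Ideal.inertiaDeg'_eq_inertiaDeg (Ideal.span {(q : ℤ)}) Q] at hnorm
  have hf1 : Q.inertiaDeg ℤ ≠ 1 := by
    intro h1
    rw [h1, pow_one] at hnorm
    exact hne hnorm
  have hf0 : 0 < Q.inertiaDeg ℤ := Ideal.inertiaDeg_pos Q ℤ
  have hi : 0 < Nat.card (Ideal.inertia Gal(K/ℚ) Q) := Nat.card_pos
  have h2 : 1 < Nat.card (MulAction.stabilizer Gal(K/ℚ) Q) := by
    rw [hcard]
    calc 1 < Q.inertiaDeg ℤ := by omega
      _ = 1 * Q.inertiaDeg ℤ := (one_mul _).symm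
      _ ≤ _ := Nat.mul_le_mul_right _ hi
  have : Nontrivial (MulAction.stabilizer Gal(K/ℚ) Q) := Finite.one_lt_card_iff_nontrivial.mp h2
  obtain ⟨σ, hσ⟩ := exists_ne (1 : MulAction.stabilizer Gal(K/ℚ) Q)
  refine ⟨σ.1, ?_, σ.2⟩
  intro h
  exact hσ (Subtype.ext h)

end primes

section main

variable {p : ℕ} [hp : Fact p.Prime] {K : Type*} [Field K] [NumberField K]
  [hK : IsCyclotomicExtension {p} ℚ K] {G : Type*} [Group G]

/-- `art` of a product of Galois translates `σ_u⁻¹ • Q`. -/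
lemma art_prod_smul (art : Ideal (𝓞 K) → G)
    (hone : art 1 = 1)
    (hmul : ∀ I J : Ideal (𝓞 K), I ≠ ⊥ → J ≠ ⊥ → art (I * J) = art I * art J)
    (hequiv : ∀ (σ : Gal(K/ℚ)) (n : ℕ),
      (n : ZMod p) * ((galEquivZMod p K σ : (ZMod p)ˣ) : ZMod p) = 1 →
      ∀ I : Ideal (𝓞 K), I ≠ ⊥ → art (σ • I) = art I ^ n)
    {Q : Ideal (𝓞 K)} (hQ0 : Q ≠ ⊥) (s : Finset (ZMod p)ˣ) :
    (∏ u ∈ s, ((galEquivZMod p K).symm u)⁻¹ • Q) ≠ ⊥ ∧
    art (∏ u ∈ s, ((galEquivZMod p K).symm u)⁻¹ • Q) = art Q ^ (∑ u ∈ s, u.val.val) := by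
  classical
  induction s using Finset.induction_on with
  | empty => simpa using hone
  | insert a s ha ih =>
    have hne : ((galEquivZMod p K).symm a)⁻¹ • Q ≠ ⊥ := by
      intro h
      apply hQ0
      have := congrArg (fun I => ((galEquivZMod p K).symm a) • I) h
      simpa using this
    have h1 : art (((galEquivZMod p K).symm a)⁻¹ • Q) = art Q ^ a.val.val := by
      refine hequiv _ _ ?_ Q hQ0
      rw [map_inv, MulEquiv.apply_symm_apply, ZMod.natCast_zmod_val]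
      exact Units.mul_inv a
    rw [Finset.prod_insert ha, Finset.sum_insert ha]
    refine ⟨mul_ne_zero hne ih.1, ?_⟩
    rw [hmul _ _ hne ih.1, h1, ih.2, pow_add]

/-- **Endgame on primes.** An `ω⁻¹`-equivariant map on ideals of `ℤ[ζ_p]` into a group of
exponent `p` which kills principal ideals kills every nonzero prime. -/
theorem art_prime_eq_one (hp2 : p ≠ 2) (art : Ideal (𝓞 K) → G)
    (hmul : ∀ I J : Ideal (𝓞 K), I ≠ ⊥ → J ≠ ⊥ → art (I * J) = art I * art J)
    (hpow : ∀ g : G, g ^ p = 1)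
    (hprin : ∀ x : 𝓞 K, x ≠ 0 → art (Ideal.span {x}) = 1)
    (hequiv : ∀ (σ : Gal(K/ℚ)) (n : ℕ),
      (n : ZMod p) * ((galEquivZMod p K σ : (ZMod p)ˣ) : ZMod p) = 1 →
      ∀ I : Ideal (𝓞 K), I ≠ ⊥ → art (σ • I) = art I ^ n)
    {Q : Ideal (𝓞 K)} (hQ : Q.IsPrime) (hQ0 : Q ≠ ⊥) : art Q = 1 := by
  classical
  have hone : art 1 = 1 := by
    have := hprin 1 one_ne_zero
    rwa [Ideal.span_singleton_one, ← Ideal.one_eq_top] at this
  have : NeZero Q := ⟨hQ0⟩
  set q := Ideal.absNorm (Ideal.under ℤ Q) with hqdef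
  have hq : q.Prime := Nat.absNorm_under_prime Q
  have hqQ : (q : 𝓞 K) ∈ Q := Int.absNorm_under_mem Q
  by_cases hqp : q = p
  · -- the prime above `p`
    rw [hqp] at hqQ
    have hspan := eq_span_of_natCast_mem hqQ
    rw [hspan]
    refine hprin _ ?_
    intro h0
    have h1 : zetaO p K = 1 := sub_eq_zero.mp h0
    exact (zetaO_isPrimitiveRoot (p := p) (K := K)).ne_one hp.out.one_lt h1
  by_cases hN : Ideal.absNorm Q = q
  · -- degree one
    obtain ⟨hne, hart⟩ := art_prod_smul art hone hmul hequiv hQ0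
      ((Finset.univ : Finset (ZMod p)ˣ).filter fun u => p < 2 * u.val.val)
    have hprinc := isPrincipal_prod_units (p := p) (K := K) hp2 hq hqp hN
    obtain ⟨x, hx⟩ := hprinc.principal
    have hx' : (∏ u ∈ (Finset.univ : Finset (ZMod p)ˣ) with p < 2 * u.val.val,
        ((galEquivZMod p K).symm u)⁻¹ • Q) = Ideal.span {x} := hx
    have hx0 : x ≠ 0 := by
      rintro rfl
      apply hne
      rw [hx']
      simp
    rw [hx', hprin x hx0] at hart
    set S := ∑ u ∈ (Finset.univ : Finset (ZMod p)ˣ) with p < 2 * u.val.val, u.val.val with hS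
    have h8 := sum_half_mul_eight (p := p) hp2
    have hS8 : ((S * 8 : ℕ) : ZMod p) = 1 := by
      rw [← h8, hS]
      push_cast
      congr 1
      refine Finset.sum_congr rfl fun u _ => ?_
      exact ZMod.natCast_zmod_val _
    have hcop : Nat.Coprime p (S * 8) := by
      rw [Nat.Prime.coprime_iff_not_dvd hp.out]
      intro hd
      rw [← ZMod.natCast_eq_zero_iff] at hd
      rw [hd] at hS8
      exact zero_ne_one hS8
    refine eq_one_of_pow_eq_one_of_coprime (hpow _) ?_ hcop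
    rw [pow_mul, ← hart, one_pow]
  · -- degree `> 1`
    obtain ⟨σ, hσ1, hσQ⟩ := exists_ne_one_smul_eq (p := p) hq hqQ hN
    set u := galEquivZMod p K σ with hu
    have hu1 : u ≠ 1 := by
      intro h
      exact hσ1 ((MulEquiv.map_eq_one_iff (galEquivZMod p K)).mp h)
    set n := (u⁻¹).val.val with hn
    have hnu : (n : ZMod p) * (u : ZMod p) = 1 := by
      rw [hn, ZMod.natCast_zmod_val]
      exact Units.inv_mul u
    have h1 := hequiv σ n hnu Q hQ0
    rw [hσQ] at h1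
    have hn1 : (n : ZMod p) ≠ 1 := by
      intro h
      rw [h, one_mul] at hnu
      exact hu1 (Units.ext hnu)
    have hnpos : 0 < n := by
      rcases Nat.eq_zero_or_pos n with h0 | h0
      · rw [h0] at hnu
        simp at hnu
      · exact h0
    have h2 : art Q ^ (n - 1) = 1 := by
      have h3 : art Q ^ (n - 1) * art Q = art Q := by
        rw [← pow_succ, Nat.sub_add_cancel hnpos]
        exact h1.symm
      exact mul_eq_right.mp h3
    have hcop : Nat.Coprime p (n - 1) := by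
      rw [Nat.Prime.coprime_iff_not_dvd hp.out]
      intro hd
      rw [← ZMod.natCast_eq_zero_iff] at hd
      apply hn1
      have h4 : (n : ZMod p) = ((n - 1 : ℕ) : ZMod p) + 1 := by
        rw [← Nat.cast_succ, Nat.succ_eq_add_one, Nat.sub_add_cancel hnpos]
      rw [h4, hd, zero_add]
    exact eq_one_of_pow_eq_one_of_coprime (hpow _) h2 hcop

/-- **Endgame.** Such a map is trivial on all nonzero ideals. -/
theorem art_eq_one (hp2 : p ≠ 2) (art : Ideal (𝓞 K) → G)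
    (hmul : ∀ I J : Ideal (𝓞 K), I ≠ ⊥ → J ≠ ⊥ → art (I * J) = art I * art J)
    (hpow : ∀ g : G, g ^ p = 1)
    (hprin : ∀ x : 𝓞 K, x ≠ 0 → art (Ideal.span {x}) = 1)
    (hequiv : ∀ (σ : Gal(K/ℚ)) (n : ℕ),
      (n : ZMod p) * ((galEquivZMod p K σ : (ZMod p)ˣ) : ZMod p) = 1 →
      ∀ I : Ideal (𝓞 K), I ≠ ⊥ → art (σ • I) = art I ^ n)
    (I : Ideal (𝓞 K)) (hI : I ≠ ⊥) : art I = 1 := by
  have hone : art 1 = 1 := by
    have := hprin 1 one_ne_zero
    rwa [Ideal.span_singleton_one, ← Ideal.one_eq_top] at this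
  revert hI
  refine UniqueFactorizationMonoid.induction_on_prime (P := fun I => I ≠ ⊥ → art I = 1) I
    ?_ ?_ ?_
  · intro h
    exact absurd rfl h
  · intro J hJ _
    rw [Ideal.isUnit_iff] at hJ
    rw [hJ, ← Ideal.one_eq_top]
    exact hone
  · intro J Q hJ0 hQ ih _
    have hQ0 : Q ≠ ⊥ := hQ.ne_zero
    have hQp : Q.IsPrime := Ideal.isPrime_of_prime hQ
    have hJ0' : J ≠ ⊥ := hJ0
    rw [hmul Q J hQ0 hJ0', ih hJ0',
      art_prime_eq_one hp2 art hmul hpow hprin hequiv hQp hQ0, one_mul]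

/-- **Endgame, `MonoidHom` form** (the shape of the Artin map on nonzero ideals). -/
theorem monoidHom_eq_one (hp2 : p ≠ 2) (art : (Ideal (𝓞 K))⁰ →* G)
    (hpow : ∀ g : G, g ^ p = 1)
    (hprin : ∀ I : (Ideal (𝓞 K))⁰, (I : Ideal (𝓞 K)).IsPrincipal → art I = 1)
    (hequiv : ∀ (σ : Gal(K/ℚ)) (n : ℕ),
      (n : ZMod p) * ((galEquivZMod p K σ : (ZMod p)ˣ) : ZMod p) = 1 →
      ∀ I J : (Ideal (𝓞 K))⁰, (J : Ideal (𝓞 K)) = σ • (I : Ideal (𝓞 K)) → art J = art I ^ n)
    (I : (Ideal (𝓞 K))⁰) : art I = 1 := by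
  classical
  have hmem : ∀ {J : Ideal (𝓞 K)}, J ≠ ⊥ → J ∈ (Ideal (𝓞 K))⁰ := fun h =>
    mem_nonZeroDivisors_iff_ne_zero.mpr h
  let art' : Ideal (𝓞 K) → G := fun J => if h : J ≠ ⊥ then art ⟨J, hmem h⟩ else 1
  have hart' : ∀ (J : Ideal (𝓞 K)) (h : J ≠ ⊥), art' J = art ⟨J, hmem h⟩ := fun J h => dif_pos h
  have key := art_eq_one (p := p) (K := K) hp2 art' ?_ hpow ?_ ?_ I.1
    (mem_nonZeroDivisors_iff_ne_zero.mp I.2)
  · rw [hart' _ (mem_nonZeroDivisors_iff_ne_zero.mp I.2)] at key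
    exact key
  · intro I J hI hJ
    have hIJ : I * J ≠ ⊥ := mul_ne_zero hI hJ
    rw [hart' _ hIJ, hart' _ hI, hart' _ hJ, ← map_mul]
    rfl
  · intro x hx
    have h : Ideal.span {x} ≠ ⊥ := by
      rw [Ne, Ideal.span_singleton_eq_bot]
      exact hx
    rw [hart' _ h]
    exact hprin _ ⟨⟨x, rfl⟩⟩
  · intro σ n hn I hI
    have h : σ • I ≠ ⊥ := by
      intro h
      apply hI
      have := congrArg (fun J => σ⁻¹ • J) h
      simpa using this
    rw [hart' _ h, hart' _ hI]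
    exact hequiv σ n hn ⟨I, hmem hI⟩ ⟨σ • I, hmem h⟩ rfl

/-- In particular such a map is not onto a nontrivial group. -/
theorem not_surjective (hp2 : p ≠ 2) [Nontrivial G] (art : (Ideal (𝓞 K))⁰ →* G)
    (hpow : ∀ g : G, g ^ p = 1)
    (hprin : ∀ I : (Ideal (𝓞 K))⁰, (I : Ideal (𝓞 K)).IsPrincipal → art I = 1)
    (hequiv : ∀ (σ : Gal(K/ℚ)) (n : ℕ),
      (n : ZMod p) * ((galEquivZMod p K σ : (ZMod p)ˣ) : ZMod p) = 1 →
      ∀ I J : (Ideal (𝓞 K))⁰, (J : Ideal (𝓞 K)) = σ • (I : Ideal (𝓞 K)) → art J = art I ^ n) :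
    ¬ Function.Surjective art := by
  intro hsurj
  obtain ⟨g, hg⟩ := exists_ne (1 : G)
  obtain ⟨I, rfl⟩ := hsurj g
  exact hg (monoidHom_eq_one hp2 art hpow hprin hequiv I)

end main

end Fermat.Agent.S14.Endgame
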