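import Mathlib

/-!
# Euler products over the prime ideals of a Dedekind domain

For a Dedekind domain `R`, a complete normed field `F` and a monoid homomorphism
`f : (Ideal R)⁰ →* F` (a completely multiplicative function on the nonzero ideals) which is
norm-summable, the Euler product `∏ v, (1 - f v)⁻¹` over the height one primes converges to
`∑' I, f I`.
-/

namespace Fermat.Agent.S14.EulerIdeal

open IsDedekindDomain nonZeroDivisors Filter Topology

variable {R : Type*} [CommRing R] [IsDedekindDomain R]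

/-- A height one prime as a nonzero ideal. -/
noncomputable def pr (v : HeightOneSpectrum R) : (Ideal R)⁰ :=
  ⟨v.asIdeal, mem_nonZeroDivisors_iff_ne_zero.mpr v.ne_bot⟩

@[simp] lemma pr_coe (v : HeightOneSpectrum R) : ((pr v : (Ideal R)⁰) : Ideal R) = v.asIdeal := rfl

lemma pr_injective : Function.Injective (pr : HeightOneSpectrum R → (Ideal R)⁰) := by
  intro v w h
  have : v.asIdeal = w.asIdeal := congrArg Subtype.val h
  exact HeightOneSpectrum.ext this

/-- The nonzero ideals all of whose prime divisors lie in `S`. -/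
def smooth (S : Set (HeightOneSpectrum R)) : Set (Ideal R)⁰ :=
  {I | ∀ v : HeightOneSpectrum R, v.asIdeal ∣ (I : Ideal R) → v ∈ S}

omit [IsDedekindDomain R] in
lemma mem_smooth {S : Set (HeightOneSpectrum R)} {I : (Ideal R)⁰} :
    I ∈ smooth S ↔ ∀ v : HeightOneSpectrum R, v.asIdeal ∣ (I : Ideal R) → v ∈ S := Iff.rfl

omit [IsDedekindDomain R] in
lemma smooth_mono {S T : Set (HeightOneSpectrum R)} (h : S ⊆ T) : smooth S ⊆ smooth T :=
  fun _ hI v hv => h (hI v hv)

lemma one_mem_smooth (S : Set (HeightOneSpectrum R)) : (1 : (Ideal R)⁰) ∈ smooth S := by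
  intro v hv
  exfalso
  have h1 : ((1 : (Ideal R)⁰) : Ideal R) = ⊤ := by simp
  rw [h1, Ideal.dvd_iff_le] at hv
  exact v.isPrime.ne_top (top_le_iff.mp hv)

/-- A nonzero ideal different from `1` is divisible by some height one prime. -/
lemma exists_dvd_of_ne_one {I : (Ideal R)⁰} (hI : I ≠ 1) :
    ∃ v : HeightOneSpectrum R, v.asIdeal ∣ (I : Ideal R) := by
  have hI0 : (I : Ideal R) ≠ ⊥ := by
    have := mem_nonZeroDivisors_iff_ne_zero.mp I.2
    simpa using this
  have hItop : (I : Ideal R) ≠ ⊤ := by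
    intro h
    apply hI
    ext1
    simpa using h
  obtain ⟨M, hM, hIM⟩ := Ideal.exists_le_maximal _ hItop
  have hM0 : M ≠ ⊥ := by
    rintro rfl
    exact hI0 (le_bot_iff.mp hIM)
  exact ⟨⟨M, hM.isPrime, hM0⟩, Ideal.dvd_iff_le.mpr hIM⟩

lemma smooth_empty : smooth (∅ : Set (HeightOneSpectrum R)) = {1} := by
  ext I
  simp only [Set.mem_singleton_iff]
  constructor
  · intro hI
    by_contra h
    obtain ⟨v, hv⟩ := exists_dvd_of_ne_one h
    exact hI v hv
  · rintro rfl
    exact one_mem_smooth _

lemma pow_mul_mem_smooth {S : Set (HeightOneSpectrum R)} (v : HeightOneSpectrum R) (k : ℕ)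
    {J : (Ideal R)⁰} (hJ : J ∈ smooth S) : pr v ^ k * J ∈ smooth (insert v S) := by
  intro w hw
  have hw' : w.asIdeal ∣ v.asIdeal ^ k * (J : Ideal R) := by simpa using hw
  rcases w.prime.dvd_or_dvd hw' with h | h
  · have h2 := w.prime.dvd_of_dvd_pow h
    have h3 : w.asIdeal = v.asIdeal := by
      have hle : v.asIdeal ≤ w.asIdeal := Ideal.dvd_iff_le.mp h2
      exact ((v.isMaximal.eq_of_le w.isPrime.ne_top hle)).symm
    exact Set.mem_insert_iff.mpr (Or.inl (HeightOneSpectrum.ext h3))
  · exact Set.mem_insert_of_mem _ (hJ w h)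

/-- The bijection `ℕ × smooth S ≃ smooth (insert v S)` for `v ∉ S`. -/
noncomputable def powMul {S : Set (HeightOneSpectrum R)} (v : HeightOneSpectrum R) :
    ℕ × smooth S → smooth (insert v S) :=
  fun x => ⟨pr v ^ x.1 * x.2.1, pow_mul_mem_smooth v x.1 x.2.2⟩

lemma powMul_injective {S : Set (HeightOneSpectrum R)} {v : HeightOneSpectrum R} (hv : v ∉ S) :
    Function.Injective (powMul (S := S) v) := by
  -- key: `v ∤ J` for `J ∈ smooth S`
  have key : ∀ (k l : ℕ) (J J' : smooth S), k ≤ l →
      (pr v ^ k * J.1 : (Ideal R)⁰) = pr v ^ l * J'.1 → k = l ∧ J = J' := by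
    intro k l J J' hkl h
    obtain ⟨d, rfl⟩ := Nat.exists_eq_add_of_le hkl
    have h' : (J.1 : (Ideal R)⁰) = pr v ^ d * J'.1 := by
      rw [pow_add, mul_assoc] at h
      exact mul_left_cancel h
    rcases Nat.eq_zero_or_pos d with rfl | hd
    · simp only [pow_zero, one_mul] at h'
      exact ⟨rfl, Subtype.ext h'⟩
    · exfalso
      apply hv
      apply J.2 v
      rw [h']
      obtain ⟨e, rfl⟩ := Nat.exists_eq_succ_of_ne_zero hd.ne'
      simp only [Submonoid.coe_mul, SubmonoidClass.coe_pow, pr_coe]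
      exact ⟨v.asIdeal ^ e * (J'.1 : Ideal R), by rw [pow_succ]; ring⟩
  rintro ⟨k, J⟩ ⟨l, J'⟩ h
  have h0 : (pr v ^ k * J.1 : (Ideal R)⁰) = pr v ^ l * J'.1 := congrArg Subtype.val h
  rcases le_total k l with hkl | hkl
  · obtain ⟨h1, h2⟩ := key k l J J' hkl h0
    exact Prod.ext h1 h2
  · obtain ⟨h1, h2⟩ := key l k J' J hkl h0.symm
    exact Prod.ext h1.symm h2.symm

lemma powMul_surjective {S : Set (HeightOneSpectrum R)} {v : HeightOneSpectrum R} :
    Function.Surjective (powMul (S := S) v) := by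
  rintro ⟨I, hI⟩
  have hI0 : (I : Ideal R) ≠ 0 := mem_nonZeroDivisors_iff_ne_zero.mp I.2
  obtain ⟨n, J, hvJ, hIJ⟩ := WfDvdMonoid.max_power_factor hI0 v.irreducible
  have hJ0 : J ≠ 0 := by
    rintro rfl
    exact hI0 (by rw [hIJ, mul_zero])
  have hJS : (⟨J, mem_nonZeroDivisors_iff_ne_zero.mpr hJ0⟩ : (Ideal R)⁰) ∈ smooth S := by
    intro w hw
    have hw' : w.asIdeal ∣ (I : Ideal R) := by
      rw [hIJ]
      exact Dvd.dvd.mul_left hw _
    rcases Set.mem_insert_iff.mp (hI w hw') with rfl | h
    · exact absurd hw hvJ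
    · exact h
  refine ⟨⟨n, ⟨⟨J, mem_nonZeroDivisors_iff_ne_zero.mpr hJ0⟩, hJS⟩⟩, ?_⟩
  apply Subtype.ext
  apply Subtype.ext
  simp only [powMul, Submonoid.coe_mul, SubmonoidClass.coe_pow, pr_coe]
  exact hIJ.symm

/-- The bijection `ℕ × smooth S ≃ smooth (insert v S)` for `v ∉ S`. -/
noncomputable def powMulEquiv {S : Set (HeightOneSpectrum R)} {v : HeightOneSpectrum R}
    (hv : v ∉ S) : ℕ × smooth S ≃ smooth (insert v S) :=
  Equiv.ofBijective (powMul v) ⟨powMul_injective hv, powMul_surjective⟩

lemma powMulEquiv_apply {S : Set (HeightOneSpectrum R)} {v : HeightOneSpectrum R}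
    (hv : v ∉ S) (x : ℕ × smooth S) :
    ((powMulEquiv hv x : smooth (insert v S)) : (Ideal R)⁰) = pr v ^ x.1 * x.2.1 := rfl

section EulerProduct

variable {F : Type*} [NormedField F] [CompleteSpace F]

omit [CompleteSpace F] in
/-- If `f` is norm-summable then `‖f v‖ < 1` for every prime `v`. -/
lemma norm_lt_one_of_summable (f : (Ideal R)⁰ →* F) (hsum : Summable fun I => ‖f I‖)
    (v : HeightOneSpectrum R) : ‖f (pr v)‖ < 1 := by
  have hinj : Function.Injective (fun k : ℕ => pr v ^ k) := by
    intro k l h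
    have h' : v.asIdeal ^ k = v.asIdeal ^ l := by
      have := congrArg (Subtype.val) h
      simpa using this
    exact pow_injective_of_not_isUnit v.prime.not_isUnit v.ne_bot h'
  have h1 : Summable fun k : ℕ => ‖f (pr v)‖ ^ k := by
    have := hsum.comp_injective hinj
    simpa [Function.comp_def, map_pow, norm_pow] using this
  have := summable_geometric_iff_norm_lt_one.mp h1
  simpa using this

/-- The finite Euler product over `S` equals the sum over `S`-smooth ideals. -/
theorem summable_and_hasSum_smooth (f : (Ideal R)⁰ →* F) (hlt : ∀ v, ‖f (pr v)‖ < 1)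
    (S : Finset (HeightOneSpectrum R)) :
    Summable (fun I : smooth (S : Set (HeightOneSpectrum R)) => ‖f I‖) ∧
      HasSum (fun I : smooth (S : Set (HeightOneSpectrum R)) => f I)
        (∏ v ∈ S, (1 - f (pr v))⁻¹) := by
  classical
  induction S using Finset.induction with
  | empty =>
    rw [Finset.coe_empty, smooth_empty, Finset.prod_empty]
    constructor
    · exact Summable.of_finite
    · have h := hasSum_unique (fun I : ({1} : Set (Ideal R)⁰) => f I)
      have h2 : f ((default : ({1} : Set (Ideal R)⁰)) : (Ideal R)⁰) = 1 := by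
        have : ((default : ({1} : Set (Ideal R)⁰)) : (Ideal R)⁰) = 1 := rfl
        rw [this, map_one]
      rw [h2] at h
      exact h
  | insert v S hv ih =>
    have hv' : v ∉ (S : Set (HeightOneSpectrum R)) := by simpa using hv
    rw [Finset.coe_insert, Finset.prod_insert hv]
    set g₁ : ℕ → F := fun k => f (pr v) ^ k with hg₁
    set g₂ : smooth (S : Set (HeightOneSpectrum R)) → F := fun I => f I with hg₂
    have hgeo : HasSum g₁ (1 - f (pr v))⁻¹ :=
      hasSum_geometric_of_norm_lt_one (hlt v)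
    have hgeo' : Summable (fun k : ℕ => ‖g₁ k‖) := by
      simp only [hg₁, norm_pow]
      exact summable_geometric_of_lt_one (norm_nonneg _) (hlt v)
    have ih1 : Summable (fun I => ‖g₂ I‖) := ih.1
    have ih2 : HasSum g₂ (∏ v ∈ S, (1 - f (pr v))⁻¹) := ih.2
    have hcomp : ∀ x : ℕ × smooth (S : Set (HeightOneSpectrum R)),
        f (powMulEquiv hv' x : smooth (insert v (S : Set (HeightOneSpectrum R)))) =
          g₁ x.1 * g₂ x.2 := by
      intro x
      rw [powMulEquiv_apply, map_mul, map_pow]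
    constructor
    · rw [← (powMulEquiv hv').summable_iff]
      have h1 : Summable (fun x : ℕ × smooth (S : Set (HeightOneSpectrum R)) =>
          ‖g₁ x.1‖ * ‖g₂ x.2‖) :=
        Summable.mul_of_nonneg (f := fun k => ‖g₁ k‖) (g := fun I => ‖g₂ I‖) hgeo' ih1
          (fun _ => norm_nonneg _) (fun _ => norm_nonneg _)
      refine h1.congr (fun x => ?_)
      simp only [Function.comp_def]
      rw [hcomp, norm_mul]
    · rw [← (powMulEquiv hv').hasSum_iff]
      have h1 : HasSum (fun x : ℕ × smooth (S : Set (HeightOneSpectrum R)) =>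
          g₁ x.1 * g₂ x.2) ((1 - f (pr v))⁻¹ * ∏ v ∈ S, (1 - f (pr v))⁻¹) :=
        hgeo.mul ih2 (summable_mul_of_summable_norm hgeo' ih1)
      refine h1.congr_fun (fun x => ?_)
      simp only [Function.comp_def]
      rw [hcomp]

/-- The finite set of primes dividing a nonzero ideal. -/
noncomputable def primeDivisors (I : (Ideal R)⁰) : Finset (HeightOneSpectrum R) :=
  (Ideal.finite_factors (mem_nonZeroDivisors_iff_ne_zero.mp I.2)).toFinset

omit [CompleteSpace F] in
lemma mem_primeDivisors {I : (Ideal R)⁰} {v : HeightOneSpectrum R} :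
    v ∈ primeDivisors I ↔ v.asIdeal ∣ (I : Ideal R) := by
  simp [primeDivisors]

/-- **Euler product over prime ideals**: the partial products over finite sets of primes
converge to the sum over all nonzero ideals. -/
theorem tendsto_prod_one_sub_inv (f : (Ideal R)⁰ →* F) (hsum : Summable fun I => ‖f I‖) :
    Tendsto (fun S : Finset (HeightOneSpectrum R) => ∏ v ∈ S, (1 - f (pr v))⁻¹) atTop
      (𝓝 (∑' I, f I)) := by
  classical
  have hlt := norm_lt_one_of_summable f hsum
  have hf : Summable (fun I => f I) := hsum.of_norm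
  rw [Metric.tendsto_atTop]
  intro ε hε
  obtain ⟨s, hs⟩ := hf.tsum_vanishing (Metric.ball_mem_nhds (0 : F) hε)
  refine ⟨s.biUnion primeDivisors, fun S hS => ?_⟩
  have hdisj : Disjoint (smooth (S : Set (HeightOneSpectrum R)))ᶜ (s : Set (Ideal R)⁰) := by
    rw [Set.disjoint_left]
    intro I hI hIs
    apply hI
    intro v hv
    apply hS
    exact Finset.mem_biUnion.mpr ⟨I, hIs, mem_primeDivisors.mpr hv⟩
  have h1 := hs _ hdisj
  have h2 := hf.tsum_subtype_add_tsum_subtype_compl (smooth (S : Set (HeightOneSpectrum R)))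
  have h3 := (summable_and_hasSum_smooth f hlt S).2.tsum_eq
  rw [dist_eq_norm, ← h2, ← h3]
  simp only [sub_add_cancel_left, norm_neg]
  simpa using h1

/-- `HasProd` form of the Euler product. -/
theorem hasProd_one_sub_inv (f : (Ideal R)⁰ →* F) (hsum : Summable fun I => ‖f I‖) :
    HasProd (fun v : HeightOneSpectrum R => (1 - f (pr v))⁻¹) (∑' I, f I) := by
  rw [HasProd, SummationFilter.unconditional]
  exact tendsto_prod_one_sub_inv f hsum

end EulerProduct

end Fermat.Agent.S14.EulerIdeal
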