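import Mathlib.Algebra.BigOperators.Intervals
import Mathlib.Data.Nat.Prime.Basic
import Mathlib.GroupTheory.OrderOfElement
import Mathlib.Tactic

/-!
# The final arithmetic of the Stickelberger contradiction

If `g` lies in a group killed by the odd prime `p` and `∏_{(p+1)/2 ≤ k < p} g ^ k = 1`
(the value of the Artin map on the principal ideal `∏_{k > p/2} σ_k⁻¹ Q`, using that `Δ` acts
on `Gal(M/K)` through `ω⁻¹`), then `g = 1`: the exponent `∑_{k>p/2} k = (p-1)(3p-1)/8` is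
prime to `p`.  The same holds for the lower half `1 ≤ k ≤ (p-1)/2`, with exponent
`(p-1)(p+1)/8`.
-/

set_option autoImplicit false

namespace Fermat.Agent.S14.FinalArith

open Finset

/-- `8 * ∑_{(p+1)/2 ≤ k < p} k = (p - 1) * (3 * p - 1)` for odd `p`. -/
theorem eight_mul_sum_upper (p : ℕ) (hodd : p % 2 = 1) :
    8 * ∑ k ∈ Ico ((p + 1) / 2) p, k = (p - 1) * (3 * p - 1) := by
  obtain ⟨n, rfl⟩ : ∃ n, p = 2 * n + 1 := ⟨p / 2, by omega⟩
  have h1 : (2 * n + 1 + 1) / 2 = n + 1 := by omega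
  rw [h1]
  have key : ∀ m : ℕ, 2 * ∑ k ∈ Ico (n + 1) (n + 1 + m), k = m * (2 * n + m + 1) := by
    intro m
    induction m with
    | zero => simp
    | succ m ih =>
      rw [show n + 1 + (m + 1) = (n + 1 + m) + 1 by ring, Finset.sum_Ico_succ_top (by omega),
        mul_add, ih]
      ring
  have h2 : 2 * n + 1 = n + 1 + n := by ring
  have := key n
  rw [← h2] at this
  have h3 : 2 * n + 1 - 1 = 2 * n := by omega
  have h4 : 3 * (2 * n + 1) - 1 = 6 * n + 2 := by omega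
  rw [h3, h4]
  calc 8 * ∑ k ∈ Ico (n + 1) (2 * n + 1), k = 4 * (2 * ∑ k ∈ Ico (n + 1) (2 * n + 1), k) := by ring
    _ = 4 * (n * (2 * n + n + 1)) := by rw [this]
    _ = 2 * n * (6 * n + 2) := by ring

/-- `8 * ∑_{1 ≤ k < (p+1)/2} k = (p - 1) * (p + 1)` for odd `p`. -/
theorem eight_mul_sum_lower (p : ℕ) (hodd : p % 2 = 1) :
    8 * ∑ k ∈ Ico 1 ((p + 1) / 2), k = (p - 1) * (p + 1) := by
  obtain ⟨n, rfl⟩ : ∃ n, p = 2 * n + 1 := ⟨p / 2, by omega⟩
  have h1 : (2 * n + 1 + 1) / 2 = n + 1 := by omega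
  rw [h1]
  have key : ∀ m : ℕ, 2 * ∑ k ∈ Ico 1 (m + 1), k = m * (m + 1) := by
    intro m
    induction m with
    | zero => simp
    | succ m ih =>
      rw [Finset.sum_Ico_succ_top (by omega), mul_add, ih]
      ring
  have h3 : 2 * n + 1 - 1 = 2 * n := by omega
  rw [h3]
  calc 8 * ∑ k ∈ Ico 1 (n + 1), k = 4 * (2 * ∑ k ∈ Ico 1 (n + 1), k) := by ring
    _ = 4 * (n * (n + 1)) := by rw [key n]
    _ = 2 * n * (2 * n + 1 + 1) := by ring

/-- The upper-half exponent is prime to `p`. -/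
theorem coprime_sum_upper (p : ℕ) (hp : p.Prime) (hp2 : p ≠ 2) :
    Nat.Coprime (∑ k ∈ Ico ((p + 1) / 2) p, k) p := by
  have hodd : p % 2 = 1 := hp.eq_two_or_odd.resolve_left hp2
  have h8 := eight_mul_sum_upper p hodd
  rw [Nat.coprime_comm, hp.coprime_iff_not_dvd]
  intro hdvd
  have h : p ∣ (p - 1) * (3 * p - 1) := h8 ▸ Dvd.dvd.mul_left hdvd 8
  have hp3 : 3 ≤ p := by have := hp.two_le; omega
  rcases (Nat.Prime.dvd_mul hp).mp h with h | h
  · exact absurd (Nat.le_of_dvd (by omega) h) (by omega)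
  · -- `p ∣ 3p - 1` forces `p ∣ 1`
    have h' : p ∣ 3 * p - (3 * p - 1) := Nat.dvd_sub (Dvd.intro_left 3 rfl) h
    have : 3 * p - (3 * p - 1) = 1 := by omega
    rw [this] at h'
    exact absurd (Nat.le_of_dvd one_pos h') (by omega)

/-- The lower-half exponent is prime to `p`. -/
theorem coprime_sum_lower (p : ℕ) (hp : p.Prime) (hp2 : p ≠ 2) :
    Nat.Coprime (∑ k ∈ Ico 1 ((p + 1) / 2), k) p := by
  have hodd : p % 2 = 1 := hp.eq_two_or_odd.resolve_left hp2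
  have h8 := eight_mul_sum_lower p hodd
  rw [Nat.coprime_comm, hp.coprime_iff_not_dvd]
  intro hdvd
  have h : p ∣ (p - 1) * (p + 1) := h8 ▸ Dvd.dvd.mul_left hdvd 8
  have hp3 : 3 ≤ p := by have := hp.two_le; omega
  rcases (Nat.Prime.dvd_mul hp).mp h with h | h
  · exact absurd (Nat.le_of_dvd (by omega) h) (by omega)
  · have h' : p ∣ (p + 1) - p := Nat.dvd_sub h dvd_rfl
    have : p + 1 - p = 1 := by omega
    rw [this] at h'
    exact absurd (Nat.le_of_dvd one_pos h') (by omega)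

variable {G : Type*} [CommGroup G]

/-- An element killed by `p` and by an exponent prime to `p` is trivial. -/
theorem eq_one_of_pow_eq_one_of_coprime {p n : ℕ} (g : G) (hgp : g ^ p = 1) (hgn : g ^ n = 1)
    (h : Nat.Coprime n p) : g = 1 := by
  have h1 : orderOf g ∣ p := orderOf_dvd_of_pow_eq_one hgp
  have h2 : orderOf g ∣ n := orderOf_dvd_of_pow_eq_one hgn
  have h3 : orderOf g ∣ Nat.gcd n p := Nat.dvd_gcd h2 h1
  rw [h] at h3
  exact orderOf_eq_one_iff.mp (Nat.dvd_one.mp h3)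

/-- **Final Stickelberger contradiction, upper half.**  If `g ^ p = 1` and the product of the
`g ^ k` over `(p+1)/2 ≤ k < p` is trivial then `g = 1`. -/
theorem eq_one_of_prod_upper (p : ℕ) (hp : p.Prime) (hp2 : p ≠ 2) (g : G) (hgp : g ^ p = 1)
    (f : ℕ → G) (hf : ∀ k ∈ Ico ((p + 1) / 2) p, f k = g ^ k)
    (hprod : ∏ k ∈ Ico ((p + 1) / 2) p, f k = 1) : g = 1 := by
  have h1 : ∏ k ∈ Ico ((p + 1) / 2) p, f k = g ^ ∑ k ∈ Ico ((p + 1) / 2) p, k := by
    rw [Finset.prod_congr rfl hf, Finset.prod_pow_eq_pow_sum]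
  exact eq_one_of_pow_eq_one_of_coprime g hgp (h1 ▸ hprod) (coprime_sum_upper p hp hp2)

/-- **Final Stickelberger contradiction, lower half.** -/
theorem eq_one_of_prod_lower (p : ℕ) (hp : p.Prime) (hp2 : p ≠ 2) (g : G) (hgp : g ^ p = 1)
    (f : ℕ → G) (hf : ∀ k ∈ Ico 1 ((p + 1) / 2), f k = g ^ k)
    (hprod : ∏ k ∈ Ico 1 ((p + 1) / 2), f k = 1) : g = 1 := by
  have h1 : ∏ k ∈ Ico 1 ((p + 1) / 2), f k = g ^ ∑ k ∈ Ico 1 ((p + 1) / 2), k := by
    rw [Finset.prod_congr rfl hf, Finset.prod_pow_eq_pow_sum]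
  exact eq_one_of_pow_eq_one_of_coprime g hgp (h1 ▸ hprod) (coprime_sum_lower p hp hp2)

end Fermat.Agent.S14.FinalArith
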