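import Mathlib

/-!
# Herbrand quotient of a cyclic group of prime order (elementary version)

`X` an abelian group with an endomorphism `σ`, `σ ^ p = 1`.  `D = σ - 1`, `N = 1 + σ + ... + σ^(p-1)`.
For a pair `(f, g)` of additive endomorphisms with `f ∘ g = g ∘ f = 0` and a stable subgroup `A`,
`qa f g A = [A ∩ ker f : g A]`.  Main results: invariance of the quotient `qa f g / qa g f` under passage
to a stable subgroup of finite index (`qa_mul_qa_eq`), and the formula for free f.g. `X` (`main_free`).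
-/

set_option autoImplicit false
set_option linter.unusedSectionVars false
set_option linter.unusedVariables false
set_option linter.style.haveILetI false
set_option linter.deprecated false

open Polynomial Module

namespace Fermat.Agent.S14.HerbrandPrime

-- ===== part T2 =====


theorem exists_cofactors_aux (p : ℕ) [hp : Fact p.Prime] (K : Type) [Field K] [CharZero K]
    [IsCyclotomicExtension {p} ℚ K] :
    ∃ W W' : ℤ[X], cyclotomic p ℤ ∣ (X - 1) ^ (p - 1) * W - C (p : ℤ) ∧
      cyclotomic p ℤ ∣ C (p : ℤ) * W' - (X - 1) ^ (p - 1) := by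
  have : NeZero p := ⟨hp.out.ne_zero⟩
  have hζ : IsPrimitiveRoot (IsCyclotomicExtension.zeta p ℚ K) p :=
    IsCyclotomicExtension.zeta_spec p ℚ K
  set z := hζ.toInteger with hz
  obtain ⟨u, hu⟩ := IsCyclotomicExtension.Rat.associated_zeta_sub_one_pow_prime p hζ
  have hgen : (hζ.integralPowerBasis).gen = z := hζ.integralPowerBasis_gen
  obtain ⟨W, hW⟩ := (hζ.integralPowerBasis).exists_eq_aeval' (u : NumberField.RingOfIntegers K)
  obtain ⟨W', hW'⟩ := (hζ.integralPowerBasis).exists_eq_aeval'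
    ((u⁻¹ : (NumberField.RingOfIntegers K)ˣ) : NumberField.RingOfIntegers K)
  rw [hgen] at hW hW'
  have hmin : cyclotomic p ℤ = minpoly ℤ z := by
    have h1 : cyclotomic p ℤ = minpoly ℤ (IsCyclotomicExtension.zeta p ℚ K) :=
      cyclotomic_eq_minpoly hζ hp.out.pos
    rw [h1]
    have : (algebraMap (NumberField.RingOfIntegers K) K) z = IsCyclotomicExtension.zeta p ℚ K := rfl
    rw [← this]
    exact (minpoly.algebraMap_eq (FaithfulSMul.algebraMap_injective _ _) z)
  have hint : IsIntegral ℤ z := Algebra.IsIntegral.isIntegral z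
  refine ⟨W, W', ?_, ?_⟩
  · rw [hmin]
    apply minpoly.isIntegrallyClosed_dvd hint
    simp only [map_sub, map_mul, map_pow, aeval_X, map_one, aeval_C, ← hW]
    rw [hu]; simp
  · rw [hmin]
    apply minpoly.isIntegrallyClosed_dvd hint
    simp only [map_sub, map_mul, map_pow, aeval_X, map_one, aeval_C, ← hW']
    have h2 : (algebraMap ℤ (NumberField.RingOfIntegers K)) (p : ℤ) = (p : NumberField.RingOfIntegers K) := by
      simp
    rw [h2, ← hu, hz, mul_assoc]
    simp

/-- `(X-1)^(p-1)` and `p` are associated modulo the `p`-th cyclotomic polynomial, with explicit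
polynomial cofactors. -/
theorem exists_cofactors (p : ℕ) [hp : Fact p.Prime] :
    ∃ W W' : ℤ[X], cyclotomic p ℤ ∣ (X - 1) ^ (p - 1) * W - C (p : ℤ) ∧
      cyclotomic p ℤ ∣ C (p : ℤ) * W' - (X - 1) ^ (p - 1) := by
  have : NeZero p := ⟨hp.out.ne_zero⟩
  have : NeZero ((p : ℕ) : ℚ) := ⟨by exact_mod_cast hp.out.ne_zero⟩
  have hI : IsCyclotomicExtension {p} ℚ (CyclotomicField p ℚ) :=
    CyclotomicField.isCyclotomicExtension p ℚ
  exact exists_cofactors_aux p (CyclotomicField p ℚ)


-- ===== part T4 =====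


variable {Y : Type*} [AddCommGroup Y] [Module.Free ℤ Y] [Module.Finite ℤ Y]

/-- index of the range of an injective endomorphism of a free f.g. `ℤ`-module is `|det|`. -/
theorem index_range_eq_natAbs_det (f : Y →ₗ[ℤ] Y) (hf : Function.Injective f) :
    (LinearMap.range f).toAddSubgroup.index = (LinearMap.det f).natAbs := by
  have h := Submodule.natAbs_det_equiv (LinearMap.range f) (LinearEquiv.ofInjective f hf)
  rw [AddSubgroup.index_eq_card]
  have h2 : (LinearMap.range f).subtype ∘ₗ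
      (((LinearEquiv.ofInjective f hf : Y ≃ₗ[ℤ] LinearMap.range f) : Y →+ LinearMap.range f)).toIntLinearMap = f := by
    ext x; simp
  rw [h2] at h
  rw [h]
  rfl


-- ===== part T5 =====


variable {Y : Type*} [AddCommGroup Y] [Module.Free ℤ Y] [Module.Finite ℤ Y]

theorem aeval_eq_zero_of_cyclotomic_dvd (p : ℕ) [hp : Fact p.Prime] (τ : Module.End ℤ Y)
    (hτ : ∑ i ∈ Finset.range p, τ ^ i = 0) {P : ℤ[X]} (hP : cyclotomic p ℤ ∣ P) :
    aeval τ P = 0 := by
  obtain ⟨Q, rfl⟩ := hP
  have h0 : aeval τ (cyclotomic p ℤ) = 0 := by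
    rw [cyclotomic_prime]
    simpa using hτ
  rw [map_mul, h0, zero_mul]

theorem sub_one_injective (p : ℕ) [hp : Fact p.Prime] (τ : Module.End ℤ Y)
    (hτ : ∑ i ∈ Finset.range p, τ ^ i = 0) : Function.Injective ⇑(τ - (1 : Module.End ℤ Y)) := by
  rw [← LinearMap.ker_eq_bot, LinearMap.ker_eq_bot']
  intro y hy
  have h1 : τ y = y := by
    have : τ y - y = 0 := by simpa using hy
    exact sub_eq_zero.mp this
  have h2 : ∀ i : ℕ, (τ ^ i) y = y := by
    intro i
    induction i with
    | zero => simp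
    | succ n ih => rw [pow_succ, Module.End.mul_apply, h1, ih]
  have h3 : (∑ i ∈ Finset.range p, τ ^ i) y = (p : ℤ) • y := by
    rw [LinearMap.sum_apply]
    simp [h2]
  rw [hτ] at h3
  have h4 : (p : ℤ) • y = 0 := by simpa using h3.symm
  rcases smul_eq_zero.mp h4 with h | h
  · exact absurd (by exact_mod_cast h) hp.out.ne_zero
  · exact h

theorem natAbs_det_sub_one_pow (p : ℕ) [hp : Fact p.Prime] (τ : Module.End ℤ Y)
    (hτ : ∑ i ∈ Finset.range p, τ ^ i = 0) :
    (LinearMap.det (τ - 1)).natAbs ^ (p - 1) = p ^ finrank ℤ Y := by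
  obtain ⟨W, W', h1, h2⟩ := exists_cofactors p
  have e1 := aeval_eq_zero_of_cyclotomic_dvd p τ hτ h1
  have e2 := aeval_eq_zero_of_cyclotomic_dvd p τ hτ h2
  simp only [map_sub, map_mul, map_pow, aeval_X, map_one, aeval_C] at e1 e2
  have e1' : (τ - 1) ^ (p - 1) * aeval τ W = (p : ℤ) • (1 : Module.End ℤ Y) := by
    rw [sub_eq_zero] at e1; rw [e1]; simp
  have e2' : (p : ℤ) • aeval τ W' = (τ - 1) ^ (p - 1) := by
    rw [sub_eq_zero] at e2; rw [← e2]; simp
  -- take determinants
  have d1 := congrArg LinearMap.det e1'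
  have d2 := congrArg LinearMap.det e2'
  rw [map_mul, map_pow, LinearMap.det_smul, map_one, mul_one] at d1
  rw [LinearMap.det_smul, map_pow] at d2
  -- d1 : det(τ-1)^(p-1) * det W = p^r ; d2 : p^r * det W' = det(τ-1)^(p-1)
  have hp0 : ((p : ℤ) ^ finrank ℤ Y) ≠ 0 := pow_ne_zero _ (by exact_mod_cast hp.out.ne_zero)
  have hunit : LinearMap.det (aeval τ W') * LinearMap.det (aeval τ W) = 1 := by
    have : (p : ℤ) ^ finrank ℤ Y * (LinearMap.det (aeval τ W') * LinearMap.det (aeval τ W))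
        = (p : ℤ) ^ finrank ℤ Y * 1 := by
      rw [← mul_assoc, d2, d1, mul_one]
    exact mul_left_cancel₀ hp0 this
  have hW : (LinearMap.det (aeval τ W)).natAbs = 1 := by
    have := congrArg Int.natAbs hunit
    rw [Int.natAbs_mul, Int.natAbs_one] at this
    exact Nat.eq_one_of_mul_eq_one_left this
  have := congrArg Int.natAbs d1
  rw [Int.natAbs_mul, Int.natAbs_pow, hW, mul_one, Int.natAbs_pow, Int.natAbs_natCast] at this
  exact this


-- ===== part T6 =====


variable {X Y : Type*} [AddCommGroup X] [AddCommGroup Y]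

/-- The index lemma: `[B : A] = [fB : fA] * [B ∩ ker f : A ∩ ker f]`. -/
theorem relIndex_eq_map_mul_ker (f : X →+ Y) {A B : AddSubgroup X} (hAB : A ≤ B) :
    A.relIndex B = (A.map f).relIndex (B.map f) * (A ⊓ f.ker).relIndex (B ⊓ f.ker) := by
  have h1 : A ≤ A ⊔ (f.ker ⊓ B) := le_sup_left
  have h2 : A ⊔ (f.ker ⊓ B) ≤ B := sup_le hAB inf_le_right
  rw [← AddSubgroup.relIndex_mul_relIndex _ _ _ h1 h2]
  have e1 : A.relIndex (A ⊔ (f.ker ⊓ B)) = (A ⊓ f.ker).relIndex (B ⊓ f.ker) := by
    rw [AddSubgroup.relIndex_sup_left, ← AddSubgroup.inf_relIndex_right, inf_comm f.ker B]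
    congr 1
    rw [← inf_assoc, inf_eq_left.mpr hAB]
  have e2 : (A ⊔ (f.ker ⊓ B)).relIndex B = (A.map f).relIndex (B.map f) := by
    rw [AddSubgroup.relIndex_map_map, ← sup_inf_assoc_of_le f.ker hAB, AddSubgroup.inf_relIndex_right]
    have : B ⊔ f.ker = B ⊔ (A ⊔ f.ker) := by
      rw [← sup_assoc, sup_eq_left.mpr hAB]
    rw [this, AddSubgroup.relIndex_sup_right]
  rw [e1, e2, mul_comm]


-- ===== part T7 =====


variable {X : Type*} [AddCommGroup X]

/-- `[A ∩ ker f : g A]` -/
noncomputable def qa (f g : X →+ X) (A : AddSubgroup X) : ℕ := (A.map g).relIndex (A ⊓ f.ker)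

section
variable (f g : X →+ X) (hfg : ∀ x, f (g x) = 0) (hgf : ∀ x, g (f x) = 0)
  {A B : AddSubgroup X} (hAB : A ≤ B) (hfA : A.map f ≤ A) (hgA : A.map g ≤ A)
  (hfB : B.map f ≤ B) (hgB : B.map g ≤ B)

include hfg hgA in
theorem map_le_inf_ker : A.map g ≤ A ⊓ f.ker := by
  refine le_inf hgA ?_
  rintro _ ⟨x, -, rfl⟩
  exact hfg x

include hfg hAB hgA hgB in
theorem qa_relation (hI : A.relIndex B ≠ 0) :
    (A.map g).relIndex (B.map g) * qa f g B = qa f g A * (A ⊓ f.ker).relIndex (B ⊓ f.ker) := by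
  unfold qa
  have c1 : A.map g ≤ B.map g := AddSubgroup.map_mono hAB
  have c2 : B.map g ≤ B ⊓ f.ker := map_le_inf_ker f g hfg hgB
  have c3 : A.map g ≤ A ⊓ f.ker := map_le_inf_ker f g hfg hgA
  have c4 : A ⊓ f.ker ≤ B ⊓ f.ker := inf_le_inf_right _ hAB
  rw [AddSubgroup.relIndex_mul_relIndex _ _ _ c1 c2, AddSubgroup.relIndex_mul_relIndex _ _ _ c3 c4]

include hfg hgf hAB hfA hgA hfB hgB in
theorem qa_mul_qa_eq (hI : A.relIndex B ≠ 0) :
    qa f g B * qa g f A = qa f g A * qa g f B := by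
  have L1 := relIndex_eq_map_mul_ker f hAB
  have L2 := relIndex_eq_map_mul_ker g hAB
  have R1 := qa_relation f g hfg hAB hgA hgB hI
  have R2 := qa_relation g f hgf hAB hfA hfB hI
  set u := (A.map g).relIndex (B.map g)
  set v := (A ⊓ f.ker).relIndex (B ⊓ f.ker)
  set w := (A.map f).relIndex (B.map f)
  set z := (A ⊓ g.ker).relIndex (B ⊓ g.ker)
  set I := A.relIndex B
  -- I = w v = u z ; u aB = aA v ; w bB = bA z
  have key : (qa f g B * qa g f A) * I = (qa f g A * qa g f B) * I := by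
    calc (qa f g B * qa g f A) * I = (u * qa f g B) * (qa g f A * z) := by rw [L2]; ring
      _ = (qa f g A * v) * (w * qa g f B) := by rw [R1, R2]
      _ = (qa f g A * qa g f B) * I := by rw [L1]; ring
  exact Nat.eq_of_mul_eq_mul_right (Nat.pos_of_ne_zero hI) key

include hfg hAB hgA hgB in
theorem qa_ne_zero_iff (hI : A.relIndex B ≠ 0) : qa f g B ≠ 0 ↔ qa f g A ≠ 0 := by
  have L1 := relIndex_eq_map_mul_ker f hAB
  have L2 := relIndex_eq_map_mul_ker g hAB
  have R1 := qa_relation f g hfg hAB hgA hgB hI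
  have hu : (A.map g).relIndex (B.map g) ≠ 0 := by
    intro h; rw [L2, h, zero_mul] at hI; exact hI rfl
  have hv : (A ⊓ f.ker).relIndex (B ⊓ f.ker) ≠ 0 := by
    intro h; rw [L1, h, mul_zero] at hI; exact hI rfl
  constructor
  · intro hB hA
    rw [hA, zero_mul] at R1
    exact (mul_ne_zero hu hB) R1
  · intro hA hB
    rw [hB, mul_zero] at R1
    exact (mul_ne_zero hA hv) R1.symm

end


-- ===== part T8 =====


variable {X : Type*} [AddCommGroup X]

/-- the norm element `1 + σ + ... + σ^(p-1)`. -/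
noncomputable def normEnd (p : ℕ) (σ : Module.End ℤ X) : Module.End ℤ X := ∑ i ∈ Finset.range p, σ ^ i

section basic
variable (p : ℕ) (σ : Module.End ℤ X) (hσ : σ ^ p = 1)

include hσ in
theorem sub_one_mul_normEnd : (σ - 1) * normEnd p σ = 0 := by
  unfold normEnd; rw [mul_geom_sum, hσ, sub_self]

include hσ in
theorem normEnd_mul_sub_one : normEnd p σ * (σ - 1) = 0 := by
  unfold normEnd; rw [geom_sum_mul, hσ, sub_self]

include hσ in
theorem sub_one_normEnd_apply (x : X) : (σ - 1) (normEnd p σ x) = 0 := by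
  have := congrArg (fun e : Module.End ℤ X => e x) (sub_one_mul_normEnd p σ hσ)
  simpa using this

include hσ in
theorem normEnd_sub_one_apply (x : X) : normEnd p σ ((σ - 1) x) = 0 := by
  have := congrArg (fun e : Module.End ℤ X => e x) (normEnd_mul_sub_one p σ hσ)
  simpa using this

theorem normEnd_apply_of_fixed {x : X} (hx : (σ - 1) x = 0) : normEnd p σ x = (p : ℤ) • x := by
  have h1 : σ x = x := by
    have : σ x - x = 0 := by simpa using hx
    exact sub_eq_zero.mp this
  have h2 : ∀ i : ℕ, (σ ^ i) x = x := by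
    intro i
    induction i with
    | zero => simp
    | succ n ih => rw [pow_succ, Module.End.mul_apply, h1, ih]
  unfold normEnd
  rw [LinearMap.sum_apply]
  simp [h2]

end basic


-- ===== part T9 =====


variable {X : Type*} [AddCommGroup X]

/-- transfer: relative index of `φ(K)` in `K` is the index of the range of the restriction. -/
theorem relIndex_map_eq_index_range_restrict (K : Submodule ℤ X) (φ : Module.End ℤ X)
    (hφ : ∀ x ∈ K, φ x ∈ K) :
    ((K.map φ).toAddSubgroup).relIndex K.toAddSubgroup =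
      (LinearMap.range (φ.restrict hφ)).toAddSubgroup.index := by
  rw [AddSubgroup.relIndex]
  congr 1
  ext ⟨x, hx⟩
  simp only [AddSubgroup.mem_addSubgroupOf, Submodule.mem_toAddSubgroup, Submodule.mem_map,
    LinearMap.mem_range]
  constructor
  · rintro ⟨y, hy, hxy⟩
    exact ⟨⟨y, hy⟩, Subtype.ext hxy⟩
  · rintro ⟨⟨y, hy⟩, hxy⟩
    exact ⟨y, hy, congrArg Subtype.val hxy⟩


-- ===== part T10 =====


variable {X : Type*} [AddCommGroup X]

section free
variable [Module.Free ℤ X] [Module.Finite ℤ X] (p : ℕ) [hp : Fact p.Prime]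
  (σ : Module.End ℤ X) (hσ : σ ^ p = 1)

/-- index of `p • K` in `K` for a submodule `K` of a free f.g. `ℤ`-module. -/
theorem relIndex_smul_submodule (K : Submodule ℤ X) :
    ((K.map ((p : ℤ) • (1 : Module.End ℤ X))).toAddSubgroup).relIndex K.toAddSubgroup =
      p ^ finrank ℤ K := by
  have hφ : ∀ x ∈ K, ((p : ℤ) • (1 : Module.End ℤ X)) x ∈ K := by
    intro x hx; simpa using K.smul_mem (p : ℤ) hx
  rw [relIndex_map_eq_index_range_restrict K _ hφ]
  have hres : ((p : ℤ) • (1 : Module.End ℤ X)).restrict hφ = (p : ℤ) • (1 : Module.End ℤ K) := by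
    ext x; simp
  rw [hres]
  have hinj : Function.Injective ⇑((p : ℤ) • (1 : Module.End ℤ K)) := by
    intro x y hxy
    have : (p : ℤ) • x = (p : ℤ) • y := by simpa using hxy
    exact smul_right_injective _ (by exact_mod_cast hp.out.ne_zero) this
  rw [index_range_eq_natAbs_det _ hinj, LinearMap.det_smul, map_one, mul_one, Int.natAbs_pow,
    Int.natAbs_natCast]

end free


-- ===== part T11 =====


variable {X : Type*} [AddCommGroup X]

section free
variable [Module.Free ℤ X] [Module.Finite ℤ X] (p : ℕ) [hp : Fact p.Prime]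
  (σ : Module.End ℤ X) (hσ : σ ^ p = 1)

/-- `D = σ - 1` as an additive map -/
noncomputable abbrev Dh (σ : Module.End ℤ X) : X →+ X := ((σ - 1 : Module.End ℤ X) : X →ₗ[ℤ] X).toAddMonoidHom
/-- the norm as an additive map -/
noncomputable abbrev Nh (p : ℕ) (σ : Module.End ℤ X) : X →+ X := ((normEnd p σ : Module.End ℤ X) : X →ₗ[ℤ] X).toAddMonoidHom

include hσ in
theorem sigma_mem_ker_norm {x : X} (hx : x ∈ LinearMap.ker (normEnd p σ)) :
    σ x ∈ LinearMap.ker (normEnd p σ) := by
  rw [LinearMap.mem_ker] at hx ⊢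
  have hc : normEnd p σ * σ = σ * normEnd p σ := by
    unfold normEnd
    rw [Finset.sum_mul, Finset.mul_sum]
    refine Finset.sum_congr rfl fun i _ => ?_
    rw [← pow_succ, ← pow_succ']
  have := congrArg (fun e : Module.End ℤ X => e x) hc
  simp only [Module.End.mul_apply] at this
  rw [this, hx, map_zero]

include hσ in
/-- the index `[ker N : (σ-1) ker N]` is a power of `p` -/
theorem relIndex_sub_one_ker_norm :
    ∃ b : ℕ, (p - 1) * b = finrank ℤ (LinearMap.ker (normEnd p σ)) ∧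
      (((LinearMap.ker (normEnd p σ)).map (σ - 1)).toAddSubgroup).relIndex
        (LinearMap.ker (normEnd p σ)).toAddSubgroup = p ^ b := by
  set KN := LinearMap.ker (normEnd p σ) with hKN
  have hstab : ∀ x ∈ KN, σ x ∈ KN := fun x hx => sigma_mem_ker_norm p σ hσ hx
  have hφ : ∀ x ∈ KN, (σ - 1 : Module.End ℤ X) x ∈ KN := by
    intro x hx
    have : (σ - 1 : Module.End ℤ X) x = σ x - x := by simp
    rw [this]
    exact KN.sub_mem (hstab x hx) hx
  rw [relIndex_map_eq_index_range_restrict KN _ hφ]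
  set τ : Module.End ℤ KN := σ.restrict hstab with hτdef
  have hres : (σ - 1 : Module.End ℤ X).restrict hφ = τ - 1 := by
    ext x; simp [hτdef]
  have hτ : ∑ i ∈ Finset.range p, τ ^ i = 0 := by
    ext ⟨x, hx⟩
    have hpow : ∀ i : ℕ, ((τ ^ i) ⟨x, hx⟩ : X) = (σ ^ i) x := by
      intro i
      induction i with
      | zero => simp
      | succ n ih =>
        rw [pow_succ', pow_succ', Module.End.mul_apply, Module.End.mul_apply]
        rw [hτdef, LinearMap.restrict_coe_apply, ← hτdef, ih]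
    rw [LinearMap.sum_apply]
    simp only [LinearMap.zero_apply, Submodule.coe_zero, AddSubmonoidClass.coe_finset_sum, hpow]
    have : normEnd p σ x = 0 := hx
    unfold normEnd at this
    rw [LinearMap.sum_apply] at this
    exact this
  rw [hres, index_range_eq_natAbs_det _ (sub_one_injective p τ hτ)]
  have hm := natAbs_det_sub_one_pow p τ hτ
  set m := (LinearMap.det (τ - 1)).natAbs with hmdef
  have hp1 : 1 ≤ p - 1 := by have := hp.out.two_le; omega
  have hdvd : m ∣ p ^ finrank ℤ KN := by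
    rw [← hm]; exact dvd_pow_self m (by omega)
  obtain ⟨b, -, hb⟩ := (Nat.dvd_prime_pow hp.out).mp hdvd
  refine ⟨b, ?_, hb⟩
  rw [hb, ← pow_mul] at hm
  have := Nat.pow_right_injective hp.out.two_le hm
  rw [← this, mul_comm]

end free


-- ===== part T12 =====


variable {X : Type*} [AddCommGroup X]

section free
variable [Module.Free ℤ X] [Module.Finite ℤ X] (p : ℕ) [hp : Fact p.Prime]
  (σ : Module.End ℤ X) (hσ : σ ^ p = 1)

include hσ in
theorem main_free :
    ∃ b : ℕ, (p - 1) * b = finrank ℤ (LinearMap.ker (normEnd p σ)) ∧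
      qa (Dh σ) (Nh p σ) ⊤ ≠ 0 ∧ qa (Nh p σ) (Dh σ) ⊤ ≠ 0 ∧
      qa (Dh σ) (Nh p σ) ⊤ * p ^ b =
        qa (Nh p σ) (Dh σ) ⊤ * p ^ finrank ℤ (LinearMap.ker (σ - 1 : Module.End ℤ X)) := by
  obtain ⟨b, hb, hidx⟩ := relIndex_sub_one_ker_norm p σ hσ
  refine ⟨b, hb, ?_⟩
  set KD := LinearMap.ker (σ - 1 : Module.End ℤ X) with hKD
  set KN := LinearMap.ker (normEnd p σ) with hKN
  set A : AddSubgroup X := (KD ⊔ KN).toAddSubgroup with hA
  have hDN : ∀ x, (Dh σ) ((Nh p σ) x) = 0 := fun x => sub_one_normEnd_apply p σ hσ x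
  have hND : ∀ x, (Nh p σ) ((Dh σ) x) = 0 := fun x => normEnd_sub_one_apply p σ hσ x
  have hKDA : KD.toAddSubgroup ≤ A := by
    rw [hA]; exact Submodule.toAddSubgroup_mono le_sup_left
  have hKNA : KN.toAddSubgroup ≤ A := by
    rw [hA]; exact Submodule.toAddSubgroup_mono le_sup_right
  -- images
  have hmapD : A.map (Dh σ) = (KN.map (σ - 1 : Module.End ℤ X)).toAddSubgroup := by
    ext y
    simp only [AddSubgroup.mem_map, Submodule.mem_toAddSubgroup, Submodule.mem_map, hA,
      Submodule.mem_sup]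
    constructor
    · rintro ⟨x, ⟨u, hu, v, hv, rfl⟩, rfl⟩
      refine ⟨v, hv, ?_⟩
      have hu0 : (σ - 1 : Module.End ℤ X) u = 0 := hu
      change (σ - 1 : Module.End ℤ X) v = (σ - 1 : Module.End ℤ X) (u + v)
      rw [map_add, hu0, zero_add]
    · rintro ⟨v, hv, rfl⟩
      exact ⟨v, ⟨0, KD.zero_mem, v, hv, zero_add v⟩, rfl⟩
  have hmapN : A.map (Nh p σ) = (KD.map ((p : ℤ) • (1 : Module.End ℤ X))).toAddSubgroup := by
    ext y
    simp only [AddSubgroup.mem_map, Submodule.mem_toAddSubgroup, Submodule.mem_map, hA,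
      Submodule.mem_sup]
    constructor
    · rintro ⟨x, ⟨u, hu, v, hv, rfl⟩, rfl⟩
      refine ⟨u, hu, ?_⟩
      have hv0 : normEnd p σ v = 0 := hv
      change ((p : ℤ) • (1 : Module.End ℤ X)) u = normEnd p σ (u + v)
      rw [map_add, hv0, add_zero, normEnd_apply_of_fixed p σ hu]
      simp
    · rintro ⟨u, hu, rfl⟩
      refine ⟨u, ⟨u, hu, 0, KN.zero_mem, add_zero u⟩, ?_⟩
      change normEnd p σ u = ((p : ℤ) • (1 : Module.End ℤ X)) u
      rw [normEnd_apply_of_fixed p σ hu]
      simp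
  have hkerD : A ⊓ (Dh σ).ker = KD.toAddSubgroup := by
    apply le_antisymm
    · rintro x ⟨-, hx⟩
      exact hx
    · exact le_inf hKDA (fun x hx => hx)
  have hkerN : A ⊓ (Nh p σ).ker = KN.toAddSubgroup := by
    apply le_antisymm
    · rintro x ⟨-, hx⟩
      exact hx
    · exact le_inf hKNA (fun x hx => hx)
  have hqaA : qa (Dh σ) (Nh p σ) A = p ^ finrank ℤ KD := by
    unfold qa; rw [hmapN, hkerD]; exact relIndex_smul_submodule p KD
  have hqbA : qa (Nh p σ) (Dh σ) A = p ^ b := by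
    unfold qa; rw [hmapD, hkerN]; exact hidx
  -- stability
  have hDA : A.map (Dh σ) ≤ A := by
    rw [hmapD]
    refine le_trans ?_ hKNA
    rintro _ ⟨v, hv, rfl⟩
    exact hND v
  have hNA : A.map (Nh p σ) ≤ A := by
    rw [hmapN]
    refine le_trans ?_ hKDA
    rintro _ ⟨u, hu, rfl⟩
    exact KD.smul_mem (p : ℤ) hu |> fun h => by simpa using h
  -- finite index
  have hI : A.relIndex ⊤ ≠ 0 := by
    rw [AddSubgroup.relIndex_top_right]
    have hP : ((⊤ : Submodule ℤ X).map ((p : ℤ) • (1 : Module.End ℤ X))).toAddSubgroup ≤ A := by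
      rintro _ ⟨x, -, rfl⟩
      rw [hA, Submodule.mem_toAddSubgroup, Submodule.mem_sup]
      refine ⟨normEnd p σ x, sub_one_normEnd_apply p σ hσ x, (p : ℤ) • x - normEnd p σ x, ?_, ?_⟩
      · rw [hKN, LinearMap.mem_ker, map_sub, map_smul]
        have hfix : (σ - 1 : Module.End ℤ X) (normEnd p σ x) = 0 := sub_one_normEnd_apply p σ hσ x
        rw [normEnd_apply_of_fixed p σ hfix, sub_self]
      · simp
    have h1 := AddSubgroup.index_dvd_of_le hP
    have h2 : ((⊤ : Submodule ℤ X).map ((p : ℤ) • (1 : Module.End ℤ X))).toAddSubgroup.index ≠ 0 := by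
      have := relIndex_smul_submodule p (⊤ : Submodule ℤ X)
      rw [show ((⊤ : Submodule ℤ X).toAddSubgroup) = ⊤ from rfl, AddSubgroup.relIndex_top_right] at this
      rw [this]
      exact pow_ne_zero _ hp.out.ne_zero
    intro h0
    rw [h0] at h1
    exact h2 (Nat.eq_zero_of_zero_dvd h1)
  have hle : A ≤ ⊤ := le_top
  have hDtop : (⊤ : AddSubgroup X).map (Dh σ) ≤ ⊤ := le_top
  have hNtop : (⊤ : AddSubgroup X).map (Nh p σ) ≤ ⊤ := le_top
  have key := qa_mul_qa_eq (Dh σ) (Nh p σ) hDN hND hle hDA hNA hDtop hNtop hI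
  have nz1 := (qa_ne_zero_iff (Dh σ) (Nh p σ) hDN hle hNA hNtop hI).mpr
    (by rw [hqaA]; exact pow_ne_zero _ hp.out.ne_zero)
  have nz2 := (qa_ne_zero_iff (Nh p σ) (Dh σ) hND hle hDA hDtop hI).mpr
    (by rw [hqbA]; exact pow_ne_zero _ hp.out.ne_zero)
  refine ⟨nz1, nz2, ?_⟩
  rw [hqaA, hqbA] at key
  rw [key, mul_comm]

end free


end Fermat.Agent.S14.HerbrandPrime
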