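import Mathlib

/-!
# Lattice point counting with a power-saving error term

For a bounded measurable set `A ⊆ ι → ℝ` whose frontier is covered by finitely many Lipschitz
images of a cube of dimension `m`, the number of integer points of `A` differs from the volume
of `A` by at most (a constant times) the number of grid points needed to cover the frontier.

Main results:

* `abs_card_sub_volume_le_card_bd` : `|#(A ∩ ℤ^ι) - vol A| ≤ #{unit cubes meeting A and Aᶜ}`;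
* `card_bd_le` : bound of the number of boundary cubes by the Lipschitz covering data;
* `exists_bound_card_smul_sub` : `|#(t • s ∩ ℤ^ι) - t ^ n * vol s| ≤ C * t ^ m` for `t ≥ 1`.
-/

set_option autoImplicit false

open MeasureTheory Set Bornology

namespace Fermat.Agent.S14.LatticeCountError

variable {ι : Type*} [Fintype ι]

/-- The half-open unit cube with lower corner `v`. -/
def cube (v : ι → ℤ) : Set (ι → ℝ) := Set.pi Set.univ fun i => Set.Ico (v i : ℝ) (v i + 1)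

theorem mem_cube {v : ι → ℤ} {x : ι → ℝ} : x ∈ cube v ↔ ∀ i, (v i : ℝ) ≤ x i ∧ x i < v i + 1 := by
  simp [cube]

theorem mem_cube_iff_floor {v : ι → ℤ} {x : ι → ℝ} : x ∈ cube v ↔ ∀ i, ⌊x i⌋ = v i := by
  rw [mem_cube]
  refine forall_congr' fun i => ?_
  rw [Int.floor_eq_iff]

theorem mem_cube_floor (x : ι → ℝ) : x ∈ cube (fun i => ⌊x i⌋) :=
  mem_cube_iff_floor.2 fun _ => rfl

theorem self_mem_cube (v : ι → ℤ) : (fun i => (v i : ℝ)) ∈ cube v :=
  mem_cube.2 fun i => ⟨le_rfl, lt_add_one _⟩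

theorem cube_disjoint {v w : ι → ℤ} (h : v ≠ w) : Disjoint (cube v) (cube w) := by
  rw [Set.disjoint_left]
  intro x hv hw
  apply h
  funext i
  rw [← mem_cube_iff_floor.1 hv i, ← mem_cube_iff_floor.1 hw i]

theorem measurableSet_cube (v : ι → ℤ) : MeasurableSet (cube v) :=
  MeasurableSet.univ_pi fun _ => measurableSet_Ico

theorem volume_cube (v : ι → ℤ) : volume (cube v) = 1 := by
  rw [cube, volume_pi_pi]
  simp

theorem convex_cube (v : ι → ℤ) : Convex ℝ (cube v) :=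
  convex_pi fun _ _ => convex_Ico _ _

theorem isPreconnected_cube (v : ι → ℤ) : IsPreconnected (cube v) :=
  (convex_cube v).isPreconnected

theorem dist_le_one_of_mem_cube {v : ι → ℤ} {x : ι → ℝ} (hx : x ∈ cube v) :
    dist x (fun i => (v i : ℝ)) ≤ 1 := by
  rw [dist_pi_le_iff zero_le_one]
  intro i
  have := mem_cube.1 hx i
  rw [Real.dist_eq, abs_le]
  constructor <;> linarith [this.1, this.2]

/-- A preconnected set meeting both `A` and its complement meets the frontier of `A`. -/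
theorem IsPreconnected.inter_frontier_nonempty' {X : Type*} [TopologicalSpace X] {C A : Set X}
    (hC : IsPreconnected C) (h1 : (C ∩ A).Nonempty) (h2 : (C ∩ Aᶜ).Nonempty) :
    (C ∩ frontier A).Nonempty := by
  by_contra hne
  rw [Set.not_nonempty_iff_eq_empty] at hne
  have hsub : C ⊆ interior A ∪ (closure A)ᶜ := by
    intro x hx
    by_contra hxn
    rw [Set.mem_union, not_or] at hxn
    have : x ∈ frontier A := by
      rw [frontier, Set.mem_diff]
      exact ⟨by simpa using hxn.2, hxn.1⟩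
    have : x ∈ C ∩ frontier A := ⟨hx, this⟩
    rw [hne] at this
    exact this
  have hdisj : Disjoint (interior A) (closure A)ᶜ := by
    rw [Set.disjoint_left]
    intro x hx hx'
    exact hx' (subset_closure (interior_subset hx))
  rcases hC.subset_or_subset isOpen_interior isClosed_closure.isOpen_compl hdisj hsub with h | h
  · obtain ⟨x, hxC, hxA⟩ := h2
    exact hxA (interior_subset (h hxC))
  · obtain ⟨x, hxC, hxA⟩ := h1
    exact h hxC (subset_closure hxA)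

/-- The integer points of `A`. -/
def intPts (A : Set (ι → ℝ)) : Set (ι → ℤ) := {v | (fun i => (v i : ℝ)) ∈ A}

/-- The unit cubes meeting `A`. -/
def meet (A : Set (ι → ℝ)) : Set (ι → ℤ) := {v | (cube v ∩ A).Nonempty}

/-- The unit cubes meeting both `A` and its complement. -/
def bd (A : Set (ι → ℝ)) : Set (ι → ℤ) := {v | (cube v ∩ A).Nonempty ∧ (cube v ∩ Aᶜ).Nonempty}

theorem intPts_subset_meet (A : Set (ι → ℝ)) : intPts A ⊆ meet A :=
  fun v hv => ⟨_, self_mem_cube v, hv⟩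

theorem bd_subset_meet (A : Set (ι → ℝ)) : bd A ⊆ meet A := fun _ hv => hv.1

theorem finite_meet {A : Set (ι → ℝ)} (hA : IsBounded A) : (meet A).Finite := by
  obtain ⟨R, hR⟩ := hA.subset_closedBall (0 : ι → ℝ)
  set M : ℤ := ⌈R⌉ + 1 with hM
  have hfin : (Set.pi Set.univ fun _ : ι => Set.Icc (-M) M).Finite :=
    Set.Finite.pi fun _ => Set.finite_Icc _ _
  refine hfin.subset ?_
  rintro v ⟨x, hxv, hxA⟩
  rw [Set.mem_univ_pi]
  intro i
  have hx : ‖x‖ ≤ R := by simpa using hR hxA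
  have hxi : |x i| ≤ R := (norm_le_pi_norm x i).trans hx
  have hc := mem_cube.1 hxv i
  have h1 : R ≤ (⌈R⌉ : ℝ) := Int.le_ceil R
  rw [abs_le] at hxi
  rw [Set.mem_Icc]
  constructor
  · have : (-(M : ℝ)) ≤ (v i : ℝ) := by
      rw [hM]; push_cast; linarith [hc.2, hxi.1]
    exact_mod_cast this
  · have : (v i : ℝ) ≤ (M : ℝ) := by
      rw [hM]; push_cast; linarith [hc.1, hxi.2]
    exact_mod_cast this

theorem finite_intPts {A : Set (ι → ℝ)} (hA : IsBounded A) : (intPts A).Finite :=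
  (finite_meet hA).subset (intPts_subset_meet A)

theorem finite_bd {A : Set (ι → ℝ)} (hA : IsBounded A) : (bd A).Finite :=
  (finite_meet hA).subset (bd_subset_meet A)

/-- **Counting integer points**: the number of integer points of a bounded measurable set
differs from its volume by at most the number of boundary cubes. -/
theorem abs_card_sub_volume_le_card_bd {A : Set (ι → ℝ)} (hA : IsBounded A)
    (hAm : MeasurableSet A) :
    |(Nat.card (intPts A) : ℝ) - volume.real A| ≤ Nat.card (bd A) := by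
  classical
  set V : Finset (ι → ℤ) := (finite_meet hA).toFinset with hV
  have hVmem : ∀ v, v ∈ V ↔ v ∈ meet A := fun v => by rw [hV, Set.Finite.mem_toFinset]
  -- volume
  have hAeq : A = ⋃ v ∈ V, (A ∩ cube v) := by
    ext x
    simp only [Set.mem_iUnion, Set.mem_inter_iff, exists_and_left, exists_prop]
    constructor
    · intro hx
      exact ⟨hx, _, (hVmem _).2 ⟨x, mem_cube_floor x, hx⟩, mem_cube_floor x⟩
    · rintro ⟨hx, -⟩
      exact hx
  have hfinite : ∀ v ∈ V, volume (A ∩ cube v) ≠ ⊤ := fun v _ =>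
    ne_top_of_le_ne_top (by rw [volume_cube]; exact ENNReal.one_ne_top)
      (measure_mono Set.inter_subset_right)
  have hvol : volume.real A = ∑ v ∈ V, volume.real (A ∩ cube v) := by
    conv_lhs => rw [hAeq]
    refine measureReal_biUnion_finset ?_ (fun v _ => hAm.inter (measurableSet_cube v)) hfinite
    intro v _ w _ hvw
    exact (cube_disjoint hvw).mono Set.inter_subset_right Set.inter_subset_right
  -- count
  have hcount : (Nat.card (intPts A) : ℝ) = ∑ v ∈ V, (if v ∈ intPts A then (1 : ℝ) else 0) := by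
    rw [Finset.sum_ite, Finset.sum_const_zero, add_zero, Finset.sum_const, nsmul_eq_mul, mul_one]
    congr 1
    rw [← Nat.card_eq_finsetCard]
    refine Nat.card_congr (Equiv.subtypeEquivRight fun v => ?_)
    rw [Finset.mem_filter, hVmem]
    exact ⟨fun h => ⟨intPts_subset_meet A h, h⟩, fun h => h.2⟩
  rw [hvol, hcount, ← Finset.sum_sub_distrib]
  -- termwise
  have hterm : ∀ v ∈ V, |(if v ∈ intPts A then (1 : ℝ) else 0) - volume.real (A ∩ cube v)| ≤
      (if v ∈ bd A then (1 : ℝ) else 0) := by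
    intro v hv
    have hvm : (cube v ∩ A).Nonempty := (hVmem v).1 hv
    have hle1 : volume.real (A ∩ cube v) ≤ 1 := by
      have := measureReal_mono (μ := volume) (Set.inter_subset_right : A ∩ cube v ⊆ cube v)
        (by rw [volume_cube]; exact ENNReal.one_ne_top)
      have h1 : volume.real (cube v) = 1 := by
        rw [measureReal_def, volume_cube, ENNReal.toReal_one]
      rwa [h1] at this
    have hge0 : 0 ≤ volume.real (A ∩ cube v) := measureReal_nonneg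
    by_cases hb : v ∈ bd A
    · rw [if_pos hb]
      split_ifs
      · rw [abs_le]; constructor <;> linarith
      · rw [abs_le]; constructor <;> linarith
    · rw [if_neg hb]
      have hsub : cube v ⊆ A := by
        by_contra hns
        apply hb
        refine ⟨hvm, ?_⟩
        rw [Set.not_subset] at hns
        obtain ⟨x, hx, hxA⟩ := hns
        exact ⟨x, hx, hxA⟩
      have h1 : v ∈ intPts A := hsub (self_mem_cube v)
      have h2 : A ∩ cube v = cube v := Set.inter_eq_right.2 hsub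
      rw [if_pos h1, h2, measureReal_def, volume_cube, ENNReal.toReal_one, sub_self, abs_zero]
  calc |∑ v ∈ V, ((if v ∈ intPts A then (1 : ℝ) else 0) - volume.real (A ∩ cube v))|
      ≤ ∑ v ∈ V, |(if v ∈ intPts A then (1 : ℝ) else 0) - volume.real (A ∩ cube v)| :=
        Finset.abs_sum_le_sum_abs _ _
    _ ≤ ∑ v ∈ V, (if v ∈ bd A then (1 : ℝ) else 0) := Finset.sum_le_sum hterm
    _ = (Nat.card (bd A) : ℝ) := by
        rw [Finset.sum_ite, Finset.sum_const_zero, add_zero, Finset.sum_const, nsmul_eq_mul,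
          mul_one]
        congr 1
        rw [← Nat.card_eq_finsetCard]
        refine Nat.card_congr (Equiv.subtypeEquivRight fun v => ?_)
        rw [Finset.mem_filter, hVmem]
        exact ⟨fun h => h.2, fun h => ⟨bd_subset_meet A h, h⟩⟩

section Boundary

variable {κ : Type*} [Fintype κ] {J : Type*} [Fintype J]

/-- The grid point of `[0,1]^κ` with numerators `g` and denominator `N`. -/
noncomputable def grid (N : ℕ) (g : κ → Fin (N + 1)) : κ → ℝ := fun k => ((g k : ℕ) : ℝ) / N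

theorem grid_mem_Icc {N : ℕ} (hN : 0 < N) (g : κ → Fin (N + 1)) :
    grid N g ∈ Set.Icc (0 : κ → ℝ) 1 := by
  have hN' : (0 : ℝ) < N := Nat.cast_pos.2 hN
  rw [Set.mem_Icc, Pi.le_def, Pi.le_def]
  refine ⟨fun k => ?_, fun k => ?_⟩
  · exact div_nonneg (Nat.cast_nonneg _) hN'.le
  · rw [grid, Pi.one_apply, div_le_one hN']
    exact_mod_cast Nat.lt_succ_iff.1 (g k).2

/-- Every point of the unit cube is within `1 / N` of a grid point. -/
theorem exists_grid_dist_le {N : ℕ} (hN : 0 < N) {u : κ → ℝ} (hu : u ∈ Set.Icc (0 : κ → ℝ) 1) :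
    ∃ g : κ → Fin (N + 1), dist u (grid N g) ≤ 1 / N := by
  have hN' : (0 : ℝ) < N := Nat.cast_pos.2 hN
  rw [Set.mem_Icc, Pi.le_def, Pi.le_def] at hu
  have hfl : ∀ k, ⌊(N : ℝ) * u k⌋₊ < N + 1 := by
    intro k
    rw [Nat.lt_succ_iff]
    apply Nat.floor_le_of_le
    calc (N : ℝ) * u k ≤ N * 1 := mul_le_mul_of_nonneg_left (hu.2 k) hN'.le
      _ = N := mul_one _
  refine ⟨fun k => ⟨⌊(N : ℝ) * u k⌋₊, hfl k⟩, ?_⟩
  rw [dist_pi_le_iff (by positivity)]
  intro k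
  have h0 : 0 ≤ (N : ℝ) * u k := mul_nonneg hN'.le (hu.1 k)
  have h1 : (⌊(N : ℝ) * u k⌋₊ : ℝ) ≤ N * u k := Nat.floor_le h0
  have h2 : (N : ℝ) * u k < ⌊(N : ℝ) * u k⌋₊ + 1 := Nat.lt_floor_add_one _
  have h3 : grid N (fun k => (⟨⌊(N : ℝ) * u k⌋₊, hfl k⟩ : Fin (N + 1))) k =
      (⌊(N : ℝ) * u k⌋₊ : ℝ) / N := rfl
  rw [Real.dist_eq, h3]
  generalize (⌊(N : ℝ) * u k⌋₊ : ℝ) = m at h1 h2
  have h5 : u k - m / N = (N * u k - m) / N := by field_simp
  rw [h5, abs_le, neg_div' , div_le_div_iff_of_pos_right hN', div_le_div_iff_of_pos_right hN']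
  constructor <;> linarith

variable {A : Set (ι → ℝ)} {ψ : J → (κ → ℝ) → (ι → ℝ)} {Λ R : ℝ} {N : ℕ}

/-- Every boundary cube is close to the image of a grid point. -/
theorem exists_dist_le_of_mem_bd (hN : 0 < N)
    (hψ : ∀ j, ∀ u ∈ Set.Icc (0 : κ → ℝ) 1, ∀ u' ∈ Set.Icc (0 : κ → ℝ) 1,
      dist (ψ j u) (ψ j u') ≤ Λ * dist u u')
    (hΛ : 0 ≤ Λ) (hfr : frontier A ⊆ ⋃ j, ψ j '' Set.Icc (0 : κ → ℝ) 1)
    (hR : Λ / N + 1 ≤ R) {v : ι → ℤ} (hv : v ∈ bd A) :
    ∃ (j : J) (g : κ → Fin (N + 1)), dist (fun i => (v i : ℝ)) (ψ j (grid N g)) ≤ R := by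
  obtain ⟨y, hyv, hyfr⟩ := IsPreconnected.inter_frontier_nonempty' (isPreconnected_cube v) hv.1 hv.2
  obtain ⟨j, hj⟩ := Set.mem_iUnion.1 (hfr hyfr)
  obtain ⟨u, hu, rfl⟩ := hj
  obtain ⟨g, hg⟩ := exists_grid_dist_le hN hu
  refine ⟨j, g, ?_⟩
  have h1 : dist (ψ j u) (ψ j (grid N g)) ≤ Λ / N := by
    refine (hψ j u hu _ (grid_mem_Icc hN g)).trans ?_
    calc Λ * dist u (grid N g) ≤ Λ * (1 / N) := mul_le_mul_of_nonneg_left hg hΛ
      _ = Λ / N := by ring
  have h2 : dist (fun i => (v i : ℝ)) (ψ j u) ≤ 1 := by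
    rw [dist_comm]; exact dist_le_one_of_mem_cube hyv
  calc dist (fun i => (v i : ℝ)) (ψ j (grid N g))
      ≤ dist (fun i => (v i : ℝ)) (ψ j u) + dist (ψ j u) (ψ j (grid N g)) := dist_triangle _ _ _
    _ ≤ 1 + Λ / N := add_le_add h2 h1
    _ ≤ R := by linarith

/-- **Bound for the number of boundary cubes** from a Lipschitz covering of the frontier. -/
theorem card_bd_le (hA : IsBounded A) (hN : 0 < N)
    (hψ : ∀ j, ∀ u ∈ Set.Icc (0 : κ → ℝ) 1, ∀ u' ∈ Set.Icc (0 : κ → ℝ) 1,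
      dist (ψ j u) (ψ j u') ≤ Λ * dist u u')
    (hΛ : 0 ≤ Λ) (hfr : frontier A ⊆ ⋃ j, ψ j '' Set.Icc (0 : κ → ℝ) 1)
    (hR : Λ / N + 1 ≤ R) :
    Nat.card (bd A) ≤
      Fintype.card J * (N + 1) ^ Fintype.card κ * (⌊2 * R⌋₊ + 1) ^ Fintype.card ι := by
  classical
  have hR0 : 0 ≤ R := by
    have : 0 ≤ Λ / N := div_nonneg hΛ (Nat.cast_nonneg _)
    linarith
  have : Finite (bd A) := (finite_bd hA).to_subtype
  choose cj cg hc using fun (v : bd A) =>
    exists_dist_le_of_mem_bd hN hψ hΛ hfr hR v.2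
  -- offsets
  have hlow : ∀ (v : bd A) (i : ι), ⌈ψ (cj v) (grid N (cg v)) i - R⌉ ≤ v.1 i := by
    intro v i
    have hd := hc v
    rw [dist_pi_le_iff hR0] at hd
    have hdi := hd i
    rw [Real.dist_eq, abs_le] at hdi
    exact Int.ceil_le.2 (by linarith [hdi.1])
  have hoff : ∀ (v : bd A) (i : ι),
      (v.1 i - ⌈ψ (cj v) (grid N (cg v)) i - R⌉).toNat < ⌊2 * R⌋₊ + 1 := by
    intro v i
    have hd := hc v
    rw [dist_pi_le_iff hR0] at hd
    have hdi := hd i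
    rw [Real.dist_eq, abs_le] at hdi
    have h1 := hlow v i
    generalize ψ (cj v) (grid N (cg v)) i = c at hdi h1 ⊢
    have h2 : ((v.1 i - ⌈c - R⌉ : ℤ) : ℝ) ≤ 2 * R := by
      push_cast
      have : c - R ≤ (⌈c - R⌉ : ℝ) := Int.le_ceil _
      linarith [hdi.2]
    rw [Nat.lt_succ_iff]
    apply Nat.le_floor
    have hnn : 0 ≤ v.1 i - ⌈c - R⌉ := sub_nonneg.2 h1
    have h3 : (((v.1 i - ⌈c - R⌉).toNat : ℤ) : ℝ) = ((v.1 i - ⌈c - R⌉ : ℤ) : ℝ) := by
      rw [Int.toNat_of_nonneg hnn]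
    calc (((v.1 i - ⌈c - R⌉).toNat : ℕ) : ℝ) = (((v.1 i - ⌈c - R⌉).toNat : ℤ) : ℝ) := by
          push_cast; rfl
      _ = ((v.1 i - ⌈c - R⌉ : ℤ) : ℝ) := h3
      _ ≤ 2 * R := h2
  let f : bd A → J × (κ → Fin (N + 1)) × (ι → Fin (⌊2 * R⌋₊ + 1)) := fun v =>
    (cj v, cg v, fun i => ⟨_, hoff v i⟩)
  have hf : Function.Injective f := by
    intro v w hvw
    simp only [f, Prod.mk.injEq] at hvw
    obtain ⟨h1, h2, h3⟩ := hvw
    apply Subtype.ext
    funext i
    have h3i := congrFun h3 i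
    simp only [Fin.mk.injEq] at h3i
    have e1 := Int.toNat_of_nonneg (sub_nonneg.2 (hlow v i))
    have e2 := Int.toNat_of_nonneg (sub_nonneg.2 (hlow w i))
    have hcc : ψ (cj v) (grid N (cg v)) i = ψ (cj w) (grid N (cg w)) i := by rw [h1, h2]
    rw [hcc] at e1 h3i
    have : (v.1 i - ⌈ψ (cj w) (grid N (cg w)) i - R⌉ : ℤ) =
        w.1 i - ⌈ψ (cj w) (grid N (cg w)) i - R⌉ := by
      rw [← e1, ← e2, h3i]
    linarith
  calc Nat.card (bd A) ≤ Nat.card (J × (κ → Fin (N + 1)) × (ι → Fin (⌊2 * R⌋₊ + 1))) :=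
        Nat.card_le_card_of_injective f hf
    _ = Fintype.card J * (N + 1) ^ Fintype.card κ * (⌊2 * R⌋₊ + 1) ^ Fintype.card ι := by
        rw [Nat.card_eq_fintype_card, Fintype.card_prod, Fintype.card_prod, Fintype.card_fun,
          Fintype.card_fun, Fintype.card_fin, Fintype.card_fin, mul_assoc]

end Boundary

section Scaling

open Pointwise

theorem frontier_smul_set {t : ℝ} (ht : t ≠ 0) (s : Set (ι → ℝ)) :
    frontier (t • s) = t • frontier s := by
  have h := (Homeomorph.smulOfNeZero t ht : (ι → ℝ) ≃ₜ (ι → ℝ)).image_frontier s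
  simpa [Set.image_smul] using h.symm

theorem volume_real_smul_set {t : ℝ} (ht : 0 ≤ t) (s : Set (ι → ℝ)) :
    volume.real (t • s) = t ^ Fintype.card ι * volume.real s := by
  rw [measureReal_def, Measure.addHaar_smul_of_nonneg volume ht, ENNReal.toReal_mul,
    ENNReal.toReal_ofReal (pow_nonneg ht _), Module.finrank_fintype_fun_eq_card, measureReal_def]

/-- **Lattice point counting with error term** (standard lattice): if the frontier of the
bounded measurable set `s` is covered by `k` Lipschitz images of the `m`-dimensional unit cube,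
then `#(t • s ∩ ℤ^ι) = t ^ n * vol s + O(t ^ m)` for `t ≥ 1`. -/
theorem exists_bound_card_smul_sub {s : Set (ι → ℝ)} (hs : IsBounded s) (hsm : MeasurableSet s)
    {κ J : Type*} [Fintype κ] [Fintype J] (φ : J → (κ → ℝ) → (ι → ℝ)) (Λ : ℝ) (hΛ : 0 ≤ Λ)
    (hφ : ∀ j, ∀ u ∈ Set.Icc (0 : κ → ℝ) 1, ∀ u' ∈ Set.Icc (0 : κ → ℝ) 1,
      dist (φ j u) (φ j u') ≤ Λ * dist u u')
    (hfr : frontier s ⊆ ⋃ j, φ j '' Set.Icc (0 : κ → ℝ) 1) :
    ∃ C : ℝ, 0 ≤ C ∧ ∀ t : ℝ, 1 ≤ t →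
      |(Nat.card (intPts (t • s)) : ℝ) - t ^ Fintype.card ι * volume.real s| ≤
        C * t ^ Fintype.card κ := by
  set m := Fintype.card κ with hm
  set k := Fintype.card J with hk
  refine ⟨k * 3 ^ m * ((⌊2 * (Λ + 1)⌋₊ + 1 : ℕ) : ℝ) ^ Fintype.card ι, by positivity, ?_⟩
  intro t ht
  have ht0 : 0 < t := lt_of_lt_of_le one_pos ht
  have hA : IsBounded (t • s) := hs.smul₀ t
  have hAm : MeasurableSet (t • s) := hsm.const_smul₀ t
  have h1 := abs_card_sub_volume_le_card_bd hA hAm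
  rw [volume_real_smul_set ht0.le] at h1
  refine h1.trans ?_
  -- the boundary count
  set N : ℕ := ⌈t⌉₊ with hNdef
  have hN : 0 < N := Nat.ceil_pos.2 ht0
  have htN : t ≤ N := Nat.le_ceil t
  have hN' : (0 : ℝ) < N := Nat.cast_pos.2 hN
  have hψ : ∀ j, ∀ u ∈ Set.Icc (0 : κ → ℝ) 1, ∀ u' ∈ Set.Icc (0 : κ → ℝ) 1,
      dist ((fun j u => t • φ j u) j u) ((fun j u => t • φ j u) j u') ≤ (t * Λ) * dist u u' := by
    intro j u hu u' hu'
    simp only
    rw [dist_smul₀, Real.norm_eq_abs, abs_of_pos ht0, mul_assoc]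
    exact mul_le_mul_of_nonneg_left (hφ j u hu u' hu') ht0.le
  have hfr' : frontier (t • s) ⊆ ⋃ j, (fun j u => t • φ j u) j '' Set.Icc (0 : κ → ℝ) 1 := by
    rw [frontier_smul_set ht0.ne']
    rintro _ ⟨y, hy, rfl⟩
    obtain ⟨j, hj⟩ := Set.mem_iUnion.1 (hfr hy)
    obtain ⟨u, hu, rfl⟩ := hj
    exact Set.mem_iUnion.2 ⟨j, u, hu, rfl⟩
  have hR : t * Λ / N + 1 ≤ Λ + 1 := by
    have : t * Λ / N ≤ Λ := by
      rw [div_le_iff₀ hN']
      calc t * Λ ≤ N * Λ := mul_le_mul_of_nonneg_right htN hΛ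
        _ = Λ * N := mul_comm _ _
    linarith
  have h2 := card_bd_le hA hN hψ (mul_nonneg ht0.le hΛ) hfr' hR
  have h3 : (Nat.card (bd (t • s)) : ℝ) ≤
      ((k * (N + 1) ^ m *
        (⌊2 * (Λ + 1)⌋₊ + 1) ^ Fintype.card ι : ℕ) : ℝ) := by exact_mod_cast h2
  refine h3.trans ?_
  push_cast
  have h4 : ((N : ℝ) + 1) ^ m ≤ 3 ^ m * t ^ m := by
    rw [← mul_pow]
    refine pow_le_pow_left₀ (by positivity) ?_ m
    have : (N : ℝ) < t + 1 := Nat.ceil_lt_add_one ht0.le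
    linarith
  have h5 : (0 : ℝ) ≤ ((⌊2 * (Λ + 1)⌋₊ : ℝ) + 1) ^ Fintype.card ι := by positivity
  calc (k : ℝ) * ((N : ℝ) + 1) ^ m * ((⌊2 * (Λ + 1)⌋₊ : ℝ) + 1) ^ Fintype.card ι
      ≤ (k : ℝ) * (3 ^ m * t ^ m) * ((⌊2 * (Λ + 1)⌋₊ : ℝ) + 1) ^ Fintype.card ι := by
        gcongr
    _ = (k : ℝ) * 3 ^ m * ((⌊2 * (Λ + 1)⌋₊ : ℝ) + 1) ^ Fintype.card ι * t ^ m := by ring

end Scaling

section General

open Pointwise Module Submodule

theorem mem_span_basisFun_iff {x : ι → ℝ} :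
    x ∈ span ℤ (Set.range (Pi.basisFun ℝ ι)) ↔ ∀ i, ∃ n : ℤ, (n : ℝ) = x i := by
  classical
  rw [Basis.mem_span_iff_repr_mem]
  simp [Pi.basisFun_repr]

theorem card_inter_span_eq (A : Set (ι → ℝ)) :
    Nat.card (A ∩ (span ℤ (Set.range (Pi.basisFun ℝ ι)) : Set (ι → ℝ)) : Set (ι → ℝ)) =
      Nat.card (intPts A) := by
  symm
  refine Nat.card_congr (Equiv.ofBijective
    (fun v : intPts A => (⟨fun i => (v.1 i : ℝ), v.2,
      mem_span_basisFun_iff.2 fun i => ⟨v.1 i, rfl⟩⟩ :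
        (A ∩ (span ℤ (Set.range (Pi.basisFun ℝ ι)) : Set (ι → ℝ)) : Set (ι → ℝ)))) ⟨?_, ?_⟩)
  · intro v w hvw
    apply Subtype.ext
    funext i
    have := congrFun (congrArg Subtype.val hvw) i
    simp only at this
    exact_mod_cast this
  · rintro ⟨x, hxA, hx⟩
    choose n hn using mem_span_basisFun_iff.1 hx
    have hxn : (fun i => (n i : ℝ)) = x := funext hn
    exact ⟨⟨n, by rw [intPts, Set.mem_setOf_eq, hxn]; exact hxA⟩, Subtype.ext hxn⟩

variable {E : Type*} [NormedAddCommGroup E] [NormedSpace ℝ E]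
variable {L : Submodule ℤ E} [DiscreteTopology L] [IsZLattice ℝ L]

theorem smul_setOf_le_one {n : ℕ} {X : Set E} (hX : ∀ ⦃x⦄ ⦃r : ℝ⦄, x ∈ X → 0 < r → r • x ∈ X)
    {F : E → ℝ} (hF₁ : ∀ x ⦃r : ℝ⦄, 0 ≤ r → F (r • x) = r ^ n * (F x)) {c : ℝ} (hc : 0 < c) :
    c • {x ∈ X | F x ≤ 1} = {x ∈ X | F x ≤ c ^ n} := by
  ext x
  simp_rw [Set.mem_smul_set_iff_inv_smul_mem₀ hc.ne', Set.mem_setOf_eq, hF₁ _
    (inv_pos_of_pos hc).le, inv_pow, inv_mul_le_iff₀ (pow_pos hc _), mul_one, and_congr_left_iff]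
  exact fun _ ↦ ⟨fun h ↦ (smul_inv_smul₀ hc.ne' x) ▸ hX h hc, fun h ↦ hX h (inv_pos_of_pos hc)⟩

/-- Transport of the count to the standard lattice. -/
theorem card_inter_lattice_eq [FiniteDimensional ℝ E] (b : Basis ι ℤ L) (D : Set E) :
    Nat.card (D ∩ L : Set E) = Nat.card (intPts ((b.ofZLatticeBasis ℝ L).equivFun '' D)) := by
  classical
  rw [← card_inter_span_eq]
  refine Nat.card_congr ((b.ofZLatticeBasis ℝ L).equivFun.toEquiv.subtypeEquiv fun x => ?_)
  simp only [Set.mem_inter_iff, LinearEquiv.coe_toEquiv, Set.mem_image,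
    EmbeddingLike.apply_eq_iff_eq, exists_eq_right, SetLike.mem_coe]
  refine and_congr_right fun _ => ?_
  have h1 : x ∈ L ↔ x ∈ span ℤ (Set.range (b.ofZLatticeBasis ℝ L)) := by
    rw [b.ofZLatticeBasis_span ℝ]
  rw [h1, Basis.mem_span_iff_repr_mem, Basis.mem_span_iff_repr_mem]
  simp [Pi.basisFun_repr, Basis.equivFun_apply]

/-- **Counting lattice points of a homogeneous region with error term** (general version,
compare `ZLattice.covolume.tendsto_card_le_div''`). -/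
theorem exists_bound_card_le_sub'' [FiniteDimensional ℝ E] [MeasurableSpace E] [BorelSpace E]
    [Nonempty ι] (b : Basis ι ℤ L) {X : Set E}
    (hX : ∀ ⦃x⦄ ⦃r : ℝ⦄, x ∈ X → 0 < r → r • x ∈ X)
    {F : E → ℝ} (h₁ : ∀ x ⦃r : ℝ⦄, 0 ≤ r → F (r • x) = r ^ Fintype.card ι * (F x))
    (h₂ : IsBounded {x ∈ X | F x ≤ 1}) (h₃ : MeasurableSet {x ∈ X | F x ≤ 1})
    {κ J : Type*} [Fintype κ] [Fintype J] (φ : J → (κ → ℝ) → E) (Λ : ℝ) (hΛ : 0 ≤ Λ)
    (hφ : ∀ j, ∀ u ∈ Set.Icc (0 : κ → ℝ) 1, ∀ u' ∈ Set.Icc (0 : κ → ℝ) 1,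
      dist (φ j u) (φ j u') ≤ Λ * dist u u')
    (hfr : frontier {x ∈ X | F x ≤ 1} ⊆ ⋃ j, φ j '' Set.Icc (0 : κ → ℝ) 1) :
    ∃ C : ℝ, 0 ≤ C ∧ ∀ c : ℝ, 1 ≤ c →
      |(Nat.card ({x ∈ X | F x ≤ c} ∩ L : Set E) : ℝ) -
        c * volume.real ((b.ofZLatticeBasis ℝ L).equivFun '' {x ∈ X | F x ≤ 1})| ≤
        C * (c ^ ((Fintype.card ι : ℝ)⁻¹)) ^ Fintype.card κ := by
  classical
  set e := (b.ofZLatticeBasis ℝ L).equivFun with he
  set eL : E ≃L[ℝ] (ι → ℝ) := e.toContinuousLinearEquiv with heL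
  set D : Set E := {x ∈ X | F x ≤ 1} with hD
  have hes : IsBounded (e '' D) := by
    rw [← NormedSpace.isVonNBounded_iff ℝ] at h₂ ⊢
    exact Bornology.IsVonNBounded.image h₂ (eL : E →L[ℝ] ι → ℝ)
  have hem : MeasurableSet (e '' D) :=
    eL.toHomeomorph.toMeasurableEquiv.measurableSet_image.mpr h₃
  have hfr' : frontier (e '' D) ⊆ ⋃ j, (fun j u => e (φ j u)) j '' Set.Icc (0 : κ → ℝ) 1 := by
    have : frontier (e '' D) = e '' frontier D := (eL.toHomeomorph.image_frontier D).symm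
    rw [this]
    rintro _ ⟨y, hy, rfl⟩
    obtain ⟨j, hj⟩ := Set.mem_iUnion.1 (hfr hy)
    obtain ⟨u, hu, rfl⟩ := hj
    exact Set.mem_iUnion.2 ⟨j, u, hu, rfl⟩
  have hφ' : ∀ j, ∀ u ∈ Set.Icc (0 : κ → ℝ) 1, ∀ u' ∈ Set.Icc (0 : κ → ℝ) 1,
      dist ((fun j u => e (φ j u)) j u) ((fun j u => e (φ j u)) j u') ≤
        (‖(eL : E →L[ℝ] ι → ℝ)‖ * Λ) * dist u u' := by
    intro j u hu u' hu'
    simp only
    have h1 : dist (e (φ j u)) (e (φ j u')) ≤ ‖(eL : E →L[ℝ] ι → ℝ)‖ * dist (φ j u) (φ j u') := by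
      have := (eL : E →L[ℝ] ι → ℝ).lipschitz.dist_le_mul (φ j u) (φ j u')
      exact this
    refine h1.trans ?_
    rw [mul_assoc]
    exact mul_le_mul_of_nonneg_left (hφ j u hu u' hu') (norm_nonneg _)
  obtain ⟨C, hC0, hC⟩ := exists_bound_card_smul_sub hes hem (fun j u => e (φ j u))
    (‖(eL : E →L[ℝ] ι → ℝ)‖ * Λ) (mul_nonneg (norm_nonneg _) hΛ) hφ' hfr'
  refine ⟨C, hC0, fun c hc => ?_⟩
  have hc0 : 0 < c := lt_of_lt_of_le one_pos hc
  have hn : (Fintype.card ι : ℝ) ≠ 0 := Nat.cast_ne_zero.2 Fintype.card_ne_zero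
  set t : ℝ := c ^ ((Fintype.card ι : ℝ)⁻¹) with ht
  have ht0 : 0 < t := Real.rpow_pos_of_pos hc0 _
  have ht1 : 1 ≤ t := Real.one_le_rpow hc (inv_nonneg.2 (Nat.cast_nonneg _))
  have htn : t ^ Fintype.card ι = c := by
    rw [ht, ← Real.rpow_natCast, ← Real.rpow_mul hc0.le, inv_mul_cancel₀ hn, Real.rpow_one]
  have hset : {x ∈ X | F x ≤ c} = t • D := by
    rw [hD, smul_setOf_le_one hX h₁ ht0, htn]
  have himg : e '' (t • D) = t • (e '' D) := by
    rw [← Set.image_smul, ← Set.image_smul, Set.image_image, Set.image_image]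
    congr 1
    funext x
    exact map_smul e t x
  have := hC t ht1
  rw [htn] at this
  rw [hset, card_inter_lattice_eq b, himg]
  exact this

/-- **Counting lattice points of a homogeneous region with error term**, inner product space
version (compare `ZLattice.covolume.tendsto_card_le_div'`). -/
theorem exists_bound_card_le_sub' {E : Type*} [NormedAddCommGroup E] [InnerProductSpace ℝ E]
    [FiniteDimensional ℝ E] [MeasurableSpace E] [BorelSpace E] [Nontrivial E]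
    (L : Submodule ℤ E) [DiscreteTopology L] [IsZLattice ℝ L] {X : Set E} {F : E → ℝ}
    (hX : ∀ ⦃x⦄ ⦃r : ℝ⦄, x ∈ X → 0 < r → r • x ∈ X)
    (h₁ : ∀ x ⦃r : ℝ⦄, 0 ≤ r → F (r • x) = r ^ finrank ℝ E * (F x))
    (h₂ : IsBounded {x ∈ X | F x ≤ 1}) (h₃ : MeasurableSet {x ∈ X | F x ≤ 1})
    {κ J : Type*} [Fintype κ] [Fintype J] (φ : J → (κ → ℝ) → E) (Λ : ℝ) (hΛ : 0 ≤ Λ)
    (hφ : ∀ j, ∀ u ∈ Set.Icc (0 : κ → ℝ) 1, ∀ u' ∈ Set.Icc (0 : κ → ℝ) 1,
      dist (φ j u) (φ j u') ≤ Λ * dist u u')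
    (hfr : frontier {x ∈ X | F x ≤ 1} ⊆ ⋃ j, φ j '' Set.Icc (0 : κ → ℝ) 1) :
    ∃ C : ℝ, 0 ≤ C ∧ ∀ c : ℝ, 1 ≤ c →
      |(Nat.card ({x ∈ X | F x ≤ c} ∩ L : Set E) : ℝ) -
        c * (volume.real {x ∈ X | F x ≤ 1} / ZLattice.covolume L)| ≤
        C * (c ^ ((finrank ℝ E : ℝ)⁻¹)) ^ Fintype.card κ := by
  let b := Module.Free.chooseBasis ℤ L
  have hcard : Fintype.card (Module.Free.ChooseBasisIndex ℤ L) = finrank ℝ E := by
    rw [← finrank_eq_card_chooseBasisIndex, ZLattice.rank ℝ L]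
  have : Nontrivial L := nontrivial_of_finrank_pos <| (ZLattice.rank ℝ L).symm ▸ finrank_pos
  have hne : Nonempty (Module.Free.ChooseBasisIndex ℤ L) := inferInstance
  have h₁' : ∀ x ⦃r : ℝ⦄, 0 ≤ r →
      F (r • x) = r ^ Fintype.card (Module.Free.ChooseBasisIndex ℤ L) * (F x) := by
    rw [hcard]; exact h₁
  obtain ⟨C, hC0, hC⟩ := exists_bound_card_le_sub'' b hX h₁' h₂ h₃ φ Λ hΛ hφ hfr
  refine ⟨C, hC0, fun c hc => ?_⟩
  have := hC c hc
  rw [hcard] at this
  have hvol : volume.real ((b.ofZLatticeBasis ℝ L).equivFun '' {x ∈ X | F x ≤ 1}) =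
      volume.real {x ∈ X | F x ≤ 1} / ZLattice.covolume L := by
    simp only [measureReal_def]
    rw [ZLattice.volume_image_eq_volume_div_covolume' L b h₃.nullMeasurableSet, ENNReal.toReal_div,
      ENNReal.toReal_ofReal (ZLattice.covolume_pos L volume).le]
  rwa [hvol] at this

end General

end Fermat.Agent.S14.LatticeCountError
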