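import Mathlib

/-!
# The frontier of `normLeOne K` is Lipschitz-parametrisable

`normLeOne K` is the subset of the fundamental cone (for the action of the units on the mixed
space of the number field `K`) of elements of norm `≤ 1`. Mathlib proves that its frontier has
measure zero. Here we prove the quantitative refinement needed for lattice point counting with
an error term: the frontier is covered by finitely many Lipschitz images of a cube of dimension
`finrank ℚ K - 1`.
-/

set_option autoImplicit false

open NumberField NumberField.InfinitePlace NumberField.mixedEmbedding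
  NumberField.mixedEmbedding.fundamentalCone NumberField.Units
  NumberField.Units.dirichletUnitTheorem

namespace Fermat.Agent.S14.NormLeOneLipschitz

open scoped Classical

noncomputable section

variable (K : Type*) [Field K] [NumberField K]

/-- The parameter type: the places other than `w₀` (for a face of the box) and the complex
places (for the angles). -/
abbrev Param := {w : InfinitePlace K // w ≠ w₀} ⊕ {w : InfinitePlace K // IsComplex w}

/-- The index type of the charts: a face of the box (a place and a side) and a choice of signs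
at the real places. -/
abbrev Idx := (InfinitePlace K × Bool) × ({w : InfinitePlace K // IsReal w} → Bool)

/-- The map `z ↦ z w₀ • expMapBasis (z with the `w₀` coordinate set to `0`)`, which maps the
box `[0,1]^(InfinitePlace K)` onto `compactSet K`. -/
noncomputable def gMap (z : realSpace K) : realSpace K :=
  z w₀ • expMapBasis (fun w => if w = w₀ then 0 else z w)

theorem contDiff_expMapBasis : ContDiff ℝ 1 (expMapBasis : realSpace K → realSpace K) := by
  rw [contDiff_pi]
  intro w
  have h1 : (fun x : realSpace K => expMapBasis x w) =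
      fun x => Real.exp ((w.mult : ℝ)⁻¹ * ((completeBasis K).equivFunL.symm x) w) := by
    funext x
    rfl
  rw [h1]
  refine Real.contDiff_exp.comp (contDiff_const.mul ?_)
  exact (contDiff_apply ℝ ℝ w).comp (completeBasis K).equivFunL.symm.contDiff

theorem contDiff_gMap : ContDiff ℝ 1 (gMap K) := by
  unfold gMap
  refine ContDiff.smul (contDiff_apply ℝ ℝ w₀) ((contDiff_expMapBasis K).comp ?_)
  rw [contDiff_pi]
  intro w
  split_ifs
  · exact contDiff_const
  · exact contDiff_apply ℝ ℝ w

theorem exists_gMap_eq_of_mem_compactSet {x : realSpace K} (hx : x ∈ compactSet K) :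
    ∃ z ∈ Set.Icc (0 : realSpace K) 1, gMap K z = x := by
  obtain ⟨c, hc, _, ⟨y, hy, rfl⟩, rfl⟩ := hx
  rw [Set.mem_univ_pi] at hy
  refine ⟨fun w => if w = w₀ then c else y w, ?_, ?_⟩
  · rw [Set.mem_Icc, Pi.le_def, Pi.le_def]
    refine ⟨fun w => ?_, fun w => ?_⟩
    · by_cases hw : w = w₀
      · simp only [hw, if_true]; exact hc.1
      · have := hy w
        simp only [hw, if_false] at this ⊢
        exact this.1
    · by_cases hw : w = w₀
      · simp only [hw, if_true]; exact hc.2
      · have := hy w
        simp only [hw, if_false] at this ⊢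
        exact this.2
  · unfold gMap
    simp only [if_true]
    congr 2
    funext w
    by_cases hw : w = w₀
    · have := hy w₀
      simp only [if_true, Set.mem_singleton_iff] at this
      simp [hw, this]
    · simp [hw]

theorem gMap_mem_image_interior {z : realSpace K} (hz : ∀ w, z w ∈ Set.Ioo (0 : ℝ) 1) :
    gMap K z ∈ expMapBasis '' interior (paramSet K) := by
  refine ⟨fun w => if w = w₀ then Real.log (z w₀) else z w, ?_, ?_⟩
  · rw [interior_paramSet, Set.mem_univ_pi]
    intro w
    by_cases hw : w = w₀
    · simp only [hw, if_true, Set.mem_Iio]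
      exact Real.log_neg (hz w₀).1 (hz w₀).2
    · simp only [hw, if_false]
      exact hz w
  · rw [expMapBasis_apply'']
    unfold gMap
    simp only [if_true]
    rw [Real.exp_log (hz w₀).1]
    congr 2
    funext w
    by_cases hw : w = w₀
    · simp [hw]
    · simp [hw]

/-- The frontier of `normLeOne K` lies over the image of the boundary of the box. -/
theorem exists_of_mem_frontier {x : mixedSpace K} (hx : x ∈ frontier (normLeOne K)) :
    ∃ z ∈ Set.Icc (0 : realSpace K) 1, (∃ w, z w = 0 ∨ z w = 1) ∧
      gMap K z = normAtAllPlaces x := by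
  rw [frontier, Set.mem_sdiff] at hx
  obtain ⟨z, hz, hzx⟩ := exists_gMap_eq_of_mem_compactSet K (closure_normLeOne_subset K hx.1)
  refine ⟨z, hz, ?_, hzx⟩
  by_contra hne
  push Not at hne
  apply hx.2
  apply subset_interior_normLeOne K
  rw [Set.mem_preimage, ← hzx]
  apply gMap_mem_image_interior
  intro w
  rw [Set.mem_Icc, Pi.le_def, Pi.le_def] at hz
  exact ⟨lt_of_le_of_ne (hz.1 w) (Ne.symm (hne w).1), lt_of_le_of_ne (hz.2 w) (hne w).2⟩

theorem swap_ne_of_ne {w₁ w : InfinitePlace K} (hw : w ≠ w₁) : Equiv.swap w₀ w₁ w ≠ w₀ := by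
  intro h
  rw [Equiv.swap_apply_eq_iff, Equiv.swap_apply_left] at h
  exact hw h

/-- The point of the face `z w₁ = ε` of the box with the other coordinates given by `u`. -/
noncomputable def faceZ (w₁ : InfinitePlace K) (ε : Bool) (u : Param K → ℝ) : realSpace K :=
  fun w => if h : w = w₁ then (if ε then 1 else 0)
    else u (Sum.inl ⟨Equiv.swap w₀ w₁ w, swap_ne_of_ne K h⟩)

theorem contDiff_faceZ (w₁ : InfinitePlace K) (ε : Bool) : ContDiff ℝ 1 (faceZ K w₁ ε) := by
  rw [contDiff_pi]
  intro w
  unfold faceZ
  by_cases h : w = w₁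
  · simp only [h, dif_pos]
    exact contDiff_const
  · simp only [h, dif_neg, not_false_eq_true]
    exact contDiff_apply ℝ ℝ _

/-- The charts covering the frontier of `normLeOne K`. -/
noncomputable def Psi (j : Idx K) (u : Param K → ℝ) : mixedSpace K :=
  (fun w => (if j.2 w then (1 : ℝ) else -1) * gMap K (faceZ K j.1.1 j.1.2 u) w.1,
   fun w => ((gMap K (faceZ K j.1.1 j.1.2 u) w.1 : ℝ) : ℂ) *
      Complex.exp (((2 * Real.pi * u (Sum.inr w) - Real.pi : ℝ) : ℂ) * Complex.I))

theorem contDiff_Psi (j : Idx K) : ContDiff ℝ 1 (Psi K j) := by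
  have hg : ContDiff ℝ 1 fun u : Param K → ℝ => gMap K (faceZ K j.1.1 j.1.2 u) :=
    (contDiff_gMap K).comp (contDiff_faceZ K j.1.1 j.1.2)
  have hgw : ∀ w : InfinitePlace K,
      ContDiff ℝ 1 fun u : Param K → ℝ => gMap K (faceZ K j.1.1 j.1.2 u) w :=
    fun w => (contDiff_apply ℝ ℝ w).comp hg
  unfold Psi
  refine ContDiff.prodMk ?_ ?_
  · rw [contDiff_pi]
    intro w
    exact contDiff_const.mul (hgw w.1)
  · rw [contDiff_pi]
    intro w
    refine ContDiff.mul (Complex.ofRealCLM.contDiff.comp (hgw w.1)) (ContDiff.cexp ?_)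
    refine ContDiff.mul (Complex.ofRealCLM.contDiff.comp ?_) contDiff_const
    exact (contDiff_const.mul (contDiff_apply ℝ ℝ _)).sub contDiff_const

/-- Each chart is Lipschitz on the unit cube. -/
theorem exists_lipschitzOnWith_Psi (j : Idx K) :
    ∃ C, LipschitzOnWith C (Psi K j) (Set.Icc (0 : Param K → ℝ) 1) :=
  (contDiff_Psi K j).contDiffOn.exists_lipschitzOnWith one_ne_zero (convex_Icc _ _) isCompact_Icc

/-- **The frontier of `normLeOne K` is covered by the charts `Psi K j`.** -/
theorem frontier_subset_iUnion :
    frontier (normLeOne K) ⊆ ⋃ j : Idx K, Psi K j '' Set.Icc (0 : Param K → ℝ) 1 := by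
  intro x hx
  obtain ⟨z, hz, ⟨w₁, hw₁⟩, hzx⟩ := exists_of_mem_frontier K hx
  rw [Set.mem_Icc, Pi.le_def, Pi.le_def] at hz
  set ε : Bool := decide (z w₁ = 1) with hε
  have hzε : z w₁ = if ε then 1 else 0 := by
    by_cases h1 : z w₁ = 1
    · simp [hε, h1]
    · have h0 : z w₁ = 0 := hw₁.resolve_right h1
      simp [hε, h1, h0]
  set sgn : {w : InfinitePlace K // IsReal w} → Bool := fun w => decide (0 ≤ x.1 w) with hsgn
  set u : Param K → ℝ := Sum.elim (fun w' => z (Equiv.swap w₀ w₁ w'.1))
    (fun w => (Complex.arg (x.2 w) + Real.pi) / (2 * Real.pi)) with hu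
  have hface : faceZ K w₁ ε u = z := by
    funext w
    unfold faceZ
    by_cases h : w = w₁
    · simp only [h, dif_pos]
      exact hzε.symm
    · simp only [h, dif_neg, not_false_eq_true, hu, Sum.elim_inl, Equiv.swap_apply_self]
  refine Set.mem_iUnion.2 ⟨((w₁, ε), sgn), u, ?_, ?_⟩
  · rw [Set.mem_Icc, Pi.le_def, Pi.le_def]
    have hpi : 0 < 2 * Real.pi := by positivity
    refine ⟨fun i => ?_, fun i => ?_⟩
    · rcases i with w' | w
      · exact hz.1 _
      · simp only [hu, Sum.elim_inr, Pi.zero_apply]
        apply div_nonneg _ hpi.le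
        linarith [Complex.neg_pi_lt_arg (x.2 w)]
    · rcases i with w' | w
      · exact hz.2 _
      · simp only [hu, Sum.elim_inr, Pi.one_apply]
        rw [div_le_one hpi]
        linarith [Complex.arg_le_pi (x.2 w)]
  · unfold Psi
    simp only [hface, hzx]
    refine Prod.ext ?_ ?_
    · funext w
      simp only [normAtAllPlaces_apply, normAtPlace_apply_of_isReal w.2, hsgn, Real.norm_eq_abs]
      by_cases h0 : 0 ≤ x.1 w
      · simp only [h0, decide_true, if_true, one_mul, abs_of_nonneg]
      · have : x.1 w < 0 := not_le.1 h0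
        simp only [h0, decide_false, Bool.false_eq_true, if_false, abs_of_neg this]
        ring
    · funext w
      simp only [normAtAllPlaces_apply, normAtPlace_apply_of_isComplex w.2, hu, Sum.elim_inr]
      have hpi : (2 * Real.pi) ≠ 0 := by positivity
      have : 2 * Real.pi * ((Complex.arg (x.2 w) + Real.pi) / (2 * Real.pi)) - Real.pi =
          Complex.arg (x.2 w) := by
        field_simp
        ring
      rw [this]
      exact Complex.norm_mul_exp_arg_mul_I (x.2 w)

/-- The dimension of the parameter cube is `finrank ℚ K - 1`. -/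
theorem card_param_add_one : Fintype.card (Param K) + 1 = Module.finrank ℚ K := by
  have h1 : Fintype.card {w : InfinitePlace K // w ≠ w₀} + 1 = Fintype.card (InfinitePlace K) := by
    have := Fintype.card_subtype_compl (fun w : InfinitePlace K => w = w₀)
    simp only [Fintype.card_unique] at this
    have hpos : 0 < Fintype.card (InfinitePlace K) := Fintype.card_pos
    have h2 : Fintype.card {w : InfinitePlace K // w ≠ w₀} =
        Fintype.card {w : InfinitePlace K // ¬ w = w₀} := Fintype.card_congr (Equiv.refl _)
    omega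
  have h2 := card_eq_nrRealPlaces_add_nrComplexPlaces K
  have h3 := card_add_two_mul_card_eq_rank K
  have h4 : Fintype.card {w : InfinitePlace K // IsComplex w} = nrComplexPlaces K :=
    Fintype.card_congr (Equiv.refl _)
  rw [Fintype.card_sum]
  omega

/-- **Packaged statement**: the frontier of `normLeOne K` is covered by finitely many
Lipschitz images of the cube `[0,1]^(Param K)`, with `card (Param K) = finrank ℚ K - 1`. -/
theorem exists_lipschitz_cover :
    ∃ Λ : ℝ, 0 ≤ Λ ∧
      (∀ j : Idx K, ∀ u ∈ Set.Icc (0 : Param K → ℝ) 1, ∀ u' ∈ Set.Icc (0 : Param K → ℝ) 1,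
        dist (Psi K j u) (Psi K j u') ≤ Λ * dist u u') ∧
      frontier (normLeOne K) ⊆ ⋃ j : Idx K, Psi K j '' Set.Icc (0 : Param K → ℝ) 1 := by
  choose C hC using exists_lipschitzOnWith_Psi K
  refine ⟨((Finset.univ.sup C : NNReal) : ℝ), NNReal.coe_nonneg _, ?_, frontier_subset_iUnion K⟩
  intro j u hu u' hu'
  have h1 := (hC j).dist_le_mul u hu u' hu'
  refine h1.trans ?_
  refine mul_le_mul_of_nonneg_right ?_ dist_nonneg
  exact_mod_cast Finset.le_sup (f := C) (Finset.mem_univ j)

end

end Fermat.Agent.S14.NormLeOneLipschitz
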