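import Mathlib
import Fermat.Agent.S14.LatticeCountError
import Fermat.Agent.S14.NormLeOneLipschitz

/-!
# Counting integral ideals in a class of the class group, with a power-saving error term

Mathlib proves (`NumberField.Ideal.tendsto_norm_le_and_mk_eq_div_atTop`) that the number of
integral ideals of norm `≤ s` in a class `C` of the class group is `κ * s + o(s)`. Here we
prove the quantitative version `κ * s + O(s ^ (1 - 1 / n))`, `n = [K : ℚ]`, which is what is
needed to show that the `L`-series of a nontrivial character of the class group stays bounded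
as `s → 1⁺`.
-/

set_option autoImplicit false

noncomputable section

open Ideal NumberField NumberField.InfinitePlace NumberField.mixedEmbedding
  NumberField.mixedEmbedding.fundamentalCone NumberField.mixedEmbedding.euclidean
  NumberField.Units Submodule Module MeasureTheory

open scoped nonZeroDivisors Real

namespace Fermat.Agent.S14.IdealCountError

open scoped Classical

variable (K : Type*) [Field K] [NumberField K]

/-- The constant `κ` of the ideal counting asymptotics in a class of the class group. -/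
def kappa : ℝ :=
  (2 ^ nrRealPlaces K * (2 * π) ^ nrComplexPlaces K * regulator K) /
    (torsionOrder K * Real.sqrt |discr K|)

variable {C : ClassGroup (𝓞 K)} {J : (Ideal (𝓞 K))⁰} {s : ℝ}

theorem card_norm_le_and_mk_eq_aux₁ (hJ : ClassGroup.mk0 J = C⁻¹) :
    Nat.card {I : (Ideal (𝓞 K))⁰ // absNorm (I : Ideal (𝓞 K)) ≤ s ∧ ClassGroup.mk0 I = C}
      = Nat.card {I : (Ideal (𝓞 K))⁰ // (J : Ideal (𝓞 K)) ∣ I ∧ IsPrincipal (I : Ideal (𝓞 K)) ∧
        absNorm (I : Ideal (𝓞 K)) ≤ s * absNorm (J : Ideal (𝓞 K))} := by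
  simp_rw [← nonZeroDivisors_dvd_iff_dvd_coe]
  refine Nat.card_congr ?_
  refine ((Equiv.dvd J).subtypeEquiv fun I ↦ ?_).trans
    (Equiv.subtypeSubtypeEquivSubtypeInter (fun I : (Ideal (𝓞 K))⁰ ↦ J ∣ I) _)
  rw [← ClassGroup.mk0_eq_one_iff (SetLike.coe_mem _)]
  simp_rw [Equiv.dvd_apply, Submonoid.coe_mul, ← Submonoid.mul_def, _root_.map_mul, hJ,
    inv_mul_eq_one, Nat.cast_mul, mul_comm s, eq_comm, and_comm, and_congr_left_iff]
  exact fun _ ↦
    (mul_le_mul_iff_of_pos_left (Nat.cast_pos.mpr (absNorm_pos_of_nonZeroDivisors J))).symm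

def card_norm_le_and_mk_eq_aux₂ :
    ↑({x | x ∈ (toMixed K) ⁻¹' fundamentalCone K ∧ mixedEmbedding.norm ((toMixed K) x) ≤ s} ∩
      (ZLattice.comap ℝ (idealLattice K ((FractionalIdeal.mk0 K) J)) (toMixed K).toLinearMap))
        ≃ {a : idealSet K J // mixedEmbedding.norm (a : mixedSpace K) ≤ s} := by
  rw [ZLattice.coe_comap]
  refine (((toMixed K).toEquiv.image _).trans (Equiv.subtypeEquivProp ?_)).trans
    (Equiv.subtypeSubtypeEquivSubtypeInter _ (mixedEmbedding.norm · ≤ s)).symm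
  ext
  simp_rw [mem_idealSet, Set.mem_image, Set.mem_inter_iff, Set.mem_preimage, SetLike.mem_coe,
    mem_idealLattice, FractionalIdeal.coe_mk0]
  constructor
  · rintro ⟨_, ⟨⟨hx₁, hx₂⟩, _, ⟨x, hx₃, rfl⟩, h⟩, rfl⟩
    exact ⟨⟨hx₁, x, hx₃, h⟩, hx₂⟩
  · rintro ⟨⟨hx₁, ⟨x, hx₂, rfl⟩⟩, hx₃⟩
    exact ⟨(toMixed K).symm (mixedEmbedding K x), ⟨⟨hx₁, hx₃⟩, ⟨(x : K), by simp [hx₂], rfl⟩⟩, rfl⟩

open NormLeOneLipschitz LatticeCountError in
/-- Counting the points of `idealSet K J` of norm `≤ c`, with error term. -/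
theorem exists_bound_card_idealSet (J : (Ideal (𝓞 K))⁰) :
    ∃ B : ℝ, 0 ≤ B ∧ ∀ c : ℝ, 1 ≤ c →
      |(Nat.card {a : idealSet K J // mixedEmbedding.norm (a : mixedSpace K) ≤ c} : ℝ) -
        c * (volume.real (toMixed K ⁻¹' normLeOne K) /
          ZLattice.covolume (ZLattice.comap ℝ (idealLattice K ((FractionalIdeal.mk0 K) J))
            (toMixed K).toLinearMap))| ≤
        B * (c ^ ((finrank ℚ K : ℝ)⁻¹)) ^ Fintype.card (Param K) := by
  classical
  obtain ⟨Λ, hΛ, hlip, hcov⟩ := exists_lipschitz_cover K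
  have h₁ : ∀ s : ℝ,
    {x | x ∈ toMixed K ⁻¹' fundamentalCone K ∧ mixedEmbedding.norm (toMixed K x) ≤ s} =
      toMixed K ⁻¹' {x | x ∈ fundamentalCone K ∧ mixedEmbedding.norm x ≤ s} := fun _ ↦ rfl
  have h₂ : {x | x ∈ fundamentalCone K ∧ mixedEmbedding.norm x ≤ 1} = normLeOne K := by ext; simp
  have hlip' : ∀ j : Idx K, ∀ u ∈ Set.Icc (0 : Param K → ℝ) 1, ∀ u' ∈ Set.Icc (0 : Param K → ℝ) 1,
      dist ((fun j u => (toMixed K).symm (Psi K j u)) j u)
        ((fun j u => (toMixed K).symm (Psi K j u)) j u') ≤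
        (‖((toMixed K).symm : mixedSpace K →L[ℝ] euclidean.mixedSpace K)‖ * Λ) * dist u u' := by
    intro j u hu u' hu'
    simp only
    have h1 := ((toMixed K).symm : mixedSpace K →L[ℝ] euclidean.mixedSpace K).lipschitz.dist_le_mul
      (Psi K j u) (Psi K j u')
    refine h1.trans ?_
    rw [mul_assoc]
    exact mul_le_mul_of_nonneg_left (hlip j u hu u' hu') (NNReal.coe_nonneg _)
  have hfr : frontier {x | x ∈ toMixed K ⁻¹' fundamentalCone K ∧
      mixedEmbedding.norm (toMixed K x) ≤ 1} ⊆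
      ⋃ j : Idx K, (fun j u => (toMixed K).symm (Psi K j u)) j '' Set.Icc (0 : Param K → ℝ) 1 := by
    rw [h₁, h₂, ← (toMixed K).coe_toHomeomorph, ← Homeomorph.preimage_frontier,
      (toMixed K).coe_toHomeomorph]
    intro x hx
    obtain ⟨j, hj⟩ := Set.mem_iUnion.1 (hcov hx)
    obtain ⟨u, hu, hux⟩ := hj
    refine Set.mem_iUnion.2 ⟨j, u, hu, ?_⟩
    simp only [hux, ContinuousLinearEquiv.symm_apply_apply]
  obtain ⟨B, hB0, hB⟩ := exists_bound_card_le_sub'
    (ZLattice.comap ℝ (mixedEmbedding.idealLattice K (FractionalIdeal.mk0 K J))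
      (toMixed K).toLinearMap)
    (F := fun x ↦ mixedEmbedding.norm (toMixed K x)) (X := (toMixed K) ⁻¹' (fundamentalCone K))
    (fun _ _ _ h ↦ by rwa [Set.mem_preimage, map_smul, smul_mem_iff_mem h.ne'])
    (fun _ _ h ↦ by rw [map_smul, mixedEmbedding.norm_smul, euclidean.finrank, abs_of_nonneg h])
    (by rw [h₁, h₂]; exact (toMixed K).antilipschitz.isBounded_preimage (isBounded_normLeOne K))
    (by rw [h₁, h₂]; exact (toMixed K).continuous.measurable (measurableSet_normLeOne K))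
    (fun j u => (toMixed K).symm (Psi K j u))
    (‖((toMixed K).symm : mixedSpace K →L[ℝ] euclidean.mixedSpace K)‖ * Λ)
    (mul_nonneg (norm_nonneg _) hΛ) hlip' hfr
  refine ⟨B, hB0, fun c hc => ?_⟩
  have := hB c hc
  rw [Nat.card_congr (card_norm_le_and_mk_eq_aux₂ K), euclidean.finrank, h₁, h₂] at this
  exact this

theorem volume_div_covolume_eq (J : (Ideal (𝓞 K))⁰) :
    volume.real (toMixed K ⁻¹' normLeOne K) /
      ZLattice.covolume (ZLattice.comap ℝ (idealLattice K ((FractionalIdeal.mk0 K) J))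
        (toMixed K).toLinearMap) =
      kappa K * torsionOrder K / absNorm (J : Ideal (𝓞 K)) := by
  have h₃ : (absNorm (J : Ideal (𝓞 K)) : ℝ) ≠ 0 :=
    Nat.cast_ne_zero.mpr (absNorm_ne_zero_of_nonZeroDivisors J)
  have hw : (torsionOrder K : ℝ) ≠ 0 := Nat.cast_ne_zero.mpr (torsionOrder_ne_zero K)
  have hd : Real.sqrt |(discr K : ℝ)| ≠ 0 :=
    (Real.sqrt_pos_of_pos (abs_pos.mpr (Int.cast_ne_zero.mpr (discr_ne_zero K)))).ne'
  rw [MeasureTheory.measureReal_def, (volumePreserving_toMixed K).measure_preimage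
    (measurableSet_normLeOne K).nullMeasurableSet, volume_normLeOne, ZLattice.covolume_comap
    _ _ _ (volumePreserving_toMixed K), covolume_idealLattice, ENNReal.toReal_mul,
    ENNReal.toReal_mul, ENNReal.toReal_pow, ENNReal.toReal_pow, ENNReal.toReal_ofNat,
    ENNReal.coe_toReal, NNReal.coe_real_pi, ENNReal.toReal_ofReal (regulator_pos K).le,
    FractionalIdeal.coe_mk0, FractionalIdeal.coeIdeal_absNorm, Rat.cast_natCast, kappa, mul_pow]
  field_simp
  rw [mul_assoc, ← mul_pow]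
  norm_num

/-- **Ideal counting in a class of the class group, with a power-saving error term.** -/
theorem exists_bound_card_norm_le_and_mk_eq (C : ClassGroup (𝓞 K)) :
    ∃ B : ℝ, 0 ≤ B ∧ ∀ s : ℝ, 1 ≤ s →
      |(Nat.card {I : (Ideal (𝓞 K))⁰ //
          absNorm (I : Ideal (𝓞 K)) ≤ s ∧ ClassGroup.mk0 I = C} : ℝ) - kappa K * s| ≤
        B * s ^ (1 - (finrank ℚ K : ℝ)⁻¹) := by
  obtain ⟨J, hJ⟩ := ClassGroup.mk0_surjective C⁻¹
  obtain ⟨B, hB0, hB⟩ := exists_bound_card_idealSet K J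
  set NJ : ℝ := (absNorm (J : Ideal (𝓞 K)) : ℝ) with hNJ
  have hNJ1 : 1 ≤ NJ := by
    rw [hNJ]
    exact_mod_cast Nat.one_le_iff_ne_zero.2 (absNorm_ne_zero_of_nonZeroDivisors J)
  have hNJ0 : 0 < NJ := lt_of_lt_of_le one_pos hNJ1
  set w : ℝ := (torsionOrder K : ℝ) with hw
  have hw0 : 0 < w := by rw [hw]; exact_mod_cast torsionOrder_pos K
  have hn0 : (0 : ℝ) < (finrank ℚ K : ℝ) := Nat.cast_pos.2 finrank_pos
  have hm : (Fintype.card (NormLeOneLipschitz.Param K) : ℝ) + 1 = (finrank ℚ K : ℝ) := by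
    exact_mod_cast NormLeOneLipschitz.card_param_add_one K
  have hexp : (finrank ℚ K : ℝ)⁻¹ * (Fintype.card (NormLeOneLipschitz.Param K) : ℝ) =
      1 - (finrank ℚ K : ℝ)⁻¹ := by
    rw [← hm]
    have : (Fintype.card (NormLeOneLipschitz.Param K) : ℝ) + 1 ≠ 0 := by rw [hm]; exact hn0.ne'
    field_simp
    ring
  have hexp0 : 0 ≤ 1 - (finrank ℚ K : ℝ)⁻¹ := by
    rw [← hexp]
    exact mul_nonneg (inv_nonneg.2 hn0.le) (Nat.cast_nonneg _)
  refine ⟨B / w * NJ ^ (1 - (finrank ℚ K : ℝ)⁻¹), by positivity, fun s hs => ?_⟩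
  have hs0 : 0 < s := lt_of_lt_of_le one_pos hs
  have hc : 1 ≤ s * NJ := one_le_mul_of_one_le_of_one_le hs hNJ1
  have hc0 : 0 < s * NJ := lt_of_lt_of_le one_pos hc
  have h1 := hB (s * NJ) hc
  rw [volume_div_covolume_eq, ← card_isPrincipal_dvd_norm_le, ← card_norm_le_and_mk_eq_aux₁ K hJ]
    at h1
  push_cast at h1
  rw [← Real.rpow_natCast, ← Real.rpow_mul hc0.le, hexp, Real.mul_rpow hs0.le hNJ0.le] at h1
  set N : ℝ := (Nat.card {I : (Ideal (𝓞 K))⁰ //
          absNorm (I : Ideal (𝓞 K)) ≤ s ∧ ClassGroup.mk0 I = C} : ℝ) with hN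
  have h2 : N * w - s * NJ * (kappa K * w / NJ) = w * (N - kappa K * s) := by
    field_simp
  rw [h2, abs_mul, abs_of_pos hw0] at h1
  have h3 : |N - kappa K * s| ≤
      B * (s ^ (1 - (finrank ℚ K : ℝ)⁻¹) * NJ ^ (1 - (finrank ℚ K : ℝ)⁻¹)) / w := by
    rw [le_div_iff₀ hw0, mul_comm]
    exact h1
  refine h3.trans (le_of_eq ?_)
  ring

end Fermat.Agent.S14.IdealCountError
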