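import Mathlib

/-!
# Auxiliary lemmas for the analytic norm-index inequality (S14, block Z2)

* `sum_char_apply_one`, `sum_char_apply_of_ne`, `exists_prod_char_eq`, `prod_char_one`: the product
  over all characters of a finite abelian group of the local Euler factors is a real number `≥ 1`.
* `le_of_pow_le_of_tendsto`: comparison of pole orders at `1⁺`.
* `card_filter_under_le`: at most `finrank R S` primes lie over a given prime.
* `prod_degreeOne_le`: Euler factors at the degree-one primes of `E'` against those of `E`.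
* `exists_bound_prod_nonprime`: the Euler factors at the primes of degree `≥ 2` are uniformly bounded.
-/

set_option autoImplicit false

namespace Fermat.Agent.S14.IndexAux

open Complex

section CharProd

variable (G : Type*) [CommGroup G] [Finite G] [Fintype (G →* ℂˣ)]

/-- Orthogonality of the characters of a finite commutative group, trivial element. -/
theorem sum_char_apply_one :
    ∑ ψ : G →* ℂˣ, ((ψ (1 : G) : ℂˣ) : ℂ) = (Nat.card G : ℂ) := by
  simp only [map_one, Units.val_one, Finset.sum_const, Finset.card_univ, nsmul_eq_mul, mul_one]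
  rw [← Nat.card_eq_fintype_card, CommGroup.card_monoidHom_of_hasEnoughRootsOfUnity G ℂ]

/-- Orthogonality of the characters of a finite commutative group, nontrivial element. -/
theorem sum_char_apply_of_ne {g : G} (h : g ≠ 1) :
    ∑ ψ : G →* ℂˣ, ((ψ g : ℂˣ) : ℂ) = 0 := by
  obtain ⟨φ, hφ⟩ := CommGroup.exists_apply_ne_one_of_hasEnoughRootsOfUnity G ℂ h
  have h1 : ((φ g : ℂˣ) : ℂ) * ∑ ψ : G →* ℂˣ, ((ψ g : ℂˣ) : ℂ)
      = ∑ ψ : G →* ℂˣ, ((ψ g : ℂˣ) : ℂ) := by
    rw [Finset.mul_sum]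
    exact Fintype.sum_equiv (Equiv.mulLeft φ) _ _ (fun ψ => by simp)
  have h2 : (((φ g : ℂˣ) : ℂ) - 1) * ∑ ψ : G →* ℂˣ, ((ψ g : ℂˣ) : ℂ) = 0 := by
    rw [sub_mul, h1, one_mul, sub_self]
  rcases mul_eq_zero.mp h2 with h3 | h3
  · exfalso
    apply hφ
    have : ((φ g : ℂˣ) : ℂ) = 1 := sub_eq_zero.mp h3
    exact Units.ext this
  · exact h3

omit [Fintype (G →* ℂˣ)] in
theorem norm_char_apply (ψ : G →* ℂˣ) (g : G) : ‖((ψ g : ℂˣ) : ℂ)‖ = 1 := by
  have hfin : Fintype G := Fintype.ofFinite G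
  have h : ((ψ g : ℂˣ) : ℂ) ^ (Fintype.card G) = 1 := by
    rw [← Units.val_pow_eq_pow_val, ← map_pow, pow_card_eq_one, map_one, Units.val_one]
  exact Complex.norm_eq_one_of_pow_eq_one h Fintype.card_ne_zero

/-- The product over all characters of the local Euler factors at a "prime" of class `g`
is a real number `≥ 1`. -/
theorem exists_prod_char_eq (g : G) (x : ℝ) (hx0 : 0 ≤ x) (hx1 : x < 1) :
    ∃ r : ℝ, 1 ≤ r ∧
      ∏ ψ : G →* ℂˣ, (1 - ((ψ g : ℂˣ) : ℂ) * (x : ℂ))⁻¹ = (r : ℂ) := by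
  classical
  set z : (G →* ℂˣ) → ℂ := fun ψ => ((ψ g : ℂˣ) : ℂ) * (x : ℂ) with hz
  have hznorm : ∀ ψ, ‖z ψ‖ = x := by
    intro ψ
    simp only [hz, norm_mul, norm_char_apply, one_mul, Complex.norm_real, Real.norm_eq_abs,
      abs_of_nonneg hx0]
  have hzlt : ∀ ψ, ‖z ψ‖ < 1 := fun ψ => by rw [hznorm]; exact hx1
  have hne : ∀ ψ, 1 - z ψ ≠ 0 := by
    intro ψ h
    have : z ψ = 1 := (sub_eq_zero.mp h).symm
    have h2 := hzlt ψ
    rw [this, norm_one] at h2
    exact lt_irrefl _ h2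
  -- each factor is an exponential
  have hfac : ∀ ψ, (1 - z ψ)⁻¹ = Complex.exp (-Complex.log (1 - z ψ)) := by
    intro ψ
    rw [Complex.exp_neg, Complex.exp_log (hne ψ)]
  -- the real coefficients
  set c : ℕ → ℝ := fun n => x ^ n / n * (if g ^ n = 1 then (Nat.card G : ℝ) else 0) with hc
  have hcnonneg : ∀ n, 0 ≤ c n := by
    intro n
    simp only [hc]
    apply mul_nonneg (div_nonneg (pow_nonneg hx0 n) (Nat.cast_nonneg n))
    split_ifs
    · exact Nat.cast_nonneg _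
    · exact le_refl _
  have hsumψ : HasSum (fun n : ℕ => ∑ ψ : G →* ℂˣ, z ψ ^ n / n)
      (∑ ψ : G →* ℂˣ, -Complex.log (1 - z ψ)) :=
    hasSum_sum (fun ψ _ => Complex.hasSum_taylorSeries_neg_log (hzlt ψ))
  have hterm : ∀ n : ℕ, ∑ ψ : G →* ℂˣ, z ψ ^ n / n = ((c n : ℝ) : ℂ) := by
    intro n
    have h1 : ∀ ψ : G →* ℂˣ, z ψ ^ n / n = ((x : ℂ) ^ n / n) * ((ψ (g ^ n) : ℂˣ) : ℂ) := by
      intro ψ
      simp only [hz, mul_pow, map_pow, Units.val_pow_eq_pow_val]
      ring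
    simp_rw [h1]
    rw [← Finset.mul_sum]
    simp only [hc]
    by_cases hgn : g ^ n = 1
    · rw [hgn, sum_char_apply_one, if_pos rfl]
      push_cast
      rfl
    · rw [sum_char_apply_of_ne G hgn, if_neg hgn]
      simp
  have hsumc : HasSum (fun n : ℕ => ((c n : ℝ) : ℂ)) (∑ ψ : G →* ℂˣ, -Complex.log (1 - z ψ)) := by
    have := hsumψ
    simp_rw [hterm] at this
    exact this
  have hsummable : Summable c := by
    have := hsumc.summable
    exact Complex.summable_ofReal.mp this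
  set T : ℝ := ∑' n, c n with hT
  have hTnonneg : 0 ≤ T := tsum_nonneg hcnonneg
  have hTeq : (∑ ψ : G →* ℂˣ, -Complex.log (1 - z ψ)) = (T : ℂ) := by
    have h1 : HasSum (fun n : ℕ => ((c n : ℝ) : ℂ)) (T : ℂ) :=
      (Complex.hasSum_ofReal).mpr hsummable.hasSum
    exact hsumc.unique h1
  refine ⟨Real.exp T, Real.one_le_exp hTnonneg, ?_⟩
  calc ∏ ψ : G →* ℂˣ, (1 - ((ψ g : ℂˣ) : ℂ) * (x : ℂ))⁻¹
      = ∏ ψ : G →* ℂˣ, Complex.exp (-Complex.log (1 - z ψ)) :=
        Finset.prod_congr rfl (fun ψ _ => hfac ψ)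
    _ = Complex.exp (∑ ψ : G →* ℂˣ, -Complex.log (1 - z ψ)) := (Complex.exp_sum _ _).symm
    _ = Complex.exp (T : ℂ) := by rw [hTeq]
    _ = ((Real.exp T : ℝ) : ℂ) := (Complex.ofReal_exp T).symm

/-- At the trivial class the product of the local factors is `((1 - x)⁻¹) ^ #G`. -/
theorem prod_char_one (x : ℝ) :
    ∏ ψ : G →* ℂˣ, (1 - ((ψ (1 : G) : ℂˣ) : ℂ) * (x : ℂ))⁻¹
      = ((((1 - x)⁻¹) ^ (Nat.card G) : ℝ) : ℂ) := by
  simp only [map_one, Units.val_one, one_mul, Finset.prod_const, Finset.card_univ]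
  rw [← Nat.card_eq_fintype_card, CommGroup.card_monoidHom_of_hasEnoughRootsOfUnity G ℂ]
  push_cast
  rfl

end CharProd

section PoleCompare

open Filter Topology

/-- Comparison of pole orders: if `F` has a genuine simple pole at `1⁺`, `G` has at most a simple
pole there, and `F ^ a ≤ C * G ^ n` on `(1, 2]`, then `a ≤ n`. -/
theorem le_of_pow_le_of_tendsto (F G : ℝ → ℝ) (rF rG C : ℝ) (a n : ℕ) (hrF : 0 < rF)
    (hF : Tendsto (fun s : ℝ => (s - 1) * F s) (𝓝[>] 1) (𝓝 rF))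
    (hG : Tendsto (fun s : ℝ => (s - 1) * G s) (𝓝[>] 1) (𝓝 rG))
    (hle : ∀ s : ℝ, 1 < s → s ≤ 2 → F s ^ a ≤ C * G s ^ n) : a ≤ n := by
  by_contra hlt
  have hlt := not_le.mp hlt
  obtain ⟨k, hk⟩ : ∃ k, a = n + (k + 1) := ⟨a - n - 1, by omega⟩
  have hid : Tendsto (fun s : ℝ => s - 1) (𝓝[>] 1) (𝓝 0) := by
    have : Tendsto (fun s : ℝ => s - 1) (𝓝 1) (𝓝 (1 - 1)) :=
      (continuous_id.sub continuous_const).tendsto 1
    rw [sub_self] at this
    exact this.mono_left nhdsWithin_le_nhds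
  have hL : Tendsto (fun s : ℝ => ((s - 1) * F s) ^ a) (𝓝[>] 1) (𝓝 (rF ^ a)) := hF.pow a
  have hR : Tendsto (fun s : ℝ => C * ((s - 1) ^ (k + 1) * ((s - 1) * G s) ^ n)) (𝓝[>] 1)
      (𝓝 (C * (0 ^ (k + 1) * rG ^ n))) :=
    ((hid.pow (k + 1)).mul (hG.pow n)).const_mul C
  have hev : ∀ᶠ s : ℝ in 𝓝[>] 1,
      ((s - 1) * F s) ^ a ≤ C * ((s - 1) ^ (k + 1) * ((s - 1) * G s) ^ n) := by
    have hmem : Set.Ioc (1 : ℝ) 2 ∈ 𝓝[>] (1 : ℝ) := Ioc_mem_nhdsGT (by norm_num)
    filter_upwards [hmem] with s hs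
    have hs1 : 0 ≤ s - 1 := by linarith [hs.1]
    have h1 := hle s hs.1 hs.2
    calc ((s - 1) * F s) ^ a = (s - 1) ^ a * F s ^ a := mul_pow _ _ _
      _ ≤ (s - 1) ^ a * (C * G s ^ n) := mul_le_mul_of_nonneg_left h1 (pow_nonneg hs1 a)
      _ = C * ((s - 1) ^ (k + 1) * ((s - 1) * G s) ^ n) := by
          rw [hk, mul_pow]; ring
  have hfin := le_of_tendsto_of_tendsto hL hR hev
  rw [zero_pow (Nat.succ_ne_zero k), zero_mul, mul_zero] at hfin
  exact absurd (pow_pos hrF a) (not_lt.mpr hfin)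

end PoleCompare

section FibreCount

variable {R S : Type*} [CommRing R] [IsDomain R] [CommRing S] [Algebra R S]
  [Module.Finite R S] [Module.Flat R S]

open scoped Classical in
/-- At most `finrank R S` primes of a finite flat extension lie over a given prime. -/
theorem card_filter_under_le (p : Ideal R) [p.IsPrime] (T : Finset (Ideal S))
    (hT : ∀ Q ∈ T, Q.IsPrime) :
    (T.filter (fun Q => Q.under R = p)).card ≤ Module.finrank R S := by
  have hfin : (p.primesOver S).Finite := Algebra.QuasiFinite.finite_primesOver p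
  let _ : Fintype (p.primesOver S) := hfin.fintype
  have hsum := Ideal.sum_ramification_inertia_eq_finrank p S
  have hsub : T.filter (fun Q => Q.under R = p) ⊆ hfin.toFinset := by
    intro Q hQ
    rw [Finset.mem_filter] at hQ
    rw [Set.Finite.mem_toFinset]
    exact ⟨hT Q hQ.1, ⟨hQ.2.symm⟩⟩
  have h1 : hfin.toFinset.card = Fintype.card (p.primesOver S) := by
    rw [← Set.toFinset_card]
    congr 1
  have h2 : Fintype.card (p.primesOver S) ≤ Module.finrank R S := by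
    rw [← hsum, Fintype.card_eq_sum_ones]
    apply Finset.sum_le_sum
    intro q _
    have : q.1.IsPrime := q.2.1
    exact Nat.one_le_iff_ne_zero.mpr (Nat.mul_ne_zero (Ideal.ramificationIdx_pos q.1 R).ne'
      (Ideal.inertiaDeg_pos q.1 R).ne')
  exact (Finset.card_le_card hsub).trans (h1.le.trans h2)

end FibreCount

open NumberField

section DegreeOne

variable (E E' : Type*) [Field E] [NumberField E] [Field E'] [NumberField E'] [Algebra E E']

/-- A prime of `E'` of prime absolute norm has the same absolute norm as the prime of `E`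
below it. -/
theorem absNorm_under_eq_of_prime (Q : Ideal (𝓞 E')) [Q.IsPrime]
    (hQ : (Ideal.absNorm Q).Prime) :
    Ideal.absNorm (Q.under (𝓞 E)) = Ideal.absNorm Q := by
  have h := Ideal.absNorm_pow_inertiaDeg (Q.under (𝓞 E)) Q
  exact ((Nat.Prime.pow_eq_iff hQ).mp h).1

theorem finrank_ringOfIntegers : Module.finrank (𝓞 E) (𝓞 E') = Module.finrank E E' :=
  (IsFractionRing.finrank_eq (𝓞 E) E (𝓞 E') E').symm

open scoped Classical in
/-- Degree-one primes of `E'`: a finite product over them is bounded by the `[E':E]`-th power of the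
product over the primes of `E` below them. -/
theorem prod_degreeOne_le (g : ℕ → ℝ) (hg : ∀ m, 1 ≤ g m) (T' : Finset (Ideal (𝓞 E')))
    (hT' : ∀ Q ∈ T', Q.IsPrime ∧ (Ideal.absNorm Q).Prime) :
    ∏ Q ∈ T', g (Ideal.absNorm Q) ≤
      ∏ q ∈ T'.image (Ideal.under (𝓞 E)), g (Ideal.absNorm q) ^ (Module.finrank E E') := by
  rw [← Finset.prod_fiberwise_of_maps_to (g := Ideal.under (𝓞 E))
    (t := T'.image (Ideal.under (𝓞 E))) (fun Q hQ => Finset.mem_image_of_mem _ hQ)]
  apply Finset.prod_le_prod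
  · intro q _
    apply Finset.prod_nonneg
    intro Q _
    exact zero_le_one.trans (hg _)
  · intro q hq
    have hqprime : q.IsPrime := by
      obtain ⟨Q, hQ, rfl⟩ := Finset.mem_image.mp hq
      have := (hT' Q hQ).1
      exact Ideal.IsPrime.under (𝓞 E) Q
    have h1 : ∏ Q ∈ T' with Q.under (𝓞 E) = q, g (Ideal.absNorm Q)
        = g (Ideal.absNorm q) ^ (T'.filter (fun Q => Q.under (𝓞 E) = q)).card := by
      rw [Finset.prod_eq_pow_card]
      intro Q hQ
      rw [Finset.mem_filter] at hQ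
      have := (hT' Q hQ.1).1
      rw [← hQ.2, absNorm_under_eq_of_prime E E' Q (hT' Q hQ.1).2]
    rw [h1]
    apply pow_le_pow_right₀ (hg _)
    rw [← finrank_ringOfIntegers E E']
    exact card_filter_under_le q T' (fun Q hQ => (hT' Q hQ).1)

end DegreeOne

section BadPrimes

variable (K : Type*) [Field K] [NumberField K]

/-- A nonzero prime of `𝓞 K` whose absolute norm is not a prime number has norm at least `p ^ 2`,
`p` the rational prime below. -/
theorem sq_absNorm_under_le (Q : Ideal (𝓞 K)) [Q.IsPrime] (hQ0 : Q ≠ ⊥)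
    (hQ : ¬ (Ideal.absNorm Q).Prime) :
    (Ideal.absNorm (Q.under ℤ)) ^ 2 ≤ Ideal.absNorm Q := by
  have : NeZero Q := ⟨hQ0⟩
  have hp : (Ideal.absNorm (Q.under ℤ)).Prime := Nat.absNorm_under_prime Q
  have h := Ideal.absNorm_pow_inertiaDeg (Q.under ℤ) Q
  have hf : 0 < Q.inertiaDeg ℤ := Ideal.inertiaDeg_pos Q ℤ
  have hf1 : Q.inertiaDeg ℤ ≠ 1 := by
    intro h1
    rw [h1, pow_one] at h
    exact hQ (h ▸ hp)
  rw [← h]
  exact Nat.pow_le_pow_right hp.pos (by omega)

theorem inv_one_sub_le_exp {x : ℝ} (hx0 : 0 ≤ x) (hx : x ≤ 1 / 2) :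
    (1 - x)⁻¹ ≤ Real.exp (2 * x) := by
  have h1 : (1 - x)⁻¹ ≤ 1 + 2 * x := by
    rw [inv_le_iff_one_le_mul₀ (by linarith)]
    nlinarith
  have h2 : 1 + 2 * x ≤ Real.exp (2 * x) := by
    have := Real.add_one_le_exp (2 * x)
    linarith
  exact h1.trans h2

open scoped Classical in
theorem sum_inv_absNorm_le (T : Finset (Ideal (𝓞 K)))
    (hT : ∀ Q ∈ T, Q.IsPrime ∧ Q ≠ ⊥ ∧ ¬ (Ideal.absNorm Q).Prime) :
    ∑ Q ∈ T, ((Ideal.absNorm Q : ℝ))⁻¹ ≤
      (Module.finrank ℚ K : ℝ) * ∑' m : ℕ, ((m : ℝ) ^ 2)⁻¹ := by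
  have hsummable : Summable (fun m : ℕ => ((m : ℝ) ^ 2)⁻¹) :=
    Real.summable_nat_pow_inv.mpr (by norm_num)
  -- group by the prime of ℤ below
  rw [← Finset.sum_fiberwise_of_maps_to (g := Ideal.under ℤ)
    (t := T.image (Ideal.under ℤ)) (fun Q hQ => Finset.mem_image_of_mem _ hQ)]
  have hfib : ∀ P ∈ T.image (Ideal.under ℤ),
      ∑ Q ∈ T with Q.under ℤ = P, ((Ideal.absNorm Q : ℝ))⁻¹ ≤
        (Module.finrank ℚ K : ℝ) * (((Ideal.absNorm P : ℕ) : ℝ) ^ 2)⁻¹ := by
    intro P hP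
    have hPprime : P.IsPrime := by
      obtain ⟨Q, hQ, rfl⟩ := Finset.mem_image.mp hP
      have := (hT Q hQ).1
      exact Ideal.IsPrime.under ℤ Q
    have hcard : ((T.filter (fun Q => Q.under ℤ = P)).card : ℝ) ≤ (Module.finrank ℚ K : ℝ) := by
      rw [← RingOfIntegers.rank K]
      exact_mod_cast card_filter_under_le P T (fun Q hQ => (hT Q hQ).1)
    calc ∑ Q ∈ T with Q.under ℤ = P, ((Ideal.absNorm Q : ℝ))⁻¹
        ≤ ∑ Q ∈ T with Q.under ℤ = P, (((Ideal.absNorm P : ℕ) : ℝ) ^ 2)⁻¹ := by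
          apply Finset.sum_le_sum
          intro Q hQ
          rw [Finset.mem_filter] at hQ
          obtain ⟨hQp, hQ0, hQn⟩ := hT Q hQ.1
          have hle := sq_absNorm_under_le K Q hQ0 hQn
          rw [hQ.2] at hle
          have hpos : 0 < Ideal.absNorm P := by
            have : NeZero Q := ⟨hQ0⟩
            have := Nat.absNorm_under_prime Q
            rw [hQ.2] at this
            exact this.pos
          apply inv_anti₀
          · positivity
          · exact_mod_cast hle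
      _ = ((T.filter (fun Q => Q.under ℤ = P)).card : ℝ) * (((Ideal.absNorm P : ℕ) : ℝ) ^ 2)⁻¹ := by
          rw [Finset.sum_const, nsmul_eq_mul]
      _ ≤ (Module.finrank ℚ K : ℝ) * (((Ideal.absNorm P : ℕ) : ℝ) ^ 2)⁻¹ :=
          mul_le_mul_of_nonneg_right hcard (by positivity)
  refine (Finset.sum_le_sum hfib).trans ?_
  rw [← Finset.mul_sum]
  apply mul_le_mul_of_nonneg_left _ (Nat.cast_nonneg _)
  -- absNorm is injective on ideals of ℤ
  have hinj : Set.InjOn (fun P : Ideal ℤ => Ideal.absNorm P) (T.image (Ideal.under ℤ) : Set (Ideal ℤ)) := by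
    intro P _ P' _ h
    simp only at h
    rw [← Int.ideal_span_absNorm_eq_self P, ← Int.ideal_span_absNorm_eq_self P', h]
  rw [← Finset.sum_image (f := fun m : ℕ => ((m : ℝ) ^ 2)⁻¹) hinj]
  exact hsummable.sum_le_tsum _ (fun m _ => by positivity)

/-- The Euler factors at the primes of degree at least two are uniformly bounded. -/
theorem exists_bound_prod_nonprime :
    ∃ C : ℝ, ∀ (T : Finset (Ideal (𝓞 K))),
      (∀ Q ∈ T, Q.IsPrime ∧ Q ≠ ⊥ ∧ ¬ (Ideal.absNorm Q).Prime) →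
      ∀ s : ℝ, 1 ≤ s → ∏ Q ∈ T, (1 - (Ideal.absNorm Q : ℝ) ^ (-s))⁻¹ ≤ C := by
  refine ⟨Real.exp (2 * ((Module.finrank ℚ K : ℝ) * ∑' m : ℕ, ((m : ℝ) ^ 2)⁻¹)), ?_⟩
  intro T hT s hs
  have hx : ∀ Q ∈ T, 0 ≤ (Ideal.absNorm Q : ℝ) ^ (-s) ∧
      (Ideal.absNorm Q : ℝ) ^ (-s) ≤ ((Ideal.absNorm Q : ℝ))⁻¹ ∧
      ((Ideal.absNorm Q : ℝ))⁻¹ ≤ 1 / 2 := by
    intro Q hQ
    obtain ⟨hQp, hQ0, hQn⟩ := hT Q hQ
    have h2 : 2 ≤ Ideal.absNorm Q := by
      have h0 : Ideal.absNorm Q ≠ 0 := by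
        rw [Ne, Ideal.absNorm_eq_zero_iff]; exact hQ0
      have h1 : Ideal.absNorm Q ≠ 1 := by
        rw [Ne, Ideal.absNorm_eq_one_iff]; exact hQp.ne_top
      omega
    have h2' : (2 : ℝ) ≤ (Ideal.absNorm Q : ℝ) := by exact_mod_cast h2
    refine ⟨by positivity, ?_, ?_⟩
    · rw [← Real.rpow_neg_one]
      exact Real.rpow_le_rpow_of_exponent_le (by linarith) (by linarith)
    · rw [one_div]
      exact inv_anti₀ (by norm_num) h2'
  calc ∏ Q ∈ T, (1 - (Ideal.absNorm Q : ℝ) ^ (-s))⁻¹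
      ≤ ∏ Q ∈ T, Real.exp (2 * ((Ideal.absNorm Q : ℝ))⁻¹) := by
        apply Finset.prod_le_prod
        · intro Q hQ
          obtain ⟨h0, h1, h2⟩ := hx Q hQ
          have : 0 < 1 - (Ideal.absNorm Q : ℝ) ^ (-s) := by linarith
          positivity
        · intro Q hQ
          obtain ⟨h0, h1, h2⟩ := hx Q hQ
          refine (inv_one_sub_le_exp h0 (h1.trans h2)).trans ?_
          apply Real.exp_le_exp.mpr
          linarith
    _ = Real.exp (2 * ∑ Q ∈ T, ((Ideal.absNorm Q : ℝ))⁻¹) := by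
        rw [← Real.exp_sum, Finset.mul_sum]
    _ ≤ _ := by
        apply Real.exp_le_exp.mpr
        apply mul_le_mul_of_nonneg_left (sum_inv_absNorm_le K T hT) (by norm_num)

end BadPrimes

end Fermat.Agent.S14.IndexAux
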