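import Mathlib
import Fermat.Agent.S14.EulerIdeal
import Fermat.Agent.S14.IndexAux
import Fermat.Agent.S14.Zeta.Glue

/-!
# The analytic norm-index inequality at modulus `1` (S14, block Z2)

For number fields `E'/E` (no Galois hypothesis), a subgroup `H` of the class group of `E`
containing the class of `Q ∩ 𝓞 E` for every degree-one prime `Q` of `E'` of norm `> N₀`, and
assuming that the class-group `L`-functions `∑_C χ(C) ζ(s, C)` of `E` (`χ ≠ 1`) are bounded as
`s → 1⁺`, we prove `[Cl(E) : H] ≤ [E' : E]` (`index_le_finrank`).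

Proof: Euler products over prime ideals (`EulerIdeal`) for `ζ_{E'}`, `ζ_E` and the `L(s, ψ)`,
`ψ` a character of `Cl(E) ⧸ H`; the product over all `ψ` of the local factors at a prime is a real
number `≥ 1`, equal to `(1 - N(v)^(-s))^(-[Cl : H])` when the class of `v` lies in `H`
(`IndexAux`); hence `ζ_{E'}(s)^[Cl : H] ≤ C ζ_E(s)^[E' : E]` near `1⁺`, and both zeta functions
have a simple pole at `1` (`Zeta.Glue`).
-/

set_option autoImplicit false

namespace Fermat.Agent.S14.IndexIneqB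

open NumberField nonZeroDivisors Filter Topology IsDedekindDomain
open Fermat.Agent.S14.EulerIdeal Fermat.Agent.S14.IndexAux Fermat.Agent.S14.Zeta

section NormChar

variable (K : Type*) [Field K] [NumberField K]

/-- `I ↦ N(I)^(-s)` as a monoid hom on nonzero ideals, real-valued. -/
noncomputable def normPow (s : ℝ) : (Ideal (𝓞 K))⁰ →* ℝ where
  toFun I := ((Ideal.absNorm (I : Ideal (𝓞 K)) : ℝ)) ^ (-s)
  map_one' := by simp
  map_mul' I J := by
    simp only [Submonoid.coe_mul, map_mul, Nat.cast_mul]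
    exact Real.mul_rpow (Nat.cast_nonneg _) (Nat.cast_nonneg _)

theorem normPow_apply (s : ℝ) (I : (Ideal (𝓞 K))⁰) :
    normPow K s I = ((Ideal.absNorm (I : Ideal (𝓞 K)) : ℝ)) ^ (-s) := rfl

theorem normPow_nonneg (s : ℝ) (I : (Ideal (𝓞 K))⁰) : 0 ≤ normPow K s I :=
  Real.rpow_nonneg (Nat.cast_nonneg _) _

theorem summable_normPow {s : ℝ} (hs : 1 < s) : Summable (fun I => normPow K s I) :=
  summable_zetaR K hs

theorem summable_norm_normPow {s : ℝ} (hs : 1 < s) : Summable (fun I => ‖normPow K s I‖) := by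
  refine (summable_normPow K hs).congr fun I => ?_
  rw [Real.norm_of_nonneg (normPow_nonneg K s I)]

theorem tsum_normPow (s : ℝ) : ∑' I, normPow K s I = zetaR K s := rfl

theorem two_le_absNorm (v : HeightOneSpectrum (𝓞 K)) : 2 ≤ Ideal.absNorm v.asIdeal := by
  have h0 : Ideal.absNorm v.asIdeal ≠ 0 := by
    rw [Ne, Ideal.absNorm_eq_zero_iff]; exact v.ne_bot
  have h1 : Ideal.absNorm v.asIdeal ≠ 1 := by
    rw [Ne, Ideal.absNorm_eq_one_iff]; exact v.isPrime.ne_top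
  omega

/-- `x_v = N(v)^(-s)` lies in `(0, 1/2]` for `s ≥ 1`. -/
theorem normPow_pr_mem {s : ℝ} (hs : 1 ≤ s) (v : HeightOneSpectrum (𝓞 K)) :
    0 < normPow K s (pr v) ∧ normPow K s (pr v) ≤ 1 / 2 := by
  have h2 : (2 : ℝ) ≤ (Ideal.absNorm v.asIdeal : ℝ) := by exact_mod_cast two_le_absNorm K v
  rw [normPow_apply, pr_coe]
  constructor
  · positivity
  · calc ((Ideal.absNorm v.asIdeal : ℝ)) ^ (-s) ≤ ((Ideal.absNorm v.asIdeal : ℝ)) ^ (-1 : ℝ) :=
        Real.rpow_le_rpow_of_exponent_le (by linarith) (by linarith)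
      _ = ((Ideal.absNorm v.asIdeal : ℝ))⁻¹ := Real.rpow_neg_one _
      _ ≤ 1 / 2 := by rw [one_div]; exact inv_anti₀ (by norm_num) h2

/-- Euler product of the Dedekind zeta function at a real point `s > 1`. -/
theorem hasProd_zetaR {s : ℝ} (hs : 1 < s) :
    HasProd (fun v : HeightOneSpectrum (𝓞 K) => (1 - normPow K s (pr v))⁻¹) (zetaR K s) :=
  hasProd_one_sub_inv (normPow K s) (summable_norm_normPow K hs)

end NormChar

section Twist

variable (K : Type*) [Field K] [NumberField K] (H : Subgroup (ClassGroup (𝓞 K)))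

/-- The class of a nonzero ideal in `ClassGroup ⧸ H`. -/
noncomputable def classOf : (Ideal (𝓞 K))⁰ →* (ClassGroup (𝓞 K) ⧸ H) :=
  (QuotientGroup.mk' H).comp ClassGroup.mk0

/-- The completely multiplicative function `I ↦ ψ([I]) N(I)^(-s)`. -/
noncomputable def twist (ψ : (ClassGroup (𝓞 K) ⧸ H) →* ℂˣ) (s : ℝ) : (Ideal (𝓞 K))⁰ →* ℂ :=
  ((Units.coeHom ℂ).comp (ψ.comp (classOf K H))) *
    ((Complex.ofRealHom : ℝ →+* ℂ).toMonoidHom.comp (normPow K s))

theorem twist_apply (ψ : (ClassGroup (𝓞 K) ⧸ H) →* ℂˣ) (s : ℝ) (I : (Ideal (𝓞 K))⁰) :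
    twist K H ψ s I = ((ψ (classOf K H I) : ℂˣ) : ℂ) * ((normPow K s I : ℝ) : ℂ) := rfl

theorem norm_twist (ψ : (ClassGroup (𝓞 K) ⧸ H) →* ℂˣ) (s : ℝ) (I : (Ideal (𝓞 K))⁰) :
    ‖twist K H ψ s I‖ = normPow K s I := by
  rw [twist_apply, norm_mul, norm_char_apply, one_mul, Complex.norm_real,
    Real.norm_of_nonneg (normPow_nonneg K s I)]

theorem summable_norm_twist (ψ : (ClassGroup (𝓞 K) ⧸ H) →* ℂˣ) {s : ℝ} (hs : 1 < s) :
    Summable (fun I => ‖twist K H ψ s I‖) := by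
  refine (summable_normPow K hs).congr fun I => ?_
  rw [norm_twist]

/-- The `L`-function of the character `ψ` of `ClassGroup ⧸ H` at the real point `s`. -/
noncomputable def LFun (ψ : (ClassGroup (𝓞 K) ⧸ H) →* ℂˣ) (s : ℝ) : ℂ :=
  ∑' I, twist K H ψ s I

theorem hasProd_LFun (ψ : (ClassGroup (𝓞 K) ⧸ H) →* ℂˣ) {s : ℝ} (hs : 1 < s) :
    HasProd (fun v : HeightOneSpectrum (𝓞 K) =>
      (1 - ((ψ (classOf K H (pr v)) : ℂˣ) : ℂ) * ((normPow K s (pr v) : ℝ) : ℂ))⁻¹)
      (LFun K H ψ s) :=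
  hasProd_one_sub_inv (twist K H ψ s) (summable_norm_twist K H ψ hs)

theorem LFun_one (s : ℝ) : LFun K H 1 s = ((zetaR K s : ℝ) : ℂ) := by
  rw [LFun, zetaR, Complex.ofReal_tsum]
  refine tsum_congr fun I => ?_
  rw [twist_apply]
  simp [normPow_apply]

variable [Fintype ((ClassGroup (𝓞 K) ⧸ H) →* ℂˣ)]

/-- The real local factor of `∏_ψ L(s, ψ)` at the prime `v`. -/
noncomputable def localFactor (s : ℝ) (v : HeightOneSpectrum (𝓞 K)) : ℝ :=
  if hs : 1 ≤ s then
    Classical.choose (exists_prod_char_eq (ClassGroup (𝓞 K) ⧸ H) (classOf K H (pr v))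
      (normPow K s (pr v)) (normPow_pr_mem K hs v).1.le
      (lt_of_le_of_lt (normPow_pr_mem K hs v).2 (by norm_num)))
  else 1

theorem one_le_localFactor (s : ℝ) (v : HeightOneSpectrum (𝓞 K)) :
    1 ≤ localFactor K H s v := by
  unfold localFactor
  split_ifs with hs
  · exact (Classical.choose_spec (exists_prod_char_eq (ClassGroup (𝓞 K) ⧸ H) (classOf K H (pr v))
      (normPow K s (pr v)) (normPow_pr_mem K hs v).1.le
      (lt_of_le_of_lt (normPow_pr_mem K hs v).2 (by norm_num)))).1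
  · exact le_refl _

theorem prod_char_eq_localFactor {s : ℝ} (hs : 1 ≤ s) (v : HeightOneSpectrum (𝓞 K)) :
    ∏ ψ : (ClassGroup (𝓞 K) ⧸ H) →* ℂˣ,
      (1 - ((ψ (classOf K H (pr v)) : ℂˣ) : ℂ) * ((normPow K s (pr v) : ℝ) : ℂ))⁻¹ =
      ((localFactor K H s v : ℝ) : ℂ) := by
  unfold localFactor
  rw [dif_pos hs]
  exact (Classical.choose_spec (exists_prod_char_eq (ClassGroup (𝓞 K) ⧸ H) (classOf K H (pr v))
      (normPow K s (pr v)) (normPow_pr_mem K hs v).1.le
      (lt_of_le_of_lt (normPow_pr_mem K hs v).2 (by norm_num)))).2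

/-- At a prime whose class lies in `H` the local factor is `((1 - N(v)^(-s))⁻¹) ^ [Cl : H]`. -/
theorem localFactor_of_mem {s : ℝ} (hs : 1 ≤ s) (v : HeightOneSpectrum (𝓞 K))
    (hv : ClassGroup.mk0 (pr v) ∈ H) :
    localFactor K H s v = ((1 - normPow K s (pr v))⁻¹) ^ H.index := by
  have h1 : classOf K H (pr v) = 1 := by
    rw [classOf, MonoidHom.comp_apply, QuotientGroup.mk'_apply]
    exact (QuotientGroup.eq_one_iff _).mpr hv
  have h2 := prod_char_eq_localFactor K H hs v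
  rw [h1, prod_char_one, ← Subgroup.index_eq_card] at h2
  exact (Complex.ofReal_injective h2).symm

/-- Euler product of `∏_ψ L(s, ψ)` with real local factors `≥ 1`. -/
theorem hasProd_localFactor {s : ℝ} (hs : 1 < s) :
    HasProd (fun v : HeightOneSpectrum (𝓞 K) => localFactor K H s v)
      ‖∏ ψ : (ClassGroup (𝓞 K) ⧸ H) →* ℂˣ, LFun K H ψ s‖ := by
  have h1 : HasProd (fun v : HeightOneSpectrum (𝓞 K) =>
      ∏ ψ : (ClassGroup (𝓞 K) ⧸ H) →* ℂˣ,
        (1 - ((ψ (classOf K H (pr v)) : ℂˣ) : ℂ) * ((normPow K s (pr v) : ℝ) : ℂ))⁻¹)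
      (∏ ψ : (ClassGroup (𝓞 K) ⧸ H) →* ℂˣ, LFun K H ψ s) :=
    hasProd_prod (fun ψ _ => hasProd_LFun K H ψ hs)
  have h2 := h1.norm
  refine h2.congr_fun fun v => ?_
  rw [prod_char_eq_localFactor K H hs.le v, Complex.norm_real,
    Real.norm_of_nonneg (zero_le_one.trans (one_le_localFactor K H s v))]

/-- Finite partial products of the local factors are bounded by the full product. -/
theorem prod_localFactor_le {s : ℝ} (hs : 1 < s) (T : Finset (HeightOneSpectrum (𝓞 K))) :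
    ∏ v ∈ T, localFactor K H s v ≤
      ‖∏ ψ : (ClassGroup (𝓞 K) ⧸ H) →* ℂˣ, LFun K H ψ s‖ := by
  classical
  have h := hasProd_localFactor K H hs
  rw [HasProd, SummationFilter.unconditional] at h
  refine ge_of_tendsto h ?_
  filter_upwards [Filter.eventually_ge_atTop T] with S hS
  rw [← Finset.prod_sdiff hS]
  have h1 : 1 ≤ ∏ v ∈ S \ T, localFactor K H s v := by
    have := Finset.prod_le_prod (s := S \ T) (f := fun _ => (1 : ℝ))
      (g := fun v => localFactor K H s v) (fun _ _ => zero_le_one)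
      (fun v _ => one_le_localFactor K H s v)
    simpa using this
  have h2 : 0 ≤ ∏ v ∈ T, localFactor K H s v :=
    Finset.prod_nonneg fun v _ => zero_le_one.trans (one_le_localFactor K H s v)
  nlinarith

end Twist

section Regroup

variable (K : Type*) [Field K] [NumberField K] (H : Subgroup (ClassGroup (𝓞 K)))

/-- The character of the class group attached to a character of `ClassGroup ⧸ H`. -/
noncomputable def liftChar (ψ : (ClassGroup (𝓞 K) ⧸ H) →* ℂˣ) : ClassGroup (𝓞 K) →* ℂ :=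
  (Units.coeHom ℂ).comp (ψ.comp (QuotientGroup.mk' H))

omit [NumberField K] in
theorem liftChar_apply (ψ : (ClassGroup (𝓞 K) ⧸ H) →* ℂˣ) (C : ClassGroup (𝓞 K)) :
    liftChar K H ψ C = ((ψ (QuotientGroup.mk' H C) : ℂˣ) : ℂ) := rfl

omit [NumberField K] in
theorem liftChar_ne_one {ψ : (ClassGroup (𝓞 K) ⧸ H) →* ℂˣ} (hψ : ψ ≠ 1) :
    liftChar K H ψ ≠ 1 := by
  intro h
  apply hψ
  ext x
  have := DFunLike.congr_fun h x
  rw [liftChar_apply] at this
  simpa using this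

/-- `L(s, ψ)` as a finite combination of partial zeta functions. -/
theorem LFun_eq_sum (ψ : (ClassGroup (𝓞 K) ⧸ H) →* ℂˣ) {s : ℝ} (hs : 1 < s) :
    LFun K H ψ s =
      ∑ C : ClassGroup (𝓞 K), liftChar K H ψ C * ((partialZeta K C s : ℝ) : ℂ) := by
  have hsum : Summable (fun I => twist K H ψ s I) := (summable_norm_twist K H ψ hs).of_norm
  have hsig : Summable (fun p : (Σ C : ClassGroup (𝓞 K),
      {I : (Ideal (𝓞 K))⁰ // ClassGroup.mk0 I = C}) => twist K H ψ s p.2.1) := by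
    have := (Equiv.sigmaFiberEquiv
      (fun I : (Ideal (𝓞 K))⁰ => ClassGroup.mk0 I)).summable_iff.mpr hsum
    exact this
  have e1 : LFun K H ψ s =
      ∑' p : (Σ C : ClassGroup (𝓞 K), {I : (Ideal (𝓞 K))⁰ // ClassGroup.mk0 I = C}),
        twist K H ψ s p.2.1 := by
    rw [LFun, ← (Equiv.sigmaFiberEquiv
      (fun I : (Ideal (𝓞 K))⁰ => ClassGroup.mk0 I)).tsum_eq]
    rfl
  have hfib : ∀ C : ClassGroup (𝓞 K), Summable
      (fun I : {I : (Ideal (𝓞 K))⁰ // ClassGroup.mk0 I = C} => twist K H ψ s I.1) :=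
    fun C => hsig.sigma_factor C
  rw [e1, hsig.tsum_sigma' hfib, tsum_fintype]
  refine Finset.sum_congr rfl fun C _ => ?_
  rw [partialZeta, Complex.ofReal_tsum, ← tsum_mul_left]
  refine tsum_congr fun I => ?_
  rw [twist_apply, liftChar_apply, normPow_apply, classOf, MonoidHom.comp_apply, I.2]

variable [Fintype ((ClassGroup (𝓞 K) ⧸ H) →* ℂˣ)]

/-- If all nontrivial class-group `L`-functions are bounded near `1⁺`, the product of the
`L(s, ψ)` is `O(ζ_K(s))`. -/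
theorem exists_bound_prod_LFun
    (hL : ∀ χ : ClassGroup (𝓞 K) →* ℂ, χ ≠ 1 → ∃ B : ℝ, ∀ᶠ s in 𝓝[>] (1 : ℝ),
      ‖∑ C : ClassGroup (𝓞 K), χ C * ((partialZeta K C s : ℝ) : ℂ)‖ ≤ B) :
    ∃ B : ℝ, 0 ≤ B ∧ ∀ᶠ s in 𝓝[>] (1 : ℝ),
      ‖∏ ψ : (ClassGroup (𝓞 K) ⧸ H) →* ℂˣ, LFun K H ψ s‖ ≤ B * zetaR K s := by
  classical
  -- choose bounds
  have hex : ∀ ψ : (ClassGroup (𝓞 K) ⧸ H) →* ℂˣ, ∃ B : ℝ, ψ ≠ 1 →
      ∀ᶠ s in 𝓝[>] (1 : ℝ), ‖LFun K H ψ s‖ ≤ B := by
    intro ψ
    by_cases hψ : ψ = 1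
    · exact ⟨0, fun h => absurd hψ h⟩
    · obtain ⟨B, hB⟩ := hL (liftChar K H ψ) (liftChar_ne_one K H hψ)
      refine ⟨B, fun _ => ?_⟩
      filter_upwards [hB, self_mem_nhdsWithin] with s hs hs1
      rw [LFun_eq_sum K H ψ hs1]
      exact hs
  choose B hB using hex
  refine ⟨∏ ψ ∈ (Finset.univ.erase (1 : (ClassGroup (𝓞 K) ⧸ H) →* ℂˣ)), max (B ψ) 0,
    Finset.prod_nonneg fun ψ _ => le_max_right _ _, ?_⟩
  have hall : ∀ᶠ s in 𝓝[>] (1 : ℝ), ∀ ψ ∈ (Finset.univ.erase (1 : (ClassGroup (𝓞 K) ⧸ H) →* ℂˣ)),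
      ‖LFun K H ψ s‖ ≤ B ψ := by
    rw [Filter.eventually_all_finset]
    intro ψ hψ
    exact hB ψ (Finset.ne_of_mem_erase hψ)
  filter_upwards [hall] with s hs
  rw [norm_prod, ← Finset.mul_prod_erase Finset.univ _ (Finset.mem_univ 1), LFun_one,
    Complex.norm_real, Real.norm_of_nonneg (zetaR_nonneg K s), mul_comm]
  apply mul_le_mul_of_nonneg_right _ (zetaR_nonneg K s)
  apply Finset.prod_le_prod (fun ψ _ => norm_nonneg _)
  intro ψ hψ
  exact (hs ψ hψ).trans (le_max_left _ _)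

end Regroup

section Compare

variable (E E' : Type*) [Field E] [NumberField E] [Field E'] [NumberField E'] [Algebra E E']

/-- The prime of `E` below a prime of `E'`. -/
noncomputable def below (w : HeightOneSpectrum (𝓞 E')) : HeightOneSpectrum (𝓞 E) :=
  ⟨w.asIdeal.under (𝓞 E), Ideal.IsPrime.under (𝓞 E) w.asIdeal, Ideal.under_ne_bot (𝓞 E) w.ne_bot⟩

omit [NumberField E] [NumberField E'] in
theorem below_asIdeal (w : HeightOneSpectrum (𝓞 E')) :
    (below E E' w).asIdeal = w.asIdeal.under (𝓞 E) := rfl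

theorem asIdeal_injective (K : Type*) [Field K] [NumberField K] :
    Function.Injective (fun v : HeightOneSpectrum (𝓞 K) => v.asIdeal) :=
  fun _ _ h => HeightOneSpectrum.ext h

open scoped Classical in
/-- `prod_degreeOne_le` over height one spectra. -/
theorem prod_degreeOne_le_hos (g : ℕ → ℝ) (hg : ∀ m, 1 ≤ g m)
    (T' : Finset (HeightOneSpectrum (𝓞 E')))
    (hT' : ∀ w ∈ T', (Ideal.absNorm w.asIdeal).Prime) :
    ∏ w ∈ T', g (Ideal.absNorm w.asIdeal) ≤
      ∏ v ∈ T'.image (below E E'), g (Ideal.absNorm v.asIdeal) ^ (Module.finrank E E') := by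
  have h1 : ∏ w ∈ T', g (Ideal.absNorm w.asIdeal) =
      ∏ Q ∈ T'.image (fun w => w.asIdeal), g (Ideal.absNorm Q) := by
    rw [Finset.prod_image (fun a _ b _ h => asIdeal_injective E' h)]
  have h2 : ∏ v ∈ T'.image (below E E'), g (Ideal.absNorm v.asIdeal) ^ (Module.finrank E E') =
      ∏ q ∈ (T'.image (fun w => w.asIdeal)).image (Ideal.under (𝓞 E)),
        g (Ideal.absNorm q) ^ (Module.finrank E E') := by
    have : (T'.image (fun w => w.asIdeal)).image (Ideal.under (𝓞 E)) =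
        (T'.image (below E E')).image (fun v => v.asIdeal) := by
      rw [Finset.image_image, Finset.image_image]
      rfl
    rw [this, Finset.prod_image (fun a _ b _ h => asIdeal_injective E h)]
  rw [h1, h2]
  apply prod_degreeOne_le E E' g hg
  intro Q hQ
  obtain ⟨w, hw, rfl⟩ := Finset.mem_image.mp hQ
  exact ⟨w.isPrime, hT' w hw⟩

/-- The local Euler factor as a function of the norm, patched to be `≥ 1` everywhere. -/
noncomputable def eulerFactor (s : ℝ) (m : ℕ) : ℝ := max 1 ((1 - (m : ℝ) ^ (-s))⁻¹)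

theorem one_le_eulerFactor (s : ℝ) (m : ℕ) : 1 ≤ eulerFactor s m := le_max_left _ _

theorem eulerFactor_absNorm (K : Type*) [Field K] [NumberField K] {s : ℝ} (hs : 1 ≤ s)
    (v : HeightOneSpectrum (𝓞 K)) :
    eulerFactor s (Ideal.absNorm v.asIdeal) = (1 - normPow K s (pr v))⁻¹ := by
  have h := normPow_pr_mem K hs v
  rw [eulerFactor, ← pr_coe v, ← normPow_apply]
  apply max_eq_right
  rw [one_le_inv₀ (by linarith)]
  linarith

variable (H : Subgroup (ClassGroup (𝓞 E))) [Fintype ((ClassGroup (𝓞 E) ⧸ H) →* ℂˣ)]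

/-- Finitely many primes of bounded norm contribute a bounded Euler factor. -/
theorem exists_bound_prod_small (N₀ : ℕ) :
    ∃ C : ℝ, 1 ≤ C ∧ ∀ s : ℝ, 1 ≤ s → ∀ T : Finset (HeightOneSpectrum (𝓞 E')),
      (∀ w ∈ T, Ideal.absNorm w.asIdeal ≤ N₀) →
      ∏ w ∈ T, (1 - normPow E' s (pr w))⁻¹ ≤ C := by
  classical
  have hfin := Ideal.finite_setOfPred_absNorm_le (S := 𝓞 E') N₀
  refine ⟨2 ^ hfin.toFinset.card, one_le_pow₀ (by norm_num), ?_⟩
  intro s hs T hT
  have hcard : T.card ≤ hfin.toFinset.card := by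
    rw [← Finset.card_image_of_injective T (asIdeal_injective E')]
    apply Finset.card_le_card
    intro Q hQ
    obtain ⟨w, hw, rfl⟩ := Finset.mem_image.mp hQ
    rw [Set.Finite.mem_toFinset]
    exact hT w hw
  calc ∏ w ∈ T, (1 - normPow E' s (pr w))⁻¹ ≤ ∏ _w ∈ T, (2 : ℝ) := by
        apply Finset.prod_le_prod
        · intro w _
          have := normPow_pr_mem E' hs w
          rw [inv_nonneg]; linarith
        · intro w _
          have := normPow_pr_mem E' hs w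
          rw [inv_le_comm₀ (by linarith) (by norm_num)]
          linarith
    _ = 2 ^ T.card := by rw [Finset.prod_const]
    _ ≤ 2 ^ hfin.toFinset.card := pow_le_pow_right₀ (by norm_num) hcard

open scoped Classical in
/-- The key inequality between finite Euler products of `ζ_{E'}` and `∏_ψ L(s, ψ)`. -/
theorem prod_pow_index_le (N₀ : ℕ)
    (hH : ∀ w : HeightOneSpectrum (𝓞 E'), (Ideal.absNorm w.asIdeal).Prime →
      N₀ < Ideal.absNorm w.asIdeal → ClassGroup.mk0 (pr (below E E' w)) ∈ H) :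
    ∃ C : ℝ, 0 ≤ C ∧ ∀ s : ℝ, 1 < s → ∀ T' : Finset (HeightOneSpectrum (𝓞 E')),
      (∏ w ∈ T', (1 - normPow E' s (pr w))⁻¹) ^ H.index ≤
        C * ‖∏ ψ : (ClassGroup (𝓞 E) ⧸ H) →* ℂˣ, LFun E H ψ s‖ ^ (Module.finrank E E') := by
  obtain ⟨C0, hC0⟩ := exists_bound_prod_nonprime E'
  have hC0one : 1 ≤ C0 := by
    have := hC0 ∅ (by simp) 1 le_rfl
    simpa using this
  obtain ⟨C2, hC2one, hC2⟩ := exists_bound_prod_small E' N₀
  have hC02 : 0 ≤ C2 * C0 := mul_nonneg (zero_le_one.trans hC2one) (zero_le_one.trans hC0one)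
  refine ⟨(C2 * C0) ^ H.index, pow_nonneg hC02 _, ?_⟩
  intro s hs T'
  set a := H.index
  set n := Module.finrank E E'
  set good := T'.filter (fun w => (Ideal.absNorm w.asIdeal).Prime ∧
    N₀ < Ideal.absNorm w.asIdeal) with hgood
  set rest := T'.filter (fun w => ¬ ((Ideal.absNorm w.asIdeal).Prime ∧
    N₀ < Ideal.absNorm w.asIdeal)) with hrest
  set small := rest.filter (fun w => (Ideal.absNorm w.asIdeal).Prime) with hsmall
  set bad := rest.filter (fun w => ¬ (Ideal.absNorm w.asIdeal).Prime) with hbad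
  have hsplit : ∏ w ∈ T', (1 - normPow E' s (pr w))⁻¹ =
      (∏ w ∈ good, (1 - normPow E' s (pr w))⁻¹) * ∏ w ∈ rest, (1 - normPow E' s (pr w))⁻¹ :=
    (Finset.prod_filter_mul_prod_filter_not T' _ _).symm
  have hsplit2 : ∏ w ∈ rest, (1 - normPow E' s (pr w))⁻¹ =
      (∏ w ∈ small, (1 - normPow E' s (pr w))⁻¹) * ∏ w ∈ bad, (1 - normPow E' s (pr w))⁻¹ :=
    (Finset.prod_filter_mul_prod_filter_not rest _ _).symm
  have hnn : ∀ S : Finset (HeightOneSpectrum (𝓞 E')),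
      0 ≤ ∏ w ∈ S, (1 - normPow E' s (pr w))⁻¹ := by
    intro S
    apply Finset.prod_nonneg
    intro w _
    have := normPow_pr_mem E' hs.le w
    rw [inv_nonneg]
    linarith
  -- the bad part
  have hbadle : ∏ w ∈ bad, (1 - normPow E' s (pr w))⁻¹ ≤ C0 := by
    have h1 : ∏ w ∈ bad, (1 - normPow E' s (pr w))⁻¹ =
        ∏ Q ∈ bad.image (fun w => w.asIdeal), (1 - (Ideal.absNorm Q : ℝ) ^ (-s))⁻¹ := by
      rw [Finset.prod_image (fun a _ b _ h => asIdeal_injective E' h)]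
      rfl
    rw [h1]
    apply hC0 _ _ s hs.le
    intro Q hQ
    obtain ⟨w, hw, rfl⟩ := Finset.mem_image.mp hQ
    exact ⟨w.isPrime, w.ne_bot, (Finset.mem_filter.mp hw).2⟩
  -- the small part
  have hsmallle : ∏ w ∈ small, (1 - normPow E' s (pr w))⁻¹ ≤ C2 := by
    apply hC2 s hs.le
    intro w hw
    obtain ⟨hw1, hw2⟩ := Finset.mem_filter.mp hw
    have hw3 := (Finset.mem_filter.mp hw1).2
    by_contra hlt
    exact hw3 ⟨hw2, not_le.mp hlt⟩
  have hrestle : ∏ w ∈ rest, (1 - normPow E' s (pr w))⁻¹ ≤ C2 * C0 := by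
    rw [hsplit2]
    exact mul_le_mul hsmallle hbadle (hnn bad) (zero_le_one.trans hC2one)
  -- the good part
  have hgoodle : ∏ w ∈ good, (1 - normPow E' s (pr w))⁻¹ ≤
      ∏ v ∈ good.image (below E E'), ((1 - normPow E s (pr v))⁻¹) ^ n := by
    have h1 := prod_degreeOne_le_hos E E' (eulerFactor s) (one_le_eulerFactor s) good
      (fun w hw => (Finset.mem_filter.mp hw).2.1)
    have h2 : ∏ w ∈ good, eulerFactor s (Ideal.absNorm w.asIdeal) =
        ∏ w ∈ good, (1 - normPow E' s (pr w))⁻¹ :=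
      Finset.prod_congr rfl fun w _ => eulerFactor_absNorm E' hs.le w
    have h3 : ∏ v ∈ good.image (below E E'), eulerFactor s (Ideal.absNorm v.asIdeal) ^ n =
        ∏ v ∈ good.image (below E E'), ((1 - normPow E s (pr v))⁻¹) ^ n :=
      Finset.prod_congr rfl fun v _ => by rw [eulerFactor_absNorm E hs.le v]
    rw [h2, h3] at h1
    exact h1
  -- local factors
  have hloc : (∏ v ∈ good.image (below E E'), ((1 - normPow E s (pr v))⁻¹) ^ n) ^ a =
      (∏ v ∈ good.image (below E E'), localFactor E H s v) ^ n := by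
    rw [← Finset.prod_pow, ← Finset.prod_pow]
    refine Finset.prod_congr rfl fun v hv => ?_
    obtain ⟨w, hw, rfl⟩ := Finset.mem_image.mp hv
    have hw' := (Finset.mem_filter.mp hw).2
    rw [localFactor_of_mem E H hs.le _ (hH w hw'.1 hw'.2), ← pow_mul, ← pow_mul, mul_comm]
  have hLle := prod_localFactor_le E H hs (good.image (below E E'))
  have hLnn : 0 ≤ ∏ v ∈ good.image (below E E'), localFactor E H s v :=
    Finset.prod_nonneg fun v _ => zero_le_one.trans (one_le_localFactor E H s v)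
  calc (∏ w ∈ T', (1 - normPow E' s (pr w))⁻¹) ^ a
      = (∏ w ∈ good, (1 - normPow E' s (pr w))⁻¹) ^ a *
          (∏ w ∈ rest, (1 - normPow E' s (pr w))⁻¹) ^ a := by rw [hsplit, mul_pow]
    _ ≤ (∏ v ∈ good.image (below E E'), ((1 - normPow E s (pr v))⁻¹) ^ n) ^ a *
          (C2 * C0) ^ a := by
        apply mul_le_mul (pow_le_pow_left₀ (hnn good) hgoodle a)
          (pow_le_pow_left₀ (hnn rest) hrestle a) (pow_nonneg (hnn rest) a)
        exact pow_nonneg ((hnn good).trans hgoodle) a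
    _ = (C2 * C0) ^ a * (∏ v ∈ good.image (below E E'), localFactor E H s v) ^ n := by
        rw [hloc, mul_comm]
    _ ≤ (C2 * C0) ^ a * ‖∏ ψ : (ClassGroup (𝓞 E) ⧸ H) →* ℂˣ, LFun E H ψ s‖ ^ n := by
        apply mul_le_mul_of_nonneg_left (pow_le_pow_left₀ hLnn hLle n)
        exact pow_nonneg hC02 _

end Compare

/-- Comparison of pole orders, eventual form. -/
theorem le_of_pow_le_of_tendsto' (F G : ℝ → ℝ) (rF rG C : ℝ) (a n : ℕ) (hrF : 0 < rF)
    (hF : Tendsto (fun s : ℝ => (s - 1) * F s) (𝓝[>] 1) (𝓝 rF))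
    (hG : Tendsto (fun s : ℝ => (s - 1) * G s) (𝓝[>] 1) (𝓝 rG))
    (hle : ∀ᶠ s in 𝓝[>] (1 : ℝ), F s ^ a ≤ C * G s ^ n) : a ≤ n := by
  by_contra hlt
  have hlt := not_le.mp hlt
  obtain ⟨k, hk⟩ : ∃ k, a = n + (k + 1) := ⟨a - n - 1, by omega⟩
  have hid : Tendsto (fun s : ℝ => s - 1) (𝓝[>] 1) (𝓝 0) := by
    have : Tendsto (fun s : ℝ => s - 1) (𝓝 1) (𝓝 (1 - 1)) :=
      (continuous_id.sub continuous_const).tendsto 1
    rw [sub_self] at this
    exact this.mono_left nhdsWithin_le_nhds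
  have hL : Tendsto (fun s : ℝ => ((s - 1) * F s) ^ a) (𝓝[>] 1) (𝓝 (rF ^ a)) := hF.pow a
  have hR : Tendsto (fun s : ℝ => C * ((s - 1) ^ (k + 1) * ((s - 1) * G s) ^ n)) (𝓝[>] 1)
      (𝓝 (C * (0 ^ (k + 1) * rG ^ n))) :=
    ((hid.pow (k + 1)).mul (hG.pow n)).const_mul C
  have hev : ∀ᶠ s : ℝ in 𝓝[>] 1,
      ((s - 1) * F s) ^ a ≤ C * ((s - 1) ^ (k + 1) * ((s - 1) * G s) ^ n) := by
    filter_upwards [hle, self_mem_nhdsWithin] with s h1 hs
    have hs1 : 0 ≤ s - 1 := by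
      have : (1 : ℝ) < s := hs
      linarith
    calc ((s - 1) * F s) ^ a = (s - 1) ^ a * F s ^ a := mul_pow _ _ _
      _ ≤ (s - 1) ^ a * (C * G s ^ n) := mul_le_mul_of_nonneg_left h1 (pow_nonneg hs1 a)
      _ = C * ((s - 1) ^ (k + 1) * ((s - 1) * G s) ^ n) := by
          rw [hk, mul_pow]; ring
  have hfin := le_of_tendsto_of_tendsto hL hR hev
  rw [zero_pow (Nat.succ_ne_zero k), zero_mul, mul_zero] at hfin
  exact absurd (pow_pos hrF a) (not_lt.mpr hfin)

section Main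

variable (E E' : Type*) [Field E] [NumberField E] [Field E'] [NumberField E'] [Algebra E E']

/-- **Analytic norm-index inequality at modulus `1`** (height one spectrum form, with a finite
exceptional set of primes). -/
theorem index_le_finrank_hos (H : Subgroup (ClassGroup (𝓞 E))) (N₀ : ℕ)
    (hH : ∀ w : HeightOneSpectrum (𝓞 E'), (Ideal.absNorm w.asIdeal).Prime →
      N₀ < Ideal.absNorm w.asIdeal → ClassGroup.mk0 (pr (below E E' w)) ∈ H)
    (hL : ∀ χ : ClassGroup (𝓞 E) →* ℂ, χ ≠ 1 → ∃ B : ℝ, ∀ᶠ s in 𝓝[>] (1 : ℝ),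
      ‖∑ C : ClassGroup (𝓞 E), χ C * ((partialZeta E C s : ℝ) : ℂ)‖ ≤ B) :
    H.index ≤ Module.finrank E E' := by
  classical
  let _ : Fintype ((ClassGroup (𝓞 E) ⧸ H) →* ℂˣ) := Fintype.ofFinite _
  obtain ⟨C, hC0, hC⟩ := prod_pow_index_le E E' H N₀ hH
  obtain ⟨B, hB0, hB⟩ := exists_bound_prod_LFun E H hL
  refine le_of_pow_le_of_tendsto' (zetaR E') (zetaR E) (dedekindZeta_residue E')
    (dedekindZeta_residue E) (C * B ^ (Module.finrank E E')) _ _ (dedekindZeta_residue_pos E')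
    (tendsto_sub_one_mul_zetaR E') (tendsto_sub_one_mul_zetaR E) ?_
  filter_upwards [hB, self_mem_nhdsWithin] with s hsB hs1
  have hs1' : (1 : ℝ) < s := hs1
  -- pass to the limit in the finite Euler products of `ζ_{E'}`
  have hprod := hasProd_zetaR E' hs1'
  rw [HasProd, SummationFilter.unconditional] at hprod
  have hlim : zetaR E' s ^ H.index ≤
      C * ‖∏ ψ : (ClassGroup (𝓞 E) ⧸ H) →* ℂˣ, LFun E H ψ s‖ ^ (Module.finrank E E') :=
    le_of_tendsto' (hprod.pow H.index) (fun T' => hC s hs1' T')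
  calc zetaR E' s ^ H.index
      ≤ C * ‖∏ ψ : (ClassGroup (𝓞 E) ⧸ H) →* ℂˣ, LFun E H ψ s‖ ^ (Module.finrank E E') := hlim
    _ ≤ C * (B * zetaR E s) ^ (Module.finrank E E') := by
        apply mul_le_mul_of_nonneg_left _ hC0
        exact pow_le_pow_left₀ (norm_nonneg _) hsB _
    _ = C * B ^ (Module.finrank E E') * zetaR E s ^ (Module.finrank E E') := by
        rw [mul_pow, mul_assoc]

/-- **Analytic norm-index inequality at modulus `1`**: if `H ≤ Cl(E)` contains the class of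
`Q ∩ 𝓞 E` for every degree-one prime `Q` of `E'` of norm `> N₀`, and the nontrivial class-group
`L`-functions of `E` are bounded near `1⁺`, then `[Cl(E) : H] ≤ [E' : E]`. -/
theorem index_le_finrank (H : Subgroup (ClassGroup (𝓞 E))) (N₀ : ℕ)
    (hH : ∀ (Q : Ideal (𝓞 E')) (_ : Q.IsPrime) (hQ0 : Q ≠ ⊥), (Ideal.absNorm Q).Prime →
      N₀ < Ideal.absNorm Q →
      ClassGroup.mk0 (⟨Q.under (𝓞 E),
        mem_nonZeroDivisors_iff_ne_zero.mpr (Ideal.under_ne_bot (𝓞 E) hQ0)⟩ : (Ideal (𝓞 E))⁰)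
        ∈ H)
    (hL : ∀ χ : ClassGroup (𝓞 E) →* ℂ, χ ≠ 1 → ∃ B : ℝ, ∀ᶠ s in 𝓝[>] (1 : ℝ),
      ‖∑ C : ClassGroup (𝓞 E), χ C * ((partialZeta E C s : ℝ) : ℂ)‖ ≤ B) :
    H.index ≤ Module.finrank E E' :=
  index_le_finrank_hos E E' H N₀
    (fun w hw hN => hH w.asIdeal w.isPrime w.ne_bot hw hN) hL

end Main

end Fermat.Agent.S14.IndexIneqB
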