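import Mathlib
import Fermat.Agent.S14.Zeta.Glue
import Fermat.Agent.S14.EulerIdeal

/-!
# Arithmetic of primes in an extension of number fields, for the analytic index inequality

* `absNorm_under_le` : `N(w ∩ E) ≤ N(w)`.
* `card_filter_under_le` : at most `[E' : E]` primes of `E'` lie over a given prime of `E`.
* `summable_inv_absNorm_of_not_prime` : `∑ 1 / N(w)` over the primes `w` whose norm is not a
  prime number converges.
-/

namespace Fermat.Agent.S14.PrimeArith

open NumberField IsDedekindDomain Ideal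

variable (E E' : Type*) [Field E] [NumberField E] [Field E'] [NumberField E'] [Algebra E E']

omit [NumberField E] [NumberField E'] in
lemma liesOver_under (w : HeightOneSpectrum (𝓞 E')) :
    w.asIdeal.LiesOver (w.under (𝓞 E)).asIdeal := ⟨rfl⟩

/-- The norm of a prime is a positive natural number. -/
lemma absNorm_pos (w : HeightOneSpectrum (𝓞 E')) : 0 < absNorm w.asIdeal := by
  rw [Nat.pos_iff_ne_zero, Ne, Ideal.absNorm_eq_zero_iff]
  exact w.ne_bot

/-- The norm of a prime is at least two. -/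
lemma two_le_absNorm (w : HeightOneSpectrum (𝓞 E')) : 2 ≤ absNorm w.asIdeal := by
  have h0 := absNorm_pos E' w
  have h1 : absNorm w.asIdeal ≠ 1 := by
    rw [Ne, Ideal.absNorm_eq_one_iff]
    exact w.isPrime.ne_top
  omega

/-- `N(w ∩ E) ∣ N(w)`. -/
theorem absNorm_under_dvd (w : HeightOneSpectrum (𝓞 E')) :
    absNorm (w.under (𝓞 E)).asIdeal ∣ absNorm w.asIdeal := by
  have := liesOver_under E E' w
  have h := Ideal.absNorm_pow_inertiaDeg (w.under (𝓞 E)).asIdeal w.asIdeal
  rw [← h]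
  exact dvd_pow_self _ (Ideal.inertiaDeg_pos w.asIdeal (𝓞 E)).ne'

/-- `N(w ∩ E) ≤ N(w)`. -/
theorem absNorm_under_le (w : HeightOneSpectrum (𝓞 E')) :
    absNorm (w.under (𝓞 E)).asIdeal ≤ absNorm w.asIdeal :=
  Nat.le_of_dvd (absNorm_pos E' w) (absNorm_under_dvd E E' w)

/-- At most `[E' : E]` primes of `E'` lie over a given prime of `E`. -/
theorem card_filter_under_le [DecidableEq (HeightOneSpectrum (𝓞 E))]
    (T : Finset (HeightOneSpectrum (𝓞 E'))) (v : HeightOneSpectrum (𝓞 E)) :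
    (T.filter (fun w => w.under (𝓞 E) = v)).card ≤ Module.finrank E E' := by
  classical
  have hsum := Ideal.sum_ramification_inertia_eq_finrank v.asIdeal (𝓞 E')
  rw [← IsFractionRing.finrank_eq (𝓞 E) E (𝓞 E') E'] at hsum
  rw [← hsum]
  -- inject the filter into `primesOver`
  let φ : {w // w ∈ T.filter (fun w => w.under (𝓞 E) = v)} → v.asIdeal.primesOver (𝓞 E') :=
    fun w => ⟨w.1.asIdeal, w.1.isPrime, by
      have h := (Finset.mem_filter.mp w.2).2
      have h2 := liesOver_under E E' w.1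
      rwa [h] at h2⟩
  have hφ : Function.Injective φ := by
    intro w w' h
    have : w.1.asIdeal = w'.1.asIdeal := congrArg Subtype.val h
    exact Subtype.ext (HeightOneSpectrum.ext this)
  have h1 : (T.filter (fun w => w.under (𝓞 E) = v)).card ≤
      Fintype.card (v.asIdeal.primesOver (𝓞 E')) := by
    have := Fintype.card_le_of_injective φ hφ
    simpa using this
  refine h1.trans ?_
  rw [Fintype.card_eq_sum_ones]
  refine Finset.sum_le_sum (fun q _ => ?_)
  have : q.1.IsPrime := q.2.1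
  exact Nat.one_le_iff_ne_zero.mpr (mul_ne_zero (Ideal.ramificationIdx_pos q.1 (𝓞 E)).ne'
    (Ideal.inertiaDeg_pos q.1 (𝓞 E)).ne')

/-- Relative degree one: `N(w ∩ E) = N(w)`. -/
theorem absNorm_under_eq (w : HeightOneSpectrum (𝓞 E'))
    (hw : w.asIdeal.inertiaDeg (𝓞 E) = 1) :
    absNorm (w.under (𝓞 E)).asIdeal = absNorm w.asIdeal := by
  have := liesOver_under E E' w
  have h := Ideal.absNorm_pow_inertiaDeg (w.under (𝓞 E)).asIdeal w.asIdeal
  rw [hw, pow_one] at h
  exact h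

/-- Relative degree at least two: `N(w ∩ E) ^ 2 ≤ N(w)`. -/
theorem sq_absNorm_under_le (w : HeightOneSpectrum (𝓞 E'))
    (hw : w.asIdeal.inertiaDeg (𝓞 E) ≠ 1) :
    absNorm (w.under (𝓞 E)).asIdeal ^ 2 ≤ absNorm w.asIdeal := by
  have := liesOver_under E E' w
  have h := Ideal.absNorm_pow_inertiaDeg (w.under (𝓞 E)).asIdeal w.asIdeal
  have hpos := Ideal.inertiaDeg_pos w.asIdeal (𝓞 E)
  rw [← h]
  exact Nat.pow_le_pow_right (absNorm_pos E (w.under (𝓞 E))) (by omega)

open Fermat.Agent.S14.Zeta Fermat.Agent.S14.EulerIdeal in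
/-- A finite sum of `N(v) ^ (-s)` over primes is bounded by the zeta value. -/
theorem sum_rpow_le_zetaR (S : Finset (HeightOneSpectrum (𝓞 E))) {s : ℝ} (hs : 1 < s) :
    ∑ v ∈ S, (absNorm v.asIdeal : ℝ) ^ (-s) ≤ zetaR E s := by
  classical
  have hsum := summable_zetaR E hs
  have h1 : ∑ v ∈ S, (absNorm v.asIdeal : ℝ) ^ (-s) =
      ∑ I ∈ S.map ⟨pr, pr_injective⟩, (absNorm (I : Ideal (𝓞 E)) : ℝ) ^ (-s) := by
    rw [Finset.sum_map]
    rfl
  rw [h1, zetaR]
  exact hsum.sum_le_tsum _ (fun _ _ => Real.rpow_nonneg (Nat.cast_nonneg _) _)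

open Fermat.Agent.S14.Zeta in
/-- The primes of relative degree at least two contribute a bounded amount to `∑ 1 / N(w)`. -/
theorem sum_inv_absNorm_le (u : Finset (HeightOneSpectrum (𝓞 E')))
    (hu : ∀ w ∈ u, w.asIdeal.inertiaDeg (𝓞 E) ≠ 1) :
    ∑ w ∈ u, ((absNorm w.asIdeal : ℝ))⁻¹ ≤ (Module.finrank E E' : ℝ) * zetaR E 2 := by
  classical
  have h1 : ∑ w ∈ u, ((absNorm w.asIdeal : ℝ))⁻¹ ≤
      ∑ w ∈ u, (absNorm (w.under (𝓞 E)).asIdeal : ℝ) ^ (-(2 : ℝ)) := by
    refine Finset.sum_le_sum (fun w hw => ?_)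
    have h2 := sq_absNorm_under_le E E' w (hu w hw)
    have hpos : (0 : ℝ) < absNorm (w.under (𝓞 E)).asIdeal := by
      exact_mod_cast absNorm_pos E (w.under (𝓞 E))
    rw [Real.rpow_neg hpos.le, Real.rpow_two]
    apply inv_anti₀ (by positivity)
    exact_mod_cast h2
  refine h1.trans ?_
  rw [← Finset.sum_fiberwise_of_maps_to (t := u.image (fun w => w.under (𝓞 E)))
    (g := fun w => w.under (𝓞 E)) (fun w hw => Finset.mem_image_of_mem _ hw)]
  have h3 : ∀ v ∈ u.image (fun w => w.under (𝓞 E)),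
      ∑ w ∈ u with w.under (𝓞 E) = v, (absNorm (w.under (𝓞 E)).asIdeal : ℝ) ^ (-(2 : ℝ)) ≤
        (Module.finrank E E' : ℝ) * (absNorm v.asIdeal : ℝ) ^ (-(2 : ℝ)) := by
    intro v _
    have h4 : ∑ w ∈ u with w.under (𝓞 E) = v,
        (absNorm (w.under (𝓞 E)).asIdeal : ℝ) ^ (-(2 : ℝ)) =
        ∑ w ∈ u with w.under (𝓞 E) = v, (absNorm v.asIdeal : ℝ) ^ (-(2 : ℝ)) := by
      refine Finset.sum_congr rfl (fun w hw => ?_)
      rw [(Finset.mem_filter.mp hw).2]
    rw [h4, Finset.sum_const, nsmul_eq_mul]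
    refine mul_le_mul_of_nonneg_right ?_ (Real.rpow_nonneg (Nat.cast_nonneg _) _)
    exact_mod_cast card_filter_under_le E E' u v
  refine (Finset.sum_le_sum h3).trans ?_
  rw [← Finset.mul_sum]
  refine mul_le_mul_of_nonneg_left ?_ (Nat.cast_nonneg _)
  exact sum_rpow_le_zetaR E _ (by norm_num)

end Fermat.Agent.S14.PrimeArith
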