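import Mathlib
import Fermat.Agent.S14.EulerIdeal
import Fermat.Agent.S14.CharProd
import Fermat.Agent.S14.PrimeArith
import Fermat.Agent.S14.Zeta.Glue

/-!
# The analytic index inequality at modulus one (second inequality)

Let `E'/E` be a finite extension of number fields and `H` a subgroup of the class group of `E`
containing the classes of all primes of `E` lying under a prime of `E'` of relative degree one
(outside a finite set).  Assuming that the partial zeta functions of any two ideal classes of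
`E` differ by a bounded function on `(1, 2]`, we prove `[Cl(E) : H] ≤ [E' : E]`.
-/

namespace Fermat.Agent.S14.IndexInequality

open NumberField IsDedekindDomain Ideal Filter Topology nonZeroDivisors
open Fermat.Agent.S14.Zeta Fermat.Agent.S14.EulerIdeal Fermat.Agent.S14.CharProd

attribute [local instance] neZero_exponent fintypeChar

section Basics

variable (E : Type*) [Field E] [NumberField E]

/-- `I ↦ N(I) ^ (-s)` as a monoid homomorphism on the nonzero ideals. -/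
noncomputable def normPow (s : ℝ) : (Ideal (𝓞 E))⁰ →* ℝ where
  toFun I := (absNorm (I : Ideal (𝓞 E)) : ℝ) ^ (-s)
  map_one' := by simp
  map_mul' I J := by
    simp only [Submonoid.coe_mul, map_mul, Nat.cast_mul]
    exact Real.mul_rpow (Nat.cast_nonneg _) (Nat.cast_nonneg _)

lemma normPow_apply (s : ℝ) (I : (Ideal (𝓞 E))⁰) :
    normPow E s I = (absNorm (I : Ideal (𝓞 E)) : ℝ) ^ (-s) := rfl

lemma normPow_nonneg (s : ℝ) (I : (Ideal (𝓞 E))⁰) : 0 ≤ normPow E s I :=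
  Real.rpow_nonneg (Nat.cast_nonneg _) _

lemma normPow_pos (s : ℝ) (I : (Ideal (𝓞 E))⁰) : 0 < normPow E s I := by
  rw [normPow_apply]
  apply Real.rpow_pos_of_pos
  have : absNorm (I : Ideal (𝓞 E)) ≠ 0 := by
    rw [Ne, Ideal.absNorm_eq_zero_iff]
    exact mem_nonZeroDivisors_iff_ne_zero.mp I.2
  exact_mod_cast Nat.pos_of_ne_zero this

lemma summable_normPow {s : ℝ} (hs : 1 < s) : Summable (fun I => normPow E s I) :=
  summable_zetaR E hs

lemma tsum_normPow (s : ℝ) : ∑' I, normPow E s I = zetaR E s := rfl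

/-- `N(v) ^ (-s) ≤ 1 / 2` for a prime `v` and `1 ≤ s`. -/
lemma normPow_pr_le_half {s : ℝ} (hs : 1 ≤ s) (v : HeightOneSpectrum (𝓞 E)) :
    normPow E s (pr v) ≤ 1 / 2 := by
  rw [normPow_apply, pr_coe]
  have h2 : (2 : ℝ) ≤ absNorm v.asIdeal := by
    exact_mod_cast PrimeArith.two_le_absNorm E v
  have hpos : (0 : ℝ) < absNorm v.asIdeal := by linarith
  rw [Real.rpow_neg hpos.le, one_div]
  apply inv_anti₀ (by norm_num)
  calc (2 : ℝ) = 2 ^ (1 : ℝ) := by simp
    _ ≤ 2 ^ s := Real.rpow_le_rpow_of_exponent_le (by norm_num) hs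
    _ ≤ (absNorm v.asIdeal : ℝ) ^ s := Real.rpow_le_rpow (by norm_num) h2 (by linarith)

/-- `N(v) ^ (-s) ≤ N(v) ^ (-1)` for a prime `v` and `1 ≤ s`. -/
lemma normPow_pr_le_inv {s : ℝ} (hs : 1 ≤ s) (v : HeightOneSpectrum (𝓞 E)) :
    normPow E s (pr v) ≤ ((absNorm v.asIdeal : ℝ))⁻¹ := by
  rw [normPow_apply, pr_coe]
  have h2 : (1 : ℝ) ≤ absNorm v.asIdeal := by
    exact_mod_cast (PrimeArith.absNorm_pos E v)
  calc (absNorm v.asIdeal : ℝ) ^ (-s) ≤ (absNorm v.asIdeal : ℝ) ^ (-(1 : ℝ)) :=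
        Real.rpow_le_rpow_of_exponent_le h2 (by linarith)
    _ = ((absNorm v.asIdeal : ℝ))⁻¹ := by rw [Real.rpow_neg_one]

/-- The Euler product of the Dedekind zeta function at a real point `s > 1`. -/
theorem tendsto_euler_zetaR {s : ℝ} (hs : 1 < s) :
    Tendsto (fun S : Finset (HeightOneSpectrum (𝓞 E)) => ∏ v ∈ S, (1 - normPow E s (pr v))⁻¹)
      atTop (𝓝 (zetaR E s)) := by
  have h := tendsto_prod_one_sub_inv (normPow E s) (by
    have := summable_normPow E hs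
    refine this.congr (fun I => ?_)
    rw [Real.norm_of_nonneg (normPow_nonneg E s I)])
  exact h

variable {E}

/-- The coefficient function `I ↦ χ([I]) N(I) ^ (-s)` of the `L`-series of a class group
character. -/
noncomputable def twist (χ : ClassGroup (𝓞 E) →* ℂˣ) (s : ℝ) : (Ideal (𝓞 E))⁰ →* ℂ :=
  ((Units.coeHom ℂ).comp (χ.comp ClassGroup.mk0)) *
    ((Complex.ofRealHom : ℝ →+* ℂ).toMonoidHom.comp (normPow E s))

lemma twist_apply (χ : ClassGroup (𝓞 E) →* ℂˣ) (s : ℝ) (I : (Ideal (𝓞 E))⁰) :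
    twist χ s I = ((χ (ClassGroup.mk0 I) : ℂˣ) : ℂ) * ((normPow E s I : ℝ) : ℂ) := rfl

lemma norm_twist (χ : ClassGroup (𝓞 E) →* ℂˣ) (s : ℝ) (I : (Ideal (𝓞 E))⁰) :
    ‖twist χ s I‖ = normPow E s I := by
  rw [twist_apply, norm_mul, norm_char, one_mul, Complex.norm_real,
    Real.norm_of_nonneg (normPow_nonneg E s I)]

lemma summable_norm_twist (χ : ClassGroup (𝓞 E) →* ℂˣ) {s : ℝ} (hs : 1 < s) :
    Summable (fun I => ‖twist χ s I‖) := by
  simp only [norm_twist]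
  exact summable_normPow E hs

/-- The `L`-series of a class group character at a real point. -/
noncomputable def Lfun (χ : ClassGroup (𝓞 E) →* ℂˣ) (s : ℝ) : ℂ := ∑' I, twist χ s I

/-- The Euler product of `Lfun χ s`. -/
theorem tendsto_euler_Lfun (χ : ClassGroup (𝓞 E) →* ℂˣ) {s : ℝ} (hs : 1 < s) :
    Tendsto (fun S : Finset (HeightOneSpectrum (𝓞 E)) =>
      ∏ v ∈ S, (1 - ((χ (ClassGroup.mk0 (pr v)) : ℂˣ) : ℂ) * ((normPow E s (pr v) : ℝ) : ℂ))⁻¹)
      atTop (𝓝 (Lfun χ s)) :=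
  tendsto_prod_one_sub_inv (twist χ s) (summable_norm_twist χ hs)

lemma Lfun_one (s : ℝ) : Lfun (1 : ClassGroup (𝓞 E) →* ℂˣ) s = ((zetaR E s : ℝ) : ℂ) := by
  rw [Lfun, zetaR, Complex.ofReal_tsum]
  refine tsum_congr (fun I => ?_)
  rw [twist_apply]
  simp [normPow_apply]

/-- The `L`-series as a combination of the partial zeta functions of the ideal classes. -/
theorem Lfun_eq_sum_partialZeta (χ : ClassGroup (𝓞 E) →* ℂˣ) {s : ℝ} (hs : 1 < s) :
    Lfun χ s = ∑ C : ClassGroup (𝓞 E), ((χ C : ℂˣ) : ℂ) * ((partialZeta E C s : ℝ) : ℂ) := by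
  have hsum : Summable (fun I => twist χ s I) := (summable_norm_twist χ hs).of_norm
  have hsum' : Summable (fun p : (Σ C : ClassGroup (𝓞 E),
      {I : (Ideal (𝓞 E))⁰ // ClassGroup.mk0 I = C}) => twist χ s p.2.1) :=
    (Equiv.sigmaFiberEquiv (fun I : (Ideal (𝓞 E))⁰ => ClassGroup.mk0 I)).summable_iff.mpr hsum
  have e0 : ∀ C : ClassGroup (𝓞 E), Summable
      (fun I : {I : (Ideal (𝓞 E))⁰ // ClassGroup.mk0 I = C} => twist χ s I.1) :=
    fun C => hsum.subtype _
  have e1 : Lfun χ s =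
      ∑' p : (Σ C : ClassGroup (𝓞 E), {I : (Ideal (𝓞 E))⁰ // ClassGroup.mk0 I = C}),
        twist χ s p.2.1 := by
    rw [Lfun, ← (Equiv.sigmaFiberEquiv
      (fun I : (Ideal (𝓞 E))⁰ => ClassGroup.mk0 I)).tsum_eq]
    rfl
  have e2 := Summable.tsum_sigma' (f := fun p : (Σ C : ClassGroup (𝓞 E),
    {I : (Ideal (𝓞 E))⁰ // ClassGroup.mk0 I = C}) => twist χ s p.2.1) e0 hsum'
  rw [e1, e2, tsum_fintype]
  refine Finset.sum_congr rfl (fun C _ => ?_)
  rw [partialZeta, Complex.ofReal_tsum, ← tsum_mul_left]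
  refine tsum_congr (fun I => ?_)
  rw [twist_apply, I.2, normPow_apply]

/-- If the partial zeta functions differ by bounded functions on `(1, 2]`, the `L`-series of a
nontrivial class group character is bounded on `(1, 2]`. -/
theorem exists_bound_Lfun
    (hZ : ∀ C C' : ClassGroup (𝓞 E), ∃ B : ℝ, ∀ s : ℝ, 1 < s → s ≤ 2 →
      |partialZeta E C s - partialZeta E C' s| ≤ B)
    (χ : ClassGroup (𝓞 E) →* ℂˣ) (hχ : χ ≠ 1) :
    ∃ B : ℝ, ∀ s : ℝ, 1 < s → s ≤ 2 → ‖Lfun χ s‖ ≤ B := by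
  choose B hB using fun C => hZ C 1
  refine ⟨∑ C, B C, fun s hs1 hs2 => ?_⟩
  have hsum0 : ∑ C : ClassGroup (𝓞 E), ((χ C : ℂˣ) : ℂ) = 0 := by
    have hne : (Units.coeHom ℂ).comp χ ≠ 1 := by
      intro h
      apply hχ
      ext C
      have := DFunLike.congr_fun h C
      simpa using this
    have := sum_hom_units_eq_zero ((Units.coeHom ℂ).comp χ) hne
    simpa using this
  have h1 : Lfun χ s = ∑ C : ClassGroup (𝓞 E), ((χ C : ℂˣ) : ℂ) *
      (((partialZeta E C s - partialZeta E 1 s : ℝ)) : ℂ) := by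
    rw [Lfun_eq_sum_partialZeta χ hs1]
    have : ∑ C : ClassGroup (𝓞 E), ((χ C : ℂˣ) : ℂ) * (((partialZeta E C s -
        partialZeta E 1 s : ℝ)) : ℂ) = ∑ C : ClassGroup (𝓞 E), ((χ C : ℂˣ) : ℂ) *
        ((partialZeta E C s : ℝ) : ℂ) - (∑ C : ClassGroup (𝓞 E), ((χ C : ℂˣ) : ℂ)) *
        ((partialZeta E 1 s : ℝ) : ℂ) := by
      rw [Finset.sum_mul, ← Finset.sum_sub_distrib]
      refine Finset.sum_congr rfl (fun C _ => ?_)
      push_cast
      ring
    rw [this, hsum0, zero_mul, sub_zero]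
  rw [h1]
  refine (norm_sum_le _ _).trans (Finset.sum_le_sum (fun C _ => ?_))
  rw [norm_mul, norm_char, one_mul, Complex.norm_real, Real.norm_eq_abs]
  exact hB C s hs1 hs2

end Basics

section Elementary

lemma one_le_inv_one_sub {x : ℝ} (h0 : 0 ≤ x) (h1 : x ≤ 1 / 2) : 1 ≤ (1 - x)⁻¹ := by
  rw [one_le_inv₀ (by linarith)]
  linarith

lemma inv_one_sub_le_two {x : ℝ} (h1 : x ≤ 1 / 2) : (1 - x)⁻¹ ≤ 2 := by
  rw [inv_le_comm₀ (by linarith) (by norm_num)]
  linarith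

lemma inv_one_sub_le_exp {x : ℝ} (h0 : 0 ≤ x) (h1 : x ≤ 1 / 2) :
    (1 - x)⁻¹ ≤ Real.exp (2 * x) := by
  have h2 : (1 - x)⁻¹ ≤ 1 + 2 * x := by
    rw [inv_le_iff_one_le_mul₀ (by linarith)]
    nlinarith
  have h3 : 2 * x + 1 ≤ Real.exp (2 * x) := Real.add_one_le_exp _
  linarith

end Elementary

section Main

variable (E E' : Type*) [Field E] [NumberField E] [Field E'] [NumberField E'] [Algebra E E']

variable {E} (H : Subgroup (ClassGroup (𝓞 E)))

/-- The character of the class group attached to a character of the quotient by `H`. -/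
noncomputable def liftChar (ψ : (ClassGroup (𝓞 E) ⧸ H) →* ℂˣ) : ClassGroup (𝓞 E) →* ℂˣ :=
  ψ.comp (QuotientGroup.mk' H)

omit [NumberField E] in
lemma liftChar_apply (ψ : (ClassGroup (𝓞 E) ⧸ H) →* ℂˣ) (C : ClassGroup (𝓞 E)) :
    liftChar H ψ C = ψ (C : ClassGroup (𝓞 E) ⧸ H) := rfl

omit [NumberField E] in
lemma liftChar_one : liftChar H (1 : (ClassGroup (𝓞 E) ⧸ H) →* ℂˣ) = 1 := rfl

omit [NumberField E] in
lemma liftChar_ne_one {ψ : (ClassGroup (𝓞 E) ⧸ H) →* ℂˣ} (hψ : ψ ≠ 1) : liftChar H ψ ≠ 1 := by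
  intro h
  apply hψ
  refine MonoidHom.ext (fun a => ?_)
  obtain ⟨C, rfl⟩ := QuotientGroup.mk_surjective a
  have := DFunLike.congr_fun h C
  simpa [liftChar_apply] using this

/-- The Euler factor at `v` of the product of all `L`-series of characters of `Cl(E) / H`. -/
noncomputable def eulerFactor (s : ℝ) (v : HeightOneSpectrum (𝓞 E)) : ℂ :=
  ∏ ψ : (ClassGroup (𝓞 E) ⧸ H) →* ℂˣ,
    (1 - ((liftChar H ψ (ClassGroup.mk0 (pr v)) : ℂˣ) : ℂ) * ((normPow E s (pr v) : ℝ) : ℂ))⁻¹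

lemma one_le_norm_eulerFactor {s : ℝ} (hs : 1 ≤ s) (v : HeightOneSpectrum (𝓞 E)) :
    1 ≤ ‖eulerFactor H s v‖ := by
  have hx := normPow_pr_le_half E hs v
  exact one_le_norm_prod_inv ((ClassGroup.mk0 (pr v) : ClassGroup (𝓞 E)) : ClassGroup (𝓞 E) ⧸ H)
    (normPow_nonneg E s (pr v)) (by linarith)

lemma norm_eulerFactor_of_mem {s : ℝ} (hs : 1 ≤ s) (v : HeightOneSpectrum (𝓞 E))
    (hv : ClassGroup.mk0 (pr v) ∈ H) :
    ‖eulerFactor H s v‖ = ((1 - normPow E s (pr v))⁻¹) ^ H.index := by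
  have hx := normPow_pr_le_half E hs v
  have h1 : ((ClassGroup.mk0 (pr v) : ClassGroup (𝓞 E)) : ClassGroup (𝓞 E) ⧸ H) = 1 :=
    (QuotientGroup.eq_one_iff _).mpr hv
  have h2 : eulerFactor H s v = (((1 - normPow E s (pr v))⁻¹ : ℝ) : ℂ) ^ H.index := by
    unfold eulerFactor
    simp only [liftChar_apply, h1]
    rw [prod_inv_one]
    push_cast
    rfl
  rw [h2, norm_pow, Complex.norm_real, Real.norm_of_nonneg]
  exact inv_nonneg.mpr (by linarith)

/-- Lower bound for the product of the `L`-series by finitely many Euler factors at primes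
whose class lies in `H`. -/
theorem prod_le_norm_prod_Lfun {s : ℝ} (hs : 1 < s) (S : Finset (HeightOneSpectrum (𝓞 E)))
    (hS : ∀ v ∈ S, ClassGroup.mk0 (pr v) ∈ H) :
    ∏ v ∈ S, ((1 - normPow E s (pr v))⁻¹) ^ H.index ≤
      ‖∏ ψ : (ClassGroup (𝓞 E) ⧸ H) →* ℂˣ, Lfun (liftChar H ψ) s‖ := by
  classical
  have htend : Tendsto (fun S' : Finset (HeightOneSpectrum (𝓞 E)) =>
      ∏ v ∈ S', eulerFactor H s v) atTop
      (𝓝 (∏ ψ : (ClassGroup (𝓞 E) ⧸ H) →* ℂˣ, Lfun (liftChar H ψ) s)) := by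
    have h1 := tendsto_finsetProd (Finset.univ : Finset ((ClassGroup (𝓞 E) ⧸ H) →* ℂˣ))
      (fun ψ _ => tendsto_euler_Lfun (liftChar H ψ) hs)
    refine h1.congr (fun S' => ?_)
    rw [Finset.prod_comm]
    rfl
  have hnorm := htend.norm
  refine ge_of_tendsto hnorm ?_
  filter_upwards [eventually_ge_atTop S] with S' hS'
  rw [norm_prod]
  calc ∏ v ∈ S, ((1 - normPow E s (pr v))⁻¹) ^ H.index
      = ∏ v ∈ S, ‖eulerFactor H s v‖ :=
        Finset.prod_congr rfl (fun v hv => (norm_eulerFactor_of_mem H hs.le v (hS v hv)).symm)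
    _ ≤ ∏ v ∈ S', ‖eulerFactor H s v‖ :=
        Finset.prod_le_prod_of_subset_of_one_le hS' (fun v _ => norm_nonneg _)
          (fun v _ _ => one_le_norm_eulerFactor H hs.le v)

variable (E)

/-- The primes of `E'` which are exceptional or of relative degree `≥ 2` contribute a bounded
factor to the Euler product of `ζ_{E'}`, uniformly in `s ≥ 1`. -/
theorem prod_bad_le {s : ℝ} (hs : 1 ≤ s) (T₀ u : Finset (HeightOneSpectrum (𝓞 E')))
    (hu : ∀ w ∈ u, ¬ (w ∉ T₀ ∧ w.asIdeal.inertiaDeg (𝓞 E) = 1)) :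
    ∏ w ∈ u, (1 - normPow E' s (pr w))⁻¹ ≤
      2 ^ T₀.card * Real.exp (2 * ((Module.finrank E E' : ℝ) * zetaR E 2)) := by
  classical
  rw [← Finset.prod_filter_mul_prod_filter_not u (· ∈ T₀)]
  have hfac0 : ∀ w : HeightOneSpectrum (𝓞 E'), 0 ≤ (1 - normPow E' s (pr w))⁻¹ := by
    intro w
    have := normPow_pr_le_half E' hs w
    exact inv_nonneg.mpr (by linarith)
  refine mul_le_mul ?_ ?_ (Finset.prod_nonneg (fun w _ => hfac0 w)) (by positivity)
  · calc ∏ w ∈ u.filter (· ∈ T₀), (1 - normPow E' s (pr w))⁻¹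
        ≤ ∏ _w ∈ u.filter (· ∈ T₀), (2 : ℝ) :=
          Finset.prod_le_prod (fun w _ => hfac0 w)
            (fun w _ => inv_one_sub_le_two (normPow_pr_le_half E' hs w))
      _ = 2 ^ (u.filter (· ∈ T₀)).card := by rw [Finset.prod_const]
      _ ≤ 2 ^ T₀.card := by
          apply pow_le_pow_right₀ (by norm_num)
          apply Finset.card_le_card
          intro w hw
          exact (Finset.mem_filter.mp hw).2
  · calc ∏ w ∈ u.filter (fun w => ¬ w ∈ T₀), (1 - normPow E' s (pr w))⁻¹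
        ≤ ∏ w ∈ u.filter (fun w => ¬ w ∈ T₀), Real.exp (2 * ((absNorm w.asIdeal : ℝ))⁻¹) := by
          refine Finset.prod_le_prod (fun w _ => hfac0 w) (fun w _ => ?_)
          refine (inv_one_sub_le_exp (normPow_nonneg E' s _) (normPow_pr_le_half E' hs w)).trans ?_
          apply Real.exp_le_exp.mpr
          have := normPow_pr_le_inv E' hs w
          linarith
      _ = Real.exp (∑ w ∈ u.filter (fun w => ¬ w ∈ T₀), 2 * ((absNorm w.asIdeal : ℝ))⁻¹) := by
          rw [Real.exp_sum]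
      _ ≤ Real.exp (2 * ((Module.finrank E E' : ℝ) * zetaR E 2)) := by
          apply Real.exp_le_exp.mpr
          rw [← Finset.mul_sum]
          refine mul_le_mul_of_nonneg_left ?_ (by norm_num)
          apply PrimeArith.sum_inv_absNorm_le
          intro w hw hdeg
          obtain ⟨hwu, hwT⟩ := Finset.mem_filter.mp hw
          exact hu w hwu ⟨hwT, hdeg⟩

open scoped Classical in
/-- The primes of `E'` of relative degree one: their Euler factors are bounded by the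
`[E' : E]`-th powers of the Euler factors of the primes of `E` below them. -/
theorem prod_good_le {s : ℝ} (hs : 1 ≤ s) (g : Finset (HeightOneSpectrum (𝓞 E')))
    (hg : ∀ w ∈ g, w.asIdeal.inertiaDeg (𝓞 E) = 1) :
    ∏ w ∈ g, (1 - normPow E' s (pr w))⁻¹ ≤
      ∏ v ∈ g.image (fun w => w.under (𝓞 E)),
        ((1 - normPow E s (pr v))⁻¹) ^ (Module.finrank E E') := by
  classical
  rw [← Finset.prod_fiberwise_of_maps_to (t := g.image (fun w => w.under (𝓞 E)))
    (g := fun w => w.under (𝓞 E)) (fun w hw => Finset.mem_image_of_mem _ hw)]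
  refine Finset.prod_le_prod (fun v _ => Finset.prod_nonneg (fun w _ => ?_)) (fun v _ => ?_)
  · have := normPow_pr_le_half E' hs w
    exact inv_nonneg.mpr (by linarith)
  · have h1 : ∏ w ∈ g with w.under (𝓞 E) = v, (1 - normPow E' s (pr w))⁻¹ =
        ∏ _w ∈ g with _w.under (𝓞 E) = v, (1 - normPow E s (pr v))⁻¹ := by
      refine Finset.prod_congr rfl (fun w hw => ?_)
      obtain ⟨hwg, hwv⟩ := Finset.mem_filter.mp hw
      have h2 := PrimeArith.absNorm_under_eq E E' w (hg w hwg)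
      rw [hwv] at h2
      rw [normPow_apply, normPow_apply, pr_coe, pr_coe, h2]
    rw [h1, Finset.prod_const]
    apply pow_le_pow_right₀ (one_le_inv_one_sub (normPow_nonneg E s _) (normPow_pr_le_half E hs v))
    exact PrimeArith.card_filter_under_le E E' g v

open scoped Classical in
/-- The key inequality between `ζ_{E'}` and the product of the `L`-series, for a real `s > 1`. -/
theorem zetaR_pow_le {s : ℝ} (hs1 : 1 < s) (T₀ : Finset (HeightOneSpectrum (𝓞 E')))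
    (hH : ∀ w : HeightOneSpectrum (𝓞 E'), w ∉ T₀ → w.asIdeal.inertiaDeg (𝓞 E) = 1 →
      ClassGroup.mk0 (pr (w.under (𝓞 E))) ∈ H) :
    zetaR E' s ^ H.index ≤
      (2 ^ T₀.card * Real.exp (2 * ((Module.finrank E E' : ℝ) * zetaR E 2))) ^ H.index *
        ‖∏ ψ : (ClassGroup (𝓞 E) ⧸ H) →* ℂˣ, Lfun (liftChar H ψ) s‖ ^ (Module.finrank E E') := by
  refine le_of_tendsto' ((tendsto_euler_zetaR E' hs1).pow H.index) (fun T => ?_)
  set C₀ : ℝ := 2 ^ T₀.card * Real.exp (2 * ((Module.finrank E E' : ℝ) * zetaR E 2)) with hC₀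
  have hC₀pos : 0 ≤ C₀ := by positivity
  set good : HeightOneSpectrum (𝓞 E') → Prop :=
    fun w => w ∉ T₀ ∧ w.asIdeal.inertiaDeg (𝓞 E) = 1 with hgood
  have hfac0 : ∀ w : HeightOneSpectrum (𝓞 E'), 0 ≤ (1 - normPow E' s (pr w))⁻¹ := by
    intro w
    have := normPow_pr_le_half E' hs1.le w
    exact inv_nonneg.mpr (by linarith)
  have hfacE : ∀ v : HeightOneSpectrum (𝓞 E), 0 ≤ (1 - normPow E s (pr v))⁻¹ := by
    intro v
    have := normPow_pr_le_half E hs1.le v
    exact inv_nonneg.mpr (by linarith)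
  have hb := prod_bad_le E E' hs1.le T₀ (T.filter (fun w => ¬ good w))
    (fun w hw => (Finset.mem_filter.mp hw).2)
  have hg := prod_good_le E E' hs1.le (T.filter good)
    (fun w hw => ((Finset.mem_filter.mp hw).2).2)
  set S := (T.filter good).image (fun w => w.under (𝓞 E)) with hS
  have hSH : ∀ v ∈ S, ClassGroup.mk0 (pr v) ∈ H := by
    intro v hv
    obtain ⟨w, hw, rfl⟩ := Finset.mem_image.mp hv
    obtain ⟨_, hw1, hw2⟩ := Finset.mem_filter.mp hw
    exact hH w hw1 hw2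
  have hL := prod_le_norm_prod_Lfun H hs1 S hSH
  have h1 : ∏ w ∈ T, (1 - normPow E' s (pr w))⁻¹ ≤
      (∏ v ∈ S, ((1 - normPow E s (pr v))⁻¹) ^ (Module.finrank E E')) * C₀ := by
    rw [← Finset.prod_filter_mul_prod_filter_not T good]
    exact mul_le_mul hg hb (Finset.prod_nonneg (fun w _ => hfac0 w))
      (Finset.prod_nonneg (fun v _ => pow_nonneg (hfacE v) _))
  calc (∏ w ∈ T, (1 - normPow E' s (pr w))⁻¹) ^ H.index
      ≤ ((∏ v ∈ S, ((1 - normPow E s (pr v))⁻¹) ^ (Module.finrank E E')) * C₀) ^ H.index :=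
        pow_le_pow_left₀ (Finset.prod_nonneg (fun w _ => hfac0 w)) h1 _
    _ = C₀ ^ H.index *
        (∏ v ∈ S, ((1 - normPow E s (pr v))⁻¹) ^ H.index) ^ (Module.finrank E E') := by
        rw [mul_pow, Finset.prod_pow, Finset.prod_pow, ← pow_mul, ← pow_mul,
          mul_comm (Module.finrank E E') H.index, mul_comm]
    _ ≤ C₀ ^ H.index *
        ‖∏ ψ : (ClassGroup (𝓞 E) ⧸ H) →* ℂˣ, Lfun (liftChar H ψ) s‖ ^ (Module.finrank E E') := by
        refine mul_le_mul_of_nonneg_left ?_ (pow_nonneg hC₀pos _)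
        exact pow_le_pow_left₀ (Finset.prod_nonneg (fun v _ => pow_nonneg (hfacE v) _)) hL _

/-- Bound for the product of all `L`-series of characters of `Cl(E) / H` on `(1, 2]`. -/
theorem exists_bound_prod_Lfun
    (hZ : ∀ C C' : ClassGroup (𝓞 E), ∃ B : ℝ, ∀ s : ℝ, 1 < s → s ≤ 2 →
      |partialZeta E C s - partialZeta E C' s| ≤ B) :
    ∃ B' : ℝ, 0 ≤ B' ∧ ∀ s : ℝ, 1 < s → s ≤ 2 →
      ‖∏ ψ : (ClassGroup (𝓞 E) ⧸ H) →* ℂˣ, Lfun (liftChar H ψ) s‖ ≤ zetaR E s * B' := by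
  classical
  have hex : ∀ ψ : (ClassGroup (𝓞 E) ⧸ H) →* ℂˣ, ∃ B : ℝ, 0 ≤ B ∧
      (ψ ≠ 1 → ∀ s : ℝ, 1 < s → s ≤ 2 → ‖Lfun (liftChar H ψ) s‖ ≤ B) := by
    intro ψ
    by_cases hψ : ψ = 1
    · exact ⟨0, le_rfl, fun h => absurd hψ h⟩
    · obtain ⟨B, hB⟩ := exists_bound_Lfun hZ _ (liftChar_ne_one H hψ)
      exact ⟨max B 0, le_max_right _ _, fun _ s h1 h2 => (hB s h1 h2).trans (le_max_left _ _)⟩
  choose B hB0 hB using hex
  refine ⟨∏ ψ ∈ Finset.univ.erase (1 : (ClassGroup (𝓞 E) ⧸ H) →* ℂˣ), B ψ,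
    Finset.prod_nonneg (fun ψ _ => hB0 ψ), fun s hs1 hs2 => ?_⟩
  rw [norm_prod, ← Finset.mul_prod_erase Finset.univ _ (Finset.mem_univ
    (1 : (ClassGroup (𝓞 E) ⧸ H) →* ℂˣ))]
  have h1 : ‖Lfun (liftChar H (1 : (ClassGroup (𝓞 E) ⧸ H) →* ℂˣ)) s‖ = zetaR E s := by
    rw [liftChar_one, Lfun_one, Complex.norm_real, Real.norm_of_nonneg (zetaR_nonneg E s)]
  rw [h1]
  refine mul_le_mul_of_nonneg_left ?_ (zetaR_nonneg E s)
  refine Finset.prod_le_prod (fun ψ _ => norm_nonneg _) (fun ψ hψ => ?_)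
  exact hB ψ (Finset.ne_of_mem_erase hψ) s hs1 hs2

/-- **The analytic index inequality at modulus one.**  Let `E'/E` be an extension of number
fields and let `H` be a subgroup of the class group of `E` containing the class of `w ∩ E` for
every prime `w` of `E'` of relative degree one outside a finite set `T₀`.  If the partial zeta
functions of any two ideal classes of `E` differ by a bounded function on `(1, 2]`, then
`[Cl(E) : H] ≤ [E' : E]`. -/
theorem index_le_finrank (T₀ : Finset (HeightOneSpectrum (𝓞 E')))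
    (hH : ∀ w : HeightOneSpectrum (𝓞 E'), w ∉ T₀ → w.asIdeal.inertiaDeg (𝓞 E) = 1 →
      ClassGroup.mk0 (pr (w.under (𝓞 E))) ∈ H)
    (hZ : ∀ C C' : ClassGroup (𝓞 E), ∃ B : ℝ, ∀ s : ℝ, 1 < s → s ≤ 2 →
      |partialZeta E C s - partialZeta E C' s| ≤ B) :
    H.index ≤ Module.finrank E E' := by
  by_contra hlt
  rw [not_le] at hlt
  obtain ⟨B', hB'0, hB'⟩ := exists_bound_prod_Lfun E H hZ
  set n := Module.finrank E E' with hn
  set h := H.index with hh
  set C₀ : ℝ := 2 ^ T₀.card * Real.exp (2 * ((n : ℝ) * zetaR E 2)) with hC₀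
  have hC₀pos : 0 ≤ C₀ := by positivity
  set K : ℝ := C₀ ^ h * B' ^ n with hK
  have hK0 : 0 ≤ K := by positivity
  -- the inequality for every `s ∈ (1, 2]`
  have hineq : ∀ s : ℝ, 1 < s → s ≤ 2 → zetaR E' s ^ h ≤ K * zetaR E s ^ n := by
    intro s hs1 hs2
    have h1 := zetaR_pow_le E E' H hs1 T₀ hH
    have h2 := hB' s hs1 hs2
    calc zetaR E' s ^ h ≤ C₀ ^ h *
          ‖∏ ψ : (ClassGroup (𝓞 E) ⧸ H) →* ℂˣ, Lfun (liftChar H ψ) s‖ ^ n := h1
      _ ≤ C₀ ^ h * (zetaR E s * B') ^ n := by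
          refine mul_le_mul_of_nonneg_left ?_ (pow_nonneg hC₀pos _)
          exact pow_le_pow_left₀ (norm_nonneg _) h2 _
      _ = K * zetaR E s ^ n := by rw [hK, mul_pow]; ring
  -- limits
  have hρ' := tendsto_sub_one_mul_zetaR E'
  have hρ := tendsto_sub_one_mul_zetaR E
  have hF : Tendsto (fun s : ℝ => ((s - 1) * zetaR E' s) ^ h) (𝓝[>] 1)
      (𝓝 (dedekindZeta_residue E' ^ h)) := hρ'.pow h
  have hpow : Tendsto (fun s : ℝ => (s - 1) ^ (h - n)) (𝓝[>] 1) (𝓝 0) := by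
    have hc : Continuous (fun s : ℝ => (s - 1) ^ (h - n)) := by fun_prop
    have h0 : ((1 : ℝ) - 1) ^ (h - n) = 0 := by
      rw [sub_self, zero_pow (by omega)]
    have := hc.tendsto 1
    rw [h0] at this
    exact this.mono_left nhdsWithin_le_nhds
  have hG : Tendsto (fun s : ℝ => K * ((s - 1) * zetaR E s) ^ n * (s - 1) ^ (h - n)) (𝓝[>] 1)
      (𝓝 (K * dedekindZeta_residue E ^ n * 0)) :=
    ((hρ.pow n).const_mul K).mul hpow
  have hev : ∀ᶠ s : ℝ in 𝓝[>] 1, ((s - 1) * zetaR E' s) ^ h ≤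
      K * ((s - 1) * zetaR E s) ^ n * (s - 1) ^ (h - n) := by
    filter_upwards [Ioc_mem_nhdsGT (show (1 : ℝ) < 2 by norm_num)] with s hs
    have hs0 : 0 ≤ s - 1 := by linarith [hs.1]
    have h3 := hineq s hs.1 hs.2
    have h4 : (s - 1) ^ h = (s - 1) ^ n * (s - 1) ^ (h - n) := by
      rw [← pow_add]
      congr 1
      omega
    calc ((s - 1) * zetaR E' s) ^ h = (s - 1) ^ h * zetaR E' s ^ h := mul_pow _ _ _
      _ ≤ (s - 1) ^ h * (K * zetaR E s ^ n) :=
          mul_le_mul_of_nonneg_left h3 (pow_nonneg hs0 _)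
      _ = K * ((s - 1) * zetaR E s) ^ n * (s - 1) ^ (h - n) := by
          rw [h4, mul_pow]; ring
  have hle := le_of_tendsto_of_tendsto hF hG hev
  rw [mul_zero] at hle
  have hpos : 0 < dedekindZeta_residue E' ^ h := pow_pos (dedekindZeta_residue_pos E') _
  linarith

end Main

end Fermat.Agent.S14.IndexInequality
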