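/-
S14, stage 2a (helper14): from a Selmer cocycle `b` (see `Cocycle.lean`) build the subgroups
`kerChi = ker χ ⊇ kerB = {χ = 1 ∧ b = 0}` of `G_ℚ` and their fixed fields
`K = ℚ(ζ_p) ⊆ M` inside `AlgebraicClosure ℚ`; group-theoretic facts (normality, index `p`,
conjugation law `b (τ σ τ⁻¹) = χ(τ)⁻¹ b σ`), openness, finiteness and Galois-ness of the fields.
-/
import Mathlib
import Fermat.Agent.S14.Cocycle

set_option autoImplicit false

namespace Fermat.Agent.S14.KernelField

open Fermat.Agent.S14.Cocycle ExtCitation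

variable (p : ℕ) [Fact p.Prime]

/-- `IsGalois ℚ ℚ̄` for the rational-algebra instance used by the frozen statements. -/
theorem isGalois_rat_algebraicClosure : IsGalois ℚ (AlgebraicClosure ℚ) := by
  have h : (DivisionRing.toRatAlgebra : Algebra ℚ (AlgebraicClosure ℚ)) =
      AlgebraicClosure.instAlgebra ℚ := Subsingleton.elim _ _
  rw [h]
  infer_instance

/-- The kernel of the mod-`p` cyclotomic character. -/
def kerChi : Subgroup GQ where
  carrier := {σ | chi p σ = 1}
  mul_mem' := by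
    intro σ τ hσ hτ
    simp only [Set.mem_ofPred_eq] at *
    rw [chi_mul, hσ, hτ, mul_one]
  one_mem' := chi_one p
  inv_mem' := by
    intro σ hσ
    simp only [Set.mem_ofPred_eq] at *
    rw [chi_inv, hσ, inv_one]

theorem mem_kerChi {σ : GQ} : σ ∈ kerChi p ↔ chi p σ = 1 := Iff.rfl

instance kerChi_normal : (kerChi p).Normal := by
  constructor
  intro σ hσ τ
  rw [mem_kerChi] at *
  rw [chi_mul, chi_mul, chi_inv, hσ, mul_one, mul_inv_cancel₀ (chi_ne_zero p τ)]

variable {p}
variable {b : GQ → ZMod p}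

section cocycle

variable (hb : ∀ σ τ : GQ, b (σ * τ) = chi p τ * b σ + b τ)
include hb

theorem b_inv (σ : GQ) : b σ⁻¹ = -((chi p σ)⁻¹ * b σ) := by
  have h := hb σ σ⁻¹
  rw [mul_inv_cancel, cocycle_one hb, chi_inv] at h
  linear_combination -h

/-- On `ker χ` the cocycle is additive. -/
theorem b_mul_of_mem {σ τ : GQ} (hτ : chi p τ = 1) : b (σ * τ) = b σ + b τ := by
  rw [hb, hτ, one_mul]

/-- Conjugation law: `Gal(K/ℚ)` acts on `Gal(M/K)` through `χ⁻¹`. -/
theorem b_conj {σ : GQ} (hσ : chi p σ = 1) (τ : GQ) :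
    b (τ * σ * τ⁻¹) = (chi p τ)⁻¹ * b σ := by
  rw [hb, hb, chi_inv, hσ, b_inv hb τ]
  have := chi_ne_zero p τ
  field_simp
  ring

/-- The kernel of the representation: `χ = 1` and `b = 0`. -/
def kerB : Subgroup GQ where
  carrier := {σ | chi p σ = 1 ∧ b σ = 0}
  mul_mem' := by
    rintro σ τ ⟨hσ, hσb⟩ ⟨hτ, hτb⟩
    refine ⟨by rw [chi_mul, hσ, hτ, mul_one], ?_⟩
    rw [hb, hσb, hτb, mul_zero, add_zero]
  one_mem' := ⟨chi_one p, cocycle_one hb⟩
  inv_mem' := by
    rintro σ ⟨hσ, hσb⟩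
    refine ⟨by rw [chi_inv, hσ, inv_one], ?_⟩
    rw [b_inv hb, hσb, mul_zero, neg_zero]

theorem mem_kerB {σ : GQ} : σ ∈ kerB hb ↔ chi p σ = 1 ∧ b σ = 0 := Iff.rfl

theorem kerB_le_kerChi : kerB hb ≤ kerChi p := fun _ h => h.1

instance kerB_normal : (kerB hb).Normal := by
  constructor
  rintro σ ⟨hσ, hσb⟩ τ
  refine ⟨?_, ?_⟩
  · rw [chi_mul, chi_mul, chi_inv, hσ, mul_one, mul_inv_cancel₀ (chi_ne_zero p τ)]
  · rw [b_conj hb hσ, hσb, mul_zero]

/-- `b` restricted to `ker χ`, as a homomorphism to `Multiplicative (ZMod p)`. -/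
def bHom : kerChi p →* Multiplicative (ZMod p) where
  toFun σ := Multiplicative.ofAdd (b (σ : GQ))
  map_one' := by
    change Multiplicative.ofAdd (b (1 : GQ)) = 1
    rw [cocycle_one hb]; rfl
  map_mul' := by
    intro σ τ
    change Multiplicative.ofAdd (b ((σ : GQ) * (τ : GQ))) = _
    rw [b_mul_of_mem hb τ.2]; rfl

theorem bHom_ker : (bHom hb).ker = (kerB hb).subgroupOf (kerChi p) := by
  ext σ
  rw [MonoidHom.mem_ker, Subgroup.mem_subgroupOf, mem_kerB]
  constructor
  · intro h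
    exact ⟨σ.2, by simpa [bHom] using h⟩
  · rintro ⟨-, h⟩
    change Multiplicative.ofAdd (b (σ : GQ)) = 1
    rw [h]; rfl

theorem bHom_surjective (hne : ∃ σ : GQ, chi p σ = 1 ∧ b σ ≠ 0) :
    Function.Surjective (bHom hb) := by
  obtain ⟨σ₀, hσ₀, hbσ₀⟩ := hne
  intro y
  -- y = n • b σ₀
  have hp : p.Prime := Fact.out
  obtain ⟨c, hc⟩ : ∃ c : ZMod p, c * b σ₀ = Multiplicative.toAdd y :=
    ⟨Multiplicative.toAdd y / b σ₀, div_mul_cancel₀ _ hbσ₀⟩
  refine ⟨(⟨σ₀, hσ₀⟩ : kerChi p) ^ c.val, ?_⟩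
  rw [map_pow]
  change (Multiplicative.ofAdd (b σ₀)) ^ c.val = y
  rw [← ofAdd_nsmul, nsmul_eq_mul, ZMod.natCast_zmod_val, hc]
  rfl

/-- `[ker χ : kerB] = p`. -/
theorem relIndex_kerB (hne : ∃ σ : GQ, chi p σ = 1 ∧ b σ ≠ 0) :
    (kerB hb).relIndex (kerChi p) = p := by
  rw [Subgroup.relIndex, ← bHom_ker hb, Subgroup.index_ker,
    MonoidHom.range_eq_top.mpr (bHom_surjective hb hne)]
  rw [Nat.card_congr (Subgroup.topEquiv (G := Multiplicative (ZMod p))).toEquiv]
  rw [Nat.card_congr (Multiplicative.toAdd : Multiplicative (ZMod p) ≃ ZMod p)]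
  rw [Nat.card_eq_fintype_card]
  exact ZMod.card p

end cocycle


/-! ### Fixed fields -/

section fields

open IntermediateField

/-- `σ ζ = ζ ^ cycloExp σ` for a primitive `p`-th root of unity in `ℚ̄`. -/
theorem apply_primitiveRoot {ζ : AlgebraicClosure ℚ} (hζ : IsPrimitiveRoot ζ p) (σ : GQ) :
    σ ζ = ζ ^ cycloExp p σ := by
  have hp : NeZero p := ⟨(Fact.out : p.Prime).ne_zero⟩
  have h := modularCyclotomicCharacter.spec (AlgebraicClosure ℚ) (card_rootsOfUnity_eq_self p)
    (σ : AlgebraicClosure ℚ ≃+* AlgebraicClosure ℚ) (t := (hζ.toRootsOfUnity : (AlgebraicClosure ℚ)ˣ))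
    hζ.toRootsOfUnity.2
  simpa [cycloExp] using h

theorem chi_eq_one_iff {ζ : AlgebraicClosure ℚ} (hζ : IsPrimitiveRoot ζ p) (σ : GQ) :
    chi p σ = 1 ↔ σ ζ = ζ := by
  have hp : p.Prime := Fact.out
  rw [apply_primitiveRoot hζ]
  unfold chi
  constructor
  · intro h
    have h1 : (cycloExp p σ : ZMod p) = ((1 : ℕ) : ZMod p) := by rw [h, Nat.cast_one]
    rw [ZMod.natCast_eq_natCast_iff] at h1
    conv_rhs => rw [← pow_one ζ]
    exact pow_eq_pow_of_modEq h1 hζ.pow_eq_one
  · intro h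
    have h0 : cycloExp p σ % p ≡ cycloExp p σ [MOD p] := Nat.mod_modEq _ _
    have h2 : ζ ^ (cycloExp p σ % p) = ζ ^ 1 := by
      rw [pow_eq_pow_of_modEq h0 hζ.pow_eq_one, h, pow_one]
    have h3 : cycloExp p σ % p = 1 := hζ.pow_inj (Nat.mod_lt _ hp.pos) hp.one_lt h2
    have h4 : cycloExp p σ ≡ 1 [MOD p] := by
      unfold Nat.ModEq
      rw [h3, Nat.mod_eq_of_lt hp.one_lt]
    have h1 := (ZMod.natCast_eq_natCast_iff _ _ _).mpr h4
    rw [h1, Nat.cast_one]

/-- `ker χ` is the fixing subgroup of `ℚ(ζ_p)`. -/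
theorem kerChi_eq_fixingSubgroup {ζ : AlgebraicClosure ℚ} (hζ : IsPrimitiveRoot ζ p) :
    kerChi p = (ℚ⟮ζ⟯).fixingSubgroup := by
  ext σ
  rw [mem_kerChi, chi_eq_one_iff hζ, IntermediateField.mem_fixingSubgroup_iff]
  constructor
  · intro h x hx
    have hle : ℚ⟮ζ⟯ ≤ IntermediateField.fixedField (Subgroup.zpowers σ) := by
      rw [IntermediateField.adjoin_simple_le_iff, IntermediateField.mem_fixedField_iff]
      intro τ hτ
      obtain ⟨n, rfl⟩ := Subgroup.mem_zpowers_iff.mp hτ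
      have : ∀ n : ℕ, (σ ^ n) ζ = ζ := by
        intro n
        induction n with
        | zero => simp
        | succ k ih => rw [pow_succ, AlgEquiv.mul_apply, h, ih]
      rcases Int.eq_nat_or_neg n with ⟨k, rfl | rfl⟩
      · simpa using this k
      · rw [zpow_neg, zpow_natCast]
        exact (AlgEquiv.symm_apply_eq (σ ^ k)).mpr (this k).symm
    exact (IntermediateField.mem_fixedField_iff _ _).mp (hle hx) σ (Subgroup.mem_zpowers σ)
  · intro h
    exact h ζ (IntermediateField.mem_adjoin_simple_self ℚ ζ)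

theorem fixedField_kerChi {ζ : AlgebraicClosure ℚ} (hζ : IsPrimitiveRoot ζ p) :
    IntermediateField.fixedField (kerChi p) = ℚ⟮ζ⟯ := by
  have := isGalois_rat_algebraicClosure
  rw [kerChi_eq_fixingSubgroup hζ, InfiniteGalois.fixedField_fixingSubgroup]

variable (hb : ∀ σ τ : GQ, b (σ * τ) = chi p τ * b σ + b τ)

/-- The field cut out by the representation. -/
noncomputable def fieldM : IntermediateField ℚ (AlgebraicClosure ℚ) :=
  IntermediateField.fixedField (kerB hb)

variable (hopen : IsOpen {σ : GQ | chi p σ = 1 ∧ b σ = 0})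
include hopen

theorem isOpen_kerB : IsOpen (kerB hb : Set GQ) := hopen

include hb in
theorem isOpen_kerChi : IsOpen (kerChi p : Set GQ) :=
  Subgroup.isOpen_mono (kerB_le_kerChi hb) (isOpen_kerB hb hopen)

theorem fixingSubgroup_fieldM : (fieldM hb).fixingSubgroup = kerB hb := by
  have := isGalois_rat_algebraicClosure
  exact InfiniteGalois.fixingSubgroup_fixedField
    (⟨kerB hb, Subgroup.isClosed_of_isOpen _ (isOpen_kerB hb hopen)⟩ : ClosedSubgroup GQ)

theorem finiteDimensional_fieldM : FiniteDimensional ℚ (fieldM hb) := by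
  have := isGalois_rat_algebraicClosure
  rw [← InfiniteGalois.isOpen_iff_finite, fixingSubgroup_fieldM hb hopen]
  exact isOpen_kerB hb hopen

theorem isGalois_fieldM : IsGalois ℚ (fieldM hb) := by
  have := isGalois_rat_algebraicClosure
  have key : @IsGalois ℚ _ (fieldM hb) _ (IntermediateField.algebra' (fieldM hb)) := by
    rw [← InfiniteGalois.normal_iff_isGalois, fixingSubgroup_fieldM hb hopen]
    infer_instance
  have e : (DivisionRing.toRatAlgebra : Algebra ℚ (fieldM hb))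
      = IntermediateField.algebra' (fieldM hb) := Subsingleton.elim _ _
  rw [e]
  exact key

omit hopen in
theorem fieldK_le_fieldM :
    IntermediateField.fixedField (kerChi p) ≤ fieldM hb := by
  intro x hx
  rw [fieldM, IntermediateField.mem_fixedField_iff]
  intro σ hσ
  exact (IntermediateField.mem_fixedField_iff _ _).mp hx σ (kerB_le_kerChi hb hσ)

theorem finrank_fieldM (hne : ∃ σ : GQ, chi p σ = 1 ∧ b σ ≠ 0) :
    Module.finrank ℚ (fieldM hb)
      = p * Module.finrank ℚ (IntermediateField.fixedField (kerChi p)) := by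
  have := isGalois_rat_algebraicClosure
  rw [IntermediateField.finrank_eq_fixingSubgroup_index,
    IntermediateField.finrank_eq_fixingSubgroup_index, fixingSubgroup_fieldM hb hopen]
  have h2 : (IntermediateField.fixedField (kerChi p)).fixingSubgroup = kerChi p :=
    InfiniteGalois.fixingSubgroup_fixedField
      (⟨kerChi p, Subgroup.isClosed_of_isOpen _ (isOpen_kerChi hb hopen)⟩ : ClosedSubgroup GQ)
  rw [h2]
  have h3 := relIndex_kerB hb hne
  have h4 := Subgroup.relIndex_mul_index (kerB_le_kerChi hb)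
  rw [h3] at h4
  exact h4.symm

end fields

end Fermat.Agent.S14.KernelField
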