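import Mathlib

/-!
# S14, block (A1a): comparison of lattice sums of a homogeneous Lipschitz function

Let `E` be a finite dimensional real normed space, `L` a discrete `ℤ`-submodule and `L' ≤ L`
of finite index `k`.  For a function `G : E → ℝ` that is positively homogeneous of degree `-σ`
(`finrank ℤ L < σ ≤ σmax`), vanishes at `0`, is bounded by `B` on the unit sphere and `Lip`-Lipschitz
on the shell `1/2 ≤ ‖x‖ ≤ 3/2`, the difference
`∑_{x ∈ L} G x - k * ∑_{x ∈ L'} G x` is bounded by a constant depending only on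
`L, L', Lip, B, σmax` (NOT on `σ` or `G`).

This is the analytic heart of "partial zeta functions of two ideal classes differ by `O(1)` as
`s → 1⁺`", with the indicator of a fundamental cone replaced by a Lipschitz partition of unity,
so that no lattice point count with error term is needed.
-/

set_option autoImplicit false

open Module

namespace Fermat.Agent.S14.LatticeSum

variable {E : Type*} [NormedAddCommGroup E] [NormedSpace ℝ E]

/-- The shell `1/2 ≤ ‖x‖ ≤ 3/2`. -/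
def shell (E : Type*) [NormedAddCommGroup E] : Set E := {x | 1 / 2 ≤ ‖x‖ ∧ ‖x‖ ≤ 3 / 2}

/-- `G` is positively homogeneous of degree `-σ`, vanishes at `0`, is bounded by `B` on the unit
sphere and is `Lip`-Lipschitz on the shell. -/
structure IsHomLip (σ Lip B : ℝ) (G : E → ℝ) : Prop where
  map_zero : G 0 = 0
  homog : ∀ (t : ℝ) (x : E), 0 < t → G (t • x) = t ^ (-σ) * G x
  lip : ∀ x y, x ∈ shell E → y ∈ shell E → |G x - G y| ≤ Lip * ‖x - y‖
  bdd : ∀ x, ‖x‖ = 1 → |G x| ≤ B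

namespace IsHomLip

variable {σ Lip B : ℝ} {G : E → ℝ}

theorem abs_le (h : IsHomLip σ Lip B G) (hσ : σ ≠ 0) (x : E) :
    |G x| ≤ B * ‖x‖ ^ (-σ) := by
  by_cases hx : x = 0
  · subst hx
    rw [h.map_zero, norm_zero, Real.zero_rpow (neg_ne_zero.mpr hσ)]
    simp
  · have hpos : 0 < ‖x‖ := norm_pos_iff.mpr hx
    have hu : ‖(‖x‖⁻¹ : ℝ) • x‖ = 1 := by
      rw [norm_smul, norm_inv, norm_norm, inv_mul_cancel₀ hpos.ne']
    have hx' : x = ‖x‖ • ((‖x‖⁻¹ : ℝ) • x) := by
      rw [smul_smul, mul_inv_cancel₀ hpos.ne', one_smul]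
    have := h.homog ‖x‖ ((‖x‖⁻¹ : ℝ) • x) hpos
    rw [← hx'] at this
    rw [this, abs_mul, abs_of_nonneg (Real.rpow_nonneg hpos.le _), mul_comm]
    exact mul_le_mul_of_nonneg_right (h.bdd _ hu) (Real.rpow_nonneg hpos.le _)

theorem abs_sub_le_far (h : IsHomLip σ Lip B G) {c y : E} (hy : y ≠ 0)
    (hc : 2 * ‖c‖ ≤ ‖y‖) :
    |G (y + c) - G y| ≤ Lip * ‖c‖ * ‖y‖ ^ (-σ - 1) := by
  have hpos : 0 < ‖y‖ := norm_pos_iff.mpr hy
  set t := ‖y‖ with ht
  set u : E := (t⁻¹ : ℝ) • y with hu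
  set u' : E := (t⁻¹ : ℝ) • (y + c) with hu'
  have hun : ‖u‖ = 1 := by
    rw [hu, norm_smul, norm_inv, ht, norm_norm, inv_mul_cancel₀ hpos.ne']
  have hd : u' - u = (t⁻¹ : ℝ) • c := by
    rw [hu, hu', smul_add]; abel
  have hdn : ‖u' - u‖ = t⁻¹ * ‖c‖ := by
    rw [hd, norm_smul, norm_inv, ht, norm_norm]
  have hdn' : ‖u' - u‖ ≤ 1 / 2 := by
    rw [hdn, inv_mul_le_iff₀ hpos]; linarith
  have hus : u ∈ shell E := by
    refine ⟨?_, ?_⟩ <;> rw [hun] <;> norm_num
  have hu's : u' ∈ shell E := by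
    have h1 : ‖u'‖ ≤ ‖u‖ + ‖u' - u‖ := by
      have := norm_add_le u (u' - u); simpa using this
    have h2 : ‖u‖ ≤ ‖u'‖ + ‖u' - u‖ := by
      have := norm_sub_le u' (u' - u); simpa using this
    refine ⟨by linarith, by linarith⟩
  have e1 : G (y + c) = t ^ (-σ) * G u' := by
    rw [← h.homog t u' hpos, hu', smul_smul, mul_inv_cancel₀ hpos.ne', one_smul]
  have e2 : G y = t ^ (-σ) * G u := by
    rw [← h.homog t u hpos, hu, smul_smul, mul_inv_cancel₀ hpos.ne', one_smul]
  rw [e1, e2, ← mul_sub, abs_mul, abs_of_nonneg (Real.rpow_nonneg hpos.le _)]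
  have hl := h.lip u' u hu's hus
  rw [hdn] at hl
  have hLip : 0 ≤ t ^ (-σ) := Real.rpow_nonneg hpos.le _
  calc t ^ (-σ) * |G u' - G u| ≤ t ^ (-σ) * (Lip * (t⁻¹ * ‖c‖)) :=
        mul_le_mul_of_nonneg_left hl hLip
    _ = Lip * ‖c‖ * (t ^ (-σ) * t⁻¹) := by ring
    _ = Lip * ‖c‖ * t ^ (-σ - 1) := by
        rw [Real.rpow_sub_one hpos.ne', div_eq_mul_inv]

end IsHomLip

section Lattice

omit [NormedSpace ℝ E] in
/-- A discrete subgroup has a shortest nonzero vector length bound. -/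
theorem exists_norm_ge (L : Submodule ℤ E) [DiscreteTopology L] :
    ∃ m : ℝ, 0 < m ∧ m ≤ 1 ∧ ∀ x : L, x ≠ 0 → m ≤ ‖(x : E)‖ := by
  have hopen : IsOpen ({0} : Set L) := isOpen_discrete _
  obtain ⟨ε, hε, hball⟩ := Metric.isOpen_iff.mp hopen 0 rfl
  refine ⟨min ε 1, lt_min hε one_pos, min_le_right _ _, fun x hx => ?_⟩
  by_contra hlt
  rw [not_le] at hlt
  have : x ∈ Metric.ball (0 : L) ε := by
    rw [Metric.mem_ball, dist_zero_right]
    exact lt_of_lt_of_le hlt (min_le_left _ _)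
  exact hx (hball this)

/-- for `t > 0` and `a ≤ b ≤ c`, `t ^ b ≤ t ^ a + t ^ c`. -/
theorem rpow_le_add_rpow {t a b c : ℝ} (ht : 0 < t) (hab : a ≤ b) (hbc : b ≤ c) :
    t ^ b ≤ t ^ a + t ^ c := by
  rcases le_total 1 t with h1 | h1
  · have := Real.rpow_le_rpow_of_exponent_le h1 hbc
    have := Real.rpow_nonneg ht.le a
    linarith
  · have := Real.rpow_le_rpow_of_exponent_ge ht h1 hab
    have := Real.rpow_nonneg ht.le c
    linarith

end Lattice

section Main

variable [FiniteDimensional ℝ E] (L L' : Submodule ℤ E)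

/-- The sublattice `L'` viewed inside `L`. -/
abbrev sub : Submodule ℤ L := L'.comap L.subtype

/-- A chosen representative in `L` of a class of `L ⧸ L'`. -/
noncomputable def rep (q : L ⧸ sub L L') : L :=
  Function.surjInv (Submodule.Quotient.mk_surjective (sub L L')) q

theorem mk_rep (q : L ⧸ sub L L') : Submodule.Quotient.mk (rep L L' q) = q :=
  Function.surjInv_eq _ q

/-- `L ≃ (L ⧸ L') × L'`, `x = y + rep q`. -/
noncomputable def decomp (hle : L' ≤ L) : L ≃ (L ⧸ sub L L') × L' where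
  toFun x := (Submodule.Quotient.mk x,
    ⟨(x : E) - (rep L L' (Submodule.Quotient.mk x) : E), by
      have h : x - rep L L' (Submodule.Quotient.mk x) ∈ sub L L' := by
        rw [← Submodule.Quotient.eq, mk_rep]
      simpa [sub] using h⟩)
  invFun a := ⟨(a.2 : E) + (rep L L' a.1 : E), L.add_mem (hle a.2.2) (rep L L' a.1).2⟩
  left_inv x := by
    apply Subtype.ext
    simp
  right_inv a := by
    obtain ⟨q, y⟩ := a
    have hq : (Submodule.Quotient.mk (⟨(y : E) + (rep L L' q : E),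
        L.add_mem (hle y.2) (rep L L' q).2⟩ : L) : L ⧸ sub L L') = q := by
      conv_rhs => rw [← mk_rep L L' q]
      rw [Submodule.Quotient.eq]
      simp [sub]
    ext
    · exact hq
    · simp only
      rw [hq]
      simp

theorem decomp_symm_coe (hle : L' ≤ L) (a : (L ⧸ sub L L') × L') :
    (((decomp L L' hle).symm a : L) : E) = (a.2 : E) + (rep L L' a.1 : E) := rfl

open Classical in
/-- The indicator of `0`. -/
noncomputable def delta0 (y : E) : ℝ := if y = 0 then 1 else 0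

omit [NormedSpace ℝ E] [FiniteDimensional ℝ E] in
theorem delta0_zero : delta0 (0 : E) = 1 := by simp [delta0]

omit [NormedSpace ℝ E] [FiniteDimensional ℝ E] in
theorem delta0_ne {y : E} (hy : y ≠ 0) : delta0 y = 0 := by simp [delta0, hy]

omit [NormedSpace ℝ E] [FiniteDimensional ℝ E] in
theorem delta0_nonneg (y : E) : 0 ≤ delta0 y := by
  unfold delta0; split_ifs <;> norm_num

/-- The dominating function (independent of `σ` and `G`). -/
noncomputable def dom (Lip B M d₀ σmax : ℝ) (c y : E) : ℝ :=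
  2 * B * M * (delta0 y + (2 * ‖c‖) ^ (d₀ + 1) * ‖y‖ ^ (-d₀ - 1)) +
    Lip * ‖c‖ * (‖y‖ ^ (-d₀ - 1) + ‖y‖ ^ (-σmax - 1))

omit [FiniteDimensional ℝ E] in
theorem dom_nonneg {Lip B M d₀ σmax : ℝ} (hLip : 0 ≤ Lip) (hB : 0 ≤ B) (hM : 0 ≤ M) (c y : E) :
    0 ≤ dom Lip B M d₀ σmax c y := by
  unfold dom
  have h1 : 0 ≤ (2 * ‖c‖) ^ (d₀ + 1) := Real.rpow_nonneg (by positivity) _
  have h2 : 0 ≤ ‖y‖ ^ (-d₀ - 1) := Real.rpow_nonneg (norm_nonneg _) _
  have h3 : 0 ≤ ‖y‖ ^ (-σmax - 1) := Real.rpow_nonneg (norm_nonneg _) _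
  have h4 : (0 : ℝ) ≤ delta0 y := delta0_nonneg y
  positivity

omit [FiniteDimensional ℝ E] in
/-- The pointwise bound. -/
theorem abs_sub_le_dom {σ Lip B m d₀ σmax : ℝ} {G : E → ℝ} (h : IsHomLip σ Lip B G)
    (hLip : 0 ≤ Lip) (hB : 0 ≤ B) (hd₀ : 0 ≤ d₀) (hσ : d₀ < σ) (hσmax : σ ≤ σmax)
    (hm : 0 < m) (hm1 : m ≤ 1) {c y : E}
    (hyc : y + c ≠ 0 → m ≤ ‖y + c‖) (hy : y ≠ 0 → m ≤ ‖y‖) :
    |G (y + c) - G y| ≤ dom Lip B (m ^ (-σmax)) d₀ σmax c y := by
  have hσ0 : 0 < σ := lt_of_le_of_lt hd₀ hσ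
  -- bound on `‖z‖ ^ (-σ)` for vectors of the lattice
  have key : ∀ z : E, (z ≠ 0 → m ≤ ‖z‖) → ‖z‖ ^ (-σ) ≤ m ^ (-σmax) := by
    intro z hz
    have hM1 : 1 ≤ m ^ (-σmax) := by
      rw [Real.rpow_neg hm.le]
      exact (one_le_inv₀ (Real.rpow_pos_of_pos hm _)).mpr
        (Real.rpow_le_one hm.le hm1 (hσ0.le.trans hσmax))
    by_cases hz0 : z = 0
    · subst hz0
      rw [norm_zero, Real.zero_rpow (neg_ne_zero.mpr hσ0.ne')]
      linarith
    · have hzm := hz hz0
      have hzpos : 0 < ‖z‖ := lt_of_lt_of_le hm hzm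
      rcases le_total 1 ‖z‖ with h1 | h1
      · calc ‖z‖ ^ (-σ) ≤ 1 := Real.rpow_le_one_of_one_le_of_nonpos h1 (by linarith)
          _ ≤ _ := hM1
      · calc ‖z‖ ^ (-σ) ≤ ‖z‖ ^ (-σmax) :=
              Real.rpow_le_rpow_of_exponent_ge hzpos h1 (by linarith)
          _ ≤ m ^ (-σmax) :=
              Real.rpow_le_rpow_of_nonpos hm hzm (by linarith)
  have hM : 0 ≤ m ^ (-σmax) := Real.rpow_nonneg hm.le _
  by_cases hnear : ‖y‖ ≤ 2 * ‖c‖
  · -- near part
    have b1 : |G (y + c)| ≤ B * m ^ (-σmax) :=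
      (h.abs_le hσ0.ne' _).trans (mul_le_mul_of_nonneg_left (key _ hyc) hB)
    have b2 : |G y| ≤ B * m ^ (-σmax) :=
      (h.abs_le hσ0.ne' _).trans (mul_le_mul_of_nonneg_left (key _ hy) hB)
    have b3 : |G (y + c) - G y| ≤ 2 * B * m ^ (-σmax) := by
      have := abs_sub (G (y + c)) (G y)
      linarith
    have ind : (1 : ℝ) ≤ delta0 y + (2 * ‖c‖) ^ (d₀ + 1) * ‖y‖ ^ (-d₀ - 1) := by
      by_cases hy0 : y = 0
      · have : 0 ≤ (2 * ‖c‖) ^ (d₀ + 1) * ‖y‖ ^ (-d₀ - 1) :=
          mul_nonneg (Real.rpow_nonneg (by positivity) _) (Real.rpow_nonneg (norm_nonneg _) _)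
        have h1 : delta0 y = 1 := by rw [hy0, delta0_zero]
        linarith
      · rw [delta0_ne hy0, zero_add]
        have hypos : 0 < ‖y‖ := norm_pos_iff.mpr hy0
        have : -d₀ - 1 = -(d₀ + 1) := by ring
        rw [this, Real.rpow_neg hypos.le, ← div_eq_mul_inv,
          ← Real.div_rpow (by positivity) hypos.le]
        apply Real.one_le_rpow _ (by linarith)
        rw [one_le_div hypos]
        exact hnear
    unfold dom
    have t2 : 0 ≤ Lip * ‖c‖ * (‖y‖ ^ (-d₀ - 1) + ‖y‖ ^ (-σmax - 1)) := by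
      have h2 : 0 ≤ ‖y‖ ^ (-d₀ - 1) := Real.rpow_nonneg (norm_nonneg _) _
      have h3 : 0 ≤ ‖y‖ ^ (-σmax - 1) := Real.rpow_nonneg (norm_nonneg _) _
      positivity
    have t1 : 2 * B * m ^ (-σmax) ≤ 2 * B * m ^ (-σmax) *
        (delta0 y + (2 * ‖c‖) ^ (d₀ + 1) * ‖y‖ ^ (-d₀ - 1)) := by
      have : 0 ≤ 2 * B * m ^ (-σmax) := by positivity
      exact le_mul_of_one_le_right this ind
    linarith
  · -- far part
    rw [not_le] at hnear
    have hypos : 0 < ‖y‖ := lt_of_le_of_lt (by positivity) hnear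
    have hy0 : y ≠ 0 := norm_pos_iff.mp hypos
    have b := h.abs_sub_le_far hy0 hnear.le
    have r := rpow_le_add_rpow hypos (a := -σmax - 1) (b := -σ - 1) (c := -d₀ - 1)
      (by linarith) (by linarith)
    unfold dom
    have t1 : 0 ≤ 2 * B * m ^ (-σmax) *
        (delta0 y + (2 * ‖c‖) ^ (d₀ + 1) * ‖y‖ ^ (-d₀ - 1)) := by
      rw [delta0_ne hy0]
      have h1 : 0 ≤ (2 * ‖c‖) ^ (d₀ + 1) := Real.rpow_nonneg (by positivity) _
      have h2 : 0 ≤ ‖y‖ ^ (-d₀ - 1) := Real.rpow_nonneg (norm_nonneg _) _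
      positivity
    have t2 : Lip * ‖c‖ * ‖y‖ ^ (-σ - 1) ≤
        Lip * ‖c‖ * (‖y‖ ^ (-d₀ - 1) + ‖y‖ ^ (-σmax - 1)) := by
      apply mul_le_mul_of_nonneg_left _ (by positivity)
      linarith
    linarith

variable {L L'}

theorem discreteTopology_of_le [DiscreteTopology L] (hle : L' ≤ L) : DiscreteTopology L' :=
  DiscreteTopology.of_continuous_injective
    (f := (Submodule.inclusion hle : L' → L))
    (by
      apply Continuous.subtype_mk
      exact continuous_subtype_val)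
    (Submodule.inclusion_injective hle)

theorem finrank_le_of_le [DiscreteTopology L] (hle : L' ≤ L) :
    finrank ℤ L' ≤ finrank ℤ L :=
  Submodule.finrank_mono hle

theorem summable_dom [DiscreteTopology L'] {Lip B M d₀ σmax : ℝ}
    (hd₀ : (finrank ℤ L' : ℝ) ≤ d₀) (hσmax : d₀ ≤ σmax) (c : E) :
    Summable fun y : L' => dom Lip B M d₀ σmax c (y : E) := by
  have s1 : Summable fun y : L' => ‖(y : E)‖ ^ (-d₀ - 1) := by
    have := ZLattice.summable_norm_rpow L' (-d₀ - 1) (by linarith)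
    simpa using this
  have s2 : Summable fun y : L' => ‖(y : E)‖ ^ (-σmax - 1) := by
    have := ZLattice.summable_norm_rpow L' (-σmax - 1) (by linarith)
    simpa using this
  have s0 : Summable fun y : L' => delta0 (y : E) := by
    apply summable_of_hasFiniteSupport
    apply Set.Finite.subset (Set.finite_singleton (0 : L'))
    intro y hy
    simp only [Function.mem_support] at hy
    by_contra h0
    exact hy (delta0_ne (by simpa using h0))
  unfold dom
  exact ((s0.add (s1.mul_left _)).mul_left _).add ((s1.add s2).mul_left _)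

/-- **Main comparison theorem.** -/
theorem exists_bound [DiscreteTopology L] (hle : L' ≤ L) [Finite (L ⧸ sub L L')]
    (Lip B σmax : ℝ) (hLip : 0 ≤ Lip) (hB : 0 ≤ B) (hσmax : (finrank ℤ L : ℝ) ≤ σmax) :
    ∃ C : ℝ, ∀ (σ : ℝ) (G : E → ℝ), (finrank ℤ L : ℝ) < σ → σ ≤ σmax → IsHomLip σ Lip B G →
      |∑' x : L, G x - (Nat.card (L ⧸ sub L L') : ℝ) * ∑' y : L', G y| ≤ C := by
  classical
  have := Fintype.ofFinite (L ⧸ sub L L')
  have : DiscreteTopology L' := discreteTopology_of_le hle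
  obtain ⟨m, hm, hm1, hmL⟩ := exists_norm_ge L
  set d₀ : ℝ := (finrank ℤ L : ℝ) with hd₀
  have hd₀0 : 0 ≤ d₀ := Nat.cast_nonneg _
  have hrk : (finrank ℤ L' : ℝ) ≤ d₀ := by
    rw [hd₀]; exact_mod_cast finrank_le_of_le hle
  refine ⟨∑ q : L ⧸ sub L L', ∑' y : L', dom Lip B (m ^ (-σmax)) d₀ σmax (rep L L' q : E) (y : E),
    fun σ G hσ hσm h => ?_⟩
  have hσ0 : 0 < σ := lt_of_le_of_lt hd₀0 hσ
  -- summability of `G` on `L`
  have sL : Summable fun x : L => G x := by
    have := ZLattice.summable_norm_rpow L (-σ) (by linarith)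
    refine Summable.of_norm_bounded (this.mul_left B) fun x => ?_
    rw [Real.norm_eq_abs]
    simpa using h.abs_le hσ0.ne' (x : E)
  have sL' : Summable fun y : L' => G y :=
    sL.comp_injective (i := (Submodule.inclusion hle : L' → L)) (Submodule.inclusion_injective hle)
  -- the decomposition
  have sP : Summable fun a : (L ⧸ sub L L') × L' => G ((a.2 : E) + (rep L L' a.1 : E)) := by
    have := (decomp L L' hle).symm.summable_iff.mpr sL
    simpa [Function.comp_def, decomp_symm_coe] using this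
  have e1 : ∑' x : L, G x = ∑ q : L ⧸ sub L L', ∑' y : L', G ((y : E) + (rep L L' q : E)) := by
    rw [← (decomp L L' hle).symm.tsum_eq (fun x : L => G x)]
    simp only [decomp_symm_coe]
    rw [sP.tsum_prod, tsum_fintype]
  have sq : ∀ q : L ⧸ sub L L', Summable fun y : L' => G ((y : E) + (rep L L' q : E)) := by
    intro q
    exact sP.comp_injective (i := fun y : L' => (q, y)) (fun a b hab => by simpa using hab)
  have e2 : (Nat.card (L ⧸ sub L L') : ℝ) * ∑' y : L', G y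
      = ∑ _q : L ⧸ sub L L', ∑' y : L', G y := by
    rw [Finset.sum_const, Finset.card_univ, Nat.card_eq_fintype_card, nsmul_eq_mul]
  rw [e1, e2, ← Finset.sum_sub_distrib]
  refine (Finset.abs_sum_le_sum_abs _ _).trans (Finset.sum_le_sum fun q _ => ?_)
  rw [← (sq q).tsum_sub sL']
  have sd := summable_dom (L' := L') (Lip := Lip) (B := B) (M := m ^ (-σmax)) hrk hσmax
    (rep L L' q : E)
  have pw : ∀ y : L', |G ((y : E) + (rep L L' q : E)) - G y| ≤
      dom Lip B (m ^ (-σmax)) d₀ σmax (rep L L' q : E) (y : E) := by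
    intro y
    refine abs_sub_le_dom h hLip hB hd₀0 hσ hσm hm hm1 ?_ ?_
    · intro hne
      have := hmL ⟨(y : E) + (rep L L' q : E), L.add_mem (hle y.2) (rep L L' q).2⟩
        (by intro h0; apply hne; simpa using congrArg Subtype.val h0)
      simpa using this
    · intro hne
      have := hmL ⟨(y : E), hle y.2⟩ (by intro h0; apply hne; simpa using congrArg Subtype.val h0)
      simpa using this
  have sabs : Summable fun y : L' => |G ((y : E) + (rep L L' q : E)) - G y| :=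
    Summable.of_nonneg_of_le (fun _ => abs_nonneg _) pw sd
  calc |∑' y : L', (G ((y : E) + (rep L L' q : E)) - G y)|
      ≤ ∑' y : L', |G ((y : E) + (rep L L' q : E)) - G y| := by
        have := norm_tsum_le_tsum_norm (f := fun y : L' => G ((y : E) + (rep L L' q : E)) - G y)
          (by simpa [Real.norm_eq_abs] using sabs)
        simpa [Real.norm_eq_abs] using this
    _ ≤ _ := sabs.tsum_le_tsum pw sd

end Main

end Fermat.Agent.S14.LatticeSum
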