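import Mathlib
import Fermat.Agent.S14.LatticeSum

/-!
# S14, block (A1a'): coset-shift comparison of lattice sums from a shift bound

Variant of `LatticeSum.exists_bound` whose hypothesis is directly the *shift bound*
`|F i (x + v) - F i x| ≤ C_v * ‖x‖ ^ (-r)` for `‖x‖ ≥ R_v` (uniformly in the parameter `i`),
together with a uniform bound `|F i x| ≤ B` on lattice points and summability on `L`.
Conclusion: `∑_{x ∈ L} F i x - [L : L'] * ∑_{y ∈ L'} F i y` is bounded uniformly in `i`.
-/

set_option autoImplicit false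

open Module

namespace Fermat.Agent.S14.LatticeSumShift

open Fermat.Agent.S14.LatticeSum

variable {E : Type*} [NormedAddCommGroup E] [NormedSpace ℝ E] [FiniteDimensional ℝ E]
variable {L L' : Submodule ℤ E}

/-- The dominating function. -/
noncomputable def dom (B C R r : ℝ) (y : E) : ℝ :=
  2 * B * (delta0 y + R ^ r * ‖y‖ ^ (-r)) + |C| * ‖y‖ ^ (-r)

theorem summable_dom [DiscreteTopology L'] {B C R r : ℝ} (hr : (finrank ℤ L' : ℝ) < r) :
    Summable fun y : L' => dom B C R r (y : E) := by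
  have s1 : Summable fun y : L' => ‖(y : E)‖ ^ (-r) := by
    have := ZLattice.summable_norm_rpow L' (-r) (by linarith)
    simpa using this
  have s0 : Summable fun y : L' => delta0 (y : E) := by
    apply summable_of_hasFiniteSupport
    apply Set.Finite.subset (Set.finite_singleton (0 : L'))
    intro y hy
    simp only [Function.mem_support] at hy
    by_contra h0
    exact hy (delta0_ne (by simpa using h0))
  unfold dom
  exact ((s0.add (s1.mul_left _)).mul_left _).add (s1.mul_left _)

omit [NormedSpace ℝ E] [FiniteDimensional ℝ E] in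
theorem abs_sub_le_dom {B C R r : ℝ} (hB : 0 ≤ B) (hR : 0 < R) (hr : 0 < r) {f : E → ℝ} {c y : E}
    (h1 : |f (y + c)| ≤ B) (h2 : |f y| ≤ B)
    (hsh : R ≤ ‖y‖ → |f (y + c) - f y| ≤ C * ‖y‖ ^ (-r)) :
    |f (y + c) - f y| ≤ dom B C R r y := by
  unfold dom
  have hn : 0 ≤ ‖y‖ ^ (-r) := Real.rpow_nonneg (norm_nonneg _) _
  have hRr : 0 ≤ R ^ r := Real.rpow_nonneg hR.le _
  by_cases hfar : R ≤ ‖y‖
  · have hy0 : y ≠ 0 := by
      intro h0; rw [h0, norm_zero] at hfar; linarith
    have b := hsh hfar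
    have b' : C * ‖y‖ ^ (-r) ≤ |C| * ‖y‖ ^ (-r) :=
      mul_le_mul_of_nonneg_right (le_abs_self C) hn
    have t1 : 0 ≤ 2 * B * (delta0 y + R ^ r * ‖y‖ ^ (-r)) := by
      have := delta0_nonneg y
      positivity
    linarith
  · rw [not_le] at hfar
    have b3 : |f (y + c) - f y| ≤ 2 * B := by
      have := abs_sub (f (y + c)) (f y)
      linarith
    have ind : (1 : ℝ) ≤ delta0 y + R ^ r * ‖y‖ ^ (-r) := by
      by_cases hy0 : y = 0
      · have h1 : delta0 y = 1 := by rw [hy0, delta0_zero]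
        have : 0 ≤ R ^ r * ‖y‖ ^ (-r) := mul_nonneg hRr hn
        linarith
      · rw [delta0_ne hy0, zero_add]
        have hypos : 0 < ‖y‖ := norm_pos_iff.mpr hy0
        rw [Real.rpow_neg hypos.le, ← div_eq_mul_inv, ← Real.div_rpow hR.le hypos.le]
        apply Real.one_le_rpow _ hr.le
        rw [one_le_div hypos]
        exact hfar.le
    have t1 : 2 * B ≤ 2 * B * (delta0 y + R ^ r * ‖y‖ ^ (-r)) :=
      le_mul_of_one_le_right (by positivity) ind
    have t2 : 0 ≤ |C| * ‖y‖ ^ (-r) := mul_nonneg (abs_nonneg _) hn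
    linarith

/-- **Coset-shift comparison from a shift bound**, uniform in the parameter `i`. -/
theorem exists_bound_of_shift [DiscreteTopology L] (hle : L' ≤ L) [Finite (L ⧸ sub L L')]
    {ι : Type*} (F : ι → E → ℝ) (B r : ℝ) (hr : (finrank ℤ L : ℝ) < r)
    (hbdd : ∀ i, ∀ x : L, |F i x| ≤ B)
    (hsum : ∀ i, Summable fun x : L => F i x)
    (hshift : ∀ v : L, ∃ C R : ℝ, 0 < R ∧ ∀ i, ∀ x : E, R ≤ ‖x‖ →
      |F i (x + v) - F i x| ≤ C * ‖x‖ ^ (-r)) :
    ∃ C : ℝ, ∀ i,
      |∑' x : L, F i x - (Nat.card (L ⧸ sub L L') : ℝ) * ∑' y : L', F i y| ≤ C := by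
  classical
  have := Fintype.ofFinite (L ⧸ sub L L')
  have : DiscreteTopology L' := discreteTopology_of_le hle
  have hrk : (finrank ℤ L' : ℝ) < r :=
    lt_of_le_of_lt (by exact_mod_cast finrank_le_of_le hle) hr
  have hr0 : 0 < r := lt_of_le_of_lt (Nat.cast_nonneg _) hr
  choose Cv Rv hRv hsh using hshift
  by_cases hι : IsEmpty ι
  · exact ⟨0, fun i => (hι.false i).elim⟩
  rw [not_isEmpty_iff] at hι
  have hB : 0 ≤ B := (abs_nonneg _).trans (hbdd hι.some 0)
  refine ⟨∑ q : L ⧸ sub L L', ∑' y : L',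
    dom B (Cv (rep L L' q)) (Rv (rep L L' q)) r (y : E), fun i => ?_⟩
  have sL := hsum i
  have sL' : Summable fun y : L' => F i y :=
    sL.comp_injective (i := (Submodule.inclusion hle : L' → L)) (Submodule.inclusion_injective hle)
  have sP : Summable fun a : (L ⧸ sub L L') × L' => F i ((a.2 : E) + (rep L L' a.1 : E)) := by
    have := (decomp L L' hle).symm.summable_iff.mpr sL
    simpa [Function.comp_def, decomp_symm_coe] using this
  have e1 : ∑' x : L, F i x
      = ∑ q : L ⧸ sub L L', ∑' y : L', F i ((y : E) + (rep L L' q : E)) := by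
    rw [← (decomp L L' hle).symm.tsum_eq (fun x : L => F i x)]
    simp only [decomp_symm_coe]
    rw [sP.tsum_prod, tsum_fintype]
  have sq : ∀ q : L ⧸ sub L L', Summable fun y : L' => F i ((y : E) + (rep L L' q : E)) := by
    intro q
    exact sP.comp_injective (i := fun y : L' => (q, y)) (fun a b hab => by simpa using hab)
  have e2 : (Nat.card (L ⧸ sub L L') : ℝ) * ∑' y : L', F i y
      = ∑ _q : L ⧸ sub L L', ∑' y : L', F i y := by
    rw [Finset.sum_const, Finset.card_univ, Nat.card_eq_fintype_card, nsmul_eq_mul]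
  rw [e1, e2, ← Finset.sum_sub_distrib]
  refine (Finset.abs_sum_le_sum_abs _ _).trans (Finset.sum_le_sum fun q _ => ?_)
  rw [← (sq q).tsum_sub sL']
  have sd := summable_dom (L' := L') (B := B) (C := Cv (rep L L' q)) (R := Rv (rep L L' q)) hrk
  have pw : ∀ y : L', |F i ((y : E) + (rep L L' q : E)) - F i y| ≤
      dom B (Cv (rep L L' q)) (Rv (rep L L' q)) r (y : E) := by
    intro y
    refine abs_sub_le_dom hB (hRv _) hr0 ?_ ?_ (hsh (rep L L' q) i (y : E))
    · exact hbdd i ⟨(y : E) + (rep L L' q : E), L.add_mem (hle y.2) (rep L L' q).2⟩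
    · exact hbdd i ⟨(y : E), hle y.2⟩
  have sabs : Summable fun y : L' => |F i ((y : E) + (rep L L' q : E)) - F i y| :=
    Summable.of_nonneg_of_le (fun _ => abs_nonneg _) pw sd
  calc |∑' y : L', (F i ((y : E) + (rep L L' q : E)) - F i y)|
      ≤ ∑' y : L', |F i ((y : E) + (rep L L' q : E)) - F i y| := by
        have := norm_tsum_le_tsum_norm
          (f := fun y : L' => F i ((y : E) + (rep L L' q : E)) - F i y)
          (by simpa [Real.norm_eq_abs] using sabs)
        simpa [Real.norm_eq_abs] using this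
    _ ≤ _ := sabs.tsum_le_tsum pw sd

end Fermat.Agent.S14.LatticeSumShift
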