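import Fermat.Agent.S14.HerbrandPrime

/-!
# Abstract datum for the algebraic norm-index inequality (S14, block B2.alg)

`M/K` cyclic of prime degree `p`, unramified.  We abstract the situation as follows:
* `X` = additive copy of `Mˣ` with the endomorphism `σ` (a generator of the Galois group);
* `PM` = primes of `M`, `τ` = the permutation of `PM` induced by `σ`;
* `PK` = primes of `K`, `π : PM → PK` whose fibres are the `τ`-orbits;
* `ord Q : X →+ ℤ` the `Q`-adic valuation.
`AllNorms` is the statement "every ideal of `K` is a principal ideal times the norm of an ideal of `M`",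
written on `M`-valuations (legitimate because `M/K` is unramified).
-/

set_option autoImplicit false

open Module

namespace Fermat.Agent.S14.NormIndexDefs

open Fermat.Agent.S14.HerbrandPrime

/-- Abstract datum: `X` = (additive copy of) `Mˣ`, `σ` a generator of the cyclic Galois group of
prime order `p`, `PM` = primes of `M` with the permutation `τ` induced by `σ`, `ord` the valuations,
`π` the map to the primes of `K`. -/
structure Datum (p : ℕ) (X : Type*) [AddCommGroup X] (PM PK : Type*) where
  /-- the generator of the Galois group acting on `X` -/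
  σ : Module.End ℤ X
  σ_pow : σ ^ p = 1
  /-- the induced permutation of the primes of `M` -/
  τ : Equiv.Perm PM
  τ_pow : τ ^ p = 1
  /-- the prime of `K` below a prime of `M` -/
  π : PM → PK
  π_eq_iff : ∀ Q Q', π Q = π Q' ↔ ∃ i : ℕ, (τ ^ i) Q = Q'
  /-- the valuations -/
  ord : PM → X →+ ℤ
  ord_equiv : ∀ Q x, ord (τ Q) (σ x) = ord Q x
  ord_finite : ∀ x, {Q | ord Q x ≠ 0}.Finite
  hilbert90 : ∀ x, normEnd p σ x = 0 → ∃ y, x = σ y - y

variable {p : ℕ} {X : Type*} [AddCommGroup X] {PM PK : Type*}

/-- the `S`-units -/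
def Datum.sUnits (D : Datum p X PM PK) (S : Finset PM) : Submodule ℤ X where
  carrier := {x | ∀ Q ∉ S, D.ord Q x = 0}
  add_mem' := by
    intro a b ha hb Q hQ
    simp [ha Q hQ, hb Q hQ]
  zero_mem' := by intro Q _; simp
  smul_mem' := by
    intro c x hx Q hQ
    simp [hx Q hQ]

theorem Datum.mem_sUnits (D : Datum p X PM PK) (S : Finset PM) (x : X) :
    x ∈ D.sUnits S ↔ ∀ Q ∉ S, D.ord Q x = 0 := Iff.rfl

/-- the statement "every ideal of `K` is principal times a norm", in valuation language. -/
def Datum.AllNorms (D : Datum p X PM PK) : Prop :=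
  ∀ c : PM →₀ ℤ, (∀ Q, c (D.τ Q) = c Q) →
    ∃ β : X, D.σ β = β ∧ ∃ d : PM →₀ ℤ,
      ∀ Q, c Q = D.ord Q β + ∑ i ∈ Finset.range p, d ((D.τ ^ i) Q)

end Fermat.Agent.S14.NormIndexDefs
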