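/-
S14 — (D-norm): relative norms of ideals have trivial Artin symbol (helper61).

For ANY `art` with `IsArtinMap F L art` and `Unram F L`:
* `pow_inertiaDeg_eq_one`  : `art v ^ f(P|v) = 1` for a prime `P` over `v`;
* `art_relNorm0_eq_one`    : `art (N_{L/F} J) = 1` for every nonzero ideal `J` of `𝓞 L`;
* `normsDie`               : the closed Prop `CycloFrobBlock.NormsDie`;
* `principalDiesCyclo_of_normSurjMod` : `NormSurjMod → PrincipalDiesCyclo`.
-/
import Fermat.Agent.S14.ArtinMapGen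
import Fermat.Agent.S14.ClassNorm
import Fermat.Agent.S14.CycloFrobBlock
import Fermat.Agent.S14.CycloFrobFinal

set_option autoImplicit false

namespace Fermat.Agent.S14.NormsDieProof

open NumberField nonZeroDivisors Fermat.Agent.S14 Fermat.Agent.S14.ClassNorm

variable {F L : Type*} [Field F] [NumberField F] [Field L] [NumberField L] [Algebra F L]
  [IsGalois F L]

/-- Iterating an arithmetic Frobenius `σ` at `P`: `σ ^ k • x ≡ x ^ (q ^ k)  mod P`. -/
theorem mk_pow_smul {P : Ideal (𝓞 L)} {σ : L ≃ₐ[F] L} (hσ : IsArithFrobAt (𝓞 F) σ P) (k : ℕ)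
    (x : 𝓞 L) :
    Ideal.Quotient.mk P ((σ ^ k) • x) =
      Ideal.Quotient.mk P x ^ (Nat.card (𝓞 F ⧸ P.under (𝓞 F))) ^ k := by
  induction k generalizing x with
  | zero => simp
  | succ k ih =>
    rw [pow_succ', mul_smul]
    have h1 : Ideal.Quotient.mk P (σ • ((σ ^ k) • x)) =
        Ideal.Quotient.mk P ((σ ^ k) • x) ^ Nat.card (𝓞 F ⧸ P.under (𝓞 F)) := by
      have := hσ.mk_apply ((σ ^ k) • x)
      simpa using this
    rw [h1, ih, ← pow_mul, pow_succ]

/-- **Prime case**: the Artin symbol of `v` has order dividing the residue degree of any prime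
`P` above `v`. -/
theorem pow_inertiaDeg_eq_one {art : (Ideal (𝓞 F))⁰ →* (L ≃ₐ[F] L)} (hart : IsArtinMap F L art)
    (hU : Unram F L) (v : (Ideal (𝓞 F))⁰) (hv : (v : Ideal (𝓞 F)).IsPrime) (P : Ideal (𝓞 L))
    (hP : P.IsPrime) (hPv : P.LiesOver (v : Ideal (𝓞 F))) :
    art v ^ P.inertiaDeg (𝓞 F) = 1 := by
  have hP0 : P ≠ ⊥ := ne_bot_of_liesOver_nonZeroDivisors v P hPv
  have hPmax : P.IsMaximal := hP.isMaximal hP0
  have hfrob := hart.frob v P hv hP hPv
  apply hU P hP hP0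
  intro x
  let _ : Field (𝓞 L ⧸ P) := Ideal.Quotient.field P
  have : Finite (𝓞 L ⧸ P) := Ideal.finiteQuotientOfFreeOfNeBot P hP0
  have : Fintype (𝓞 L ⧸ P) := Fintype.ofFinite _
  have hunder : P.under (𝓞 F) = (v : Ideal (𝓞 F)) := hPv.over.symm
  have hv0 : (v : Ideal (𝓞 F)) ≠ ⊥ := mem_nonZeroDivisors_iff_ne_zero.mp v.2
  have hvmax : (v : Ideal (𝓞 F)).IsMaximal := hv.isMaximal hv0
  have hcard : Nat.card (𝓞 F ⧸ P.under (𝓞 F)) ^ P.inertiaDeg (𝓞 F) = Nat.card (𝓞 L ⧸ P) := by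
    rw [hunder]
    exact Ideal.cardQuot_pow_inertiaDeg (v : Ideal (𝓞 F)) P
  show (art v ^ P.inertiaDeg (𝓞 F)) • x - x ∈ P
  rw [← Ideal.Quotient.eq, mk_pow_smul hfrob, hcard, Nat.card_eq_fintype_card,
    FiniteField.pow_card]

/-- **(D-one, ⇐)** if some prime `P` over `v` has residue degree one, then `art v = 1`. -/
theorem art_eq_one_of_inertiaDeg_eq_one {art : (Ideal (𝓞 F))⁰ →* (L ≃ₐ[F] L)}
    (hart : IsArtinMap F L art) (hU : Unram F L) (v : (Ideal (𝓞 F))⁰)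
    (hv : (v : Ideal (𝓞 F)).IsPrime) (P : Ideal (𝓞 L)) (hP : P.IsPrime)
    (hPv : P.LiesOver (v : Ideal (𝓞 F))) (hf : P.inertiaDeg (𝓞 F) = 1) : art v = 1 := by
  have := pow_inertiaDeg_eq_one hart hU v hv P hP hPv
  rwa [hf, pow_one] at this

/-- `art v = 1 ↔ f(P|v) = 1` for any prime `P` over `v`. -/
theorem art_eq_one_iff_inertiaDeg_eq_one {art : (Ideal (𝓞 F))⁰ →* (L ≃ₐ[F] L)}
    (hart : IsArtinMap F L art) (hU : Unram F L) (v : (Ideal (𝓞 F))⁰)
    (hv : (v : Ideal (𝓞 F)).IsPrime) (P : Ideal (𝓞 L)) (hP : P.IsPrime)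
    (hPv : P.LiesOver (v : Ideal (𝓞 F))) : art v = 1 ↔ P.inertiaDeg (𝓞 F) = 1 :=
  ⟨fun h => hart.inertiaDeg_eq_one_of_eq_one v hv h P hP hPv,
    art_eq_one_of_inertiaDeg_eq_one hart hU v hv P hP hPv⟩

/-- If `art v ^ k = 1` with `0 < k` then the residue degree of `P` over `v` is at most `k`. -/
theorem inertiaDeg_le_of_pow_eq_one {art : (Ideal (𝓞 F))⁰ →* (L ≃ₐ[F] L)}
    (hart : IsArtinMap F L art) (v : (Ideal (𝓞 F))⁰)
    (hv : (v : Ideal (𝓞 F)).IsPrime) (P : Ideal (𝓞 L)) (hP : P.IsPrime)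
    (hPv : P.LiesOver (v : Ideal (𝓞 F))) {k : ℕ} (hk : 0 < k) (h1 : art v ^ k = 1) :
    P.inertiaDeg (𝓞 F) ≤ k := by
  have hP0 : P ≠ ⊥ := ne_bot_of_liesOver_nonZeroDivisors v P hPv
  have hPmax : P.IsMaximal := hP.isMaximal hP0
  have hfrob := hart.frob v P hv hP hPv
  let _ : Field (𝓞 L ⧸ P) := Ideal.Quotient.field P
  have : Finite (𝓞 L ⧸ P) := Ideal.finiteQuotientOfFreeOfNeBot P hP0
  have hunder : P.under (𝓞 F) = (v : Ideal (𝓞 F)) := hPv.over.symm
  have hv0 : (v : Ideal (𝓞 F)) ≠ ⊥ := mem_nonZeroDivisors_iff_ne_zero.mp v.2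
  have hvmax : (v : Ideal (𝓞 F)).IsMaximal := hv.isMaximal hv0
  have : Finite (𝓞 F ⧸ (v : Ideal (𝓞 F))) := Ideal.finiteQuotientOfFreeOfNeBot _ hv0
  set q := Nat.card (𝓞 F ⧸ (v : Ideal (𝓞 F))) with hq
  have hq1 : 1 < q := by
    rw [hq]
    exact Finite.one_lt_card_iff_nontrivial.mpr (Ideal.Quotient.nontrivial_iff.mpr hvmax.ne_top)
  have hcard : q ^ P.inertiaDeg (𝓞 F) = Nat.card (𝓞 L ⧸ P) :=
    Ideal.cardQuot_pow_inertiaDeg (v : Ideal (𝓞 F)) P
  have hall : ∀ y : 𝓞 L ⧸ P, y ^ (q ^ k) = y := by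
    intro y
    obtain ⟨x, rfl⟩ := Ideal.Quotient.mk_surjective y
    have := mk_pow_smul hfrob k x
    rw [h1, one_smul, hunder] at this
    exact this.symm
  have hle := card_le_of_forall_pow_eq (Nat.one_lt_pow hk.ne' hq1) hall
  rw [← hcard] at hle
  exact (Nat.pow_le_pow_iff_right hq1).mp hle

/-- **Order of the Artin symbol** `= f(P|v)` for any prime `P` over `v`. -/
theorem orderOf_art_eq_inertiaDeg {art : (Ideal (𝓞 F))⁰ →* (L ≃ₐ[F] L)}
    (hart : IsArtinMap F L art) (hU : Unram F L) (v : (Ideal (𝓞 F))⁰)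
    (hv : (v : Ideal (𝓞 F)).IsPrime) (P : Ideal (𝓞 L)) (hP : P.IsPrime)
    (hPv : P.LiesOver (v : Ideal (𝓞 F))) : orderOf (art v) = P.inertiaDeg (𝓞 F) := by
  have h1 := pow_inertiaDeg_eq_one hart hU v hv P hP hPv
  have hdvd : orderOf (art v) ∣ P.inertiaDeg (𝓞 F) := orderOf_dvd_of_pow_eq_one h1
  have hpos : 0 < P.inertiaDeg (𝓞 F) := Ideal.inertiaDeg_pos P (𝓞 F)
  have hopos : 0 < orderOf (art v) := Nat.pos_of_dvd_of_pos hdvd hpos
  have hle := inertiaDeg_le_of_pow_eq_one hart v hv P hP hPv hopos (pow_orderOf_eq_one _)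
  exact le_antisymm (Nat.le_of_dvd hpos hdvd) hle

omit [IsGalois F L] in
/-- The relative norm of a nonzero prime `P` of `𝓞 L` is `v ^ f(P|v)`, `v = P ∩ 𝓞 F`. -/
theorem relNorm_prime (P : Ideal (𝓞 L)) (hP : P.IsPrime) (hP0 : P ≠ ⊥) :
    Ideal.relNorm (𝓞 F) P = (P.under (𝓞 F)) ^ P.inertiaDeg (𝓞 F) := by
  have hPmax : P.IsMaximal := hP.isMaximal hP0
  have : (P.under (𝓞 F)).IsMaximal := Ideal.IsMaximal.under (𝓞 F) P
  exact Ideal.relNorm_eq_pow_of_isMaximal P (P.under (𝓞 F))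

/-- **(D-norm)**, monoid-hom form: `art ∘ N_{L/F}` is trivial on nonzero ideals of `𝓞 L`. -/
theorem art_relNorm0_eq_one {art : (Ideal (𝓞 F))⁰ →* (L ≃ₐ[F] L)} (hart : IsArtinMap F L art)
    (hU : Unram F L) (J : (Ideal (𝓞 L))⁰) : art (relNorm0 F L J) = 1 := by
  obtain ⟨J, hJ⟩ := J
  induction J using UniqueFactorizationMonoid.induction_on_prime with
  | h₁ => exact absurd rfl (mem_nonZeroDivisors_iff_ne_zero.mp hJ)
  | h₂ x hx =>
    have hx1 : x = 1 := by rwa [Ideal.isUnit_iff, ← Ideal.one_eq_top] at hx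
    subst hx1
    have : (⟨1, hJ⟩ : (Ideal (𝓞 L))⁰) = 1 := rfl
    rw [this, map_one, map_one]
  | h₃ a p ha hp ih =>
    have hp0 : p ≠ ⊥ := hp.ne_zero
    have hpP : p.IsPrime := Ideal.isPrime_of_prime hp
    have ha' : a ∈ (Ideal (𝓞 L))⁰ := mem_nonZeroDivisors_of_ne_zero ha
    have hp' : p ∈ (Ideal (𝓞 L))⁰ := mem_nonZeroDivisors_of_ne_zero hp0
    have hmul : (⟨p * a, hJ⟩ : (Ideal (𝓞 L))⁰) = ⟨p, hp'⟩ * ⟨a, ha'⟩ := rfl
    rw [hmul, map_mul, map_mul, ih ha', mul_one]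
    -- the prime factor
    have hv0 : p.under (𝓞 F) ≠ ⊥ := Ideal.under_ne_bot (𝓞 F) hp0
    have hvP : (p.under (𝓞 F)).IsPrime := Ideal.IsPrime.under (𝓞 F) p
    let v : (Ideal (𝓞 F))⁰ := ⟨p.under (𝓞 F), mem_nonZeroDivisors_of_ne_zero hv0⟩
    have hrel : relNorm0 F L ⟨p, hp'⟩ = v ^ p.inertiaDeg (𝓞 F) :=
      Subtype.ext (by
        rw [coe_relNorm0, SubmonoidClass.coe_pow]
        exact relNorm_prime p hpP hp0)
    rw [hrel, map_pow]
    exact pow_inertiaDeg_eq_one hart hU v hvP p hpP ⟨rfl⟩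

/-- **(D-norm)**: the Artin symbol of the relative norm of a nonzero ideal is trivial. -/
theorem art_eq_one_of_eq_relNorm {art : (Ideal (𝓞 F))⁰ →* (L ≃ₐ[F] L)}
    (hart : IsArtinMap F L art) (hU : Unram F L) (J : Ideal (𝓞 L)) (I : (Ideal (𝓞 F))⁰)
    (hJ : J ≠ ⊥) (hI : (I : Ideal (𝓞 F)) = Ideal.relNorm (𝓞 F) J) : art I = 1 := by
  have h := art_relNorm0_eq_one hart hU ⟨J, mem_nonZeroDivisors_of_ne_zero hJ⟩
  have hIJ : I = relNorm0 F L ⟨J, mem_nonZeroDivisors_of_ne_zero hJ⟩ := Subtype.ext hI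
  rw [hIJ]
  exact h

/-- The Artin map kills every class in `normClasses`, once it kills principal ideals:
for `I` with `mk0 I ∈ normClasses F L` and `art` trivial on principal ideals, `art I = 1`. -/
theorem art_eq_one_of_mk0_mem_normClasses {art : (Ideal (𝓞 F))⁰ →* (L ≃ₐ[F] L)}
    (hart : IsArtinMap F L art) (hU : Unram F L) (hprin : PrincipalDie art)
    (I : (Ideal (𝓞 F))⁰) (hI : ClassGroup.mk0 I ∈ normClasses F L) : art I = 1 := by
  have hprin : ∀ I : (Ideal (𝓞 F))⁰, (I : Ideal (𝓞 F)).IsPrincipal → art I = 1 := hprin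
  rw [← classLift_mk0 art hprin I]
  have hle : normClasses F L ≤ (classLift art hprin).ker := by
    rw [normClasses, Subgroup.closure_le]
    rintro c ⟨J, I', hJ, hI', rfl⟩
    rw [SetLike.mem_coe, MonoidHom.mem_ker, classLift_mk0]
    exact art_eq_one_of_eq_relNorm hart hU J I' hJ hI'
  exact MonoidHom.mem_ker.mp (hle hI)

end Fermat.Agent.S14.NormsDieProof

namespace Fermat.Agent.S14.NormsDieProof

open NumberField nonZeroDivisors Fermat.Agent.S14 Fermat.Agent.S14.CycloFrobBlock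

/-- **(D-norm)** as the closed Prop of `CycloFrobBlock`. -/
theorem normsDie : NormsDie := by
  intro F L _ _ _ _ _ _ hU art hart J I hJ hI
  exact art_eq_one_of_eq_relNorm hart hU J I hJ hI

/-- Principal ideals prime to `m` die in unramified subextensions of `F(ζ_m)/F`, from norm
surjectivity modulo `m` alone. -/
theorem principalDiesCyclo_of_normSurjMod (h : NormSurjMod) : PrincipalDiesCyclo :=
  principalDiesCyclo h normsDie

/-- **(D-norm)** in the shape consumed by the crossing block (`CrossingBlocks.BlockNormDie`). -/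
theorem blockNormDie : CrossingBlocks.BlockNormDie := by
  intro K L _ _ _ _ _ _ hU art hart J I hI
  have hJ : J ≠ ⊥ := by
    rintro rfl
    rw [Ideal.relNorm_bot] at hI
    exact mem_nonZeroDivisors_iff_ne_zero.mp I.2 hI
  exact art_eq_one_of_eq_relNorm hart hU J I hJ hI

/-- **(C1), UNCONDITIONAL**: principal ideals prime to `m` have trivial Artin symbol in every
unramified Galois `L/F` (`F` totally complex) inside an `m`-cyclotomic extension of `F`
(`CycloFrobBlock` shape). -/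
theorem principalDiesCycloProved : PrincipalDiesCyclo :=
  principalDiesCyclo CycloFrobFinal.normSurjMod normsDie

/-- **(C1), UNCONDITIONAL**, in the shape consumed by the crossing block. -/
theorem principalDiesCycloBlock : CrossingBlocks.PrincipalDiesCyclo :=
  CycloFrobFinal.principalDiesCyclo blockNormDie

end Fermat.Agent.S14.NormsDieProof
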