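import Fermat.Agent.S14.NormIndexDefs

/-!
# S14, block B2.alg: the cohomological core of `Datum.not_allNorms` (HEDGE)

Abstract datum `D : Datum p X PM PK` of `NormIndexDefs` (`X = Mˣ`, `σ` a generator of the Galois group,
`τ` the permutation of the primes of `M`, `ord` the valuations), `S` a finite `τ`-stable set of primes
generating the class group (`hgen`), `U = D.sUnits S`, `T = fixedPrimes D S` the `τ`-fixed primes of `S`.

* `h1_trivial`: under `AllNorms`, an `S`-unit of norm `0` is `σ y - y` with `y` an `S`-unit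
  (`qa_N_D_eq_one`: `[U ∩ ker N : (σ-1) U] = 1`).
* `exists_invariant_unit`: under `AllNorms`, there are `σ`-invariant `S`-units with prescribed
  valuations mod `p` at the primes of `T`; hence `p ^ #T ∣ [U^σ : N U]`
  (`pow_card_fixedPrimes_dvd_relIndex`).
* `not_allNorms_of_herbrand`: the Herbrand identity `h⁰ p^b = h¹ p^r` with `r + 1 = b + #T` is
  incompatible with `AllNorms`.  `rank_arith` is the arithmetic giving `r + 1 = b + #T`.
-/

set_option autoImplicit false

open Module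

namespace Fermat.Agent.S14.NotAllNormsCore

open Fermat.Agent.S14.HerbrandPrime Fermat.Agent.S14.NormIndexDefs

variable {p : ℕ} {X : Type*} [AddCommGroup X] {PM PK : Type*}
variable (D : Datum p X PM PK)

/-! ### Equivariance of the valuations -/

theorem ord_tau_pow_sigma_pow (i : ℕ) (Q : PM) (x : X) :
    D.ord ((D.τ ^ i) Q) ((D.σ ^ i) x) = D.ord Q x := by
  induction i generalizing Q x with
  | zero => simp
  | succ i ih =>
    rw [pow_succ', pow_succ', Equiv.Perm.mul_apply, Module.End.mul_apply, D.ord_equiv, ih]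

theorem ord_sigma_pow (i : ℕ) (Q : PM) (x : X) :
    D.ord Q ((D.σ ^ i) x) = D.ord ((D.τ ^ i)⁻¹ Q) x := by
  have h := ord_tau_pow_sigma_pow D i ((D.τ ^ i)⁻¹ Q) x
  have h2 : (D.τ ^ i) ((D.τ ^ i)⁻¹ Q) = Q := (D.τ ^ i).apply_symm_apply Q
  rwa [h2] at h

theorem ord_normEnd (Q : PM) (x : X) :
    D.ord Q (normEnd p D.σ x) = ∑ i ∈ Finset.range p, D.ord ((D.τ ^ i)⁻¹ Q) x := by
  unfold normEnd
  rw [LinearMap.sum_apply, map_sum]
  exact Finset.sum_congr rfl fun i _ => ord_sigma_pow D i Q x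

/-- reindexing `i ↦ -i` on the powers of an element of order dividing `p`. -/
theorem sum_inv_pow_eq {G : Type*} [Group G] {M : Type*} [AddCommMonoid M] (t : G) (n : ℕ)
    (ht : t ^ n = 1) (g : G → M) :
    ∑ j ∈ Finset.range n, g ((t ^ j)⁻¹) = ∑ j ∈ Finset.range n, g (t ^ j) := by
  have h1 : ∀ j ∈ Finset.range n, g ((t ^ j)⁻¹) = g (t ^ (n - 1 - j + 1)) := by
    intro j hj
    have hj' : j < n := Finset.mem_range.mp hj
    congr 1
    rw [inv_eq_iff_mul_eq_one, ← pow_add]
    have : j + (n - 1 - j + 1) = n := by omega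
    rw [this, ht]
  rw [Finset.sum_congr rfl h1, Finset.sum_range_reflect (fun j => g (t ^ (j + 1))) n]
  rcases n with _ | n
  · simp
  · rw [Finset.sum_range_succ, Finset.sum_range_succ' (fun j => g (t ^ j)), ht, pow_zero]

theorem ord_normEnd' (Q : PM) (x : X) :
    D.ord Q (normEnd p D.σ x) = ∑ i ∈ Finset.range p, D.ord ((D.τ ^ i) Q) x := by
  rw [ord_normEnd]
  exact sum_inv_pow_eq D.τ p D.τ_pow (fun t => D.ord (t Q) x)

theorem sigma_normEnd (x : X) : D.σ (normEnd p D.σ x) = normEnd p D.σ x := by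
  have := sub_one_normEnd_apply p D.σ D.σ_pow x
  rwa [LinearMap.sub_apply, Module.End.one_apply, sub_eq_zero] at this

theorem ord_normEnd_of_fixed {Q : PM} (hQ : D.τ Q = Q) (x : X) :
    D.ord Q (normEnd p D.σ x) = (p : ℤ) * D.ord Q x := by
  rw [ord_normEnd']
  have : ∀ i : ℕ, (D.τ ^ i) Q = Q := by
    intro i
    induction i with
    | zero => simp
    | succ i ih => rw [pow_succ, Equiv.Perm.mul_apply, hQ, ih]
  simp [this]


/-! ### `τ`-stable finite sets of primes -/

section stable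

variable {D} {S : Finset PM} (hS : ∀ Q ∈ S, D.τ Q ∈ S)
include hS

theorem tau_pow_mem (i : ℕ) {Q : PM} (hQ : Q ∈ S) : (D.τ ^ i) Q ∈ S := by
  induction i with
  | zero => simpa using hQ
  | succ i ih => rw [pow_succ', Equiv.Perm.mul_apply]; exact hS _ ih

theorem tau_pow_not_mem (hp : 0 < p) (i : ℕ) {Q : PM} (hQ : Q ∉ S) : (D.τ ^ i) Q ∉ S := by
  intro h
  -- `Q = τ^(p*i - i) (τ^i Q)`
  have h2 := tau_pow_mem hS (i * (p - 1)) h
  rw [← Equiv.Perm.mul_apply, ← pow_add] at h2
  have : i * (p - 1) + i = p * i := by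
    obtain ⟨q, rfl⟩ : ∃ q, p = q + 1 := ⟨p - 1, by omega⟩
    simp; ring
  rw [this, pow_mul, D.τ_pow, one_pow] at h2
  exact hQ h2

theorem tau_not_mem (hp : 0 < p) {Q : PM} (hQ : Q ∉ S) : D.τ Q ∉ S := by
  simpa using tau_pow_not_mem hS hp 1 hQ

theorem tau_inv_pow_not_mem (i : ℕ) {Q : PM} (hQ : Q ∉ S) : (D.τ ^ i)⁻¹ Q ∉ S := by
  intro h
  have h2 := tau_pow_mem hS i h
  have h3 : (D.τ ^ i) ((D.τ ^ i)⁻¹ Q) = Q := (D.τ ^ i).apply_symm_apply Q
  rw [h3] at h2
  exact hQ h2

/-- `σ` preserves the `S`-units. -/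
theorem sigma_mem_sUnits {x : X} (hx : x ∈ D.sUnits S) : D.σ x ∈ D.sUnits S := by
  intro Q hQ
  have h := ord_sigma_pow D 1 Q x
  rw [pow_one, pow_one] at h
  rw [h]
  have := tau_inv_pow_not_mem hS 1 hQ
  rw [pow_one] at this
  exact hx _ this

/-- the norm preserves the `S`-units. -/
theorem normEnd_mem_sUnits {x : X} (hx : x ∈ D.sUnits S) : normEnd p D.σ x ∈ D.sUnits S := by
  intro Q hQ
  rw [ord_normEnd]
  exact Finset.sum_eq_zero fun i _ => hx _ (tau_inv_pow_not_mem hS i hQ)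

end stable


/-! ### `Ĥ¹` of the `S`-units is trivial under `AllNorms` -/

section core

variable {D} {S : Finset PM} (hS : ∀ Q ∈ S, D.τ Q ∈ S)
  (hgen : ∀ c : PM →₀ ℤ, ∃ x : X, ∀ Q ∉ S, D.ord Q x = c Q)

/-- the divisor of `y` outside `S`, as a finitely supported function. -/
noncomputable def divOff (D : Datum p X PM PK) (S : Finset PM) (y : X) : PM →₀ ℤ := by
  classical
  exact Finsupp.ofSupportFinite (fun Q => if Q ∈ S then 0 else D.ord Q y)
    ((D.ord_finite y).subset (by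
      intro Q hQ
      simp only [Function.mem_support, ne_eq] at hQ
      by_cases h : Q ∈ S
      · simp [h] at hQ
      · simpa [h] using hQ))

theorem divOff_apply_of_mem (y : X) {Q : PM} (hQ : Q ∈ S) : divOff D S y Q = 0 := by
  classical
  simp [divOff, Finsupp.ofSupportFinite_coe, hQ]

theorem divOff_apply_of_not_mem (y : X) {Q : PM} (hQ : Q ∉ S) : divOff D S y Q = D.ord Q y := by
  classical
  simp [divOff, Finsupp.ofSupportFinite_coe, hQ]

include hS hgen in
/-- **`Ĥ¹(U_S) = 0` under `AllNorms`**: an `S`-unit of norm `0` is `σ y - y` for an `S`-unit `y`. -/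
theorem h1_trivial (hp : 0 < p) (hall : D.AllNorms) {x : X} (hx : x ∈ D.sUnits S)
    (hN : normEnd p D.σ x = 0) : ∃ y ∈ D.sUnits S, x = D.σ y - y := by
  obtain ⟨y, hy⟩ := D.hilbert90 x hN
  -- the divisor of `y` off `S` is `τ`-invariant
  have hinv : ∀ Q, divOff D S y (D.τ Q) = divOff D S y Q := by
    intro Q
    by_cases hQ : Q ∈ S
    · rw [divOff_apply_of_mem y hQ, divOff_apply_of_mem y (hS Q hQ)]
    · have hQ' : D.τ Q ∉ S := tau_not_mem hS hp hQ
      rw [divOff_apply_of_not_mem y hQ, divOff_apply_of_not_mem y hQ']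
      have h0 : D.ord (D.τ Q) x = 0 := hx _ hQ'
      rw [hy, map_sub, D.ord_equiv, sub_eq_zero] at h0
      exact h0.symm
  obtain ⟨β, hβ, d, hd⟩ := hall (divOff D S y) hinv
  obtain ⟨z, hz⟩ := hgen d
  refine ⟨y - β - normEnd p D.σ z, ?_, ?_⟩
  · intro Q hQ
    rw [map_sub, map_sub, ord_normEnd']
    have h1 := hd Q
    rw [divOff_apply_of_not_mem y hQ] at h1
    have h2 : ∑ i ∈ Finset.range p, D.ord ((D.τ ^ i) Q) z =
        ∑ i ∈ Finset.range p, d ((D.τ ^ i) Q) :=
      Finset.sum_congr rfl fun i _ => hz _ (tau_pow_not_mem hS hp i hQ)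
    rw [h2, h1]
    ring
  · rw [map_sub, map_sub, hβ, sigma_normEnd, hy]
    abel

end core


/-! ### Invariant `S`-units with prescribed valuations mod `p` at the `τ`-fixed primes -/

section h0

variable {D} {S : Finset PM} (hS : ∀ Q ∈ S, D.τ Q ∈ S)
  (hgen : ∀ c : PM →₀ ℤ, ∃ x : X, ∀ Q ∉ S, D.ord Q x = c Q)

/-- the `τ`-fixed primes of `S` ("inert primes"). -/
noncomputable def fixedPrimes (D : Datum p X PM PK) (S : Finset PM) : Finset PM := by
  classical
  exact S.filter (fun Q => D.τ Q = Q)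

theorem mem_fixedPrimes {Q : PM} : Q ∈ fixedPrimes D S ↔ Q ∈ S ∧ D.τ Q = Q := by
  classical
  simp [fixedPrimes]

/-- a divisor supported on the fixed primes of `S`. -/
noncomputable def divFixed (D : Datum p X PM PK) (S : Finset PM) (a : PM → ℤ) : PM →₀ ℤ := by
  classical
  exact Finsupp.ofSupportFinite (fun Q => if Q ∈ fixedPrimes D S then a Q else 0)
    ((fixedPrimes D S).finite_toSet.subset (by
      intro Q hQ
      simp only [Function.mem_support, ne_eq] at hQ
      by_cases h : Q ∈ fixedPrimes D S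
      · exact h
      · simp [h] at hQ))

theorem divFixed_apply_of_mem (a : PM → ℤ) {Q : PM} (hQ : Q ∈ fixedPrimes D S) :
    divFixed D S a Q = a Q := by
  classical
  simp [divFixed, Finsupp.ofSupportFinite_coe, hQ]

theorem divFixed_apply_of_not_mem (a : PM → ℤ) {Q : PM} (hQ : Q ∉ fixedPrimes D S) :
    divFixed D S a Q = 0 := by
  classical
  simp [divFixed, Finsupp.ofSupportFinite_coe, hQ]

theorem divFixed_tau (a : PM → ℤ) (Q : PM) : divFixed D S a (D.τ Q) = divFixed D S a Q := by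
  by_cases hQ : Q ∈ fixedPrimes D S
  · rw [(mem_fixedPrimes.mp hQ).2]
  · have hQ' : D.τ Q ∉ fixedPrimes D S := by
      intro h
      have h2 := (mem_fixedPrimes.mp h).2
      have h3 : D.τ Q = Q := D.τ.injective h2
      rw [h3] at h
      exact hQ h
    rw [divFixed_apply_of_not_mem a hQ, divFixed_apply_of_not_mem a hQ']

include hS hgen in
/-- **Surjectivity onto the inert part** under `AllNorms`: for every choice of integers `a Q` there is a
`σ`-invariant `S`-unit `u` with `ord_Q u ≡ a Q mod p` at every `τ`-fixed prime `Q ∈ S`. -/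
theorem exists_invariant_unit (hp : 0 < p) (hall : D.AllNorms) (a : PM → ℤ) :
    ∃ u ∈ D.sUnits S, D.σ u = u ∧ ∀ Q ∈ fixedPrimes D S, (p : ℤ) ∣ D.ord Q u - a Q := by
  obtain ⟨β, hβ, d, hd⟩ := hall (divFixed D S a) (divFixed_tau a)
  obtain ⟨z, hz⟩ := hgen d
  refine ⟨β + normEnd p D.σ z, ?_, ?_, ?_⟩
  · intro Q hQ
    have hQT : Q ∉ fixedPrimes D S := fun h => hQ (mem_fixedPrimes.mp h).1
    have h1 := hd Q
    rw [divFixed_apply_of_not_mem a hQT] at h1
    rw [map_add, ord_normEnd']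
    have h2 : ∑ i ∈ Finset.range p, D.ord ((D.τ ^ i) Q) z =
        ∑ i ∈ Finset.range p, d ((D.τ ^ i) Q) :=
      Finset.sum_congr rfl fun i _ => hz _ (tau_pow_not_mem hS hp i hQ)
    rw [h2]
    linarith
  · rw [map_add, hβ, sigma_normEnd]
  · intro Q hQ
    have hfix := (mem_fixedPrimes.mp hQ).2
    have hpow : ∀ i : ℕ, (D.τ ^ i) Q = Q := by
      intro i
      induction i with
      | zero => simp
      | succ i ih => rw [pow_succ, Equiv.Perm.mul_apply, hfix, ih]
    have h1 := hd Q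
    rw [divFixed_apply_of_mem a hQ] at h1
    simp only [hpow, Finset.sum_const, Finset.card_range, nsmul_eq_mul] at h1
    rw [map_add, ord_normEnd_of_fixed D hfix, h1]
    refine ⟨D.ord Q z - d Q, ?_⟩
    ring

end h0


/-! ### The index `[U^σ : N U]` is divisible by `p ^ #T` -/

section index

variable {D} {S : Finset PM} (hS : ∀ Q ∈ S, D.τ Q ∈ S)
  (hgen : ∀ c : PM →₀ ℤ, ∃ x : X, ∀ Q ∉ S, D.ord Q x = c Q)

/-- `U^σ`, the `σ`-invariant `S`-units, as an additive subgroup. -/
noncomputable def invUnits (D : Datum p X PM PK) (S : Finset PM) : AddSubgroup X :=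
  (D.sUnits S).toAddSubgroup ⊓ (Dh D.σ).ker

theorem mem_invUnits {u : X} : u ∈ invUnits D S ↔ u ∈ D.sUnits S ∧ D.σ u = u := by
  unfold invUnits
  rw [AddSubgroup.mem_inf, AddMonoidHom.mem_ker]
  constructor
  · rintro ⟨h1, h2⟩
    refine ⟨h1, ?_⟩
    have : (D.σ - 1 : Module.End ℤ X) u = 0 := h2
    rwa [LinearMap.sub_apply, Module.End.one_apply, sub_eq_zero] at this
  · rintro ⟨h1, h2⟩
    refine ⟨h1, ?_⟩
    show (D.σ - 1 : Module.End ℤ X) u = 0
    rw [LinearMap.sub_apply, Module.End.one_apply, h2, sub_self]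

/-- `N U`, the norms of `S`-units. -/
noncomputable def normUnits (D : Datum p X PM PK) (S : Finset PM) : AddSubgroup X :=
  (D.sUnits S).toAddSubgroup.map (Nh p D.σ)

include hS in
theorem normUnits_le_invUnits : normUnits D S ≤ invUnits D S := by
  rintro _ ⟨x, hx, rfl⟩
  exact mem_invUnits.mpr ⟨normEnd_mem_sUnits hS hx, sigma_normEnd D x⟩

/-- reduction mod `p` of the valuations at the fixed primes. -/
noncomputable def ordModP (D : Datum p X PM PK) (S : Finset PM) :
    invUnits D S →+ (fixedPrimes D S → ZMod p) where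
  toFun u Q := ((D.ord Q.1 (u : X) : ℤ) : ZMod p)
  map_zero' := by
    funext Q
    simp
  map_add' u v := by
    funext Q
    simp

include hS hgen in
theorem ordModP_surjective (hp : 0 < p) (hall : D.AllNorms) :
    Function.Surjective (ordModP D S) := by
  classical
  intro f
  let a : PM → ℤ := fun Q => if h : Q ∈ fixedPrimes D S then ((f ⟨Q, h⟩).val : ℤ) else 0
  obtain ⟨u, hu, hσ, hdiv⟩ := exists_invariant_unit hS hgen hp hall a
  refine ⟨⟨u, mem_invUnits.mpr ⟨hu, hσ⟩⟩, ?_⟩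
  funext Q
  have h1 := hdiv Q.1 Q.2
  have ha : a Q.1 = ((f Q).val : ℤ) := by
    simp only [a, Q.2, dif_pos]
  have : NeZero p := ⟨hp.ne'⟩
  show ((D.ord Q.1 u : ℤ) : ZMod p) = f Q
  have h2 : ((a Q.1 : ℤ) : ZMod p) = ((D.ord Q.1 u : ℤ) : ZMod p) :=
    (ZMod.intCast_eq_intCast_iff_dvd_sub _ _ p).mpr h1
  rw [← h2, ha]
  simp

theorem normUnits_le_ker_ordModP :
    (normUnits D S).addSubgroupOf (invUnits D S) ≤ (ordModP D S).ker := by
  rintro ⟨u, hu⟩ hmem
  rw [AddSubgroup.mem_addSubgroupOf] at hmem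
  obtain ⟨x, -, hx⟩ := hmem
  rw [AddMonoidHom.mem_ker]
  funext Q
  have hfix := (mem_fixedPrimes.mp Q.2).2
  show ((D.ord Q.1 u : ℤ) : ZMod p) = 0
  have hx' : normEnd p D.σ x = u := hx
  rw [← hx', ord_normEnd_of_fixed D hfix]
  simp

include hS hgen in
/-- **`p ^ #T ∣ [U^σ : N U]`** under `AllNorms` (`T` = the `τ`-fixed primes of `S`). -/
theorem pow_card_fixedPrimes_dvd_relIndex (hp : 0 < p) (hall : D.AllNorms) :
    p ^ (fixedPrimes D S).card ∣ (normUnits D S).relIndex (invUnits D S) := by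
  have : NeZero p := ⟨hp.ne'⟩
  have h1 : (ordModP D S).ker.index = p ^ (fixedPrimes D S).card := by
    rw [AddSubgroup.index_ker, AddMonoidHom.range_eq_top.mpr (ordModP_surjective hS hgen hp hall)]
    rw [Nat.card_congr (AddSubgroup.topEquiv (G := fixedPrimes D S → ZMod p)).toEquiv]
    rw [Nat.card_fun, Nat.card_zmod, Nat.card_eq_fintype_card, Fintype.card_coe]
  rw [← h1]
  exact AddSubgroup.index_dvd_of_le normUnits_le_ker_ordModP

end index


/-! ### The contradiction with the Herbrand identity -/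

section final

variable {D} {S : Finset PM} (hS : ∀ Q ∈ S, D.τ Q ∈ S)
  (hgen : ∀ c : PM →₀ ℤ, ∃ x : X, ∀ Q ∉ S, D.ord Q x = c Q)

theorem qa_D_N_eq :
    qa (Dh D.σ) (Nh p D.σ) (D.sUnits S).toAddSubgroup =
      (normUnits D S).relIndex (invUnits D S) := rfl

include hS hgen in
/-- `h¹(U_S) = 1` under `AllNorms`, in the `qa` language of `HerbrandPrime`. -/
theorem qa_N_D_eq_one (hp : 0 < p) (hall : D.AllNorms) :
    qa (Nh p D.σ) (Dh D.σ) (D.sUnits S).toAddSubgroup = 1 := by
  unfold qa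
  rw [AddSubgroup.relIndex_eq_one]
  rintro x ⟨hx, hN⟩
  obtain ⟨y, hy, hxy⟩ := h1_trivial hS hgen hp hall hx hN
  refine ⟨y, hy, ?_⟩
  show (D.σ - 1 : Module.End ℤ X) y = x
  rw [LinearMap.sub_apply, Module.End.one_apply, hxy]

include hS hgen in
/-- **Core of the first inequality.**  If the Herbrand identity
`h⁰ · p ^ b = h¹ · p ^ r` holds for the `S`-units (`h⁰ = [U^σ : N U] ≠ 0`, `h¹ = [U ∩ ker N : (σ-1) U]`),
`S` is `τ`-stable and generates the class group, and `r + 1 = b + #T` (`T` the `τ`-fixed primes of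
`S`; this is the rank computation), then not every ideal of `K` is principal times a norm. -/
theorem not_allNorms_of_herbrand (hp : p.Prime) {b r : ℕ}
    (hH : qa (Dh D.σ) (Nh p D.σ) (D.sUnits S).toAddSubgroup * p ^ b =
      qa (Nh p D.σ) (Dh D.σ) (D.sUnits S).toAddSubgroup * p ^ r)
    (h0 : qa (Dh D.σ) (Nh p D.σ) (D.sUnits S).toAddSubgroup ≠ 0)
    (hr : r + 1 = b + (fixedPrimes D S).card) : ¬ D.AllNorms := by
  intro hall
  have h1 := qa_N_D_eq_one hS hgen hp.pos hall
  have hdvd := pow_card_fixedPrimes_dvd_relIndex hS hgen hp.pos hall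
  rw [← qa_D_N_eq] at hdvd
  rw [h1, one_mul] at hH
  obtain ⟨k, hk⟩ := hdvd
  set t := (fixedPrimes D S).card with ht
  have hk0 : k ≠ 0 := by
    rintro rfl
    rw [mul_zero] at hk
    exact h0 hk
  have hpp : 0 < p := hp.pos
  -- `p^t * k * p^b = p^r`, `p^r * p = p^b * p^t`
  have e1 : p ^ t * k * p ^ b * p = p ^ b * p ^ t := by
    rw [← hk, hH, ← pow_succ, hr, pow_add]
  have e2 : (p ^ b * p ^ t) * (k * p) = (p ^ b * p ^ t) * 1 := by
    rw [mul_one]
    calc (p ^ b * p ^ t) * (k * p) = p ^ t * k * p ^ b * p := by ring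
      _ = p ^ b * p ^ t := e1
  have e3 : k * p = 1 := Nat.eq_of_mul_eq_mul_left (by positivity) e2
  have : p = 1 := Nat.eq_one_of_mul_eq_one_left e3
  exact hp.one_lt.ne' this

/-- the rank arithmetic: with `rM + 1 = p (rK + 1)`, `#S = t + p (n - t)`, `rank U = rM + #S`,
`rank U^σ = rK + n` and `(p - 1) b = rank U - rank U^σ` one gets `rank U^σ + 1 = b + t`. -/
theorem rank_arith {p rM rK s n t b : ℕ} (hp : 2 ≤ p) (htn : t ≤ n)
    (h1 : rM + 1 = p * (rK + 1)) (h2 : s = t + p * (n - t))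
    (h3 : (p - 1) * b + (rK + n) = rM + s) : rK + n + 1 = b + t := by
  obtain ⟨q, rfl⟩ : ∃ q, p = q + 1 := ⟨p - 1, by omega⟩
  obtain ⟨m, rfl⟩ : ∃ m, n = t + m := ⟨n - t, by omega⟩
  have hq : 0 < q := by omega
  simp only [Nat.add_sub_cancel, Nat.add_sub_cancel_left] at h2 h3
  subst h2
  -- `q * b = q * (rK + 1 + m)`
  have : q * b = q * (rK + 1 + m) := by nlinarith
  have hb : b = rK + 1 + m := Nat.eq_of_mul_eq_mul_left hq this
  omega

end final

end Fermat.Agent.S14.NotAllNormsCore
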