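/-
S14 / Z1 (alternative route, helper11): boundedness of differences of partial zeta functions of
ideal classes near `s = 1⁺`, from the class-counting theorem WITH power-saving error term
(`IdealCountError.exists_bound_card_norm_le_and_mk_eq`) and the Abel summation formula for
Dirichlet series (`LSeries_eq_mul_integral`).

Main results (`K` a number field, `partialZeta` from `Zeta/Defs.lean`):
* `abs_partialZeta_sub_le` : `∃ B, ∀ s ∈ Ioc 1 2, |ζ(s, C) - ζ(s, C')| ≤ B`;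
* `exists_bound_partialZeta_sub` : the same as `∀ᶠ s in 𝓝[>] 1`;
* `exists_bound_sum_mul_partialZeta` : `‖∑ C, c C * ζ(s, C)‖ ≤ B` if `∑ C, c C = 0`;
* `exists_bound_classCharSum`, `exists_bound_classCharSum_units` : nontrivial characters of the
  class group (values in `ℂ`, resp. `ℂˣ`).
-/
import Mathlib
import Fermat.Agent.S14.IdealCountError
import Fermat.Agent.S14.Zeta.Glue

set_option autoImplicit false

open Filter Topology NumberField Finset MeasureTheory
open scoped nonZeroDivisors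

namespace Fermat.Agent.S14.PartialZetaCount

open Fermat.Agent.S14.Zeta Fermat.Agent.S14.IdealCountError

variable (K : Type*) [Field K] [NumberField K]

/-- The exponent `1 - 1 / [K : ℚ]` of the error term. -/
noncomputable def expo : ℝ := 1 - (Module.finrank ℚ K : ℝ)⁻¹

theorem finrank_pos_real : (0 : ℝ) < (Module.finrank ℚ K : ℝ) :=
  Nat.cast_pos.mpr Module.finrank_pos

theorem one_le_finrank_real : (1 : ℝ) ≤ (Module.finrank ℚ K : ℝ) :=
  Nat.one_le_cast.mpr Module.finrank_pos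

theorem expo_nonneg : 0 ≤ expo K := by
  have h := inv_le_one_of_one_le₀ (one_le_finrank_real K)
  unfold expo
  linarith

theorem expo_lt_one : expo K < 1 := by
  have h := inv_pos.mpr (finrank_pos_real K)
  unfold expo
  linarith

/-- The partial sums of `classCount K C` are `kappa K * n + O(n ^ expo K)`. -/
theorem exists_bound_sum_classCount (C : ClassGroup (𝓞 K)) :
    ∃ B : ℝ, 0 ≤ B ∧ ∀ n : ℕ,
      |∑ k ∈ Icc 1 n, classCount K C k - kappa K * n| ≤ B * (n : ℝ) ^ expo K := by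
  obtain ⟨B, hB, h⟩ := exists_bound_card_norm_le_and_mk_eq K C
  refine ⟨B, hB, fun n => ?_⟩
  rcases Nat.eq_zero_or_pos n with rfl | hn
  · simp only [Nat.cast_zero, mul_zero, sub_zero]
    rw [show Icc 1 0 = ∅ from Finset.Icc_eq_empty (by norm_num), Finset.sum_empty, abs_zero]
    exact mul_nonneg hB (Real.rpow_nonneg le_rfl _)
  · have h1 : (1 : ℝ) ≤ (n : ℝ) := Nat.one_le_cast.mpr hn
    have := h (n : ℝ) h1
    rw [card_norm_le_and_mk_eq K C n] at this
    exact this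

/-- The partial sums of `classCount K C - classCount K C'` are `O(n ^ expo K)`. -/
theorem exists_bound_sum_classCount_sub (C C' : ClassGroup (𝓞 K)) :
    ∃ B : ℝ, 0 ≤ B ∧ ∀ n : ℕ,
      |∑ k ∈ Icc 1 n, (classCount K C k - classCount K C' k)| ≤ B * (n : ℝ) ^ expo K := by
  obtain ⟨B₁, hB₁, h₁⟩ := exists_bound_sum_classCount K C
  obtain ⟨B₂, hB₂, h₂⟩ := exists_bound_sum_classCount K C'
  refine ⟨B₁ + B₂, add_nonneg hB₁ hB₂, fun n => ?_⟩
  rw [Finset.sum_sub_distrib]
  have e : ∑ k ∈ Icc 1 n, classCount K C k - ∑ k ∈ Icc 1 n, classCount K C' k =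
      (∑ k ∈ Icc 1 n, classCount K C k - kappa K * n) -
        (∑ k ∈ Icc 1 n, classCount K C' k - kappa K * n) := by ring
  rw [e, add_mul]
  exact (abs_sub _ _).trans (add_le_add (h₁ n) (h₂ n))

/-- The difference of coefficient sequences, complex valued. -/
noncomputable def diffCoeff (C C' : ClassGroup (𝓞 K)) (n : ℕ) : ℂ :=
  ((classCount K C n : ℝ) : ℂ) - ((classCount K C' n : ℝ) : ℂ)

theorem sum_diffCoeff (C C' : ClassGroup (𝓞 K)) (n : ℕ) :
    ∑ k ∈ Icc 1 n, diffCoeff K C C' k =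
      ((∑ k ∈ Icc 1 n, (classCount K C k - classCount K C' k) : ℝ) : ℂ) := by
  simp only [diffCoeff]
  push_cast
  rfl

theorem lSeriesSummable_diffCoeff (C C' : ClassGroup (𝓞 K)) {s : ℝ} (hs : 1 < s) :
    LSeriesSummable (diffCoeff K C C') (s : ℂ) :=
  (lSeriesSummable_classCount K C hs).sub (lSeriesSummable_classCount K C' hs)

theorem lSeries_diffCoeff (C C' : ClassGroup (𝓞 K)) {s : ℝ} (hs : 1 < s) :
    LSeries (diffCoeff K C C') (s : ℂ) = ((partialZeta K C s - partialZeta K C' s : ℝ) : ℂ) := by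
  have := LSeries_sub (lSeriesSummable_classCount K C hs) (lSeriesSummable_classCount K C' hs)
  rw [lSeries_classCount K C hs, lSeries_classCount K C' hs] at this
  rw [Complex.ofReal_sub, ← this]
  rfl

theorem isBigO_sum_diffCoeff (C C' : ClassGroup (𝓞 K)) :
    (fun n : ℕ => ∑ k ∈ Icc 1 n, diffCoeff K C C' k) =O[atTop] fun n : ℕ => (n : ℝ) ^ expo K := by
  obtain ⟨B, _, h⟩ := exists_bound_sum_classCount_sub K C C'
  refine Asymptotics.IsBigO.of_bound B (Eventually.of_forall fun n => ?_)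
  rw [sum_diffCoeff, Complex.norm_real, Real.norm_eq_abs, Real.norm_eq_abs,
    abs_of_nonneg (Real.rpow_nonneg (Nat.cast_nonneg n) _)]
  exact h n

/-- Pointwise bound of the integrand in the Abel summation formula. -/
theorem norm_integrand_le {B : ℝ} (C C' : ClassGroup (𝓞 K))
    (h : ∀ n : ℕ,
      |∑ k ∈ Icc 1 n, (classCount K C k - classCount K C' k)| ≤ B * (n : ℝ) ^ expo K)
    (hB : 0 ≤ B) {s t : ℝ} (ht : 1 < t) :
    ‖(∑ k ∈ Icc 1 ⌊t⌋₊, diffCoeff K C C' k) * (t : ℂ) ^ (-((s : ℂ) + 1))‖ ≤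
      B * t ^ (expo K - s - 1) := by
  have ht0 : 0 < t := by linarith
  rw [norm_mul, sum_diffCoeff, Complex.norm_real, Real.norm_eq_abs,
    Complex.norm_cpow_eq_rpow_re_of_pos ht0]
  have hre : (-((s : ℂ) + 1)).re = -(s + 1) := by simp
  rw [hre]
  have h1 : |∑ k ∈ Icc 1 ⌊t⌋₊, (classCount K C k - classCount K C' k)| ≤ B * t ^ expo K := by
    refine (h _).trans (mul_le_mul_of_nonneg_left ?_ hB)
    exact Real.rpow_le_rpow (Nat.cast_nonneg _) (Nat.floor_le ht0.le) (expo_nonneg K)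
  have h2 : t ^ (expo K - s - 1) = t ^ expo K * t ^ (-(s + 1)) := by
    rw [← Real.rpow_add ht0]
    congr 1
    ring
  rw [h2, ← mul_assoc]
  exact mul_le_mul_of_nonneg_right h1 (Real.rpow_nonneg ht0.le _)

/-- **Main estimate.** `|ζ(s, C) - ζ(s, C')| ≤ s * B / (s - expo K)` for all `s > 1`. -/
theorem exists_bound_partialZeta_sub_aux (C C' : ClassGroup (𝓞 K)) :
    ∃ B : ℝ, 0 ≤ B ∧ ∀ s : ℝ, 1 < s →
      |partialZeta K C s - partialZeta K C' s| ≤ s * (B * (s - expo K)⁻¹) := by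
  obtain ⟨B, hB, h⟩ := exists_bound_sum_classCount_sub K C C'
  refine ⟨B, hB, fun s hs => ?_⟩
  have hr : expo K < ((s : ℂ)).re := by
    rw [Complex.ofReal_re]
    exact (expo_lt_one K).trans hs
  have hint := LSeries_eq_mul_integral (diffCoeff K C C') (expo_nonneg K) hr
    (lSeriesSummable_diffCoeff K C C' hs) (isBigO_sum_diffCoeff K C C')
  rw [lSeries_diffCoeff K C C' hs] at hint
  have ha : expo K - s - 1 < -1 := by linarith [expo_lt_one K]
  have hgi : IntegrableOn (fun t : ℝ => B * t ^ (expo K - s - 1)) (Set.Ioi 1) :=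
    (integrableOn_Ioi_rpow_of_lt ha zero_lt_one).const_mul B
  have hle : ‖∫ t in Set.Ioi (1 : ℝ),
      (∑ k ∈ Icc 1 ⌊t⌋₊, diffCoeff K C C' k) * (t : ℂ) ^ (-((s : ℂ) + 1))‖ ≤
      ∫ t in Set.Ioi (1 : ℝ), B * t ^ (expo K - s - 1) := by
    refine norm_integral_le_of_norm_le hgi ?_
    refine (ae_restrict_iff' measurableSet_Ioi).mpr (Eventually.of_forall fun t ht => ?_)
    exact norm_integrand_le K C C' h hB ht
  have hval : ∫ t in Set.Ioi (1 : ℝ), B * t ^ (expo K - s - 1) = B * (s - expo K)⁻¹ := by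
    rw [integral_const_mul, integral_Ioi_rpow_of_lt ha zero_lt_one, Real.one_rpow]
    congr 1
    rw [neg_div, ← one_div_neg_eq_neg_one_div, one_div]
    congr 1
    ring
  have hs0 : 0 ≤ s := by linarith
  calc |partialZeta K C s - partialZeta K C' s|
      = ‖((partialZeta K C s - partialZeta K C' s : ℝ) : ℂ)‖ := by
        rw [Complex.norm_real, Real.norm_eq_abs]
    _ = ‖(s : ℂ)‖ * ‖∫ t in Set.Ioi (1 : ℝ),
          (∑ k ∈ Icc 1 ⌊t⌋₊, diffCoeff K C C' k) * (t : ℂ) ^ (-((s : ℂ) + 1))‖ := by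
        rw [hint, norm_mul]
    _ ≤ s * (B * (s - expo K)⁻¹) := by
        rw [Complex.norm_real, Real.norm_eq_abs, abs_of_nonneg hs0]
        exact mul_le_mul_of_nonneg_left (hle.trans_eq hval) hs0

/-- `ζ(s, C) - ζ(s, C')` is bounded on `(1, 2]`. -/
theorem abs_partialZeta_sub_le (C C' : ClassGroup (𝓞 K)) :
    ∃ B : ℝ, 0 ≤ B ∧ ∀ s ∈ Set.Ioc (1 : ℝ) 2, |partialZeta K C s - partialZeta K C' s| ≤ B := by
  obtain ⟨B, hB, h⟩ := exists_bound_partialZeta_sub_aux K C C'
  have hd := finrank_pos_real K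
  refine ⟨2 * (B * (Module.finrank ℚ K : ℝ)), by positivity, fun s hs => ?_⟩
  refine (h s hs.1).trans ?_
  have h1 : (Module.finrank ℚ K : ℝ)⁻¹ ≤ s - expo K := by
    unfold expo
    linarith [hs.1]
  have h2 : (s - expo K)⁻¹ ≤ (Module.finrank ℚ K : ℝ) := by
    rw [inv_le_comm₀ (lt_of_lt_of_le (inv_pos.mpr hd) h1) hd]
    exact h1
  have h3 : B * (s - expo K)⁻¹ ≤ B * (Module.finrank ℚ K : ℝ) :=
    mul_le_mul_of_nonneg_left h2 hB
  have h4 : 0 ≤ B * (Module.finrank ℚ K : ℝ) := by positivity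
  have h5 : 0 ≤ s := by linarith [hs.1]
  calc s * (B * (s - expo K)⁻¹) ≤ s * (B * (Module.finrank ℚ K : ℝ)) :=
        mul_le_mul_of_nonneg_left h3 h5
    _ ≤ 2 * (B * (Module.finrank ℚ K : ℝ)) := mul_le_mul_of_nonneg_right hs.2 h4

/-- **Z1 final export (exact shape of helper2's announcement).** -/
theorem exists_bound_partialZeta_sub (C C' : ClassGroup (𝓞 K)) :
    ∃ B : ℝ, ∀ᶠ s in 𝓝[>] (1 : ℝ), |partialZeta K C s - partialZeta K C' s| ≤ B := by
  obtain ⟨B, _, h⟩ := abs_partialZeta_sub_le K C C'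
  refine ⟨B, ?_⟩
  filter_upwards [Ioc_mem_nhdsGT (show (1 : ℝ) < 2 by norm_num)] with s hs using h s hs

/-- Linear combinations of partial zeta functions with coefficients summing to `0` are bounded
on `(1, 2]`. -/
theorem exists_bound_sum_mul_partialZeta_Ioc (c : ClassGroup (𝓞 K) → ℂ) (hc : ∑ C, c C = 0) :
    ∃ B : ℝ, 0 ≤ B ∧ ∀ s ∈ Set.Ioc (1 : ℝ) 2,
      ‖∑ C : ClassGroup (𝓞 K), c C * ((partialZeta K C s : ℝ) : ℂ)‖ ≤ B := by
  choose B hB h using fun C : ClassGroup (𝓞 K) => abs_partialZeta_sub_le K C 1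
  refine ⟨∑ C, ‖c C‖ * B C, Finset.sum_nonneg fun C _ => mul_nonneg (norm_nonneg _) (hB C),
    fun s hs => ?_⟩
  have e : ∑ C : ClassGroup (𝓞 K), c C * ((partialZeta K C s : ℝ) : ℂ) =
      ∑ C : ClassGroup (𝓞 K), c C * ((partialZeta K C s - partialZeta K 1 s : ℝ) : ℂ) := by
    have : ∑ C : ClassGroup (𝓞 K), c C * ((partialZeta K C s - partialZeta K 1 s : ℝ) : ℂ) =
        ∑ C : ClassGroup (𝓞 K), c C * ((partialZeta K C s : ℝ) : ℂ) -
          (∑ C, c C) * ((partialZeta K 1 s : ℝ) : ℂ) := by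
      rw [Finset.sum_mul, ← Finset.sum_sub_distrib]
      refine Finset.sum_congr rfl fun C _ => ?_
      push_cast
      ring
    rw [this, hc, zero_mul, sub_zero]
  rw [e]
  refine (norm_sum_le _ _).trans (Finset.sum_le_sum fun C _ => ?_)
  rw [norm_mul, Complex.norm_real, Real.norm_eq_abs]
  exact mul_le_mul_of_nonneg_left (h C s hs) (norm_nonneg _)

theorem exists_bound_sum_mul_partialZeta (c : ClassGroup (𝓞 K) → ℂ) (hc : ∑ C, c C = 0) :
    ∃ B : ℝ, ∀ᶠ s in 𝓝[>] (1 : ℝ),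
      ‖∑ C : ClassGroup (𝓞 K), c C * ((partialZeta K C s : ℝ) : ℂ)‖ ≤ B := by
  obtain ⟨B, _, h⟩ := exists_bound_sum_mul_partialZeta_Ioc K c hc
  refine ⟨B, ?_⟩
  filter_upwards [Ioc_mem_nhdsGT (show (1 : ℝ) < 2 by norm_num)] with s hs using h s hs

/-- **Z1 final export (exact shape of helper2's announcement)**: the class-group `L`-value of a
nontrivial character is bounded as `s → 1⁺`. -/
theorem exists_bound_classCharSum (χ : ClassGroup (𝓞 K) →* ℂ) (hχ : χ ≠ 1) :
    ∃ B : ℝ, ∀ᶠ s in 𝓝[>] (1 : ℝ),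
      ‖∑ C : ClassGroup (𝓞 K), χ C * ((partialZeta K C s : ℝ) : ℂ)‖ ≤ B :=
  exists_bound_sum_mul_partialZeta K (fun C => χ C) (sum_hom_units_eq_zero χ hχ)

/-- The same for characters with values in `ℂˣ`. -/
theorem exists_bound_classCharSum_units (χ : ClassGroup (𝓞 K) →* ℂˣ) (hχ : χ ≠ 1) :
    ∃ B : ℝ, ∀ᶠ s in 𝓝[>] (1 : ℝ),
      ‖∑ C : ClassGroup (𝓞 K), ((χ C : ℂˣ) : ℂ) * ((partialZeta K C s : ℝ) : ℂ)‖ ≤ B := by
  refine exists_bound_classCharSum K ((Units.coeHom ℂ).comp χ) fun h => hχ ?_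
  ext C
  have := DFunLike.congr_fun h C
  simpa using this

end Fermat.Agent.S14.PartialZetaCount
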