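/-
S14 piece E.recipAsm (helper59): abstract index bookkeeping turning the three inputs
"crossing" (`ker art ⊆ P·N`), "first inequality" (`p ≤ [Cl : N Cl]`) and surjectivity of the Artin
map into "principal ideals die", and the mirror statement used for the auxiliary cyclotomic
extensions ("Theorem 1" direction).  Pure group theory, Mathlib only.
-/
import Mathlib

set_option autoImplicit false

namespace Fermat.Agent.S14.ReciprocityAsm

variable {I G C : Type*} [CommMonoid I] [Group G] [CommGroup C]

theorem pow_p_eq_one {p : ℕ} (hp : p.Prime) (hG : Nat.card G = p) (g : G) : g ^ p = 1 := by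
  have : Finite G := Nat.finite_of_card_ne_zero (by rw [hG]; exact hp.ne_zero)
  rw [← hG]
  exact pow_card_eq_one'

/-- If `art a = art b` then `cl a` and `cl b` agree modulo `N`, provided `p`-th powers lie in `N`
and the kernel of `art` maps into `N`. -/
theorem cl_div_mem_of_art_eq {p : ℕ} (hp : p.Prime) (hG : Nat.card G = p)
    (art : I →* G) (cl : I →* C) (N : Subgroup C) (hpow : ∀ b : I, cl b ^ p ∈ N)
    (hcross : ∀ a : I, art a = 1 → cl a ∈ N) {a b : I} (hab : art a = art b) :
    cl a / cl b ∈ N := by
  have hp1 : 1 ≤ p := hp.one_lt.le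
  have h1 : art (a * b ^ (p - 1)) = 1 := by
    rw [map_mul, map_pow, hab, ← pow_succ', Nat.sub_add_cancel hp1]
    exact pow_p_eq_one hp hG _
  have h2 := hcross _ h1
  rw [map_mul, map_pow] at h2
  have h3 : cl a / cl b = cl a * cl b ^ (p - 1) * (cl b ^ p)⁻¹ := by
    have : cl b ^ p = cl b ^ (p - 1) * cl b := by rw [← pow_succ, Nat.sub_add_cancel hp1]
    rw [this, div_eq_mul_inv, mul_inv, mul_assoc, mul_inv_cancel_left]
  rw [h3]
  exact N.mul_mem h2 (N.inv_mem (hpow b))

/-- The comparison map `G → C ⧸ N`, `art a ↦ [cl a]`. -/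
noncomputable def compMap (art : I →* G) (hart : Function.Surjective art) (cl : I →* C)
    (N : Subgroup C) : G → C ⧸ N :=
  fun g => QuotientGroup.mk (cl (Function.surjInv hart g))

theorem compMap_art {p : ℕ} (hp : p.Prime) (hG : Nat.card G = p)
    (art : I →* G) (hart : Function.Surjective art) (cl : I →* C) (N : Subgroup C)
    (hpow : ∀ b : I, cl b ^ p ∈ N) (hcross : ∀ a : I, art a = 1 → cl a ∈ N) (a : I) :
    compMap art hart cl N (art a) = QuotientGroup.mk (cl a) := by
  unfold compMap
  rw [QuotientGroup.eq, ← div_eq_inv_mul]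
  apply cl_div_mem_of_art_eq hp hG art cl N hpow hcross
  rw [Function.surjInv_eq hart]

theorem compMap_surjective {p : ℕ} (hp : p.Prime) (hG : Nat.card G = p)
    (art : I →* G) (hart : Function.Surjective art) (cl : I →* C)
    (hcl : Function.Surjective cl) (N : Subgroup C)
    (hpow : ∀ b : I, cl b ^ p ∈ N) (hcross : ∀ a : I, art a = 1 → cl a ∈ N) :
    Function.Surjective (compMap art hart cl N) := by
  intro y
  obtain ⟨c, rfl⟩ := QuotientGroup.mk_surjective y
  obtain ⟨a, rfl⟩ := hcl c
  exact ⟨art a, compMap_art hp hG art hart cl N hpow hcross a⟩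

/-- **Second inequality from the crossing argument**: `[C : N] ≤ p`, and the index is nonzero. -/
theorem index_le {p : ℕ} (hp : p.Prime) (hG : Nat.card G = p)
    (art : I →* G) (hart : Function.Surjective art) (cl : I →* C)
    (hcl : Function.Surjective cl) (N : Subgroup C)
    (hpow : ∀ b : I, cl b ^ p ∈ N) (hcross : ∀ a : I, art a = 1 → cl a ∈ N) :
    N.index ≤ p ∧ N.index ≠ 0 := by
  have hfinG : Finite G := Nat.finite_of_card_ne_zero (by rw [hG]; exact hp.ne_zero)
  have hsurj := compMap_surjective hp hG art hart cl hcl N hpow hcross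
  have hfinQ : Finite (C ⧸ N) := Finite.of_surjective _ hsurj
  refine ⟨?_, ?_⟩
  · rw [Subgroup.index_eq_card, ← hG]
    exact Nat.card_le_card_of_surjective _ hsurj
  · rw [Subgroup.index_eq_card]
    exact Nat.card_pos.ne'

/-- **Reciprocity assembly**: given the crossing statement `ker art ⊆ cl⁻¹ N` and the first
inequality `p ≤ [C : N]`, every ideal whose class lies in the norm subgroup `N` has trivial Artin
symbol. -/
theorem art_eq_one_of_cl_mem {p : ℕ} (hp : p.Prime) (hG : Nat.card G = p)
    (art : I →* G) (hart : Function.Surjective art) (cl : I →* C)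
    (hcl : Function.Surjective cl) (N : Subgroup C)
    (hpow : ∀ b : I, cl b ^ p ∈ N) (hcross : ∀ a : I, art a = 1 → cl a ∈ N)
    (hfirst : p ≤ N.index) {a : I} (ha : cl a ∈ N) : art a = 1 := by
  have hfinG : Finite G := Nat.finite_of_card_ne_zero (by rw [hG]; exact hp.ne_zero)
  have hsurj := compMap_surjective hp hG art hart cl hcl N hpow hcross
  have hbij : Function.Bijective (compMap art hart cl N) := by
    apply hsurj.bijective_of_nat_card_le
    rw [hG, ← Subgroup.index_eq_card]
    exact hfirst
  apply hbij.1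
  rw [compMap_art hp hG art hart cl N hpow hcross a, ← map_one art,
    compMap_art hp hG art hart cl N hpow hcross 1, map_one, QuotientGroup.eq, mul_one]
  exact N.inv_mem ha

/-- Principal ideals (trivial class) die. -/
theorem art_eq_one_of_cl_eq_one {p : ℕ} (hp : p.Prime) (hG : Nat.card G = p)
    (art : I →* G) (hart : Function.Surjective art) (cl : I →* C)
    (hcl : Function.Surjective cl) (N : Subgroup C)
    (hpow : ∀ b : I, cl b ^ p ∈ N) (hcross : ∀ a : I, art a = 1 → cl a ∈ N)
    (hfirst : p ≤ N.index) {a : I} (ha : cl a = 1) : art a = 1 :=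
  art_eq_one_of_cl_mem hp hG art hart cl hcl N hpow hcross hfirst (by rw [ha]; exact N.one_mem)

theorem index_eq {p : ℕ} (hp : p.Prime) (hG : Nat.card G = p)
    (art : I →* G) (hart : Function.Surjective art) (cl : I →* C)
    (hcl : Function.Surjective cl) (N : Subgroup C)
    (hpow : ∀ b : I, cl b ^ p ∈ N) (hcross : ∀ a : I, art a = 1 → cl a ∈ N)
    (hfirst : p ≤ N.index) : N.index = p :=
  le_antisymm (index_le hp hG art hart cl hcl N hpow hcross).1 hfirst

end Fermat.Agent.S14.ReciprocityAsm
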