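import Fermat.Agent.S14.AllNormsDescent

/-!
# The multiplicity formula for relative norms in an unramified cyclic extension

For `M/K` Galois with group generated by `σ` of order `p = [M:K]`, unramified at every prime,
`J ≠ ⊥` an ideal of `𝓞 M` and `v` a prime of `M`:
`cnt (primeBelow v) (relNorm J) = ∑ i < p, cnt (σ^i v) J`   (`relNorm_count`).
Together with `AllNormsDescent.allNorms_of_relNorm_count` this gives row B.inst2
(`allNorms_of_ideals`).
-/

set_option autoImplicit false
set_option linter.unusedSectionVars false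
set_option linter.style.haveILetI false

open NumberField IsDedekindDomain Fermat.Agent.S14.NormIndexConcrete Fermat.Agent.S14.GalPrimes
  Fermat.Agent.S14.AllNormsDescent
open scoped Pointwise

namespace Fermat.Agent.S14.RelNormCount

/-! ### more on multiplicities -/

section count

variable {R : Type*} [CommRing R] [IsDedekindDomain R]

theorem cnt_top (w : HeightOneSpectrum R) : cnt w (⊤ : Ideal R) = 0 := by
  rw [cnt, ← Ideal.one_eq_top, Associates.mk_one, Associates.factors_one,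
    Associates.count_zero w.associates_irreducible]

theorem cnt_prime (w w' : HeightOneSpectrum R) [Decidable (w' = w)] :
    cnt w w'.asIdeal = if w' = w then 1 else 0 := by
  have h := FractionalIdeal.count_maximal (FractionRing R) w w'
  rw [count_coe_eq_cnt w w'.ne_bot] at h
  split_ifs with hw
  · rw [if_pos hw] at h
    exact_mod_cast h
  · rw [if_neg hw] at h
    exact_mod_cast h

theorem cnt_pow (w : HeightOneSpectrum R) {I : Ideal R} (hI : I ≠ ⊥) (n : ℕ) :
    cnt w (I ^ n) = n * cnt w I := by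
  have h := FractionalIdeal.count_pow (FractionRing R) w n
    (I : FractionalIdeal (nonZeroDivisors R) (FractionRing R))
  rw [← FractionalIdeal.coeIdeal_pow, count_coe_eq_cnt w (pow_ne_zero n hI),
    count_coe_eq_cnt w hI] at h
  exact_mod_cast h

end count

section galois

variable (K M : Type) [Field K] [NumberField K] [Field M] [NumberField M] [Algebra K M]
  [IsGalois K M]

theorem primePerm_eq_iff (τ : M ≃ₐ[K] M) (v Q : HeightOneSpectrum (𝓞 M)) :
    primePerm K M τ v = Q ↔ τ • v.asIdeal = Q.asIdeal := by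
  constructor
  · intro h
    rw [← h, primePerm_asIdeal]
    rfl
  · intro h
    ext1
    rw [primePerm_asIdeal, ← h]
    rfl

/-- a sum over the powers of a generator is a sum over the group. -/
theorem sum_range_pow (σ : M ≃ₐ[K] M) (hσ : ∀ τ : M ≃ₐ[K] M, τ ∈ Subgroup.zpowers σ)
    (F : (M ≃ₐ[K] M) → ℤ) :
    ∑ i ∈ Finset.range (Nat.card (M ≃ₐ[K] M)), F (σ ^ i) = ∑ τ : M ≃ₐ[K] M, F τ := by
  classical
  have hord : orderOf σ = Nat.card (M ≃ₐ[K] M) := orderOf_eq_card_of_forall_mem_zpowers hσ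
  have hinj : Set.InjOn (fun i : ℕ => σ ^ i) (Finset.range (Nat.card (M ≃ₐ[K] M)) : Set ℕ) := by
    have := pow_injOn_Iio_orderOf (x := σ)
    rw [hord] at this
    intro a ha b hb hab
    exact this (by simpa using ha) (by simpa using hb) hab
  have himage : (Finset.range (Nat.card (M ≃ₐ[K] M))).image (fun i : ℕ => σ ^ i) =
      Finset.univ := by
    apply Finset.eq_univ_of_card
    rw [Finset.card_image_of_injOn hinj, Finset.card_range, Nat.card_eq_fintype_card]
  rw [← himage, Finset.sum_image hinj]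

/-- the number of `τ` with `τ v = Q` is the order of the decomposition group of `v`, for `Q` above
the same prime of `K`. -/
theorem card_primePerm_eq (v Q : HeightOneSpectrum (𝓞 M))
    (h : primeBelow K M v = primeBelow K M Q) :
    Nat.card {τ : M ≃ₐ[K] M // primePerm K M τ v = Q} =
      Nat.card (MulAction.stabilizer (M ≃ₐ[K] M) v.asIdeal) := by
  obtain ⟨τ₀, hτ₀⟩ := exists_primePerm_eq K M h
  have hτ₀' : τ₀ • v.asIdeal = Q.asIdeal := (primePerm_eq_iff K M τ₀ v Q).mp hτ₀
  refine Nat.card_congr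
    { toFun := fun τ => ⟨τ₀⁻¹ * τ.1, ?_⟩
      invFun := fun g => ⟨τ₀ * g.1, ?_⟩
      left_inv := fun τ => by simp
      right_inv := fun g => by simp }
  · rw [MulAction.mem_stabilizer_iff, mul_smul, (primePerm_eq_iff K M τ.1 v Q).mp τ.2, ← hτ₀',
      inv_smul_smul]
  · rw [primePerm_eq_iff, mul_smul, MulAction.mem_stabilizer_iff.mp g.2, hτ₀']

/-- order of the decomposition group at an unramified prime = inertia degree. -/
theorem card_stabilizer_of_unramified (v : HeightOneSpectrum (𝓞 M))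
    (he : v.asIdeal.ramificationIdx (𝓞 K) = 1) :
    Nat.card (MulAction.stabilizer (M ≃ₐ[K] M) v.asIdeal) = v.asIdeal.inertiaDeg (𝓞 K) := by
  haveI := v.isPrime
  haveI := (primeBelow K M v).isPrime
  rw [Ideal.card_stabilizer_eq (G := M ≃ₐ[K] M) (primeBelow K M v).asIdeal v.asIdeal,
    Ideal.ramificationIdxIn_eq_ramificationIdx (primeBelow K M v).asIdeal v.asIdeal (M ≃ₐ[K] M),
    Ideal.inertiaDegIn_eq_inertiaDeg (primeBelow K M v).asIdeal v.asIdeal (M ≃ₐ[K] M), he,
    one_mul]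

/-- the relative norm of a prime. -/
theorem relNorm_prime (v : HeightOneSpectrum (𝓞 M)) :
    Ideal.relNorm (𝓞 K) v.asIdeal =
      (primeBelow K M v).asIdeal ^ v.asIdeal.inertiaDeg (𝓞 K) := by
  haveI := v.isMaximal
  haveI := (primeBelow K M v).isMaximal
  exact Ideal.relNorm_eq_pow_of_isMaximal v.asIdeal (primeBelow K M v).asIdeal

/-- the prime case of the multiplicity formula. -/
theorem relNorm_count_prime (σ : M ≃ₐ[K] M) (hσ : ∀ τ : M ≃ₐ[K] M, τ ∈ Subgroup.zpowers σ)
    (hunr : ∀ v : HeightOneSpectrum (𝓞 M), v.asIdeal.ramificationIdx (𝓞 K) = 1)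
    (Q v : HeightOneSpectrum (𝓞 M)) :
    (cnt (primeBelow K M v) (Ideal.relNorm (𝓞 K) Q.asIdeal) : ℤ) =
      ∑ i ∈ Finset.range (Nat.card (M ≃ₐ[K] M)), (cnt ((primePerm K M σ ^ i) v) Q.asIdeal : ℤ) := by
  classical
  -- the right-hand side as a count over the group
  have hR : ∑ i ∈ Finset.range (Nat.card (M ≃ₐ[K] M)),
      (cnt ((primePerm K M σ ^ i) v) Q.asIdeal : ℤ) =
      (Nat.card {τ : M ≃ₐ[K] M // primePerm K M τ v = Q} : ℤ) := by
    let F : (M ≃ₐ[K] M) → ℤ := fun τ => if primePerm K M τ v = Q then (1 : ℤ) else 0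
    have h1 : ∀ i : ℕ, (cnt ((primePerm K M σ ^ i) v) Q.asIdeal : ℤ) = F (σ ^ i) := by
      intro i
      rw [cnt_prime]
      simp only [F]
      rw [primePerm_pow]
      by_cases hQ : Q = (primePerm K M σ ^ i) v
      · rw [if_pos hQ, if_pos hQ.symm]; rfl
      · rw [if_neg hQ, if_neg (fun h => hQ h.symm)]; rfl
    have h2 := sum_range_pow K M σ hσ F
    rw [Finset.sum_congr rfl (fun i _ => h1 i), h2]
    simp only [F]
    rw [Finset.sum_boole, Nat.card_eq_fintype_card, Fintype.card_subtype]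
  rw [hR, relNorm_prime]
  by_cases hw : primeBelow K M Q = primeBelow K M v
  · rw [cnt_pow _ (primeBelow K M Q).ne_bot, cnt_prime, if_pos hw, mul_one,
      card_primePerm_eq K M v Q hw.symm, card_stabilizer_of_unramified K M v (hunr v)]
    -- inertia degrees of conjugate primes agree
    haveI := v.isPrime
    haveI := Q.isPrime
    haveI := (primeBelow K M v).isPrime
    haveI : Q.asIdeal.LiesOver (primeBelow K M v).asIdeal := hw ▸ primeBelow_liesOver K M Q
    rw [← Ideal.inertiaDegIn_eq_inertiaDeg (primeBelow K M v).asIdeal v.asIdeal (M ≃ₐ[K] M),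
      ← Ideal.inertiaDegIn_eq_inertiaDeg (primeBelow K M v).asIdeal Q.asIdeal (M ≃ₐ[K] M)]
  · rw [cnt_pow _ (primeBelow K M Q).ne_bot, cnt_prime, if_neg hw, mul_zero]
    have hempty : IsEmpty {τ : M ≃ₐ[K] M // primePerm K M τ v = Q} := by
      refine ⟨fun τ => hw ?_⟩
      rw [← τ.2, primeBelow_primePerm]
    rw [Nat.card_of_isEmpty]

/-- **the multiplicity formula**. -/
theorem relNorm_count (σ : M ≃ₐ[K] M) (hσ : ∀ τ : M ≃ₐ[K] M, τ ∈ Subgroup.zpowers σ)
    (hunr : ∀ v : HeightOneSpectrum (𝓞 M), v.asIdeal.ramificationIdx (𝓞 K) = 1)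
    (J : Ideal (𝓞 M)) (hJ : J ≠ ⊥) (v : HeightOneSpectrum (𝓞 M)) :
    (cnt (primeBelow K M v) (Ideal.relNorm (𝓞 K) J) : ℤ) =
      ∑ i ∈ Finset.range (Nat.card (M ≃ₐ[K] M)), (cnt ((primePerm K M σ ^ i) v) J : ℤ) := by
  revert hJ
  induction J using UniqueFactorizationMonoid.induction_on_prime with
  | h₁ => intro h; exact absurd rfl h
  | h₂ x hx =>
    intro _
    have hx' : x = ⊤ := Ideal.isUnit_iff.mp hx
    subst hx'
    rw [Ideal.relNorm_top, cnt_top]
    simp [cnt_top]
  | h₃ a P ha hP ih =>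
    intro _
    have hPprime : P.IsPrime := Ideal.isPrime_of_prime hP
    have hP0 : P ≠ ⊥ := hP.ne_zero
    let Q : HeightOneSpectrum (𝓞 M) := ⟨P, hPprime, hP0⟩
    have hNP : Ideal.relNorm (𝓞 K) P ≠ ⊥ := fun h => hP0 (Ideal.relNorm_eq_bot_iff.mp h)
    have hNa : Ideal.relNorm (𝓞 K) a ≠ ⊥ := fun h => ha (Ideal.relNorm_eq_bot_iff.mp h)
    rw [map_mul, cnt_mul _ hNP hNa]
    have h1 : ∀ i : ℕ, (cnt ((primePerm K M σ ^ i) v) (P * a) : ℤ) =
        (cnt ((primePerm K M σ ^ i) v) P : ℤ) + (cnt ((primePerm K M σ ^ i) v) a : ℤ) := by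
      intro i
      rw [cnt_mul _ hP0 ha]
      push_cast
      rfl
    rw [Finset.sum_congr rfl (fun i _ => h1 i), Finset.sum_add_distrib, ← ih ha,
      ← relNorm_count_prime K M σ hσ hunr Q v]
    push_cast
    rfl

/-- **Row B.inst2 (`AllNormsOfIdeals`)**: for `M/K` Galois with group generated by `σ`, of order
`p`, unramified at every prime (`Ideal.ramificationIdx` form), the ideal-level hypothesis gives
`Datum.AllNorms` on valuations. -/
theorem allNorms_of_ideals (σ : M ≃ₐ[K] M) (hσ : ∀ τ : M ≃ₐ[K] M, τ ∈ Subgroup.zpowers σ)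
    (p : ℕ) (hcard : Nat.card (M ≃ₐ[K] M) = p)
    (hunr : ∀ v : HeightOneSpectrum (𝓞 M), v.asIdeal.ramificationIdx (𝓞 K) = 1)
    (Hyp : ∀ I : Ideal (𝓞 K), I ≠ ⊥ → ∃ (a b : 𝓞 K) (J : Ideal (𝓞 M)), a ≠ 0 ∧ b ≠ 0 ∧ J ≠ ⊥ ∧
      Ideal.span {a} * I = Ideal.span {b} * Ideal.relNorm (𝓞 K) J)
    (c : HeightOneSpectrum (𝓞 M) →₀ ℤ) (hc : ∀ v, c (primePerm K M σ v) = c v) :
    ∃ β : Kˣ, ∃ d : HeightOneSpectrum (𝓞 M) →₀ ℤ, ∀ v,
      c v = ordM M v (Additive.ofMul (Units.map (algebraMap K M : K →* M) β)) +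
        ∑ i ∈ Finset.range p, d ((primePerm K M σ ^ i) v) := by
  subst hcard
  exact allNorms_of_relNorm_count K M σ hσ _
    (fun v β => ordM_algebraMap_of_unramified' K M v (hunr v) β)
    (fun J hJ v => relNorm_count K M σ hσ hunr J hJ v) Hyp c hc

end galois

end Fermat.Agent.S14.RelNormCount
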