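import Mathlib
import Fermat.Agent.S14.IndexInequality
import Fermat.Agent.S14.IndexAux
import Fermat.Agent.S14.NormClassesDegreeOne
import Fermat.Agent.S14.PartialZeta
import Fermat.Agent.S14.CrossingBlocks

/-!
# S14 / Z2: the second (analytic) inequality at modulus one — unconditional

`secondIneq : CrossingBlocks.SecondIneq`: for an extension `E'/E` of number fields, a subgroup
`H` of the class group of `E` containing the classes of the primes below all primes of `E'` of
prime absolute norm `> N₀` has index at most `[E' : E]`.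

Inputs: Z1 (`Zeta.exists_bound_partialZeta_sub`, bounded differences of partial zeta functions),
the Euler product over prime ideals (`EulerIdeal`), the character product bound (`CharProd`),
`IndexInequality` (the `L`-series of class group characters) and `IndexAux` (bad primes).
-/

set_option autoImplicit false

namespace Fermat.Agent.S14.SecondIneqProof

open NumberField IsDedekindDomain Ideal Filter Topology nonZeroDivisors
open Fermat.Agent.S14.Zeta Fermat.Agent.S14.EulerIdeal Fermat.Agent.S14.CharProd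
open Fermat.Agent.S14.IndexInequality

attribute [local instance] neZero_exponent fintypeChar

section Adapter

variable (E : Type*) [Field E] [NumberField E]

/-- `ζ_E` is antitone on `(1, ∞)`. -/
lemma zetaR_anti {u s : ℝ} (hu : 1 < u) (hus : u ≤ s) : zetaR E s ≤ zetaR E u := by
  unfold zetaR
  refine Summable.tsum_le_tsum (fun I => ?_) (summable_zetaR E (hu.trans_le hus))
    (summable_zetaR E hu)
  apply Real.rpow_le_rpow_of_exponent_le
  · have : absNorm (I : Ideal (𝓞 E)) ≠ 0 := by
      rw [Ne, Ideal.absNorm_eq_zero_iff]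
      exact mem_nonZeroDivisors_iff_ne_zero.mp I.2
    exact_mod_cast Nat.one_le_iff_ne_zero.mpr this
  · linarith

lemma partialZeta_le_zetaR (C : ClassGroup (𝓞 E)) {s : ℝ} (hs : 1 < s) :
    partialZeta E C s ≤ zetaR E s := by
  rw [zetaR_eq_sum_partialZeta E hs]
  exact Finset.single_le_sum (fun C _ => partialZeta_nonneg E C s) (Finset.mem_univ C)

/-- Z1 in the form used by `IndexInequality`: a bound on the whole interval `(1, 2]`. -/
theorem exists_bound_partialZeta_sub_Ioc (C C' : ClassGroup (𝓞 E)) :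
    ∃ B : ℝ, ∀ s : ℝ, 1 < s → s ≤ 2 → |partialZeta E C s - partialZeta E C' s| ≤ B := by
  obtain ⟨B, hB⟩ := exists_bound_partialZeta_sub E C C'
  obtain ⟨u, hu, hsub⟩ := mem_nhdsGT_iff_exists_Ioo_subset.mp hB
  have hu1 : (1 : ℝ) < u := hu
  refine ⟨max B (zetaR E u), fun s hs1 _ => ?_⟩
  by_cases hsu : s < u
  · exact (hsub ⟨hs1, hsu⟩).trans (le_max_left _ _)
  · rw [not_lt] at hsu
    refine le_trans ?_ (le_max_right _ _)
    have h1 := partialZeta_le_zetaR E C hs1
    have h2 := partialZeta_le_zetaR E C' hs1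
    have h3 := partialZeta_nonneg E C s
    have h4 := partialZeta_nonneg E C' s
    have h5 := zetaR_anti E hu1 hsu
    rw [abs_le]
    constructor <;> linarith

end Adapter

section General

variable (E E' : Type*) [Field E] [NumberField E] [Field E'] [NumberField E'] [Algebra E E']
  (H : Subgroup (ClassGroup (𝓞 E)))

open scoped Classical in
/-- The key inequality between `ζ_{E'}` and the product of the `L`-series for a general notion
of "good" prime of `E'` (relative degree one, class of the prime below in `H`) whose complement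
contributes a bounded factor `C₀` to the Euler product. -/
theorem zetaR_pow_le_of_bad_bound {s : ℝ} (hs1 : 1 < s)
    (good : HeightOneSpectrum (𝓞 E') → Prop) (C₀ : ℝ) (hC₀pos : 0 ≤ C₀)
    (hgoodH : ∀ w, good w → ClassGroup.mk0 (pr (w.under (𝓞 E))) ∈ H)
    (hgood1 : ∀ w, good w → w.asIdeal.inertiaDeg (𝓞 E) = 1)
    (hbad : ∀ u : Finset (HeightOneSpectrum (𝓞 E')), (∀ w ∈ u, ¬ good w) →
      ∏ w ∈ u, (1 - normPow E' s (pr w))⁻¹ ≤ C₀) :
    zetaR E' s ^ H.index ≤ C₀ ^ H.index *
      ‖∏ ψ : (ClassGroup (𝓞 E) ⧸ H) →* ℂˣ, Lfun (liftChar H ψ) s‖ ^ (Module.finrank E E') := by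
  refine le_of_tendsto' ((tendsto_euler_zetaR E' hs1).pow H.index) (fun T => ?_)
  have hfac0 : ∀ w : HeightOneSpectrum (𝓞 E'), 0 ≤ (1 - normPow E' s (pr w))⁻¹ := by
    intro w
    have := normPow_pr_le_half E' hs1.le w
    exact inv_nonneg.mpr (by linarith)
  have hfacE : ∀ v : HeightOneSpectrum (𝓞 E), 0 ≤ (1 - normPow E s (pr v))⁻¹ := by
    intro v
    have := normPow_pr_le_half E hs1.le v
    exact inv_nonneg.mpr (by linarith)
  have hb := hbad (T.filter (fun w => ¬ good w)) (fun w hw => (Finset.mem_filter.mp hw).2)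
  have hg := prod_good_le E E' hs1.le (T.filter good)
    (fun w hw => hgood1 w (Finset.mem_filter.mp hw).2)
  set S := (T.filter good).image (fun w => w.under (𝓞 E)) with hS
  have hSH : ∀ v ∈ S, ClassGroup.mk0 (pr v) ∈ H := by
    intro v hv
    obtain ⟨w, hw, rfl⟩ := Finset.mem_image.mp hv
    exact hgoodH w (Finset.mem_filter.mp hw).2
  have hL := prod_le_norm_prod_Lfun H hs1 S hSH
  have h1 : ∏ w ∈ T, (1 - normPow E' s (pr w))⁻¹ ≤
      (∏ v ∈ S, ((1 - normPow E s (pr v))⁻¹) ^ (Module.finrank E E')) * C₀ := by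
    rw [← Finset.prod_filter_mul_prod_filter_not T good]
    exact mul_le_mul hg hb (Finset.prod_nonneg (fun w _ => hfac0 w))
      (Finset.prod_nonneg (fun v _ => pow_nonneg (hfacE v) _))
  calc (∏ w ∈ T, (1 - normPow E' s (pr w))⁻¹) ^ H.index
      ≤ ((∏ v ∈ S, ((1 - normPow E s (pr v))⁻¹) ^ (Module.finrank E E')) * C₀) ^ H.index :=
        pow_le_pow_left₀ (Finset.prod_nonneg (fun w _ => hfac0 w)) h1 _
    _ = C₀ ^ H.index *
        (∏ v ∈ S, ((1 - normPow E s (pr v))⁻¹) ^ H.index) ^ (Module.finrank E E') := by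
        rw [mul_pow, Finset.prod_pow, Finset.prod_pow, ← pow_mul, ← pow_mul,
          mul_comm (Module.finrank E E') H.index, mul_comm]
    _ ≤ C₀ ^ H.index *
        ‖∏ ψ : (ClassGroup (𝓞 E) ⧸ H) →* ℂˣ, Lfun (liftChar H ψ) s‖ ^ (Module.finrank E E') := by
        refine mul_le_mul_of_nonneg_left ?_ (pow_nonneg hC₀pos _)
        exact pow_le_pow_left₀ (Finset.prod_nonneg (fun v _ => pow_nonneg (hfacE v) _)) hL _

/-- Comparison of the orders of the poles at `s = 1`. -/
theorem index_le_of_pow_le (C₀ : ℝ) (hC₀pos : 0 ≤ C₀)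
    (hmain : ∀ s : ℝ, 1 < s → s ≤ 2 → zetaR E' s ^ H.index ≤ C₀ ^ H.index *
      ‖∏ ψ : (ClassGroup (𝓞 E) ⧸ H) →* ℂˣ, Lfun (liftChar H ψ) s‖ ^ (Module.finrank E E')) :
    H.index ≤ Module.finrank E E' := by
  by_contra hlt
  rw [not_le] at hlt
  obtain ⟨B', hB'0, hB'⟩ := exists_bound_prod_Lfun E H (exists_bound_partialZeta_sub_Ioc E)
  set n := Module.finrank E E' with hn
  set h := H.index with hh
  set K : ℝ := C₀ ^ h * B' ^ n with hK
  have hineq : ∀ s : ℝ, 1 < s → s ≤ 2 → zetaR E' s ^ h ≤ K * zetaR E s ^ n := by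
    intro s hs1 hs2
    have h1 := hmain s hs1 hs2
    have h2 := hB' s hs1 hs2
    calc zetaR E' s ^ h ≤ C₀ ^ h *
          ‖∏ ψ : (ClassGroup (𝓞 E) ⧸ H) →* ℂˣ, Lfun (liftChar H ψ) s‖ ^ n := h1
      _ ≤ C₀ ^ h * (zetaR E s * B') ^ n := by
          refine mul_le_mul_of_nonneg_left ?_ (pow_nonneg hC₀pos _)
          exact pow_le_pow_left₀ (norm_nonneg _) h2 _
      _ = K * zetaR E s ^ n := by rw [hK, mul_pow]; ring
  have hρ' := tendsto_sub_one_mul_zetaR E'
  have hρ := tendsto_sub_one_mul_zetaR E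
  have hF : Tendsto (fun s : ℝ => ((s - 1) * zetaR E' s) ^ h) (𝓝[>] 1)
      (𝓝 (dedekindZeta_residue E' ^ h)) := hρ'.pow h
  have hpow : Tendsto (fun s : ℝ => (s - 1) ^ (h - n)) (𝓝[>] 1) (𝓝 0) := by
    have hc : Continuous (fun s : ℝ => (s - 1) ^ (h - n)) := by fun_prop
    have h0 : ((1 : ℝ) - 1) ^ (h - n) = 0 := by
      rw [sub_self, zero_pow (by omega)]
    have := hc.tendsto 1
    rw [h0] at this
    exact this.mono_left nhdsWithin_le_nhds
  have hG : Tendsto (fun s : ℝ => K * ((s - 1) * zetaR E s) ^ n * (s - 1) ^ (h - n)) (𝓝[>] 1)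
      (𝓝 (K * dedekindZeta_residue E ^ n * 0)) :=
    ((hρ.pow n).const_mul K).mul hpow
  have hev : ∀ᶠ s : ℝ in 𝓝[>] 1, ((s - 1) * zetaR E' s) ^ h ≤
      K * ((s - 1) * zetaR E s) ^ n * (s - 1) ^ (h - n) := by
    filter_upwards [Ioc_mem_nhdsGT (show (1 : ℝ) < 2 by norm_num)] with s hs
    have hs0 : 0 ≤ s - 1 := by linarith [hs.1]
    have h3 := hineq s hs.1 hs.2
    have h4 : (s - 1) ^ h = (s - 1) ^ n * (s - 1) ^ (h - n) := by
      rw [← pow_add]
      congr 1
      omega
    calc ((s - 1) * zetaR E' s) ^ h = (s - 1) ^ h * zetaR E' s ^ h := mul_pow _ _ _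
      _ ≤ (s - 1) ^ h * (K * zetaR E s ^ n) :=
          mul_le_mul_of_nonneg_left h3 (pow_nonneg hs0 _)
      _ = K * ((s - 1) * zetaR E s) ^ n * (s - 1) ^ (h - n) := by
          rw [h4, mul_pow]; ring
  have hle := le_of_tendsto_of_tendsto hF hG hev
  rw [mul_zero] at hle
  have hpos : 0 < dedekindZeta_residue E' ^ h := pow_pos (dedekindZeta_residue_pos E') _
  linarith

end General

section Final

open Fermat.Agent.S14.CrossingBlocks

/-- **Z2, unconditional**: the second (analytic) inequality at modulus one. -/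
theorem secondIneq : SecondIneq := by
  intro E E' _ _ _ _ _ H N₀ hQ
  classical
  -- finitely many primes of norm `≤ N₀`
  have hfin : {w : HeightOneSpectrum (𝓞 E') | absNorm w.asIdeal ≤ N₀}.Finite := by
    have h := Ideal.finite_setOfPred_absNorm_le (S := 𝓞 E') N₀
    exact Set.Finite.preimage (f := fun w : HeightOneSpectrum (𝓞 E') => w.asIdeal)
      (fun w _ w' _ h => HeightOneSpectrum.ext h) h
  obtain ⟨Cbad, hCbad⟩ := IndexAux.exists_bound_prod_nonprime E'
  have hCbad1 : 1 ≤ Cbad := by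
    have := hCbad ∅ (by simp) 1 le_rfl
    simpa using this
  set good : HeightOneSpectrum (𝓞 E') → Prop :=
    fun w => (absNorm w.asIdeal).Prime ∧ N₀ < absNorm w.asIdeal with hgood
  set C₀ : ℝ := 2 ^ hfin.toFinset.card * Cbad with hC₀
  have hC₀pos : 0 ≤ C₀ := by positivity
  refine index_le_of_pow_le E E' H C₀ hC₀pos (fun s hs1 _ => ?_)
  refine zetaR_pow_le_of_bad_bound E E' H hs1 good C₀ hC₀pos ?_ ?_ ?_
  · intro w hw
    exact hQ w.asIdeal w.isPrime w.ne_bot hw.1 hw.2
  · intro w hw
    have := w.isPrime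
    exact NormClassesDegreeOne.inertiaDeg_eq_one_of_prime E E' w.asIdeal hw.1
  · intro u hu
    have hfac0 : ∀ w : HeightOneSpectrum (𝓞 E'), 0 ≤ (1 - normPow E' s (pr w))⁻¹ := by
      intro w
      have := normPow_pr_le_half E' hs1.le w
      exact inv_nonneg.mpr (by linarith)
    rw [← Finset.prod_filter_mul_prod_filter_not u (fun w => (absNorm w.asIdeal).Prime)]
    refine mul_le_mul ?_ ?_ (Finset.prod_nonneg (fun w _ => hfac0 w)) (by positivity)
    · calc ∏ w ∈ u.filter (fun w => (absNorm w.asIdeal).Prime), (1 - normPow E' s (pr w))⁻¹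
          ≤ ∏ _w ∈ u.filter (fun w => (absNorm w.asIdeal).Prime), (2 : ℝ) :=
            Finset.prod_le_prod (fun w _ => hfac0 w)
              (fun w _ => inv_one_sub_le_two (normPow_pr_le_half E' hs1.le w))
        _ = 2 ^ (u.filter (fun w => (absNorm w.asIdeal).Prime)).card := by rw [Finset.prod_const]
        _ ≤ 2 ^ hfin.toFinset.card := by
            apply pow_le_pow_right₀ (by norm_num)
            apply Finset.card_le_card
            intro w hw
            obtain ⟨hwu, hwp⟩ := Finset.mem_filter.mp hw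
            rw [Set.Finite.mem_toFinset, Set.mem_ofPred_eq]
            by_contra hlt
            rw [not_le] at hlt
            exact hu w hwu ⟨hwp, hlt⟩
    · have h1 := hCbad ((u.filter (fun w => ¬ (absNorm w.asIdeal).Prime)).map
          ⟨fun w => w.asIdeal, fun w w' h => HeightOneSpectrum.ext h⟩) (by
            intro Q hQ'
            obtain ⟨w, hw, rfl⟩ := Finset.mem_map.mp hQ'
            exact ⟨w.isPrime, w.ne_bot, (Finset.mem_filter.mp hw).2⟩) s hs1.le
      rw [Finset.prod_map] at h1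
      exact h1

end Final

end Fermat.Agent.S14.SecondIneqProof
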