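import Fermat.Agent.S14.IndexIneqB
import Fermat.Agent.S14.CrossingBlocks

/-!
# `CrossingBlocks.SecondIneq` from the boundedness of class-group `L`-functions (S14, Z2 ⇐ Z1)

`BoundedClassL` is the output of block Z1 (partial zeta functions), in the shape announced by its
owner; `secondIneq_of_boundedClassL` turns it into the closed `Prop` consumed by the crossing.
-/

set_option autoImplicit false

namespace Fermat.Agent.S14.SecondIneqB

open NumberField nonZeroDivisors Filter Topology
open Fermat.Agent.S14 Fermat.Agent.S14.Zeta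

/-- **(Z1)** For every number field, the class-group `L`-function of a nontrivial character stays
bounded as `s → 1⁺`. -/
def BoundedClassL : Prop :=
  ∀ (E : Type) [Field E] [NumberField E] (χ : ClassGroup (𝓞 E) →* ℂ), χ ≠ 1 →
    ∃ B : ℝ, ∀ᶠ s in 𝓝[>] (1 : ℝ),
      ‖∑ C : ClassGroup (𝓞 E), χ C * ((partialZeta E C s : ℝ) : ℂ)‖ ≤ B

/-- **(Z2)** from **(Z1)**. -/
theorem secondIneq_of_boundedClassL (h : BoundedClassL) : CrossingBlocks.SecondIneq := by
  intro E E' _ _ _ _ _ H N₀ hH
  exact IndexIneqB.index_le_finrank E E' H N₀ hH (fun χ hχ => h E χ hχ)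

end Fermat.Agent.S14.SecondIneqB
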