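import Fermat.Agent.S14.SecondIneq
import Fermat.Agent.S14.BlockAuxAsm

/-!
# S14 / Z2: `BlockSecondIneq` (norm-class form of the second inequality) — unconditional

`blockSecondIneq : BlockAuxAsm.BlockSecondIneq`, i.e. `(normClasses F L).index ≤ [L : F]`, from
`SecondIneqProof.secondIneq` and `NormClassesDegreeOne.mk0_under_mem_normClasses`.
Also the general form `normClasses_index_le` (no hypothesis on the extension at all).
-/

set_option autoImplicit false

namespace Fermat.Agent.S14.SecondIneqBlock

open NumberField nonZeroDivisors Fermat.Agent.S14

/-- **Universal norm index inequality at modulus one**: for every extension `L/F` of number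
fields, `[Cl(F) : normClasses F L] ≤ [L : F]`. -/
theorem normClasses_index_le (F L : Type) [Field F] [NumberField F] [Field L] [NumberField L]
    [Algebra F L] [IsGalois F L] : (normClasses F L).index ≤ Module.finrank F L := by
  refine SecondIneqProof.secondIneq F L (normClasses F L) 0 ?_
  intro Q hQp hQ0 hQn _
  exact NormClassesDegreeOne.mk0_under_mem_normClasses F L Q hQ0 hQn

/-- **(Z2)** in the shape consumed by `BlockAuxAsm.blockAux_of_blocks`. -/
theorem blockSecondIneq : BlockAuxAsm.BlockSecondIneq := by
  intro F L _ _ _ _ _ _ p _ _ _ hdeg _
  rw [← hdeg]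
  exact normClasses_index_le F L

end Fermat.Agent.S14.SecondIneqBlock
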