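import Fermat.Agent.S14.SecondIneqFinal
import Fermat.Agent.S14.NormClassesDegreeOne
import Fermat.Agent.S14.BlockAuxAsm

/-!
# The second inequality for `normClasses` (S14, block Z2, consumer shapes)

`normClasses_index_le : (normClasses E E').index ≤ [E' : E]` for arbitrary number fields `E'/E`,
and the closed `Prop` `BlockAuxAsm.BlockSecondIneq`.
-/

set_option autoImplicit false

namespace Fermat.Agent.S14.SecondIneqNormClasses

open NumberField nonZeroDivisors Fermat.Agent.S14

/-- The universal norm-index inequality at modulus `1`: `[Cl(E) : N Cl(E')] ≤ [E' : E]`. -/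
theorem normClasses_index_le (E E' : Type) [Field E] [NumberField E] [Field E'] [NumberField E']
    [Algebra E E'] : (normClasses E E').index ≤ Module.finrank E E' := by
  refine SecondIneqFinal.secondIneq E E' (normClasses E E') 0 ?_
  intro Q hQ hQ0 hQp _
  exact NormClassesDegreeOne.mk0_under_mem_normClasses E E' Q hQ0 hQp

/-- **(Z2)** in the shape of `BlockAuxAsm`. -/
theorem blockSecondIneq : BlockAuxAsm.BlockSecondIneq := by
  intro F L _ _ _ _ _ _ p _ _ _ hdeg _
  rw [← hdeg]
  exact normClasses_index_le F L

end Fermat.Agent.S14.SecondIneqNormClasses
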