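import Mathlib

/-!
# S14, piece Z1.tent: the tent-function partition of unity

`tent t = max 0 (1 - |t|)` satisfies `∑_{n ∈ ℤ} tent (t + n) = 1`.  Products of tent functions in
the coordinates of a `ℤ`-basis give a Lipschitz, compactly supported partition of unity subordinate
to the translates of a lattice.
-/

set_option autoImplicit false

open scoped BigOperators

namespace Fermat.Agent.S14.TentPartition

/-- The tent function `max 0 (1 - |t|)`. -/
noncomputable def tent (t : ℝ) : ℝ := max 0 (1 - |t|)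

theorem tent_nonneg (t : ℝ) : 0 ≤ tent t := le_max_left _ _

theorem tent_le_one (t : ℝ) : tent t ≤ 1 := by
  unfold tent
  exact max_le zero_le_one (by linarith [abs_nonneg t])

theorem tent_eq_zero {t : ℝ} (ht : 1 ≤ |t|) : tent t = 0 := by
  unfold tent
  exact max_eq_left (by linarith)

theorem tent_eq_of_abs_le {t : ℝ} (ht : |t| ≤ 1) : tent t = 1 - |t| := by
  unfold tent
  exact max_eq_right (by linarith)

theorem tent_pos_iff {t : ℝ} : 0 < tent t ↔ |t| < 1 := by
  unfold tent
  constructor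
  · intro h
    by_contra hcon
    rw [not_lt] at hcon
    rw [max_eq_left (by linarith)] at h
    exact lt_irrefl _ h
  · intro h
    exact lt_max_of_lt_right (by linarith)

theorem tent_ne_zero_iff {t : ℝ} : tent t ≠ 0 ↔ |t| < 1 := by
  rw [← tent_pos_iff]
  constructor
  · intro h
    exact lt_of_le_of_ne (tent_nonneg t) (Ne.symm h)
  · intro h
    exact ne_of_gt h

theorem tent_neg (t : ℝ) : tent (-t) = tent t := by
  unfold tent
  rw [abs_neg]

theorem tent_zero : tent 0 = 1 := by
  unfold tent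
  simp

/-- `tent` is `1`-Lipschitz. -/
theorem abs_tent_sub_le (s t : ℝ) : |tent s - tent t| ≤ |s - t| := by
  unfold tent
  have h1 : |max 0 (1 - |s|) - max 0 (1 - |t|)| ≤ |(1 - |s|) - (1 - |t|)| := by
    have := abs_max_sub_max_le_abs (1 - |s|) (1 - |t|) (0 : ℝ)
    rwa [max_comm (1 - |s|) 0, max_comm (1 - |t|) 0] at this
  have h2 : (1 - |s|) - (1 - |t|) = |t| - |s| := by ring
  rw [h2] at h1
  have h3 : abs (|t| - |s|) ≤ |t - s| := abs_abs_sub_abs_le_abs_sub t s
  rw [abs_sub_comm t s] at h3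
  exact h1.trans h3

theorem lipschitzWith_tent : LipschitzWith 1 tent := by
  apply LipschitzWith.of_dist_le_mul
  intro s t
  rw [Real.dist_eq, Real.dist_eq, NNReal.coe_one, one_mul]
  exact abs_tent_sub_le s t

theorem continuous_tent : Continuous tent := lipschitzWith_tent.continuous

/-- Key computation: for `0 ≤ x < 1`, `tent x + tent (x - 1) = 1`. -/
theorem tent_add_tent_sub_one {x : ℝ} (h0 : 0 ≤ x) (h1 : x < 1) : tent x + tent (x - 1) = 1 := by
  rw [tent_eq_of_abs_le (by rw [abs_of_nonneg h0]; exact h1.le),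
    tent_eq_of_abs_le (by rw [abs_of_nonpos (by linarith)]; linarith)]
  rw [abs_of_nonneg h0, abs_of_nonpos (by linarith)]
  ring

/-- The translates `tent (t + n)`, `n ∈ ℤ`, vanish outside `n ∈ {-⌊t⌋ - 1, -⌊t⌋}`. -/
theorem tent_add_int_eq_zero {t : ℝ} {n : ℤ} (h1 : n ≠ -⌊t⌋) (h2 : n ≠ -⌊t⌋ - 1) :
    tent (t + n) = 0 := by
  apply tent_eq_zero
  have hfl := Int.floor_le t
  have hlt := Int.lt_floor_add_one t
  rcases lt_or_gt_of_ne h1 with h | h
  · -- n ≤ -⌊t⌋ - 1, and n ≠ -⌊t⌋ - 1, so n ≤ -⌊t⌋ - 2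
    have hn : n ≤ -⌊t⌋ - 2 := by omega
    have hn' : (n : ℝ) ≤ -(⌊t⌋ : ℝ) - 2 := by exact_mod_cast hn
    rw [abs_of_nonpos (by linarith)]
    linarith
  · have hn : -⌊t⌋ + 1 ≤ n := by omega
    have hn' : -(⌊t⌋ : ℝ) + 1 ≤ (n : ℝ) := by exact_mod_cast hn
    rw [abs_of_nonneg (by linarith)]
    linarith

theorem support_tent_add_int_subset (t : ℝ) :
    (Function.support fun n : ℤ => tent (t + n)) ⊆ ({-⌊t⌋, -⌊t⌋ - 1} : Finset ℤ) := by
  intro n hn
  rw [Function.mem_support] at hn
  by_contra hcon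
  simp only [Finset.coe_insert, Finset.coe_singleton, Set.mem_insert_iff, Set.mem_singleton_iff,
    not_or] at hcon
  exact hn (tent_add_int_eq_zero hcon.1 hcon.2)

theorem finite_support_tent_add_int (t : ℝ) :
    (Function.support fun n : ℤ => tent (t + n)).Finite :=
  (Finset.finite_toSet _).subset (support_tent_add_int_subset t)

/-- **Partition of unity in one variable**: `∑_{n ∈ ℤ} tent (t + n) = 1`. -/
theorem finsum_tent_add_int (t : ℝ) : ∑ᶠ n : ℤ, tent (t + n) = 1 := by
  rw [finsum_eq_sum_of_support_subset _ (support_tent_add_int_subset t)]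
  have hne : (-⌊t⌋ : ℤ) ≠ -⌊t⌋ - 1 := by omega
  rw [Finset.sum_pair hne]
  have h0 : 0 ≤ t - ⌊t⌋ := sub_nonneg.mpr (Int.floor_le t)
  have h1 : t - ⌊t⌋ < 1 := by linarith [Int.lt_floor_add_one t]
  have e1 : t + ((-⌊t⌋ : ℤ) : ℝ) = t - ⌊t⌋ := by push_cast; ring
  have e2 : t + ((-⌊t⌋ - 1 : ℤ) : ℝ) = (t - ⌊t⌋) - 1 := by push_cast; ring
  rw [e1, e2]
  exact tent_add_tent_sub_one h0 h1

theorem hasSum_tent_add_int (t : ℝ) : HasSum (fun n : ℤ => tent (t + n)) 1 := by
  have h : HasSum (fun n : ℤ => tent (t + n))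
      (∑ n ∈ ({-⌊t⌋, -⌊t⌋ - 1} : Finset ℤ), tent (t + n)) :=
    hasSum_sum_of_ne_finset_zero (fun n hn => by
      by_contra hcon
      exact hn (support_tent_add_int_subset t (Function.mem_support.mpr hcon)))
  have hs : ∑ n ∈ ({-⌊t⌋, -⌊t⌋ - 1} : Finset ℤ), tent (t + n) = 1 := by
    rw [← finsum_eq_sum_of_support_subset _ (support_tent_add_int_subset t)]
    exact finsum_tent_add_int t
  rwa [hs] at h

theorem tsum_tent_add_int (t : ℝ) : ∑' n : ℤ, tent (t + n) = 1 :=
  (hasSum_tent_add_int t).tsum_eq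

/-! ### Products of tent functions -/

section Prod

variable {ι : Type*} [Fintype ι]

/-- The product of tent functions in the coordinates. -/
noncomputable def tentProd (c : ι → ℝ) : ℝ := ∏ i, tent (c i)

theorem tentProd_nonneg (c : ι → ℝ) : 0 ≤ tentProd c :=
  Finset.prod_nonneg fun i _ => tent_nonneg (c i)

theorem tentProd_le_one (c : ι → ℝ) : tentProd c ≤ 1 :=
  Finset.prod_le_one (fun i _ => tent_nonneg (c i)) (fun i _ => tent_le_one (c i))

theorem tentProd_ne_zero_iff {c : ι → ℝ} : tentProd c ≠ 0 ↔ ∀ i, |c i| < 1 := by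
  unfold tentProd
  rw [Finset.prod_ne_zero_iff]
  constructor
  · intro h i
    exact tent_ne_zero_iff.mp (h i (Finset.mem_univ i))
  · intro h i _
    exact tent_ne_zero_iff.mpr (h i)

theorem tentProd_eq_zero {c : ι → ℝ} {i : ι} (hi : 1 ≤ |c i|) : tentProd c = 0 := by
  by_contra hcon
  exact absurd (tentProd_ne_zero_iff.mp hcon i) (not_lt.mpr hi)

theorem tentProd_zero : tentProd (0 : ι → ℝ) = 1 := by
  unfold tentProd
  simp [tent_zero]

omit [Fintype ι] in
/-- Elementary inequality: for numbers in `[0,1]`, `|∏ a - ∏ b| ≤ ∑ |a - b|`. -/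
theorem abs_prod_sub_prod_le_sum (s : Finset ι) (a b : ι → ℝ)
    (ha : ∀ i, 0 ≤ a i ∧ a i ≤ 1) (hb : ∀ i, 0 ≤ b i ∧ b i ≤ 1) :
    |∏ i ∈ s, a i - ∏ i ∈ s, b i| ≤ ∑ i ∈ s, |a i - b i| := by
  classical
  induction s using Finset.induction_on with
  | empty => simp
  | insert j s hj ih =>
    rw [Finset.prod_insert hj, Finset.prod_insert hj, Finset.sum_insert hj]
    have hA0 : 0 ≤ ∏ i ∈ s, a i := Finset.prod_nonneg fun i _ => (ha i).1
    have hA1 : ∏ i ∈ s, a i ≤ 1 := Finset.prod_le_one (fun i _ => (ha i).1) (fun i _ => (ha i).2)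
    have hdecomp : a j * ∏ i ∈ s, a i - b j * ∏ i ∈ s, b i
        = (a j - b j) * ∏ i ∈ s, a i + b j * (∏ i ∈ s, a i - ∏ i ∈ s, b i) := by ring
    rw [hdecomp]
    calc |(a j - b j) * ∏ i ∈ s, a i + b j * (∏ i ∈ s, a i - ∏ i ∈ s, b i)|
        ≤ |(a j - b j) * ∏ i ∈ s, a i| + |b j * (∏ i ∈ s, a i - ∏ i ∈ s, b i)| := abs_add_le _ _
      _ = |a j - b j| * (∏ i ∈ s, a i) + b j * |∏ i ∈ s, a i - ∏ i ∈ s, b i| := by
          rw [abs_mul, abs_mul, abs_of_nonneg hA0, abs_of_nonneg (hb j).1]
      _ ≤ |a j - b j| * 1 + 1 * ∑ i ∈ s, |a i - b i| := by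
          apply add_le_add
          · exact mul_le_mul_of_nonneg_left hA1 (abs_nonneg _)
          · exact mul_le_mul (hb j).2 ih (abs_nonneg _) zero_le_one
      _ = |a j - b j| + ∑ i ∈ s, |a i - b i| := by ring

/-- `tentProd` is Lipschitz for the `ℓ¹` distance of the coordinates. -/
theorem abs_tentProd_sub_le (c c' : ι → ℝ) :
    |tentProd c - tentProd c'| ≤ ∑ i, |c i - c' i| := by
  unfold tentProd
  refine (abs_prod_sub_prod_le_sum Finset.univ (fun i => tent (c i)) (fun i => tent (c' i))
    (fun i => ⟨tent_nonneg _, tent_le_one _⟩) (fun i => ⟨tent_nonneg _, tent_le_one _⟩)).trans ?_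
  exact Finset.sum_le_sum fun i _ => abs_tent_sub_le (c i) (c' i)

/-- `tentProd` is Lipschitz for the sup norm, with constant `card ι`. -/
theorem abs_tentProd_sub_le_card_mul (c c' : ι → ℝ) :
    |tentProd c - tentProd c'| ≤ (Fintype.card ι : ℝ) * ‖c - c'‖ := by
  refine (abs_tentProd_sub_le c c').trans ?_
  calc ∑ i, |c i - c' i| ≤ ∑ _i : ι, ‖c - c'‖ := by
        apply Finset.sum_le_sum
        intro i _
        have := norm_le_pi_norm (c - c') i
        simpa [Real.norm_eq_abs] using this
    _ = (Fintype.card ι : ℝ) * ‖c - c'‖ := by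
        rw [Finset.sum_const, Finset.card_univ, nsmul_eq_mul]

theorem lipschitzWith_tentProd :
    LipschitzWith (Fintype.card ι : NNReal) (tentProd : (ι → ℝ) → ℝ) := by
  apply LipschitzWith.of_dist_le_mul
  intro c c'
  rw [Real.dist_eq, dist_eq_norm]
  simpa using abs_tentProd_sub_le_card_mul c c'

theorem continuous_tentProd : Continuous (tentProd : (ι → ℝ) → ℝ) :=
  lipschitzWith_tentProd.continuous

/-- The finite set of integer translates that can contribute at `c`. -/
noncomputable def shiftSet [DecidableEq ι] (c : ι → ℝ) : Finset (ι → ℤ) :=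
  Fintype.piFinset fun i => ({-⌊c i⌋, -⌊c i⌋ - 1} : Finset ℤ)

theorem tentProd_add_int_eq_zero [DecidableEq ι] {c : ι → ℝ} {n : ι → ℤ} (hn : n ∉ shiftSet c) :
    tentProd (fun i => c i + n i) = 0 := by
  unfold shiftSet at hn
  rw [Fintype.mem_piFinset] at hn
  simp only [not_forall] at hn
  obtain ⟨i, hi⟩ := hn
  simp only [Finset.mem_insert, Finset.mem_singleton, not_or] at hi
  have h0 : tent (c i + n i) = 0 := tent_add_int_eq_zero hi.1 hi.2
  unfold tentProd
  exact Finset.prod_eq_zero (Finset.mem_univ i) h0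

theorem sum_shiftSet_tentProd [DecidableEq ι] (c : ι → ℝ) :
    ∑ n ∈ shiftSet c, tentProd (fun i => c i + n i) = 1 := by
  unfold shiftSet tentProd
  rw [← Finset.prod_univ_sum (fun i => ({-⌊c i⌋, -⌊c i⌋ - 1} : Finset ℤ))
    (fun i (k : ℤ) => tent (c i + k))]
  apply Finset.prod_eq_one
  intro i _
  rw [← finsum_eq_sum_of_support_subset _ (support_tent_add_int_subset (c i))]
  exact finsum_tent_add_int (c i)

/-- **Partition of unity**: the integer translates of `tentProd` sum to `1`. -/
theorem hasSum_tentProd_add_int (c : ι → ℝ) :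
    HasSum (fun n : ι → ℤ => tentProd (fun i => c i + n i)) 1 := by
  classical
  have h : HasSum (fun n : ι → ℤ => tentProd (fun i => c i + n i))
      (∑ n ∈ shiftSet c, tentProd (fun i => c i + n i)) :=
    hasSum_sum_of_ne_finset_zero (fun n hn => tentProd_add_int_eq_zero hn)
  rwa [sum_shiftSet_tentProd] at h

theorem tsum_tentProd_add_int (c : ι → ℝ) :
    ∑' n : ι → ℤ, tentProd (fun i => c i + n i) = 1 :=
  (hasSum_tentProd_add_int c).tsum_eq

theorem finsum_tentProd_add_int (c : ι → ℝ) :
    ∑ᶠ n : ι → ℤ, tentProd (fun i => c i + n i) = 1 := by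
  classical
  rw [finsum_eq_sum_of_support_subset (s := shiftSet c)]
  · exact sum_shiftSet_tentProd c
  · intro n hn
    by_contra hcon
    exact (Function.mem_support.mp hn) (tentProd_add_int_eq_zero hcon)

end Prod

/-! ### The partition of unity attached to a basis of a real vector space -/

section Basis

variable {ι : Type*} [Fintype ι] {V : Type*} [NormedAddCommGroup V] [NormedSpace ℝ V]

/-- The bump function attached to a basis: the product of the tent functions of the coordinates. -/
noncomputable def psi0 (b : Module.Basis ι ℝ V) (y : V) : ℝ := tentProd (fun i => b.repr y i)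

theorem psi0_nonneg (b : Module.Basis ι ℝ V) (y : V) : 0 ≤ psi0 b y := tentProd_nonneg _

theorem psi0_le_one (b : Module.Basis ι ℝ V) (y : V) : psi0 b y ≤ 1 := tentProd_le_one _

theorem psi0_zero (b : Module.Basis ι ℝ V) : psi0 b 0 = 1 := by
  unfold psi0
  have : (fun i => b.repr (0 : V) i) = (0 : ι → ℝ) := by
    funext i
    simp
  rw [this, tentProd_zero]

theorem psi0_ne_zero_iff (b : Module.Basis ι ℝ V) {y : V} :
    psi0 b y ≠ 0 ↔ ∀ i, |b.repr y i| < 1 := tentProd_ne_zero_iff

/-- The support of `psi0 b` is bounded. -/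
theorem norm_le_of_psi0_ne_zero (b : Module.Basis ι ℝ V) {y : V} (hy : psi0 b y ≠ 0) :
    ‖y‖ ≤ ∑ i, ‖b i‖ := by
  have h := (psi0_ne_zero_iff b).mp hy
  conv_lhs => rw [← b.sum_repr y]
  refine (norm_sum_le _ _).trans ?_
  apply Finset.sum_le_sum
  intro i _
  rw [norm_smul, Real.norm_eq_abs]
  calc |b.repr y i| * ‖b i‖ ≤ 1 * ‖b i‖ :=
        mul_le_mul_of_nonneg_right (h i).le (norm_nonneg _)
    _ = ‖b i‖ := one_mul _

theorem psi0_eq_zero_of_lt_norm (b : Module.Basis ι ℝ V) {y : V} (hy : ∑ i, ‖b i‖ < ‖y‖) :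
    psi0 b y = 0 := by
  by_contra hcon
  exact absurd (norm_le_of_psi0_ne_zero b hcon) (not_le.mpr hy)

/-- `psi0 b` is Lipschitz. -/
theorem exists_lipschitz_psi0 [FiniteDimensional ℝ V] (b : Module.Basis ι ℝ V) :
    ∃ C : ℝ, 0 ≤ C ∧ ∀ y y' : V, |psi0 b y - psi0 b y'| ≤ C * ‖y - y'‖ := by
  set Φ : V →L[ℝ] (ι → ℝ) := LinearMap.toContinuousLinearMap (b.equivFun : V →ₗ[ℝ] (ι → ℝ)) with hΦ
  refine ⟨(Fintype.card ι : ℝ) * ‖Φ‖, mul_nonneg (Nat.cast_nonneg _) (norm_nonneg _), ?_⟩
  intro y y'
  have h1 := abs_tentProd_sub_le_card_mul (fun i => b.repr y i) (fun i => b.repr y' i)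
  have h2 : (fun i => b.repr y i) - (fun i => b.repr y' i) = Φ (y - y') := by
    funext i
    simp [hΦ]
  rw [h2] at h1
  unfold psi0
  refine h1.trans ?_
  rw [mul_assoc]
  exact mul_le_mul_of_nonneg_left (Φ.le_opNorm _) (Nat.cast_nonneg _)

theorem continuous_psi0 [FiniteDimensional ℝ V] (b : Module.Basis ι ℝ V) : Continuous (psi0 b) := by
  obtain ⟨C, hC, h⟩ := exists_lipschitz_psi0 b
  have : LipschitzWith ⟨C, hC⟩ (psi0 b) := by
    apply LipschitzWith.of_dist_le_mul
    intro y y'
    rw [Real.dist_eq, dist_eq_norm]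
    exact h y y'
  exact this.continuous

omit [Fintype ι] in
/-- The coordinates of a point of the `ℤ`-span of a basis are integers. -/
theorem repr_restrictScalars (b : Module.Basis ι ℝ V) (l : Submodule.span ℤ (Set.range b)) (i : ι) :
    b.repr (l : V) i = ((b.restrictScalars ℤ).repr l i : ℤ) := by
  have := Module.Basis.restrictScalars_repr_apply (R := ℤ) b l i
  simpa using this.symm

/-- **Partition of unity**: the translates of `psi0 b` by the lattice spanned by `b` sum to `1`. -/
theorem hasSum_psi0_add (b : Module.Basis ι ℝ V) (y : V) :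
    HasSum (fun l : Submodule.span ℤ (Set.range b) => psi0 b (y + (l : V))) 1 := by
  have h := hasSum_tentProd_add_int (fun i => b.repr y i)
  rw [← ((b.restrictScalars ℤ).equivFun.toEquiv).hasSum_iff] at h
  convert h using 1
  funext l
  simp only [Function.comp_apply, psi0]
  congr 1
  funext i
  rw [map_add, Finsupp.add_apply, repr_restrictScalars b l i]
  rfl

theorem tsum_psi0_add (b : Module.Basis ι ℝ V) (y : V) :
    ∑' l : Submodule.span ℤ (Set.range b), psi0 b (y + (l : V)) = 1 :=
  (hasSum_psi0_add b y).tsum_eq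

/-- Version for a lattice `L` given as the `ℤ`-span of the basis. -/
theorem hasSum_psi0_add_of_span (b : Module.Basis ι ℝ V) {L : Submodule ℤ V}
    (hL : Submodule.span ℤ (Set.range b) = L) (y : V) :
    HasSum (fun l : L => psi0 b (y + (l : V))) 1 := by
  subst hL
  exact hasSum_psi0_add b y

/-- Only finitely many translates are nonzero at a given point. -/
theorem finite_support_psi0_add (b : Module.Basis ι ℝ V) (y : V) :
    (Function.support fun l : Submodule.span ℤ (Set.range b) => psi0 b (y + (l : V))).Finite := by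
  classical
  have hsub : (Function.support fun l : Submodule.span ℤ (Set.range b) => psi0 b (y + (l : V)))
      ⊆ (b.restrictScalars ℤ).equivFun ⁻¹' (shiftSet (fun i => b.repr y i) : Set (ι → ℤ)) := by
    intro l hl
    rw [Function.mem_support] at hl
    rw [Set.mem_preimage]
    by_contra hcon
    apply hl
    have h0 := tentProd_add_int_eq_zero (c := fun i => b.repr y i)
      (n := (b.restrictScalars ℤ).equivFun l) hcon
    unfold psi0
    convert h0 using 2
    funext i
    rw [map_add, Finsupp.add_apply, repr_restrictScalars b l i]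
    rfl
  exact ((Finset.finite_toSet _).preimage
    ((b.restrictScalars ℤ).equivFun.injective.injOn)).subset hsub

end Basis

/-! ### The unit lattice of a number field -/

section NumberField

open NumberField NumberField.Units NumberField.Units.dirichletUnitTheorem

open scoped Classical

variable (K : Type*) [Field K] [NumberField K]

/-- The `ℝ`-basis of `logSpace K` given by Mathlib's `ℤ`-basis of the unit lattice. -/
noncomputable def unitBasisReal : Module.Basis (Fin (rank K)) ℝ (logSpace K) :=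
  (basisUnitLattice K).ofZLatticeBasis ℝ (unitLattice K)

theorem span_unitBasisReal :
    Submodule.span ℤ (Set.range (unitBasisReal K)) = unitLattice K :=
  (basisUnitLattice K).ofZLatticeBasis_span ℝ (unitLattice K)

/-- A Lipschitz, compactly supported bump function on `logSpace K` whose translates by the unit
lattice sum to `1` (a "smooth fundamental domain" for the units). -/
noncomputable def psiLog (y : logSpace K) : ℝ := psi0 (unitBasisReal K) y

theorem psiLog_nonneg (y : logSpace K) : 0 ≤ psiLog K y := psi0_nonneg _ y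

theorem psiLog_le_one (y : logSpace K) : psiLog K y ≤ 1 := psi0_le_one _ y

theorem psiLog_zero : psiLog K 0 = 1 := psi0_zero _

theorem exists_lipschitz_psiLog :
    ∃ C : ℝ, 0 ≤ C ∧ ∀ y y' : logSpace K, |psiLog K y - psiLog K y'| ≤ C * ‖y - y'‖ :=
  exists_lipschitz_psi0 (unitBasisReal K)

theorem continuous_psiLog : Continuous (psiLog K) := continuous_psi0 (unitBasisReal K)

/-- The support of `psiLog` is bounded. -/
theorem exists_bound_of_psiLog_ne_zero :
    ∃ R : ℝ, ∀ y : logSpace K, psiLog K y ≠ 0 → ‖y‖ ≤ R :=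
  ⟨_, fun _ hy => norm_le_of_psi0_ne_zero (unitBasisReal K) hy⟩

/-- **Partition of unity for the unit lattice.** -/
theorem hasSum_psiLog_add (y : logSpace K) :
    HasSum (fun l : unitLattice K => psiLog K (y + (l : logSpace K))) 1 :=
  hasSum_psi0_add_of_span (unitBasisReal K) (span_unitBasisReal K) y

theorem tsum_psiLog_add (y : logSpace K) :
    ∑' l : unitLattice K, psiLog K (y + (l : logSpace K)) = 1 :=
  (hasSum_psiLog_add K y).tsum_eq

end NumberField

end Fermat.Agent.S14.TentPartition
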