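import Fermat.Agent.S14.ZetaShiftPsi

/-!
# S14 / analytic block: the shift estimate on the mixed space

`psi K x = psi0 K (logMap x)` (zero where the norm vanishes) and
`F K s x = psi K x * (mixedEmbedding.norm x) ^ (-s)`.  On the support of `psi` all the
coordinates of `x` are comparable with `‖x‖`, hence `F K s` satisfies the shift estimate
`|F K s (x + v) - F K s x| ≤ C * ‖x‖ ^ (-d - 1)` uniformly for `s ∈ [1, 2]`, and shifted lattice
sums of `F K s` differ from the unshifted ones by a bounded amount.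
-/

set_option autoImplicit false

open NumberField NumberField.mixedEmbedding NumberField.Units
  NumberField.Units.dirichletUnitTheorem NumberField.InfinitePlace Module

namespace Fermat.Agent.S14.ZetaShift

section real

/-- Logarithms of nearby positive numbers are close. -/
theorem abs_log_sub_log_le {a p q δ : ℝ} (ha : 0 < a) (hap : a ≤ p) (hpq : |q - p| ≤ δ)
    (hδ : δ ≤ a / 2) : |Real.log q - Real.log p| ≤ 2 * δ / a := by
  have hδ0 : 0 ≤ δ := (abs_nonneg _).trans hpq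
  have hp : 0 < p := ha.trans_le hap
  rw [abs_le] at hpq
  have hq : p / 2 ≤ q := by linarith
  have hq0 : 0 < q := by linarith
  rw [abs_le]
  constructor
  · -- log p - log q ≤ 2 δ / a
    have h1 : Real.log (p / q) ≤ p / q - 1 := Real.log_le_sub_one_of_pos (div_pos hp hq0)
    rw [Real.log_div hp.ne' hq0.ne'] at h1
    have h2 : p / q - 1 = (p - q) / q := by field_simp
    have h3 : (p - q) / q ≤ δ / (p / 2) := by
      apply div_le_div₀ hδ0 (by linarith) (by positivity) hq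
    have h4 : δ / (p / 2) ≤ 2 * δ / a := by
      rw [div_div_eq_mul_div, mul_comm]
      exact div_le_div_of_nonneg_left (by positivity) ha hap
    linarith
  · have h1 : Real.log (q / p) ≤ q / p - 1 := Real.log_le_sub_one_of_pos (div_pos hq0 hp)
    rw [Real.log_div hq0.ne' hp.ne'] at h1
    have h2 : q / p - 1 = (q - p) / p := by field_simp
    have h3 : (q - p) / p ≤ δ / a := by
      apply div_le_div₀ hδ0 (by linarith) ha hap
    have h4 : δ / a ≤ 2 * δ / a := by
      apply div_le_div_of_nonneg_right _ ha.le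
      linarith
    linarith

end real

section real2

theorem mul_inv_pow_le_of_half_le {Cc X Y : ℝ} (n : ℕ) (hC : 0 ≤ Cc) (hX : 0 < X)
    (h : X / 2 ≤ Y) : Cc * (Y ^ n)⁻¹ ≤ Cc * 2 ^ n * (X ^ n)⁻¹ := by
  have h1 : (Y ^ n)⁻¹ ≤ ((X / 2) ^ n)⁻¹ :=
    inv_anti₀ (by positivity) (pow_le_pow_left₀ (by positivity) h _)
  have h2 : ((X / 2) ^ n)⁻¹ = 2 ^ n * (X ^ n)⁻¹ := by
    rw [div_pow, inv_div, div_eq_mul_inv]
  rw [mul_assoc, ← h2]
  exact mul_le_mul_of_nonneg_left h1 hC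

theorem le_mul_two_pow {Cc Z : ℝ} (n : ℕ) (hC : 0 ≤ Cc) (hZ : 0 ≤ Z) :
    Cc * Z ≤ Cc * 2 ^ n * Z := by
  have h2 : (1 : ℝ) ≤ 2 ^ n := one_le_pow₀ (by norm_num)
  have : Cc * 1 ≤ Cc * 2 ^ n := mul_le_mul_of_nonneg_left h2 hC
  rw [mul_one] at this
  exact mul_le_mul_of_nonneg_right this hZ

end real2

section mixed

open scoped Classical

variable (K : Type*) [Field K] [NumberField K]

/-- The weight on the mixed space. -/
noncomputable def psi (x : mixedSpace K) : ℝ :=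
  if mixedEmbedding.norm x = 0 then 0 else psi0 K (logMap x)

/-- The weighted norm power. -/
noncomputable def F (s : ℝ) (x : mixedSpace K) : ℝ :=
  psi K x * (mixedEmbedding.norm x) ^ (-s)

variable {K}

theorem psi_nonneg (x : mixedSpace K) : 0 ≤ psi K x := by
  unfold psi; split_ifs
  · exact le_rfl
  · exact psi0_nonneg K _

theorem psi_le_one (x : mixedSpace K) : psi K x ≤ 1 := by
  unfold psi; split_ifs
  · exact zero_le_one
  · exact psi0_le_one K _

theorem norm_ne_zero_of_psi_ne_zero {x : mixedSpace K} (h : psi K x ≠ 0) :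
    mixedEmbedding.norm x ≠ 0 := by
  intro h0; apply h; unfold psi; rw [if_pos h0]

theorem psi_eq_of_norm_ne_zero {x : mixedSpace K} (h : mixedEmbedding.norm x ≠ 0) :
    psi K x = psi0 K (logMap x) := by
  unfold psi; rw [if_neg h]

theorem normAtPlace_le_norm (w : InfinitePlace K) (x : mixedSpace K) :
    normAtPlace w x ≤ ‖x‖ := by
  rw [norm_eq_sup'_normAtPlace]
  exact Finset.le_sup' (fun w => normAtPlace w x) (Finset.mem_univ w)

theorem norm_le_of_normAtPlace_le {x : mixedSpace K} {r : ℝ}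
    (h : ∀ w, normAtPlace w x ≤ r) : ‖x‖ ≤ r := by
  rw [norm_eq_sup'_normAtPlace]
  exact Finset.sup'_le _ _ fun w _ => h w

/-- `∑_w mult w * log (normAtPlace w x) = log (norm x)`. -/
theorem sum_mult_mul_log_normAtPlace {x : mixedSpace K} (hx : mixedEmbedding.norm x ≠ 0) :
    ∑ w : InfinitePlace K, (mult w : ℝ) * Real.log (normAtPlace w x)
      = Real.log (mixedEmbedding.norm x) := by
  rw [mixedEmbedding.norm_apply, Real.log_prod]
  · refine Finset.sum_congr rfl fun w _ => ?_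
    rw [Real.log_pow]
  · intro w _
    exact pow_ne_zero _ (mixedEmbedding.norm_ne_zero_iff.mp hx w)


/-- The deviation of `log (normAtPlace w x)` from its average. -/
noncomputable def dev (x : mixedSpace K) (w : InfinitePlace K) : ℝ :=
  Real.log (normAtPlace w x) - Real.log (mixedEmbedding.norm x) * (finrank ℚ K : ℝ)⁻¹

theorem sum_mult_mul_dev {x : mixedSpace K} (hx : mixedEmbedding.norm x ≠ 0) :
    ∑ w : InfinitePlace K, (mult w : ℝ) * dev x w = 0 := by
  unfold dev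
  simp_rw [mul_sub]
  rw [Finset.sum_sub_distrib, sum_mult_mul_log_normAtPlace hx]
  simp_rw [← mul_assoc]
  rw [← Finset.sum_mul, ← Finset.sum_mul, ← Nat.cast_sum, sum_mult_eq]
  have hd : (finrank ℚ K : ℝ) ≠ 0 := Nat.cast_ne_zero.mpr finrank_pos.ne'
  field_simp
  ring

theorem logMap_eq_mult_mul_dev (x : mixedSpace K) (w : {w : InfinitePlace K // w ≠ w₀}) :
    logMap x w = mult w.val * dev x w.val := rfl

variable (K) in
/-- On the support of `psi` the deviations `dev x w` are uniformly bounded. -/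
theorem exists_dev_bound : ∃ R' : ℝ, 0 ≤ R' ∧ ∀ x : mixedSpace K, psi K x ≠ 0 →
    ∀ w, |dev x w| ≤ R' := by
  obtain ⟨R, hR0, hR⟩ := psi0_support K
  refine ⟨Fintype.card (InfinitePlace K) * R, by positivity, fun x hx w => ?_⟩
  have hn := norm_ne_zero_of_psi_ne_zero hx
  rw [psi_eq_of_norm_ne_zero hn] at hx
  have hlog : ‖logMap x‖ ≤ R := hR _ hx
  have hne : ∀ w : InfinitePlace K, w ≠ w₀ → |(mult w : ℝ) * dev x w| ≤ R := by
    intro w hw
    have := norm_le_pi_norm (logMap x) ⟨w, hw⟩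
    rw [Real.norm_eq_abs, logMap_eq_mult_mul_dev] at this
    exact this.trans hlog
  have hmult : ∀ w : InfinitePlace K, |dev x w| ≤ |(mult w : ℝ) * dev x w| := by
    intro w
    rw [abs_mul]
    refine le_mul_of_one_le_left (abs_nonneg _) ?_
    rw [abs_of_nonneg (by positivity)]
    exact_mod_cast one_le_mult
  have hcard : (1 : ℝ) ≤ Fintype.card (InfinitePlace K) := by
    exact_mod_cast Fintype.card_pos
  by_cases hw : w = w₀
  · subst hw
    have hsum := sum_mult_mul_dev hn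
    rw [← Finset.add_sum_erase Finset.univ _ (Finset.mem_univ (w₀ : InfinitePlace K))] at hsum
    have h0 : (mult (w₀ : InfinitePlace K) : ℝ) * dev x w₀
        = -∑ w ∈ Finset.univ.erase (w₀ : InfinitePlace K), (mult w : ℝ) * dev x w := by
      linarith
    refine (hmult _).trans ?_
    rw [h0, abs_neg]
    refine (Finset.abs_sum_le_sum_abs _ _).trans ?_
    have : ∑ w ∈ Finset.univ.erase (w₀ : InfinitePlace K), |(mult w : ℝ) * dev x w|
        ≤ ∑ _w ∈ Finset.univ.erase (w₀ : InfinitePlace K), R :=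
      Finset.sum_le_sum fun w hw => hne w (Finset.ne_of_mem_erase hw)
    refine this.trans ?_
    rw [Finset.sum_const, nsmul_eq_mul]
    refine mul_le_mul_of_nonneg_right ?_ hR0
    exact_mod_cast (Finset.card_erase_le).trans (le_of_eq Finset.card_univ)
  · refine (hmult w).trans ((hne w hw).trans ?_)
    exact le_mul_of_one_le_left hR0 hcard


theorem normAtPlace_pos_of_norm_ne_zero {x : mixedSpace K} (hx : mixedEmbedding.norm x ≠ 0)
    (w : InfinitePlace K) : 0 < normAtPlace w x :=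
  lt_of_le_of_ne (normAtPlace_nonneg w x) (mixedEmbedding.norm_ne_zero_iff.mp hx w).symm

variable (K) in
/-- On the support of `psi`, every coordinate is comparable with the sup norm. -/
theorem exists_comparable : ∃ c : ℝ, 0 < c ∧ c ≤ 1 ∧ ∀ x : mixedSpace K, psi K x ≠ 0 →
    ∀ w, c * ‖x‖ ≤ normAtPlace w x := by
  obtain ⟨R', hR'0, hR'⟩ := exists_dev_bound K
  refine ⟨Real.exp (-(2 * R')), Real.exp_pos _, ?_, fun x hx w => ?_⟩
  · rw [Real.exp_le_one_iff]; linarith
  have hn := norm_ne_zero_of_psi_ne_zero hx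
  set lam := Real.log (mixedEmbedding.norm x) * (finrank ℚ K : ℝ)⁻¹ with hlam
  have hup : ∀ w', normAtPlace w' x ≤ Real.exp (lam + R') := by
    intro w'
    have hpos := normAtPlace_pos_of_norm_ne_zero hn w'
    have := (abs_le.mp (hR' x hx w')).2
    unfold dev at this
    rw [← Real.exp_log hpos]
    exact Real.exp_le_exp.mpr (by linarith)
  have hnorm : ‖x‖ ≤ Real.exp (lam + R') := norm_le_of_normAtPlace_le hup
  have hpos := normAtPlace_pos_of_norm_ne_zero hn w
  have hlow : Real.exp (lam - R') ≤ normAtPlace w x := by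
    have := (abs_le.mp (hR' x hx w)).1
    unfold dev at this
    rw [← Real.exp_log hpos]
    exact Real.exp_le_exp.mpr (by linarith)
  calc Real.exp (-(2 * R')) * ‖x‖ ≤ Real.exp (-(2 * R')) * Real.exp (lam + R') :=
        mul_le_mul_of_nonneg_left hnorm (Real.exp_pos _).le
    _ = Real.exp (lam - R') := by rw [← Real.exp_add]; congr 1; ring
    _ ≤ normAtPlace w x := hlow

/-- If every coordinate is at least `a ≥ 0` then the norm is at least `a ^ d`. -/
theorem pow_le_norm_of_le_normAtPlace {x : mixedSpace K} {a : ℝ} (ha : 0 ≤ a)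
    (h : ∀ w, a ≤ normAtPlace w x) : a ^ (finrank ℚ K) ≤ mixedEmbedding.norm x := by
  rw [mixedEmbedding.norm_apply, ← sum_mult_eq, ← Finset.prod_pow_eq_pow_sum]
  exact Finset.prod_le_prod (fun w _ => pow_nonneg ha _)
    fun w _ => pow_le_pow_left₀ ha (h w) _


omit [NumberField K] in
theorem mult_le_two (w : InfinitePlace K) : (mult w : ℝ) ≤ 2 := by
  unfold mult; split_ifs <;> norm_num

theorem abs_normAtPlace_add_sub_le (w : InfinitePlace K) (x v : mixedSpace K) :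
    |normAtPlace w (x + v) - normAtPlace w x| ≤ ‖v‖ := by
  have h1 := normAtPlace_add_le w x v
  have h2 := normAtPlace_add_le w (x + v) (-v)
  rw [add_neg_cancel_right, normAtPlace_neg] at h2
  have h3 := normAtPlace_le_norm w v
  rw [abs_le]; constructor <;> linarith

/-- The basic perturbation estimates: if all the coordinates of `x` are `≥ a > 0` and
`‖v‖ ≤ a / 2` then the logarithms of the coordinates of `x + v` and `x` differ by at most
`2 ‖v‖ / a`. -/
theorem abs_log_normAtPlace_add_sub_le {x v : mixedSpace K} {a : ℝ} (ha : 0 < a)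
    (hx : ∀ w, a ≤ normAtPlace w x) (hv : ‖v‖ ≤ a / 2) (w : InfinitePlace K) :
    |Real.log (normAtPlace w (x + v)) - Real.log (normAtPlace w x)| ≤ 2 * ‖v‖ / a :=
  abs_log_sub_log_le ha (hx w) (abs_normAtPlace_add_sub_le w x v) hv

theorem le_normAtPlace_add {x v : mixedSpace K} {a : ℝ}
    (hx : ∀ w, a ≤ normAtPlace w x) (hv : ‖v‖ ≤ a / 2) (w : InfinitePlace K) :
    a / 2 ≤ normAtPlace w (x + v) := by
  have := (abs_le.mp (abs_normAtPlace_add_sub_le w x v)).1
  linarith [hx w]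

theorem norm_ne_zero_of_le_normAtPlace {x : mixedSpace K} {a : ℝ} (ha : 0 < a)
    (hx : ∀ w, a ≤ normAtPlace w x) : mixedEmbedding.norm x ≠ 0 :=
  mixedEmbedding.norm_ne_zero_iff.mpr fun w => (ha.trans_le (hx w)).ne'

theorem abs_log_norm_add_sub_le {x v : mixedSpace K} {a : ℝ} (ha : 0 < a)
    (hx : ∀ w, a ≤ normAtPlace w x) (hv : ‖v‖ ≤ a / 2) :
    |Real.log (mixedEmbedding.norm (x + v)) - Real.log (mixedEmbedding.norm x)|
      ≤ (finrank ℚ K : ℝ) * (2 * ‖v‖ / a) := by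
  have hn := norm_ne_zero_of_le_normAtPlace ha hx
  have hn' : mixedEmbedding.norm (x + v) ≠ 0 :=
    norm_ne_zero_of_le_normAtPlace (half_pos ha) (le_normAtPlace_add hx hv)
  rw [← sum_mult_mul_log_normAtPlace hn, ← sum_mult_mul_log_normAtPlace hn',
    ← Finset.sum_sub_distrib]
  refine (Finset.abs_sum_le_sum_abs _ _).trans ?_
  have : ∀ w ∈ (Finset.univ : Finset (InfinitePlace K)),
      |(mult w : ℝ) * Real.log (normAtPlace w (x + v)) - (mult w : ℝ) * Real.log (normAtPlace w x)|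
        ≤ (mult w : ℝ) * (2 * ‖v‖ / a) := by
    intro w _
    rw [← mul_sub, abs_mul, abs_of_nonneg (by positivity : (0:ℝ) ≤ (mult w : ℝ))]
    exact mul_le_mul_of_nonneg_left (abs_log_normAtPlace_add_sub_le ha hx hv w) (by positivity)
  refine (Finset.sum_le_sum this).trans ?_
  rw [← Finset.sum_mul, ← Nat.cast_sum, sum_mult_eq]

theorem norm_logMap_add_sub_le {x v : mixedSpace K} {a : ℝ} (ha : 0 < a)
    (hx : ∀ w, a ≤ normAtPlace w x) (hv : ‖v‖ ≤ a / 2) :
    ‖logMap (x + v) - logMap x‖ ≤ 8 * ‖v‖ / a := by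
  have hd : (0 : ℝ) < finrank ℚ K := Nat.cast_pos.mpr finrank_pos
  have h8 : 0 ≤ 8 * ‖v‖ / a := by positivity
  rw [pi_norm_le_iff_of_nonneg h8]
  intro w
  rw [Pi.sub_apply, logMap_apply, logMap_apply, ← mul_sub, Real.norm_eq_abs, abs_mul,
    abs_of_nonneg (by positivity : (0:ℝ) ≤ (mult w.val : ℝ))]
  have h1 := abs_log_normAtPlace_add_sub_le ha hx hv w.val
  have h2 := abs_log_norm_add_sub_le ha hx hv
  have h3 : |(Real.log (normAtPlace w.val (x + v)) -
        Real.log (mixedEmbedding.norm (x + v)) * (finrank ℚ K : ℝ)⁻¹) -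
      (Real.log (normAtPlace w.val x) - Real.log (mixedEmbedding.norm x) * (finrank ℚ K : ℝ)⁻¹)|
      ≤ 2 * ‖v‖ / a + 2 * ‖v‖ / a := by
    have e : (Real.log (normAtPlace w.val (x + v)) -
        Real.log (mixedEmbedding.norm (x + v)) * (finrank ℚ K : ℝ)⁻¹) -
      (Real.log (normAtPlace w.val x) - Real.log (mixedEmbedding.norm x) * (finrank ℚ K : ℝ)⁻¹)
      = (Real.log (normAtPlace w.val (x + v)) - Real.log (normAtPlace w.val x)) -
        (Real.log (mixedEmbedding.norm (x + v)) - Real.log (mixedEmbedding.norm x))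
          * (finrank ℚ K : ℝ)⁻¹ := by ring
    rw [e]
    refine (abs_sub _ _).trans (add_le_add h1 ?_)
    rw [abs_mul, abs_of_nonneg (inv_nonneg.mpr hd.le), ← div_eq_mul_inv, div_le_iff₀ hd]
    linarith
  calc (mult w.val : ℝ) * _ ≤ 2 * (2 * ‖v‖ / a + 2 * ‖v‖ / a) :=
        mul_le_mul (mult_le_two _) h3 (abs_nonneg _) (by norm_num)
    _ = 8 * ‖v‖ / a := by ring


theorem F_def (s : ℝ) (x : mixedSpace K) : F K s x = psi K x * (mixedEmbedding.norm x) ^ (-s) := rfl

theorem F_eq_zero_of_psi_eq_zero {s : ℝ} {x : mixedSpace K} (h : psi K x = 0) : F K s x = 0 := by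
  rw [F_def, h, zero_mul]

/-- One-sided shift estimate, in terms of `a` with `a ≤ normAtPlace w x` for all `w`. -/
theorem abs_F_add_sub_le_of_le_normAtPlace {Lp : ℝ} (hLp0 : 0 ≤ Lp)
    (hLp : ∀ y y' : logSpace K, |psi0 K y - psi0 K y'| ≤ Lp * ‖y - y'‖)
    {x v : mixedSpace K} {a s : ℝ} (hs1 : 1 ≤ s) (hs2 : s ≤ 2)
    (hx : ∀ w, a ≤ normAtPlace w x) (ha1 : 1 ≤ a)
    (hav : 4 * (finrank ℚ K : ℝ) * ‖v‖ ≤ a) :
    |F K s (x + v) - F K s x|
      ≤ (24 * Lp + 8 * (finrank ℚ K : ℝ)) * ‖v‖ * (a ^ (finrank ℚ K + 1))⁻¹ := by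
  have ha : 0 < a := lt_of_lt_of_le one_pos ha1
  have hd1 : (1 : ℝ) ≤ finrank ℚ K := by exact_mod_cast (finrank_pos : 0 < finrank ℚ K)
  have hv : ‖v‖ ≤ a / 2 := by nlinarith [norm_nonneg v]
  have hn : mixedEmbedding.norm x ≠ 0 := norm_ne_zero_of_le_normAtPlace ha hx
  have hn' : mixedEmbedding.norm (x + v) ≠ 0 :=
    norm_ne_zero_of_le_normAtPlace (half_pos ha) (le_normAtPlace_add hx hv)
  set n := mixedEmbedding.norm x with hndef
  set n' := mixedEmbedding.norm (x + v) with hn'def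
  have hnpos : 0 < n := lt_of_le_of_ne (mixedEmbedding.norm_nonneg x) (Ne.symm hn)
  have hn'pos : 0 < n' := lt_of_le_of_ne (mixedEmbedding.norm_nonneg _) (Ne.symm hn')
  -- the norm of `x` is at least `a ^ d ≥ 1`
  have hna : a ^ (finrank ℚ K) ≤ n := pow_le_norm_of_le_normAtPlace ha.le hx
  have hn1 : 1 ≤ n := (one_le_pow₀ ha1).trans hna
  -- `psi` difference
  have hpsi : |psi K (x + v) - psi K x| ≤ Lp * (8 * ‖v‖ / a) := by
    rw [psi_eq_of_norm_ne_zero hn, psi_eq_of_norm_ne_zero hn']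
    exact (hLp _ _).trans (mul_le_mul_of_nonneg_left (norm_logMap_add_sub_le ha hx hv) hLp0)
  -- `Δ = log n' - log n`
  set Δ := Real.log n' - Real.log n with hΔ
  have hΔle : |Δ| ≤ (finrank ℚ K : ℝ) * (2 * ‖v‖ / a) := abs_log_norm_add_sub_le ha hx hv
  have hsΔ : |(-s) * Δ| ≤ 4 * (finrank ℚ K : ℝ) * ‖v‖ / a := by
    rw [abs_mul, abs_neg, abs_of_nonneg (by linarith : 0 ≤ s)]
    calc s * |Δ| ≤ 2 * ((finrank ℚ K : ℝ) * (2 * ‖v‖ / a)) :=
          mul_le_mul hs2 hΔle (abs_nonneg _) (by norm_num)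
      _ = 4 * (finrank ℚ K : ℝ) * ‖v‖ / a := by ring
  have hsΔ1 : |(-s) * Δ| ≤ 1 := hsΔ.trans (by rw [div_le_one ha]; exact hav)
  -- `n' ^ (-s) = n ^ (-s) * exp (-s Δ)`
  have hpow : n' ^ (-s) = n ^ (-s) * Real.exp ((-s) * Δ) := by
    rw [Real.rpow_def_of_pos hn'pos, Real.rpow_def_of_pos hnpos, ← Real.exp_add]
    congr 1; rw [hΔ]; ring
  have hnsnonneg : 0 ≤ n ^ (-s) := Real.rpow_nonneg hnpos.le _
  have hns : n ^ (-s) ≤ (a ^ (finrank ℚ K))⁻¹ := by
    have h1 : n ^ (-s) ≤ n ^ (-(1:ℝ)) :=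
      Real.rpow_le_rpow_of_exponent_le hn1 (by linarith)
    rw [Real.rpow_neg_one] at h1
    exact h1.trans (inv_anti₀ (pow_pos ha _) hna)
  have hexp1 : |Real.exp ((-s) * Δ) - 1| ≤ 2 * (4 * (finrank ℚ K : ℝ) * ‖v‖ / a) :=
    (Real.abs_exp_sub_one_le hsΔ1).trans (by linarith)
  have hexp3 : Real.exp ((-s) * Δ) ≤ 3 := by
    have h := (abs_le.mp (Real.abs_exp_sub_one_le hsΔ1)).2
    have : 2 * |(-s) * Δ| ≤ 2 := by linarith
    linarith
  have hn's : n' ^ (-s) ≤ 3 * n ^ (-s) := by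
    rw [hpow, mul_comm]; exact mul_le_mul_of_nonneg_right hexp3 hnsnonneg
  have hdiff : |n' ^ (-s) - n ^ (-s)| ≤ n ^ (-s) * (8 * (finrank ℚ K : ℝ) * ‖v‖ / a) := by
    rw [hpow, ← mul_sub_one, abs_mul, abs_of_nonneg hnsnonneg]
    exact mul_le_mul_of_nonneg_left (hexp1.trans (by ring_nf; rfl)) hnsnonneg
  -- assemble
  have hsplit : F K s (x + v) - F K s x
      = (psi K (x + v) - psi K x) * n' ^ (-s) + psi K x * (n' ^ (-s) - n ^ (-s)) := by
    rw [F_def, F_def]; ring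
  rw [hsplit]
  refine (abs_add_le _ _).trans ?_
  rw [abs_mul, abs_mul, abs_of_nonneg (Real.rpow_nonneg hn'pos.le _),
    abs_of_nonneg (psi_nonneg x)]
  have hA : |psi K (x + v) - psi K x| * n' ^ (-s) ≤ Lp * (8 * ‖v‖ / a) * (3 * n ^ (-s)) :=
    mul_le_mul hpsi hn's (Real.rpow_nonneg hn'pos.le _) (by positivity)
  have hB : psi K x * |n' ^ (-s) - n ^ (-s)| ≤ n ^ (-s) * (8 * (finrank ℚ K : ℝ) * ‖v‖ / a) :=
    (mul_le_of_le_one_left (abs_nonneg _) (psi_le_one x)).trans hdiff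
  have hfinal : Lp * (8 * ‖v‖ / a) * (3 * n ^ (-s)) + n ^ (-s) * (8 * (finrank ℚ K : ℝ) * ‖v‖ / a)
      = (24 * Lp + 8 * (finrank ℚ K : ℝ)) * ‖v‖ * (n ^ (-s) * a⁻¹) := by
    rw [div_eq_mul_inv, div_eq_mul_inv]; ring
  have hlast : n ^ (-s) * a⁻¹ ≤ (a ^ (finrank ℚ K + 1))⁻¹ := by
    rw [pow_succ, mul_inv]
    exact mul_le_mul_of_nonneg_right hns (inv_nonneg.mpr ha.le)
  calc _ ≤ Lp * (8 * ‖v‖ / a) * (3 * n ^ (-s)) + n ^ (-s) * (8 * (finrank ℚ K : ℝ) * ‖v‖ / a) :=
        add_le_add hA hB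
    _ = (24 * Lp + 8 * (finrank ℚ K : ℝ)) * ‖v‖ * (n ^ (-s) * a⁻¹) := hfinal
    _ ≤ (24 * Lp + 8 * (finrank ℚ K : ℝ)) * ‖v‖ * (a ^ (finrank ℚ K + 1))⁻¹ :=
        mul_le_mul_of_nonneg_left hlast (by positivity)


/-- One-sided shift estimate in terms of `‖x‖`. -/
theorem abs_F_add_sub_le_of_psi_ne_zero {Lp c : ℝ} (hLp0 : 0 ≤ Lp)
    (hLp : ∀ y y' : logSpace K, |psi0 K y - psi0 K y'| ≤ Lp * ‖y - y'‖) (hc0 : 0 < c)
    (hc : ∀ x : mixedSpace K, psi K x ≠ 0 → ∀ w, c * ‖x‖ ≤ normAtPlace w x)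
    {x u : mixedSpace K} {s : ℝ} (hs1 : 1 ≤ s) (hs2 : s ≤ 2) (hpx : psi K x ≠ 0)
    (hRx : max 1 (4 * (finrank ℚ K : ℝ) * ‖u‖) / c ≤ ‖x‖) :
    |F K s (x + u) - F K s x| ≤ (24 * Lp + 8 * (finrank ℚ K : ℝ)) * ‖u‖ *
      (c ^ (finrank ℚ K + 1))⁻¹ * (‖x‖ ^ (finrank ℚ K + 1))⁻¹ := by
  have hax : max 1 (4 * (finrank ℚ K : ℝ) * ‖u‖) ≤ c * ‖x‖ := by
    rw [div_le_iff₀ hc0] at hRx; linarith
  have := abs_F_add_sub_le_of_le_normAtPlace hLp0 hLp (x := x) (v := u) (a := c * ‖x‖)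
    hs1 hs2 (hc x hpx) ((le_max_left _ _).trans hax) ((le_max_right _ _).trans hax)
  refine this.trans (le_of_eq ?_)
  rw [mul_pow, mul_inv]; ring

variable (K) in
/-- **Shift estimate.** -/
theorem shift_estimate (v : mixedSpace K) : ∃ C R : ℝ, 0 ≤ C ∧ 0 < R ∧
    ∀ s : ℝ, 1 ≤ s → s ≤ 2 → ∀ x : mixedSpace K, R ≤ ‖x‖ →
      |F K s (x + v) - F K s x| ≤ C * (‖x‖ ^ (finrank ℚ K + 1))⁻¹ := by
  obtain ⟨Lp, hLp0, hLp⟩ := psi0_lipschitz K
  obtain ⟨c, hc0, hc1, hc⟩ := exists_comparable K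
  have hA1 : (1 : ℝ) ≤ max 1 (4 * (finrank ℚ K : ℝ) * ‖v‖) := le_max_left _ _
  have hR₁pos : 0 < max 1 (4 * (finrank ℚ K : ℝ) * ‖v‖) / c :=
    div_pos (lt_of_lt_of_le one_pos hA1) hc0
  have hC₁0 : 0 ≤ (24 * Lp + 8 * (finrank ℚ K : ℝ)) * ‖v‖ * (c ^ (finrank ℚ K + 1))⁻¹ := by
    positivity
  refine ⟨(24 * Lp + 8 * (finrank ℚ K : ℝ)) * ‖v‖ * (c ^ (finrank ℚ K + 1))⁻¹ *
      2 ^ (finrank ℚ K + 1),
    2 * (max 1 (4 * (finrank ℚ K : ℝ) * ‖v‖) / c) + 2 * ‖v‖, by positivity, by positivity,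
    fun s hs1 hs2 x hx => ?_⟩
  have hxpos : 0 < ‖x‖ := lt_of_lt_of_le (by positivity) hx
  by_cases hpx : psi K x = 0
  · by_cases hpxv : psi K (x + v) = 0
    · rw [F_eq_zero_of_psi_eq_zero hpx, F_eq_zero_of_psi_eq_zero hpxv, sub_zero, abs_zero]
      positivity
    · -- apply the one-sided estimate at `x + v` with shift `-v`
      have hnorm : ‖x‖ / 2 ≤ ‖x + v‖ := by
        have := norm_sub_norm_le x (-v)
        rw [sub_neg_eq_add, norm_neg] at this
        linarith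
      have hR : max 1 (4 * (finrank ℚ K : ℝ) * ‖-v‖) / c ≤ ‖x + v‖ := by
        rw [norm_neg]; linarith [norm_nonneg v]
      have h := abs_F_add_sub_le_of_psi_ne_zero hLp0 hLp hc0 hc hs1 hs2 hpxv hR
      rw [add_neg_cancel_right, abs_sub_comm, norm_neg] at h
      exact h.trans (mul_inv_pow_le_of_half_le _ hC₁0 hxpos hnorm)
  · have hR : max 1 (4 * (finrank ℚ K : ℝ) * ‖v‖) / c ≤ ‖x‖ := by linarith [norm_nonneg v]
    have h := abs_F_add_sub_le_of_psi_ne_zero hLp0 hLp hc0 hc hs1 hs2 hpx hR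
    exact h.trans (le_mul_two_pow _ hC₁0 (by positivity))


theorem finite_lattice_norm_lt (L : Submodule ℤ (mixedSpace K)) [DiscreteTopology L] (R : ℝ) :
    {l : L | ‖(l : mixedSpace K)‖ < R}.Finite := by
  have H : IsClosed (X := mixedSpace K) L := @AddSubgroup.isClosed_of_discrete _ _ _ _ _
    L.toAddSubgroup (inferInstanceAs (DiscreteTopology L))
  refine ((Metric.finite_isBounded_inter_isClosed DiscreteTopology.isDiscrete
    (Metric.isBounded_closedBall (x := (0 : mixedSpace K)) (r := R)) H).preimage_embedding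
    (.subtype _)).subset ?_
  intro l hl
  simp only [Set.mem_ofPred_eq] at hl
  simp only [Function.Embedding.subtype_apply, Set.mem_preimage, Set.mem_inter_iff,
    Metric.mem_closedBall, dist_zero_right, SetLike.mem_coe, SetLike.coe_mem, and_true]
  exact hl.le

/-- **Shifted lattice sums.** For a full lattice `L` of the mixed space and a shift `v`, the sums
`∑_{l ∈ L} |F s (l + v) - F s l|` are bounded uniformly in `s ∈ [1, 2]` (assuming the values of
`F s` at the points `l` and `l + v` are bounded by `1`, which holds at integral points). -/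
theorem shift_sum_bounded (L : Submodule ℤ (mixedSpace K)) [DiscreteTopology L] [IsZLattice ℝ L]
    (v : mixedSpace K)
    (hb : ∀ l : L, ∀ s : ℝ, 1 ≤ s → s ≤ 2 →
      |F K s ((l : mixedSpace K) + v)| ≤ 1 ∧ |F K s (l : mixedSpace K)| ≤ 1) :
    ∃ B : ℝ, ∀ s : ℝ, 1 ≤ s → s ≤ 2 →
      Summable (fun l : L => |F K s ((l : mixedSpace K) + v) - F K s (l : mixedSpace K)|) ∧
      ∑' l : L, |F K s ((l : mixedSpace K) + v) - F K s (l : mixedSpace K)| ≤ B := by
  obtain ⟨C, R, hC0, hR0, hCR⟩ := shift_estimate K v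
  have hrank : finrank ℤ L = finrank ℚ K := by
    rw [ZLattice.rank ℝ L, mixedEmbedding.finrank]
  set r : ℝ := -((finrank ℚ K + 1 : ℕ) : ℝ) with hr
  have hrlt : r < -(finrank ℤ L : ℝ) := by
    rw [hr, hrank]; push_cast; linarith
  have hfin := finite_lattice_norm_lt L R
  set h : L → ℝ := fun l => C * ‖(l : mixedSpace K)‖ ^ r +
    Set.indicator {l : L | ‖(l : mixedSpace K)‖ < R} (fun _ => (2 : ℝ)) l with hh
  have hsum1 : Summable fun l : L => C * ‖(l : mixedSpace K)‖ ^ r := by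
    have := (ZLattice.summable_norm_rpow L r hrlt).mul_left C
    simpa using this
  have hsum2 : Summable (Set.indicator {l : L | ‖(l : mixedSpace K)‖ < R}
      (fun _ => (2 : ℝ))) := by
    apply summable_of_hasFiniteSupport
    exact hfin.subset (fun l hl => by
      by_contra hcon
      exact hl (Set.indicator_of_notMem hcon _))
  have hsumh : Summable h := hsum1.add hsum2
  have hle : ∀ s : ℝ, 1 ≤ s → s ≤ 2 → ∀ l : L,
      |F K s ((l : mixedSpace K) + v) - F K s (l : mixedSpace K)| ≤ h l := by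
    intro s hs1 hs2 l
    by_cases hl : ‖(l : mixedSpace K)‖ < R
    · have h1 := hb l s hs1 hs2
      have h2 : |F K s ((l : mixedSpace K) + v) - F K s (l : mixedSpace K)| ≤ 2 := by
        refine (abs_sub _ _).trans ?_
        linarith [h1.1, h1.2]
      have h3 : 0 ≤ C * ‖(l : mixedSpace K)‖ ^ r :=
        mul_nonneg hC0 (Real.rpow_nonneg (norm_nonneg _) _)
      simp only [hh, Set.indicator_of_mem (show l ∈ {l : L | ‖(l : mixedSpace K)‖ < R} from hl)]
      linarith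
    · have hRl : R ≤ ‖(l : mixedSpace K)‖ := not_lt.mp hl
      have h1 := hCR s hs1 hs2 (l : mixedSpace K) hRl
      have h2 : (‖(l : mixedSpace K)‖ ^ (finrank ℚ K + 1))⁻¹ = ‖(l : mixedSpace K)‖ ^ r := by
        rw [hr, Real.rpow_neg (norm_nonneg _), Real.rpow_natCast]
      rw [h2] at h1
      simp only [hh, Set.indicator_of_notMem (show l ∉ {l : L | ‖(l : mixedSpace K)‖ < R} from hl),
        add_zero]
      exact h1
  refine ⟨∑' l : L, h l, fun s hs1 hs2 => ?_⟩
  have hsummable : Summable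
      (fun l : L => |F K s ((l : mixedSpace K) + v) - F K s (l : mixedSpace K)|) :=
    Summable.of_nonneg_of_le (fun l => abs_nonneg _) (hle s hs1 hs2) hsumh
  exact ⟨hsummable, hsummable.tsum_le_tsum (hle s hs1 hs2) hsumh⟩


end mixed

end Fermat.Agent.S14.ZetaShift
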