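import Fermat.Agent.S14.ZetaShiftTent

/-!
# S14 / analytic block: the Lipschitz fundamental-domain weight on `logSpace K`

`psi0 K y = ∏ i, tent (c_i y)` where `c_i` are the coordinates of `y` in the basis of the unit
lattice.  It is a Lipschitz partition of unity for the translation action of `unitLattice K`.
-/

set_option autoImplicit false

open NumberField NumberField.mixedEmbedding NumberField.Units
  NumberField.Units.dirichletUnitTheorem Module

namespace Fermat.Agent.S14.ZetaShift

variable (K : Type*) [Field K] [NumberField K]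

open scoped Classical in
/-- The `ℝ`-basis of `logSpace K` given by a `ℤ`-basis of the unit lattice. -/
noncomputable def logBasis : Basis (Fin (rank K)) ℝ (logSpace K) :=
  (basisUnitLattice K).ofZLatticeBasis ℝ (unitLattice K)

open scoped Classical in
theorem logBasis_repr_coe (l : unitLattice K) (i : Fin (rank K)) :
    (logBasis K).repr (l : logSpace K) i = ((basisUnitLattice K).repr l i : ℤ) := by
  unfold logBasis
  rw [Basis.ofZLatticeBasis_repr_apply]

/-- The weight on `logSpace K`. -/
noncomputable def psi0 (y : logSpace K) : ℝ :=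
  tentProd (fun i => (logBasis K).repr y i)

theorem psi0_nonneg (y : logSpace K) : 0 ≤ psi0 K y := tentProd_nonneg _

theorem psi0_le_one (y : logSpace K) : psi0 K y ≤ 1 := tentProd_le_one _

/-- Partition of unity: `∑_{l ∈ unitLattice} psi0 (y + l) = 1`. -/
theorem hasSum_psi0 (y : logSpace K) :
    HasSum (fun l : unitLattice K => psi0 K (y + l)) 1 := by
  have h := hasSum_tentProd (fun i => (logBasis K).repr y i)
  rw [← (basisUnitLattice K).equivFun.toEquiv.hasSum_iff] at h
  convert h using 1
  funext l
  simp only [Function.comp_apply, psi0]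
  congr 1
  funext i
  rw [map_add, Finsupp.add_apply, logBasis_repr_coe]
  rfl

open scoped Classical in
/-- `psi0` is Lipschitz. -/
theorem psi0_lipschitz : ∃ L : ℝ, 0 ≤ L ∧ ∀ y y' : logSpace K,
    |psi0 K y - psi0 K y'| ≤ L * ‖y - y'‖ := by
  let φ : Fin (rank K) → (logSpace K →L[ℝ] ℝ) := fun i =>
    LinearMap.toContinuousLinearMap ((logBasis K).coord i)
  refine ⟨∑ i, ‖φ i‖, Finset.sum_nonneg fun i _ => norm_nonneg _, fun y y' => ?_⟩
  refine (tentProd_lipschitz _ _).trans ?_
  rw [Finset.sum_mul]
  refine Finset.sum_le_sum fun i _ => ?_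
  have h1 : (logBasis K).repr y i - (logBasis K).repr y' i = φ i (y - y') := by
    simp [φ, map_sub]
  rw [h1, ← Real.norm_eq_abs]
  exact (φ i).le_opNorm _

open scoped Classical in
/-- `psi0` has bounded support. -/
theorem psi0_support : ∃ R : ℝ, 0 ≤ R ∧ ∀ y : logSpace K, psi0 K y ≠ 0 → ‖y‖ ≤ R := by
  refine ⟨∑ i, ‖logBasis K i‖, Finset.sum_nonneg fun i _ => norm_nonneg _, fun y hy => ?_⟩
  have hlt : ∀ i, |(logBasis K).repr y i| < 1 := abs_lt_one_of_tentProd_ne_zero hy
  conv_lhs => rw [← (logBasis K).sum_repr y]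
  refine (norm_sum_le _ _).trans (Finset.sum_le_sum fun i _ => ?_)
  rw [_root_.norm_smul, Real.norm_eq_abs]
  exact mul_le_of_le_one_left (norm_nonneg _) (hlt i).le

end Fermat.Agent.S14.ZetaShift
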