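import Mathlib

/-!
# S14 / analytic block: the tent partition of unity

`tent t = max 0 (1 - |t|)`; `∑_{n ∈ ℤ} tent (t + n) = 1`; product weights on `ι → ℝ`:
`tentProd c = ∏ i, tent (c i)` with `∑_{n : ι → ℤ} tentProd (c + n) = 1`, Lipschitz, support in
the open unit cube.
-/

set_option autoImplicit false

namespace Fermat.Agent.S14.ZetaShift

/-- The tent function. -/
noncomputable def tent (t : ℝ) : ℝ := max 0 (1 - |t|)

theorem tent_nonneg (t : ℝ) : 0 ≤ tent t := le_max_left _ _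

theorem tent_le_one (t : ℝ) : tent t ≤ 1 := by
  unfold tent
  exact max_le zero_le_one (by linarith [abs_nonneg t])

theorem tent_eq_zero_of_one_le_abs {t : ℝ} (h : 1 ≤ |t|) : tent t = 0 := by
  unfold tent
  exact max_eq_left (by linarith)

theorem abs_lt_one_of_tent_ne_zero {t : ℝ} (h : tent t ≠ 0) : |t| < 1 := by
  by_contra h'
  exact h (tent_eq_zero_of_one_le_abs (not_lt.mp h'))

theorem tent_of_abs_le_one {t : ℝ} (h : |t| ≤ 1) : tent t = 1 - |t| := by
  unfold tent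
  exact max_eq_right (by linarith)

theorem tent_lipschitz (a b : ℝ) : |tent a - tent b| ≤ |a - b| := by
  unfold tent
  have h1 : |max 0 (1 - |a|) - max 0 (1 - |b|)| ≤ |(1 - |a|) - (1 - |b|)| := by
    have := abs_max_sub_max_le_abs (1 - |a|) (1 - |b|) (0 : ℝ)
    rwa [max_comm (1 - |a|) 0, max_comm (1 - |b|) 0] at this
  refine h1.trans ?_
  have : (1 - |a|) - (1 - |b|) = |b| - |a| := by ring
  rw [this, abs_sub_comm a b]
  exact abs_abs_sub_abs_le_abs_sub b a

/-- `∑_{n ∈ ℤ} tent (t + n) = 1`. -/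
theorem hasSum_tent (t : ℝ) : HasSum (fun n : ℤ => tent (t + n)) 1 := by
  classical
  set n0 : ℤ := -⌊t⌋ with hn0
  set n1 : ℤ := -⌊t⌋ - 1 with hn1
  have hne : n0 ≠ n1 := by omega
  have hfr0 : t + (n0 : ℝ) = Int.fract t := by
    rw [hn0]; push_cast; rw [Int.fract]; ring
  have hfr1 : t + (n1 : ℝ) = Int.fract t - 1 := by
    rw [hn1]; push_cast; rw [Int.fract]; ring
  have h0 : tent (t + n0) = 1 - Int.fract t := by
    rw [hfr0, tent_of_abs_le_one, abs_of_nonneg (Int.fract_nonneg t)]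
    rw [abs_of_nonneg (Int.fract_nonneg t)]
    exact (Int.fract_lt_one t).le
  have h1 : tent (t + n1) = Int.fract t := by
    have hneg : Int.fract t - 1 ≤ 0 := by linarith [Int.fract_lt_one t]
    rw [hfr1, tent_of_abs_le_one, abs_of_nonpos hneg]
    · ring
    · rw [abs_of_nonpos hneg]; linarith [Int.fract_nonneg t]
  have hsum : ∑ n ∈ ({n0, n1} : Finset ℤ), tent (t + n) = 1 := by
    rw [Finset.sum_pair hne, h0, h1]; ring
  rw [← hsum]
  refine hasSum_sum_of_ne_finset_zero ?_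
  intro n hn
  simp only [Finset.mem_insert, Finset.mem_singleton, not_or] at hn
  apply tent_eq_zero_of_one_le_abs
  -- `t + n = fract t + (n - n0)` with `n - n0 ∉ {0, -1}`
  have hdec : t + (n : ℝ) = Int.fract t + ((n - n0 : ℤ) : ℝ) := by
    rw [hn0]; push_cast; rw [Int.fract]; ring
  rw [hdec]
  have hk : (n - n0 : ℤ) ≠ 0 := sub_ne_zero.mpr hn.1
  have hk' : (n - n0 : ℤ) ≠ -1 := by
    intro h; apply hn.2; omega
  rcases lt_or_gt_of_ne hk with hlt | hgt
  · have : (n - n0 : ℤ) ≤ -2 := by omega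
    have hc : ((n - n0 : ℤ) : ℝ) ≤ -2 := by exact_mod_cast this
    rw [abs_of_nonpos (by linarith [Int.fract_lt_one t])]
    linarith [Int.fract_lt_one t]
  · have : (1 : ℤ) ≤ (n - n0 : ℤ) := by omega
    have hc : (1 : ℝ) ≤ ((n - n0 : ℤ) : ℝ) := by exact_mod_cast this
    rw [abs_of_nonneg (by linarith [Int.fract_nonneg t])]
    linarith [Int.fract_nonneg t]

section prod

variable {ι : Type*} [Fintype ι]

/-- Product of tent functions. -/
noncomputable def tentProd (c : ι → ℝ) : ℝ := ∏ i, tent (c i)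

theorem tentProd_nonneg (c : ι → ℝ) : 0 ≤ tentProd c :=
  Finset.prod_nonneg fun i _ => tent_nonneg (c i)

theorem tentProd_le_one (c : ι → ℝ) : tentProd c ≤ 1 :=
  Finset.prod_le_one (fun i _ => tent_nonneg (c i)) fun i _ => tent_le_one (c i)

theorem abs_lt_one_of_tentProd_ne_zero {c : ι → ℝ} (h : tentProd c ≠ 0) (i : ι) : |c i| < 1 := by
  apply abs_lt_one_of_tent_ne_zero
  intro h0
  exact h (Finset.prod_eq_zero (Finset.mem_univ i) h0)

/-- Telescoping bound for products of numbers in `[0,1]`. -/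
theorem abs_prod_sub_prod_le {α : Type*} (s : Finset α) (a b : α → ℝ)
    (ha : ∀ i ∈ s, 0 ≤ a i ∧ a i ≤ 1) (hb : ∀ i ∈ s, 0 ≤ b i ∧ b i ≤ 1) :
    |∏ i ∈ s, a i - ∏ i ∈ s, b i| ≤ ∑ i ∈ s, |a i - b i| := by
  classical
  induction s using Finset.induction_on with
  | empty => simp
  | insert j s hj ih =>
    rw [Finset.prod_insert hj, Finset.prod_insert hj, Finset.sum_insert hj]
    have ha' : ∀ i ∈ s, 0 ≤ a i ∧ a i ≤ 1 := fun i hi => ha i (Finset.mem_insert_of_mem hi)
    have hb' : ∀ i ∈ s, 0 ≤ b i ∧ b i ≤ 1 := fun i hi => hb i (Finset.mem_insert_of_mem hi)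
    have hA : 0 ≤ ∏ i ∈ s, a i ∧ ∏ i ∈ s, a i ≤ 1 :=
      ⟨Finset.prod_nonneg fun i hi => (ha' i hi).1,
        Finset.prod_le_one (fun i hi => (ha' i hi).1) fun i hi => (ha' i hi).2⟩
    have hbj := hb j (Finset.mem_insert_self j s)
    have key : a j * ∏ i ∈ s, a i - b j * ∏ i ∈ s, b i
        = (a j - b j) * ∏ i ∈ s, a i + b j * (∏ i ∈ s, a i - ∏ i ∈ s, b i) := by ring
    rw [key]
    refine (abs_add_le _ _).trans ?_
    rw [abs_mul, abs_mul]
    have h1 : |a j - b j| * |∏ i ∈ s, a i| ≤ |a j - b j| := by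
      rw [abs_of_nonneg hA.1]
      exact mul_le_of_le_one_right (abs_nonneg _) hA.2
    have h2 : |b j| * |∏ i ∈ s, a i - ∏ i ∈ s, b i| ≤ ∑ i ∈ s, |a i - b i| := by
      rw [abs_of_nonneg hbj.1]
      exact (mul_le_of_le_one_left (abs_nonneg _) hbj.2).trans (ih ha' hb')
    linarith

theorem tentProd_lipschitz (c c' : ι → ℝ) :
    |tentProd c - tentProd c'| ≤ ∑ i, |c i - c' i| := by
  unfold tentProd
  refine (abs_prod_sub_prod_le Finset.univ _ _ (fun i _ => ⟨tent_nonneg _, tent_le_one _⟩)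
    (fun i _ => ⟨tent_nonneg _, tent_le_one _⟩)).trans ?_
  exact Finset.sum_le_sum fun i _ => tent_lipschitz _ _

/-- `∑_{n : ι → ℤ} tentProd (c + n) = 1`. -/
theorem hasSum_tentProd (c : ι → ℝ) :
    HasSum (fun n : ι → ℤ => tentProd (fun i => c i + n i)) 1 := by
  classical
  let S : ι → Finset ℤ := fun i => {-⌊c i⌋, -⌊c i⌋ - 1}
  have hS : ∀ i, ∑ n ∈ S i, tent (c i + n) = 1 := by
    intro i
    have h := hasSum_tent (c i)
    have hz : ∀ n ∉ S i, tent (c i + (n : ℝ)) = 0 := by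
      intro n hn
      by_contra hne
      have hlt := abs_lt_one_of_tent_ne_zero hne
      simp only [S, Finset.mem_insert, Finset.mem_singleton, not_or] at hn
      rw [abs_lt] at hlt
      have h1 : (⌊c i⌋ : ℝ) ≤ c i := Int.floor_le _
      have h2 : c i < ⌊c i⌋ + 1 := Int.lt_floor_add_one _
      have h3 : (-(⌊c i⌋ : ℝ) - 2) < n := by linarith [hlt.1]
      have h4 : (n : ℝ) < -(⌊c i⌋ : ℝ) + 1 := by linarith [hlt.2]
      have h3' : -⌊c i⌋ - 2 < n := by exact_mod_cast h3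
      have h4' : n < -⌊c i⌋ + 1 := by exact_mod_cast h4
      omega
    exact (hasSum_sum_of_ne_finset_zero hz).unique h
  have hprod : ∑ n ∈ Fintype.piFinset S, tentProd (fun i => c i + n i) = 1 := by
    unfold tentProd
    have := Finset.prod_univ_sum S (fun i (n : ℤ) => tent (c i + n))
    simp only [hS, Finset.prod_const_one] at this
    exact this.symm
  rw [← hprod]
  refine hasSum_sum_of_ne_finset_zero ?_
  intro n hn
  rw [Fintype.mem_piFinset, not_forall] at hn
  obtain ⟨i, hi⟩ := hn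
  unfold tentProd
  refine Finset.prod_eq_zero (Finset.mem_univ i) ?_
  by_contra hne
  have hlt := abs_lt_one_of_tent_ne_zero hne
  simp only [S, Finset.mem_insert, Finset.mem_singleton, not_or] at hi
  rw [abs_lt] at hlt
  have h1 : (⌊c i⌋ : ℝ) ≤ c i := Int.floor_le _
  have h2 : c i < ⌊c i⌋ + 1 := Int.lt_floor_add_one _
  have h3 : (-(⌊c i⌋ : ℝ) - 2) < n i := by linarith [hlt.1]
  have h4 : (n i : ℝ) < -(⌊c i⌋ : ℝ) + 1 := by linarith [hlt.2]
  have h3' : -⌊c i⌋ - 2 < n i := by exact_mod_cast h3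
  have h4' : n i < -⌊c i⌋ + 1 := by exact_mod_cast h4
  omega

end prod

end Fermat.Agent.S14.ZetaShift
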