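/-
S14 — Block (Z) CLOSED: `zetaSplit : ZetaSplitStatement` (shape of `BlockZProof.lean`) from
helper73's `ZetaSplit.exists_degreeOne_prime_not_split_of_isGalois`, hence `blockZ : BlockZ`.
(adapter: helper43)
-/
import Fermat.Agent.S14.BlockZProof
import Fermat.Agent.S14.ZetaSplit

set_option autoImplicit false

open NumberField

namespace Fermat.Agent.S14.ZetaSplitFinal

/-- The analytic input of block (Z), in the exact shape consumed by `blockZ_of_zetaSplit`. -/
theorem zetaSplit : Fermat.Agent.S14.ZetaSplitStatement := by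
  intro K M _ _ _ _ _ _ hn S
  obtain ⟨Q, hQp, hQ0, hQS, hQn, hns⟩ :=
    ZetaSplit.exists_degreeOne_prime_not_split_of_isGalois K M hn S
  refine ⟨Q, hQp, hQ0, hQS, hQn, fun hall => hns ?_⟩
  have := hQp
  obtain ⟨⟨P, hP1, hP2⟩⟩ := Ideal.nonempty_primesOver (S := 𝓞 M) Q
  have := hP1
  have := hP2
  obtain ⟨he, hf⟩ := hall P hP1 hP2
  have hQmax : Q.IsMaximal := Ring.DimensionLEOne.maximalOfPrime hQ0 hQp
  exact ⟨by rw [Ideal.ramificationIdxIn_eq_ramificationIdx Q P Gal(M/K), he],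
    by rw [Ideal.inertiaDegIn_eq_inertiaDeg Q P Gal(M/K), hf]⟩

/-- **Block (Z)**. -/
theorem blockZ : Fermat.Agent.S14.BlockZ :=
  Fermat.Agent.S14.blockZ_of_zetaSplit zetaSplit

end Fermat.Agent.S14.ZetaSplitFinal
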